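import Fermat.Agent.Kummer.H63_Abstract

set_option autoImplicit false

namespace Fermat.Agent.S14.H63

open Module Submodule Fermat.Agent.Kummer.H63

variable {E : Type*} [AddCommGroup E] {p : ℕ} {σ : Module.End ℤ E}

/-- `σ - 1` as a map into the kernel of the norm. -/
noncomputable def phiTo (hσ : σ ^ p = 1) : E →ₗ[ℤ] normKer p σ :=
  (σ - 1).codRestrict (normKer p σ) (sub_apply_mem_normKer hσ)

/-- The norm as a map into the fixed submodule. -/
noncomputable def normTo (hσ : σ ^ p = 1) : E →ₗ[ℤ] fixedSub σ :=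
  (normEnd p σ).codRestrict (fixedSub σ) (normEnd_apply_mem_fixedSub hσ)

lemma phiTo_apply (hσ : σ ^ p = 1) (x : E) : ((phiTo hσ x : normKer p σ) : E) = σ x - x := rfl

lemma normTo_apply (hσ : σ ^ p = 1) (x : E) : ((normTo hσ x : fixedSub σ) : E) = normEnd p σ x :=
  rfl

lemma ker_phiTo (hσ : σ ^ p = 1) : LinearMap.ker (phiTo hσ) = fixedSub σ := by
  ext x
  rw [LinearMap.mem_ker, mem_fixedSub, ← sub_eq_zero (a := σ x)]
  constructor
  · intro h; simpa [phiTo_apply] using congrArg Subtype.val h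
  · intro h; exact Subtype.ext (by simpa [phiTo_apply] using h)

lemma ker_normTo (hσ : σ ^ p = 1) : LinearMap.ker (normTo hσ) = normKer p σ := by
  ext x
  rw [LinearMap.mem_ker, LinearMap.mem_ker]
  constructor
  · intro h; simpa [normTo_apply] using congrArg Subtype.val h
  · intro h; exact Subtype.ext (by simpa [normTo_apply] using h)

lemma map_phiTo_normKer (hσ : σ ^ p = 1) :
    (normKer p σ).map (phiTo hσ) = LinearMap.range (phiM hσ) := by
  ext y
  constructor
  · rintro ⟨x, hx, rfl⟩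
    exact ⟨⟨x, hx⟩, Subtype.ext rfl⟩
  · rintro ⟨x, rfl⟩
    exact ⟨x.1, x.2, Subtype.ext rfl⟩

lemma map_normTo_fixedSub (hσ : σ ^ p = 1) :
    (fixedSub σ).map (normTo hσ) = LinearMap.range (pF p σ) := by
  ext y
  constructor
  · rintro ⟨x, hx, rfl⟩
    refine ⟨⟨x, hx⟩, Subtype.ext ?_⟩
    rw [normTo_apply, normEnd_apply_of_fixed (mem_fixedSub.mp hx)]
    simp
  · rintro ⟨x, rfl⟩
    refine ⟨x.1, x.2, Subtype.ext ?_⟩
    rw [normTo_apply, normEnd_apply_of_fixed (mem_fixedSub.mp x.2)]
    simp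

/-- The two relative indices agree: both equal `[E : F + M]`. -/
lemma relIndex_eq (hσ : σ ^ p = 1) :
    (LinearMap.range (phiM hσ)).toAddSubgroup.relIndex (LinearMap.range (phiTo hσ)).toAddSubgroup =
    (LinearMap.range (pF p σ)).toAddSubgroup.relIndex (LinearMap.range (normTo hσ)).toAddSubgroup := by
  have h1 := AddSubgroup.relIndex_map_map (phiTo hσ).toAddMonoidHom
    (normKer p σ).toAddSubgroup ⊤
  have h2 := AddSubgroup.relIndex_map_map (normTo hσ).toAddMonoidHom
    (fixedSub σ).toAddSubgroup ⊤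
  have e1 : AddSubgroup.map (phiTo hσ).toAddMonoidHom (normKer p σ).toAddSubgroup =
      (LinearMap.range (phiM hσ)).toAddSubgroup := by
    rw [← map_phiTo_normKer hσ]; rfl
  have e2 : AddSubgroup.map (phiTo hσ).toAddMonoidHom ⊤ =
      (LinearMap.range (phiTo hσ)).toAddSubgroup := by
    ext y; simp
  have e3 : AddSubgroup.map (normTo hσ).toAddMonoidHom (fixedSub σ).toAddSubgroup =
      (LinearMap.range (pF p σ)).toAddSubgroup := by
    rw [← map_normTo_fixedSub hσ]; rfl
  have e4 : AddSubgroup.map (normTo hσ).toAddMonoidHom ⊤ =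
      (LinearMap.range (normTo hσ)).toAddSubgroup := by
    ext y; simp
  have k1 : (phiTo hσ).toAddMonoidHom.ker = (fixedSub σ).toAddSubgroup := by
    rw [← ker_phiTo hσ]; rfl
  have k2 : (normTo hσ).toAddMonoidHom.ker = (normKer p σ).toAddSubgroup := by
    rw [← ker_normTo hσ]; rfl
  rw [e1, e2, k1] at h1
  rw [e3, e4, k2] at h2
  rw [h1, h2, top_sup_eq, top_sup_eq, sup_comm]


/-- **Herbrand inequality** (abstract form): `p * |Ĥ⁰| ≤ |H¹|` for a finitely generated abelian
group with an automorphism of order `p` having the ranks of a unit group in an extension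
of degree `p` unramified at infinity. -/
theorem herbrand_le [Module.Finite ℤ E] [hp : Fact p.Prime] (hσ : σ ^ p = 1)
    (s : ℕ) (hE : finrank ℤ E + 1 = p * s) (hF : finrank ℤ (fixedSub σ) + 1 = s) :
    0 < Nat.card (fixedSub σ ⧸ LinearMap.range (normTo hσ)) ∧
    p * Nat.card (fixedSub σ ⧸ LinearMap.range (normTo hσ)) ≤
      Nat.card (normKer p σ ⧸ LinearMap.range (phiTo hσ)) := by
  have ha := card_quotient_range (phiM hσ) (phiM_torsion hσ)
  have hb := card_quotient_smul (fixedSub σ) p hp.out.ne_zero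
  have hc := card_ker_phiM_eq hσ
  have hrank := finrank_normKer (p := p) hσ
  have hpow := pow_dvd_det_pow (p := p) hσ
  have hfin : Finite (LinearMap.ker (pF p σ)) := by
    apply Module.finite_of_fg_torsion
    rintro ⟨x, hx⟩
    refine ⟨⟨(p : ℤ), mem_nonZeroDivisors_of_ne_zero (by exact_mod_cast hp.out.ne_zero)⟩, ?_⟩
    apply Subtype.ext
    have : pF p σ x = 0 := hx
    rw [Submonoid.smul_def]
    simpa using this
  have hcpos : 0 < Nat.card (LinearMap.ker (pF p σ)) := Nat.card_pos
  -- the determinant is nonzero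
  have hfree : Module.Free ℤ (normKer p σ ⧸ torsion ℤ (normKer p σ)) :=
    Module.free_of_finite_type_torsion_free'
  have hd0 : (LinearMap.det (torsionQuotMap (phiM hσ))).natAbs ≠ 0 := by
    rw [Int.natAbs_ne_zero]
    intro h0
    have := LinearMap.bot_lt_ker_of_det_eq_zero h0
    rw [LinearMap.ker_eq_bot.mpr (torsionQuotMap_injective _ (phiM_torsion hσ))] at this
    exact lt_irrefl _ this
  set d := (LinearMap.det (torsionQuotMap (phiM hσ))).natAbs with hd
  set m := finrank ℤ (normKer p σ) with hm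
  set f := finrank ℤ (fixedSub σ) with hf
  set c := Nat.card (LinearMap.ker (pF p σ)) with hcdef
  rw [hc] at ha
  -- indices
  have i1 := AddSubgroup.relIndex_mul_index
    (H := (LinearMap.range (phiM hσ)).toAddSubgroup)
    (K := (LinearMap.range (phiTo hσ)).toAddSubgroup) (by
      rintro _ ⟨x, rfl⟩
      exact ⟨x.1, Subtype.ext rfl⟩)
  have i2 := AddSubgroup.relIndex_mul_index
    (H := (LinearMap.range (pF p σ)).toAddSubgroup)
    (K := (LinearMap.range (normTo hσ)).toAddSubgroup) (by
      rw [← map_normTo_fixedSub hσ]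
      rintro _ ⟨x, _, rfl⟩
      exact ⟨x, rfl⟩)
  rw [relIndex_eq hσ] at i1
  set r := (LinearMap.range (pF p σ)).toAddSubgroup.relIndex
    (LinearMap.range (normTo hσ)).toAddSubgroup with hr
  have j1 : (LinearMap.range (phiM hσ)).toAddSubgroup.index =
      Nat.card (normKer p σ ⧸ LinearMap.range (phiM hσ)) := by
    rw [AddSubgroup.index_eq_card]; rfl
  have j2 : (LinearMap.range (phiTo hσ)).toAddSubgroup.index =
      Nat.card (normKer p σ ⧸ LinearMap.range (phiTo hσ)) := by
    rw [AddSubgroup.index_eq_card]; rfl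
  have j3 : (LinearMap.range (pF p σ)).toAddSubgroup.index =
      Nat.card (fixedSub σ ⧸ LinearMap.range (pF p σ)) := by
    rw [AddSubgroup.index_eq_card]; rfl
  have j4 : (LinearMap.range (normTo hσ)).toAddSubgroup.index =
      Nat.card (fixedSub σ ⧸ LinearMap.range (normTo hσ)) := by
    rw [AddSubgroup.index_eq_card]; rfl
  rw [j1, j2, ha] at i1
  rw [j3, j4, hb] at i2
  set H1 := Nat.card (normKer p σ ⧸ LinearMap.range (phiTo hσ)) with hH1
  set H0 := Nat.card (fixedSub σ ⧸ LinearMap.range (normTo hσ)) with hH0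
  -- i1 : r * H1 = c * d ; i2 : r * H0 = c * p ^ f
  have hppos : 0 < p := hp.out.pos
  have hpf : 0 < c * p ^ f := Nat.mul_pos hcpos (pow_pos hppos f)
  have hrpos : 0 < r := by
    rcases Nat.eq_zero_or_pos r with h | h
    · rw [h, zero_mul] at i2; omega
    · exact h
  have hH0pos : 0 < H0 := by
    rcases Nat.eq_zero_or_pos H0 with h | h
    · rw [h, mul_zero] at i2; omega
    · exact h
  refine ⟨hH0pos, ?_⟩
  -- d ≥ p ^ s
  obtain ⟨p', rfl⟩ : ∃ p', p = p' + 1 := ⟨p - 1, (Nat.sub_add_cancel hp.out.one_le).symm⟩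
  have hp' : 1 ≤ p' := by have := hp.out.two_le; omega
  simp only [add_tsub_cancel_right] at hpow
  have hms : m = p' * s := by
    have : (p' + 1) * s = p' * s + s := by ring
    omega
  have hds : (p' + 1) ^ s ≤ d := by
    have h1 : ((p' + 1) ^ s) ^ p' ≤ d ^ p' := by
      rw [← pow_mul, mul_comm, ← hms]
      exact Nat.le_of_dvd (pow_pos (Nat.pos_of_ne_zero hd0) _) hpow
    exact (Nat.pow_le_pow_iff_left (by omega)).mp h1
  have hs : s = f + 1 := hF.symm
  have key : (p' + 1) * (r * H0) ≤ r * H1 := by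
    rw [i1, i2]
    calc (p' + 1) * (c * (p' + 1) ^ f) = c * (p' + 1) ^ s := by rw [hs, pow_succ]; ring
      _ ≤ c * d := Nat.mul_le_mul_left c hds
  have : r * ((p' + 1) * H0) ≤ r * H1 := by
    calc r * ((p' + 1) * H0) = (p' + 1) * (r * H0) := by ring
      _ ≤ r * H1 := key
  exact Nat.le_of_mul_le_mul_left this hrpos

end Fermat.Agent.S14.H63
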