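import Fermat.Agent.Kummer.H63_Hilbert92
import Fermat.Agent.S14.H63_Herbrand

set_option autoImplicit false
set_option linter.unusedSectionVars false

namespace Fermat.Agent.S14.H63

open Module NumberField Fermat.Agent.Kummer.H63

variable {K L : Type*} [Field K] [Field L] [Algebra K L]

/-- The value in `L` of an (additively written) unit of `𝓞 L`. -/
noncomputable def uval (u : Additive (𝓞 L)ˣ) : L := (((u.toMul : (𝓞 L)ˣ) : 𝓞 L) : L)

lemma uval_ne_zero (u : Additive (𝓞 L)ˣ) : uval u ≠ 0 := by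
  intro h
  exact (u.toMul).ne_zero (RingOfIntegers.coe_eq_zero_iff.mp h)

lemma uval_add (u v : Additive (𝓞 L)ˣ) : uval (u + v) = uval u * uval v := by
  simp [uval]

lemma uval_zero : uval (0 : Additive (𝓞 L)ˣ) = 1 := by
  simp [uval]

lemma uval_neg (u : Additive (𝓞 L)ˣ) : uval (-u) = (uval u)⁻¹ := by
  apply eq_inv_of_mul_eq_one_left
  rw [← uval_add, neg_add_cancel, uval_zero]

lemma uval_sub (u v : Additive (𝓞 L)ˣ) : uval (u - v) = uval u / uval v := by
  rw [sub_eq_add_neg, uval_add, uval_neg, div_eq_mul_inv]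

lemma uval_injective : Function.Injective (uval : Additive (𝓞 L)ˣ → L) := by
  intro u v h
  apply Additive.toMul.injective
  apply Units.ext
  exact RingOfIntegers.ext h

lemma uval_unitsEnd (σ : L ≃ₐ[K] L) (u : Additive (𝓞 L)ˣ) : uval (unitsEnd σ u) = σ (uval u) := rfl

lemma uval_unitsIncl (u : Additive (𝓞 K)ˣ) :
    uval (unitsIncl K L u) = algebraMap K L ((u.toMul : 𝓞 K) : K) := rfl

lemma uval_normEnd (p : ℕ) (σ : L ≃ₐ[K] L) (u : Additive (𝓞 L)ˣ) :
    uval (normEnd p (unitsEnd σ) u) = ∏ i ∈ Finset.range p, (σ ^ i) (uval u) :=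
  normEnd_unitsEnd_apply p σ u

section Cyclic

variable [FiniteDimensional K L] [IsGalois K L] {p : ℕ} [hp : Fact p.Prime]

lemma card_aut_eq (hKL : Module.finrank K L = p) : Nat.card (L ≃ₐ[K] L) = p := by
  rw [IsGalois.card_aut_eq_finrank, hKL]

lemma aut_pow_eq_one (hKL : Module.finrank K L = p) (σ : L ≃ₐ[K] L) : σ ^ p = 1 := by
  rw [← card_aut_eq hKL]; exact pow_card_eq_one'

lemma unitsEnd_pow_eq_one (hKL : Module.finrank K L = p) (σ : L ≃ₐ[K] L) :
    (unitsEnd σ) ^ p = 1 := by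
  rw [← map_pow, aut_pow_eq_one hKL, map_one]

/-- The norm as a product over powers of a generator. -/
lemma algebraMap_norm_eq_prod_pow (hKL : Module.finrank K L = p) (σ : L ≃ₐ[K] L)
    (hσ : ∀ τ : L ≃ₐ[K] L, τ ∈ Subgroup.zpowers σ) (x : L) :
    algebraMap K L (Algebra.norm K x) = ∏ i ∈ Finset.range p, (σ ^ i) x := by
  classical
  rw [Algebra.norm_eq_prod_automorphisms]
  have hord : orderOf σ = p := by
    rw [orderOf_eq_card_of_forall_mem_zpowers hσ, card_aut_eq hKL]
  rw [← IsCyclic.image_range_orderOf hσ, Finset.prod_image, hord]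
  intro i hi j hj hij
  exact pow_injOn_Iio_orderOf (by simpa using hi) (by simpa using hj) hij

lemma uval_normEnd_eq_norm (hKL : Module.finrank K L = p) (σ : L ≃ₐ[K] L)
    (hσ : ∀ τ : L ≃ₐ[K] L, τ ∈ Subgroup.zpowers σ) (u : Additive (𝓞 L)ˣ) :
    uval (normEnd p (unitsEnd σ) u) = algebraMap K L (Algebra.norm K (uval u)) := by
  rw [uval_normEnd, algebraMap_norm_eq_prod_pow hKL σ hσ]

lemma mem_normKer_iff (hKL : Module.finrank K L = p) (σ : L ≃ₐ[K] L)
    (hσ : ∀ τ : L ≃ₐ[K] L, τ ∈ Subgroup.zpowers σ) (u : Additive (𝓞 L)ˣ) :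
    u ∈ normKer p (unitsEnd σ) ↔ Algebra.norm K (uval u) = 1 := by
  rw [normKer, LinearMap.mem_ker]
  constructor
  · intro h
    apply (algebraMap K L).injective
    rw [← uval_normEnd_eq_norm hKL σ hσ, h, uval_zero, map_one]
  · intro h
    apply uval_injective
    rw [uval_normEnd_eq_norm hKL σ hσ, h, map_one, uval_zero]

end Cyclic

section Herbrand

variable [NumberField K] [NumberField L] [IsGalois K L] {p : ℕ} [hp : Fact p.Prime]

/-- **Herbrand inequality for units** in a cyclic extension of odd prime degree. -/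
theorem units_herbrand (hp2 : p ≠ 2) (hKL : Module.finrank K L = p) (σ : L ≃ₐ[K] L)
    (hσ : ∀ τ : L ≃ₐ[K] L, τ ∈ Subgroup.zpowers σ) :
    0 < Nat.card (fixedSub (unitsEnd σ) ⧸ LinearMap.range (normTo (unitsEnd_pow_eq_one hKL σ))) ∧
    p * Nat.card (fixedSub (unitsEnd σ) ⧸ LinearMap.range (normTo (unitsEnd_pow_eq_one hKL σ))) ≤
      Nat.card (normKer p (unitsEnd σ) ⧸ LinearMap.range (phiTo (unitsEnd_pow_eq_one hKL σ))) := by
  have hodd : Odd (Module.finrank K L) := by
    rw [hKL]; exact hp.out.odd_of_ne_two hp2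
  have hunr : IsUnramifiedAtInfinitePlaces K L := IsUnramifiedAtInfinitePlaces_of_odd_finrank hodd
  have hplaces := IsUnramifiedAtInfinitePlaces.card_infinitePlace K L
  rw [hKL] at hplaces
  have hsK : 0 < Fintype.card (InfinitePlace K) := Fintype.card_pos
  have hsL : 0 < Fintype.card (InfinitePlace L) := Fintype.card_pos
  have hE : finrank ℤ (Additive (𝓞 L)ˣ) + 1 = p * Fintype.card (InfinitePlace K) := by
    rw [Units.finrank_eq, Units.rank, mul_comm, ← hplaces]
    omega
  have hF : finrank ℤ (fixedSub (unitsEnd σ)) + 1 = Fintype.card (InfinitePlace K) := by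
    rw [← range_unitsIncl σ hσ,
      ← (LinearEquiv.ofInjective (unitsIncl K L) unitsIncl_injective).finrank_eq,
      Units.finrank_eq, Units.rank]
    omega
  exact herbrand_le (unitsEnd_pow_eq_one hKL σ) _ hE hF

end Herbrand

end Fermat.Agent.S14.H63
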