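import Mathlib

set_option autoImplicit false
set_option linter.unusedSectionVars false

/-!
# Counting lattice points with an error term

For a bounded set `s ⊆ ι → ℝ` whose frontier is covered by finitely many Lipschitz images of
unit cubes of dimension `card ι - 1`, the number of integer points of `t • s` is
`vol(s) * t ^ n + O(t ^ (n - 1))`.
-/

open MeasureTheory Set Bornology
open scoped Pointwise NNReal Topology

noncomputable section

namespace Fermat.Agent.S14.H34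

open scoped Classical

/-! ### A connectedness lemma -/

theorem inter_frontier_nonempty_of_isPreconnected {X : Type*} [TopologicalSpace X]
    {T S : Set X} (hT : IsPreconnected T) (h1 : (T ∩ S).Nonempty) (h2 : (T ∩ Sᶜ).Nonempty) :
    (T ∩ frontier S).Nonempty := by
  by_contra hne
  rw [Set.not_nonempty_iff_eq_empty] at hne
  have hcover : T ⊆ interior S ∪ interior Sᶜ := by
    intro x hx
    by_cases hxS : x ∈ S
    · left
      by_contra hxi
      have : x ∈ frontier S := ⟨subset_closure hxS, hxi⟩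
      exact (hne ▸ (⟨hx, this⟩ : x ∈ T ∩ frontier S) : x ∈ (∅ : Set X))
    · right
      by_contra hxi
      have : x ∈ frontier Sᶜ := ⟨subset_closure hxS, hxi⟩
      rw [frontier_compl] at this
      exact (hne ▸ (⟨hx, this⟩ : x ∈ T ∩ frontier S) : x ∈ (∅ : Set X))
  have hdisj : Disjoint (interior S) (interior Sᶜ) :=
    Set.disjoint_left.mpr fun x hx hx' => interior_subset hx' (interior_subset hx)
  rcases hT.subset_or_subset isOpen_interior isOpen_interior hdisj hcover with h | h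
  · obtain ⟨x, hxT, hxS⟩ := h2
    exact hxS (interior_subset (h hxT))
  · obtain ⟨x, hxT, hxS⟩ := h1
    exact interior_subset (h hxT) hxS

variable {ι : Type*} [Fintype ι]

/-- the coordinatewise floor -/
def fl (x : ι → ℝ) : ι → ℤ := fun i => ⌊x i⌋

/-- the real point attached to an integer vector -/
def toR (ℓ : ι → ℤ) : ι → ℝ := fun i => (ℓ i : ℝ)

@[simp] theorem fl_toR (ℓ : ι → ℤ) : fl (toR ℓ) = ℓ := by
  funext i; simp [fl, toR]

/-- the half open unit cube with lower corner `ℓ` -/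
def cube (ℓ : ι → ℤ) : Set (ι → ℝ) := Set.univ.pi fun i => Set.Ico (ℓ i : ℝ) (ℓ i + 1)

theorem mem_cube_iff {ℓ : ι → ℤ} {x : ι → ℝ} : x ∈ cube ℓ ↔ fl x = ℓ := by
  simp only [cube, Set.mem_univ_pi, Set.mem_Ico, fl, funext_iff]
  refine forall_congr' fun i => ?_
  rw [Int.floor_eq_iff]

theorem measurableSet_cube (ℓ : ι → ℤ) : MeasurableSet (cube ℓ) :=
  MeasurableSet.univ_pi fun _ => measurableSet_Ico

theorem volume_cube (ℓ : ι → ℤ) : volume (cube ℓ) = 1 := by
  rw [cube, Real.volume_pi_Ico]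
  simp

theorem convex_cube (ℓ : ι → ℤ) : Convex ℝ (cube ℓ) :=
  convex_pi fun _ _ => convex_Ico _ _

theorem cube_disjoint {ℓ ℓ' : ι → ℤ} (h : ℓ ≠ ℓ') : Disjoint (cube ℓ) (cube ℓ') := by
  rw [Set.disjoint_left]
  intro x hx hx'
  exact h ((mem_cube_iff.mp hx).symm.trans (mem_cube_iff.mp hx'))

theorem toR_mem_cube (ℓ : ι → ℤ) : toR ℓ ∈ cube ℓ := mem_cube_iff.mpr (fl_toR ℓ)

/-! ### Finiteness -/

theorem finite_fl_image {S : Set (ι → ℝ)} (hS : IsBounded S) : (fl '' S).Finite := by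
  classical
  obtain ⟨R, hR⟩ := hS.subset_closedBall (0 : ι → ℝ)
  refine Set.Finite.subset
    (Fintype.piFinset fun _ : ι => Finset.Icc (-⌈R⌉ - 1) (⌈R⌉ + 1)).finite_toSet ?_
  rintro _ ⟨x, hx, rfl⟩
  have hx' := hR hx
  rw [mem_closedBall_zero_iff] at hx'
  simp only [Finset.coe_sort_coe, Finset.mem_coe, Fintype.mem_piFinset, Finset.mem_Icc, fl]
  intro i
  have hi : |x i| ≤ R := (norm_le_pi_norm x i).trans hx'
  rw [abs_le] at hi
  constructor
  · rw [Int.le_floor]
    push_cast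
    have := Int.le_ceil R
    linarith
  · have h1 : (⌊x i⌋ : ℝ) ≤ x i := Int.floor_le _
    have h2 : (⌊x i⌋ : ℝ) ≤ ⌈R⌉ := by
      have := Int.le_ceil R
      linarith
    have h3 : ⌊x i⌋ ≤ ⌈R⌉ := by exact_mod_cast h2
    omega

/-! ### The sandwich -/

/-- integer points of `S` -/
def intPts (S : Set (ι → ℝ)) : Set (ι → ℤ) := {ℓ | toR ℓ ∈ S}

/-- cubes contained in `S` -/
def innerCubes (S : Set (ι → ℝ)) : Set (ι → ℤ) := {ℓ | cube ℓ ⊆ S}

theorem innerCubes_subset_intPts (S : Set (ι → ℝ)) : innerCubes S ⊆ intPts S :=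
  fun ℓ h => h (toR_mem_cube ℓ)

theorem intPts_subset_image (S : Set (ι → ℝ)) : intPts S ⊆ fl '' S :=
  fun ℓ h => ⟨toR ℓ, h, fl_toR ℓ⟩

theorem volume_ge_innerCubes {S : Set (ι → ℝ)} (hS : IsBounded S) :
    ((innerCubes S).ncard : ENNReal) ≤ volume S := by
  have hfin : (innerCubes S).Finite :=
    (finite_fl_image hS).subset ((innerCubes_subset_intPts S).trans (intPts_subset_image S))
  have h1 : (⋃ ℓ ∈ hfin.toFinset, cube ℓ) ⊆ S := by
    intro x hx
    simp only [Set.Finite.mem_toFinset, Set.mem_iUnion, exists_prop] at hx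
    obtain ⟨ℓ, hℓ, hxℓ⟩ := hx
    exact hℓ hxℓ
  have h2 : volume (⋃ ℓ ∈ hfin.toFinset, cube ℓ) = ∑ ℓ ∈ hfin.toFinset, volume (cube ℓ) :=
    measure_biUnion_finset (fun a _ b _ hab => cube_disjoint hab)
      (fun ℓ _ => measurableSet_cube ℓ)
  calc ((innerCubes S).ncard : ENNReal) = ∑ ℓ ∈ hfin.toFinset, volume (cube ℓ) := by
        simp [volume_cube, Set.ncard_eq_toFinset_card _ hfin]
    _ = volume (⋃ ℓ ∈ hfin.toFinset, cube ℓ) := h2.symm
    _ ≤ volume S := measure_mono h1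

theorem volume_le_image {S : Set (ι → ℝ)} (hS : IsBounded S) :
    volume S ≤ ((fl '' S).ncard : ENNReal) := by
  have hfin := finite_fl_image hS
  have h1 : S ⊆ ⋃ ℓ ∈ hfin.toFinset, cube ℓ := by
    intro x hx
    simp only [Set.Finite.mem_toFinset, Set.mem_iUnion, exists_prop]
    exact ⟨fl x, ⟨x, hx, rfl⟩, mem_cube_iff.mpr rfl⟩
  calc volume S ≤ volume (⋃ ℓ ∈ hfin.toFinset, cube ℓ) := measure_mono h1
    _ ≤ ∑ ℓ ∈ hfin.toFinset, volume (cube ℓ) := measure_biUnion_finset_le _ _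
    _ = ((fl '' S).ncard : ENNReal) := by
        simp [volume_cube, Set.ncard_eq_toFinset_card _ hfin]

theorem image_diff_innerCubes_subset (S : Set (ι → ℝ)) :
    fl '' S \ innerCubes S ⊆ fl '' frontier S := by
  rintro ℓ ⟨⟨a, haS, rfl⟩, hnot⟩
  simp only [innerCubes, Set.mem_ofPred_eq, Set.not_subset] at hnot
  obtain ⟨b, hb, hbS⟩ := hnot
  have hconn : IsPreconnected (cube (fl a)) := (convex_cube (fl a)).isPreconnected
  obtain ⟨x, hx, hxf⟩ := inter_frontier_nonempty_of_isPreconnected hconn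
    ⟨a, mem_cube_iff.mpr rfl, haS⟩ ⟨b, hb, hbS⟩
  exact ⟨x, hxf, mem_cube_iff.mp hx⟩

/-- The basic estimate: the number of integer points differs from the volume by at most the
number of cubes meeting the frontier. -/
theorem abs_ncard_intPts_sub_volume_le {S : Set (ι → ℝ)} (hS : IsBounded S) :
    |((intPts S).ncard : ℝ) - volume.real S| ≤ ((fl '' frontier S).ncard : ℝ) := by
  have hfinB := finite_fl_image hS
  have hfinF : (fl '' frontier S).Finite :=
    finite_fl_image (hS.closure.subset frontier_subset_closure)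
  have hAI : innerCubes S ⊆ intPts S := innerCubes_subset_intPts S
  have hIB : intPts S ⊆ fl '' S := intPts_subset_image S
  have hAB : innerCubes S ⊆ fl '' S := hAI.trans hIB
  have hvol_lt : volume S < ⊤ := hS.measure_lt_top
  -- real-valued inequalities
  have h1 : ((innerCubes S).ncard : ℝ) ≤ volume.real S := by
    have := volume_ge_innerCubes hS
    rw [measureReal_def]
    have h := ENNReal.toReal_mono hvol_lt.ne this
    simpa using h
  have h2 : volume.real S ≤ ((fl '' S).ncard : ℝ) := by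
    have := volume_le_image hS
    rw [measureReal_def]
    have h := ENNReal.toReal_mono (ENNReal.natCast_ne_top _) this
    simpa using h
  have h3 : ((innerCubes S).ncard : ℝ) ≤ ((intPts S).ncard : ℝ) := by
    exact_mod_cast Set.ncard_le_ncard hAI (hfinB.subset hIB)
  have h4 : ((intPts S).ncard : ℝ) ≤ ((fl '' S).ncard : ℝ) := by
    exact_mod_cast Set.ncard_le_ncard hIB hfinB
  have h5 : ((fl '' S).ncard : ℝ) - ((innerCubes S).ncard : ℝ) ≤ ((fl '' frontier S).ncard : ℝ) := by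
    have h6 : (fl '' S \ innerCubes S).ncard = (fl '' S).ncard - (innerCubes S).ncard :=
      Set.ncard_sdiff hAB (hfinB.subset hAB)
    have h7 : (fl '' S \ innerCubes S).ncard ≤ (fl '' frontier S).ncard :=
      Set.ncard_le_ncard (image_diff_innerCubes_subset S) hfinF
    have h8 : (innerCubes S).ncard ≤ (fl '' S).ncard := Set.ncard_le_ncard hAB hfinB
    have h9 : (fl '' S).ncard - (innerCubes S).ncard ≤ (fl '' frontier S).ncard := h6 ▸ h7
    have : ((fl '' S).ncard : ℝ) - ((innerCubes S).ncard : ℝ) =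
        (((fl '' S).ncard - (innerCubes S).ncard : ℕ) : ℝ) := by
      rw [Nat.cast_sub h8]
    rw [this]
    exact_mod_cast h9
  rw [abs_le]
  constructor <;> linarith

/-! ### Cubes meeting a Lipschitz image -/

theorem fl_mem_of_dist_le {p x : ι → ℝ} {R : ℕ} (h : dist x p ≤ R) :
    fl x ∈ Fintype.piFinset fun i => Finset.Icc (⌊p i⌋ - (R : ℤ)) (⌊p i⌋ + R) := by
  rw [Fintype.mem_piFinset]
  intro i
  have hi : |x i - p i| ≤ R := by
    have := (dist_pi_le_iff (Nat.cast_nonneg R)).mp h i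
    rwa [Real.dist_eq] at this
  rw [abs_le] at hi
  rw [Finset.mem_Icc]
  constructor
  · rw [fl, Int.le_floor]
    push_cast
    have := Int.floor_le (p i)
    linarith
  · rw [fl]
    have h1 : x i < (⌊p i⌋ + (R : ℤ) : ℤ) + 1 := by
      push_cast
      have := Int.lt_floor_add_one (p i)
      linarith
    have := Int.floor_le (x i)
    have h2 : (⌊x i⌋ : ℝ) < ((⌊p i⌋ + (R : ℤ) : ℤ) : ℝ) + 1 := lt_of_le_of_lt this h1
    have h3 : ⌊x i⌋ < ⌊p i⌋ + (R : ℤ) + 1 := by exact_mod_cast h2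
    omega

variable {κ : Type*} [Fintype κ]

/-- corner of the small cube with index `k` in the subdivision of the unit cube into `N ^ card κ`
cubes -/
def corner (N : ℕ) (k : κ → ℕ) : κ → ℝ := fun i => (k i : ℝ) / N

theorem corner_mem_Icc {N : ℕ} {k : κ → ℕ} (hk : ∀ i, k i < N) :
    corner N k ∈ Set.Icc (0 : κ → ℝ) 1 := by
  rw [Set.mem_Icc, Pi.le_def, Pi.le_def]
  refine ⟨fun i => ?_, fun i => ?_⟩
  · exact div_nonneg (Nat.cast_nonneg _) (Nat.cast_nonneg _)
  · exact div_le_one_of_le₀ (by exact_mod_cast (hk i).le) (Nat.cast_nonneg _)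

theorem exists_corner {N : ℕ} (hN : 0 < N) {u : κ → ℝ} (hu : u ∈ Set.Icc (0 : κ → ℝ) 1) :
    ∃ k : κ → ℕ, (∀ i, k i < N) ∧ dist u (corner N k) ≤ 1 / N := by
  rw [Set.mem_Icc, Pi.le_def, Pi.le_def] at hu
  have hN' : (0 : ℝ) < N := by exact_mod_cast hN
  refine ⟨fun i => min ⌊N * u i⌋₊ (N - 1), fun i => ?_, ?_⟩
  · exact lt_of_le_of_lt (min_le_right _ _) (Nat.sub_lt hN one_pos)
  · rw [dist_pi_le_iff (by positivity)]
    intro i
    have h0 : 0 ≤ u i := hu.1 i
    have h1 : u i ≤ 1 := hu.2 i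
    have hNu : 0 ≤ N * u i := mul_nonneg hN'.le h0
    set k := min ⌊N * u i⌋₊ (N - 1) with hk
    have hk1 : (k : ℝ) ≤ N * u i :=
      le_trans (by exact_mod_cast min_le_left _ _) (Nat.floor_le hNu)
    have hk2 : N * u i ≤ k + 1 := by
      rcases le_total ⌊N * u i⌋₊ (N - 1) with h | h
      · rw [hk, min_eq_left h]
        exact (Nat.lt_floor_add_one _).le
      · rw [hk, min_eq_right h]
        have : ((N - 1 : ℕ) : ℝ) + 1 = N := by
          rw [Nat.cast_sub hN]; simp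
        rw [this]
        calc (N : ℝ) * u i ≤ N * 1 := mul_le_mul_of_nonneg_left h1 hN'.le
          _ = N := mul_one _
    have e1 : u i - corner N (fun i => min ⌊N * u i⌋₊ (N - 1)) i = (N * u i - k) / N := by
      simp only [corner]
      rw [← hk]
      field_simp
    rw [Real.dist_eq, e1, abs_le]
    constructor
    · rw [le_div_iff₀ hN']
      have : -(1 / (N : ℝ)) * N = -1 := by field_simp
      rw [this]; linarith
    · rw [div_le_div_iff_of_pos_right hN']
      linarith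

/-- the finite set of cubes that can meet `t • φ '' [0,1]^κ` -/
def coverSet (φ : (κ → ℝ) → (ι → ℝ)) (R : ℕ) (t : ℝ) (N : ℕ) : Finset (ι → ℤ) :=
  (Fintype.piFinset fun _ : κ => Finset.range N).biUnion fun k =>
    Fintype.piFinset fun i =>
      Finset.Icc (⌊(t • φ (corner N k)) i⌋ - (R : ℤ)) (⌊(t • φ (corner N k)) i⌋ + R)

theorem card_coverSet_le (φ : (κ → ℝ) → (ι → ℝ)) (R : ℕ) (t : ℝ) (N : ℕ) :
    (coverSet φ R t N).card ≤ N ^ Fintype.card κ * (2 * R + 1) ^ Fintype.card ι := by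
  refine (Finset.card_biUnion_le).trans ?_
  have h1 : ∀ k ∈ (Fintype.piFinset fun _ : κ => Finset.range N),
      (Fintype.piFinset fun i =>
        Finset.Icc (⌊(t • φ (corner N k)) i⌋ - (R : ℤ)) (⌊(t • φ (corner N k)) i⌋ + R)).card
        = (2 * R + 1) ^ Fintype.card ι := by
    intro k _
    rw [Fintype.card_piFinset]
    have : ∀ i : ι, (Finset.Icc (⌊(t • φ (corner N k)) i⌋ - (R : ℤ))
        (⌊(t • φ (corner N k)) i⌋ + R)).card = 2 * R + 1 := by
      intro i
      rw [Int.card_Icc]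
      omega
    rw [Finset.prod_congr rfl fun i _ => this i, Finset.prod_const, Finset.card_univ]
  rw [Finset.sum_congr rfl h1, Finset.sum_const, Fintype.card_piFinset]
  simp

theorem fl_image_smul_subset_coverSet {φ : (κ → ℝ) → (ι → ℝ)} {K : ℝ≥0}
    (hφ : LipschitzOnWith K φ (Set.Icc 0 1)) {t : ℝ} (ht : 0 ≤ t) {N : ℕ} (hN : 0 < N)
    (htN : t ≤ N) :
    fl '' (t • (φ '' Set.Icc 0 1)) ⊆ ↑(coverSet φ ⌈(K : ℝ)⌉₊ t N) := by
  rintro _ ⟨_, ⟨_, ⟨u, hu, rfl⟩, rfl⟩, rfl⟩
  obtain ⟨k, hk, hdist⟩ := exists_corner hN hu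
  simp only [coverSet, Finset.coe_biUnion, Finset.mem_coe, Set.mem_iUnion, exists_prop]
  refine ⟨k, ?_, ?_⟩
  · rw [Fintype.mem_piFinset]
    intro i
    exact Finset.mem_range.mpr (hk i)
  · apply fl_mem_of_dist_le
    have hN' : (0 : ℝ) < N := by exact_mod_cast hN
    have h1 : dist (φ u) (φ (corner N k)) ≤ K * (1 / N) :=
      (hφ.dist_le_mul u hu _ (corner_mem_Icc hk)).trans
        (mul_le_mul_of_nonneg_left hdist K.coe_nonneg)
    calc dist (t • φ u) (t • φ (corner N k)) = t * dist (φ u) (φ (corner N k)) := by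
          rw [dist_smul₀, Real.norm_of_nonneg ht]
      _ ≤ t * (K * (1 / N)) := mul_le_mul_of_nonneg_left h1 ht
      _ = K * (t / N) := by ring
      _ ≤ K * 1 := by
          apply mul_le_mul_of_nonneg_left _ K.coe_nonneg
          rw [div_le_one hN']
          exact htN
      _ = K := mul_one _
      _ ≤ ⌈(K : ℝ)⌉₊ := Nat.le_ceil _

/-! ### The main estimate for the standard lattice -/

theorem frontier_smul_set {t : ℝ} (ht : t ≠ 0) (s : Set (ι → ℝ)) :
    frontier (t • s) = t • frontier s := by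
  have := (Homeomorph.smulOfNeZero t ht).image_frontier s
  simpa [Set.image_smul] using this.symm

/-- **Lattice point counting with error term** (standard lattice): if the frontier of the bounded
set `s` is covered by `m` Lipschitz images of the unit cube `[0,1]^κ`, then for `t ≥ 1` the
number of integer points of `t • s` is `vol(s) t^n + O(t^(card κ))`. -/
theorem abs_ncard_intPts_smul_sub_le {s : Set (ι → ℝ)} (hs : IsBounded s) {m : ℕ}
    (φ : Fin m → (κ → ℝ) → (ι → ℝ)) (K : ℝ≥0)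
    (hφ : ∀ j, LipschitzOnWith K (φ j) (Set.Icc 0 1))
    (hfr : frontier s ⊆ ⋃ j, φ j '' Set.Icc 0 1) {t : ℝ} (ht : 1 ≤ t) :
    |((intPts (t • s)).ncard : ℝ) - volume.real s * t ^ Fintype.card ι| ≤
      (m * 2 ^ Fintype.card κ * (2 * ⌈(K : ℝ)⌉₊ + 1) ^ Fintype.card ι : ℕ) *
        t ^ Fintype.card κ := by
  have ht0 : 0 < t := lt_of_lt_of_le one_pos ht
  have hbdd : IsBounded (t • s) := hs.smul₀ t
  have h1 := abs_ncard_intPts_sub_volume_le hbdd
  have hvol : volume.real (t • s) = volume.real s * t ^ Fintype.card ι := by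
    rw [measureReal_def, Measure.addHaar_smul_of_nonneg _ ht0.le, ENNReal.toReal_mul,
      ENNReal.toReal_ofReal (pow_nonneg ht0.le _), Module.finrank_fintype_fun_eq_card,
      measureReal_def, mul_comm]
  rw [hvol] at h1
  refine h1.trans ?_
  -- bound the number of cubes meeting the frontier
  set N := ⌈t⌉₊ with hN
  have hN0 : 0 < N := Nat.ceil_pos.mpr ht0
  have htN : t ≤ N := Nat.le_ceil t
  have hN2 : (N : ℝ) ≤ 2 * t := by
    have := Nat.ceil_lt_add_one ht0.le
    linarith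
  have hsub : fl '' frontier (t • s) ⊆
      ↑(Finset.univ.biUnion fun j : Fin m => coverSet (φ j) ⌈(K : ℝ)⌉₊ t N) := by
    rw [frontier_smul_set ht0.ne']
    rintro _ ⟨_, ⟨x, hx, rfl⟩, rfl⟩
    obtain ⟨j, hj⟩ := Set.mem_iUnion.mp (hfr hx)
    simp only [Finset.coe_biUnion, Finset.coe_univ, Set.mem_univ, Set.iUnion_true,
      Set.mem_iUnion]
    exact ⟨j, fl_image_smul_subset_coverSet (hφ j) ht0.le hN0 htN
      ⟨t • x, Set.smul_mem_smul_set hj, rfl⟩⟩
  have hcard : (fl '' frontier (t • s)).ncard ≤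
      m * (N ^ Fintype.card κ * (2 * ⌈(K : ℝ)⌉₊ + 1) ^ Fintype.card ι) := by
    refine (Set.ncard_le_ncard hsub (Finset.finite_toSet _)).trans ?_
    rw [Set.ncard_coe_finset]
    refine Finset.card_biUnion_le.trans ?_
    refine (Finset.sum_le_sum fun j _ => card_coverSet_le (φ j) _ t N).trans ?_
    simp
  calc ((fl '' frontier (t • s)).ncard : ℝ)
      ≤ ((m * (N ^ Fintype.card κ * (2 * ⌈(K : ℝ)⌉₊ + 1) ^ Fintype.card ι) : ℕ) : ℝ) := by
        exact_mod_cast hcard
    _ = m * (N : ℝ) ^ Fintype.card κ * (2 * ⌈(K : ℝ)⌉₊ + 1) ^ Fintype.card ι := by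
        push_cast; ring
    _ ≤ m * (2 * t) ^ Fintype.card κ * (2 * ⌈(K : ℝ)⌉₊ + 1) ^ Fintype.card ι := by
        gcongr
    _ = _ := by
        push_cast; rw [mul_pow]; ring

/-! ### General lattices -/

section general

open Module ZLattice

variable {E : Type*} [NormedAddCommGroup E] [InnerProductSpace ℝ E] [FiniteDimensional ℝ E]
  [MeasurableSpace E] [BorelSpace E]
variable (L : Submodule ℤ E) [DiscreteTopology L] [IsZLattice ℝ L]

theorem mem_lattice_iff (b : Basis ι ℤ L) (x : E) :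
    x ∈ L ↔ ∃ ℓ : ι → ℤ, (b.ofZLatticeBasis ℝ L).equivFun x = toR ℓ := by
  conv_lhs => rw [← b.ofZLatticeBasis_span ℝ]
  rw [Basis.mem_span_iff_repr_mem]
  constructor
  · intro h
    choose ℓ hℓ using h
    refine ⟨ℓ, funext fun i => ?_⟩
    rw [Basis.equivFun_apply, toR, ← hℓ i]
    rfl
  · rintro ⟨ℓ, hℓ⟩ i
    refine ⟨ℓ i, ?_⟩
    have := congrFun hℓ i
    rw [Basis.equivFun_apply] at this
    rw [this]
    rfl

theorem ncard_intPts_image_eq (b : Basis ι ℤ L) (S : Set E) :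
    (intPts ((b.ofZLatticeBasis ℝ L).equivFun '' S)).ncard = Nat.card ↑(S ∩ (L : Set E)) := by
  rw [Nat.card_coe_set_eq]
  set e := (b.ofZLatticeBasis ℝ L).equivFun with he
  have hinj : Function.Injective (fun ℓ : ι → ℤ => e.symm (toR ℓ)) := by
    intro ℓ ℓ' h
    have h' : toR ℓ = toR ℓ' := e.symm.injective h
    funext i
    have := congrFun h' i
    simpa [toR] using this
  rw [← Set.ncard_image_of_injective _ hinj]
  congr 1
  ext x
  simp only [Set.mem_image, intPts, Set.mem_ofPred_eq, Set.mem_inter_iff, SetLike.mem_coe]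
  constructor
  · rintro ⟨ℓ, ⟨y, hy, hyℓ⟩, rfl⟩
    have : e.symm (toR ℓ) = y := by rw [← hyℓ, e.symm_apply_apply]
    rw [this]
    exact ⟨hy, (mem_lattice_iff L b y).mpr ⟨ℓ, hyℓ⟩⟩
  · rintro ⟨hxS, hxL⟩
    obtain ⟨ℓ, hℓ⟩ := (mem_lattice_iff L b x).mp hxL
    exact ⟨ℓ, ⟨x, hxS, hℓ⟩, by rw [← hℓ, e.symm_apply_apply]⟩

/-- **Lattice point counting with error term** (general lattice in a Euclidean space). -/
theorem exists_abs_card_smul_inter_sub_le {s : Set E} (hs : IsBounded s)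
    (hsm : NullMeasurableSet s) {κ : Type*} [Fintype κ] {m : ℕ}
    (φ : Fin m → (κ → ℝ) → E) (K : ℝ≥0)
    (hφ : ∀ j, LipschitzOnWith K (φ j) (Set.Icc 0 1))
    (hfr : frontier s ⊆ ⋃ j, φ j '' Set.Icc 0 1) :
    ∃ C : ℝ, ∀ t : ℝ, 1 ≤ t →
      |(Nat.card ↑(t • s ∩ (L : Set E)) : ℝ) - volume.real s / covolume L * t ^ finrank ℝ E| ≤
        C * t ^ Fintype.card κ := by
  let b := Module.Free.chooseBasis ℤ L
  set ι := Module.Free.ChooseBasisIndex ℤ L
  set e := (b.ofZLatticeBasis ℝ L).equivFunL with he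
  have hcard : Fintype.card ι = finrank ℝ E := by
    rw [← finrank_eq_card_chooseBasisIndex, ZLattice.rank ℝ L]
  have hs' : IsBounded (e '' s) := by
    rw [← NormedSpace.isVonNBounded_iff ℝ] at hs ⊢
    exact Bornology.IsVonNBounded.image hs (e : E →L[ℝ] ι → ℝ)
  have hφ' : ∀ j, LipschitzOnWith (‖(e : E →L[ℝ] ι → ℝ)‖₊ * K) (e ∘ φ j) (Set.Icc 0 1) :=
    fun j => (e : E →L[ℝ] ι → ℝ).lipschitz.comp_lipschitzOnWith (hφ j)
  have hfr' : frontier (e '' s) ⊆ ⋃ j, (e ∘ φ j) '' Set.Icc 0 1 := by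
    have h1 : frontier (e '' s) = e '' frontier s := (e.toHomeomorph.image_frontier s).symm
    rw [h1]
    rintro _ ⟨x, hx, rfl⟩
    obtain ⟨j, u, hu, rfl⟩ := Set.mem_iUnion.mp (hfr hx)
    exact Set.mem_iUnion.mpr ⟨j, u, hu, rfl⟩
  have hvol : volume.real (e '' s) = volume.real s / covolume L := by
    have := ZLattice.volume_image_eq_volume_div_covolume' L b hsm
    simp only [measureReal_def]
    rw [show (e '' s) = (b.ofZLatticeBasis ℝ L).equivFun '' s from rfl, this, ENNReal.toReal_div,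
      ENNReal.toReal_ofReal (covolume_pos L volume).le]
  refine ⟨((m * 2 ^ Fintype.card κ *
    (2 * ⌈((‖(e : E →L[ℝ] ι → ℝ)‖₊ * K : ℝ≥0) : ℝ)⌉₊ + 1) ^ Fintype.card ι : ℕ) : ℝ),
    fun t ht => ?_⟩
  have key := abs_ncard_intPts_smul_sub_le hs' (fun j => e ∘ φ j) _ hφ' hfr' ht
  have himg : t • (e '' s) = (b.ofZLatticeBasis ℝ L).equivFun '' (t • s) := by
    rw [show (e '' s) = (b.ofZLatticeBasis ℝ L).equivFun '' s from rfl, ← image_smul_set]
  rw [himg, ncard_intPts_image_eq L b (t • s), hvol, hcard] at key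
  rw [hcard]
  exact key

theorem smul_cone_le_one_eq {X : Set E} (hX : ∀ ⦃x⦄ ⦃r : ℝ⦄, x ∈ X → 0 < r → r • x ∈ X)
    {F : E → ℝ} {n : ℕ} (hF₁ : ∀ x ⦃r : ℝ⦄, 0 ≤ r → F (r • x) = r ^ n * (F x)) {c : ℝ}
    (hc : 0 < c) :
    c • {x ∈ X | F x ≤ 1} = {x ∈ X | F x ≤ c ^ n} := by
  ext x
  simp_rw [Set.mem_smul_set_iff_inv_smul_mem₀ hc.ne', Set.mem_ofPred_eq, hF₁ _
    (inv_pos_of_pos hc).le, inv_pow, inv_mul_le_iff₀ (pow_pos hc _), mul_one, and_congr_left_iff]
  exact fun _ ↦ ⟨fun h ↦ (smul_inv_smul₀ hc.ne' x) ▸ hX h hc, fun h ↦ hX h (inv_pos_of_pos hc)⟩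

/-- **Counting lattice points of bounded `F`-size in a cone, with error term.** -/
theorem exists_abs_card_cone_le_sub_le {X : Set E} {F : E → ℝ}
    (hX : ∀ ⦃x⦄ ⦃r : ℝ⦄, x ∈ X → 0 < r → r • x ∈ X)
    (h₁ : ∀ x ⦃r : ℝ⦄, 0 ≤ r → F (r • x) = r ^ finrank ℝ E * (F x))
    (h₂ : IsBounded {x ∈ X | F x ≤ 1}) (h₃ : NullMeasurableSet {x ∈ X | F x ≤ 1})
    {κ : Type*} [Fintype κ] (hκ : Fintype.card κ + 1 = finrank ℝ E) {m : ℕ}
    (φ : Fin m → (κ → ℝ) → E) (K : ℝ≥0)
    (hφ : ∀ j, LipschitzOnWith K (φ j) (Set.Icc 0 1))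
    (hfr : frontier {x ∈ X | F x ≤ 1} ⊆ ⋃ j, φ j '' Set.Icc 0 1) :
    ∃ C : ℝ, ∀ c : ℝ, 1 ≤ c →
      |(Nat.card ↑({x ∈ X | F x ≤ c} ∩ (L : Set E)) : ℝ) -
        volume.real {x ∈ X | F x ≤ 1} / covolume L * c| ≤
        C * c ^ (1 - 1 / (finrank ℝ E : ℝ)) := by
  obtain ⟨C, hC⟩ := exists_abs_card_smul_inter_sub_le L h₂ h₃ φ K hφ hfr
  refine ⟨C, fun c hc => ?_⟩
  have hn : 0 < finrank ℝ E := by omega
  have hn' : (finrank ℝ E : ℝ) ≠ 0 := by exact_mod_cast hn.ne'
  have hc0 : 0 < c := lt_of_lt_of_le one_pos hc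
  set t := c ^ (1 / (finrank ℝ E : ℝ)) with ht
  have ht1 : 1 ≤ t := Real.one_le_rpow hc (by positivity)
  have ht0 : 0 < t := lt_of_lt_of_le one_pos ht1
  have htn : t ^ finrank ℝ E = c := by
    rw [ht, ← Real.rpow_natCast, ← Real.rpow_mul hc0.le, one_div, inv_mul_cancel₀ hn',
      Real.rpow_one]
  have htk : t ^ Fintype.card κ = c ^ (1 - 1 / (finrank ℝ E : ℝ)) := by
    have h1 : (Fintype.card κ : ℝ) = finrank ℝ E - 1 := by
      rw [← hκ]; push_cast; ring
    rw [ht, ← Real.rpow_natCast, ← Real.rpow_mul hc0.le, h1]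
    congr 1
    field_simp
  have hset : t • {x ∈ X | F x ≤ 1} = {x ∈ X | F x ≤ c} := by
    rw [smul_cone_le_one_eq hX h₁ ht0, htn]
  have := hC t ht1
  rwa [hset, htn, htk] at this

end general

end Fermat.Agent.S14.H34
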