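import Mathlib

/-!
# S14 / WP4a-B : the frontier of `normLeOne K` is covered by Lipschitz images of cubes

helper38.  Mathlib only.
-/

namespace Fermat.Agent.S14.H38

open NumberField NumberField.InfinitePlace NumberField.mixedEmbedding
  NumberField.mixedEmbedding.fundamentalCone NumberField.Units
  NumberField.Units.dirichletUnitTheorem

section general

/-- A `C¹` map on a finite product of copies of `ℝ` is Lipschitz on the unit cube. -/
theorem exists_lipschitzOnWith_Icc {κ : Type*} [Fintype κ] {F : Type*} [NormedAddCommGroup F]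
    [NormedSpace ℝ F] {f : (κ → ℝ) → F} (hf : ContDiff ℝ 1 f) :
    ∃ L, LipschitzOnWith L f (Set.Icc 0 1) :=
  hf.contDiffOn.exists_lipschitzOnWith one_ne_zero (convex_Icc _ _) isCompact_Icc

end general

variable {K : Type*} [Field K] [NumberField K]

open scoped Classical

theorem contDiff_expMap : ContDiff ℝ 1 (expMap : realSpace K → realSpace K) := by
  rw [contDiff_pi]
  intro w
  have : (fun x : realSpace K => expMap x w) = fun x => Real.exp ((↑w.mult)⁻¹ * x w) := by
    ext x; exact expMap_apply x w
  rw [this]
  fun_prop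

theorem contDiff_expMapBasis : ContDiff ℝ 1 (expMapBasis : realSpace K → realSpace K) := by
  have : (expMapBasis : realSpace K → realSpace K) =
      (expMap : realSpace K → realSpace K) ∘ (completeBasis K).equivFunL.symm := by
    ext x; rfl
  rw [this]
  exact contDiff_expMap.comp (completeBasis K).equivFunL.symm.contDiff


variable (K) in
/-- The parameter index type: `(r - 1) + r₂ = n - 1` coordinates. -/
abbrev Par : Type _ := {w : InfinitePlace K // w ≠ w₀} ⊕ {w : InfinitePlace K // IsComplex w}

/-- `G u = u w₀ • expMapBasis (u with the w₀-coordinate replaced by 0)`: the parametrisation of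
`compactSet K` by the cube, with the radius `u w₀ = exp (x w₀)` as a coordinate. -/
noncomputable def G (u : realSpace K) : realSpace K :=
  u w₀ • expMapBasis (fun i => if i = w₀ then 0 else u i)

/-- Signs at real places and angles at complex places. -/
noncomputable def Θ (ε : {w : InfinitePlace K // IsReal w} → Bool) (s : realSpace K)
    (θ : {w : InfinitePlace K // IsComplex w} → ℝ) : mixedSpace K :=
  (fun w => (if ε w then (1 : ℝ) else -1) * s w.1,
   fun w => (s w.1 : ℂ) * Complex.exp ((Real.pi * (2 * θ w - 1) : ℝ) * Complex.I))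

/-- The embedding of the face `u i₀ = c` of the cube. The parameter slot `i₀` (when `i₀ ≠ w₀`)
holds the radius coordinate `u w₀`. -/
noncomputable def U (i₀ : InfinitePlace K) (c : ℝ) (v : Par K → ℝ) : realSpace K := fun i =>
  if i = i₀ then c
  else if h : i = w₀ then (if h₀ : i₀ = w₀ then 0 else v (Sum.inl ⟨i₀, h₀⟩))
  else v (Sum.inl ⟨i, h⟩)

/-- The parametrisation of one piece of the frontier. -/
noncomputable def φ (i₀ : InfinitePlace K) (c : ℝ) (ε : {w : InfinitePlace K // IsReal w} → Bool)
    (v : Par K → ℝ) : mixedSpace K :=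
  Θ ε (G (U i₀ c v)) (fun w => v (Sum.inr w))

theorem contDiff_G : ContDiff ℝ 1 (G : realSpace K → realSpace K) := by
  classical
  unfold G
  refine ContDiff.smul (contDiff_apply ℝ ℝ w₀) (contDiff_expMapBasis.comp ?_)
  rw [contDiff_pi]
  intro i
  by_cases h : i = w₀
  · simp only [h, if_true]; exact contDiff_const
  · simp only [h, if_false]; exact contDiff_apply ℝ ℝ i

theorem contDiff_U (i₀ : InfinitePlace K) (c : ℝ) : ContDiff ℝ 1 (U i₀ c) := by
  classical
  unfold U
  rw [contDiff_pi]
  intro i
  by_cases h1 : i = i₀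
  · simp only [h1, if_true]; exact contDiff_const
  · simp only [h1, if_false]
    by_cases h2 : i = w₀
    · simp only [h2, dite_true]
      by_cases h3 : i₀ = w₀
      · simp only [h3, dite_true]; exact contDiff_const
      · simp only [h3, dite_false]; exact contDiff_apply ℝ ℝ _
    · simp only [h2, dite_false]; exact contDiff_apply ℝ ℝ _

theorem contDiff_φ (i₀ : InfinitePlace K) (c : ℝ) (ε : {w : InfinitePlace K // IsReal w} → Bool) :
    ContDiff ℝ 1 (φ i₀ c ε) := by
  have hGU : ContDiff ℝ 1 (fun v : Par K → ℝ => G (U i₀ c v)) := contDiff_G.comp (contDiff_U i₀ c)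
  have hGUw : ∀ w : InfinitePlace K, ContDiff ℝ 1 (fun v : Par K → ℝ => G (U i₀ c v) w) :=
    fun w => (contDiff_apply ℝ ℝ w).comp hGU
  unfold φ Θ
  refine ContDiff.prodMk ?_ ?_
  · rw [contDiff_pi]
    intro w
    exact contDiff_const.mul (hGUw w.1)
  · rw [contDiff_pi]
    intro w
    refine ContDiff.mul (Complex.ofRealCLM.contDiff.comp (hGUw w.1)) ?_
    refine Complex.contDiff_exp.comp ?_
    refine ContDiff.mul (Complex.ofRealCLM.contDiff.comp ?_) contDiff_const
    exact contDiff_const.mul (((contDiff_const.mul (contDiff_apply ℝ ℝ (Sum.inr w))).sub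
      contDiff_const))


/-! ### Covering -/

omit [NumberField K] in
theorem exists_eq_Θ (x : mixedSpace K) :
    ∃ (ε : {w : InfinitePlace K // IsReal w} → Bool)
      (θ : {w : InfinitePlace K // IsComplex w} → ℝ),
      (∀ w, θ w ∈ Set.Icc (0 : ℝ) 1) ∧ x = Θ ε (normAtAllPlaces x) θ := by
  refine ⟨fun w => decide (0 ≤ x.1 w), fun w => (Complex.arg (x.2 w) / Real.pi + 1) / 2, ?_, ?_⟩
  · intro w
    have h1 := Complex.neg_pi_lt_arg (x.2 w)
    have h2 := Complex.arg_le_pi (x.2 w)
    have hpi := Real.pi_pos
    constructor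
    · have : -1 ≤ Complex.arg (x.2 w) / Real.pi := by rw [le_div_iff₀ hpi]; linarith
      linarith
    · have : Complex.arg (x.2 w) / Real.pi ≤ 1 := by rw [div_le_one hpi]; exact h2
      linarith
  · unfold Θ
    refine Prod.ext (funext fun w => ?_) (funext fun w => ?_)
    · simp only [normAtPlace_apply_of_isReal w.2]
      by_cases h : 0 ≤ x.1 w
      · simp [h, abs_of_nonneg h]
      · simp [h, abs_of_neg (not_le.1 h)]
    · simp only [normAtPlace_apply_of_isComplex w.2]
      have : Real.pi * (2 * ((Complex.arg (x.2 w) / Real.pi + 1) / 2) - 1)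
          = Complex.arg (x.2 w) := by
        field_simp; ring
      rw [this]
      exact (Complex.norm_mul_exp_arg_mul_I (x.2 w)).symm

theorem G_eq_expMapBasis (y : realSpace K) :
    G (fun i => if i = w₀ then Real.exp (y w₀) else y i) = expMapBasis y := by
  unfold G
  rw [expMapBasis_apply'' y]
  simp only [if_true]
  congr 2
  ext i
  by_cases h : i = w₀ <;> simp [h]

theorem U_eq (i₀ : InfinitePlace K) (u : realSpace K)
    (θ : {w : InfinitePlace K // IsComplex w} → ℝ) :
    U i₀ (u i₀) (Sum.elim (fun i => if i.1 = i₀ then u w₀ else u i.1) θ) = u := by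
  ext i
  unfold U
  by_cases h1 : i = i₀
  · simp [h1]
  · by_cases h2 : i = w₀
    · have h3 : i₀ ≠ w₀ := fun h => h1 (h2.trans h.symm)
      subst h2
      simp [h3, Ne.symm h3]
    · simp [h1, h2]


/-- Every point of the closed "parameter box" image that is not in the image of the open box
is `G u` for a point `u` of the unit cube lying on a face. -/
theorem exists_face_of_mem_compactSet {s : realSpace K} (hcl : s ∈ compactSet K)
    (hint : s ∉ expMapBasis '' interior (paramSet K)) :
    ∃ u : realSpace K, u ∈ Set.Icc (0 : realSpace K) 1 ∧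
      ∃ (i₀ : InfinitePlace K) (b : Bool), u i₀ = (if b then (1 : ℝ) else 0) ∧ G u = s := by
  rw [compactSet_eq_union] at hcl
  rcases hcl with ⟨y, hy, rfl⟩ | h0
  · have hy' : y ∉ interior (paramSet K) := fun h => hint ⟨y, h, rfl⟩
    rw [closure_paramSet, Set.mem_univ_pi] at hy
    rw [interior_paramSet, Set.mem_univ_pi] at hy'
    rw [not_forall] at hy'
    obtain ⟨i₀, hi₀⟩ := hy'
    refine ⟨fun i => if i = w₀ then Real.exp (y w₀) else y i, ?_, i₀, ?_⟩
    · constructor
      · intro i
        by_cases h : i = w₀
        · simp [h, Real.exp_nonneg]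
        · have := hy i
          simp only [h, if_false] at this
          simpa [h] using this.1
      · intro i
        by_cases h : i = w₀
        · have := hy w₀
          simp only [if_true] at this
          simpa [h] using this
        · have := hy i
          simp only [h, if_false] at this
          simpa [h] using this.2
    · by_cases h : i₀ = w₀
      · subst h
        have h1 := hy w₀
        simp only [if_true, Set.mem_Iic] at h1
        simp only [if_true, Set.mem_Iio, not_lt] at hi₀
        have h0 : y w₀ = 0 := le_antisymm h1 hi₀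
        exact ⟨true, by simp [h0], G_eq_expMapBasis y⟩
      · have h1 := hy i₀
        simp only [h, if_false, Set.mem_Icc] at h1
        simp only [h, if_false, Set.mem_Ioo, not_and, not_lt] at hi₀
        rcases h1.1.eq_or_lt with h2 | h2
        · exact ⟨false, by simp [h, ← h2], G_eq_expMapBasis y⟩
        · exact ⟨true, by simp [h, le_antisymm h1.2 (hi₀ h2)], G_eq_expMapBasis y⟩
  · rw [Set.mem_singleton_iff] at h0
    refine ⟨0, ⟨le_rfl, zero_le_one⟩, w₀, false, rfl, ?_⟩
    rw [h0]
    simp [G]

theorem exists_φ_eq_of_mem_frontier {x : mixedSpace K} (hx : x ∈ frontier (normLeOne K)) :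
    ∃ (i₀ : InfinitePlace K) (b : Bool) (ε : {w : InfinitePlace K // IsReal w} → Bool)
      (v : Par K → ℝ), v ∈ Set.Icc (0 : Par K → ℝ) 1 ∧ φ i₀ (if b then 1 else 0) ε v = x := by
  obtain ⟨ε, θ, hθ, hxΘ⟩ := exists_eq_Θ x
  have hcl : normAtAllPlaces x ∈ compactSet K :=
    closure_normLeOne_subset K (frontier_subset_closure hx)
  have hint : normAtAllPlaces x ∉ expMapBasis '' interior (paramSet K) := fun h =>
    hx.2 (subset_interior_normLeOne K h)
  obtain ⟨u, hu, i₀, b, hub, hGu⟩ := exists_face_of_mem_compactSet hcl hint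
  refine ⟨i₀, b, ε, Sum.elim (fun i => if i.1 = i₀ then u w₀ else u i.1) θ, ?_, ?_⟩
  · constructor
    · rintro (i | w)
      · simp only [Sum.elim_inl, Pi.zero_apply]
        split_ifs
        · exact hu.1 w₀
        · exact hu.1 i.1
      · exact (hθ w).1
    · rintro (i | w)
      · simp only [Sum.elim_inl, Pi.one_apply]
        split_ifs
        · exact hu.2 w₀
        · exact hu.2 i.1
      · exact (hθ w).2
  · unfold φ
    rw [← hub, U_eq, hGu]
    exact hxΘ.symm


/-! ### The main statements -/

variable (K) in
theorem card_Par_add_one : Fintype.card (Par K) + 1 = Module.finrank ℚ K := by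
  have h1 : Fintype.card {w : InfinitePlace K // w ≠ w₀} = rank K := by
    rw [← Fintype.card_fin (rank K)]
    exact (Fintype.card_congr equivFinRank).symm
  have h2 : Fintype.card {w : InfinitePlace K // IsComplex w} = nrComplexPlaces K := by
    unfold nrComplexPlaces
    exact Fintype.card_congr (Equiv.refl _)
  have h3 := card_eq_nrRealPlaces_add_nrComplexPlaces K
  have h4 := card_add_two_mul_card_eq_rank K
  have h5 : 0 < Fintype.card (InfinitePlace K) := Fintype.card_pos
  rw [Fintype.card_sum, h1, h2]
  unfold rank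
  omega

/-- General form: for every finite type `κ'` in bijection with `Par K`, the frontier of
`normLeOne K` is covered by finitely many images of the unit cube of `κ' → ℝ` under maps that are
Lipschitz on the cube (with a common constant). -/
theorem exists_lipschitz_cover_of_equiv {κ' : Type*} [Fintype κ'] (e : Par K ≃ κ') :
    ∃ (m : ℕ) (ψ : Fin m → (κ' → ℝ) → mixedSpace K) (L : NNReal),
      (∀ j, LipschitzOnWith L (ψ j) (Set.Icc 0 1)) ∧
        frontier (normLeOne K) ⊆ ⋃ j, ψ j '' Set.Icc 0 1 := by
  let J := (InfinitePlace K × Bool) × ({w : InfinitePlace K // IsReal w} → Bool)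
  let m := Fintype.card J
  let eJ : Fin m ≃ J := (Fintype.equivFin J).symm
  let ψ : Fin m → (κ' → ℝ) → mixedSpace K := fun j v' =>
    φ (eJ j).1.1 (if (eJ j).1.2 then 1 else 0) (eJ j).2 (fun p => v' (e p))
  have hψ : ∀ j, ContDiff ℝ 1 (ψ j) := by
    intro j
    refine (contDiff_φ _ _ _).comp ?_
    rw [contDiff_pi]
    intro p
    exact contDiff_apply ℝ ℝ (e p)
  choose Lj hLj using fun j => exists_lipschitzOnWith_Icc (hψ j)
  refine ⟨m, ψ, Finset.univ.sup Lj, fun j => (hLj j).weaken (Finset.le_sup (Finset.mem_univ j)), ?_⟩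
  intro x hx
  obtain ⟨i₀, b, ε, v, hv, hvx⟩ := exists_φ_eq_of_mem_frontier hx
  refine Set.mem_iUnion.2 ⟨eJ.symm ((i₀, b), ε), fun q => v (e.symm q), ?_, ?_⟩
  · exact ⟨fun q => hv.1 (e.symm q), fun q => hv.2 (e.symm q)⟩
  · simp only [ψ, Equiv.apply_symm_apply, Equiv.symm_apply_apply]
    exact hvx

variable (K) in
/-- **WP4a-B**, in the shape requested by helper34 (#433): the frontier of `normLeOne K` is covered
by finitely many Lipschitz images of the unit cube of dimension `finrank ℚ K - 1`. -/
theorem exists_lipschitz_cover_frontier_normLeOne :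
    ∃ (κ' : Type) (_ : Fintype κ') (_ : Fintype.card κ' + 1 = Module.finrank ℚ K) (m : ℕ)
      (φ : Fin m → (κ' → ℝ) → mixedSpace K) (L : NNReal),
      (∀ j, LipschitzOnWith L (φ j) (Set.Icc 0 1)) ∧
        frontier (normLeOne K) ⊆ ⋃ j, φ j '' Set.Icc 0 1 := by
  refine ⟨Fin (Fintype.card (Par K)), inferInstance, ?_, ?_⟩
  · rw [Fintype.card_fin]; exact card_Par_add_one K
  · exact exists_lipschitz_cover_of_equiv (Fintype.equivFin (Par K))

variable (K) in
/-- The same with the explicit index type `Fin (finrank ℚ K - 1)`. -/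
theorem exists_lipschitz_cover_frontier_normLeOne_fin :
    ∃ (m : ℕ) (φ : Fin m → (Fin (Module.finrank ℚ K - 1) → ℝ) → mixedSpace K) (L : NNReal),
      (∀ j, LipschitzOnWith L (φ j) (Set.Icc 0 1)) ∧
        frontier (normLeOne K) ⊆ ⋃ j, φ j '' Set.Icc 0 1 := by
  have h : Fintype.card (Par K) = Module.finrank ℚ K - 1 := by
    have := card_Par_add_one K
    omega
  exact exists_lipschitz_cover_of_equiv ((Fintype.equivFin (Par K)).trans (finCongr h))

end Fermat.Agent.S14.H38
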