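import Mathlib
import Fermat.Agent.S14.H34_LatticeCount
import Fermat.Agent.S14.H38_Frontier

set_option autoImplicit false
set_option linter.unusedSectionVars false

/-!
# Counting integral ideals in a class, with error term

`#{I integral ideal in the class C : N(I) ≤ x} = κ x + O(x^(1 - 1/n))` with `κ` the constant of the
analytic class number formula (independent of the class `C`).

The reduction chain (ideals of a class -> principal ideals divisible by `J` -> points of
`idealSet K J` -> lattice points in a cone) follows Mathlib's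
`NumberField.Ideal.tendsto_norm_le_and_mk_eq_div_atTop` (X. Roblot); the two auxiliary statements
below are re-proved because they are private there.
-/

open Ideal Filter NumberField NumberField.InfinitePlace NumberField.mixedEmbedding
  NumberField.mixedEmbedding.euclidean NumberField.mixedEmbedding.fundamentalCone
  NumberField.Units Submodule Topology MeasureTheory Bornology
open scoped nonZeroDivisors Real NNReal

noncomputable section

namespace Fermat.Agent.S14.H34

variable (K : Type*) [Field K] [NumberField K]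

variable {K} in
theorem card_class_eq_card_dvd {C : ClassGroup (𝓞 K)} {J : (Ideal (𝓞 K))⁰} {s : ℝ}
    (hJ : ClassGroup.mk0 J = C⁻¹) :
    Nat.card {I : (Ideal (𝓞 K))⁰ // absNorm (I : Ideal (𝓞 K)) ≤ s ∧ ClassGroup.mk0 I = C}
      = Nat.card {I : (Ideal (𝓞 K))⁰ // (J : Ideal (𝓞 K)) ∣ I ∧ IsPrincipal (I : Ideal (𝓞 K)) ∧
        absNorm (I : Ideal (𝓞 K)) ≤ s * absNorm (J : Ideal (𝓞 K))} := by
  simp_rw [← nonZeroDivisors_dvd_iff_dvd_coe]
  refine Nat.card_congr ?_
  refine ((Equiv.dvd J).subtypeEquiv fun I ↦ ?_).trans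
    (Equiv.subtypeSubtypeEquivSubtypeInter (fun I : (Ideal (𝓞 K))⁰ ↦ J ∣ I) _)
  rw [← ClassGroup.mk0_eq_one_iff (SetLike.coe_mem _)]
  simp_rw [Equiv.dvd_apply, Submonoid.coe_mul, ← Submonoid.mul_def, _root_.map_mul, hJ,
    inv_mul_eq_one, Nat.cast_mul, mul_comm s, eq_comm, and_comm, and_congr_left_iff]
  exact fun _ ↦
    (mul_le_mul_iff_of_pos_left (Nat.cast_pos.mpr (absNorm_pos_of_nonZeroDivisors J))).symm

open scoped Classical in
variable {K} in
def latticeConeEquiv (J : (Ideal (𝓞 K))⁰) (s : ℝ) :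
    ↑({x | x ∈ (toMixed K) ⁻¹' fundamentalCone K ∧ mixedEmbedding.norm ((toMixed K) x) ≤ s} ∩
      (ZLattice.comap ℝ (idealLattice K ((FractionalIdeal.mk0 K) J)) (toMixed K).toLinearMap))
        ≃ {a : idealSet K J // mixedEmbedding.norm (a : mixedSpace K) ≤ s} := by
  rw [ZLattice.coe_comap]
  refine (((toMixed K).toEquiv.image _).trans (Equiv.subtypeEquivProp ?_)).trans
    (Equiv.subtypeSubtypeEquivSubtypeInter _ (mixedEmbedding.norm · ≤ s)).symm
  ext
  simp_rw [mem_idealSet, Set.mem_image, Set.mem_inter_iff, Set.mem_preimage, SetLike.mem_coe,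
    mem_idealLattice, FractionalIdeal.coe_mk0]
  constructor
  · rintro ⟨_, ⟨⟨hx₁, hx₂⟩, _, ⟨x, hx₃, rfl⟩, h⟩, rfl⟩
    exact ⟨⟨hx₁, x, hx₃, h⟩, hx₂⟩
  · rintro ⟨⟨hx₁, ⟨x, hx₂, rfl⟩⟩, hx₃⟩
    exact ⟨(toMixed K).symm (mixedEmbedding K x), ⟨⟨hx₁, hx₃⟩, ⟨(x : K), by simp [hx₂], rfl⟩⟩, rfl⟩


set_option backward.isDefEq.respectTransparency false in
open scoped Classical in
theorem exists_cone_count_error (J : (Ideal (𝓞 K))⁰) :
    ∃ C : ℝ, ∀ c : ℝ, 1 ≤ c →
      |(Nat.card {a : idealSet K J // mixedEmbedding.norm (a : mixedSpace K) ≤ c} : ℝ) -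
        volume.real ((toMixed K) ⁻¹' normLeOne K) / ZLattice.covolume (ZLattice.comap (E := mixedSpace K) (F := euclidean.mixedSpace K) ℝ
          (mixedEmbedding.idealLattice K (FractionalIdeal.mk0 K J)) (toMixed K).toLinearMap) * c| ≤
        C * c ^ (1 - 1 / (Module.finrank ℚ K : ℝ)) := by
  obtain ⟨κ', hκ'F, hκ', m, φ, Lc, hφ, hcov⟩ :=
    Fermat.Agent.S14.H38.exists_lipschitz_cover_frontier_normLeOne K
  have h₁ : ∀ s : ℝ,
    {x | x ∈ toMixed K ⁻¹' fundamentalCone K ∧ mixedEmbedding.norm (toMixed K x) ≤ s} =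
      toMixed K ⁻¹' {x | x ∈ fundamentalCone K ∧ mixedEmbedding.norm x ≤ s} := fun _ ↦ rfl
  have h₂ : {x | x ∈ fundamentalCone K ∧ mixedEmbedding.norm x ≤ 1} = normLeOne K := by
    ext; simp
  have hfin : Module.finrank ℝ (euclidean.mixedSpace K) = Module.finrank ℚ K :=
    euclidean.finrank K
  -- the Lipschitz cover transported to the Euclidean space
  let ψ : Fin m → (κ' → ℝ) → euclidean.mixedSpace K := fun j => (toMixed K).symm ∘ φ j
  have hψ : ∀ j, LipschitzOnWith
      (‖((toMixed K).symm : mixedSpace K →L[ℝ] euclidean.mixedSpace K)‖₊ * Lc) (ψ j)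
      (Set.Icc 0 1) := fun j =>
    ((toMixed K).symm : mixedSpace K →L[ℝ] euclidean.mixedSpace K).lipschitz.comp_lipschitzOnWith
      (hφ j)
  have hfr : frontier {x | x ∈ toMixed K ⁻¹' fundamentalCone K ∧
      mixedEmbedding.norm (toMixed K x) ≤ 1} ⊆ ⋃ j, ψ j '' Set.Icc 0 1 := by
    rw [h₁, h₂, ← (toMixed K).coe_toHomeomorph, ← Homeomorph.preimage_frontier]
    intro x hx
    obtain ⟨j, u, hu, huv⟩ := Set.mem_iUnion.mp (hcov hx)
    refine Set.mem_iUnion.mpr ⟨j, u, hu, ?_⟩
    simp only [ψ, Function.comp_apply, huv]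
    exact (toMixed K).symm_apply_apply x
  have key := exists_abs_card_cone_le_sub_le (E := euclidean.mixedSpace K) (ZLattice.comap (E := mixedSpace K) (F := euclidean.mixedSpace K) ℝ
          (mixedEmbedding.idealLattice K (FractionalIdeal.mk0 K J)) (toMixed K).toLinearMap)
    (X := (toMixed K) ⁻¹' (fundamentalCone K))
    (F := fun x ↦ mixedEmbedding.norm (toMixed K x))
    (fun _ _ _ h ↦ by rwa [Set.mem_preimage, map_smul, smul_mem_iff_mem h.ne'])
    (fun _ _ h ↦ by rw [map_smul, mixedEmbedding.norm_smul, euclidean.finrank, abs_of_nonneg h])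
    (by
      rw [h₁, h₂]
      exact (toMixed K).antilipschitz.isBounded_preimage (isBounded_normLeOne K))
    (by
      rw [h₁, h₂]
      exact ((toMixed K).continuous.measurable (measurableSet_normLeOne K)).nullMeasurableSet)
    (hfin ▸ hκ') ψ _ hψ hfr
  obtain ⟨C, hC⟩ := key
  refine ⟨C, fun c hc => ?_⟩
  have := hC c hc
  rw [hfin, h₁ 1, h₂] at this
  rwa [Nat.card_congr (latticeConeEquiv J c)] at this

/-- the constant of the analytic class number formula (without the class number) -/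
def kappa : ℝ :=
  (2 ^ nrRealPlaces K * (2 * π) ^ nrComplexPlaces K * regulator K) /
    (torsionOrder K * Real.sqrt |discr K|)

theorem kappa_pos : 0 < kappa K := by
  unfold kappa
  have h1 : 0 < regulator K := regulator_pos K
  have h2 : (0 : ℝ) < torsionOrder K := by
    exact_mod_cast Nat.pos_of_ne_zero (torsionOrder_ne_zero K)
  have h3 : 0 < Real.sqrt |(discr K : ℝ)| := by
    apply Real.sqrt_pos.mpr
    exact abs_pos.mpr (by exact_mod_cast discr_ne_zero K)
  positivity

set_option backward.isDefEq.respectTransparency false in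
open scoped Classical in
theorem const_eq_kappa (J : (Ideal (𝓞 K))⁰) :
    volume.real ((toMixed K) ⁻¹' normLeOne K) / ZLattice.covolume (ZLattice.comap (E := mixedSpace K) (F := euclidean.mixedSpace K) ℝ
          (mixedEmbedding.idealLattice K (FractionalIdeal.mk0 K J)) (toMixed K).toLinearMap) *
      ((absNorm (J : Ideal (𝓞 K)) : ℝ) * (torsionOrder K : ℝ)⁻¹) = kappa K := by
  have h₃ : (absNorm J.1 : ℝ) ≠ 0 := (Nat.cast_ne_zero.mpr (absNorm_ne_zero_of_nonZeroDivisors J))
  unfold kappa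
  rw [MeasureTheory.measureReal_def, (volumePreserving_toMixed K).measure_preimage
      (measurableSet_normLeOne K).nullMeasurableSet, volume_normLeOne, ZLattice.covolume_comap
      _ _ _ (volumePreserving_toMixed K), covolume_idealLattice, ENNReal.toReal_mul,
      ENNReal.toReal_mul, ENNReal.toReal_pow, ENNReal.toReal_pow, ENNReal.toReal_ofNat,
      ENNReal.coe_toReal, NNReal.coe_real_pi, ENNReal.toReal_ofReal (regulator_pos K).le,
      FractionalIdeal.coe_mk0, FractionalIdeal.coeIdeal_absNorm, Rat.cast_natCast]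
  have h2 : (0 : ℝ) < torsionOrder K := by
    exact_mod_cast Nat.pos_of_ne_zero (torsionOrder_ne_zero K)
  have h3 : 0 < Real.sqrt |(discr K : ℝ)| := by
    apply Real.sqrt_pos.mpr
    exact abs_pos.mpr (by exact_mod_cast discr_ne_zero K)
  field_simp
  have : ((1 : ℝ) / 2) ^ nrComplexPlaces K * (2 * π) ^ nrComplexPlaces K
      = π ^ nrComplexPlaces K := by
    rw [← mul_pow]; congr 1; ring
  linear_combination (-(regulator K)) * this

set_option backward.isDefEq.respectTransparency false in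
open scoped Classical in
/-- ideal count with error term in a fixed class -/
theorem exists_ideal_count_error_class (C : ClassGroup (𝓞 K)) :
    ∃ M : ℝ, ∀ x : ℝ, 1 ≤ x →
      |(Nat.card {I : (Ideal (𝓞 K))⁰ //
          absNorm (I : Ideal (𝓞 K)) ≤ x ∧ ClassGroup.mk0 I = C} : ℝ) - kappa K * x| ≤
        M * x ^ (1 - 1 / (Module.finrank ℚ K : ℝ)) := by
  obtain ⟨J, hJ⟩ := ClassGroup.mk0_surjective C⁻¹
  obtain ⟨C₀, hC₀⟩ := exists_cone_count_error K J
  have hNJ1 : (1 : ℝ) ≤ absNorm (J : Ideal (𝓞 K)) := by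
    exact_mod_cast Nat.one_le_iff_ne_zero.mpr (absNorm_ne_zero_of_nonZeroDivisors J)
  have hw : (0 : ℝ) < torsionOrder K := by
    exact_mod_cast Nat.pos_of_ne_zero (torsionOrder_ne_zero K)
  have hn : (1 : ℝ) ≤ Module.finrank ℚ K := by
    exact_mod_cast (Module.finrank_pos : 0 < Module.finrank ℚ K)
  have hexp0 : 0 ≤ 1 - 1 / (Module.finrank ℚ K : ℝ) := by
    rw [sub_nonneg, div_le_one (by linarith)]; exact hn
  have hexp1 : 1 - 1 / (Module.finrank ℚ K : ℝ) ≤ 1 := by
    have : 0 ≤ 1 / (Module.finrank ℚ K : ℝ) := by positivity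
    linarith
  refine ⟨|C₀| * absNorm (J : Ideal (𝓞 K)) / torsionOrder K, fun x hx => ?_⟩
  have hx0 : 0 < x := lt_of_lt_of_le one_pos hx
  set c := x * absNorm (J : Ideal (𝓞 K)) with hc
  have hc1 : 1 ≤ c := by
    rw [hc]; nlinarith
  have e1 : (Nat.card {I : (Ideal (𝓞 K))⁰ //
      absNorm (I : Ideal (𝓞 K)) ≤ x ∧ ClassGroup.mk0 I = C} : ℝ) * torsionOrder K =
      Nat.card {a : idealSet K J // mixedEmbedding.norm (a : mixedSpace K) ≤ c} := by
    rw [card_class_eq_card_dvd hJ, ← card_isPrincipal_dvd_norm_le]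
    push_cast
    rfl
  have e2 := hC₀ c hc1
  have e3 := const_eq_kappa K J
  set V := volume.real ((toMixed K) ⁻¹' normLeOne K) /
    ZLattice.covolume (ZLattice.comap (E := mixedSpace K) (F := euclidean.mixedSpace K) ℝ
          (mixedEmbedding.idealLattice K (FractionalIdeal.mk0 K J)) (toMixed K).toLinearMap)
    with hV
  set Nc := (Nat.card {I : (Ideal (𝓞 K))⁰ //
      absNorm (I : Ideal (𝓞 K)) ≤ x ∧ ClassGroup.mk0 I = C} : ℝ) with hNc
  have e4 : Nc - kappa K * x =
      ((Nat.card {a : idealSet K J // mixedEmbedding.norm (a : mixedSpace K) ≤ c} : ℝ) -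
        V * c) / torsionOrder K := by
    rw [← e1, ← e3, hc]
    field_simp
  rw [e4, abs_div, abs_of_pos hw, div_le_iff₀ hw]
  refine e2.trans ?_
  have h5 : c ^ (1 - 1 / (Module.finrank ℚ K : ℝ)) ≤
      x ^ (1 - 1 / (Module.finrank ℚ K : ℝ)) * absNorm (J : Ideal (𝓞 K)) := by
    rw [hc, Real.mul_rpow hx0.le (by linarith)]
    apply mul_le_mul_of_nonneg_left _ (Real.rpow_nonneg hx0.le _)
    calc (absNorm (J : Ideal (𝓞 K)) : ℝ) ^ (1 - 1 / (Module.finrank ℚ K : ℝ))
        ≤ (absNorm (J : Ideal (𝓞 K)) : ℝ) ^ (1 : ℝ) :=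
          Real.rpow_le_rpow_of_exponent_le hNJ1 hexp1
      _ = absNorm (J : Ideal (𝓞 K)) := Real.rpow_one _
  calc C₀ * c ^ (1 - 1 / (Module.finrank ℚ K : ℝ))
      ≤ |C₀| * c ^ (1 - 1 / (Module.finrank ℚ K : ℝ)) :=
        mul_le_mul_of_nonneg_right (le_abs_self _) (Real.rpow_nonneg (by linarith) _)
    _ ≤ |C₀| * (x ^ (1 - 1 / (Module.finrank ℚ K : ℝ)) * absNorm (J : Ideal (𝓞 K))) :=
        mul_le_mul_of_nonneg_left h5 (abs_nonneg _)
    _ = |C₀| * absNorm (J : Ideal (𝓞 K)) / torsionOrder K *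
          x ^ (1 - 1 / (Module.finrank ℚ K : ℝ)) * torsionOrder K := by
        field_simp

/-- **Ideal counting with error term**: the number of integral ideals of norm `≤ x` in a fixed
ideal class is `κ x + O(x^(1 - 1/n))`, with `κ = kappa K` independent of the class and a uniform
`O`-constant. -/
theorem exists_ideal_count_error :
    ∃ κ M : ℝ, 0 < κ ∧ ∀ (C : ClassGroup (𝓞 K)) (x : ℝ), 1 ≤ x →
      |(Nat.card {I : (Ideal (𝓞 K))⁰ //
          absNorm (I : Ideal (𝓞 K)) ≤ x ∧ ClassGroup.mk0 I = C} : ℝ) - κ * x| ≤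
        M * x ^ (1 - 1 / (Module.finrank ℚ K : ℝ)) := by
  classical
  choose M hM using exists_ideal_count_error_class K
  refine ⟨kappa K, ∑ C, |M C|, kappa_pos K, fun C x hx => (hM C x hx).trans ?_⟩
  apply mul_le_mul_of_nonneg_right _ (Real.rpow_nonneg (by linarith) _)
  exact (le_abs_self _).trans
    (Finset.single_le_sum (f := fun C => |M C|) (fun _ _ => abs_nonneg _) (Finset.mem_univ C))

end Fermat.Agent.S14.H34
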