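import Mathlib

set_option autoImplicit false

/-!
# Euler product for a free commutative monoid, in `ℝ≥0∞`

For a family `x : ι → ℝ≥0∞`, the sum over all finitely supported exponent vectors
`k : ι →₀ ℕ` of the monomials `∏ i, x i ^ k i` equals the supremum over finite sets `s` of the
finite products `∏ i ∈ s, ∑' n, x i ^ n`.
-/

namespace Fermat.Agent.S14.H72

open scoped ENNReal

variable {ι : Type*}

/-- The monomial `∏ i, x i ^ k i`. -/
noncomputable def monoWt (x : ι → ℝ≥0∞) (k : ι →₀ ℕ) : ℝ≥0∞ :=
  k.prod fun i n => x i ^ n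

lemma monoWt_zero (x : ι → ℝ≥0∞) : monoWt x 0 = 1 := by
  simp [monoWt]

lemma monoWt_single_add (x : ι → ℝ≥0∞) (a : ι) (n : ℕ) (k : ι →₀ ℕ) :
    monoWt x (Finsupp.single a n + k) = x a ^ n * monoWt x k := by
  classical
  unfold monoWt
  rw [Finsupp.prod_add_index' (fun _ => pow_zero _) (fun _ _ _ => pow_add _ _ _)]
  congr 1
  exact Finsupp.prod_single_index (pow_zero _)

/-- Exponent vectors supported in a finite set `s`. -/
def suppIn (s : Finset ι) : Set (ι →₀ ℕ) := {k | k.support ⊆ s}

/-- Splitting off the exponent at a new index `a ∉ s`. -/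
noncomputable def splitEquiv [DecidableEq ι] (s : Finset ι) (a : ι) (ha : a ∉ s) :
    ℕ × suppIn s ≃ suppIn (insert a s) where
  toFun p := ⟨Finsupp.single a p.1 + p.2.1, by
    intro i hi
    have := Finsupp.support_add hi
    rcases Finset.mem_union.mp this with h | h
    · have : i = a := by
        by_contra hne
        simp [Ne.symm hne] at h
      exact this ▸ Finset.mem_insert_self _ _
    · exact Finset.mem_insert_of_mem (p.2.2 h)⟩
  invFun k := (k.1 a, ⟨k.1.erase a, by
    intro i hi
    rw [Finsupp.support_erase] at hi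
    have h1 := Finset.mem_of_mem_erase hi
    have h2 := Finset.ne_of_mem_erase hi
    exact Finset.mem_of_mem_insert_of_ne (k.2 h1) h2⟩)
  left_inv p := by
    obtain ⟨n, k, hk⟩ := p
    have hka : k a = 0 := by
      by_contra h
      exact ha (hk (Finsupp.mem_support_iff.mpr h))
    ext1
    · simp [hka]
    · apply Subtype.ext
      simp only [Finsupp.erase_add, Finsupp.erase_single, zero_add]
      exact Finsupp.erase_of_notMem_support (fun h => ha (hk h))
  right_inv k := by
    apply Subtype.ext
    exact Finsupp.single_add_erase a k.1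

lemma tsum_suppIn (x : ι → ℝ≥0∞) (s : Finset ι) :
    ∑' k : suppIn s, monoWt x k.1 = ∏ i ∈ s, ∑' n : ℕ, x i ^ n := by
  classical
  induction s using Finset.induction_on with
  | empty =>
    let _ : Unique (suppIn (∅ : Finset ι)) :=
      { default := ⟨0, by simp [suppIn]⟩
        uniq := fun k => by
          apply Subtype.ext
          have := k.2
          simpa [suppIn] using this }
    rw [tsum_eq_single default (fun b hb => (hb (Unique.eq_default b)).elim)]
    rw [Finset.prod_empty]
    exact monoWt_zero x
  | insert a s ha ih =>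
    rw [Finset.prod_insert ha, ← ih, ← (splitEquiv s a ha).tsum_eq, ENNReal.tsum_prod']
    simp only [splitEquiv, Equiv.coe_fn_mk, monoWt_single_add]
    rw [← ENNReal.tsum_mul_right]
    congr 1
    funext n
    rw [ENNReal.tsum_mul_left]

/-- **Euler product, `ℝ≥0∞` form.** -/
theorem tsum_monoWt_eq_iSup (x : ι → ℝ≥0∞) :
    ∑' k : ι →₀ ℕ, monoWt x k = ⨆ s : Finset ι, ∏ i ∈ s, ∑' n : ℕ, x i ^ n := by
  classical
  apply le_antisymm
  · rw [ENNReal.tsum_eq_iSup_sum]
    refine iSup_le fun t => ?_
    refine le_trans ?_ (le_iSup _ (t.biUnion fun k => k.support))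
    rw [← tsum_suppIn]
    have hmem : ∀ k ∈ t, k ∈ suppIn (t.biUnion fun k => k.support) := fun k hk =>
      Finset.subset_biUnion_of_mem (fun k : ι →₀ ℕ => k.support) hk
    calc ∑ k ∈ t, monoWt x k
        = ∑ k ∈ t.attach, monoWt x k.1 := (Finset.sum_attach t _).symm
      _ = ∑ k ∈ t.attach.map ⟨fun k => (⟨k.1, hmem k.1 k.2⟩ :
            suppIn (t.biUnion fun k => k.support)),
            fun a b h => Subtype.ext (by simpa using congrArg Subtype.val h)⟩,
            monoWt x k.1 := by
          rw [Finset.sum_map]; rfl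
      _ ≤ _ := ENNReal.sum_le_tsum _
  · refine iSup_le fun s => ?_
    rw [← tsum_suppIn]
    exact ENNReal.tsum_comp_le_tsum_of_injective Subtype.val_injective _

end Fermat.Agent.S14.H72
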