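import Mathlib

set_option autoImplicit false

/-!
# Nonzero ideals of a Dedekind domain as exponent vectors

`idealOfExps k = ∏ v, v.asIdeal ^ k v` for `k : HeightOneSpectrum R →₀ ℕ` is a bijection onto the
nonzero ideals.
-/

namespace Fermat.Agent.S14.H72

open IsDedekindDomain IsDedekindDomain.HeightOneSpectrum
open scoped nonZeroDivisors

variable (R : Type*) [CommRing R] [IsDedekindDomain R]

/-- The ideal `∏ v, v.asIdeal ^ k v`. -/
noncomputable def idealOfExps (k : HeightOneSpectrum R →₀ ℕ) : Ideal R :=
  k.prod fun v n => v.asIdeal ^ n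

variable {R}

lemma idealOfExps_ne_bot (k : HeightOneSpectrum R →₀ ℕ) : idealOfExps R k ≠ ⊥ := by
  unfold idealOfExps
  rw [Finsupp.prod, ← Ideal.zero_eq_bot, Finset.prod_ne_zero_iff]
  intro v _
  exact pow_ne_zero _ v.ne_bot

lemma count_idealOfExps (k : HeightOneSpectrum R →₀ ℕ) (v : HeightOneSpectrum R) :
    FractionalIdeal.count (FractionRing R) v
      ((idealOfExps R k : Ideal R) : FractionalIdeal R⁰ (FractionRing R)) = (k v : ℤ) := by
  have h := FractionalIdeal.count_finsuppProd (FractionRing R) v
    (k.mapRange (Nat.cast : ℕ → ℤ) Nat.cast_zero)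
  rw [Finsupp.mapRange_apply] at h
  rw [← h, Finsupp.prod_mapRange_index (fun _ => zpow_zero _)]
  congr 1
  unfold idealOfExps
  rw [← FractionalIdeal.coeIdealHom_apply, map_finsuppProd]
  refine Finsupp.prod_congr fun w _ => ?_
  rw [FractionalIdeal.coeIdealHom_apply, FractionalIdeal.coeIdeal_pow, zpow_natCast]

lemma idealOfExps_injective : Function.Injective (idealOfExps R) := by
  intro k k' h
  ext v
  have h1 := count_idealOfExps k v
  have h2 := count_idealOfExps k' v
  rw [h] at h1
  exact_mod_cast h1.symm.trans h2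

lemma exists_idealOfExps_eq {I : Ideal R} (hI : I ≠ ⊥) : ∃ k, idealOfExps R k = I := by
  classical
  have hfin := Ideal.hasFiniteMulSupport (R := R) hI
  let e : HeightOneSpectrum R → ℕ := fun v =>
    (Associates.mk v.asIdeal).count (Associates.mk I).factors
  have hsupp : (Function.support e).Finite := by
    have := Associates.finite_factors (R := R) hI
    rw [Filter.eventually_cofinite] at this
    refine this.subset fun v hv => ?_
    simpa [e] using hv
  refine ⟨Finsupp.ofSupportFinite e hsupp, ?_⟩
  unfold idealOfExps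
  rw [Finsupp.prod]
  conv_rhs => rw [← Ideal.finprod_heightOneSpectrum_factorization hI]
  rw [finprod_eq_prod_of_mulSupport_subset]
  · rfl
  · intro v hv
    simp only [Function.mem_mulSupport, ne_eq] at hv
    simp only [Finset.mem_coe, Finsupp.mem_support_iff, Finsupp.ofSupportFinite_coe, ne_eq]
    intro h0
    apply hv
    simp only [maxPowDividing]
    rw [show (Associates.mk v.asIdeal).count (Associates.mk I).factors = e v from rfl, h0, pow_zero]

/-- Exponent vectors are in bijection with nonzero ideals. -/
noncomputable def expsEquiv : (HeightOneSpectrum R →₀ ℕ) ≃ {I : Ideal R // I ≠ ⊥} :=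
  Equiv.ofBijective (fun k => ⟨idealOfExps R k, idealOfExps_ne_bot k⟩)
    ⟨fun _ _ h => idealOfExps_injective (congrArg Subtype.val h),
      fun I => by
        obtain ⟨k, hk⟩ := exists_idealOfExps_eq I.2
        exact ⟨k, Subtype.ext hk⟩⟩

@[simp] lemma expsEquiv_apply_coe (k : HeightOneSpectrum R →₀ ℕ) :
    ((expsEquiv k : {I : Ideal R // I ≠ ⊥}) : Ideal R) = idealOfExps R k := rfl

omit [IsDedekindDomain R] in
/-- A monoid-with-zero hom out of ideals evaluated on `idealOfExps`. -/
lemma map_idealOfExps {M : Type*} [CommMonoidWithZero M] (f : Ideal R →*₀ M)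
    (k : HeightOneSpectrum R →₀ ℕ) :
    f (idealOfExps R k) = k.prod fun v n => f v.asIdeal ^ n := by
  unfold idealOfExps
  rw [map_finsuppProd]
  simp

end Fermat.Agent.S14.H72
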