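import Mathlib
import Fermat.Agent.S14.H72_FreeMonoidSum
import Fermat.Agent.S14.H72_IdealExps

set_option autoImplicit false

/-!
# Euler product for the Dedekind zeta function (real `s > 1`)
-/

namespace Fermat.Agent.S14.H72

open NumberField Ideal Filter Topology IsDedekindDomain
open scoped ENNReal

variable (K : Type*) [Field K] [NumberField K]

/-- The number of integral ideals of norm `n`, as a real number. -/
noncomputable def idealCount (n : ℕ) : ℝ := Nat.card {I : Ideal (𝓞 K) // absNorm I = n}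

lemma idealCount_nonneg (n : ℕ) : 0 ≤ idealCount K n := Nat.cast_nonneg _

lemma dedekindZeta_eq_LSeries (s : ℂ) :
    dedekindZeta K s = LSeries (fun n => (idealCount K n : ℂ)) s := by
  unfold dedekindZeta idealCount
  congr 1

/-- The Dedekind zeta L-series converges for `re s > 1`. -/
theorem lseriesSummable_idealCount {s : ℂ} (hs : 1 < s.re) :
    LSeriesSummable (fun n => (idealCount K n : ℂ)) s := by
  refine LSeriesSummable_of_sum_norm_bigO_and_nonneg ?_ (idealCount_nonneg K) zero_le_one hs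
  have h := (Ideal.tendsto_norm_le_div_atTop₀ K).comp tendsto_natCast_atTop_atTop
  refine Asymptotics.isBigO_atTop_natCast_rpow_of_tendsto_div_rpow (𝕜 := ℝ) (r := 1)
    (a := (2 ^ InfinitePlace.nrRealPlaces K * (2 * Real.pi) ^ InfinitePlace.nrComplexPlaces K *
      Units.regulator K * ↑(classNumber K) / (↑(Units.torsionOrder K) * √|↑(discr K)|))) ?_
  simp only [Real.rpow_one]
  refine h.congr fun n => ?_
  simp only [Function.comp_apply, Nat.cast_le, idealCount, ← Nat.cast_sum]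
  congr
  rw [← add_left_inj 1, ← card_norm_le_eq_card_norm_le_add_one,
    show Finset.Icc 1 n = Finset.Ioc 0 n from Finset.Icc_succ_left_eq_Ioc _ _,
    show 1 = Nat.card {I : Ideal (𝓞 K) // absNorm I = 0} by simp [Ideal.absNorm_eq_zero_iff],
    Finset.sum_Ioc_add_eq_sum_Icc (n.zero_le),
    ← Finset.card_preimage_eq_sum_card_image_eq (fun k _ ↦ finite_setOfPred_absNorm_eq k)]
  simp [Set.coe_eq_subtype]

/-- The real `n`-th term of the Dedekind zeta series. -/
noncomputable def zetaTerm (s : ℝ) (n : ℕ) : ℝ := idealCount K n * (n : ℝ) ^ (-s)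

lemma zetaTerm_nonneg (s : ℝ) (n : ℕ) : 0 ≤ zetaTerm K s n :=
  mul_nonneg (idealCount_nonneg K n) (Real.rpow_nonneg (Nat.cast_nonneg n) _)

lemma term_eq_zetaTerm {s : ℝ} (hs : s ≠ 0) (n : ℕ) :
    LSeries.term (fun n => (idealCount K n : ℂ)) (s : ℂ) n = ((zetaTerm K s n : ℝ) : ℂ) := by
  rw [LSeries.term_def]
  unfold zetaTerm
  split_ifs with h
  · subst h
    simp [Real.zero_rpow (neg_ne_zero.mpr hs)]
  · rw [Real.rpow_neg (Nat.cast_nonneg n), Complex.ofReal_mul, Complex.ofReal_inv,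
      Complex.ofReal_cpow (Nat.cast_nonneg n), Complex.ofReal_natCast, div_eq_mul_inv]

theorem summable_zetaTerm {s : ℝ} (hs : 1 < s) : Summable (zetaTerm K s) := by
  have h := lseriesSummable_idealCount K (s := (s : ℂ)) (by simpa using hs)
  unfold LSeriesSummable at h
  rw [← Complex.summable_ofReal]
  refine h.congr fun n => ?_
  rw [term_eq_zetaTerm K (by linarith) n]

/-- The Dedekind zeta function at a real `s > 1`, as a real number. -/
noncomputable def zetaReal (s : ℝ) : ℝ := ∑' n, zetaTerm K s n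

theorem dedekindZeta_eq_zetaReal {s : ℝ} (hs : 1 < s) :
    dedekindZeta K (s : ℂ) = ((zetaReal K s : ℝ) : ℂ) := by
  rw [dedekindZeta_eq_LSeries, LSeries, zetaReal, Complex.ofReal_tsum]
  refine tsum_congr fun n => ?_
  rw [term_eq_zetaTerm K (by linarith) n]

/-- The `ℝ≥0∞`-valued norm weight of an ideal. -/
noncomputable def idealWt (s : ℝ) (I : Ideal (𝓞 K)) : ℝ≥0∞ :=
  ENNReal.ofReal ((absNorm I : ℝ) ^ (-s))

theorem ofReal_zetaReal_eq_tsum_ideal {s : ℝ} (hs : 1 < s) :
    ENNReal.ofReal (zetaReal K s) = ∑' I : Ideal (𝓞 K), idealWt K s I := by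
  classical
  rw [zetaReal, ENNReal.ofReal_tsum_of_nonneg (zetaTerm_nonneg K s) (summable_zetaTerm K hs)]
  rw [← (Equiv.sigmaFiberEquiv (fun I : Ideal (𝓞 K) => absNorm I)).tsum_eq, ENNReal.tsum_sigma']
  refine tsum_congr fun n => ?_
  have hfin : Finite {I : Ideal (𝓞 K) // absNorm I = n} := finite_setOfPred_absNorm_eq n
  have : Fintype {I : Ideal (𝓞 K) // absNorm I = n} := Fintype.ofFinite _
  rw [tsum_fintype]
  have : ∀ b : {I : Ideal (𝓞 K) // absNorm I = n},
      idealWt K s ((Equiv.sigmaFiberEquiv (fun I : Ideal (𝓞 K) => absNorm I)) ⟨n, b⟩) =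
        ENNReal.ofReal ((n : ℝ) ^ (-s)) := by
    intro b
    simp only [idealWt, Equiv.sigmaFiberEquiv_apply, b.2]
  rw [Finset.sum_congr rfl (fun b _ => this b), Finset.sum_const, Finset.card_univ,
    ← Nat.card_eq_fintype_card, nsmul_eq_mul, zetaTerm, idealCount,
    ENNReal.ofReal_mul (Nat.cast_nonneg _), ENNReal.ofReal_natCast]

/-- `N(P)^(-s)` for a prime `P`. -/
noncomputable def primeTerm (s : ℝ) (P : HeightOneSpectrum (𝓞 K)) : ℝ :=
  (absNorm P.asIdeal : ℝ) ^ (-s)

lemma primeTerm_pos (s : ℝ) (P : HeightOneSpectrum (𝓞 K)) : 0 < primeTerm K s P := by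
  unfold primeTerm
  apply Real.rpow_pos_of_pos
  exact_mod_cast Nat.pos_of_ne_zero (fun h => P.ne_bot (absNorm_eq_zero_iff.mp h))

lemma two_le_absNorm (P : HeightOneSpectrum (𝓞 K)) : 2 ≤ absNorm P.asIdeal := by
  have h0 : absNorm P.asIdeal ≠ 0 := fun h => P.ne_bot (absNorm_eq_zero_iff.mp h)
  have h1 : absNorm P.asIdeal ≠ 1 := fun h => P.isPrime.ne_top (absNorm_eq_one_iff.mp h)
  omega

lemma primeTerm_le_half {s : ℝ} (hs : 1 ≤ s) (P : HeightOneSpectrum (𝓞 K)) :
    primeTerm K s P ≤ 1 / 2 := by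
  unfold primeTerm
  have h2 : (2 : ℝ) ≤ absNorm P.asIdeal := by exact_mod_cast two_le_absNorm K P
  calc ((absNorm P.asIdeal : ℝ)) ^ (-s) ≤ (2 : ℝ) ^ (-s) :=
        Real.rpow_le_rpow_of_nonpos (by norm_num) h2 (by linarith)
    _ ≤ (2 : ℝ) ^ (-1 : ℝ) := Real.rpow_le_rpow_of_exponent_le (by norm_num) (by linarith)
    _ = 1 / 2 := by rw [Real.rpow_neg_one]; norm_num

lemma idealWt_idealOfExps (s : ℝ) (k : HeightOneSpectrum (𝓞 K) →₀ ℕ) :
    idealWt K s (idealOfExps (𝓞 K) k) =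
      monoWt (fun P => ENNReal.ofReal (primeTerm K s P)) k := by
  unfold idealWt monoWt primeTerm
  rw [map_idealOfExps (Ideal.absNorm (S := 𝓞 K)) k, Finsupp.prod, Finsupp.prod, Nat.cast_prod,
    ← Real.finsetProd_rpow _ _ (fun i _ => by positivity),
    ENNReal.ofReal_prod_of_nonneg (fun i _ => by positivity)]
  refine Finset.prod_congr rfl fun P _ => ?_
  rw [Nat.cast_pow, ← Real.rpow_pow_comm (Nat.cast_nonneg _),
    ENNReal.ofReal_pow (Real.rpow_nonneg (Nat.cast_nonneg _) _)]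

theorem tsum_idealWt_eq_tsum_monoWt {s : ℝ} (hs : s ≠ 0) :
    ∑' I : Ideal (𝓞 K), idealWt K s I =
      ∑' k : HeightOneSpectrum (𝓞 K) →₀ ℕ,
        monoWt (fun P => ENNReal.ofReal (primeTerm K s P)) k := by
  have hsupp : Function.support (idealWt K s) ⊆ {I : Ideal (𝓞 K) | I ≠ ⊥} := by
    intro I hI hbot
    apply hI
    simp [idealWt, hbot, Real.zero_rpow (neg_ne_zero.mpr hs)]
  rw [← tsum_subtype_eq_of_support_subset hsupp]
  change ∑' x : {I : Ideal (𝓞 K) // I ≠ ⊥}, idealWt K s x.1 = _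
  rw [← (expsEquiv (R := 𝓞 K)).tsum_eq]
  refine tsum_congr fun k => ?_
  exact idealWt_idealOfExps K s k

/-- **Euler product for the Dedekind zeta function**, `ℝ≥0∞`-supremum form. -/
theorem ofReal_zetaReal_eq_iSup {s : ℝ} (hs : 1 < s) :
    ENNReal.ofReal (zetaReal K s) =
      ⨆ T : Finset (HeightOneSpectrum (𝓞 K)),
        ∏ P ∈ T, (1 - ENNReal.ofReal (primeTerm K s P))⁻¹ := by
  rw [ofReal_zetaReal_eq_tsum_ideal K hs, tsum_idealWt_eq_tsum_monoWt K (by linarith),
    tsum_monoWt_eq_iSup]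
  simp only [ENNReal.tsum_geometric]

end Fermat.Agent.S14.H72
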