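import Mathlib
import Fermat.Agent.S14.H72_ZetaEuler

set_option autoImplicit false

/-!
# `log ζ_K(s)` versus the prime ideal sum `∑ N(P)^(-s)`
-/

namespace Fermat.Agent.S14.H72

open NumberField Ideal Filter Topology IsDedekindDomain
open scoped ENNReal

variable (K : Type*) [Field K] [NumberField K]

theorem one_le_zetaReal {s : ℝ} (hs : 1 < s) : 1 ≤ zetaReal K s := by
  have h := ofReal_zetaReal_eq_iSup K hs
  have h1 : (1 : ℝ≥0∞) ≤ ENNReal.ofReal (zetaReal K s) := by
    rw [h]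
    refine le_trans ?_ (le_iSup _ (∅ : Finset (HeightOneSpectrum (𝓞 K))))
    simp
  exact ENNReal.one_le_ofReal.mp h1

lemma ofReal_inv_one_sub {x : ℝ} (hx0 : 0 ≤ x) (hx1 : x < 1) :
    (1 - ENNReal.ofReal x)⁻¹ = ENNReal.ofReal ((1 - x)⁻¹) := by
  rw [ENNReal.ofReal_inv_of_pos (by linarith), ENNReal.ofReal_sub _ hx0, ENNReal.ofReal_one]

/-- Finite partial Euler products are bounded by `ζ_K(s)`. -/
theorem prod_le_zetaReal {s : ℝ} (hs : 1 < s) (T : Finset (HeightOneSpectrum (𝓞 K))) :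
    ∏ P ∈ T, (1 - primeTerm K s P)⁻¹ ≤ zetaReal K s := by
  have h := ofReal_zetaReal_eq_iSup K hs
  have hle : ∏ P ∈ T, (1 - ENNReal.ofReal (primeTerm K s P))⁻¹ ≤
      ENNReal.ofReal (zetaReal K s) := by
    rw [h]; exact le_iSup (fun T : Finset (HeightOneSpectrum (𝓞 K)) =>
      ∏ P ∈ T, (1 - ENNReal.ofReal (primeTerm K s P))⁻¹) T
  have hx : ∀ P, 0 ≤ primeTerm K s P ∧ primeTerm K s P < 1 := fun P =>
    ⟨(primeTerm_pos K s P).le, lt_of_le_of_lt (primeTerm_le_half K hs.le P) (by norm_num)⟩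
  rw [Finset.prod_congr rfl (fun P _ => ofReal_inv_one_sub (hx P).1 (hx P).2),
    ← ENNReal.ofReal_prod_of_nonneg (fun P _ => inv_nonneg.mpr (by linarith [(hx P).2]))] at hle
  exact (ENNReal.ofReal_le_ofReal_iff (le_trans zero_le_one (one_le_zetaReal K hs))).mp hle

/-- If all finite partial Euler products are `≤ B`, then `ζ_K(s) ≤ B`. -/
theorem zetaReal_le_of_prod_le {s : ℝ} (hs : 1 < s) {B : ℝ}
    (hB : ∀ T : Finset (HeightOneSpectrum (𝓞 K)), ∏ P ∈ T, (1 - primeTerm K s P)⁻¹ ≤ B) :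
    zetaReal K s ≤ B := by
  have hB0 : 0 ≤ B := le_trans (by simp) (hB ∅)
  have h := ofReal_zetaReal_eq_iSup K hs
  have hx : ∀ P, 0 ≤ primeTerm K s P ∧ primeTerm K s P < 1 := fun P =>
    ⟨(primeTerm_pos K s P).le, lt_of_le_of_lt (primeTerm_le_half K hs.le P) (by norm_num)⟩
  have hle : ENNReal.ofReal (zetaReal K s) ≤ ENNReal.ofReal B := by
    rw [h]
    refine iSup_le fun T => ?_
    rw [Finset.prod_congr rfl (fun P _ => ofReal_inv_one_sub (hx P).1 (hx P).2),
      ← ENNReal.ofReal_prod_of_nonneg (fun P _ => inv_nonneg.mpr (by linarith [(hx P).2]))]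
    exact ENNReal.ofReal_le_ofReal (hB T)
  exact (ENNReal.ofReal_le_ofReal_iff hB0).mp hle

/-- `log ζ_K(s) = ∑_P -log(1 - N(P)^(-s))`. -/
theorem hasSum_neg_log {s : ℝ} (hs : 1 < s) :
    HasSum (fun P : HeightOneSpectrum (𝓞 K) => -Real.log (1 - primeTerm K s P))
      (Real.log (zetaReal K s)) := by
  have hx : ∀ P, 0 < primeTerm K s P ∧ primeTerm K s P < 1 := fun P =>
    ⟨primeTerm_pos K s P, lt_of_le_of_lt (primeTerm_le_half K hs.le P) (by norm_num)⟩
  have hsum : ∀ T : Finset (HeightOneSpectrum (𝓞 K)),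
      ∑ P ∈ T, -Real.log (1 - primeTerm K s P) =
        Real.log (∏ P ∈ T, (1 - primeTerm K s P)⁻¹) := by
    intro T
    rw [Real.log_prod (fun P _ => inv_ne_zero (by linarith [(hx P).2]))]
    refine Finset.sum_congr rfl fun P _ => ?_
    rw [Real.log_inv]
  have hpos : ∀ T : Finset (HeightOneSpectrum (𝓞 K)),
      0 < ∏ P ∈ T, (1 - primeTerm K s P)⁻¹ := fun T =>
    Finset.prod_pos fun P _ => inv_pos.mpr (by linarith [(hx P).2])
  refine hasSum_of_isLUB_of_nonneg _ (fun P => ?_) ⟨?_, ?_⟩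
  · rw [neg_nonneg]
    exact Real.log_nonpos (by linarith [(hx P).2]) (by linarith [(hx P).1])
  · rintro _ ⟨T, rfl⟩
    simp only [hsum]
    exact Real.log_le_log (hpos T) (prod_le_zetaReal K hs T)
  · intro b hb
    have : zetaReal K s ≤ Real.exp b := by
      refine zetaReal_le_of_prod_le K hs fun T => ?_
      have := hb ⟨T, rfl⟩
      simp only [hsum] at this
      rw [← Real.exp_log (hpos T)]
      exact Real.exp_le_exp.mpr this
    calc Real.log (zetaReal K s) ≤ Real.log (Real.exp b) :=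
          Real.log_le_log (lt_of_lt_of_le zero_lt_one (one_le_zetaReal K hs)) this
      _ = b := Real.log_exp b

lemma le_neg_log_one_sub {x : ℝ} (hx1 : x < 1) : x ≤ -Real.log (1 - x) := by
  have := Real.log_le_sub_one_of_pos (x := 1 - x) (by linarith)
  linarith

lemma neg_log_one_sub_le {x : ℝ} (_hx0 : 0 ≤ x) (hx : x ≤ 1 / 2) :
    -Real.log (1 - x) ≤ x + 2 * x ^ 2 := by
  have h1 : 0 < 1 - x := by linarith
  have h2 : -Real.log (1 - x) = Real.log ((1 - x)⁻¹) := by rw [Real.log_inv]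
  rw [h2]
  have h3 := Real.log_le_sub_one_of_pos (x := (1 - x)⁻¹) (inv_pos.mpr h1)
  have h4 : (1 - x)⁻¹ ≤ 1 + x + 2 * x ^ 2 := by
    rw [inv_le_iff_one_le_mul₀ h1]
    nlinarith [sq_nonneg x, mul_nonneg _hx0 _hx0, mul_nonneg (mul_nonneg _hx0 _hx0) _hx0]
  linarith

theorem summable_primeTerm {s : ℝ} (hs : 1 < s) : Summable (primeTerm K s) := by
  refine Summable.of_nonneg_of_le (fun P => (primeTerm_pos K s P).le) (fun P => ?_)
    (hasSum_neg_log K hs).summable
  exact le_neg_log_one_sub (lt_of_le_of_lt (primeTerm_le_half K hs.le P) (by norm_num))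

theorem tsum_primeTerm_le_log_zetaReal {s : ℝ} (hs : 1 < s) :
    ∑' P, primeTerm K s P ≤ Real.log (zetaReal K s) := by
  rw [← (hasSum_neg_log K hs).tsum_eq]
  refine (summable_primeTerm K hs).tsum_le_tsum (fun P => ?_) (hasSum_neg_log K hs).summable
  exact le_neg_log_one_sub (lt_of_le_of_lt (primeTerm_le_half K hs.le P) (by norm_num))

lemma primeTerm_sq_le {s : ℝ} (hs : 1 ≤ s) (P : HeightOneSpectrum (𝓞 K)) :
    primeTerm K s P ^ 2 ≤ primeTerm K 2 P := by
  unfold primeTerm
  have h1 : (1 : ℝ) ≤ absNorm P.asIdeal := by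
    exact_mod_cast le_trans (by norm_num) (two_le_absNorm K P)
  rw [← Real.rpow_natCast, ← Real.rpow_mul (by linarith)]
  exact Real.rpow_le_rpow_of_exponent_le h1 (by push_cast; linarith)

/-- The constant `2 * ∑_P N(P)^(-2)`. -/
noncomputable def primeSqConst : ℝ := 2 * ∑' P, primeTerm K 2 P

lemma primeSqConst_nonneg : 0 ≤ primeSqConst K :=
  mul_nonneg (by norm_num) (tsum_nonneg fun P => (primeTerm_pos K 2 P).le)

theorem log_zetaReal_le {s : ℝ} (hs : 1 < s) :
    Real.log (zetaReal K s) ≤ ∑' P, primeTerm K s P + primeSqConst K := by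
  have h2 : Summable (primeTerm K 2) := summable_primeTerm K (by norm_num)
  have hsq : Summable fun P => 2 * primeTerm K s P ^ 2 :=
    Summable.of_nonneg_of_le (fun P => by positivity)
      (fun P => mul_le_mul_of_nonneg_left (primeTerm_sq_le K hs.le P) (by norm_num))
      (h2.mul_left 2)
  rw [← (hasSum_neg_log K hs).tsum_eq]
  calc ∑' P, -Real.log (1 - primeTerm K s P)
      ≤ ∑' P, (primeTerm K s P + 2 * primeTerm K s P ^ 2) :=
        (hasSum_neg_log K hs).summable.tsum_le_tsum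
          (fun P => neg_log_one_sub_le (primeTerm_pos K s P).le (primeTerm_le_half K hs.le P))
          ((summable_primeTerm K hs).add hsq)
    _ = ∑' P, primeTerm K s P + ∑' P, 2 * primeTerm K s P ^ 2 :=
        (summable_primeTerm K hs).tsum_add hsq
    _ ≤ ∑' P, primeTerm K s P + primeSqConst K := by
        gcongr
        unfold primeSqConst
        rw [← tsum_mul_left]
        exact hsq.tsum_le_tsum
          (fun P => mul_le_mul_of_nonneg_left (primeTerm_sq_le K hs.le P) (by norm_num))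
          (h2.mul_left 2)

theorem zetaReal_antitone {s t : ℝ} (hs : 1 < s) (hst : s ≤ t) :
    zetaReal K t ≤ zetaReal K s := by
  unfold zetaReal
  refine (summable_zetaTerm K (lt_of_lt_of_le hs hst)).tsum_le_tsum (fun n => ?_)
    (summable_zetaTerm K hs)
  unfold zetaTerm
  refine mul_le_mul_of_nonneg_left ?_ (idealCount_nonneg K n)
  rcases Nat.eq_zero_or_pos n with h | h
  · subst h
    rw [Nat.cast_zero, Real.zero_rpow (by linarith), Real.zero_rpow (by linarith)]
  · exact Real.rpow_le_rpow_of_exponent_le (by exact_mod_cast h) (by linarith)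

theorem tendsto_sub_one_mul_zetaReal :
    Tendsto (fun s : ℝ => (s - 1) * zetaReal K s) (𝓝[>] 1) (𝓝 (dedekindZeta_residue K)) := by
  have h := (Complex.continuous_re.tendsto _).comp (tendsto_sub_one_mul_dedekindZeta_nhdsGT K)
  simp only [Complex.ofReal_re] at h
  refine h.congr' ?_
  filter_upwards [self_mem_nhdsWithin] with s hs
  simp only [Function.comp_apply]
  rw [dedekindZeta_eq_zetaReal K hs, ← Complex.ofReal_one, ← Complex.ofReal_sub,
    ← Complex.ofReal_mul, Complex.ofReal_re]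

/-- `(s-1) ζ_K(s)` is bounded above and below by positive constants on `(1, 2]`. -/
theorem exists_bounds_sub_one_mul_zetaReal :
    ∃ c₁ c₂ : ℝ, 0 < c₁ ∧ ∀ s ∈ Set.Ioc (1 : ℝ) 2,
      c₁ ≤ (s - 1) * zetaReal K s ∧ (s - 1) * zetaReal K s ≤ c₂ := by
  have hκ := dedekindZeta_residue_pos K
  set κ := dedekindZeta_residue K with hκdef
  have hev := (tendsto_sub_one_mul_zetaReal K).eventually
    (Ioo_mem_nhds (show κ / 2 < κ by linarith) (show κ < 2 * κ by linarith))
  obtain ⟨u, hu, hsub⟩ := mem_nhdsGT_iff_exists_Ioo_subset.mp hev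
  have hu1 : (1 : ℝ) < u := hu
  set u' := min u 2 with hu'
  have hu'1 : 1 < u' := lt_min hu1 (by norm_num)
  set s₀ := (1 + u') / 2 with hs₀
  have hs₀1 : 1 < s₀ := by rw [hs₀]; linarith
  have hs₀u : s₀ < u' := by rw [hs₀]; linarith
  refine ⟨min (κ / 2) (u' - 1), max (2 * κ) (zetaReal K s₀), lt_min (by linarith) (by linarith),
    fun s hs => ?_⟩
  rcases lt_or_ge s u' with hlt | hge
  · have hmem : s ∈ Set.Ioo 1 u := ⟨hs.1, lt_of_lt_of_le hlt (min_le_left _ _)⟩
    have := hsub hmem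
    simp only [Set.mem_ofPred_eq] at this
    exact ⟨le_trans (min_le_left _ _) this.1.le, le_trans this.2.le (le_max_left _ _)⟩
  · constructor
    · calc min (κ / 2) (u' - 1) ≤ u' - 1 := min_le_right _ _
        _ ≤ (s - 1) * 1 := by linarith
        _ ≤ (s - 1) * zetaReal K s :=
            mul_le_mul_of_nonneg_left (one_le_zetaReal K hs.1) (by linarith [hs.1])
    · have h1 : zetaReal K s ≤ zetaReal K s₀ :=
        zetaReal_antitone K hs₀1 (le_trans hs₀u.le hge)
      have h2 : 0 ≤ zetaReal K s := le_trans zero_le_one (one_le_zetaReal K hs.1)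
      calc (s - 1) * zetaReal K s ≤ 1 * zetaReal K s :=
            mul_le_mul_of_nonneg_right (by linarith [hs.2]) h2
        _ ≤ zetaReal K s₀ := by linarith
        _ ≤ _ := le_max_right _ _

/-- `|log ζ_K(s) - log (1/(s-1))|` is bounded on `(1, 2]`. -/
theorem exists_bound_log_zetaReal :
    ∃ M : ℝ, ∀ s ∈ Set.Ioc (1 : ℝ) 2,
      |Real.log (zetaReal K s) - Real.log (1 / (s - 1))| ≤ M := by
  obtain ⟨c₁, c₂, hc₁, hb⟩ := exists_bounds_sub_one_mul_zetaReal K
  refine ⟨max |Real.log c₁| |Real.log c₂|, fun s hs => ?_⟩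
  obtain ⟨h1, h2⟩ := hb s hs
  have hs1 : 0 < s - 1 := by linarith [hs.1]
  have hζ : 0 < zetaReal K s := lt_of_lt_of_le zero_lt_one (one_le_zetaReal K hs.1)
  have hf : 0 < (s - 1) * zetaReal K s := mul_pos hs1 hζ
  have heq : Real.log (zetaReal K s) - Real.log (1 / (s - 1)) =
      Real.log ((s - 1) * zetaReal K s) := by
    rw [Real.log_mul hs1.ne' hζ.ne', one_div, Real.log_inv]; ring
  rw [heq, abs_le]
  constructor
  · have := Real.log_le_log hc₁ h1
    have h3 := neg_abs_le (Real.log c₁)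
    have h4 := le_max_left |Real.log c₁| |Real.log c₂|
    linarith
  · have := Real.log_le_log hf h2
    have h3 := le_abs_self (Real.log c₂)
    have h4 := le_max_right |Real.log c₁| |Real.log c₂|
    linarith

/-- **Prime ideal theorem, logarithmic form**: `∑_P N(P)^(-s) = log (1/(s-1)) + O(1)` on
`(1, 2]`. -/
theorem exists_bound_tsum_primeTerm :
    ∃ C : ℝ, ∀ s ∈ Set.Ioc (1 : ℝ) 2,
      |∑' P, primeTerm K s P - Real.log (1 / (s - 1))| ≤ C := by
  obtain ⟨M, hM⟩ := exists_bound_log_zetaReal K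
  refine ⟨M + primeSqConst K, fun s hs => ?_⟩
  have h1 := tsum_primeTerm_le_log_zetaReal K hs.1
  have h2 := log_zetaReal_le K hs.1
  have h3 := abs_le.mp (hM s hs)
  have h4 := primeSqConst_nonneg K
  rw [abs_le]
  constructor <;> linarith [h3.1, h3.2]

end Fermat.Agent.S14.H72
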