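import Mathlib

/-!
# S14 / WP4d : the analytic second inequality, abstract core

Abstract setting: an index type `P` of "primes" with norms `N p ≥ 2`, classes `g p` in a finite
abelian group `G`, and for every character `χ : G →* ℂˣ` an `L`-value `L χ s` given as an Euler
product.  If the trivial `L`-function has at most a simple pole at `s = 1`, the non-trivial ones
are bounded near `1`, and the primes in the kernel of `g` have density at least `1 / n`
(log-sum form), then `card G ≤ n`.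
-/

set_option autoImplicit false

open Filter Topology

namespace Fermat.Agent.S14.H79

noncomputable section

section Characters

variable {G : Type*} [CommGroup G] [Finite G]

instance instNeZeroExponent : NeZero (Monoid.exponent G) :=
  ⟨Monoid.exponent_ne_zero_of_finite⟩

/-- values of characters of a finite group have norm one -/
theorem norm_char_apply (χ : G →* ℂˣ) (a : G) : ‖((χ a : ℂˣ) : ℂ)‖ = 1 := by
  have h : ((χ a : ℂˣ) : ℂ) ^ orderOf a = 1 := by
    rw [← Units.val_pow_eq_pow_val, ← map_pow, pow_orderOf_eq_one, map_one, Units.val_one]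
  exact Complex.norm_eq_one_of_pow_eq_one h (orderOf_pos a).ne'

/-- second orthogonality relation for characters of a finite abelian group -/
theorem sum_char_apply [Fintype (G →* ℂˣ)] [DecidableEq G] (a : G) :
    ∑ χ : G →* ℂˣ, ((χ a : ℂˣ) : ℂ) = if a = 1 then (Nat.card G : ℂ) else 0 := by
  split_ifs with h
  · subst h
    simp only [map_one, Units.val_one, Finset.sum_const, Finset.card_univ, nsmul_eq_mul, mul_one]
    rw [← Nat.card_eq_fintype_card, CommGroup.card_monoidHom_of_hasEnoughRootsOfUnity]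
  · let ev : (G →* ℂˣ) →* ℂ := (Units.coeHom ℂ).comp (MonoidHom.eval a)
    have hev : ev ≠ 1 := by
      obtain ⟨φ, hφ⟩ := CommGroup.exists_apply_ne_one_of_hasEnoughRootsOfUnity G ℂ h
      intro h1
      apply hφ
      have h2 : ((φ a : ℂˣ) : ℂ) = 1 := DFunLike.congr_fun h1 φ
      exact Units.ext h2
    exact sum_hom_units_eq_zero ev hev

/-- The key local inequality: for `0 ≤ x ≤ 1/2`,
`∑_χ - log ‖1 - χ(a) x‖ ≥ (card G) * x` if `a = 1`, and `≥ 0` in general. -/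
theorem sum_neg_log_norm_ge [Fintype (G →* ℂˣ)] [DecidableEq G] (a : G) {x : ℝ} (hx0 : 0 ≤ x)
    (hx1 : x ≤ 1 / 2) :
    (if a = 1 then (Nat.card G : ℝ) * x else 0) ≤
      ∑ χ : G →* ℂˣ, -Real.log ‖1 - ((χ a : ℂˣ) : ℂ) * (x : ℂ)‖ := by
  have hnorm : ∀ χ : G →* ℂˣ, ‖((χ a : ℂˣ) : ℂ) * (x : ℂ)‖ < 1 := fun χ => by
    rw [norm_mul, norm_char_apply, one_mul, Complex.norm_real, Real.norm_of_nonneg hx0]
    linarith
  -- the Taylor series of `-log (1 - z)` summed over the characters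
  have key : HasSum (fun k : ℕ => ∑ χ : G →* ℂˣ, (((χ a : ℂˣ) : ℂ) * (x : ℂ)) ^ k / k)
      (∑ χ : G →* ℂˣ, -Complex.log (1 - ((χ a : ℂˣ) : ℂ) * (x : ℂ))) :=
    hasSum_sum fun χ _ => Complex.hasSum_taylorSeries_neg_log (hnorm χ)
  have hterm : ∀ k : ℕ, ∑ χ : G →* ℂˣ, (((χ a : ℂˣ) : ℂ) * (x : ℂ)) ^ k / k =
      (((if a ^ k = 1 then (Nat.card G : ℝ) else 0) * x ^ k / k : ℝ) : ℂ) := fun k => by
    have h1 : ∀ χ : G →* ℂˣ, (((χ a : ℂˣ) : ℂ) * (x : ℂ)) ^ k / k =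
        ((χ (a ^ k) : ℂˣ) : ℂ) * ((x : ℂ) ^ k / k) := fun χ => by
      rw [map_pow, Units.val_pow_eq_pow_val, mul_pow, mul_div_assoc]
    simp_rw [h1]
    rw [← Finset.sum_mul, sum_char_apply]
    split_ifs <;> push_cast <;> ring
  simp_rw [hterm] at key
  have key2 := Complex.reCLM.hasSum key
  simp only [Complex.reCLM_apply, Complex.ofReal_re] at key2
  have hre : (∑ χ : G →* ℂˣ, -Complex.log (1 - ((χ a : ℂˣ) : ℂ) * (x : ℂ))).re =
      ∑ χ : G →* ℂˣ, -Real.log ‖1 - ((χ a : ℂˣ) : ℂ) * (x : ℂ)‖ := by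
    rw [Complex.re_sum]
    refine Finset.sum_congr rfl fun χ _ => ?_
    rw [Complex.neg_re, Complex.log_re]
  rw [hre] at key2
  have hnonneg : ∀ k : ℕ, 0 ≤ (if a ^ k = 1 then (Nat.card G : ℝ) else 0) * x ^ k / k := fun k => by
    split_ifs <;> positivity
  have := sum_le_hasSum {1} (fun k _ => hnonneg k) key2
  simpa using this

end Characters

section EulerProduct

variable {P : Type*}

/-- The logarithm of the norm of an absolutely convergent Euler product. -/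
theorem log_norm_eulerProduct {z : P → ℂ} (hz : ∀ p, ‖z p‖ ≤ 1 / 2) (hsum : Summable fun p => ‖z p‖)
    {L : ℂ} (hL : HasProd (fun p => (1 - z p)⁻¹) L) :
    L ≠ 0 ∧ Summable (fun p => -Real.log ‖1 - z p‖) ∧
      Real.log ‖L‖ = ∑' p, -Real.log ‖1 - z p‖ := by
  have hne : ∀ p, 1 - z p ≠ 0 := fun p h => by
    have h1 : z p = 1 := (sub_eq_zero.mp h).symm
    have := hz p
    rw [h1, norm_one] at this
    norm_num at this
  have hfn : ∀ p, (1 - z p)⁻¹ ≠ 0 := fun p => inv_ne_zero (hne p)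
  have harg : ∀ p, (1 - z p).arg ≠ Real.pi := fun p h => by
    rw [Complex.arg_eq_pi_iff] at h
    have h1 : |(z p).re| ≤ ‖z p‖ := Complex.abs_re_le_norm (z p)
    have h2 := hz p
    have h3 : (1 - z p).re = 1 - (z p).re := by simp
    have h4 := abs_le.mp (h1.trans h2)
    linarith [h.1]
  have hlog : ∀ p, Complex.log ((1 - z p)⁻¹) = -Complex.log (1 + -z p) := fun p => by
    rw [Complex.log_inv _ (harg p), sub_eq_add_neg]
  have hs0 : Summable fun p => Complex.log (1 + -z p) :=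
    Complex.summable_log_one_add_of_summable (Summable.of_norm (by simpa using hsum))
  have hs1 : Summable fun p => Complex.log ((1 - z p)⁻¹) := by
    simp_rw [hlog]
    exact hs0.neg
  have hprod := Complex.hasProd_of_hasSum_log hfn hs1.hasSum
  have hLeq : L = Complex.exp (∑' p, Complex.log ((1 - z p)⁻¹)) := hL.unique hprod
  have hre : ∀ p, (Complex.log ((1 - z p)⁻¹)).re = -Real.log ‖1 - z p‖ := fun p => by
    rw [Complex.log_re, norm_inv, Real.log_inv]
  have hs2 : Summable fun p => -Real.log ‖1 - z p‖ := by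
    have := Complex.reCLM.summable hs1
    simpa [hre] using this
  refine ⟨?_, hs2, ?_⟩
  · rw [hLeq]
    exact Complex.exp_ne_zero _
  · rw [hLeq, Complex.norm_exp, Real.log_exp, Complex.re_tsum hs1]
    exact tsum_congr hre

end EulerProduct

section Main

variable {P G : Type*} [CommGroup G] [Finite G]

theorem rpow_neg_mem_Icc {x s : ℝ} (hx : 2 ≤ x) (hs : 1 < s) :
    0 ≤ x ^ (-s) ∧ x ^ (-s) ≤ 1 / 2 := by
  have hx0 : (0 : ℝ) < x := by linarith
  refine ⟨(Real.rpow_pos_of_pos hx0 _).le, ?_⟩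
  calc x ^ (-s) ≤ (2 : ℝ) ^ (-s) :=
        Real.rpow_le_rpow_of_nonpos (by norm_num) hx (by linarith)
    _ ≤ (2 : ℝ) ^ (-1 : ℝ) := Real.rpow_le_rpow_of_exponent_le (by norm_num) (by linarith)
    _ = 1 / 2 := by rw [Real.rpow_neg_one]; norm_num

/-- Lower bound: the sum over all characters of `log ‖L(s,χ)‖` dominates `card G` times the
prime zeta sum over the kernel of `g`. -/
theorem lower_bound [Fintype (G →* ℂˣ)]
    (N : P → ℝ) (hN : ∀ p, 2 ≤ N p) (g : P → G) {s : ℝ} (hs : 1 < s)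
    (hsum : Summable fun p => N p ^ (-s))
    (L : (G →* ℂˣ) → ℂ)
    (hprod : ∀ χ : G →* ℂˣ,
      HasProd (fun p => (1 - ((χ (g p) : ℂˣ) : ℂ) * ((N p ^ (-s) : ℝ) : ℂ))⁻¹) (L χ)) :
    (Nat.card G : ℝ) * ∑' p : {p // g p = 1}, N p.1 ^ (-s) ≤ ∑ χ : G →* ℂˣ, Real.log ‖L χ‖ := by
  classical
  have hx : ∀ p, 0 ≤ N p ^ (-s) ∧ N p ^ (-s) ≤ 1 / 2 := fun p => rpow_neg_mem_Icc (hN p) hs
  have hnorm : ∀ (χ : G →* ℂˣ) p,
      ‖((χ (g p) : ℂˣ) : ℂ) * ((N p ^ (-s) : ℝ) : ℂ)‖ = N p ^ (-s) := fun χ p => by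
    rw [norm_mul, norm_char_apply, one_mul, Complex.norm_real, Real.norm_of_nonneg (hx p).1]
  have hE := fun χ : G →* ℂˣ => log_norm_eulerProduct
    (z := fun p => ((χ (g p) : ℂˣ) : ℂ) * ((N p ^ (-s) : ℝ) : ℂ))
    (fun p => by rw [hnorm]; exact (hx p).2) (by simpa only [hnorm] using hsum) (hprod χ)
  have h1 : ∑ χ : G →* ℂˣ, Real.log ‖L χ‖ =
      ∑' p, ∑ χ : G →* ℂˣ, -Real.log ‖1 - ((χ (g p) : ℂˣ) : ℂ) * ((N p ^ (-s) : ℝ) : ℂ)‖ := by
    rw [Summable.tsum_finsetSum fun χ _ => (hE χ).2.1]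
    exact Finset.sum_congr rfl fun χ _ => (hE χ).2.2
  have h2 : (Nat.card G : ℝ) * ∑' p : {p // g p = 1}, N p.1 ^ (-s) =
      ∑' p, (if g p = 1 then (Nat.card G : ℝ) * N p ^ (-s) else 0) := by
    rw [← tsum_mul_left]
    have := tsum_subtype {p | g p = 1} (fun p => (Nat.card G : ℝ) * N p ^ (-s))
    rw [show (∑' p : {p // g p = 1}, (Nat.card G : ℝ) * N p.1 ^ (-s)) =
      ∑' p : ({p | g p = 1} : Set P), (Nat.card G : ℝ) * N p.1 ^ (-s) from rfl, this]
    refine tsum_congr fun p => ?_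
    simp [Set.indicator_apply]
  rw [h1, h2]
  refine Summable.tsum_le_tsum (fun p => sum_neg_log_norm_ge (g p) (hx p).1 (hx p).2) ?_ ?_
  · have : Summable fun p => (Nat.card G : ℝ) * N p ^ (-s) := hsum.mul_left _
    have h3 := this.indicator {p | g p = 1}
    refine h3.congr fun p => ?_
    simp [Set.indicator_apply]
  · exact summable_sum fun χ _ => (hE χ).2.1


/-- **Abstract second inequality**, with all analytic hypotheses only required on `(1, 1 + δ]`. -/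
theorem card_le_of_bounds_near
    (N : P → ℝ) (hN : ∀ p, 2 ≤ N p) (g : P → G)
    (hsum : ∀ s : ℝ, 1 < s → Summable fun p => N p ^ (-s))
    (L : (G →* ℂˣ) → ℝ → ℂ) (δ : ℝ) (hδ : 0 < δ)
    (hprod : ∀ (χ : G →* ℂˣ) (s : ℝ), 1 < s →
      HasProd (fun p => (1 - ((χ (g p) : ℂˣ) : ℂ) * ((N p ^ (-s) : ℝ) : ℂ))⁻¹) (L χ s))
    (A : ℝ) (hA : ∀ s : ℝ, 1 < s → s ≤ 1 + δ → ‖L 1 s‖ ≤ A / (s - 1))
    (hB : ∀ χ : G →* ℂˣ, χ ≠ 1 → ∃ B : ℝ, ∀ s : ℝ, 1 < s → s ≤ 1 + δ → ‖L χ s‖ ≤ B)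
    (n : ℕ) (hn : 0 < n) (C : ℝ)
    (hC : ∀ s : ℝ, 1 < s → s ≤ 1 + δ →
      (1 / n : ℝ) * Real.log (1 / (s - 1)) - C ≤ ∑' p : {p // g p = 1}, N p.1 ^ (-s)) :
    Nat.card G ≤ n := by
  classical
  have : Fintype (G →* ℂˣ) := Fintype.ofFinite _
  -- nonvanishing of all L-values
  have hLne : ∀ (χ : G →* ℂˣ) (s : ℝ), 1 < s → L χ s ≠ 0 := fun χ s hs => by
    have hx : ∀ p, 0 ≤ N p ^ (-s) ∧ N p ^ (-s) ≤ 1 / 2 := fun p => rpow_neg_mem_Icc (hN p) hs
    have hnorm : ∀ p, ‖((χ (g p) : ℂˣ) : ℂ) * ((N p ^ (-s) : ℝ) : ℂ)‖ = N p ^ (-s) := fun p => by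
      rw [norm_mul, norm_char_apply, one_mul, Complex.norm_real, Real.norm_of_nonneg (hx p).1]
    exact (log_norm_eulerProduct
      (z := fun p => ((χ (g p) : ℂˣ) : ℂ) * ((N p ^ (-s) : ℝ) : ℂ))
      (fun p => by rw [hnorm]; exact (hx p).2) (by simpa only [hnorm] using hsum s hs)
      (hprod χ s hs)).1
  have hLpos : ∀ (χ : G →* ℂˣ) (s : ℝ), 1 < s → 0 < ‖L χ s‖ := fun χ s hs =>
    norm_pos_iff.mpr (hLne χ s hs)
  -- positivity of `A`
  have hApos : 0 < A := by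
    have := hA (1 + δ) (by linarith) le_rfl
    have h2 := hLpos 1 (1 + δ) (by linarith)
    rw [add_sub_cancel_left] at this
    have h3 : 0 < A / δ := lt_of_lt_of_le h2 this
    exact (div_pos_iff_of_pos_right hδ).mp h3
  -- uniform bounds for the nontrivial characters
  choose! B hBs using hB
  set K : ℝ := ∑ χ ∈ (Finset.univ : Finset (G →* ℂˣ)).erase 1, Real.log (max 1 (B χ)) with hK
  -- the main inequality for each `s`
  have main : ∀ s : ℝ, 1 < s → s ≤ 1 + δ →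
      (Nat.card G : ℝ) * ((1 / n : ℝ) * Real.log (1 / (s - 1)) - C) ≤
        Real.log A + Real.log (1 / (s - 1)) + K := fun s hs hs2 => by
    have h1 := lower_bound N hN g hs (hsum s hs) (fun χ => L χ s) (fun χ => hprod χ s hs)
    have h2 : (Nat.card G : ℝ) * ((1 / n : ℝ) * Real.log (1 / (s - 1)) - C) ≤
        (Nat.card G : ℝ) * ∑' p : {p // g p = 1}, N p.1 ^ (-s) :=
      mul_le_mul_of_nonneg_left (hC s hs hs2) (Nat.cast_nonneg _)
    have hs1 : 0 < s - 1 := by linarith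
    have h3 : ∑ χ : G →* ℂˣ, Real.log ‖L χ s‖ ≤ Real.log A + Real.log (1 / (s - 1)) + K := by
      rw [← Finset.add_sum_erase _ _ (Finset.mem_univ (1 : G →* ℂˣ))]
      refine add_le_add ?_ ?_
      · have : Real.log ‖L 1 s‖ ≤ Real.log (A / (s - 1)) :=
          Real.log_le_log (hLpos 1 s hs) (hA s hs hs2)
        rwa [div_eq_mul_one_div, Real.log_mul hApos.ne' (one_div_pos.mpr hs1).ne'] at this
      · rw [hK]
        refine Finset.sum_le_sum fun χ hχ => ?_
        have hχ1 : χ ≠ 1 := (Finset.mem_erase.mp hχ).1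
        exact Real.log_le_log (hLpos χ s hs)
          ((hBs χ hχ1 s hs hs2).trans (le_max_right _ _))
    linarith
  -- conclude by letting `s → 1`
  by_contra hcon
  rw [not_le] at hcon
  have hcn : (n : ℝ) < Nat.card G := by exact_mod_cast hcon
  have hnpos : (0 : ℝ) < n := by exact_mod_cast hn
  set c : ℝ := (Nat.card G : ℝ) / n - 1 with hc
  have hcpos : 0 < c := by
    rw [hc, sub_pos, lt_div_iff₀ hnpos]
    linarith
  set M : ℝ := (Nat.card G : ℝ) * C + Real.log A + K with hM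
  have key : ∀ s : ℝ, 1 < s → s ≤ 1 + δ → c * Real.log (1 / (s - 1)) ≤ M := fun s hs hs2 => by
    have := main s hs hs2
    rw [hc, hM]
    have h5 : (Nat.card G : ℝ) * ((1 / n : ℝ) * Real.log (1 / (s - 1)) - C) =
        (Nat.card G : ℝ) / n * Real.log (1 / (s - 1)) - (Nat.card G : ℝ) * C := by ring
    rw [h5] at this
    linarith
  set t : ℝ := max ((|M| + 1) / c) (-Real.log δ) with ht
  have ht1 : (|M| + 1) / c ≤ t := le_max_left _ _
  have ht2 : -Real.log δ ≤ t := le_max_right _ _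
  have hs : (1 : ℝ) < 1 + Real.exp (-t) := by linarith [Real.exp_pos (-t)]
  have hs2 : 1 + Real.exp (-t) ≤ 1 + δ := by
    have : Real.exp (-t) ≤ Real.exp (Real.log δ) := Real.exp_le_exp.mpr (by linarith)
    rw [Real.exp_log hδ] at this
    linarith
  have := key _ hs hs2
  rw [add_sub_cancel_left, one_div, ← Real.exp_neg, neg_neg, Real.log_exp] at this
  have h6 : |M| + 1 ≤ c * t := by
    rw [div_le_iff₀ hcpos] at ht1
    linarith
  linarith [le_abs_self M]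


/-- **Abstract second inequality** (hypotheses on `(1, 2]`). -/
theorem card_le_of_bounds
    (N : P → ℝ) (hN : ∀ p, 2 ≤ N p) (g : P → G)
    (hsum : ∀ s : ℝ, 1 < s → Summable fun p => N p ^ (-s))
    (L : (G →* ℂˣ) → ℝ → ℂ)
    (hprod : ∀ (χ : G →* ℂˣ) (s : ℝ), 1 < s →
      HasProd (fun p => (1 - ((χ (g p) : ℂˣ) : ℂ) * ((N p ^ (-s) : ℝ) : ℂ))⁻¹) (L χ s))
    (A : ℝ) (hA : ∀ s : ℝ, 1 < s → s ≤ 2 → ‖L 1 s‖ ≤ A / (s - 1))
    (hB : ∀ χ : G →* ℂˣ, χ ≠ 1 → ∃ B : ℝ, ∀ s : ℝ, 1 < s → s ≤ 2 → ‖L χ s‖ ≤ B)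
    (n : ℕ) (hn : 0 < n) (C : ℝ)
    (hC : ∀ s : ℝ, 1 < s → s ≤ 2 →
      (1 / n : ℝ) * Real.log (1 / (s - 1)) - C ≤ ∑' p : {p // g p = 1}, N p.1 ^ (-s)) :
    Nat.card G ≤ n := by
  have h12 : (1 : ℝ) + 1 = 2 := by norm_num
  refine card_le_of_bounds_near N hN g hsum L 1 one_pos hprod A ?_ ?_ n hn C ?_
  · intro s hs hs2; exact hA s hs (by linarith)
  · intro χ hχ
    obtain ⟨B, hB'⟩ := hB χ hχ
    exact ⟨B, fun s hs hs2 => hB' s hs (by linarith)⟩
  · intro s hs hs2; exact hC s hs (by linarith)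

end Main

end

end Fermat.Agent.S14.H79
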