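import Mathlib
import Fermat.Agent.S14.H79_SecondInequality

/-!
# S14 / WP4d : the analytic second inequality for number fields (final squeeze)

`index_le_of_density` : for a number field `E`, a set `S` of primes of `E` of lower Dirichlet
density `≥ 1 / n` (log-sum form), and a subgroup `H` of the class group containing the classes of
all primes in `S`, one has `H.index ≤ n`, provided the class group `L`-series have Euler products,
`ζ_E` has at most a simple pole at `1` and the nontrivial `L`-series are bounded near `1`.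
All analytic inputs are explicit hypotheses stated with Mathlib objects only.
-/

set_option autoImplicit false

open NumberField Ideal IsDedekindDomain nonZeroDivisors Filter Topology

namespace Fermat.Agent.S14.H79

noncomputable section

variable (E : Type*) [Field E] [NumberField E]

/-- the nonzero ideal of a height one prime -/
def primeIdeal0 (P : HeightOneSpectrum (𝓞 E)) : (Ideal (𝓞 E))⁰ :=
  ⟨P.asIdeal, mem_nonZeroDivisors_of_ne_zero P.ne_bot⟩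

omit [NumberField E] in
@[simp] theorem coe_primeIdeal0 (P : HeightOneSpectrum (𝓞 E)) :
    ((primeIdeal0 E P : (Ideal (𝓞 E))⁰) : Ideal (𝓞 E)) = P.asIdeal := rfl

/-- the class group `L`-series at a real argument, as a sum over nonzero ideals -/
def classL (χ : ClassGroup (𝓞 E) →* ℂˣ) (s : ℝ) : ℂ :=
  ∑' I : (Ideal (𝓞 E))⁰, ((χ (ClassGroup.mk0 I) : ℂˣ) : ℂ) *
    (absNorm (I : Ideal (𝓞 E)) : ℂ) ^ (-(s : ℂ))

theorem two_le_absNorm (P : HeightOneSpectrum (𝓞 E)) : (2 : ℝ) ≤ (absNorm P.asIdeal : ℝ) := by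
  have h0 : absNorm P.asIdeal ≠ 0 := by
    rw [Ne, Ideal.absNorm_eq_zero_iff]
    exact P.ne_bot
  have h1 : absNorm P.asIdeal ≠ 1 := by
    rw [Ne, Ideal.absNorm_eq_one_iff]
    exact P.isPrime.ne_top
  have : 2 ≤ absNorm P.asIdeal := by omega
  exact_mod_cast this

theorem natCast_cpow_neg (m : ℕ) (s : ℝ) :
    (m : ℂ) ^ (-(s : ℂ)) = (((m : ℝ) ^ (-s) : ℝ) : ℂ) := by
  rw [Complex.ofReal_cpow (Nat.cast_nonneg m), Complex.ofReal_neg, Complex.ofReal_natCast]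

/-- **Second inequality, density form.** -/
theorem index_le_of_density
    (hsum : ∀ s : ℝ, 1 < s →
      Summable fun P : HeightOneSpectrum (𝓞 E) => (absNorm P.asIdeal : ℝ) ^ (-s))
    (hEuler : ∀ (χ : ClassGroup (𝓞 E) →* ℂˣ) (s : ℝ), 1 < s →
      HasProd (fun P : HeightOneSpectrum (𝓞 E) =>
        (1 - ((χ (ClassGroup.mk0 (primeIdeal0 E P)) : ℂˣ) : ℂ) *
          (absNorm P.asIdeal : ℂ) ^ (-(s : ℂ)))⁻¹) (classL E χ s))
    (δ : ℝ) (hδ : 0 < δ) (A : ℝ)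
    (hA : ∀ s : ℝ, 1 < s → s ≤ 1 + δ → ‖classL E 1 s‖ ≤ A / (s - 1))
    (hB : ∀ χ : ClassGroup (𝓞 E) →* ℂˣ, χ ≠ 1 →
      ∃ B : ℝ, ∀ s : ℝ, 1 < s → s ≤ 1 + δ → ‖classL E χ s‖ ≤ B)
    (S : Set (HeightOneSpectrum (𝓞 E))) (n : ℕ) (hn : 0 < n) (C : ℝ)
    (hC : ∀ s : ℝ, 1 < s → s ≤ 1 + δ →
      (1 / n : ℝ) * Real.log (1 / (s - 1)) - C ≤ ∑' P : S, (absNorm P.1.asIdeal : ℝ) ^ (-s))
    (H : Subgroup (ClassGroup (𝓞 E)))
    (hH : ∀ P ∈ S, ClassGroup.mk0 (primeIdeal0 E P) ∈ H) :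
    H.index ≤ n := by
  classical
  set π : ClassGroup (𝓞 E) →* ClassGroup (𝓞 E) ⧸ H := QuotientGroup.mk' H with hπ
  have hπsurj : Function.Surjective π := QuotientGroup.mk'_surjective H
  set g : HeightOneSpectrum (𝓞 E) → ClassGroup (𝓞 E) ⧸ H :=
    fun P => π (ClassGroup.mk0 (primeIdeal0 E P)) with hg
  have hcomp_ne : ∀ χ' : (ClassGroup (𝓞 E) ⧸ H) →* ℂˣ, χ' ≠ 1 → χ'.comp π ≠ 1 := fun χ' hχ' h =>
    hχ' (MonoidHom.ext fun x => by
      obtain ⟨y, rfl⟩ := hπsurj x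
      exact DFunLike.congr_fun h y)
  have key := card_le_of_bounds_near (P := HeightOneSpectrum (𝓞 E))
    (G := ClassGroup (𝓞 E) ⧸ H) (fun P => (absNorm P.asIdeal : ℝ)) (two_le_absNorm E) g hsum
    (fun χ' s => classL E (χ'.comp π) s) δ hδ ?_ A ?_ ?_ n hn C ?_
  · rwa [Subgroup.index_eq_card]
  · intro χ' s hs
    have := hEuler (χ'.comp π) s hs
    refine this.congr_fun ?_
    intro P
    simp only [hg, MonoidHom.comp_apply, natCast_cpow_neg]
  · intro s hs hs2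
    simpa using hA s hs hs2
  · intro χ' hχ'
    exact hB _ (hcomp_ne χ' hχ')
  · intro s hs hs2
    refine (hC s hs hs2).trans ?_
    have hf : Summable fun P : HeightOneSpectrum (𝓞 E) => (absNorm P.asIdeal : ℝ) ^ (-s) :=
      hsum s hs
    have hsub : S ⊆ {P | g P = 1} := fun P hP => by
      show π (ClassGroup.mk0 (primeIdeal0 E P)) = 1
      rw [hπ, QuotientGroup.mk'_apply, QuotientGroup.eq_one_iff]
      exact hH P hP
    rw [show (∑' P : {P // g P = 1}, (absNorm P.1.asIdeal : ℝ) ^ (-s)) =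
      ∑' P : ({P | g P = 1} : Set (HeightOneSpectrum (𝓞 E))),
        (absNorm P.1.asIdeal : ℝ) ^ (-s) from rfl,
      tsum_subtype S (fun P => (absNorm P.asIdeal : ℝ) ^ (-s)),
      tsum_subtype {P | g P = 1} (fun P => (absNorm P.asIdeal : ℝ) ^ (-s))]
    refine Summable.tsum_le_tsum (fun P => ?_) (hf.indicator _) (hf.indicator _)
    exact Set.indicator_le_indicator_of_subset hsub
      (fun P => Real.rpow_nonneg (Nat.cast_nonneg _) _) P


/-- extraction of a uniform `δ` from an eventual statement at `1⁺` -/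
theorem exists_delta_of_eventually {p : ℝ → Prop} (h : ∀ᶠ s in 𝓝[>] (1 : ℝ), p s) :
    ∃ δ : ℝ, 0 < δ ∧ ∀ s : ℝ, 1 < s → s ≤ 1 + δ → p s := by
  obtain ⟨u, hu, hsub⟩ := (mem_nhdsGT_iff_exists_Ioo_subset).mp h
  have hu1 : (1 : ℝ) < u := hu
  refine ⟨(u - 1) / 2, by linarith, fun s hs hs2 => hsub ⟨hs, by linarith⟩⟩

/-- **Second inequality, density form, hypotheses as eventual statements at `1⁺`.** -/
theorem index_le_of_density_eventually
    (hsum : ∀ s : ℝ, 1 < s →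
      Summable fun P : HeightOneSpectrum (𝓞 E) => (absNorm P.asIdeal : ℝ) ^ (-s))
    (hEuler : ∀ (χ : ClassGroup (𝓞 E) →* ℂˣ) (s : ℝ), 1 < s →
      HasProd (fun P : HeightOneSpectrum (𝓞 E) =>
        (1 - ((χ (ClassGroup.mk0 (primeIdeal0 E P)) : ℂˣ) : ℂ) *
          (absNorm P.asIdeal : ℂ) ^ (-(s : ℂ)))⁻¹) (classL E χ s))
    (hA : ∃ A : ℝ, ∀ᶠ s in 𝓝[>] (1 : ℝ), ‖classL E 1 s‖ ≤ A / (s - 1))
    (hB : ∀ χ : ClassGroup (𝓞 E) →* ℂˣ, χ ≠ 1 →
      ∃ B : ℝ, ∀ᶠ s in 𝓝[>] (1 : ℝ), ‖classL E χ s‖ ≤ B)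
    (S : Set (HeightOneSpectrum (𝓞 E))) (n : ℕ) (hn : 0 < n)
    (hC : ∃ C : ℝ, ∀ᶠ s in 𝓝[>] (1 : ℝ),
      (1 / n : ℝ) * Real.log (1 / (s - 1)) - C ≤ ∑' P : S, (absNorm P.1.asIdeal : ℝ) ^ (-s))
    (H : Subgroup (ClassGroup (𝓞 E)))
    (hH : ∀ P ∈ S, ClassGroup.mk0 (primeIdeal0 E P) ∈ H) :
    H.index ≤ n := by
  classical
  obtain ⟨A, hA⟩ := hA
  obtain ⟨C, hC⟩ := hC
  have hfin : Finite (ClassGroup (𝓞 E) →* ℂˣ) := inferInstance
  have hB' : ∀ χ : ClassGroup (𝓞 E) →* ℂˣ, ∃ B : ℝ, χ ≠ 1 →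
      ∀ᶠ s in 𝓝[>] (1 : ℝ), ‖classL E χ s‖ ≤ B := fun χ => by
    by_cases hχ : χ = 1
    · exact ⟨0, fun h => absurd hχ h⟩
    · obtain ⟨B, hB⟩ := hB χ hχ
      exact ⟨B, fun _ => hB⟩
  choose B hBs using hB'
  have hall : ∀ᶠ s in 𝓝[>] (1 : ℝ), (‖classL E 1 s‖ ≤ A / (s - 1) ∧
      (1 / n : ℝ) * Real.log (1 / (s - 1)) - C ≤ ∑' P : S, (absNorm P.1.asIdeal : ℝ) ^ (-s)) ∧
      ∀ χ : ClassGroup (𝓞 E) →* ℂˣ, χ ≠ 1 → ‖classL E χ s‖ ≤ B χ := by
    refine (hA.and hC).and ?_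
    rw [Filter.eventually_all]
    intro χ
    by_cases hχ : χ = 1
    · exact Filter.Eventually.of_forall fun s h => absurd hχ h
    · exact (hBs χ hχ).mono fun s hs _ => hs
  obtain ⟨δ, hδ, hδs⟩ := exists_delta_of_eventually hall
  exact index_le_of_density E hsum hEuler δ hδ A (fun s hs hs2 => (hδs s hs hs2).1.1)
    (fun χ hχ => ⟨B χ, fun s hs hs2 => (hδs s hs hs2).2 χ hχ⟩) S n hn C
    (fun s hs hs2 => (hδs s hs hs2).1.2) H hH

/-- The bound `ζ_E(s) ≤ A / (s - 1)` near `1⁺`, from Mathlib's class number formula, given the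
identification of `classL E 1` with the Dedekind zeta function. -/
theorem exists_zeta_bound
    (hbridge : ∀ s : ℝ, 1 < s → dedekindZeta E (s : ℂ) = classL E 1 s) :
    ∃ A : ℝ, ∀ᶠ s in 𝓝[>] (1 : ℝ), ‖classL E 1 s‖ ≤ A / (s - 1) := by
  have h := tendsto_sub_one_mul_dedekindZeta_nhdsGT E
  have h2 := h.norm
  have h3 : ∀ᶠ s : ℝ in 𝓝[>] (1 : ℝ),
      ‖((s - 1 : ℝ) : ℂ) * dedekindZeta E (s : ℂ)‖ < ‖(dedekindZeta_residue E : ℂ)‖ + 1 :=
    (h2.eventually (gt_mem_nhds (lt_add_one _))).mono fun s hs => by simpa using hs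
  refine ⟨‖(dedekindZeta_residue E : ℂ)‖ + 1, ?_⟩
  filter_upwards [h3, self_mem_nhdsWithin] with s hs hs1
  have hs1' : (1 : ℝ) < s := hs1
  have hpos : 0 < s - 1 := by linarith
  rw [← hbridge s hs1', le_div_iff₀ hpos, mul_comm]
  rw [norm_mul, Complex.norm_real, Real.norm_of_nonneg hpos.le] at hs
  exact hs.le

end

end Fermat.Agent.S14.H79
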