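import Mathlib
import Fermat.Agent.S14.H72_LogZeta
import Fermat.Agent.S14.H79_SecondInequalityNF

/-!
# S14 / WP4c (hedge) : Euler products of class group `L`-series of a number field

* `hasProd_of_summable_norm_cmono` : the abstract complex Euler product over an arbitrary index
  type: `∏ i, (1 - x i)⁻¹ = ∑' k : ι →₀ ℕ, ∏ i, x i ^ k i` as soon as `‖x i‖ < 1` and the right
  hand side is absolutely summable.
* `summable_primeIdeal_rpow` (`hsum`), `hasProd_classL` (`hEuler`), `dedekindZeta_eq_classL_one`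
  (`hbridge`) : the three inputs of `H79.index_le_of_density_eventually`, verbatim.
* `summable_norm_classL_term` : absolute summability of the class group `L`-series for `s > 1`.
-/

set_option autoImplicit false

open NumberField Ideal IsDedekindDomain nonZeroDivisors Filter Topology

namespace Fermat.Agent.S14.H31

open Fermat.Agent.S14.H72 Fermat.Agent.S14.H79

noncomputable section

/-! ### The abstract complex Euler product -/

section Abstract

variable {ι : Type*}

/-- The complex monomial `∏ i, x i ^ k i`. -/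
def cmono (x : ι → ℂ) (k : ι →₀ ℕ) : ℂ := k.prod fun i n => x i ^ n

lemma cmono_zero (x : ι → ℂ) : cmono x 0 = 1 := by
  simp [cmono]

lemma cmono_single_add (x : ι → ℂ) (a : ι) (n : ℕ) (k : ι →₀ ℕ) :
    cmono x (Finsupp.single a n + k) = x a ^ n * cmono x k := by
  classical
  unfold cmono
  rw [Finsupp.prod_add_index' (fun _ => pow_zero _) (fun _ _ _ => pow_add _ _ _)]
  congr 1
  exact Finsupp.prod_single_index (pow_zero _)

/-- Finite Euler product: exponent vectors supported in a finite set. -/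
lemma tsum_suppIn_cmono (x : ι → ℂ) (hx : ∀ i, ‖x i‖ < 1) (s : Finset ι) :
    (Summable fun k : suppIn s => ‖cmono x k.1‖) ∧
      ∑' k : suppIn s, cmono x k.1 = ∏ i ∈ s, (1 - x i)⁻¹ := by
  classical
  induction s using Finset.induction_on with
  | empty =>
    let _ : Unique (suppIn (∅ : Finset ι)) :=
      { default := ⟨0, by simp [suppIn]⟩
        uniq := fun k => by
          apply Subtype.ext
          have := k.2
          simpa [suppIn] using this }
    refine ⟨(hasSum_fintype _).summable, ?_⟩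
    rw [tsum_eq_single default (fun b hb => (hb (Unique.eq_default b)).elim)]
    rw [Finset.prod_empty]
    exact cmono_zero x
  | insert a s ha ih =>
    obtain ⟨ih1, ih2⟩ := ih
    have hg : Summable fun n : ℕ => ‖x a ^ n‖ := summable_norm_geometric_of_norm_lt_one (hx a)
    have key : ∀ p : ℕ × suppIn s,
        cmono x ((splitEquiv s a ha p : suppIn (insert a s)) : ι →₀ ℕ) =
          x a ^ p.1 * cmono x p.2.1 := fun p => by
      simp only [splitEquiv, Equiv.coe_fn_mk, cmono_single_add]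
    constructor
    · rw [← (splitEquiv s a ha).summable_iff]
      refine (Summable.mul_norm hg ih1).congr fun p => ?_
      simp only [Function.comp_apply, key]
    · rw [Finset.prod_insert ha, ← ih2, ← tsum_geometric_of_norm_lt_one (hx a),
        tsum_mul_tsum_of_summable_norm hg ih1, ← (splitEquiv s a ha).tsum_eq]
      exact tsum_congr fun p => key p

/-- **Abstract Euler product** over an arbitrary index type, complex values. -/
theorem hasProd_of_summable_norm_cmono (x : ι → ℂ) (hx : ∀ i, ‖x i‖ < 1)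
    (hsum : Summable fun k : ι →₀ ℕ => ‖cmono x k‖) :
    HasProd (fun i => (1 - x i)⁻¹) (∑' k : ι →₀ ℕ, cmono x k) := by
  classical
  rw [HasProd, SummationFilter.unconditional_filter]
  have h1 : ∀ s : Finset ι, ∏ i ∈ s, (1 - x i)⁻¹ =
      ∑' k : ι →₀ ℕ, (suppIn s).indicator (cmono x) k := fun s => by
    rw [← (tsum_suppIn_cmono x hx s).2, tsum_subtype (suppIn s) (cmono x)]
  simp only [h1]
  refine tendsto_tsum_of_dominated_convergence (bound := fun k => ‖cmono x k‖) hsum ?_ ?_
  · intro k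
    refine tendsto_const_nhds.congr' ?_
    filter_upwards [eventually_ge_atTop k.support] with s hs
    exact (Set.indicator_of_mem (show k ∈ suppIn s from hs) _).symm
  · exact Eventually.of_forall fun s k => norm_indicator_le_norm_self _ _

end Abstract

/-! ### Number fields -/

variable (E : Type*) [Field E] [NumberField E]

/-- `N(I)^(-s)` is summable over all ideals of `𝓞 E` for real `s > 1`. -/
theorem summable_absNorm_rpow {s : ℝ} (hs : 1 < s) :
    Summable fun I : Ideal (𝓞 E) => (absNorm I : ℝ) ^ (-s) := by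
  have h := ofReal_zetaReal_eq_tsum_ideal E hs
  have hne : ∑' I : Ideal (𝓞 E), idealWt E s I ≠ ⊤ := by
    rw [← h]; exact ENNReal.ofReal_ne_top
  refine (ENNReal.summable_toReal hne).congr fun I => ?_
  unfold idealWt
  rw [ENNReal.toReal_ofReal (Real.rpow_nonneg (Nat.cast_nonneg _) _)]

/-- `∑_I N(I)^(-s) = ζ_E(s)` (sum over all ideals, the zero ideal contributing `0`). -/
theorem tsum_absNorm_rpow {s : ℝ} (hs : 1 < s) :
    ∑' I : Ideal (𝓞 E), (absNorm I : ℝ) ^ (-s) = zetaReal E s := by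
  have h := ofReal_zetaReal_eq_tsum_ideal E hs
  have h0 : 0 ≤ zetaReal E s := le_trans zero_le_one (one_le_zetaReal E hs)
  have h2 := congrArg ENNReal.toReal h
  rw [ENNReal.toReal_ofReal h0, ENNReal.tsum_toReal_eq (fun I => by
    unfold idealWt; exact ENNReal.ofReal_ne_top)] at h2
  rw [h2]
  refine tsum_congr fun I => ?_
  unfold idealWt
  rw [ENNReal.toReal_ofReal (Real.rpow_nonneg (Nat.cast_nonneg _) _)]

/-- `N(I)^(-s)` is summable over the nonzero ideals. -/
theorem summable_absNorm_rpow_nonzero {s : ℝ} (hs : 1 < s) :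
    Summable fun I : (Ideal (𝓞 E))⁰ => (absNorm (I : Ideal (𝓞 E)) : ℝ) ^ (-s) :=
  (summable_absNorm_rpow E hs).subtype _

/-- `∑_{I ≠ 0} N(I)^(-s) = ζ_E(s)`. -/
theorem tsum_absNorm_rpow_nonzero {s : ℝ} (hs : 1 < s) :
    ∑' I : (Ideal (𝓞 E))⁰, (absNorm (I : Ideal (𝓞 E)) : ℝ) ^ (-s) = zetaReal E s := by
  rw [← tsum_absNorm_rpow E hs]
  have hsupp : Function.support (fun I : Ideal (𝓞 E) => (absNorm I : ℝ) ^ (-s)) ⊆
      ((Ideal (𝓞 E))⁰ : Set (Ideal (𝓞 E))) := by
    intro I hI
    rw [SetLike.mem_coe, mem_nonZeroDivisors_iff_ne_zero]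
    intro h0
    apply hI
    simp [h0, Real.zero_rpow (neg_ne_zero.mpr (show s ≠ 0 by linarith))]
  exact tsum_subtype_eq_of_support_subset hsupp

/-- **`hsum`** of `H79.index_le_of_density_eventually`. -/
theorem summable_primeIdeal_rpow : ∀ s : ℝ, 1 < s →
    Summable fun P : HeightOneSpectrum (𝓞 E) => (absNorm P.asIdeal : ℝ) ^ (-s) :=
  fun _ hs => summable_primeTerm E hs

/-- the norm character `I ↦ N(I)^(-s)` on nonzero ideals -/
def normCpowHom (s : ℂ) : (Ideal (𝓞 E))⁰ →* ℂ where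
  toFun I := (absNorm (I : Ideal (𝓞 E)) : ℂ) ^ (-s)
  map_one' := by simp
  map_mul' I J := by
    simp only [Submonoid.coe_mul, map_mul, Nat.cast_mul]
    exact Complex.natCast_mul_natCast_cpow _ _ _

/-- the class group character `χ` on nonzero ideals, complex valued -/
def chiHom (χ : ClassGroup (𝓞 E) →* ℂˣ) : (Ideal (𝓞 E))⁰ →* ℂ :=
  (Units.coeHom ℂ).comp (χ.comp ClassGroup.mk0)

/-- the general term `χ(I) N(I)^(-s)` of the class group `L`-series, as a monoid hom -/
def termHom (χ : ClassGroup (𝓞 E) →* ℂˣ) (s : ℂ) : (Ideal (𝓞 E))⁰ →* ℂ :=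
  chiHom E χ * normCpowHom E s

lemma termHom_apply (χ : ClassGroup (𝓞 E) →* ℂˣ) (s : ℂ) (I : (Ideal (𝓞 E))⁰) :
    termHom E χ s I = ((χ (ClassGroup.mk0 I) : ℂˣ) : ℂ) *
      (absNorm (I : Ideal (𝓞 E)) : ℂ) ^ (-s) := rfl

lemma norm_chi (χ : ClassGroup (𝓞 E) →* ℂˣ) (c : ClassGroup (𝓞 E)) :
    ‖((χ c : ℂˣ) : ℂ)‖ = 1 := by
  have h1 : c ^ Fintype.card (ClassGroup (𝓞 E)) = 1 := pow_card_eq_one
  have h2 : ((χ c : ℂˣ) : ℂ) ^ Fintype.card (ClassGroup (𝓞 E)) = 1 := by
    rw [← Units.val_pow_eq_pow_val, ← map_pow, h1, map_one, Units.val_one]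
  exact Complex.norm_eq_one_of_pow_eq_one h2 Fintype.card_ne_zero

lemma norm_termHom (χ : ClassGroup (𝓞 E) →* ℂˣ) (s : ℝ) (I : (Ideal (𝓞 E))⁰) :
    ‖termHom E χ (s : ℂ) I‖ = (absNorm (I : Ideal (𝓞 E)) : ℝ) ^ (-s) := by
  have hpos : 0 < absNorm (I : Ideal (𝓞 E)) := by
    refine Nat.pos_of_ne_zero fun h => ?_
    exact (mem_nonZeroDivisors_iff_ne_zero.mp I.2) (absNorm_eq_zero_iff.mp h)
  rw [termHom_apply, norm_mul, norm_chi, one_mul, Complex.norm_natCast_cpow_of_pos hpos]
  simp

/-- **Absolute summability** of the class group `L`-series for real `s > 1`. -/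
theorem summable_norm_classL_term (χ : ClassGroup (𝓞 E) →* ℂˣ) {s : ℝ} (hs : 1 < s) :
    Summable fun I : (Ideal (𝓞 E))⁰ => ‖((χ (ClassGroup.mk0 I) : ℂˣ) : ℂ) *
      (absNorm (I : Ideal (𝓞 E)) : ℂ) ^ (-(s : ℂ))‖ :=
  (summable_absNorm_rpow_nonzero E hs).congr fun I => (norm_termHom E χ s I).symm

/-- summability of the class group `L`-series for real `s > 1` -/
theorem summable_classL_term (χ : ClassGroup (𝓞 E) →* ℂˣ) {s : ℝ} (hs : 1 < s) :
    Summable fun I : (Ideal (𝓞 E))⁰ => ((χ (ClassGroup.mk0 I) : ℂˣ) : ℂ) *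
      (absNorm (I : Ideal (𝓞 E)) : ℂ) ^ (-(s : ℂ)) :=
  (summable_norm_classL_term E χ hs).of_norm

/-- the nonzero ideal with given exponent vector -/
def idealOfExps0 (k : HeightOneSpectrum (𝓞 E) →₀ ℕ) : (Ideal (𝓞 E))⁰ :=
  k.prod fun P n => primeIdeal0 E P ^ n

omit [NumberField E] in
lemma coe_idealOfExps0 (k : HeightOneSpectrum (𝓞 E) →₀ ℕ) :
    ((idealOfExps0 E k : (Ideal (𝓞 E))⁰) : Ideal (𝓞 E)) = idealOfExps (𝓞 E) k := by
  unfold idealOfExps0 idealOfExps
  rw [← Submonoid.coe_subtype, map_finsuppProd]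
  simp

/-- exponent vectors are in bijection with the nonzero ideals (submonoid form) -/
def expsEquiv0 : (HeightOneSpectrum (𝓞 E) →₀ ℕ) ≃ (Ideal (𝓞 E))⁰ :=
  (expsEquiv (R := 𝓞 E)).trans (Equiv.subtypeEquivRight fun I => by
    rw [mem_nonZeroDivisors_iff_ne_zero, Ideal.zero_eq_bot])

lemma expsEquiv0_apply (k : HeightOneSpectrum (𝓞 E) →₀ ℕ) :
    expsEquiv0 E k = idealOfExps0 E k := by
  apply Subtype.ext
  rw [coe_idealOfExps0]
  rfl

lemma termHom_idealOfExps0 (χ : ClassGroup (𝓞 E) →* ℂˣ) (s : ℂ)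
    (k : HeightOneSpectrum (𝓞 E) →₀ ℕ) :
    termHom E χ s (idealOfExps0 E k) =
      cmono (fun P => termHom E χ s (primeIdeal0 E P)) k := by
  unfold idealOfExps0 cmono
  rw [map_finsuppProd]
  simp

/-- **`hEuler`** of `H79.index_le_of_density_eventually`: the Euler product of the class group
`L`-series. -/
theorem hasProd_classL : ∀ (χ : ClassGroup (𝓞 E) →* ℂˣ) (s : ℝ), 1 < s →
    HasProd (fun P : HeightOneSpectrum (𝓞 E) =>
      (1 - ((χ (ClassGroup.mk0 (primeIdeal0 E P)) : ℂˣ) : ℂ) *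
        (absNorm P.asIdeal : ℂ) ^ (-(s : ℂ)))⁻¹) (classL E χ s) := by
  intro χ s hs
  set x : HeightOneSpectrum (𝓞 E) → ℂ := fun P => termHom E χ (s : ℂ) (primeIdeal0 E P) with hxdef
  have hx : ∀ P, ‖x P‖ < 1 := fun P => by
    rw [hxdef, norm_termHom]
    exact lt_of_le_of_lt (primeTerm_le_half E hs.le P) (by norm_num)
  have hterm : ∀ k, cmono x k = termHom E χ (s : ℂ) (expsEquiv0 E k) := fun k => by
    rw [expsEquiv0_apply, termHom_idealOfExps0]
  have hsum : Summable fun k : HeightOneSpectrum (𝓞 E) →₀ ℕ => ‖cmono x k‖ := by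
    have h := (expsEquiv0 E).summable_iff.mpr (summable_norm_classL_term E χ hs)
    refine h.congr fun k => ?_
    rw [hterm k]
    rfl
  have h := hasProd_of_summable_norm_cmono x hx hsum
  have htsum : ∑' k : HeightOneSpectrum (𝓞 E) →₀ ℕ, cmono x k = classL E χ s := by
    unfold classL
    rw [← (expsEquiv0 E).tsum_eq]
    exact tsum_congr fun k => hterm k
  rw [htsum] at h
  exact h

/-- **`hbridge`** of `H79.exists_zeta_bound`: the Dedekind zeta function is the class group
`L`-series of the trivial character. -/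
theorem dedekindZeta_eq_classL_one : ∀ s : ℝ, 1 < s →
    dedekindZeta E (s : ℂ) = classL E 1 s := by
  intro s hs
  rw [dedekindZeta_eq_zetaReal E hs, ← tsum_absNorm_rpow_nonzero E hs, Complex.ofReal_tsum]
  unfold classL
  refine tsum_congr fun I => ?_
  rw [natCast_cpow_neg]
  simp

/-- **`hA`** of `H79.index_le_of_density_eventually`. -/
theorem exists_classL_one_bound :
    ∃ A : ℝ, ∀ᶠ s in 𝓝[>] (1 : ℝ), ‖classL E 1 s‖ ≤ A / (s - 1) :=
  exists_zeta_bound E (dedekindZeta_eq_classL_one E)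

end

end Fermat.Agent.S14.H31
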