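import Mathlib

set_option autoImplicit false
set_option linter.overlappingInstances false

/-!
# S14 shared definitions: the relative norm on class groups

`classNorm R S : ClassGroup S →* ClassGroup R` induced by `Ideal.relNorm`, its value on
`ClassGroup.mk0`, transitivity in towers, and the norm subgroup.
-/

namespace Fermat.Agent.S14

open scoped nonZeroDivisors

section Lift

variable {S : Type*} [CommRing S] [IsDomain S] [IsDedekindDomain S]
variable {G : Type*} [CommGroup G]

/-- A monoid hom on nonzero ideals that kills principal ideals is constant on ideal classes. -/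
theorem eq_of_mk0_eq (φ : (Ideal S)⁰ →* G)
    (hφ : ∀ (x : S) (hx : x ≠ 0),
      φ ⟨Ideal.span {x}, mem_nonZeroDivisors_iff_ne_zero.mpr
        (by simpa [Ideal.span_singleton_eq_bot] using hx)⟩ = 1)
    {I J : (Ideal S)⁰} (h : ClassGroup.mk0 I = ClassGroup.mk0 J) : φ I = φ J := by
  obtain ⟨x, y, hx, hy, hxy⟩ := ClassGroup.mk0_eq_mk0_iff.mp h
  have hx' : Ideal.span {x} ∈ (Ideal S)⁰ := mem_nonZeroDivisors_iff_ne_zero.mpr
    (by simpa [Ideal.span_singleton_eq_bot] using hx)
  have hy' : Ideal.span {y} ∈ (Ideal S)⁰ := mem_nonZeroDivisors_iff_ne_zero.mpr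
    (by simpa [Ideal.span_singleton_eq_bot] using hy)
  have e : (⟨Ideal.span {x}, hx'⟩ : (Ideal S)⁰) * I = ⟨Ideal.span {y}, hy'⟩ * J :=
    Subtype.ext hxy
  have := congrArg φ e
  rwa [map_mul, map_mul, hφ x hx, hφ y hy, one_mul, one_mul] at this

/-- Lift of a monoid hom on nonzero ideals killing principal ideals to the class group. -/
noncomputable def liftClass (φ : (Ideal S)⁰ →* G)
    (hφ : ∀ (x : S) (hx : x ≠ 0),
      φ ⟨Ideal.span {x}, mem_nonZeroDivisors_iff_ne_zero.mpr
        (by simpa [Ideal.span_singleton_eq_bot] using hx)⟩ = 1) :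
    ClassGroup S →* G where
  toFun c := φ (Function.surjInv ClassGroup.mk0_surjective c)
  map_one' := by
    rw [← map_one φ]
    exact eq_of_mk0_eq φ hφ
      ((Function.surjInv_eq ClassGroup.mk0_surjective 1).trans (map_one _).symm)
  map_mul' a b := by
    rw [← map_mul φ]
    refine eq_of_mk0_eq φ hφ ?_
    rw [map_mul, Function.surjInv_eq ClassGroup.mk0_surjective,
      Function.surjInv_eq ClassGroup.mk0_surjective, Function.surjInv_eq ClassGroup.mk0_surjective]

@[simp]
theorem liftClass_mk0 (φ : (Ideal S)⁰ →* G)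
    (hφ : ∀ (x : S) (hx : x ≠ 0),
      φ ⟨Ideal.span {x}, mem_nonZeroDivisors_iff_ne_zero.mpr
        (by simpa [Ideal.span_singleton_eq_bot] using hx)⟩ = 1) (I : (Ideal S)⁰) :
    liftClass φ hφ (ClassGroup.mk0 I) = φ I :=
  eq_of_mk0_eq φ hφ (Function.surjInv_eq _ _)

end Lift

section Norm

variable (R S : Type*) [CommRing R] [IsDomain R] [IsDedekindDomain R]
  [CommRing S] [IsDomain S] [IsDedekindDomain S] [Algebra R S] [Module.Finite R S]
  [Module.IsTorsionFree R S]

/-- `Ideal.relNorm` restricted to nonzero ideals. -/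
noncomputable def relNormNZ : (Ideal S)⁰ →* (Ideal R)⁰ where
  toFun I := ⟨Ideal.relNorm R (I : Ideal S), mem_nonZeroDivisors_iff_ne_zero.mpr
    (by rw [Ne, Ideal.zero_eq_bot, Ideal.relNorm_eq_bot_iff]
        exact mem_nonZeroDivisors_iff_ne_zero.mp I.2)⟩
  map_one' := Subtype.ext (by simp)
  map_mul' I J := Subtype.ext (by simp)

@[simp]
theorem coe_relNormNZ (I : (Ideal S)⁰) : (relNormNZ R S I : Ideal R) = Ideal.relNorm R (I : Ideal S) :=
  rfl

/-- The relative norm on ideal class groups. -/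
noncomputable def classNorm : ClassGroup S →* ClassGroup R :=
  liftClass (ClassGroup.mk0.comp (relNormNZ R S)) (by
    intro x hx
    rw [MonoidHom.comp_apply, ClassGroup.mk0_eq_one_iff]
    simp only [coe_relNormNZ, Ideal.relNorm_singleton]
    exact ⟨⟨_, rfl⟩⟩)

@[simp]
theorem classNorm_mk0 (I : (Ideal S)⁰) :
    classNorm R S (ClassGroup.mk0 I) = ClassGroup.mk0 (relNormNZ R S I) :=
  liftClass_mk0 _ _ I

/-- The subgroup of norm classes. -/
noncomputable def normSubgroup : Subgroup (ClassGroup R) := (classNorm R S).range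

theorem mk0_relNorm_mem_normSubgroup (I : (Ideal S)⁰) :
    ClassGroup.mk0 (relNormNZ R S I) ∈ normSubgroup R S :=
  ⟨ClassGroup.mk0 I, classNorm_mk0 R S I⟩

theorem mem_normSubgroup_iff {c : ClassGroup R} :
    c ∈ normSubgroup R S ↔ ∃ I : (Ideal S)⁰, ClassGroup.mk0 (relNormNZ R S I) = c := by
  constructor
  · rintro ⟨d, rfl⟩
    obtain ⟨I, rfl⟩ := ClassGroup.mk0_surjective d
    exact ⟨I, (classNorm_mk0 R S I).symm⟩
  · rintro ⟨I, rfl⟩
    exact mk0_relNorm_mem_normSubgroup R S I

end Norm

section Tower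

variable (R T S : Type*) [CommRing R] [IsDomain R] [IsDedekindDomain R]
  [CommRing T] [IsDomain T] [IsDedekindDomain T]
  [CommRing S] [IsDomain S] [IsDedekindDomain S]
  [Algebra R T] [Algebra T S] [Algebra R S] [IsScalarTower R T S]
  [Module.Finite R T] [Module.Finite T S] [Module.Finite R S]
  [Module.IsTorsionFree R T] [Module.IsTorsionFree T S] [Module.IsTorsionFree R S]

theorem relNormNZ_relNormNZ (I : (Ideal S)⁰) :
    relNormNZ R T (relNormNZ T S I) = relNormNZ R S I :=
  Subtype.ext (by simp [Ideal.relNorm_relNorm])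

theorem classNorm_classNorm (c : ClassGroup S) :
    classNorm R T (classNorm T S c) = classNorm R S c := by
  obtain ⟨I, rfl⟩ := ClassGroup.mk0_surjective c
  rw [classNorm_mk0, classNorm_mk0, classNorm_mk0, relNormNZ_relNormNZ]

theorem map_normSubgroup_le :
    (normSubgroup T S).map (classNorm R T) ≤ normSubgroup R S := by
  rintro _ ⟨_, ⟨c, rfl⟩, rfl⟩
  exact ⟨c, (classNorm_classNorm R T S c).symm⟩

end Tower

section DegreeOne

variable {R S : Type*} [CommRing R] [IsDomain R] [IsDedekindDomain R]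
  [CommRing S] [IsDomain S] [IsDedekindDomain S] [Algebra R S] [Module.Finite R S]
  [Module.IsTorsionFree R S] [PerfectField (FractionRing R)]

/-- A prime of `R` with a degree-one prime of `S` above it is a relative norm. -/
theorem relNorm_eq_of_inertiaDeg_eq_one (P : Ideal S) (p : Ideal R) [P.IsMaximal] [p.IsMaximal]
    [P.LiesOver p] (h : P.inertiaDeg R = 1) : Ideal.relNorm R P = p := by
  rw [Ideal.relNorm_eq_pow_of_isMaximal P p, h, pow_one]

/-- The class of a prime of `R` with a degree-one prime of `S` above it is a norm class. -/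
theorem mk0_mem_normSubgroup_of_inertiaDeg_eq_one (P : Ideal S) (p : Ideal R) [P.IsMaximal]
    [p.IsMaximal] [P.LiesOver p] (h : P.inertiaDeg R = 1) (hp : p ∈ (Ideal R)⁰) :
    ClassGroup.mk0 ⟨p, hp⟩ ∈ normSubgroup R S := by
  have hP : P ∈ (Ideal S)⁰ := by
    rw [mem_nonZeroDivisors_iff_ne_zero, Ne, Ideal.zero_eq_bot]
    rintro rfl
    have : Ideal.relNorm R (⊥ : Ideal S) = p := relNorm_eq_of_inertiaDeg_eq_one ⊥ p h
    rw [Ideal.relNorm_bot] at this
    exact mem_nonZeroDivisors_iff_ne_zero.mp hp this.symm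
  rw [mem_normSubgroup_iff]
  refine ⟨⟨P, hP⟩, ?_⟩
  congr 1
  exact Subtype.ext (relNorm_eq_of_inertiaDeg_eq_one P p h)

end DegreeOne

section NumberField

open NumberField

variable (K L : Type*) [Field K] [Field L] [NumberField K] [NumberField L] [Algebra K L]

/-- UNR: every nonzero prime of `𝓞 L` is unramified over `𝓞 K` (the hypothesis shape shared by
WP1b / WP3 / WP5 / WP7). -/
def IsUnramifiedEverywhere : Prop :=
  ∀ P : Ideal (𝓞 L), P.IsPrime → P ≠ ⊥ → P.ramificationIdx (𝓞 K) = 1

/-- The relative norm `Cl_L → Cl_K`. -/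
noncomputable abbrev classNormNF : ClassGroup (𝓞 L) →* ClassGroup (𝓞 K) :=
  classNorm (𝓞 K) (𝓞 L)

/-- `N(Cl_L) ≤ Cl_K`. -/
noncomputable abbrev normSubgroupNF : Subgroup (ClassGroup (𝓞 K)) := normSubgroup (𝓞 K) (𝓞 L)

end NumberField

end Fermat.Agent.S14
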