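import Mathlib

/-! Definitions for S14 / WP4 (analytic second inequality): L-series over nonzero ideals. -/

namespace Fermat.Agent.S14.H98

open NumberField Ideal nonZeroDivisors IsDedekindDomain

section Defs

variable (K : Type*) [Field K] [NumberField K]

/-- Output of WP4a: ideal count in each class with a power saving error term. -/
def IdealCountError : Prop :=
  ∃ κ M : ℝ, 0 < κ ∧ ∀ (C : ClassGroup (𝓞 K)) (x : ℝ), 1 ≤ x →
    |(Nat.card {I : (Ideal (𝓞 K))⁰ // (absNorm (I : Ideal (𝓞 K)) : ℝ) ≤ x ∧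
        ClassGroup.mk0 I = C} : ℝ) - κ * x|
      ≤ M * x ^ (1 - 1 / (Module.finrank ℚ K : ℝ))

variable {K}

/-- A height one prime as a nonzero ideal. -/
def primeIdeal₀ (v : HeightOneSpectrum (𝓞 K)) : (Ideal (𝓞 K))⁰ :=
  ⟨v.asIdeal, mem_nonZeroDivisors_of_ne_zero v.ne_bot⟩

@[simp] lemma coe_primeIdeal₀ (v : HeightOneSpectrum (𝓞 K)) :
    ((primeIdeal₀ v : (Ideal (𝓞 K))⁰) : Ideal (𝓞 K)) = v.asIdeal := rfl

/-- `N(I)^(-s)` as a real number. -/
noncomputable def normPow (s : ℝ) (I : (Ideal (𝓞 K))⁰) : ℝ :=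
  (absNorm (I : Ideal (𝓞 K)) : ℝ) ^ (-s)

/-- General term of the L-series of a function on nonzero ideals, real `s`. -/
noncomputable def idealTerm (ψ : (Ideal (𝓞 K))⁰ → ℂ) (s : ℝ) (I : (Ideal (𝓞 K))⁰) : ℂ :=
  ψ I * (normPow s I : ℂ)

/-- `L(s, ψ) = ∑_I ψ(I) N(I)^(-s)`. -/
noncomputable def idealL (ψ : (Ideal (𝓞 K))⁰ → ℂ) (s : ℝ) : ℂ := ∑' I, idealTerm ψ s I

/-- The function on nonzero ideals attached to a class group character. -/
noncomputable def classFun (χ : ClassGroup (𝓞 K) →* ℂ) : (Ideal (𝓞 K))⁰ →* ℂ :=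
  χ.comp ClassGroup.mk0

@[simp] lemma classFun_apply (χ : ClassGroup (𝓞 K) →* ℂ) (I : (Ideal (𝓞 K))⁰) :
    classFun χ I = χ (ClassGroup.mk0 I) := rfl

lemma one_le_absNorm (I : (Ideal (𝓞 K))⁰) : 1 ≤ absNorm (I : Ideal (𝓞 K)) :=
  Nat.one_le_iff_ne_zero.mpr (absNorm_ne_zero_of_nonZeroDivisors I)

lemma normPow_pos (s : ℝ) (I : (Ideal (𝓞 K))⁰) : 0 < normPow s I :=
  Real.rpow_pos_of_pos (by exact_mod_cast one_le_absNorm I) _

lemma normPow_le_one {s : ℝ} (hs : 0 ≤ s) (I : (Ideal (𝓞 K))⁰) : normPow s I ≤ 1 :=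
  Real.rpow_le_one_of_one_le_of_nonpos (by exact_mod_cast one_le_absNorm I) (by linarith)

lemma normPow_mul (s : ℝ) (I J : (Ideal (𝓞 K))⁰) :
    normPow s (I * J) = normPow s I * normPow s J := by
  unfold normPow
  rw [Submonoid.coe_mul, map_mul, Nat.cast_mul, Real.mul_rpow (Nat.cast_nonneg _) (Nat.cast_nonneg _)]

lemma normPow_one (s : ℝ) : normPow s (1 : (Ideal (𝓞 K))⁰) = 1 := by
  simp [normPow]

end Defs

section DegOne

variable {E M : Type*} [Field E] [NumberField E] [Field M] [NumberField M] [Algebra E M]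

/-- Primes of `M` of relative degree one over `E` (expressed through norms). -/
def IsDegOne (𝔓 : HeightOneSpectrum (𝓞 M)) : Prop :=
  absNorm 𝔓.asIdeal = absNorm (𝔓.asIdeal.comap (algebraMap (𝓞 E) (𝓞 M)))

end DegOne

end Fermat.Agent.S14.H98
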