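import Mathlib
import Fermat.Agent.S14.H98_LDefs

/-! S14 / WP4b : boundedness of `L(s, χ)` near `s = 1` for a nontrivial class group character,
from the ideal count with error term. -/

namespace Fermat.Agent.S14.H98

open NumberField Ideal nonZeroDivisors Finset MeasureTheory Filter Asymptotics

/-- Abstract form: partial sums `O(n^r)` with `r < 1` bound the L-series on real `s > 1`. -/
theorem norm_LSeries_le_of_partial_sums {f : ℕ → ℂ} {r C : ℝ} (hr : 0 ≤ r) (hr1 : r < 1)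
    (hC0 : 0 ≤ C)
    (hC : ∀ n : ℕ, ‖∑ k ∈ Icc 1 n, f k‖ ≤ C * (n : ℝ) ^ r) {s : ℝ} (hs : 1 < s)
    (hS : LSeriesSummable f s) :
    ‖LSeries f s‖ ≤ s * C / (s - r) := by
  have hsr : r < (s : ℂ).re := by simpa using hr1.trans hs
  have hO : (fun n : ℕ ↦ ∑ k ∈ Icc 1 n, f k) =O[atTop] fun n ↦ (n : ℝ) ^ r := by
    refine IsBigO.of_bound C (Eventually.of_forall fun n ↦ ?_)
    rw [Real.norm_of_nonneg (Real.rpow_nonneg (Nat.cast_nonneg n) r)]
    exact hC n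
  rw [LSeries_eq_mul_integral f hr hsr hS hO, norm_mul, Complex.norm_real,
    Real.norm_of_nonneg (by linarith), mul_div_assoc]
  refine mul_le_mul_of_nonneg_left ?_ (by linarith)
  have hint : IntegrableOn (fun t : ℝ ↦ C * t ^ (r - s - 1)) (Set.Ioi 1) :=
    (integrableOn_Ioi_rpow_of_lt (by linarith) zero_lt_one).const_mul C
  have hval : ∫ t in Set.Ioi (1 : ℝ), C * t ^ (r - s - 1) = C / (s - r) := by
    rw [integral_const_mul, integral_Ioi_rpow_of_lt (by linarith) zero_lt_one]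
    rw [Real.one_rpow]
    have : r - s - 1 + 1 = -(s - r) := by ring
    rw [this]
    have hne : s - r ≠ 0 := by linarith
    field_simp
  rw [← hval]
  refine norm_integral_le_of_norm_le hint ?_
  refine (ae_restrict_iff' measurableSet_Ioi).mpr (Eventually.of_forall fun t ht ↦ ?_)
  have ht0 : (0 : ℝ) < t := zero_lt_one.trans ht
  rw [norm_mul, Complex.norm_cpow_eq_rpow_re_of_pos ht0]
  have hre : (-((s : ℂ) + 1)).re = -(s + 1) := by simp
  rw [hre]
  have h1 : ‖∑ k ∈ Icc 1 ⌊t⌋₊, f k‖ ≤ C * t ^ r := by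
    refine (hC ⌊t⌋₊).trans (mul_le_mul_of_nonneg_left ?_ hC0)
    exact Real.rpow_le_rpow (Nat.cast_nonneg _) (Nat.floor_le ht0.le) hr
  calc ‖∑ k ∈ Icc 1 ⌊t⌋₊, f k‖ * t ^ (-(s + 1))
      ≤ (C * t ^ r) * t ^ (-(s + 1)) :=
        mul_le_mul_of_nonneg_right h1 (Real.rpow_nonneg ht0.le _)
    _ = C * t ^ (r - s - 1) := by
        rw [mul_assoc, ← Real.rpow_add ht0]
        congr 2
        ring


section Bookkeeping

variable {K : Type*} [Field K] [NumberField K]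

open scoped Classical in
/-- the finite set of nonzero ideals of norm at most `n` -/
noncomputable def idealsLE (K : Type*) [Field K] [NumberField K] (n : ℕ) :
    Finset (Ideal (𝓞 K))⁰ :=
  (finite_setOfPred_absNorm_le₀ (S := 𝓞 K) n).toFinset

lemma mem_idealsLE {n : ℕ} {I : (Ideal (𝓞 K))⁰} :
    I ∈ idealsLE K n ↔ absNorm (I : Ideal (𝓞 K)) ≤ n := by
  simp [idealsLE]

open scoped Classical in
/-- coefficients of the ideal L-series, as an ordinary Dirichlet series -/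
noncomputable def idealCoeff (ψ : (Ideal (𝓞 K))⁰ → ℂ) (m : ℕ) : ℂ :=
  ∑ I ∈ (idealsLE K m).filter (fun I : (Ideal (𝓞 K))⁰ => absNorm (I : Ideal (𝓞 K)) = m), ψ I

open scoped Classical in
lemma idealCoeff_eq_of_le (ψ : (Ideal (𝓞 K))⁰ → ℂ) {m n : ℕ} (hmn : m ≤ n) :
    idealCoeff ψ m = ∑ I ∈ (idealsLE K n).filter (fun I : (Ideal (𝓞 K))⁰ => absNorm (I : Ideal (𝓞 K)) = m), ψ I := by
  unfold idealCoeff
  refine Finset.sum_congr ?_ (fun _ _ => rfl)
  ext I
  simp only [Finset.mem_filter, mem_idealsLE]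
  constructor
  · rintro ⟨_, h⟩; exact ⟨h ▸ hmn, h⟩
  · rintro ⟨_, h⟩; exact ⟨h.le, h⟩

open scoped Classical in
/-- partial sums of the coefficients = sums over ideals of bounded norm -/
lemma sum_idealCoeff (ψ : (Ideal (𝓞 K))⁰ → ℂ) (n : ℕ) :
    ∑ k ∈ Icc 1 n, idealCoeff ψ k = ∑ I ∈ idealsLE K n, ψ I := by
  rw [← Finset.sum_fiberwise_of_maps_to (s := idealsLE K n) (t := Icc 1 n)
    (g := fun I : (Ideal (𝓞 K))⁰ => absNorm (I : Ideal (𝓞 K))) ?_ ψ]
  · refine Finset.sum_congr rfl fun k hk => ?_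
    exact idealCoeff_eq_of_le ψ (Finset.mem_Icc.mp hk).2
  · intro I hI
    exact Finset.mem_Icc.mpr ⟨one_le_absNorm I, mem_idealsLE.mp hI⟩

end Bookkeeping


section ClassSums

variable {K : Type*} [Field K] [NumberField K]

lemma sum_units_char_eq_zero {G : Type*} [Group G] [Fintype G] (χ : G →* ℂˣ) (hχ : χ ≠ 1) :
    ∑ g, (χ g : ℂ) = 0 := by
  obtain ⟨a, ha⟩ : ∃ a, χ a ≠ 1 := by
    by_contra h
    push Not at h
    exact hχ (MonoidHom.ext fun g => by simpa using h g)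
  have h1 : (χ a : ℂ) * ∑ g, (χ g : ℂ) = ∑ g, (χ g : ℂ) := by
    rw [Finset.mul_sum]
    refine Fintype.sum_bijective (fun g => a * g) (Group.mulLeft_bijective a) _ _ fun g => ?_
    simp [map_mul]
  have h2 : (χ a : ℂ) ≠ 1 := fun h => ha (Units.ext h)
  exact eq_zero_of_mul_eq_self_left h2 h1

open scoped Classical in
lemma card_filter_class (n : ℕ) (C : ClassGroup (𝓞 K)) :
    ((idealsLE K n).filter (fun I : (Ideal (𝓞 K))⁰ => ClassGroup.mk0 I = C)).card =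
      Nat.card {I : (Ideal (𝓞 K))⁰ // (absNorm (I : Ideal (𝓞 K)) : ℝ) ≤ (n : ℝ) ∧
        ClassGroup.mk0 I = C} := by
  symm
  refine Nat.subtype_card _ fun I => ?_
  simp [mem_idealsLE]

open scoped Classical in
lemma sum_class (χ : ClassGroup (𝓞 K) →* ℂˣ) (n : ℕ) :
    ∑ I ∈ idealsLE K n, (χ (ClassGroup.mk0 I) : ℂ) =
      ∑ C : ClassGroup (𝓞 K), (χ C : ℂ) *
        (Nat.card {I : (Ideal (𝓞 K))⁰ // (absNorm (I : Ideal (𝓞 K)) : ℝ) ≤ (n : ℝ) ∧
          ClassGroup.mk0 I = C} : ℂ) := by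
  rw [← Finset.sum_fiberwise (s := idealsLE K n) (g := fun I : (Ideal (𝓞 K))⁰ => ClassGroup.mk0 I)]
  refine Finset.sum_congr rfl fun C _ => ?_
  rw [← card_filter_class, Finset.sum_congr rfl (g := fun _ => (χ C : ℂ))]
  · rw [Finset.sum_const, nsmul_eq_mul, mul_comm]
  · intro I hI
    rw [(Finset.mem_filter.mp hI).2]

/-- the partial sums of a nontrivial class character are `O(n^(1-1/d))` -/
lemma norm_sum_class_le (hK : IdealCountError K) :
    ∃ A : ℝ, 0 ≤ A ∧ ∀ (χ : ClassGroup (𝓞 K) →* ℂˣ), χ ≠ 1 → ∀ n : ℕ,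
      ‖∑ I ∈ idealsLE K n, (χ (ClassGroup.mk0 I) : ℂ)‖ ≤
        A * (n : ℝ) ^ (1 - 1 / (Module.finrank ℚ K : ℝ)) := by
  obtain ⟨κ, M, hκ, hM⟩ := hK
  have hM0 : 0 ≤ M := by
    have h := hM 1 1 le_rfl
    simp only [Real.one_rpow, mul_one] at h
    exact (abs_nonneg _).trans h
  refine ⟨(Fintype.card (ClassGroup (𝓞 K)) : ℝ) * M, by positivity, fun χ hχ n => ?_⟩
  rcases Nat.eq_zero_or_pos n with rfl | hn
  · have : idealsLE K 0 = ∅ := by
      ext I
      simp only [mem_idealsLE, Finset.notMem_empty, iff_false, not_le]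
      exact one_le_absNorm I
    rw [this, Finset.sum_empty, norm_zero]
    positivity
  have hn1 : (1 : ℝ) ≤ n := by exact_mod_cast hn
  rw [sum_class]
  have h0 : ∑ C : ClassGroup (𝓞 K), (χ C : ℂ) * ((κ * n : ℝ) : ℂ) = 0 := by
    rw [← Finset.sum_mul, sum_units_char_eq_zero χ hχ, zero_mul]
  rw [← sub_zero (∑ C : ClassGroup (𝓞 K), _), ← h0, ← Finset.sum_sub_distrib]
  refine (norm_sum_le _ _).trans ?_
  have : ∀ C ∈ (Finset.univ : Finset (ClassGroup (𝓞 K))),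
      ‖(χ C : ℂ) * (Nat.card {I : (Ideal (𝓞 K))⁰ // (absNorm (I : Ideal (𝓞 K)) : ℝ) ≤ (n : ℝ) ∧
          ClassGroup.mk0 I = C} : ℂ) - (χ C : ℂ) * ((κ * n : ℝ) : ℂ)‖ ≤
        M * (n : ℝ) ^ (1 - 1 / (Module.finrank ℚ K : ℝ)) := by
    intro C _
    rw [← mul_sub, norm_mul]
    have hχ1 : ‖(χ C : ℂ)‖ = 1 := by
      have hfin : IsOfFinOrder (χ C) := χ.isOfFinOrder (isOfFinOrder_of_finite C)
      obtain ⟨k, hk, hk1⟩ := hfin.exists_pow_eq_one
      have : ‖(χ C : ℂ)‖ ^ k = 1 := by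
        rw [← norm_pow, ← Units.val_pow_eq_pow_val, hk1, Units.val_one, norm_one]
      exact (pow_eq_one_iff_of_nonneg (norm_nonneg _) hk.ne').mp this
    rw [hχ1, one_mul]
    have := hM C n hn1
    rw [← Complex.ofReal_natCast, ← Complex.ofReal_sub, Complex.norm_real, Real.norm_eq_abs]
    exact this
  refine (Finset.sum_le_sum this).trans ?_
  rw [Finset.sum_const, Finset.card_univ, nsmul_eq_mul, mul_assoc]

end ClassSums


section Main

variable {K : Type*} [Field K] [NumberField K]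

open scoped Classical in
lemma tsum_fiber_eq (ψ : (Ideal (𝓞 K))⁰ → ℂ) (m : ℕ) :
    ∑' I : ↑((fun I : (Ideal (𝓞 K))⁰ => absNorm (I : Ideal (𝓞 K))) ⁻¹' {m}), ψ I =
      idealCoeff ψ m := by
  rw [tsum_subtype ((fun I : (Ideal (𝓞 K))⁰ => absNorm (I : Ideal (𝓞 K))) ⁻¹' {m}) ψ]
  rw [tsum_eq_sum (s := (idealsLE K m).filter
    (fun I : (Ideal (𝓞 K))⁰ => absNorm (I : Ideal (𝓞 K)) = m))]
  · unfold idealCoeff
    refine Finset.sum_congr rfl fun I hI => ?_
    rw [Set.indicator_of_mem]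
    exact (Finset.mem_filter.mp hI).2
  · intro I hI
    rw [Set.indicator_of_notMem]
    intro h
    exact hI (Finset.mem_filter.mpr ⟨mem_idealsLE.mpr (le_of_eq h), h⟩)

/-- regrouping the sum over ideals by the norm -/
lemma hasSum_term_of_summable (ψ : (Ideal (𝓞 K))⁰ → ℂ) (s : ℂ)
    (h : Summable fun I : (Ideal (𝓞 K))⁰ => ψ I * (absNorm (I : Ideal (𝓞 K)) : ℂ) ^ (-s)) :
    HasSum (LSeries.term (idealCoeff ψ) s)
      (∑' I : (Ideal (𝓞 K))⁰, ψ I * (absNorm (I : Ideal (𝓞 K)) : ℂ) ^ (-s)) := by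
  have h1 := h.hasSum.tsum_fiberwise (fun I : (Ideal (𝓞 K))⁰ => absNorm (I : Ideal (𝓞 K)))
  have h2 : LSeries.term (idealCoeff ψ) s = fun c : ℕ =>
      ∑' b : ↑((fun I : (Ideal (𝓞 K))⁰ => absNorm (I : Ideal (𝓞 K))) ⁻¹' {c}),
        ψ b * (absNorm ((b : (Ideal (𝓞 K))⁰) : Ideal (𝓞 K)) : ℂ) ^ (-s) := by
    funext m
    rcases Nat.eq_zero_or_pos m with rfl | hm
    · rw [LSeries.term_zero]
      have : IsEmpty ↑((fun I : (Ideal (𝓞 K))⁰ => absNorm (I : Ideal (𝓞 K))) ⁻¹' {0}) := by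
        refine ⟨fun ⟨I, hI⟩ => ?_⟩
        have h1 := one_le_absNorm I
        have h0 : absNorm (I : Ideal (𝓞 K)) = 0 := hI
        omega
      rw [tsum_empty]
    · rw [LSeries.term_of_ne_zero hm.ne', ← tsum_fiber_eq, div_eq_mul_inv, ← Complex.cpow_neg,
        ← tsum_mul_right]
      refine tsum_congr fun ⟨I, hI⟩ => ?_
      have h0 : absNorm (I : Ideal (𝓞 K)) = m := hI
      simp only [h0]
  rw [h2]
  exact h1

/-- WP4 / L4 : bounded class `L`-series (shape of the S14 master plan). -/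
theorem classLSeries_bounded_of (hK : IdealCountError K) (χ : ClassGroup (𝓞 K) →* ℂˣ)
    (hχ : χ ≠ 1) :
    ∃ B : ℝ, ∀ s : ℝ, 1 < s → s ≤ 2 →
      ‖∑' I : (Ideal (𝓞 K))⁰, (χ (ClassGroup.mk0 I) : ℂ) *
        (absNorm (I : Ideal (𝓞 K)) : ℂ) ^ (-(s : ℂ))‖ ≤ B := by
  obtain ⟨A, hA0, hA⟩ := norm_sum_class_le hK
  set r : ℝ := 1 - 1 / (Module.finrank ℚ K : ℝ) with hr
  have hd : (1 : ℝ) ≤ (Module.finrank ℚ K : ℝ) := by
    exact_mod_cast Module.finrank_pos (R := ℚ) (M := K)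
  have hr0 : 0 ≤ r := by
    rw [hr, sub_nonneg, div_le_one (by linarith)]
    exact hd
  have hr1 : r < 1 := by
    rw [hr]
    have : 0 < 1 / (Module.finrank ℚ K : ℝ) := by positivity
    linarith
  refine ⟨2 * A / (1 - r), fun s hs1 hs2 => ?_⟩
  have hB0 : 0 ≤ 2 * A / (1 - r) := div_nonneg (by positivity) (by linarith)
  by_cases hsum : Summable fun I : (Ideal (𝓞 K))⁰ => (χ (ClassGroup.mk0 I) : ℂ) *
        (absNorm (I : Ideal (𝓞 K)) : ℂ) ^ (-(s : ℂ))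
  · have hH := hasSum_term_of_summable (fun I => (χ (ClassGroup.mk0 I) : ℂ)) (s : ℂ) hsum
    have hS : LSeriesSummable (idealCoeff fun I : (Ideal (𝓞 K))⁰ =>
        (χ (ClassGroup.mk0 I) : ℂ)) s := hH.summable
    have hL : LSeries (idealCoeff fun I : (Ideal (𝓞 K))⁰ => (χ (ClassGroup.mk0 I) : ℂ)) s =
        ∑' I : (Ideal (𝓞 K))⁰, (χ (ClassGroup.mk0 I) : ℂ) *
          (absNorm (I : Ideal (𝓞 K)) : ℂ) ^ (-(s : ℂ)) := hH.tsum_eq
    rw [← hL]
    have hC : ∀ n : ℕ, ‖∑ k ∈ Icc 1 n, idealCoeff (fun I : (Ideal (𝓞 K))⁰ =>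
        (χ (ClassGroup.mk0 I) : ℂ)) k‖ ≤ A * (n : ℝ) ^ r := by
      intro n
      rw [sum_idealCoeff]
      exact hA χ hχ n
    refine (norm_LSeries_le_of_partial_sums hr0 hr1 hA0 hC hs1 hS).trans ?_
    rw [div_le_div_iff₀ (by linarith) (by linarith)]
    have h1 : s * A ≤ 2 * A := mul_le_mul_of_nonneg_right hs2 hA0
    have h2 : 0 ≤ 2 * A := by positivity
    nlinarith
  · rw [tsum_eq_zero_of_not_summable hsum, norm_zero]
    exact hB0

end Main

end Fermat.Agent.S14.H98
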