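import Mathlib
import Fermat.Agent.S14.H34_IdealCount
import Fermat.Agent.S14.H98_LBounded

set_option autoImplicit false

/-! S14 / WP4 : the ideal count with error term (WP4a) in the `H98.IdealCountError` shape, and the
resulting unconditional boundedness of class group `L`-series near `s = 1` (WP4b). -/

open NumberField Ideal
open scoped nonZeroDivisors

namespace Fermat.Agent.S14.H34

variable (K : Type*) [Field K] [NumberField K]

/-- WP4a in the shape consumed by `H98_LBounded`. -/
theorem idealCountError : Fermat.Agent.S14.H98.IdealCountError K :=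
  exists_ideal_count_error K

/-- **Bounded class `L`-series** (unconditional): for a nontrivial character `χ` of the class
group, `L(s, χ) = ∑ χ(I) N(I)^(-s)` is bounded on `1 < s ≤ 2`. -/
theorem classLSeries_bounded (χ : ClassGroup (𝓞 K) →* ℂˣ) (hχ : χ ≠ 1) :
    ∃ B : ℝ, ∀ s : ℝ, 1 < s → s ≤ 2 →
      ‖∑' I : (Ideal (𝓞 K))⁰, (χ (ClassGroup.mk0 I) : ℂ) *
        (absNorm (I : Ideal (𝓞 K)) : ℂ) ^ (-(s : ℂ))‖ ≤ B :=
  Fermat.Agent.S14.H98.classLSeries_bounded_of (idealCountError K) χ hχ

end Fermat.Agent.S14.H34
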