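import Mathlib
import Fermat.Agent.S14.Common
import Fermat.Agent.S14.H98_LBounded
import Fermat.Agent.S14.H79_SecondInequalityNF

/-!
# S14 / WP4d : the second inequality for an extension of number fields `M / E`

* `exists_primeZetaSum_lower` : from the Euler product of `ζ_K` and Mathlib's residue theorem,
  `∑_P N P^{-s} ≥ log (1/(s-1)) - C` near `1⁺`.
* `exists_splitPrimes_lower` : fibre counting for an arbitrary extension `M / E` of number fields:
  the primes of `E` having a prime of `M` of relative degree one above have lower density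
  `≥ 1 / [M : E]` (log-sum form).
* `second_inequality_of` : `H.index ≤ [M : E]` for every subgroup `H` of the class group of `E`
  containing the classes of these primes, with the remaining analytic inputs (Euler products for
  `E` and `ζ_M`, bounded nontrivial class `L`-series of `E`) as explicit hypotheses.
* `index_normSubgroupNF_le_of` : the corollary for the norm subgroup.
-/

set_option autoImplicit false

open NumberField Ideal IsDedekindDomain nonZeroDivisors Filter Topology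

namespace Fermat.Agent.S14.H79

/-- pulling back a nonnegative summable family along a map with fibres of size `≤ n` -/
theorem summable_comp_and_tsum_le {α β : Type*} (u : α → β) (n : ℕ)
    (hfib : ∀ (b : β) (T : Finset α), (∀ a ∈ T, u a = b) → T.card ≤ n)
    (f : β → ℝ) (hf0 : ∀ b, 0 ≤ f b) (hf : Summable f) :
    Summable (fun a => f (u a)) ∧ ∑' a, f (u a) ≤ n * ∑' b, f b := by
  classical
  have key : ∀ T : Finset α, ∑ a ∈ T, f (u a) ≤ n * ∑' b, f b := by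
    intro T
    rw [← Finset.sum_fiberwise_of_maps_to (t := T.image u) (g := u)
      (fun a ha => Finset.mem_image_of_mem u ha)]
    calc ∑ b ∈ T.image u, ∑ a ∈ T with u a = b, f (u a)
        = ∑ b ∈ T.image u, ((T.filter (fun a => u a = b)).card : ℝ) * f b := by
          refine Finset.sum_congr rfl fun b _ => ?_
          rw [Finset.sum_congr rfl (fun a ha => by rw [(Finset.mem_filter.mp ha).2]),
            Finset.sum_const, nsmul_eq_mul]
      _ ≤ ∑ b ∈ T.image u, (n : ℝ) * f b := by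
          refine Finset.sum_le_sum fun b _ => ?_
          exact mul_le_mul_of_nonneg_right
            (by exact_mod_cast hfib b _ (fun a ha => (Finset.mem_filter.mp ha).2)) (hf0 b)
      _ = n * ∑ b ∈ T.image u, f b := by rw [Finset.mul_sum]
      _ ≤ n * ∑' b, f b :=
          mul_le_mul_of_nonneg_left (hf.sum_le_tsum _ (fun b _ => hf0 b)) (Nat.cast_nonneg n)
  have hs : Summable (fun a => f (u a)) := summable_of_sum_le (fun a => hf0 _) key
  exact ⟨hs, hs.tsum_le_of_sum_le key⟩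

theorem neg_log_one_sub_le {x : ℝ} (hx1 : x ≤ 1 / 2) :
    -Real.log (1 - x) ≤ x + 2 * x ^ 2 := by
  have h1 : 0 < 1 - x := by linarith
  have h2 : -Real.log (1 - x) = Real.log ((1 - x)⁻¹) := by rw [Real.log_inv]
  rw [h2]
  have h3 : Real.log ((1 - x)⁻¹) ≤ (1 - x)⁻¹ - 1 := Real.log_le_sub_one_of_pos (inv_pos.mpr h1)
  refine h3.trans ?_
  rw [sub_le_iff_le_add, inv_le_iff_one_le_mul₀ h1]
  nlinarith

section OneField

variable (K : Type*) [Field K] [NumberField K]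

theorem one_le_absNorm' (P : HeightOneSpectrum (𝓞 K)) : (1 : ℝ) ≤ (absNorm P.asIdeal : ℝ) := by
  linarith [two_le_absNorm K P]

/-- From the Euler product of `ζ_K` and the residue at `1`: `∑_P N P^{-s} ≥ log (1/(s-1)) - C`. -/
theorem exists_primeZetaSum_lower
    (hsum : ∀ s : ℝ, 1 < s →
      Summable fun P : HeightOneSpectrum (𝓞 K) => (absNorm P.asIdeal : ℝ) ^ (-s))
    (hEuler1 : ∀ s : ℝ, 1 < s →
      HasProd (fun P : HeightOneSpectrum (𝓞 K) =>
        (1 - (absNorm P.asIdeal : ℂ) ^ (-(s : ℂ)))⁻¹) (dedekindZeta K (s : ℂ))) :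
    ∃ C : ℝ, ∀ᶠ s in 𝓝[>] (1 : ℝ), Real.log (1 / (s - 1)) - C ≤
      ∑' P : HeightOneSpectrum (𝓞 K), (absNorm P.asIdeal : ℝ) ^ (-s) := by
  set r : ℝ := dedekindZeta_residue K with hr
  have hrpos : 0 < r := dedekindZeta_residue_pos K
  set C2 : ℝ := ∑' P : HeightOneSpectrum (𝓞 K), (absNorm P.asIdeal : ℝ) ^ (-(2 : ℝ)) with hC2
  have h := (tendsto_sub_one_mul_dedekindZeta_nhdsGT K).norm
  have hlt : r / 2 < ‖(r : ℂ)‖ := by
    rw [Complex.norm_real, Real.norm_of_nonneg hrpos.le]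
    linarith
  have h3 : ∀ᶠ s : ℝ in 𝓝[>] (1 : ℝ),
      r / 2 < ‖((s : ℂ) - 1) * dedekindZeta K (s : ℂ)‖ := h.eventually (lt_mem_nhds hlt)
  refine ⟨2 * C2 - Real.log (r / 2), ?_⟩
  filter_upwards [h3, self_mem_nhdsWithin] with s hs hs1
  have hs1' : (1 : ℝ) < s := hs1
  have hpos : 0 < s - 1 := by linarith
  -- lower bound for the norm of zeta
  have hnorm : (r / 2) / (s - 1) < ‖dedekindZeta K (s : ℂ)‖ := by
    rw [div_lt_iff₀ hpos, mul_comm]
    have : ‖((s : ℂ) - 1)‖ = s - 1 := by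
      rw [← Complex.ofReal_one, ← Complex.ofReal_sub, Complex.norm_real,
        Real.norm_of_nonneg hpos.le]
    rwa [norm_mul, this] at hs
  -- the Euler product
  have hx : ∀ P : HeightOneSpectrum (𝓞 K), 0 ≤ (absNorm P.asIdeal : ℝ) ^ (-s) ∧
      (absNorm P.asIdeal : ℝ) ^ (-s) ≤ 1 / 2 := fun P =>
    rpow_neg_mem_Icc (two_le_absNorm K P) hs1'
  have hz : ∀ P : HeightOneSpectrum (𝓞 K),
      ‖(absNorm P.asIdeal : ℂ) ^ (-(s : ℂ))‖ = (absNorm P.asIdeal : ℝ) ^ (-s) := fun P => by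
    rw [natCast_cpow_neg, Complex.norm_real, Real.norm_of_nonneg (hx P).1]
  obtain ⟨-, hsummable, hlog⟩ := log_norm_eulerProduct
    (z := fun P : HeightOneSpectrum (𝓞 K) => (absNorm P.asIdeal : ℂ) ^ (-(s : ℂ)))
    (fun P => by rw [hz]; exact (hx P).2)
    (by simp only [hz]; exact hsum s hs1') (hEuler1 s hs1')
  have hterm : ∀ P : HeightOneSpectrum (𝓞 K),
      -Real.log ‖1 - (absNorm P.asIdeal : ℂ) ^ (-(s : ℂ))‖ ≤
        (absNorm P.asIdeal : ℝ) ^ (-s) + 2 * (absNorm P.asIdeal : ℝ) ^ (-(2 : ℝ)) := fun P => by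
    have e1 : ‖1 - (absNorm P.asIdeal : ℂ) ^ (-(s : ℂ))‖ = 1 - (absNorm P.asIdeal : ℝ) ^ (-s) := by
      rw [natCast_cpow_neg, ← Complex.ofReal_one, ← Complex.ofReal_sub, Complex.norm_real,
        Real.norm_of_nonneg]
      linarith [(hx P).2]
    rw [e1]
    refine (neg_log_one_sub_le (hx P).2).trans ?_
    have h2 : ((absNorm P.asIdeal : ℝ) ^ (-s)) ^ 2 ≤ (absNorm P.asIdeal : ℝ) ^ (-(2 : ℝ)) := by
      have hN : (1 : ℝ) ≤ (absNorm P.asIdeal : ℝ) := one_le_absNorm' K P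
      rw [← Real.rpow_natCast, ← Real.rpow_mul (by linarith)]
      exact Real.rpow_le_rpow_of_exponent_le hN (by push_cast; nlinarith)
    linarith
  have hs2 : Summable fun P : HeightOneSpectrum (𝓞 K) =>
      (absNorm P.asIdeal : ℝ) ^ (-s) + 2 * (absNorm P.asIdeal : ℝ) ^ (-(2 : ℝ)) :=
    (hsum s hs1').add ((hsum 2 (by norm_num)).mul_left 2)
  have hle : Real.log ‖dedekindZeta K (s : ℂ)‖ ≤
      (∑' P : HeightOneSpectrum (𝓞 K), (absNorm P.asIdeal : ℝ) ^ (-s)) + 2 * C2 := by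
    rw [hlog]
    refine (hsummable.tsum_le_tsum hterm hs2).trans (le_of_eq ?_)
    rw [(hsum s hs1').tsum_add ((hsum 2 (by norm_num)).mul_left 2), tsum_mul_left]
  have hlog2 : Real.log ((r / 2) / (s - 1)) ≤ Real.log ‖dedekindZeta K (s : ℂ)‖ :=
    Real.log_le_log (by positivity) hnorm.le
  have hsplit : Real.log ((r / 2) / (s - 1)) = Real.log (r / 2) + Real.log (1 / (s - 1)) := by
    rw [div_eq_mul_one_div (r / 2), Real.log_mul (by positivity) (by positivity)]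
  linarith

end OneField

section Extension

variable (E M : Type*) [Field E] [NumberField E] [Field M] [NumberField M] [Algebra E M]

theorem absNorm_eq_pow_inertiaDeg_under (𝔓 : HeightOneSpectrum (𝓞 M)) :
    absNorm 𝔓.asIdeal =
      absNorm (𝔓.under (𝓞 E)).asIdeal ^ (𝔓.asIdeal.inertiaDeg (𝓞 E)) := by
  have h1 : 𝔓.asIdeal.LiesOver (𝔓.under (𝓞 E)).asIdeal := by
    rw [HeightOneSpectrum.under_asIdeal]
    infer_instance
  have hmax : (𝔓.under (𝓞 E)).asIdeal.IsMaximal := (𝔓.under (𝓞 E)).isMaximal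
  have hmax' : 𝔓.asIdeal.IsMaximal := 𝔓.isMaximal
  rw [absNorm_eq_pow_inertiaDeg'_of_liesOver 𝔓.asIdeal (𝔓.under (𝓞 E)).asIdeal
    (𝔓.under (𝓞 E)).isPrime (𝔓.under (𝓞 E)).ne_bot, inertiaDeg'_eq_inertiaDeg]

/-- at most `[M : E]` primes of `M` lie over a given prime of `E` -/
theorem card_le_finrank_of_under_eq (P : HeightOneSpectrum (𝓞 E))
    (T : Finset (HeightOneSpectrum (𝓞 M))) (hT : ∀ 𝔓 ∈ T, 𝔓.under (𝓞 E) = P) :
    T.card ≤ Module.finrank E M := by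
  classical
  have hP : P.asIdeal.IsPrime := P.isPrime
  let j : T → P.asIdeal.primesOver (𝓞 M) := fun 𝔓 =>
    ⟨𝔓.1.asIdeal, 𝔓.1.isPrime, by
      have := hT 𝔓.1 𝔓.2
      rw [← this, HeightOneSpectrum.under_asIdeal]
      infer_instance⟩
  have hj : Function.Injective j := by
    intro a b hab
    have : a.1.asIdeal = b.1.asIdeal := congrArg Subtype.val hab
    exact Subtype.ext (HeightOneSpectrum.ext this)
  have h1 : T.card ≤ Fintype.card (P.asIdeal.primesOver (𝓞 M)) := by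
    rw [← Fintype.card_coe]
    exact Fintype.card_le_of_injective j hj
  have h2 := Ideal.sum_ramification_inertia_eq_finrank P.asIdeal (𝓞 M)
  rw [← IsFractionRing.finrank_eq (𝓞 E) E (𝓞 M) M] at h2
  rw [← h2]
  refine h1.trans ?_
  rw [Fintype.card_eq_sum_ones]
  refine Finset.sum_le_sum fun q _ => ?_
  have := q.2.1
  exact Nat.one_le_iff_ne_zero.mpr (Nat.mul_ne_zero (ramificationIdx_pos q.1 (𝓞 E)).ne'
    (inertiaDeg_pos q.1 (𝓞 E)).ne')

/-- primes of `M` of relative degree one over `E` -/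
def degOnePrimes : Set (HeightOneSpectrum (𝓞 M)) := {𝔓 | 𝔓.asIdeal.inertiaDeg (𝓞 E) = 1}

/-- primes of `E` with a prime of `M` of relative degree one above -/
def splitPrimes : Set (HeightOneSpectrum (𝓞 E)) :=
  {P | ∃ 𝔓 : HeightOneSpectrum (𝓞 M), 𝔓.under (𝓞 E) = P ∧ 𝔓.asIdeal.inertiaDeg (𝓞 E) = 1}

/-- `N 𝔓 ^ (-s) ≤ N (𝔓 ∩ E) ^ (-s)` -/
theorem rpow_absNorm_le_under (𝔓 : HeightOneSpectrum (𝓞 M)) {s : ℝ} (hs : 0 ≤ s) :
    (absNorm 𝔓.asIdeal : ℝ) ^ (-s) ≤ (absNorm (𝔓.under (𝓞 E)).asIdeal : ℝ) ^ (-s) := by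
  have hN := one_le_absNorm' E (𝔓.under (𝓞 E))
  have hf : 1 ≤ 𝔓.asIdeal.inertiaDeg (𝓞 E) := by
    have := 𝔓.isPrime
    exact inertiaDeg_pos 𝔓.asIdeal (𝓞 E)
  rw [absNorm_eq_pow_inertiaDeg_under E M 𝔓, Nat.cast_pow, ← Real.rpow_natCast,
    ← Real.rpow_mul (by linarith)]
  refine Real.rpow_le_rpow_of_exponent_le hN ?_
  have : (1 : ℝ) ≤ (𝔓.asIdeal.inertiaDeg (𝓞 E) : ℝ) := by exact_mod_cast hf
  nlinarith

/-- for `𝔓` of relative degree `≥ 2`: `N 𝔓 ^ (-s) ≤ N (𝔓 ∩ E) ^ (-2)` -/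
theorem rpow_absNorm_le_under_two (𝔓 : HeightOneSpectrum (𝓞 M))
    (h𝔓 : 𝔓.asIdeal.inertiaDeg (𝓞 E) ≠ 1) {s : ℝ} (hs : 1 ≤ s) :
    (absNorm 𝔓.asIdeal : ℝ) ^ (-s) ≤ (absNorm (𝔓.under (𝓞 E)).asIdeal : ℝ) ^ (-(2 : ℝ)) := by
  have hN := one_le_absNorm' E (𝔓.under (𝓞 E))
  have hf : 2 ≤ 𝔓.asIdeal.inertiaDeg (𝓞 E) := by
    have := 𝔓.isPrime
    have := inertiaDeg_pos 𝔓.asIdeal (𝓞 E)
    omega
  rw [absNorm_eq_pow_inertiaDeg_under E M 𝔓, Nat.cast_pow, ← Real.rpow_natCast,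
    ← Real.rpow_mul (by linarith)]
  refine Real.rpow_le_rpow_of_exponent_le hN ?_
  have : (2 : ℝ) ≤ (𝔓.asIdeal.inertiaDeg (𝓞 E) : ℝ) := by exact_mod_cast hf
  nlinarith

/-- summability over the primes of `M` from summability over the primes of `E` -/
theorem summable_of_summable_base {s : ℝ} (hs : 0 ≤ s)
    (hsumE : Summable fun P : HeightOneSpectrum (𝓞 E) => (absNorm P.asIdeal : ℝ) ^ (-s)) :
    Summable fun 𝔓 : HeightOneSpectrum (𝓞 M) => (absNorm 𝔓.asIdeal : ℝ) ^ (-s) := by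
  have h1 := (summable_comp_and_tsum_le (fun 𝔓 : HeightOneSpectrum (𝓞 M) => 𝔓.under (𝓞 E))
    (Module.finrank E M) (fun P T hT => card_le_finrank_of_under_eq E M P T hT)
    (fun P => (absNorm P.asIdeal : ℝ) ^ (-s))
    (fun P => Real.rpow_nonneg (Nat.cast_nonneg _) _) hsumE).1
  exact Summable.of_nonneg_of_le (fun P => Real.rpow_nonneg (Nat.cast_nonneg _) _)
    (fun 𝔓 => rpow_absNorm_le_under E M 𝔓 hs) h1

/-- **Fibre counting.** The primes of `E` having a prime of `M` of relative degree one above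
have lower Dirichlet density `≥ 1 / [M : E]` (log-sum form), given the corresponding statement with
density one for all primes of `M`. -/
theorem exists_splitPrimes_lower
    (hsumE : ∀ s : ℝ, 1 < s →
      Summable fun P : HeightOneSpectrum (𝓞 E) => (absNorm P.asIdeal : ℝ) ^ (-s))
    (hM : ∃ C : ℝ, ∀ᶠ s in 𝓝[>] (1 : ℝ), Real.log (1 / (s - 1)) - C ≤
      ∑' 𝔓 : HeightOneSpectrum (𝓞 M), (absNorm 𝔓.asIdeal : ℝ) ^ (-s)) :
    ∃ C : ℝ, ∀ᶠ s in 𝓝[>] (1 : ℝ),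
      (1 / (Module.finrank E M : ℕ) : ℝ) * Real.log (1 / (s - 1)) - C ≤
        ∑' P : splitPrimes E M, (absNorm P.1.asIdeal : ℝ) ^ (-s) := by
  classical
  obtain ⟨C, hC⟩ := hM
  set n : ℕ := Module.finrank E M with hn
  have hnpos : 0 < n := Module.finrank_pos
  have hnR : (0 : ℝ) < n := by exact_mod_cast hnpos
  set C2 : ℝ := ∑' P : HeightOneSpectrum (𝓞 E), (absNorm P.asIdeal : ℝ) ^ (-(2 : ℝ)) with hC2
  refine ⟨C / n + C2, ?_⟩
  filter_upwards [hC, self_mem_nhdsWithin] with s hs hs1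
  have hs1' : (1 : ℝ) < s := hs1
  have hnn : ∀ P : HeightOneSpectrum (𝓞 E), 0 ≤ (absNorm P.asIdeal : ℝ) ^ (-s) := fun P =>
    Real.rpow_nonneg (Nat.cast_nonneg _) _
  -- summability over the primes of `M`
  have hsumM : Summable fun 𝔓 : HeightOneSpectrum (𝓞 M) => (absNorm 𝔓.asIdeal : ℝ) ^ (-s) :=
    summable_of_summable_base E M (by linarith) (hsumE s hs1')
  -- the degree one part
  have hD : ∑' 𝔓 : degOnePrimes E M, (absNorm 𝔓.1.asIdeal : ℝ) ^ (-s) ≤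
      n * ∑' P : splitPrimes E M, (absNorm P.1.asIdeal : ℝ) ^ (-s) := by
    let u : degOnePrimes E M → splitPrimes E M := fun 𝔓 => ⟨𝔓.1.under (𝓞 E), 𝔓.1, rfl, 𝔓.2⟩
    have h1 := summable_comp_and_tsum_le u n
      (fun P T hT => by
        have := card_le_finrank_of_under_eq E M P.1 (T.map (Function.Embedding.subtype _))
          (fun 𝔓 h𝔓 => by
            obtain ⟨a, ha, rfl⟩ := Finset.mem_map.mp h𝔓
            exact congrArg Subtype.val (hT a ha))
        rwa [Finset.card_map] at this)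
      (fun P => (absNorm P.1.asIdeal : ℝ) ^ (-s)) (fun P => hnn P.1)
      ((hsumE s hs1').subtype _)
    refine le_trans (le_of_eq ?_) h1.2
    refine tsum_congr fun 𝔓 => ?_
    have h2 := absNorm_eq_pow_inertiaDeg_under E M 𝔓.1
    rw [show 𝔓.1.asIdeal.inertiaDeg (𝓞 E) = 1 from 𝔓.2, pow_one] at h2
    rw [h2]
  -- the part of degree at least two
  have hD2 : ∑' 𝔓 : ↥(degOnePrimes E M)ᶜ, (absNorm 𝔓.1.asIdeal : ℝ) ^ (-s) ≤ n * C2 := by
    have h1 := summable_comp_and_tsum_le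
      (fun 𝔓 : ↥(degOnePrimes E M)ᶜ => 𝔓.1.under (𝓞 E)) n
      (fun P T hT => by
        have := card_le_finrank_of_under_eq E M P (T.map (Function.Embedding.subtype _))
          (fun 𝔓 h𝔓 => by
            obtain ⟨a, ha, rfl⟩ := Finset.mem_map.mp h𝔓
            exact hT a ha)
        rwa [Finset.card_map] at this)
      (fun P => (absNorm P.asIdeal : ℝ) ^ (-(2 : ℝ)))
      (fun P => Real.rpow_nonneg (Nat.cast_nonneg _) _) (hsumE 2 (by norm_num))
    refine le_trans ?_ h1.2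
    refine Summable.tsum_le_tsum (fun 𝔓 => ?_) (hsumM.subtype _) h1.1
    exact rpow_absNorm_le_under_two E M 𝔓.1 𝔓.2 hs1'.le
  have hsplit := hsumM.tsum_subtype_add_tsum_subtype_compl (degOnePrimes E M)
  have hmain : Real.log (1 / (s - 1)) - C ≤
      n * (∑' P : splitPrimes E M, (absNorm P.1.asIdeal : ℝ) ^ (-s)) + n * C2 := by
    calc Real.log (1 / (s - 1)) - C
        ≤ ∑' 𝔓 : HeightOneSpectrum (𝓞 M), (absNorm 𝔓.asIdeal : ℝ) ^ (-s) := hs
      _ = _ := hsplit.symm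
      _ ≤ _ := add_le_add hD hD2
  have e1 : (1 / (n : ℝ)) * Real.log (1 / (s - 1)) - (C / n + C2) =
      (Real.log (1 / (s - 1)) - C - n * C2) / n := by
    field_simp
    ring
  rw [e1, div_le_iff₀ hnR]
  linarith

/-- **Second inequality** for an arbitrary extension `M / E` of number fields, analytic inputs as
hypotheses (Euler products for `E`, bridge to `ζ_E`, boundedness of the nontrivial class
`L`-series of `E`, Euler product of `ζ_M`). -/
theorem second_inequality_of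
    (hsumE : ∀ s : ℝ, 1 < s →
      Summable fun P : HeightOneSpectrum (𝓞 E) => (absNorm P.asIdeal : ℝ) ^ (-s))
    (hEulerE : ∀ (χ : ClassGroup (𝓞 E) →* ℂˣ) (s : ℝ), 1 < s →
      HasProd (fun P : HeightOneSpectrum (𝓞 E) =>
        (1 - ((χ (ClassGroup.mk0 (primeIdeal0 E P)) : ℂˣ) : ℂ) *
          (absNorm P.asIdeal : ℂ) ^ (-(s : ℂ)))⁻¹) (classL E χ s))
    (hbridgeE : ∀ s : ℝ, 1 < s → dedekindZeta E (s : ℂ) = classL E 1 s)
    (hB : ∀ χ : ClassGroup (𝓞 E) →* ℂˣ, χ ≠ 1 →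
      ∃ B : ℝ, ∀ᶠ s in 𝓝[>] (1 : ℝ), ‖classL E χ s‖ ≤ B)
    (hEulerM : ∀ s : ℝ, 1 < s →
      HasProd (fun 𝔓 : HeightOneSpectrum (𝓞 M) =>
        (1 - (absNorm 𝔓.asIdeal : ℂ) ^ (-(s : ℂ)))⁻¹) (dedekindZeta M (s : ℂ)))
    (H : Subgroup (ClassGroup (𝓞 E)))
    (hH : ∀ (𝔓 : Ideal (𝓞 M)) (_ : 𝔓.IsPrime) (_ : 𝔓 ≠ ⊥),
      𝔓.inertiaDeg (𝓞 E) = 1 →
      ∀ hP : 𝔓.under (𝓞 E) ∈ (Ideal (𝓞 E))⁰,
        ClassGroup.mk0 ⟨𝔓.under (𝓞 E), hP⟩ ∈ H) :
    H.index ≤ Module.finrank E M := by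
  have hsumM : ∀ s : ℝ, 1 < s →
      Summable fun 𝔓 : HeightOneSpectrum (𝓞 M) => (absNorm 𝔓.asIdeal : ℝ) ^ (-s) :=
    fun s hs => summable_of_summable_base E M (by linarith) (hsumE s hs)
  have hM := exists_primeZetaSum_lower M hsumM hEulerM
  have hC := exists_splitPrimes_lower E M hsumE hM
  refine index_le_of_density_eventually E hsumE hEulerE (exists_zeta_bound E hbridgeE) hB
    (splitPrimes E M) (Module.finrank E M) Module.finrank_pos hC H ?_
  rintro P ⟨𝔓, rfl, h𝔓⟩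
  exact hH 𝔓.asIdeal 𝔓.isPrime 𝔓.ne_bot h𝔓 _

/-- the same with the ideal count with error term (WP4a) as the hypothesis on `E` -/
theorem second_inequality_of_idealCountError
    (hsumE : ∀ s : ℝ, 1 < s →
      Summable fun P : HeightOneSpectrum (𝓞 E) => (absNorm P.asIdeal : ℝ) ^ (-s))
    (hEulerE : ∀ (χ : ClassGroup (𝓞 E) →* ℂˣ) (s : ℝ), 1 < s →
      HasProd (fun P : HeightOneSpectrum (𝓞 E) =>
        (1 - ((χ (ClassGroup.mk0 (primeIdeal0 E P)) : ℂˣ) : ℂ) *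
          (absNorm P.asIdeal : ℂ) ^ (-(s : ℂ)))⁻¹) (classL E χ s))
    (hbridgeE : ∀ s : ℝ, 1 < s → dedekindZeta E (s : ℂ) = classL E 1 s)
    (hcount : H98.IdealCountError E)
    (hEulerM : ∀ s : ℝ, 1 < s →
      HasProd (fun 𝔓 : HeightOneSpectrum (𝓞 M) =>
        (1 - (absNorm 𝔓.asIdeal : ℂ) ^ (-(s : ℂ)))⁻¹) (dedekindZeta M (s : ℂ)))
    (H : Subgroup (ClassGroup (𝓞 E)))
    (hH : ∀ (𝔓 : Ideal (𝓞 M)) (_ : 𝔓.IsPrime) (_ : 𝔓 ≠ ⊥),
      𝔓.inertiaDeg (𝓞 E) = 1 →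
      ∀ hP : 𝔓.under (𝓞 E) ∈ (Ideal (𝓞 E))⁰,
        ClassGroup.mk0 ⟨𝔓.under (𝓞 E), hP⟩ ∈ H) :
    H.index ≤ Module.finrank E M := by
  refine second_inequality_of E M hsumE hEulerE hbridgeE ?_ hEulerM H hH
  intro χ hχ
  obtain ⟨B, hB⟩ := H98.classLSeries_bounded_of hcount χ hχ
  refine ⟨B, ?_⟩
  have h2 : ∀ᶠ s : ℝ in 𝓝[>] (1 : ℝ), s ≤ 2 :=
    (eventually_le_nhds (by norm_num : (1 : ℝ) < 2)).filter_mono nhdsWithin_le_nhds
  filter_upwards [h2, self_mem_nhdsWithin] with s hs2 hs1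
  exact hB s hs1 hs2

/-- the norm subgroup has index at most the degree -/
theorem index_normSubgroupNF_le_of
    (hsumE : ∀ s : ℝ, 1 < s →
      Summable fun P : HeightOneSpectrum (𝓞 E) => (absNorm P.asIdeal : ℝ) ^ (-s))
    (hEulerE : ∀ (χ : ClassGroup (𝓞 E) →* ℂˣ) (s : ℝ), 1 < s →
      HasProd (fun P : HeightOneSpectrum (𝓞 E) =>
        (1 - ((χ (ClassGroup.mk0 (primeIdeal0 E P)) : ℂˣ) : ℂ) *
          (absNorm P.asIdeal : ℂ) ^ (-(s : ℂ)))⁻¹) (classL E χ s))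
    (hbridgeE : ∀ s : ℝ, 1 < s → dedekindZeta E (s : ℂ) = classL E 1 s)
    (hcount : H98.IdealCountError E)
    (hEulerM : ∀ s : ℝ, 1 < s →
      HasProd (fun 𝔓 : HeightOneSpectrum (𝓞 M) =>
        (1 - (absNorm 𝔓.asIdeal : ℂ) ^ (-(s : ℂ)))⁻¹) (dedekindZeta M (s : ℂ))) :
    (normSubgroupNF E M).index ≤ Module.finrank E M := by
  refine second_inequality_of_idealCountError E M hsumE hEulerE hbridgeE hcount hEulerM _ ?_
  intro 𝔓 h𝔓 h0 hdeg hP
  have : 𝔓.IsMaximal := h𝔓.isMaximal h0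
  have hp0 : 𝔓.under (𝓞 E) ≠ ⊥ := mem_nonZeroDivisors_iff_ne_zero.mp hP
  have : (𝔓.under (𝓞 E)).IsMaximal := (Ideal.IsPrime.under (𝓞 E) 𝔓).isMaximal hp0
  exact mk0_mem_normSubgroup_of_inertiaDeg_eq_one 𝔓 (𝔓.under (𝓞 E)) hdeg hP

end Extension

end Fermat.Agent.S14.H79
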