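import Mathlib
import Fermat.Agent.S14.Common
import Fermat.Agent.S14.H31_EulerChi
import Fermat.Agent.S14.H34_LBounded
import Fermat.Agent.S14.H79_SecondInequalityFinal

/-!
# S14 / WP4 : the second inequality (B), hypothesis-free

For an arbitrary extension `M / E` of number fields:

* `second_inequality` : every subgroup `H` of the class group of `E` containing the classes of all
  primes of `E` having a prime of `M` of relative degree one above has index `≤ [M : E]`.
* `index_normSubgroupNF_le` : `[Cl_E : N_{M/E} Cl_M] ≤ [M : E]`.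
* `index_le_of_normSubgroupNF_le` : the same for every subgroup containing the norm subgroup.
-/

set_option autoImplicit false

open NumberField Ideal IsDedekindDomain nonZeroDivisors Filter Topology

namespace Fermat.Agent.S14.H79

variable (E M : Type*) [Field E] [NumberField E] [Field M] [NumberField M] [Algebra E M]

/-- Euler product of the Dedekind zeta function over the prime ideals (real `s > 1`). -/
theorem hasProd_dedekindZeta (K : Type*) [Field K] [NumberField K] (s : ℝ) (hs : 1 < s) :
    HasProd (fun P : HeightOneSpectrum (𝓞 K) =>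
      (1 - (absNorm P.asIdeal : ℂ) ^ (-(s : ℂ)))⁻¹) (dedekindZeta K (s : ℂ)) := by
  have h := H31.hasProd_classL K 1 s hs
  rw [← H31.dedekindZeta_eq_classL_one K s hs] at h
  refine h.congr_fun fun P => ?_
  simp

/-- **Second inequality (B)**, in the shape of the WP4 interface: for an arbitrary extension
`M / E` of number fields, a subgroup `H` of the class group of `E` containing the class of
`𝔓 ∩ 𝓞 E` for every prime `𝔓` of `M` of relative degree one has index at most `[M : E]`. -/
theorem second_inequality (H : Subgroup (ClassGroup (𝓞 E)))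
    (hH : ∀ (𝔓 : Ideal (𝓞 M)) (_ : 𝔓.IsPrime) (_ : 𝔓 ≠ ⊥),
      𝔓.inertiaDeg (𝓞 E) = 1 →
      ∀ hP : 𝔓.under (𝓞 E) ∈ (Ideal (𝓞 E))⁰,
        ClassGroup.mk0 ⟨𝔓.under (𝓞 E), hP⟩ ∈ H) :
    H.index ≤ Module.finrank E M :=
  second_inequality_of_idealCountError E M (H31.summable_primeIdeal_rpow E) (H31.hasProd_classL E)
    (H31.dedekindZeta_eq_classL_one E) (H34.idealCountError E) (hasProd_dedekindZeta M) H hH

/-- **(B) for the norm subgroup**: `[Cl_E : N_{M/E} Cl_M] ≤ [M : E]`. -/
theorem index_normSubgroupNF_le : (normSubgroupNF E M).index ≤ Module.finrank E M :=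
  index_normSubgroupNF_le_of E M (H31.summable_primeIdeal_rpow E) (H31.hasProd_classL E)
    (H31.dedekindZeta_eq_classL_one E) (H34.idealCountError E) (hasProd_dedekindZeta M)

/-- a subgroup containing the norm subgroup has index at most the degree -/
theorem index_le_of_normSubgroupNF_le (H : Subgroup (ClassGroup (𝓞 E)))
    (hH : normSubgroupNF E M ≤ H) : H.index ≤ Module.finrank E M :=
  (Nat.le_of_dvd (Nat.pos_of_ne_zero Subgroup.index_ne_zero_of_finite)
    (Subgroup.index_dvd_of_le hH)).trans (index_normSubgroupNF_le E M)

/-- the lower density statement for the primes of `E` having a degree one prime above in `M` -/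
theorem exists_splitPrimes_lower' :
    ∃ C : ℝ, ∀ᶠ s in 𝓝[>] (1 : ℝ),
      (1 / (Module.finrank E M : ℕ) : ℝ) * Real.log (1 / (s - 1)) - C ≤
        ∑' P : splitPrimes E M, (absNorm P.1.asIdeal : ℝ) ^ (-s) :=
  exists_splitPrimes_lower E M (H31.summable_primeIdeal_rpow E)
    (exists_primeZetaSum_lower M (H31.summable_primeIdeal_rpow M) (hasProd_dedekindZeta M))

end Fermat.Agent.S14.H79
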