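import Mathlib

set_option autoImplicit false

noncomputable section

namespace Fermat.Agent.S14.H27

open NumberField
open scoped Pointwise

section Basic

variable (K : Type*) {L : Type*} [Field K] [Field L] [NumberField K] [NumberField L]
  [Algebra K L] [IsGalois K L]

/-- The Frobenius element of a nonzero prime `𝔓` of `𝓞 L` in `Gal(L/K)`
(canonical when `𝔓` is unramified over `K`). -/
def frob (𝔓 : Ideal (𝓞 L)) [𝔓.IsPrime] (h𝔓 : 𝔓 ≠ ⊥) : Gal(L/K) :=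
  haveI := Ideal.finiteQuotientOfFreeOfNeBot 𝔓 h𝔓
  arithFrobAt (𝓞 K) Gal(L/K) 𝔓

variable {K}

theorem isArithFrobAt_frob (𝔓 : Ideal (𝓞 L)) [𝔓.IsPrime] (h𝔓 : 𝔓 ≠ ⊥) :
    IsArithFrobAt (𝓞 K) (frob K 𝔓 h𝔓) 𝔓 :=
  haveI := Ideal.finiteQuotientOfFreeOfNeBot 𝔓 h𝔓
  IsArithFrobAt.arithFrobAt (𝓞 K) Gal(L/K) 𝔓

/-- the defining congruence. -/
theorem frob_spec (𝔓 : Ideal (𝓞 L)) [𝔓.IsPrime] (h𝔓 : 𝔓 ≠ ⊥) (x : 𝓞 L) :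
    frob K 𝔓 h𝔓 • x - x ^ Nat.card (𝓞 K ⧸ 𝔓.under (𝓞 K)) ∈ 𝔓 :=
  isArithFrobAt_frob 𝔓 h𝔓 x

theorem frob_mem_stabilizer (𝔓 : Ideal (𝓞 L)) [𝔓.IsPrime] (h𝔓 : 𝔓 ≠ ⊥) :
    frob K 𝔓 h𝔓 ∈ MulAction.stabilizer Gal(L/K) 𝔓 :=
  (isArithFrobAt_frob 𝔓 h𝔓).mem_stabilizer

theorem frob_smul (𝔓 : Ideal (𝓞 L)) [𝔓.IsPrime] (h𝔓 : 𝔓 ≠ ⊥) :
    frob K 𝔓 h𝔓 • 𝔓 = 𝔓 :=
  MulAction.mem_stabilizer_iff.mp (frob_mem_stabilizer 𝔓 h𝔓)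

end Basic

section Unramified

variable {K L : Type*} [Field K] [Field L] [NumberField K] [NumberField L]
  [Algebra K L] [IsGalois K L]

/-- Two Frobenius elements at an unramified prime coincide. -/
theorem eq_of_isArithFrobAt (𝔓 : Ideal (𝓞 L)) [𝔓.IsPrime]
    (hur : Algebra.IsUnramifiedAt (𝓞 K) 𝔓) {σ τ : Gal(L/K)}
    (hσ : IsArithFrobAt (𝓞 K) σ 𝔓) (hτ : IsArithFrobAt (𝓞 K) τ 𝔓) : σ = τ := by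
  have h := AlgHom.IsArithFrobAt.eq_of_isUnramifiedAt hσ hτ
    (Ideal.primeCompl_le_nonZeroDivisors 𝔓)
  exact (IsGaloisGroup.faithful (𝓞 K)).eq_of_smul_eq_smul fun x => congr($h x)

/-- **Uniqueness of Frobenius** at an unramified prime. -/
theorem eq_frob_iff (𝔓 : Ideal (𝓞 L)) [𝔓.IsPrime] (h𝔓 : 𝔓 ≠ ⊥)
    (hur : Algebra.IsUnramifiedAt (𝓞 K) 𝔓) (σ : Gal(L/K)) :
    σ = frob K 𝔓 h𝔓 ↔
      ∀ x : 𝓞 L, σ • x - x ^ Nat.card (𝓞 K ⧸ 𝔓.under (𝓞 K)) ∈ 𝔓 :=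
  ⟨fun h => h ▸ frob_spec 𝔓 h𝔓, fun h => eq_of_isArithFrobAt 𝔓 hur h (isArithFrobAt_frob 𝔓 h𝔓)⟩

theorem isUnramifiedAt_iff_ramificationIdx (𝔓 : Ideal (𝓞 L)) [𝔓.IsPrime] :
    Algebra.IsUnramifiedAt (𝓞 K) 𝔓 ↔ 𝔓.ramificationIdx (𝓞 K) = 1 :=
  Ideal.ramificationIdx_eq_one_iff.symm

/-- The inertia group of an unramified prime is trivial. -/
theorem inertia_eq_bot (𝔓 : Ideal (𝓞 L)) [𝔓.IsPrime] (h𝔓 : 𝔓 ≠ ⊥)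
    (hur : Algebra.IsUnramifiedAt (𝓞 K) 𝔓) : 𝔓.inertia Gal(L/K) = ⊥ := by
  rw [eq_bot_iff]
  intro σ hσ
  rw [Subgroup.mem_bot]
  have hstab : σ • 𝔓 = 𝔓 :=
    MulAction.mem_stabilizer_iff.mp (Ideal.inertia_le_stabilizer 𝔓 hσ)
  -- `σ * frob` is again a Frobenius
  have key : IsArithFrobAt (𝓞 K) (σ * frob K 𝔓 h𝔓) 𝔓 := by
    intro x
    have h1 : (frob K 𝔓 h𝔓) • x - x ^ Nat.card (𝓞 K ⧸ 𝔓.under (𝓞 K)) ∈ 𝔓 := frob_spec 𝔓 h𝔓 x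
    have h2 : σ • ((frob K 𝔓 h𝔓) • x - x ^ Nat.card (𝓞 K ⧸ 𝔓.under (𝓞 K))) ∈ 𝔓 := by
      have := Ideal.smul_mem_pointwise_smul σ _ 𝔓 h1
      rwa [hstab] at this
    have h3 : σ • (x ^ Nat.card (𝓞 K ⧸ 𝔓.under (𝓞 K))) - x ^ Nat.card (𝓞 K ⧸ 𝔓.under (𝓞 K)) ∈ 𝔓 :=
      hσ _
    have : (MulSemiringAction.toAlgHom (𝓞 K) (𝓞 L) (σ * frob K 𝔓 h𝔓)) x
        - x ^ Nat.card (𝓞 K ⧸ 𝔓.under (𝓞 K))
        = σ • ((frob K 𝔓 h𝔓) • x - x ^ Nat.card (𝓞 K ⧸ 𝔓.under (𝓞 K)))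
          + (σ • (x ^ Nat.card (𝓞 K ⧸ 𝔓.under (𝓞 K))) - x ^ Nat.card (𝓞 K ⧸ 𝔓.under (𝓞 K))) := by
      simp only [MulSemiringAction.toAlgHom_apply, mul_smul, smul_sub]
      ring
    rw [this]
    exact 𝔓.add_mem h2 h3
  have := eq_of_isArithFrobAt 𝔓 hur key (isArithFrobAt_frob 𝔓 h𝔓)
  exact mul_eq_right.mp this

/-- conjugation formula inside `Gal(L/K)`. -/
theorem frob_smul_eq_conj (𝔓 : Ideal (𝓞 L)) [𝔓.IsPrime] (h𝔓 : 𝔓 ≠ ⊥) (τ : Gal(L/K))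
    [(τ • 𝔓).IsPrime] (hτ𝔓 : τ • 𝔓 ≠ ⊥) (hur : Algebra.IsUnramifiedAt (𝓞 K) (τ • 𝔓)) :
    frob K (τ • 𝔓) hτ𝔓 = τ * frob K 𝔓 h𝔓 * τ⁻¹ :=
  (eq_of_isArithFrobAt (τ • 𝔓) hur ((isArithFrobAt_frob 𝔓 h𝔓).conj τ)
    (isArithFrobAt_frob (τ • 𝔓) hτ𝔓)).symm

end Unramified

section Order

variable {K L : Type*} [Field K] [Field L] [NumberField K] [NumberField L]
  [Algebra K L] [IsGalois K L]

/-- powers of Frobenius act as iterated `q`-th powers on the residue field. -/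
theorem mk_frob_pow_smul (𝔓 : Ideal (𝓞 L)) [𝔓.IsPrime] (h𝔓 : 𝔓 ≠ ⊥) (n : ℕ) (x : 𝓞 L) :
    Ideal.Quotient.mk 𝔓 ((frob K 𝔓 h𝔓 ^ n) • x)
      = (Ideal.Quotient.mk 𝔓 x) ^ (Nat.card (𝓞 K ⧸ 𝔓.under (𝓞 K)) ^ n) := by
  induction n generalizing x with
  | zero => simp
  | succ n ih =>
    rw [pow_succ, mul_smul, ih, pow_succ, pow_mul', ← map_pow (Ideal.Quotient.mk 𝔓) x]
    congr 1
    rw [Ideal.Quotient.eq]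
    exact frob_spec 𝔓 h𝔓 x

theorem frob_pow_spec (𝔓 : Ideal (𝓞 L)) [𝔓.IsPrime] (h𝔓 : 𝔓 ≠ ⊥) (n : ℕ) (x : 𝓞 L) :
    (frob K 𝔓 h𝔓 ^ n) • x - x ^ (Nat.card (𝓞 K ⧸ 𝔓.under (𝓞 K)) ^ n) ∈ 𝔓 := by
  rw [← Ideal.Quotient.eq, map_pow]
  exact mk_frob_pow_smul 𝔓 h𝔓 n x

/-- For an unramified prime, `frob ^ n = 1` iff `x ^ (q ^ n) ≡ x` for all `x`. -/
theorem frob_pow_eq_one_iff (𝔓 : Ideal (𝓞 L)) [𝔓.IsPrime] (h𝔓 : 𝔓 ≠ ⊥)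
    (hur : Algebra.IsUnramifiedAt (𝓞 K) 𝔓) (n : ℕ) :
    frob K 𝔓 h𝔓 ^ n = 1 ↔
      ∀ y : 𝓞 L ⧸ 𝔓, y ^ (Nat.card (𝓞 K ⧸ 𝔓.under (𝓞 K)) ^ n) = y := by
  constructor
  · intro h y
    obtain ⟨x, rfl⟩ := Ideal.Quotient.mk_surjective y
    rw [← mk_frob_pow_smul 𝔓 h𝔓 n x, h, one_smul]
  · intro h
    have hin : frob K 𝔓 h𝔓 ^ n ∈ 𝔓.inertia Gal(L/K) := by
      intro x
      show (frob K 𝔓 h𝔓 ^ n) • x - x ∈ 𝔓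
      rw [← Ideal.Quotient.eq, mk_frob_pow_smul 𝔓 h𝔓 n x, h]
    rw [inertia_eq_bot 𝔓 h𝔓 hur, Subgroup.mem_bot] at hin
    exact hin

/-- finite fields: all elements are fixed by the `n`-fold `q`-Frobenius iff the degree
divides `n`. -/
theorem forall_pow_card_pow_eq_iff (k l : Type*) [Field k] [Field l] [Finite k] [Finite l]
    [Algebra k l] (n : ℕ) :
    (∀ y : l, y ^ (Nat.card k ^ n) = y) ↔ Module.finrank k l ∣ n := by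
  haveI := Fintype.ofFinite k
  rw [← FiniteField.orderOf_frobeniusAlgHom k l, orderOf_dvd_iff_pow_eq_one, DFunLike.ext_iff]
  simp only [AlgHom.coe_pow, FiniteField.coe_frobeniusAlgHom, pow_iterate, AlgHom.one_apply,
    Nat.card_eq_fintype_card]

/-- **Order of Frobenius = inertia degree** (unramified prime). -/
theorem orderOf_frob (𝔓 : Ideal (𝓞 L)) [𝔓.IsPrime] (h𝔓 : 𝔓 ≠ ⊥)
    (hur : Algebra.IsUnramifiedAt (𝓞 K) 𝔓) :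
    orderOf (frob K 𝔓 h𝔓) = 𝔓.inertiaDeg (𝓞 K) := by
  have hp : 𝔓.under (𝓞 K) ≠ ⊥ := mt Ideal.eq_bot_of_comap_eq_bot h𝔓
  haveI : 𝔓.IsMaximal := Ideal.IsPrime.isMaximal inferInstance h𝔓
  haveI : (𝔓.under (𝓞 K)).IsMaximal := Ideal.IsPrime.isMaximal inferInstance hp
  letI := Ideal.Quotient.field (𝔓.under (𝓞 K))
  letI := Ideal.Quotient.field 𝔓
  haveI : Finite (𝓞 L ⧸ 𝔓) := Ideal.finiteQuotientOfFreeOfNeBot 𝔓 h𝔓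
  haveI : Finite (𝓞 K ⧸ 𝔓.under (𝓞 K)) := Ideal.finiteQuotientOfFreeOfNeBot _ hp
  rw [Ideal.inertiaDeg_eq_of_isMaximal (𝔓.under (𝓞 K)) 𝔓]
  have key : ∀ n : ℕ, frob K 𝔓 h𝔓 ^ n = 1 ↔
      Module.finrank (𝓞 K ⧸ 𝔓.under (𝓞 K)) (𝓞 L ⧸ 𝔓) ∣ n := fun n => by
    rw [frob_pow_eq_one_iff 𝔓 h𝔓 hur n, forall_pow_card_pow_eq_iff]
  exact Nat.dvd_antisymm (orderOf_dvd_of_pow_eq_one ((key _).2 dvd_rfl))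
    ((key _).1 (pow_orderOf_eq_one _))

/-- Frobenius is trivial iff the residue degree is one. -/
theorem frob_eq_one_iff (𝔓 : Ideal (𝓞 L)) [𝔓.IsPrime] (h𝔓 : 𝔓 ≠ ⊥)
    (hur : Algebra.IsUnramifiedAt (𝓞 K) 𝔓) :
    frob K 𝔓 h𝔓 = 1 ↔ 𝔓.inertiaDeg (𝓞 K) = 1 := by
  rw [← orderOf_frob 𝔓 h𝔓 hur, orderOf_eq_one_iff]

end Order

end Fermat.Agent.S14.H27
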