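import Mathlib
import Fermat.Agent.S14.H27_Frob

set_option autoImplicit false

noncomputable section

namespace Fermat.Agent.S14.H27

open NumberField UniqueFactorizationMonoid
open scoped Pointwise IsMulCommutative

section Abelian

variable {K L : Type*} [Field K] [Field L] [NumberField K] [NumberField L]
  [Algebra K L] [IsGalois K L] [IsMulCommutative Gal(L/K)]

/-- In an abelian extension the Frobenius only depends on the prime below. -/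
theorem frob_eq_of_under_eq (𝔓 𝔓' : Ideal (𝓞 L)) [𝔓.IsPrime] [𝔓'.IsPrime]
    (h𝔓 : 𝔓 ≠ ⊥) (h𝔓' : 𝔓' ≠ ⊥) (hu : 𝔓.under (𝓞 K) = 𝔓'.under (𝓞 K)) :
    frob K 𝔓 h𝔓 = frob K 𝔓' h𝔓' := by
  haveI := Ideal.finiteQuotientOfFreeOfNeBot 𝔓 h𝔓
  haveI := Ideal.finiteQuotientOfFreeOfNeBot 𝔓' h𝔓'
  exact isConj_iff_eq.mp (isConj_arithFrobAt (𝓞 K) Gal(L/K) 𝔓 𝔓' hu)

variable (L) in
open Classical in
/-- The Frobenius (Artin symbol) of a nonzero prime `𝔭` of `𝓞 K` in the abelian extension `L/K`;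
junk value `1` otherwise. -/
def frobP (𝔭 : Ideal (𝓞 K)) : Gal(L/K) :=
  if h : 𝔭.IsPrime ∧ 𝔭 ≠ ⊥ then
    haveI := h.1
    haveI := (𝔭.nonempty_primesOver (S := 𝓞 L)).some.2.1
    haveI := (𝔭.nonempty_primesOver (S := 𝓞 L)).some.2.2
    frob K (𝔭.nonempty_primesOver (S := 𝓞 L)).some.1
      (Ideal.ne_bot_of_liesOver_of_ne_bot h.2 _)
  else 1

theorem frobP_eq_frob (𝔭 : Ideal (𝓞 K)) [𝔭.IsPrime] (h𝔭 : 𝔭 ≠ ⊥)
    (𝔓 : Ideal (𝓞 L)) [𝔓.IsPrime] [𝔓.LiesOver 𝔭] (h𝔓 : 𝔓 ≠ ⊥) :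
    frobP L 𝔭 = frob K 𝔓 h𝔓 := by
  rw [frobP, dif_pos ⟨inferInstance, h𝔭⟩]
  haveI := (𝔭.nonempty_primesOver (S := 𝓞 L)).some.2.1
  haveI := (𝔭.nonempty_primesOver (S := 𝓞 L)).some.2.2
  apply frob_eq_of_under_eq
  rw [← Ideal.over_def (𝔭.nonempty_primesOver (S := 𝓞 L)).some.1 𝔭, ← Ideal.over_def 𝔓 𝔭]

theorem frobP_of_not (𝔭 : Ideal (𝓞 K)) (h : ¬ (𝔭.IsPrime ∧ 𝔭 ≠ ⊥)) : frobP L 𝔭 = 1 := by
  rw [frobP, dif_neg h]

variable (L) in
/-- The Artin map on integral ideals: the multiplicative extension of `frobP`.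
(Total function; value `1` at the zero ideal.) -/
def artin (𝔞 : Ideal (𝓞 K)) : Gal(L/K) :=
  ((normalizedFactors 𝔞).map (frobP L)).prod

@[simp]
theorem artin_one : artin L (1 : Ideal (𝓞 K)) = 1 := by
  rw [artin, normalizedFactors_one, Multiset.map_zero, Multiset.prod_zero]

@[simp]
theorem artin_top : artin L (⊤ : Ideal (𝓞 K)) = 1 := by
  rw [← Ideal.one_eq_top]; exact artin_one

theorem artin_mul {𝔞 𝔟 : Ideal (𝓞 K)} (h𝔞 : 𝔞 ≠ ⊥) (h𝔟 : 𝔟 ≠ ⊥) :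
    artin L (𝔞 * 𝔟) = artin L 𝔞 * artin L 𝔟 := by
  rw [artin, artin, artin, normalizedFactors_mul (by simpa using h𝔞) (by simpa using h𝔟),
    Multiset.map_add, Multiset.prod_add]

theorem artin_prime (𝔭 : Ideal (𝓞 K)) [𝔭.IsPrime] (h𝔭 : 𝔭 ≠ ⊥) :
    artin L 𝔭 = frobP L 𝔭 := by
  have hirr : Irreducible 𝔭 := (Ideal.prime_of_isPrime h𝔭 inferInstance).irreducible
  rw [artin, normalizedFactors_irreducible hirr, normalize_eq, Multiset.map_singleton,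
    Multiset.prod_singleton]

theorem artin_pow {𝔞 : Ideal (𝓞 K)} (h𝔞 : 𝔞 ≠ ⊥) (n : ℕ) :
    artin L (𝔞 ^ n) = artin L 𝔞 ^ n := by
  induction n with
  | zero => simp
  | succ n ih => rw [pow_succ, artin_mul (pow_ne_zero n h𝔞) h𝔞, ih, pow_succ]

theorem artin_prod {ι : Type*} (s : Finset ι) (f : ι → Ideal (𝓞 K)) (hf : ∀ i ∈ s, f i ≠ ⊥) :
    artin L (∏ i ∈ s, f i) = ∏ i ∈ s, artin L (f i) := by
  classical
  induction s using Finset.induction_on with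
  | empty => simp
  | insert a s ha ih =>
    rw [Finset.prod_insert ha, Finset.prod_insert ha,
      artin_mul (hf a (Finset.mem_insert_self a s))
        (Finset.prod_ne_zero_iff.mpr fun i hi => hf i (Finset.mem_insert_of_mem hi)),
      ih fun i hi => hf i (Finset.mem_insert_of_mem hi)]

/-- `artin` is trivial as soon as it is trivial on all primes dividing the ideal. -/
theorem artin_eq_one_of_forall_prime {𝔞 : Ideal (𝓞 K)}
    (h : ∀ 𝔭 : Ideal (𝓞 K), 𝔭.IsPrime → 𝔭 ≠ ⊥ → 𝔞 ≤ 𝔭 → frobP L 𝔭 = 1) : artin L 𝔞 = 1 := by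
  rw [artin]
  apply Multiset.prod_eq_one
  intro σ hσ
  obtain ⟨𝔭, h𝔭, rfl⟩ := Multiset.mem_map.mp hσ
  have hprime := prime_of_normalized_factor 𝔭 h𝔭
  exact h 𝔭 (Ideal.isPrime_of_prime hprime) hprime.ne_zero
    (Ideal.le_of_dvd (dvd_of_mem_normalizedFactors h𝔭))

end Abelian

end Fermat.Agent.S14.H27
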