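import Mathlib
import Fermat.Agent.S14.H27_Artin

set_option autoImplicit false

noncomputable section

namespace Fermat.Agent.S14.H27

open NumberField UniqueFactorizationMonoid
open scoped Pointwise IsMulCommutative

section RelNorm

variable {K L : Type*} [Field K] [Field L] [NumberField K] [NumberField L]
  [Algebra K L]

/-- The relative norm of a nonzero prime is the prime below to the residue degree. -/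
theorem relNorm_prime (𝔓 : Ideal (𝓞 L)) [𝔓.IsPrime] (h𝔓 : 𝔓 ≠ ⊥) :
    Ideal.relNorm (𝓞 K) 𝔓 = (𝔓.under (𝓞 K)) ^ 𝔓.inertiaDeg (𝓞 K) := by
  have hp : 𝔓.under (𝓞 K) ≠ ⊥ := mt Ideal.eq_bot_of_comap_eq_bot h𝔓
  haveI : 𝔓.IsMaximal := Ideal.IsPrime.isMaximal inferInstance h𝔓
  haveI : (𝔓.under (𝓞 K)).IsMaximal := Ideal.IsPrime.isMaximal inferInstance hp
  exact Ideal.relNorm_eq_pow_of_isMaximal 𝔓 (𝔓.under (𝓞 K))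

theorem relNorm_prime_of_liesOver (𝔭 : Ideal (𝓞 K)) (𝔓 : Ideal (𝓞 L)) [𝔓.IsPrime]
    [𝔓.LiesOver 𝔭] (h𝔓 : 𝔓 ≠ ⊥) :
    Ideal.relNorm (𝓞 K) 𝔓 = 𝔭 ^ 𝔓.inertiaDeg (𝓞 K) := by
  rw [relNorm_prime 𝔓 h𝔓, ← Ideal.over_def 𝔓 𝔭]

end RelNorm

section Abelian

variable {K L : Type*} [Field K] [Field L] [NumberField K] [NumberField L]
  [Algebra K L] [IsGalois K L] [IsMulCommutative Gal(L/K)]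

theorem orderOf_frobP (𝔭 : Ideal (𝓞 K)) [𝔭.IsPrime] (h𝔭 : 𝔭 ≠ ⊥)
    (𝔓 : Ideal (𝓞 L)) [𝔓.IsPrime] [𝔓.LiesOver 𝔭]
    (hur : Algebra.IsUnramifiedAt (𝓞 K) 𝔓) :
    orderOf (frobP L 𝔭) = 𝔓.inertiaDeg (𝓞 K) := by
  have h𝔓 : 𝔓 ≠ ⊥ := Ideal.ne_bot_of_liesOver_of_ne_bot h𝔭 𝔓
  rw [frobP_eq_frob 𝔭 h𝔭 𝔓 h𝔓, orderOf_frob 𝔓 h𝔓 hur]

theorem frobP_eq_one_iff (𝔭 : Ideal (𝓞 K)) [𝔭.IsPrime] (h𝔭 : 𝔭 ≠ ⊥)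
    (𝔓 : Ideal (𝓞 L)) [𝔓.IsPrime] [𝔓.LiesOver 𝔭]
    (hur : Algebra.IsUnramifiedAt (𝓞 K) 𝔓) :
    frobP L 𝔭 = 1 ↔ 𝔓.inertiaDeg (𝓞 K) = 1 := by
  rw [← orderOf_frobP 𝔭 h𝔭 𝔓 hur, orderOf_eq_one_iff]

/-- bridge with the "splits completely" predicate `∀ 𝔓 ∣ 𝔭, e = 1 ∧ f = 1`. -/
theorem frobP_eq_one_of_splits (𝔭 : Ideal (𝓞 K)) [𝔭.IsPrime] (h𝔭 : 𝔭 ≠ ⊥)
    (h : ∀ (𝔓 : Ideal (𝓞 L)) [𝔓.IsPrime] [𝔓.LiesOver 𝔭],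
      𝔓.ramificationIdx (𝓞 K) = 1 ∧ 𝔓.inertiaDeg (𝓞 K) = 1) : frobP L 𝔭 = 1 := by
  obtain ⟨⟨𝔓, h𝔓prime, h𝔓over⟩⟩ := 𝔭.nonempty_primesOver (S := 𝓞 L)
  exact (frobP_eq_one_iff 𝔭 h𝔭 𝔓 ((isUnramifiedAt_iff_ramificationIdx 𝔓).mpr (h 𝔓).1)).mpr (h 𝔓).2

theorem splits_of_frobP_eq_one (𝔭 : Ideal (𝓞 K)) [𝔭.IsPrime] (h𝔭 : 𝔭 ≠ ⊥)
    (hur : ∀ (𝔓 : Ideal (𝓞 L)) [𝔓.IsPrime] [𝔓.LiesOver 𝔭], 𝔓.ramificationIdx (𝓞 K) = 1)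
    (h1 : frobP L 𝔭 = 1) (𝔓 : Ideal (𝓞 L)) [𝔓.IsPrime] [𝔓.LiesOver 𝔭] :
    𝔓.ramificationIdx (𝓞 K) = 1 ∧ 𝔓.inertiaDeg (𝓞 K) = 1 :=
  ⟨hur 𝔓, (frobP_eq_one_iff 𝔭 h𝔭 𝔓 ((isUnramifiedAt_iff_ramificationIdx 𝔓).mpr (hur 𝔓))).mp h1⟩

/-- If `L/K` is unramified above `𝔭` and not every prime above `𝔭` has residue degree one,
then the Artin symbol of `𝔭` is nontrivial. -/
theorem frobP_ne_one_of_inertiaDeg_ne_one (𝔭 : Ideal (𝓞 K)) [𝔭.IsPrime] (h𝔭 : 𝔭 ≠ ⊥)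
    (𝔓 : Ideal (𝓞 L)) [𝔓.IsPrime] [𝔓.LiesOver 𝔭]
    (hur : Algebra.IsUnramifiedAt (𝓞 K) 𝔓) (hf : 𝔓.inertiaDeg (𝓞 K) ≠ 1) :
    frobP L 𝔭 ≠ 1 :=
  fun h => hf ((frobP_eq_one_iff 𝔭 h𝔭 𝔓 hur).mp h)

/-- A prime with trivial Frobenius is the norm of any prime above it. -/
theorem relNorm_eq_of_frobP_eq_one (𝔭 : Ideal (𝓞 K)) [𝔭.IsPrime] (h𝔭 : 𝔭 ≠ ⊥)
    (𝔓 : Ideal (𝓞 L)) [𝔓.IsPrime] [𝔓.LiesOver 𝔭]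
    (hur : Algebra.IsUnramifiedAt (𝓞 K) 𝔓) (h1 : frobP L 𝔭 = 1) :
    Ideal.relNorm (𝓞 K) 𝔓 = 𝔭 := by
  have h𝔓 : 𝔓 ≠ ⊥ := Ideal.ne_bot_of_liesOver_of_ne_bot h𝔭 𝔓
  rw [relNorm_prime_of_liesOver 𝔭 𝔓 h𝔓, (frobP_eq_one_iff 𝔭 h𝔭 𝔓 hur).mp h1, pow_one]

/-- Norms of unramified primes are in the kernel of the Artin map. -/
theorem artin_relNorm_prime (𝔓 : Ideal (𝓞 L)) [𝔓.IsPrime] (h𝔓 : 𝔓 ≠ ⊥)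
    (hur : Algebra.IsUnramifiedAt (𝓞 K) 𝔓) :
    artin L (Ideal.relNorm (𝓞 K) 𝔓) = 1 := by
  have hp : 𝔓.under (𝓞 K) ≠ ⊥ := mt Ideal.eq_bot_of_comap_eq_bot h𝔓
  haveI : 𝔓.LiesOver (𝔓.under (𝓞 K)) := ⟨rfl⟩
  rw [relNorm_prime 𝔓 h𝔓, artin_pow hp, artin_prime _ hp,
    ← orderOf_frobP (𝔓.under (𝓞 K)) hp 𝔓 hur, pow_orderOf_eq_one]

/-- **Norms are in the kernel of the Artin map** (ideals all of whose prime factors are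
unramified over `K`). -/
theorem artin_relNorm (𝔄 : Ideal (𝓞 L))
    (hur : ∀ (𝔓 : Ideal (𝓞 L)) [𝔓.IsPrime], 𝔓 ≠ ⊥ → 𝔄 ≤ 𝔓 → Algebra.IsUnramifiedAt (𝓞 K) 𝔓) :
    artin L (Ideal.relNorm (𝓞 K) 𝔄) = 1 := by
  by_cases h𝔄 : 𝔄 = ⊥
  · rw [h𝔄, Ideal.relNorm_bot, artin, ← Ideal.zero_eq_bot, normalizedFactors_zero,
      Multiset.map_zero, Multiset.prod_zero]
  have key : ∀ s : Multiset (Ideal (𝓞 L)),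
      (∀ 𝔓 ∈ s, ∃ _ : 𝔓.IsPrime, 𝔓 ≠ ⊥ ∧ Algebra.IsUnramifiedAt (𝓞 K) 𝔓) →
      artin L (Ideal.relNorm (𝓞 K) s.prod) = 1 := by
    intro s
    induction s using Multiset.induction_on with
    | empty => intro _; simp
    | cons 𝔓 s ih =>
      intro hs
      obtain ⟨hP, hP0, hPur⟩ := hs 𝔓 (Multiset.mem_cons_self 𝔓 s)
      have hs' : ∀ 𝔔 ∈ s, ∃ _ : 𝔔.IsPrime, 𝔔 ≠ ⊥ ∧ Algebra.IsUnramifiedAt (𝓞 K) 𝔔 :=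
        fun 𝔔 h𝔔 => hs 𝔔 (Multiset.mem_cons_of_mem h𝔔)
      have hs0 : s.prod ≠ ⊥ := by
        rw [← Ideal.zero_eq_bot]
        exact Multiset.prod_ne_zero fun h0 => (hs' _ h0).2.1 rfl
      rw [Multiset.prod_cons, map_mul, artin_mul
        (by rwa [Ne, Ideal.relNorm_eq_bot_iff]) (by rwa [Ne, Ideal.relNorm_eq_bot_iff]),
        artin_relNorm_prime 𝔓 hP0 hPur, ih hs', one_mul]
  rw [← Ideal.prod_normalizedFactors_eq_self h𝔄]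
  apply key
  intro 𝔓 h𝔓
  have hprime := prime_of_normalized_factor 𝔓 h𝔓
  have hPp := Ideal.isPrime_of_prime hprime
  exact ⟨hPp, hprime.ne_zero, hur 𝔓 hprime.ne_zero
    (Ideal.le_of_dvd (dvd_of_mem_normalizedFactors h𝔓))⟩

end Abelian

end Fermat.Agent.S14.H27
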