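import Mathlib
import Fermat.Agent.S14.H27_Split

set_option autoImplicit false

noncomputable section

namespace Fermat.Agent.S14.H27

open NumberField UniqueFactorizationMonoid
open scoped Pointwise IsMulCommutative

section Card

variable {K E : Type*} [Field K] [Field E] [NumberField K] [NumberField E] [Algebra K E]

/-- `N𝔮 = N𝔭 ^ f(𝔮|𝔭)`. -/
theorem card_quot_eq_pow_inertiaDeg (𝔮 : Ideal (𝓞 E)) [𝔮.IsPrime] (h𝔮 : 𝔮 ≠ ⊥) :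
    Nat.card (𝓞 E ⧸ 𝔮) = Nat.card (𝓞 K ⧸ 𝔮.under (𝓞 K)) ^ 𝔮.inertiaDeg (𝓞 K) := by
  have hp : 𝔮.under (𝓞 K) ≠ ⊥ := mt Ideal.eq_bot_of_comap_eq_bot h𝔮
  haveI : 𝔮.IsMaximal := Ideal.IsPrime.isMaximal inferInstance h𝔮
  haveI : (𝔮.under (𝓞 K)).IsMaximal := Ideal.IsPrime.isMaximal inferInstance hp
  letI := Ideal.Quotient.field (𝔮.under (𝓞 K))
  letI := Ideal.Quotient.field 𝔮
  haveI : Finite (𝓞 E ⧸ 𝔮) := Ideal.finiteQuotientOfFreeOfNeBot 𝔮 h𝔮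
  haveI : Finite (𝓞 K ⧸ 𝔮.under (𝓞 K)) := Ideal.finiteQuotientOfFreeOfNeBot _ hp
  haveI := Fintype.ofFinite (𝓞 E ⧸ 𝔮)
  haveI := Fintype.ofFinite (𝓞 K ⧸ 𝔮.under (𝓞 K))
  rw [Ideal.inertiaDeg_eq_of_isMaximal (𝔮.under (𝓞 K)) 𝔮, Nat.card_eq_fintype_card,
    Nat.card_eq_fintype_card]
  exact Module.card_eq_pow_finrank

end Card

section Inertia

variable {K L : Type*} [Field K] [Field L] [NumberField K] [NumberField L]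
  [Algebra K L] [IsGalois K L]

/-- two elements of the decomposition group of an unramified prime which agree modulo the
prime are equal. -/
theorem eq_of_forall_sub_mem (𝔓 : Ideal (𝓞 L)) [𝔓.IsPrime] (h𝔓 : 𝔓 ≠ ⊥)
    (hur : Algebra.IsUnramifiedAt (𝓞 K) 𝔓) {σ τ : Gal(L/K)} (hτ : τ • 𝔓 = 𝔓)
    (h : ∀ x : 𝓞 L, σ • x - τ • x ∈ 𝔓) : σ = τ := by
  have hin : τ⁻¹ * σ ∈ 𝔓.inertia Gal(L/K) := by
    intro x
    show (τ⁻¹ * σ) • x - x ∈ 𝔓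
    have h1 : τ⁻¹ • (σ • x - τ • x) ∈ τ⁻¹ • 𝔓 := Ideal.smul_mem_pointwise_smul _ _ _ (h x)
    have h2 : τ⁻¹ • 𝔓 = 𝔓 := by rw [inv_smul_eq_iff, hτ]
    rw [h2, smul_sub, inv_smul_smul, ← mul_smul] at h1
    exact h1
  rw [inertia_eq_bot 𝔓 h𝔓 hur, Subgroup.mem_bot, inv_mul_eq_one] at hin
  exact hin.symm

end Inertia

section Restrict

variable {K E L L' : Type*} [Field K] [Field E] [Field L] [Field L']
  [NumberField K] [NumberField E] [NumberField L] [NumberField L']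
  [Algebra K E] [Algebra K L] [Algebra E L'] [Algebra L L'] [Algebra K L']
  [IsScalarTower K E L'] [IsScalarTower K L L'] [IsGalois K L] [IsGalois E L']

variable (K L) in
/-- restriction `Gal(L'/E) → Gal(L/K)` for a square of fields `K ⊆ E ⊆ L'`, `K ⊆ L ⊆ L'`. -/
def resHom : Gal(L'/E) →* Gal(L/K) :=
  (AlgEquiv.restrictNormalHom L).comp (AlgEquiv.restrictScalarsHom K)

theorem algebraMap_resHom (σ : Gal(L'/E)) (x : L) :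
    algebraMap L L' (resHom K L σ x) = σ (algebraMap L L' x) := by
  simp only [resHom, MonoidHom.comp_apply, AlgEquiv.restrictScalarsHom_apply]
  exact AlgEquiv.restrictNormal_commutes _ L x

theorem algebraMap_resHom_smul (σ : Gal(L'/E)) (x : 𝓞 L) :
    algebraMap (𝓞 L) (𝓞 L') (resHom K L σ • x) = σ • algebraMap (𝓞 L) (𝓞 L') x := by
  apply RingOfIntegers.ext
  exact algebraMap_resHom σ (x : L)

/-- **Frobenius under base change**: the restriction to `L` of the Frobenius of `𝔓'` in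
`Gal(L'/E)` is the `f(𝔮|𝔭)`-th power of the Frobenius of `𝔓' ∩ L` in `Gal(L/K)`. -/
theorem resHom_frob (𝔓' : Ideal (𝓞 L')) [𝔓'.IsPrime] (h𝔓' : 𝔓' ≠ ⊥)
    (h𝔓 : 𝔓'.under (𝓞 L) ≠ ⊥)
    (hur : Algebra.IsUnramifiedAt (𝓞 K) (𝔓'.under (𝓞 L))) :
    resHom K L (frob E 𝔓' h𝔓') =
      frob K (𝔓'.under (𝓞 L)) h𝔓 ^ (𝔓'.under (𝓞 E)).inertiaDeg (𝓞 K) := by
  have h𝔮 : 𝔓'.under (𝓞 E) ≠ ⊥ := mt Ideal.eq_bot_of_comap_eq_bot h𝔓'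
  have hKL : (𝔓'.under (𝓞 L)).under (𝓞 K) = 𝔓'.under (𝓞 K) := Ideal.under_under _
  have hKE : (𝔓'.under (𝓞 E)).under (𝓞 K) = 𝔓'.under (𝓞 K) := Ideal.under_under _
  apply eq_of_forall_sub_mem (𝔓'.under (𝓞 L)) h𝔓 hur
  · have := frob_smul (K := K) (𝔓'.under (𝓞 L)) h𝔓
    rw [← MulAction.mem_stabilizer_iff] at this ⊢
    exact Subgroup.pow_mem _ this _
  · intro x
    have h1 := frob_spec (K := E) 𝔓' h𝔓' (algebraMap (𝓞 L) (𝓞 L') x)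
    have h2 := frob_pow_spec (K := K) (𝔓'.under (𝓞 L)) h𝔓
      ((𝔓'.under (𝓞 E)).inertiaDeg (𝓞 K)) x
    rw [hKL, ← hKE, ← card_quot_eq_pow_inertiaDeg (K := K) (𝔓'.under (𝓞 E)) h𝔮] at h2
    rw [← algebraMap_resHom_smul (K := K), ← map_pow, ← map_sub] at h1
    have h3 : resHom K L (frob E 𝔓' h𝔓') • x - x ^ Nat.card (𝓞 E ⧸ 𝔓'.under (𝓞 E)) ∈
        𝔓'.under (𝓞 L) := h1
    have := (𝔓'.under (𝓞 L)).sub_mem h3 h2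
    rwa [sub_sub_sub_cancel_right] at this


/-- **Restriction to a subextension** `K ⊆ L ⊆ L'` (both Galois over `K`): the restriction of the
Frobenius of `𝔓'` is the Frobenius of `𝔓' ∩ L`. -/
theorem restrictNormalHom_frob {K L L' : Type*} [Field K] [Field L] [Field L']
    [NumberField K] [NumberField L] [NumberField L']
    [Algebra K L] [Algebra L L'] [Algebra K L'] [IsScalarTower K L L']
    [IsGalois K L] [IsGalois K L']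
    (𝔓' : Ideal (𝓞 L')) [𝔓'.IsPrime] (h𝔓' : 𝔓' ≠ ⊥) (h𝔓 : 𝔓'.under (𝓞 L) ≠ ⊥)
    (hur : Algebra.IsUnramifiedAt (𝓞 K) (𝔓'.under (𝓞 L))) :
    AlgEquiv.restrictNormalHom L (frob K 𝔓' h𝔓') = frob K (𝔓'.under (𝓞 L)) h𝔓 := by
  have hKL : (𝔓'.under (𝓞 L)).under (𝓞 K) = 𝔓'.under (𝓞 K) := Ideal.under_under _
  have hcomm : ∀ (σ : Gal(L'/K)) (x : 𝓞 L), algebraMap (𝓞 L) (𝓞 L')
      (AlgEquiv.restrictNormalHom L σ • x) = σ • algebraMap (𝓞 L) (𝓞 L') x := by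
    intro σ x
    apply RingOfIntegers.ext
    exact AlgEquiv.restrictNormal_commutes σ L (x : L)
  apply eq_of_forall_sub_mem (𝔓'.under (𝓞 L)) h𝔓 hur (frob_smul _ h𝔓)
  intro x
  have h1 := frob_spec (K := K) 𝔓' h𝔓' (algebraMap (𝓞 L) (𝓞 L') x)
  have h2 := frob_spec (K := K) (𝔓'.under (𝓞 L)) h𝔓 x
  rw [hKL] at h2
  rw [← hcomm, ← map_pow, ← map_sub] at h1
  have h3 : AlgEquiv.restrictNormalHom L (frob K 𝔓' h𝔓') • x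
      - x ^ Nat.card (𝓞 K ⧸ 𝔓'.under (𝓞 K)) ∈ 𝔓'.under (𝓞 L) := h1
  have := (𝔓'.under (𝓞 L)).sub_mem h3 h2
  rwa [sub_sub_sub_cancel_right] at this

end Restrict

section AbelianRestrict

variable {K L L' : Type*} [Field K] [Field L] [Field L']
  [NumberField K] [NumberField L] [NumberField L']
  [Algebra K L] [Algebra L L'] [Algebra K L'] [IsScalarTower K L L']
  [IsGalois K L] [IsGalois K L'] [IsMulCommutative Gal(L/K)] [IsMulCommutative Gal(L'/K)]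

/-- restriction of the Artin symbol of a prime to a subextension. -/
theorem restrictNormalHom_frobP (𝔭 : Ideal (𝓞 K))
    (hur : ∀ (𝔓 : Ideal (𝓞 L)) [𝔓.IsPrime], 𝔓 ≠ ⊥ → 𝔓.under (𝓞 K) = 𝔭 →
      Algebra.IsUnramifiedAt (𝓞 K) 𝔓) :
    AlgEquiv.restrictNormalHom L (frobP L' 𝔭) = frobP L 𝔭 := by
  by_cases h : 𝔭.IsPrime ∧ 𝔭 ≠ ⊥
  · obtain ⟨hp, h𝔭⟩ := h
    obtain ⟨⟨𝔓', h𝔓'prime, h𝔓'over⟩⟩ := 𝔭.nonempty_primesOver (S := 𝓞 L')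
    have h𝔓' : 𝔓' ≠ ⊥ := Ideal.ne_bot_of_liesOver_of_ne_bot h𝔭 𝔓'
    have hunder : (𝔓'.under (𝓞 L)).under (𝓞 K) = 𝔭 := by
      rw [Ideal.under_under, ← Ideal.over_def 𝔓' 𝔭]
    haveI : (𝔓'.under (𝓞 L)).LiesOver 𝔭 := ⟨hunder.symm⟩
    have h𝔓 : 𝔓'.under (𝓞 L) ≠ ⊥ := Ideal.ne_bot_of_liesOver_of_ne_bot h𝔭 _
    rw [frobP_eq_frob 𝔭 h𝔭 𝔓' h𝔓', frobP_eq_frob 𝔭 h𝔭 (𝔓'.under (𝓞 L)) h𝔓,
      restrictNormalHom_frob 𝔓' h𝔓' h𝔓 (hur _ h𝔓 hunder)]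
  · rw [frobP_of_not 𝔭 h, frobP_of_not 𝔭 h, map_one]

/-- restriction of the Artin map to a subextension. -/
theorem restrictNormalHom_artin (𝔞 : Ideal (𝓞 K))
    (hur : ∀ (𝔓 : Ideal (𝓞 L)) [𝔓.IsPrime], 𝔓 ≠ ⊥ → 𝔞 ≤ 𝔓.under (𝓞 K) →
      Algebra.IsUnramifiedAt (𝓞 K) 𝔓) :
    AlgEquiv.restrictNormalHom L (artin L' 𝔞) = artin L 𝔞 := by
  rw [artin, artin, map_multiset_prod, Multiset.map_map]
  congr 1
  apply Multiset.map_congr rfl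
  intro 𝔭 h𝔭
  apply restrictNormalHom_frobP
  intro 𝔓 _ h𝔓 hu
  exact hur 𝔓 h𝔓 (hu ▸ Ideal.le_of_dvd (dvd_of_mem_normalizedFactors h𝔭))

end AbelianRestrict

section AbelianBaseChange

variable {K E L L' : Type*} [Field K] [Field E] [Field L] [Field L']
  [NumberField K] [NumberField E] [NumberField L] [NumberField L']
  [Algebra K E] [Algebra K L] [Algebra E L'] [Algebra L L'] [Algebra K L']
  [IsScalarTower K E L'] [IsScalarTower K L L'] [IsGalois K L] [IsGalois E L']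
  [IsMulCommutative Gal(L/K)] [IsMulCommutative Gal(L'/E)]

theorem artin_bot : artin L (⊥ : Ideal (𝓞 K)) = 1 := by
  rw [artin, ← Ideal.zero_eq_bot, normalizedFactors_zero, Multiset.map_zero, Multiset.prod_zero]

/-- Artin symbol of a prime under base change. -/
theorem resHom_frobP (𝔮 : Ideal (𝓞 E)) [𝔮.IsPrime] (h𝔮 : 𝔮 ≠ ⊥)
    (hur : ∀ (𝔓 : Ideal (𝓞 L)) [𝔓.IsPrime], 𝔓 ≠ ⊥ → 𝔓.under (𝓞 K) = 𝔮.under (𝓞 K) →
      Algebra.IsUnramifiedAt (𝓞 K) 𝔓) :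
    resHom K L (frobP L' 𝔮) = frobP L (𝔮.under (𝓞 K)) ^ 𝔮.inertiaDeg (𝓞 K) := by
  have h𝔭 : 𝔮.under (𝓞 K) ≠ ⊥ := mt Ideal.eq_bot_of_comap_eq_bot h𝔮
  obtain ⟨⟨𝔓', h𝔓'prime, h𝔓'over⟩⟩ := 𝔮.nonempty_primesOver (S := 𝓞 L')
  have h𝔓' : 𝔓' ≠ ⊥ := Ideal.ne_bot_of_liesOver_of_ne_bot h𝔮 𝔓'
  have hq : 𝔓'.under (𝓞 E) = 𝔮 := (Ideal.over_def 𝔓' 𝔮).symm
  have hunder : (𝔓'.under (𝓞 L)).under (𝓞 K) = 𝔮.under (𝓞 K) := by
    rw [Ideal.under_under, ← hq, Ideal.under_under]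
  haveI : (𝔓'.under (𝓞 L)).LiesOver (𝔮.under (𝓞 K)) := ⟨hunder.symm⟩
  have h𝔓 : 𝔓'.under (𝓞 L) ≠ ⊥ := Ideal.ne_bot_of_liesOver_of_ne_bot h𝔭 _
  rw [frobP_eq_frob 𝔮 h𝔮 𝔓' h𝔓', frobP_eq_frob (𝔮.under (𝓞 K)) h𝔭 (𝔓'.under (𝓞 L)) h𝔓,
    resHom_frob 𝔓' h𝔓' h𝔓 (hur _ h𝔓 hunder), hq]

theorem resHom_frobP_eq_artin_relNorm (𝔮 : Ideal (𝓞 E)) [𝔮.IsPrime] (h𝔮 : 𝔮 ≠ ⊥)
    (hur : ∀ (𝔓 : Ideal (𝓞 L)) [𝔓.IsPrime], 𝔓 ≠ ⊥ → 𝔓.under (𝓞 K) = 𝔮.under (𝓞 K) →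
      Algebra.IsUnramifiedAt (𝓞 K) 𝔓) :
    resHom K L (frobP L' 𝔮) = artin L (Ideal.relNorm (𝓞 K) 𝔮) := by
  have h𝔭 : 𝔮.under (𝓞 K) ≠ ⊥ := mt Ideal.eq_bot_of_comap_eq_bot h𝔮
  rw [resHom_frobP 𝔮 h𝔮 hur, relNorm_prime 𝔮 h𝔮, artin_pow h𝔭, artin_prime _ h𝔭]

/-- **Base change / norm compatibility of the Artin map**:
`(𝔄, L'/E)|_L = (N_{E/K} 𝔄, L/K)`. -/
theorem resHom_artin (𝔄 : Ideal (𝓞 E))
    (hur : ∀ (𝔓 : Ideal (𝓞 L)) [𝔓.IsPrime], 𝔓 ≠ ⊥ →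
      Ideal.relNorm (𝓞 K) 𝔄 ≤ 𝔓.under (𝓞 K) → Algebra.IsUnramifiedAt (𝓞 K) 𝔓) :
    resHom K L (artin L' 𝔄) = artin L (Ideal.relNorm (𝓞 K) 𝔄) := by
  by_cases h𝔄 : 𝔄 = ⊥
  · rw [h𝔄, Ideal.relNorm_bot, artin_bot, artin_bot, map_one]
  have key : ∀ s : Multiset (Ideal (𝓞 E)),
      (∀ 𝔮 ∈ s, ∃ _ : 𝔮.IsPrime, 𝔮 ≠ ⊥ ∧
        resHom K L (frobP L' 𝔮) = artin L (Ideal.relNorm (𝓞 K) 𝔮)) →
      resHom K L ((s.map (frobP L')).prod) = artin L (Ideal.relNorm (𝓞 K) s.prod) := by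
    intro s
    induction s using Multiset.induction_on with
    | empty => intro _; simp
    | cons 𝔮 s ih =>
      intro hs
      obtain ⟨hq, hq0, hqeq⟩ := hs 𝔮 (Multiset.mem_cons_self 𝔮 s)
      have hs' : ∀ 𝔮' ∈ s, ∃ _ : 𝔮'.IsPrime, 𝔮' ≠ ⊥ ∧
          resHom K L (frobP L' 𝔮') = artin L (Ideal.relNorm (𝓞 K) 𝔮') :=
        fun 𝔮' h' => hs 𝔮' (Multiset.mem_cons_of_mem h')
      have hs0 : s.prod ≠ ⊥ := by
        rw [← Ideal.zero_eq_bot]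
        exact Multiset.prod_ne_zero fun h0 => (hs' _ h0).2.1 rfl
      rw [Multiset.map_cons, Multiset.prod_cons, Multiset.prod_cons, map_mul, map_mul, artin_mul
        (by rwa [Ne, Ideal.relNorm_eq_bot_iff]) (by rwa [Ne, Ideal.relNorm_eq_bot_iff]),
        hqeq, ih hs']
  rw [artin]
  conv_rhs => rw [← Ideal.prod_normalizedFactors_eq_self h𝔄]
  apply key
  intro 𝔮 h𝔮
  have hprime := prime_of_normalized_factor 𝔮 h𝔮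
  haveI hqp := Ideal.isPrime_of_prime hprime
  refine ⟨hqp, hprime.ne_zero, resHom_frobP_eq_artin_relNorm 𝔮 hprime.ne_zero ?_⟩
  intro 𝔓 _ h𝔓 hu
  apply hur 𝔓 h𝔓
  rw [hu]
  exact (Ideal.relNorm_mono _ (Ideal.le_of_dvd (dvd_of_mem_normalizedFactors h𝔮))).trans
    (Ideal.relNorm_le_comap _ _)

end AbelianBaseChange

end Fermat.Agent.S14.H27
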