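import Mathlib
import Fermat.Agent.S14.H27_Split

set_option autoImplicit false

noncomputable section

namespace Fermat.Agent.S14.H27

open NumberField UniqueFactorizationMonoid
open scoped Pointwise IsMulCommutative

section Tower

variable {K₀ K L : Type*} [Field K₀] [Field K] [Field L]
  [NumberField K₀] [NumberField K] [NumberField L]
  [Algebra K₀ K] [Algebra K L] [Algebra K₀ L] [IsScalarTower K₀ K L] [Normal K₀ K]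

/-- conjugation of `σ ∈ Gal(L/K)` by `τ ∈ Gal(L/K₀)` (for `K/K₀` normal). -/
def conjTower (τ : Gal(L/K₀)) (σ : Gal(L/K)) : Gal(L/K) :=
  { (τ.symm.toRingEquiv.trans (σ.toRingEquiv.trans τ.toRingEquiv)) with
    commutes' := fun k => by
      show τ (σ (τ.symm (algebraMap K L k))) = algebraMap K L k
      have h1 : τ.symm (algebraMap K L k) = algebraMap K L (τ.symm.restrictNormal K k) :=
        (AlgEquiv.restrictNormal_commutes τ.symm K k).symm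
      rw [h1, σ.commutes, ← h1, τ.apply_symm_apply] }

@[simp]
theorem conjTower_apply (τ : Gal(L/K₀)) (σ : Gal(L/K)) (x : L) :
    conjTower τ σ x = τ (σ (τ.symm x)) := rfl

theorem conjTower_mul (τ : Gal(L/K₀)) (σ σ' : Gal(L/K)) :
    conjTower τ (σ * σ') = conjTower τ σ * conjTower τ σ' := by
  ext x
  simp [AlgEquiv.mul_apply]

theorem conjTower_one (τ : Gal(L/K₀)) : conjTower τ (1 : Gal(L/K)) = 1 := by
  ext x
  simp [AlgEquiv.one_apply]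

theorem conjTower_pow (τ : Gal(L/K₀)) (σ : Gal(L/K)) (n : ℕ) :
    conjTower τ (σ ^ n) = conjTower τ σ ^ n := by
  induction n with
  | zero => simp [conjTower_one]
  | succ n ih => rw [pow_succ, pow_succ, conjTower_mul, ih]

theorem restrictScalars_conjTower (τ : Gal(L/K₀)) (σ : Gal(L/K)) :
    (conjTower τ σ).restrictScalars K₀ = τ * σ.restrictScalars K₀ * τ⁻¹ := by
  ext x
  simp [AlgEquiv.mul_apply, AlgEquiv.restrictScalars_apply]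

theorem algebraMap_restrictNormal_smul (τ : Gal(L/K₀)) (x : 𝓞 K) :
    algebraMap (𝓞 K) (𝓞 L) (τ.restrictNormal K • x) = τ • algebraMap (𝓞 K) (𝓞 L) x := by
  apply RingOfIntegers.ext
  exact AlgEquiv.restrictNormal_commutes τ K (x : K)

theorem under_smul (τ : Gal(L/K₀)) (𝔓 : Ideal (𝓞 L)) :
    (τ • 𝔓).under (𝓞 K) = τ.restrictNormal K • 𝔓.under (𝓞 K) := by
  ext x
  rw [Ideal.under_def, Ideal.mem_comap, Ideal.mem_pointwise_smul_iff_inv_smul_mem,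
    Ideal.mem_pointwise_smul_iff_inv_smul_mem, Ideal.under_def, Ideal.mem_comap]
  have : (τ.restrictNormal K)⁻¹ = τ⁻¹.restrictNormal K :=
    (map_inv (AlgEquiv.restrictNormalHom K) τ).symm
  rw [this, algebraMap_restrictNormal_smul]

theorem card_quot_smul (g : Gal(K/K₀)) (𝔭 : Ideal (𝓞 K)) :
    Nat.card (𝓞 K ⧸ g • 𝔭) = Nat.card (𝓞 K ⧸ 𝔭) := by
  refine (Nat.card_congr (Ideal.quotientEquiv 𝔭 (g • 𝔭)
    (MulSemiringAction.toRingEquiv Gal(K/K₀) (𝓞 K) g) ?_).toEquiv).symm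
  rfl

/-- **Conjugation of Frobenius by the big group** `Gal(L/K₀)`. -/
theorem isArithFrobAt_conjTower [IsGalois K L] (τ : Gal(L/K₀)) {σ : Gal(L/K)}
    {𝔓 : Ideal (𝓞 L)} (hσ : IsArithFrobAt (𝓞 K) σ 𝔓) :
    IsArithFrobAt (𝓞 K) (conjTower τ σ) (τ • 𝔓) := by
  intro y
  show conjTower τ σ • y - y ^ Nat.card (𝓞 K ⧸ (τ • 𝔓).under (𝓞 K)) ∈ τ • 𝔓
  rw [under_smul, card_quot_smul, Ideal.mem_pointwise_smul_iff_inv_smul_mem]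
  have h1 : σ • (τ⁻¹ • y) - (τ⁻¹ • y) ^ Nat.card (𝓞 K ⧸ 𝔓.under (𝓞 K)) ∈ 𝔓 := hσ (τ⁻¹ • y)
  convert h1 using 1
  rw [smul_sub, smul_pow']
  congr 1
  apply RingOfIntegers.ext
  show τ⁻¹ (τ (σ (τ.symm (y : L)))) = σ (τ⁻¹ (y : L))
  rw [AlgEquiv.aut_inv, AlgEquiv.symm_apply_apply]

theorem smul_ne_bot_iff {G R : Type*} [Group G] [CommRing R] [MulSemiringAction G R] (g : G)
    (I : Ideal R) : g • I ≠ ⊥ ↔ I ≠ ⊥ := by
  refine not_congr ⟨fun h => ?_, fun h => ?_⟩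
  · rw [← inv_smul_smul g I, h, Ideal.smul_bot]
  · rw [h, Ideal.smul_bot]

/-- **(F2') Frobenius of a conjugate prime, conjugating by the big group** `Gal(L/K₀)`. -/
theorem frob_smul_tower [IsGalois K L] (τ : Gal(L/K₀)) (𝔓 : Ideal (𝓞 L)) [𝔓.IsPrime]
    (h𝔓 : 𝔓 ≠ ⊥) (hτ𝔓 : τ • 𝔓 ≠ ⊥) (hur : Algebra.IsUnramifiedAt (𝓞 K) (τ • 𝔓)) :
    frob K (τ • 𝔓) hτ𝔓 = conjTower τ (frob K 𝔓 h𝔓) :=
  (eq_of_isArithFrobAt (τ • 𝔓) hur (isArithFrobAt_conjTower τ (isArithFrobAt_frob 𝔓 h𝔓))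
    (isArithFrobAt_frob (τ • 𝔓) hτ𝔓)).symm

/-- Artin symbol of a conjugate prime: `(τ𝔭, L/K) = τ (𝔭, L/K) τ⁻¹` for `τ ∈ Gal(L/K₀)`. -/
theorem frobP_smul_tower [IsGalois K L] [IsMulCommutative Gal(L/K)] (τ : Gal(L/K₀))
    (𝔭 : Ideal (𝓞 K))
    (hur : ∀ (𝔓 : Ideal (𝓞 L)) [𝔓.IsPrime], 𝔓 ≠ ⊥ → 𝔓.under (𝓞 K) = τ.restrictNormal K • 𝔭 →
      Algebra.IsUnramifiedAt (𝓞 K) 𝔓) :
    frobP L (τ.restrictNormal K • 𝔭) = conjTower τ (frobP L 𝔭) := by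
  by_cases h : 𝔭.IsPrime ∧ 𝔭 ≠ ⊥
  · obtain ⟨hp, h𝔭⟩ := h
    have hτ𝔭 : τ.restrictNormal K • 𝔭 ≠ ⊥ := (smul_ne_bot_iff _ _).mpr h𝔭
    obtain ⟨⟨𝔓, h𝔓prime, h𝔓over⟩⟩ := 𝔭.nonempty_primesOver (S := 𝓞 L)
    have h𝔓 : 𝔓 ≠ ⊥ := Ideal.ne_bot_of_liesOver_of_ne_bot h𝔭 𝔓
    have hτ𝔓 : τ • 𝔓 ≠ ⊥ := (smul_ne_bot_iff _ _).mpr h𝔓
    have hunder : (τ • 𝔓).under (𝓞 K) = τ.restrictNormal K • 𝔭 := by
      rw [under_smul, ← Ideal.over_def 𝔓 𝔭]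
    haveI : (τ • 𝔓).LiesOver (τ.restrictNormal K • 𝔭) := ⟨hunder.symm⟩
    rw [frobP_eq_frob 𝔭 h𝔭 𝔓 h𝔓, frobP_eq_frob (τ.restrictNormal K • 𝔭) hτ𝔭 (τ • 𝔓) hτ𝔓,
      frob_smul_tower τ 𝔓 h𝔓 hτ𝔓 (hur _ hτ𝔓 hunder)]
  · have h' : ¬ ((τ.restrictNormal K • 𝔭).IsPrime ∧ τ.restrictNormal K • 𝔭 ≠ ⊥) := by
      rwa [Ideal.IsPrime.smul_iff, smul_ne_bot_iff]
    rw [frobP_of_not 𝔭 h, frobP_of_not _ h', conjTower_one]

/-- pointwise form of `frobP_smul_tower`. -/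
theorem frobP_smul_tower_apply [IsGalois K L] [IsMulCommutative Gal(L/K)] (τ : Gal(L/K₀))
    (𝔭 : Ideal (𝓞 K))
    (hur : ∀ (𝔓 : Ideal (𝓞 L)) [𝔓.IsPrime], 𝔓 ≠ ⊥ → 𝔓.under (𝓞 K) = τ.restrictNormal K • 𝔭 →
      Algebra.IsUnramifiedAt (𝓞 K) 𝔓) (x : L) :
    frobP L (τ.restrictNormal K • 𝔭) x = τ (frobP L 𝔭 (τ.symm x)) := by
  rw [frobP_smul_tower τ 𝔭 hur, conjTower_apply]

end Tower

end Fermat.Agent.S14.H27
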