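import Mathlib
import Fermat.Prelude.Def_ExtCitation_AdmissibleExtension_v2
import Fermat.Prelude.Def_ExtCitation_KummerBridge

/-!
# S14, work package WP0: reduction of `ExtVanishingCts` to a statement about `G_ℚ`

Notation: `G_ℚ = Gal(ℚ̄/ℚ)`, `χ = ExtCitation.cycloChar p : G_ℚ →* (ZMod p)ˣ`, `H = ker χ`.

* `cycloChar_surjective` : the mod `p` cyclotomic character of `G_ℚ` is surjective.
* `splitsGlobally_of_ker_trivial` : an extension `0 → C → V → V/C → 0` (trivial action on `C`,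
  action through `χ` on `V/C`) on which `H` acts trivially splits (for `p ≥ 3`).
* `IsUnramifiedCocycle p φ` : `φ : G_ℚ → ZMod p` is a 1-cocycle with values in `𝔽_p(χ⁻¹)`, `φ|_H`
  has open kernel, is unramified outside `p`, and kills `D_A ∩ H` for every place `A` above `p`.
* `exists_cocycle_of_not_splitsGlobally` : a non-split admissible extension gives an unramified
  cocycle with `φ|_H ≠ 0`.
* `extVanishingCts_of_core` : hence S14 follows from the "core" statement
  `∀ φ, IsUnramifiedCocycle p φ → ∀ τ, χ τ = 1 → φ τ = 0`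
  (no everywhere unramified cyclic degree `p` extension of `ℚ(ζ_p)`, split above `p`, Galois over
  `ℚ` with `Gal(ℚ(ζ_p)/ℚ)` acting by `χ⁻¹`).
-/

set_option autoImplicit false

namespace Fermat.Agent.S14.H67

open ExtCitation Polynomial

/-- The absolute Galois group of `ℚ` (as used in the frozen statements). -/
local notation "GQ" => (AlgebraicClosure ℚ ≃ₐ[ℚ] AlgebraicClosure ℚ)

local instance isAlgebraicQb : Algebra.IsAlgebraic ℚ (AlgebraicClosure ℚ) :=
  AlgebraicClosure.isAlgebraic ℚ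
local instance isAlgClosureQb : IsAlgClosure ℚ (AlgebraicClosure ℚ) :=
  ⟨inferInstance, inferInstance⟩
local instance isGaloisQb : IsGalois ℚ (AlgebraicClosure ℚ) := IsSepClosure.isGalois

section CycloChar

variable (p : ℕ) [Fact p.Prime]

/-- Characterisation of `cycloChar`: `σ ζ = ζ ^ (χ σ)` for every `p`-th root of unity `ζ`. -/
theorem cycloChar_spec (σ : GQ) {t : (AlgebraicClosure ℚ)ˣ}
    (ht : t ∈ rootsOfUnity p (AlgebraicClosure ℚ)) :
    σ (t : AlgebraicClosure ℚ) = (t : AlgebraicClosure ℚ) ^ ((cycloChar p σ : ZMod p)).val := by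
  have : NeZero p := ⟨(Fact.out : p.Prime).ne_zero⟩
  have h := modularCyclotomicCharacter.spec (AlgebraicClosure ℚ) (card_rootsOfUnity_eq_self p)
    (σ : AlgebraicClosure ℚ ≃+* AlgebraicClosure ℚ) ht
  simpa [cycloChar] using h

theorem cycloChar_unique (σ : GQ) {c : ZMod p}
    (hc : ∀ t ∈ rootsOfUnity p (AlgebraicClosure ℚ),
      σ ((t : (AlgebraicClosure ℚ)ˣ) : AlgebraicClosure ℚ) = (t : AlgebraicClosure ℚ) ^ c.val) :
    c = (cycloChar p σ : ZMod p) := by
  have : NeZero p := ⟨(Fact.out : p.Prime).ne_zero⟩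
  have h := modularCyclotomicCharacter.unique (AlgebraicClosure ℚ) (card_rootsOfUnity_eq_self p)
    (σ : AlgebraicClosure ℚ ≃+* AlgebraicClosure ℚ) (c := c) (by simpa using hc)
  simpa [cycloChar] using h

theorem exists_primitiveRoot : ∃ ζ : AlgebraicClosure ℚ, IsPrimitiveRoot ζ p := by
  have : NeZero p := ⟨(Fact.out : p.Prime).ne_zero⟩
  have : NeZero (p : ℚ) := ⟨Nat.cast_ne_zero.mpr (NeZero.ne p)⟩
  exact HasEnoughRootsOfUnity.exists_primitiveRoot (AlgebraicClosure ℚ) p

/-- `cycloChar` in terms of one primitive root. -/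
theorem cycloChar_spec_primitive (σ : GQ) {ζ : AlgebraicClosure ℚ} (hζ : IsPrimitiveRoot ζ p) :
    σ ζ = ζ ^ ((cycloChar p σ : ZMod p)).val := by
  have hp : 0 < p := (Fact.out : p.Prime).pos
  have hu : IsUnit ζ := hζ.isUnit hp.ne'
  obtain ⟨t, rfl⟩ := hu
  refine cycloChar_spec p σ ?_
  rw [mem_rootsOfUnity]
  exact Units.ext (by simpa using hζ.pow_eq_one)

theorem cycloChar_eq_of_primitive (σ : GQ) {ζ : AlgebraicClosure ℚ} (hζ : IsPrimitiveRoot ζ p)
    {c : ZMod p} (hc : σ ζ = ζ ^ c.val) : (cycloChar p σ : ZMod p) = c := by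
  have hp : 0 < p := (Fact.out : p.Prime).pos
  have : NeZero p := ⟨hp.ne'⟩
  symm
  refine cycloChar_unique p σ ?_
  intro t ht
  rw [mem_rootsOfUnity] at ht
  have ht' : ((t : (AlgebraicClosure ℚ)ˣ) : AlgebraicClosure ℚ) ^ p = 1 := by
    have := congrArg Units.val ht
    simpa using this
  obtain ⟨k, -, hk⟩ := hζ.eq_pow_of_pow_eq_one ht'
  rw [← hk, map_pow, hc, ← pow_mul, ← pow_mul, mul_comm]

/-- The mod `p` cyclotomic character of `Gal(ℚ̄/ℚ)` is surjective. -/
theorem cycloChar_surjective : Function.Surjective (cycloChar p) := by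
  intro u
  have hp : 0 < p := (Fact.out : p.Prime).pos
  have : NeZero p := ⟨hp.ne'⟩
  obtain ⟨ζ, hζ⟩ := exists_primitiveRoot p
  have hcop : ((u : ZMod p)).val.Coprime p := ZMod.val_coe_unit_coprime u
  have hζ' : IsPrimitiveRoot (ζ ^ ((u : ZMod p)).val) p := hζ.pow_of_coprime _ hcop
  have hconj : IsConjRoot ℚ (ζ ^ ((u : ZMod p)).val) ζ := by
    rw [isConjRoot_def, ← cyclotomic_eq_minpoly_rat hζ' hp, ← cyclotomic_eq_minpoly_rat hζ hp]
  obtain ⟨σ, hσ⟩ := hconj.exists_algEquiv
  refine ⟨σ, Units.ext ?_⟩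
  exact cycloChar_eq_of_primitive p σ hζ hσ

/-- For `p ≥ 3` there is `σ` with `χ(σ) ≠ 1`. -/
theorem exists_cycloChar_ne_one (h3 : 3 ≤ p) : ∃ σ : GQ, cycloChar p σ ≠ 1 := by
  have : Fact (2 < p) := ⟨by omega⟩
  obtain ⟨σ, hσ⟩ := cycloChar_surjective p (-1)
  refine ⟨σ, ?_⟩
  rw [hσ]
  intro h
  have h' := congrArg (fun u : (ZMod p)ˣ => (u : ZMod p)) h
  simp only [Units.val_neg, Units.val_one] at h'
  exact ZMod.neg_one_ne_one h'

end CycloChar

section Reduction

variable {p : ℕ} [Fact p.Prime]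
variable {V : Type} [AddCommGroup V] [Module (ZMod p) V]
  [DistribMulAction GQ V] [SMulCommClass GQ (ZMod p) V]

omit [Module (ZMod p) V] [SMulCommClass GQ (ZMod p) V] in
/-- If the kernel of the cyclotomic character acts trivially, the action of `G_ℚ` is abelian. -/
theorem smul_comm_of_ker_trivial
    (hker : ∀ τ : GQ, cycloChar p τ = 1 → ∀ v : V, τ • v = v) (σ τ : GQ) (v : V) :
    σ • τ • v = τ • σ • v := by
  have hc : cycloChar p (σ⁻¹ * τ⁻¹ * σ * τ) = 1 := by
    simp only [map_mul, map_inv]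
    rw [mul_comm ((cycloChar p σ)⁻¹) ((cycloChar p τ)⁻¹), mul_assoc, mul_assoc,
      ← mul_assoc ((cycloChar p σ)⁻¹), inv_mul_cancel, one_mul, inv_mul_cancel]
  have h1 := hker _ hc v
  calc σ • τ • v = (τ * σ * (σ⁻¹ * τ⁻¹ * σ * τ)) • v := by
        rw [← mul_smul]; congr 1; group
    _ = τ • σ • v := by rw [mul_smul, h1, mul_smul]

/-- The eigenspace of `σ` for the eigenvalue `χ(σ)`. -/
def eigenComplement (p : ℕ) [Fact p.Prime] (V : Type) [AddCommGroup V]
    [Module (ZMod p) V] [DistribMulAction GQ V] [SMulCommClass GQ (ZMod p) V] (σ : GQ) :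
    Submodule (ZMod p) V where
  carrier := {x | σ • x = ((cycloChar p σ : (ZMod p)ˣ) : ZMod p) • x}
  add_mem' := by
    intro x y hx hy
    change σ • x = _ at hx
    change σ • y = _ at hy
    change σ • (x + y) = _
    rw [smul_add, smul_add, hx, hy]
  zero_mem' := by simp
  smul_mem' := by
    intro c x hx
    change σ • x = _ at hx
    change σ • (c • x) = _
    rw [smul_comm, hx, smul_comm]

theorem mem_eigenComplement {σ : GQ} {x : V} :
    x ∈ eigenComplement p V σ ↔ σ • x = ((cycloChar p σ : (ZMod p)ˣ) : ZMod p) • x := Iff.rfl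

/-- **Reduction step.** If `ker χ` acts trivially on an extension `0 → C → V → V/C → 0` with `G_ℚ`
acting trivially on `C` and through `χ` on `V/C`, and `p ≥ 3`, then the extension splits. -/
theorem splitsGlobally_of_ker_trivial (h3 : 3 ≤ p) {C : Submodule (ZMod p) V}
    (hfixed : ∀ σ : GQ, ∀ x ∈ C, σ • x = x)
    (hquot : ∀ σ : GQ, ∀ x : V, σ • x - (cycloExp p σ : ZMod p) • x ∈ C)
    (hker : ∀ τ : GQ, cycloChar p τ = 1 → ∀ v : V, τ • v = v) : SplitsGlobally C := by
  obtain ⟨σ, hσ⟩ := exists_cycloChar_ne_one p h3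
  set a : ZMod p := ((cycloChar p σ : (ZMod p)ˣ) : ZMod p) with ha
  have ha1 : a - 1 ≠ 0 := by
    intro h
    apply hσ
    apply Units.ext
    rw [Units.val_one, ← ha]
    exact sub_eq_zero.mp h
  have hquot' : ∀ x : V, σ • x - a • x ∈ C := by
    intro x
    have := hquot σ x
    rwa [← coe_cycloChar] at this
  refine ⟨eigenComplement p V σ, ?_, ?_⟩
  · intro τ x hx
    rw [mem_eigenComplement] at hx ⊢
    rw [smul_comm_of_ker_trivial hker σ τ x, hx, smul_comm]
  · refine IsCompl.of_eq ?_ ?_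
    · rw [eq_bot_iff]
      intro x hx
      obtain ⟨hxC, hxC'⟩ := hx
      rw [SetLike.mem_coe, mem_eigenComplement] at hxC'
      rw [hfixed σ x hxC] at hxC'
      have h0 : (a - 1) • x = 0 := by rw [sub_smul, one_smul, ← hxC', sub_self]
      rcases smul_eq_zero.mp h0 with h | h
      · exact absurd h ha1
      · exact h
    · rw [eq_top_iff]
      intro x _
      set y : V := σ • x - a • x with hy
      have hyC : y ∈ C := hquot' x
      set c : V := (1 - a)⁻¹ • y with hcdef
      have hcC : c ∈ C := C.smul_mem _ hyC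
      have h1a : (1 - a) ≠ 0 := by
        intro h
        apply ha1
        rw [← neg_sub, h, neg_zero]
      have hxc : x - c ∈ eigenComplement p V σ := by
        rw [mem_eigenComplement, smul_sub, hfixed σ c hcC, smul_sub]
        have h2 : σ • x = y + a • x := by rw [hy]; abel
        have h3 : y = (1 - a) • c := by
          rw [hcdef, smul_smul, mul_inv_cancel₀ h1a, one_smul]
        rw [h2, h3, sub_smul, one_smul]
        abel
      have : x = c + (x - c) := by abel
      rw [this]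
      exact Submodule.add_mem_sup hcC hxc

/-- Version for admissible extensions. -/
theorem splitsGlobally_of_admissible_of_ker_trivial (h3 : 3 ≤ p) {C : Submodule (ZMod p) V}
    (hadm : IsAdmissibleExtension p V C)
    (hker : ∀ τ : GQ, cycloChar p τ = 1 → ∀ v : V, τ • v = v) : SplitsGlobally C :=
  splitsGlobally_of_ker_trivial h3 hadm.fixed_sub hadm.cyclo_quot hker

end Reduction

section Cocycle

variable (p : ℕ) [Fact p.Prime]

/-- A 1-cocycle `G_ℚ → 𝔽_p(χ⁻¹)` (`χ` the mod `p` cyclotomic character) whose restriction to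
`H = ker χ` is a continuous homomorphism, unramified outside `p` and trivial on the decomposition
groups above `p` (intersected with `H`). Via Galois theory the restriction to `H` is (if nonzero) a
cyclic degree-`p` extension `L` of `K = ℚ(ζ_p)`, unramified everywhere, in which the primes above
`p` split completely, Galois over `ℚ`, with `Gal(K/ℚ)` acting on `Gal(L/K)` through `χ⁻¹`. -/
structure IsUnramifiedCocycle (φ : GQ → ZMod p) : Prop where
  cocycle : ∀ σ τ : GQ, φ (σ * τ) = φ σ + (((cycloChar p σ)⁻¹ : (ZMod p)ˣ) : ZMod p) * φ τ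
  isOpen_ker : IsOpen {σ : GQ | cycloChar p σ = 1 ∧ φ σ = 0}
  unramified : ∀ ℓ : ℕ, ℓ.Prime → ℓ ≠ p →
    ∀ A : ValuationSubring (AlgebraicClosure ℚ), A.LiesOverPrime ℓ →
      ∀ σ ∈ A.inertiaSubgroupIn ℚ, cycloChar p σ = 1 ∧ φ σ = 0
  split_at_p : ∀ A : ValuationSubring (AlgebraicClosure ℚ), A.LiesOverPrime p →
    ∀ σ ∈ A.decompositionSubgroup ℚ, cycloChar p σ = 1 → φ σ = 0

variable {p}

namespace IsUnramifiedCocycle

variable {φ : GQ → ZMod p} (hφ : IsUnramifiedCocycle p φ)
include hφ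

theorem map_one : φ 1 = 0 := by
  have h := hφ.cocycle 1 1
  simpa using h

theorem map_mul_of_left (σ τ : GQ) (hσ : cycloChar p σ = 1) : φ (σ * τ) = φ σ + φ τ := by
  rw [hφ.cocycle, hσ]; simp

theorem map_inv (σ : GQ) : φ σ⁻¹ = - ((cycloChar p σ : (ZMod p)ˣ) : ZMod p) * φ σ := by
  have h := hφ.cocycle σ σ⁻¹
  rw [mul_inv_cancel, hφ.map_one] at h
  have h2 : (((cycloChar p σ)⁻¹ : (ZMod p)ˣ) : ZMod p) * φ σ⁻¹ = - φ σ := by
    rw [eq_neg_iff_add_eq_zero, add_comm]; exact h.symm
  have h3 := congrArg (fun x => ((cycloChar p σ : (ZMod p)ˣ) : ZMod p) * x) h2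
  simp only [← mul_assoc, ← Units.val_mul, mul_inv_cancel, Units.val_one, one_mul] at h3
  rw [h3]; ring

/-- Conjugation acts on `φ|_H` through `χ⁻¹`. -/
theorem map_conj (σ τ : GQ) (hτ : cycloChar p τ = 1) :
    φ (σ * τ * σ⁻¹) = (((cycloChar p σ)⁻¹ : (ZMod p)ˣ) : ZMod p) * φ τ := by
  rw [hφ.cocycle, hφ.cocycle, hφ.map_inv, _root_.map_mul, hτ, mul_one]
  have : (((cycloChar p σ)⁻¹ : (ZMod p)ˣ) : ZMod p) * ((cycloChar p σ : (ZMod p)ˣ) : ZMod p) = 1 := by
    rw [← Units.val_mul, inv_mul_cancel, Units.val_one]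
  linear_combination (- φ σ) * this

/-- The kernel of `φ|_H`, as a subgroup of `G_ℚ`. -/
def kerSubgroup : Subgroup GQ where
  carrier := {σ : GQ | cycloChar p σ = 1 ∧ φ σ = 0}
  mul_mem' := by
    rintro a b ⟨ha, ha'⟩ ⟨hb, hb'⟩
    refine ⟨by rw [_root_.map_mul, ha, hb, one_mul], ?_⟩
    rw [hφ.map_mul_of_left a b ha, ha', hb', add_zero]
  one_mem' := ⟨_root_.map_one _, hφ.map_one⟩
  inv_mem' := by
    rintro a ⟨ha, ha'⟩
    refine ⟨by rw [_root_.map_inv, ha, inv_one], ?_⟩
    rw [hφ.map_inv, ha', mul_zero]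

theorem mem_kerSubgroup {σ : GQ} : σ ∈ hφ.kerSubgroup ↔ cycloChar p σ = 1 ∧ φ σ = 0 := Iff.rfl

theorem kerSubgroup_le_ker : hφ.kerSubgroup ≤ (cycloChar p).ker := fun _ h => h.1

theorem kerSubgroup_normal : hφ.kerSubgroup.Normal := by
  refine ⟨fun τ hτ σ => ?_⟩
  obtain ⟨h1, h2⟩ := hτ
  refine ⟨?_, ?_⟩
  · rw [_root_.map_mul, _root_.map_mul, h1, mul_one, _root_.map_inv, mul_inv_cancel]
  · rw [hφ.map_conj σ τ h1, h2, mul_zero]

theorem kerSubgroup_isOpen : IsOpen (hφ.kerSubgroup : Set GQ) := hφ.isOpen_ker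

end IsUnramifiedCocycle

end Cocycle

section Construct

variable {p : ℕ} [Fact p.Prime]
variable {V : Type} [AddCommGroup V] [Module (ZMod p) V]
  [DistribMulAction GQ V] [SMulCommClass GQ (ZMod p) V]

omit [DistribMulAction GQ V] [SMulCommClass GQ (ZMod p) V] in
/-- A submodule with `p` elements is free of rank one: a linear injection into `ZMod p`. -/
theorem exists_coord {C : Submodule (ZMod p) V} (hcard : Nat.card C = p) :
    ∃ ψ : C →ₗ[ZMod p] ZMod p, Function.Injective ψ := by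
  have hp : p.Prime := Fact.out
  have : Finite C := Nat.finite_of_card_ne_zero (by rw [hcard]; exact hp.ne_zero)
  have hnt : Nontrivial C := by
    rw [← Finite.one_lt_card_iff_nontrivial, hcard]; exact hp.one_lt
  obtain ⟨c₀, hc₀⟩ := exists_ne (0 : C)
  let f : ZMod p →ₗ[ZMod p] C := LinearMap.toSpanSingleton (ZMod p) C c₀
  have hf : Function.Injective f := by
    rw [← LinearMap.ker_eq_bot, LinearMap.ker_eq_bot']
    intro a ha
    have ha' : a = 0 ∨ c₀ = 0 := by simpa [f] using ha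
    rcases ha' with h | h
    · exact h
    · exact absurd h hc₀
  have hbij : Function.Bijective f := by
    refine (Nat.bijective_iff_injective_and_card f).mpr ⟨hf, ?_⟩
    rw [hcard, Nat.card_zmod]
  exact ⟨(LinearEquiv.ofBijective f hbij).symm.toLinearMap, (LinearEquiv.ofBijective f hbij).symm.injective⟩

omit [SMulCommClass GQ (ZMod p) V] in
open groupCohomology in
/-- The basic identity `σ • v₀ = χ(σ) • v₀ + χ(σ) • f(σ)` for the class function `f`. -/
theorem smul_eq_add_extClassFun (v₀ : V) (σ : GQ) :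
    σ • v₀ = ((cycloChar p σ : (ZMod p)ˣ) : ZMod p) • v₀ +
      ((cycloChar p σ : (ZMod p)ˣ) : ZMod p) • extClassFun (cycloChar p) v₀ σ := by
  unfold extClassFun
  rw [smul_smul, ← Units.val_mul, mul_inv_cancel, Units.val_one, one_smul]
  abel

open groupCohomology in
/-- The class function of an extension is a 1-cocycle with values in `C(χ⁻¹)`. -/
theorem extClassFun_mul {C : Submodule (ZMod p) V}
    (hfixed : ∀ σ : GQ, ∀ x ∈ C, σ • x = x)
    (hquot : ∀ σ : GQ, ∀ x : V, σ • x - ((cycloChar p σ : (ZMod p)ˣ) : ZMod p) • x ∈ C)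
    (v₀ : V) (σ τ : GQ) :
    extClassFun (cycloChar p) v₀ (σ * τ) = extClassFun (cycloChar p) v₀ σ +
      (((cycloChar p σ)⁻¹ : (ZMod p)ˣ) : ZMod p) • extClassFun (cycloChar p) v₀ τ := by
  have hfτ : extClassFun (cycloChar p) v₀ τ ∈ C := extClassFun_mem _ _ C hquot τ
  set a : (ZMod p)ˣ := cycloChar p σ with ha
  set b : (ZMod p)ˣ := cycloChar p τ with hb
  have h1 : (σ * τ) • v₀ = ((a * b : (ZMod p)ˣ) : ZMod p) • v₀ +
      ((a * b : (ZMod p)ˣ) : ZMod p) • (extClassFun (cycloChar p) v₀ σ +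
      ((a⁻¹ : (ZMod p)ˣ) : ZMod p) • extClassFun (cycloChar p) v₀ τ) := by
    rw [mul_smul, smul_eq_add_extClassFun (p := p) v₀ τ, smul_add, smul_comm σ, smul_comm σ,
      hfixed σ _ hfτ, smul_eq_add_extClassFun (p := p) v₀ σ, ← ha, ← hb]
    simp only [smul_add, smul_smul, Units.val_mul]
    have : (a : ZMod p) * (b : ZMod p) * ((a⁻¹ : (ZMod p)ˣ) : ZMod p) = (b : ZMod p) := by
      rw [mul_comm (a : ZMod p), mul_assoc, ← Units.val_mul, mul_inv_cancel, Units.val_one, mul_one]
    rw [this, mul_comm (b : ZMod p) (a : ZMod p)]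
    abel
  have h2 : cycloChar p (σ * τ) = a * b := by rw [_root_.map_mul]
  conv_lhs => unfold extClassFun
  rw [h2, h1, add_sub_cancel_left, smul_smul, ← Units.val_mul, inv_mul_cancel, Units.val_one,
    one_smul]

open groupCohomology in
/-- **WP0 main theorem.** A non-split admissible extension (with open kernel) produces an
unramified cocycle whose restriction to `ker χ` is non-zero. -/
theorem exists_cocycle_of_not_splitsGlobally (h3 : 3 ≤ p) {C : Submodule (ZMod p) V}
    (hadm : IsAdmissibleExtensionCts p V C) (hns : ¬ SplitsGlobally C) :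
    ∃ φ : GQ → ZMod p, IsUnramifiedCocycle p φ ∧ ∃ τ : GQ, cycloChar p τ = 1 ∧ φ τ ≠ 0 := by
  have hadm' := hadm.toIsAdmissibleExtension
  have hfixed := hadm'.fixed_sub
  have hquot : ∀ σ : GQ, ∀ x : V, σ • x - ((cycloChar p σ : (ZMod p)ˣ) : ZMod p) • x ∈ C := by
    intro σ x
    rw [coe_cycloChar]
    exact hadm'.cyclo_quot σ x
  -- a witness of non-trivial action of `ker χ`
  have hex : ∃ τ₀ : GQ, cycloChar p τ₀ = 1 ∧ ∃ v₀ : V, τ₀ • v₀ ≠ v₀ := by
    by_contra hcon
    push Not at hcon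
    exact hns (splitsGlobally_of_admissible_of_ker_trivial h3 hadm' hcon)
  obtain ⟨τ₀, hτ₀, v₀, hv₀⟩ := hex
  have hv₀C : v₀ ∉ C := fun h => hv₀ (hfixed τ₀ v₀ h)
  obtain ⟨ψ, hψ⟩ := exists_coord hadm'.card_sub
  have hmem : ∀ σ : GQ, extClassFun (cycloChar p) v₀ σ ∈ C :=
    fun σ => extClassFun_mem _ _ C hquot σ
  -- elements acting trivially lie in the kernel
  have htriv : ∀ σ : GQ, (∀ v : V, σ • v = v) →
      cycloChar p σ = 1 ∧ extClassFun (cycloChar p) v₀ σ = 0 := by
    intro σ hσ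
    have h1 : cycloChar p σ = 1 := by
      by_contra hne
      have hne' : (1 : ZMod p) - ((cycloChar p σ : (ZMod p)ˣ) : ZMod p) ≠ 0 := by
        intro h
        apply hne
        apply Units.ext
        rw [Units.val_one]
        exact (sub_eq_zero.mp h).symm
      have h2 := hquot σ v₀
      rw [hσ v₀] at h2
      have h3 : ((1 : ZMod p) - ((cycloChar p σ : (ZMod p)ˣ) : ZMod p)) • v₀ ∈ C := by
        rw [sub_smul, one_smul]; exact h2
      have h4 := C.smul_mem ((1 : ZMod p) - ((cycloChar p σ : (ZMod p)ˣ) : ZMod p))⁻¹ h3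
      rw [smul_smul, inv_mul_cancel₀ hne', one_smul] at h4
      exact hv₀C h4
    refine ⟨h1, ?_⟩
    unfold extClassFun
    rw [h1, hσ v₀]
    simp
  refine ⟨fun σ => ψ ⟨extClassFun (cycloChar p) v₀ σ, hmem σ⟩, ⟨?_, ?_, ?_, ?_⟩, τ₀, hτ₀, ?_⟩
  · -- cocycle
    intro σ τ
    have h := extClassFun_mul hfixed hquot v₀ σ τ
    have h' : (⟨extClassFun (cycloChar p) v₀ (σ * τ), hmem (σ * τ)⟩ : C) =
        ⟨extClassFun (cycloChar p) v₀ σ, hmem σ⟩ +
          (((cycloChar p σ)⁻¹ : (ZMod p)ˣ) : ZMod p) • ⟨extClassFun (cycloChar p) v₀ τ, hmem τ⟩ :=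
      Subtype.ext h
    simp only [h', map_add, map_smul, smul_eq_mul]
  · -- openness
    let N : Subgroup GQ :=
      { carrier := {σ : GQ | ∀ v : V, σ • v = v}
        mul_mem' := by
          intro a b ha hb v
          rw [mul_smul, hb v, ha v]
        one_mem' := fun v => one_smul _ v
        inv_mem' := by
          intro a ha v
          rw [inv_smul_eq_iff, ha v] }
    have hN : IsOpen (N : Set GQ) := hadm.open_kernel
    -- the kernel is a union of cosets of `N`
    have hEq : {σ : GQ | cycloChar p σ = 1 ∧ ψ ⟨extClassFun (cycloChar p) v₀ σ, hmem σ⟩ = 0} =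
        ⋃ σ ∈ {σ : GQ | cycloChar p σ = 1 ∧ ψ ⟨extClassFun (cycloChar p) v₀ σ, hmem σ⟩ = 0},
          (fun n : GQ => σ * n) '' (N : Set GQ) := by
      ext σ
      simp only [Set.mem_iUnion, Set.mem_image, SetLike.mem_coe, exists_prop]
      constructor
      · intro hσ
        exact ⟨σ, hσ, 1, N.one_mem, mul_one σ⟩
      · rintro ⟨σ', ⟨hσ'1, hσ'2⟩, n, hn, rfl⟩
        obtain ⟨hn1, hn2⟩ := htriv n hn
        refine ⟨by rw [_root_.map_mul, hσ'1, hn1, one_mul], ?_⟩
        have h := extClassFun_mul hfixed hquot v₀ σ' n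
        rw [hn2, smul_zero, add_zero] at h
        have h' : (⟨extClassFun (cycloChar p) v₀ (σ' * n), hmem (σ' * n)⟩ : C) =
            ⟨extClassFun (cycloChar p) v₀ σ', hmem σ'⟩ := Subtype.ext h
        rw [h']; exact hσ'2
    rw [hEq]
    refine isOpen_biUnion fun σ _ => ?_
    exact (Homeomorph.mulLeft σ).isOpenMap _ hN
  · -- unramified outside `p`
    intro ℓ hℓ hℓp A hA σ hσ
    obtain ⟨h1, h2⟩ := htriv σ (hadm'.unramified_outside ℓ hℓ hℓp A hA σ hσ)
    refine ⟨h1, ?_⟩
    have : (⟨extClassFun (cycloChar p) v₀ σ, hmem σ⟩ : C) = 0 := Subtype.ext h2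
    rw [this, map_zero]
  · -- split at `p`
    intro A hA σ hσ hχ
    obtain ⟨C', hC', hcompl⟩ := hadm'.locally_split A hA
    have hall : ∀ v : V, σ • v = v := by
      intro v
      have hv : v ∈ C ⊔ C' := by rw [hcompl.sup_eq_top]; trivial
      obtain ⟨c, hc, c', hc', rfl⟩ := Submodule.mem_sup.mp hv
      have h1 : σ • c' - c' ∈ C := by
        have := hquot σ c'
        rwa [hχ, Units.val_one, one_smul] at this
      have h2 : σ • c' - c' ∈ C' := C'.sub_mem (hC' σ hσ c' hc') hc'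
      have h3 : σ • c' - c' = 0 := by
        have : σ • c' - c' ∈ C ⊓ C' := ⟨h1, h2⟩
        rwa [hcompl.inf_eq_bot, Submodule.mem_bot] at this
      rw [smul_add, hfixed σ c hc, sub_eq_zero.mp h3]
    obtain ⟨-, h2⟩ := htriv σ hall
    have : (⟨extClassFun (cycloChar p) v₀ σ, hmem σ⟩ : C) = 0 := Subtype.ext h2
    rw [this, map_zero]
  · -- non-vanishing
    intro h0
    have h1 : (⟨extClassFun (cycloChar p) v₀ τ₀, hmem τ₀⟩ : C) = 0 :=
      hψ (by rw [map_zero]; exact h0)
    have h2 : extClassFun (cycloChar p) v₀ τ₀ = 0 := congrArg Subtype.val h1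
    unfold extClassFun at h2
    rw [hτ₀] at h2
    simp only [inv_one, Units.val_one, one_smul] at h2
    exact hv₀ (sub_eq_zero.mp h2)


/-- **S14 from the core statement.** -/
theorem extVanishingCts_of_core (h3 : 3 ≤ p)
    (core : ∀ φ : GQ → ZMod p, IsUnramifiedCocycle p φ →
      ∀ τ : GQ, cycloChar p τ = 1 → φ τ = 0) :
    ExtVanishingCts p := by
  intro V _ _ _ _ C hadm
  by_contra hns
  obtain ⟨φ, hφ, τ, hτ, hne⟩ := exists_cocycle_of_not_splitsGlobally h3 hadm hns
  exact hne (core φ hφ τ hτ)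

end Construct

end Fermat.Agent.S14.H67
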