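import Mathlib
import Fermat.Prelude.Def_FLTPrelim_Ramification
import Fermat.Agent.S54.FrobExists

/-!
# S14 / WP1b : dictionary between valuation subrings of `Qbar` and ideals of `Zbar`

`Zbar` is the ring of all algebraic integers (`Fermat.Agent.S54.Zbar`), `GQ` the absolute Galois
group of `ℚ`.  For a valuation subring `A` of `Qbar` we define the prime ideal `idealOf A` of
`Zbar` and express decomposition and inertia groups of `A` through it.
-/

set_option autoImplicit false
set_option linter.style.haveILetI false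

namespace Fermat.Agent.S14.H54

open Fermat.Agent.S54

/-- The algebraic closure of `ℚ` used everywhere in the frozen statements. -/
abbrev Qbar : Type := AlgebraicClosure ℚ

attribute [local instance] isAlgebraic_Qbar isAlgClosure_Qbar isGalois_Qbar

theorem coe_smul_Zbar (σ : GQ) (b : Zbar) : ((σ • b : Zbar) : Qbar) = σ (b : Qbar) := rfl

/-- The ideal of `Zbar` consisting of the algebraic integers in the maximal ideal of `A`. -/
def idealOf (A : ValuationSubring Qbar) : Ideal Zbar where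
  carrier := {b | (b : Qbar) ∈ A.nonunits}
  add_mem' := by
    intro a b ha hb
    exact A.nonunits.add_mem ha hb
  zero_mem' := by
    change ((0 : Zbar) : Qbar) ∈ A.nonunits
    rw [ValuationSubring.mem_nonunits_iff]
    simp
  smul_mem' := by
    intro c b hb
    change ((c * b : Zbar) : Qbar) ∈ A.nonunits
    have hc : (c : Qbar) ∈ A := mem_valuationSubring_of_isIntegral A c.2
    have : ((c * b : Zbar) : Qbar) = (b : Qbar) * (c : Qbar) := by
      push_cast; ring
    rw [this]
    exact mul_mem_nonunits_of_mem A hb hc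

theorem mem_idealOf {A : ValuationSubring Qbar} {b : Zbar} :
    b ∈ idealOf A ↔ (b : Qbar) ∈ A.nonunits := Iff.rfl

theorem idealOf_ne_top (A : ValuationSubring Qbar) : idealOf A ≠ ⊤ := by
  intro h
  have h1 : (1 : Zbar) ∈ idealOf A := by rw [h]; trivial
  rw [mem_idealOf, ValuationSubring.mem_nonunits_iff] at h1
  simp at h1

instance idealOf_isPrime (A : ValuationSubring Qbar) : (idealOf A).IsPrime := by
  refine ⟨idealOf_ne_top A, ?_⟩
  intro a b hab
  rw [mem_idealOf, ValuationSubring.mem_nonunits_iff] at hab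
  have h : ((a * b : Zbar) : Qbar) = (a : Qbar) * (b : Qbar) := by push_cast; ring
  rw [h, map_mul] at hab
  by_contra hcon
  push Not at hcon
  obtain ⟨ha, hb⟩ := hcon
  rw [mem_idealOf, ValuationSubring.mem_nonunits_iff, not_lt] at ha hb
  have := one_le_mul_of_one_le_of_one_le ha hb
  exact absurd hab (not_lt.mpr this)


/-! ### Rational primes below a valuation subring -/

theorem natCast_mem (A : ValuationSubring Qbar) (n : ℕ) : (n : Qbar) ∈ A :=
  mem_valuationSubring_of_isIntegral A (isIntegral_natCast n)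

theorem exists_prime_of_natCast_mem_nonunits (A : ValuationSubring Qbar) :
    ∀ m : ℕ, (m : Qbar) ∈ A.nonunits → m ≠ 0 → ∃ ℓ : ℕ, ℓ.Prime ∧ A.LiesOverPrime ℓ := by
  intro m
  induction m using Nat.strong_induction_on with
  | _ m ih =>
    intro hm hm0
    have hm1 : m ≠ 1 := by
      rintro rfl
      rw [ValuationSubring.mem_nonunits_iff] at hm
      simp at hm
    set ℓ := m.minFac with hℓdef
    have hℓ : ℓ.Prime := Nat.minFac_prime hm1
    obtain ⟨k, hk⟩ := Nat.minFac_dvd m
    by_cases hℓA : (ℓ : Qbar) ∈ A.nonunits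
    · exact ⟨ℓ, hℓ, hℓA⟩
    · have hk0 : k ≠ 0 := by
        rintro rfl
        exact hm0 (by rw [hk]; simp)
      have hkm : k < m := by
        rw [hk]
        have : 1 < m.minFac := hℓ.one_lt
        nlinarith [Nat.pos_of_ne_zero hk0]
      have hkA : (k : Qbar) ∈ A.nonunits := by
        rw [ValuationSubring.mem_nonunits_iff] at hm hℓA ⊢
        rw [hk, Nat.cast_mul, map_mul] at hm
        have h1 : A.valuation (ℓ : Qbar) = 1 :=
          le_antisymm ((A.valuation_le_one_iff _).mpr (natCast_mem A ℓ)) (not_lt.mp hℓA)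
        rw [← hℓdef, h1, one_mul] at hm
        exact hm
      exact ih k hkm hkA hk0

/-- A nontrivial valuation subring of `Qbar` lies over a rational prime. -/
theorem exists_liesOverPrime {A : ValuationSubring Qbar} (hA : A ≠ ⊤) :
    ∃ ℓ : ℕ, ℓ.Prime ∧ A.LiesOverPrime ℓ := by
  by_contra hcon
  push Not at hcon
  apply hA
  rw [eq_top_iff]
  intro z _
  obtain ⟨y, hy, hyz⟩ := (isAlgebraic_int_Qbar z).exists_integral_multiple
  have hx : (y • z : Qbar) ∈ A := mem_valuationSubring_of_isIntegral A hyz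
  have hyA : ((y.natAbs : ℕ) : Qbar) ∉ A.nonunits := by
    intro h
    obtain ⟨ℓ, hℓ, hℓA⟩ := exists_prime_of_natCast_mem_nonunits A _ h
      (Int.natAbs_ne_zero.mpr hy)
    exact hcon ℓ hℓ hℓA
  obtain ⟨hne, hinv⟩ := inv_mem_of_not_mem_nonunits A hyA
  have hy' : ((y.natAbs : ℕ) : Qbar) = (y : Qbar) ∨ ((y.natAbs : ℕ) : Qbar) = -(y : Qbar) := by
    rcases Int.natAbs_eq y with h | h
    · left
      have : ((y.natAbs : ℤ) : Qbar) = (y : Qbar) := by rw [← h]
      simpa using this
    · right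
      have : ((y.natAbs : ℤ) : Qbar) = ((-y : ℤ) : Qbar) := by
        congr 1
        omega
      simpa using this
  have hyne : (y : Qbar) ≠ 0 := by exact_mod_cast hy
  have hz : z = (y : Qbar)⁻¹ * (y • z : Qbar) := by
    rw [zsmul_eq_mul]
    field_simp
  have hyinv : (y : Qbar)⁻¹ ∈ A := by
    rcases hy' with h | h
    · rwa [h] at hinv
    · rw [h] at hinv
      have : (y : Qbar)⁻¹ = -(-(y : Qbar))⁻¹ := by
        rw [inv_neg, neg_neg]
      rw [this]
      exact A.neg_mem _ hinv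
  rw [hz]
  exact A.mul_mem _ _ hyinv hx

theorem natCast_mem_idealOf {A : ValuationSubring Qbar} {ℓ : ℕ} (hA : A.LiesOverPrime ℓ) :
    ((ℓ : ℕ) : Zbar) ∈ idealOf A := by
  rw [mem_idealOf]
  have : (((ℓ : ℕ) : Zbar) : Qbar) = (ℓ : Qbar) := by simp
  rw [this]
  exact hA

theorem idealOf_isMaximal {A : ValuationSubring Qbar} {ℓ : ℕ} (hℓ : ℓ.Prime)
    (hA : A.LiesOverPrime ℓ) : (idealOf A).IsMaximal := by
  have hmax : (Ideal.span {(ℓ : ℤ)}).IsMaximal :=
    PrincipalIdealRing.isMaximal_of_irreducible (Nat.prime_iff_prime_int.mp hℓ).irreducible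
  have hle : Ideal.span {(ℓ : ℤ)} ≤ (idealOf A).comap (algebraMap ℤ Zbar) := by
    rw [Ideal.span_le]
    intro x hx
    rw [Set.mem_singleton_iff] at hx
    subst hx
    change algebraMap ℤ Zbar (ℓ : ℤ) ∈ idealOf A
    have h := natCast_mem_idealOf hA
    simpa using h
  have hne : (idealOf A).comap (algebraMap ℤ Zbar) ≠ ⊤ :=
    Ideal.comap_ne_top _ (idealOf_ne_top A)
  have heq := hmax.eq_of_le hne hle
  refine Ideal.isMaximal_of_isIntegral_of_isMaximal_comap (R := ℤ) (idealOf A) ?_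
  rw [← heq]
  exact hmax

theorem idealOf_liesOver {A : ValuationSubring Qbar} {ℓ : ℕ} (hℓ : ℓ.Prime)
    (hA : A.LiesOverPrime ℓ) : (idealOf A).comap (algebraMap ℤ Zbar) = Ideal.span {(ℓ : ℤ)} := by
  have hmax : (Ideal.span {(ℓ : ℤ)}).IsMaximal :=
    PrincipalIdealRing.isMaximal_of_irreducible (Nat.prime_iff_prime_int.mp hℓ).irreducible
  have hle : Ideal.span {(ℓ : ℤ)} ≤ (idealOf A).comap (algebraMap ℤ Zbar) := by
    rw [Ideal.span_le]
    intro x hx
    rw [Set.mem_singleton_iff] at hx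
    subst hx
    change algebraMap ℤ Zbar (ℓ : ℤ) ∈ idealOf A
    have h := natCast_mem_idealOf hA
    simpa using h
  have hne : (idealOf A).comap (algebraMap ℤ Zbar) ≠ ⊤ :=
    Ideal.comap_ne_top _ (idealOf_ne_top A)
  exact (hmax.eq_of_le hne hle).symm


/-! ### Decomposition groups -/

open scoped Pointwise

theorem mem_decomposition_iff {A : ValuationSubring Qbar} {σ : GQ} :
    σ ∈ A.decompositionSubgroup ℚ ↔ ∀ x : Qbar, σ x ∈ A ↔ x ∈ A := by
  rw [ValuationSubring.decompositionSubgroup, MulAction.mem_stabilizer_iff]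
  constructor
  · intro h x
    have h1 : ∀ y : Qbar, y ∈ A ↔ σ⁻¹ • y ∈ A := by
      intro y
      rw [← ValuationSubring.mem_pointwise_smul_iff_inv_smul_mem, h]
    have h2 := h1 (σ x)
    have h3 : σ⁻¹ • (σ x) = x := by
      change σ⁻¹ • (σ • x) = x
      rw [inv_smul_smul]
    rw [h3] at h2
    exact h2
  · intro h
    apply ValuationSubring.ext
    intro x
    rw [ValuationSubring.mem_pointwise_smul_iff_inv_smul_mem]
    have h2 := h (σ⁻¹ • x)
    have h3 : σ (σ⁻¹ • x) = x := by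
      change σ • (σ⁻¹ • x) = x
      rw [smul_inv_smul]
    rw [h3] at h2
    exact h2.symm

theorem apply_mem_nonunits_iff {A : ValuationSubring Qbar} {σ : GQ}
    (hσ : σ ∈ A.decompositionSubgroup ℚ) (x : Qbar) : σ x ∈ A.nonunits ↔ x ∈ A.nonunits := by
  rw [mem_decomposition_iff] at hσ
  rw [ValuationSubring.mem_nonunits_iff_or, ValuationSubring.mem_nonunits_iff_or, ← map_inv₀, hσ]
  simp

theorem smul_mem_idealOf_iff {A : ValuationSubring Qbar} {σ : GQ}
    (hσ : σ ∈ A.decompositionSubgroup ℚ) (b : Zbar) : σ • b ∈ idealOf A ↔ b ∈ idealOf A := by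
  rw [mem_idealOf, mem_idealOf, coe_smul_Zbar, apply_mem_nonunits_iff hσ]

theorem mem_decomposition_of_stabilizes {A : ValuationSubring Qbar} {ℓ : ℕ} (hℓ : ℓ.Prime)
    (hA : A.LiesOverPrime ℓ) (σ : GQ)
    (h : ∀ b : Zbar, σ • b ∈ idealOf A ↔ b ∈ idealOf A) : σ ∈ A.decompositionSubgroup ℚ := by
  haveI := idealOf_isMaximal hℓ hA
  have hinv : ∀ b : Zbar, σ⁻¹ • b ∈ idealOf A ↔ b ∈ idealOf A := by
    intro b
    have := h (σ⁻¹ • b)
    rw [smul_inv_smul] at this
    exact this.symm
  rw [mem_decomposition_iff]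
  intro x
  constructor
  · intro hx
    have := map_mem_of_stabilizer A (idealOf A) hℓ hA (fun q hq => hq) σ⁻¹ hinv hx
    have h2 : σ⁻¹ (σ x) = x := by
      change σ⁻¹ • (σ • x) = x
      rw [inv_smul_smul]
    rwa [h2] at this
  · intro hx
    exact map_mem_of_stabilizer A (idealOf A) hℓ hA (fun q hq => hq) σ h hx

/-! ### Inertia groups -/

theorem mem_inertiaSubgroupIn_iff {A : ValuationSubring Qbar} {σ : GQ} :
    σ ∈ A.inertiaSubgroupIn ℚ ↔
      σ ∈ A.decompositionSubgroup ℚ ∧ ∀ x ∈ A, σ x - x ∈ A.nonunits := by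
  constructor
  · rintro ⟨τ, hτ, rfl⟩
    refine ⟨τ.2, fun x hx => ?_⟩
    have hker : MulSemiringAction.toRingAut (A.decompositionSubgroup ℚ)
        (IsLocalRing.ResidueField A) τ = 1 := hτ
    have h1 : τ • (IsLocalRing.residue A ⟨x, hx⟩) = IsLocalRing.residue A ⟨x, hx⟩ := by
      have := congrArg (fun f : RingAut (IsLocalRing.ResidueField A) =>
        f (IsLocalRing.residue A ⟨x, hx⟩)) hker
      simpa using this
    rw [← IsLocalRing.ResidueField.residue_smul] at h1
    have h2 : IsLocalRing.residue A (τ • (⟨x, hx⟩ : A) - ⟨x, hx⟩) = 0 := by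
      rw [map_sub, h1, sub_self]
    rw [IsLocalRing.residue_eq_zero_iff] at h2
    exact (ValuationSubring.coe_mem_nonunits_iff (A := A)).2 h2
  · rintro ⟨hσ, h⟩
    refine ⟨⟨σ, hσ⟩, ?_, rfl⟩
    change MulSemiringAction.toRingAut (A.decompositionSubgroup ℚ)
        (IsLocalRing.ResidueField A) ⟨σ, hσ⟩ = 1
    ext r
    obtain ⟨a, rfl⟩ := IsLocalRing.residue_surjective r
    change (⟨σ, hσ⟩ : A.decompositionSubgroup ℚ) • IsLocalRing.residue A a
      = IsLocalRing.residue A a
    rw [← IsLocalRing.ResidueField.residue_smul, ← sub_eq_zero, ← map_sub,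
      IsLocalRing.residue_eq_zero_iff, ← ValuationSubring.coe_mem_nonunits_iff]
    exact h a a.2

theorem smul_sub_mem_idealOf_of_mem_inertia {A : ValuationSubring Qbar} {σ : GQ}
    (hσ : σ ∈ A.inertiaSubgroupIn ℚ) (b : Zbar) : σ • b - b ∈ idealOf A := by
  rw [mem_inertiaSubgroupIn_iff] at hσ
  rw [mem_idealOf]
  exact hσ.2 b (mem_valuationSubring_of_isIntegral A b.2)

/-- Integral criterion for membership in the inertia group. -/
theorem mem_inertiaSubgroupIn_of_idealOf {A : ValuationSubring Qbar} {ℓ : ℕ} (hℓ : ℓ.Prime)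
    (hA : A.LiesOverPrime ℓ) (σ : GQ)
    (h1 : ∀ b : Zbar, σ • b ∈ idealOf A ↔ b ∈ idealOf A)
    (h2 : ∀ b : Zbar, σ • b - b ∈ idealOf A) : σ ∈ A.inertiaSubgroupIn ℚ := by
  have hσ := mem_decomposition_of_stabilizes hℓ hA σ h1
  rw [mem_inertiaSubgroupIn_iff]
  refine ⟨hσ, fun x hx => ?_⟩
  obtain ⟨s, hs_int, hs_nu, hsx_int⟩ :=
    exists_integral_mul A hℓ hA hx (isAlgebraic_int_Qbar x)
  let s' : Zbar := ⟨s, hs_int⟩
  let b' : Zbar := ⟨s * x, hsx_int⟩
  have hσx : σ x ∈ A := (mem_decomposition_iff.mp hσ x).mpr hx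
  have e1 : σ s - s ∈ A.nonunits := h2 s'
  have e2 : σ (s * x) - s * x ∈ A.nonunits := h2 b'
  obtain ⟨hne, hinv⟩ := inv_mem_of_not_mem_nonunits A hs_nu
  have h4 : s * (σ x - x) = (σ (s * x) - s * x) - (σ s - s) * σ x := by
    rw [map_mul]; ring
  have h5 : s * (σ x - x) ∈ A.nonunits := by
    rw [h4]
    exact A.nonunits.sub_mem e2 (mul_mem_nonunits_of_mem A e1 hσx)
  have h6 : σ x - x = (s * (σ x - x)) * s⁻¹ := by
    field_simp
  rw [h6]
  exact mul_mem_nonunits_of_mem A h5 hinv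

/-! ### From maximal ideals of `Zbar` to valuation subrings -/

theorem exists_valuationSubring_of_isMaximal (Q : Ideal Zbar) [hQ : Q.IsMaximal] :
    ∃ A : ValuationSubring Qbar, idealOf A = Q := by
  obtain ⟨V, -, hQV'⟩ :=
    Ideal.image_subset_nonunits_valuationSubring (A := Zbar.toSubring) Q hQ.ne_top
  refine ⟨V, ?_⟩
  have hle : Q ≤ idealOf V := fun q hq => hQV' ⟨q, hq, rfl⟩
  exact (hQ.eq_of_le (idealOf_ne_top V) hle).symm

end Fermat.Agent.S14.H54
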