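import Mathlib
import Fermat.Prelude.Def_FLTPrelim_Ramification
import Fermat.Agent.S54.FrobExists
import Fermat.Agent.S14.Common

/-!
# S14 / HEDGE-WP1b (helper37): ramification bridge

From the prelude's inertia groups (valuation subrings of `AlgebraicClosure ℚ`) to ramification
indices in an extension of number fields.
-/

set_option autoImplicit false
set_option linter.style.haveILetI false

noncomputable section

namespace Fermat.Agent.S14.H37

open NumberField Fermat.Agent.S54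
open scoped Pointwise

section Setup

variable {L : Type*} [Field L] [NumberField L] (ι : L →ₐ[ℚ] AlgebraicClosure ℚ)

/-- `Γ = Gal(Qbar / ι L)` as a subgroup of `G_ℚ`. -/
def fixer : Subgroup GQ := ι.fieldRange.fixingSubgroup

theorem mem_fixer_iff (σ : GQ) : σ ∈ fixer ι ↔ ∀ y : L, σ (ι y) = ι y := by
  rw [fixer, IntermediateField.mem_fixingSubgroup_iff]
  constructor
  · intro h y
    exact h (ι y) ⟨y, rfl⟩
  · rintro h _ ⟨y, rfl⟩
    exact h y

/-- the map `𝓞 L → Zbar` induced by `ι`. -/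
def intMap : 𝓞 L →+* Zbar where
  toFun x := ⟨ι (x : L), (map_isIntegral_int ι.toRingHom (RingOfIntegers.isIntegral_coe x))⟩
  map_one' := by ext; simp
  map_mul' x y := by ext; simp
  map_zero' := by ext; simp
  map_add' x y := by ext; simp

attribute [local instance] isAlgebraic_Qbar isAlgClosure_Qbar isGalois_Qbar

theorem fixer_isClosed : IsClosed (fixer ι : Set GQ) :=
  InfiniteGalois.fixingSubgroup_isClosed _

instance fixer_compactSpace : CompactSpace (fixer ι) :=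
  isCompact_iff_compactSpace.mp (fixer_isClosed ι).isCompact

theorem intMap_coe (x : 𝓞 L) : ((intMap ι x : Zbar) : AlgebraicClosure ℚ) = ι (x : L) := rfl

theorem smul_intMap (σ : fixer ι) (x : 𝓞 L) : σ • intMap ι x = intMap ι x := by
  apply Subtype.ext
  exact (mem_fixer_iff ι σ.1).mp σ.2 (x : L)

/-- `Zbar` as an algebra over `𝓞 L` (through `ι`). -/
@[reducible] def algebraInt : Algebra (𝓞 L) Zbar := (intMap ι).toAlgebra

theorem smulCommClass_fixer :
    letI := algebraInt ι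
    SMulCommClass (fixer ι) (𝓞 L) Zbar := by
  letI := algebraInt ι
  refine ⟨fun σ a b => ?_⟩
  show σ • (intMap ι a * b) = intMap ι a * σ • b
  rw [smul_mul', smul_intMap]

theorem isInvariant_fixer :
    letI := algebraInt ι
    Algebra.IsInvariant (𝓞 L) Zbar (fixer ι) := by
  letI := algebraInt ι
  refine ⟨fun b hb => ?_⟩
  have h1 : (b : AlgebraicClosure ℚ) ∈ IntermediateField.fixedField (fixer ι) := by
    rw [IntermediateField.mem_fixedField_iff]
    intro σ hσ
    exact congrArg Subtype.val (hb ⟨σ, hσ⟩)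
  rw [fixer, InfiniteGalois.fixedField_fixingSubgroup] at h1
  obtain ⟨y, hy⟩ := h1
  have hyint : IsIntegral ℤ y := by
    have h3 : IsIntegral ℤ (ι y) := by
      have : ι y = (b : AlgebraicClosure ℚ) := hy
      rw [this]; exact b.2
    exact (isIntegral_algHom_iff (ι.restrictScalars ℤ) ι.injective).mp h3
  refine ⟨⟨y, hyint⟩, ?_⟩
  apply Subtype.ext
  exact hy

/-- Every `ℚ`-automorphism of `L` extends to `AlgebraicClosure ℚ` (along `ι`). -/
theorem exists_lift (g : L ≃ₐ[ℚ] L) : ∃ σ : GQ, ∀ y : L, σ (ι y) = ι (g y) := by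
  letI : Algebra L (AlgebraicClosure ℚ) := ι.toRingHom.toAlgebra
  haveI : IsScalarTower ℚ L (AlgebraicClosure ℚ) :=
    IsScalarTower.of_algebraMap_eq fun q => (ι.commutes q).symm
  refine ⟨g.liftNormal (AlgebraicClosure ℚ), fun y => ?_⟩
  exact g.liftNormal_commutes (AlgebraicClosure ℚ) y

theorem continuousSMul_fixer [TopologicalSpace Zbar] [DiscreteTopology Zbar] :
    ContinuousSMul (fixer ι) Zbar := by
  haveI := continuousSMul_Zbar
  infer_instance

theorem exists_algEquiv_of_ringEquiv {A B : Type*} [CommRing A] [CommRing B] [Algebra A B]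
    (P : Ideal A) (Q : Ideal B) [Q.LiesOver P] (e : B ≃+* B) (hQ : Q = Q.map e)
    (he : ∀ a : A, e (algebraMap A B a) - algebraMap A B a ∈ Q) :
    ∃ φ : (B ⧸ Q) ≃ₐ[A ⧸ P] (B ⧸ Q),
      ∀ b : B, φ (Ideal.Quotient.mk Q b) = Ideal.Quotient.mk Q (e b) := by
  refine ⟨AlgEquiv.ofRingEquiv (f := Ideal.quotientEquiv Q Q e hQ) ?_, fun b => rfl⟩
  intro x
  obtain ⟨a, rfl⟩ := Ideal.Quotient.mk_surjective x
  show Ideal.Quotient.mk Q (e (algebraMap A B a)) = Ideal.Quotient.mk Q (algebraMap A B a)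
  rw [Ideal.Quotient.eq]
  exact he a

/-- **Inertia lifting**: an automorphism `g` of `L` acting trivially on `𝓞 L ⧸ P` extends to an
element of `G_ℚ` stabilising a given prime `Q` of `Zbar` above `P` and acting trivially on
`Zbar ⧸ Q`. -/
theorem exists_inertia_lift (P : Ideal (𝓞 L)) [P.IsPrime] (Q : Ideal Zbar) [hQ : Q.IsPrime]
    (hQP : ∀ x : 𝓞 L, intMap ι x ∈ Q ↔ x ∈ P)
    (g : L ≃ₐ[ℚ] L) (hg : ∀ x : 𝓞 L, g • x - x ∈ P) :
    ∃ σ : GQ, (∀ y : L, σ (ι y) = ι (g y)) ∧ σ • Q = Q ∧ ∀ b : Zbar, σ • b - b ∈ Q := by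
  classical
  letI := algebraInt ι
  haveI := smulCommClass_fixer ι
  haveI := isInvariant_fixer ι
  letI : TopologicalSpace Zbar := ⊥
  haveI : DiscreteTopology Zbar := ⟨rfl⟩
  haveI := continuousSMul_fixer ι
  have halg : ∀ x : 𝓞 L, algebraMap (𝓞 L) Zbar x = intMap ι x := fun _ => rfl
  haveI hlies : Q.LiesOver P := ⟨by
    ext x
    rw [Ideal.under_def, Ideal.mem_comap, halg]
    exact (hQP x).symm⟩
  obtain ⟨σ₀, hσ₀⟩ := exists_lift ι g
  have hσ₀int : ∀ x : 𝓞 L, σ₀ • intMap ι x = intMap ι (g • x) := by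
    intro x
    apply Subtype.ext
    exact hσ₀ x
  have hginv : ∀ x : 𝓞 L, g⁻¹ • x ∈ P ↔ x ∈ P := by
    intro x
    have h1 := hg (g⁻¹ • x)
    rw [smul_inv_smul] at h1
    constructor
    · intro h
      have := P.add_mem h1 h
      simpa using this
    · intro h
      have := P.sub_mem h h1
      simpa using this
  have hσ₀inv : ∀ x : 𝓞 L, σ₀⁻¹ • intMap ι x = intMap ι (g⁻¹ • x) := by
    intro x
    rw [inv_smul_eq_iff, hσ₀int, smul_inv_smul]
  have hunder : (σ₀ • Q).under (𝓞 L) = Q.under (𝓞 L) := by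
    ext x
    rw [Ideal.under_def, Ideal.under_def, Ideal.mem_comap, Ideal.mem_comap, halg,
      Ideal.mem_pointwise_smul_iff_inv_smul_mem, hσ₀inv, hQP, hQP, hginv]
  obtain ⟨τ, hτ⟩ := Algebra.IsInvariant.exists_smul_of_under_eq_of_profinite
    (A := 𝓞 L) (G := fixer ι) (σ₀ • Q) Q hunder
  -- `σ₁ = τ σ₀`
  set σ₁ : GQ := (τ : GQ) * σ₀ with hσ₁
  have hσ₁Q : σ₁ • Q = Q := by
    rw [hσ₁, mul_smul]
    exact hτ.symm
  have hσ₁L : ∀ y : L, σ₁ (ι y) = ι (g y) := by
    intro y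
    rw [hσ₁, AlgEquiv.mul_apply, hσ₀]
    exact (mem_fixer_iff ι τ.1).mp τ.2 (g y)
  have hσ₁int : ∀ x : 𝓞 L, σ₁ • intMap ι x = intMap ι (g • x) := by
    intro x
    apply Subtype.ext
    exact hσ₁L x
  -- the induced automorphism of the residue field
  obtain ⟨φ, hφ⟩ := exists_algEquiv_of_ringEquiv P Q
    (MulSemiringAction.toRingEquiv GQ Zbar σ₁)
    (by
      have : Q.map (MulSemiringAction.toRingEquiv GQ Zbar σ₁) = σ₁ • Q := rfl
      rw [this, hσ₁Q])
    (by
      intro a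
      rw [halg]
      show σ₁ • intMap ι a - intMap ι a ∈ Q
      rw [hσ₁int, ← map_sub, hQP]
      exact hg a)
  obtain ⟨⟨τ', hτ'Q⟩, hτ'⟩ :=
    Ideal.Quotient.stabilizerHom_surjective_of_profinite (G := fixer ι) P Q φ⁻¹
  refine ⟨(τ' : GQ) * σ₁, ?_, ?_, ?_⟩
  · intro y
    rw [AlgEquiv.mul_apply, hσ₁L]
    exact (mem_fixer_iff ι τ'.1).mp τ'.2 (g y)
  · rw [mul_smul, hσ₁Q]
    exact hτ'Q
  · intro b
    rw [← Ideal.Quotient.eq, mul_smul]
    have h1 := congrArg (fun f => f (Ideal.Quotient.mk Q (σ₁ • b))) hτ'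
    simp only [Ideal.Quotient.stabilizerHom_apply] at h1
    have h2 : φ⁻¹ (Ideal.Quotient.mk Q (σ₁ • b)) = Ideal.Quotient.mk Q b := by
      have h3 : φ (Ideal.Quotient.mk Q b) = Ideal.Quotient.mk Q (σ₁ • b) := hφ b
      rw [← h3]
      exact φ.symm_apply_apply _
    rw [h2] at h1
    exact h1

end Setup

section Transfer

theorem exists_prime_natCast_mem {R : Type*} [CommRing R] (P : Ideal R) [hP : P.IsPrime] :
    ∀ n : ℕ, 2 ≤ n → (n : R) ∈ P → ∃ ℓ : ℕ, ℓ.Prime ∧ (ℓ : R) ∈ P := by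
  intro n
  induction n using Nat.strong_induction_on with
  | _ n ih =>
    intro hn hmem
    have hn1 : n ≠ 1 := by omega
    have hmf : (Nat.minFac n).Prime := Nat.minFac_prime hn1
    have hdiv : n / Nat.minFac n * Nat.minFac n = n := Nat.div_mul_cancel (Nat.minFac_dvd n)
    have hcast : ((n / Nat.minFac n : ℕ) : R) * ((Nat.minFac n : ℕ) : R) = (n : R) := by
      rw [← Nat.cast_mul, hdiv]
    rw [← hcast] at hmem
    rcases hP.mem_or_mem hmem with h | h
    · have hlt : n / Nat.minFac n < n := Nat.div_lt_self (by omega) hmf.one_lt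
      have hpos : 0 < n / Nat.minFac n :=
        Nat.div_pos (Nat.minFac_le (by omega)) hmf.pos
      by_cases h2 : 2 ≤ n / Nat.minFac n
      · exact ih _ hlt h2 h
      · have h1 : n / Nat.minFac n = 1 := by omega
        rw [h1, Nat.cast_one] at h
        exact absurd ((Ideal.eq_top_iff_one P).mpr h) hP.ne_top
    · exact ⟨_, hmf, h⟩

variable (V : ValuationSubring (AlgebraicClosure ℚ)) (Q : Ideal Zbar)

/-- trivial action on `Zbar ⧸ Q` gives trivial action on the residue field of `V`. -/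
theorem triv_congr [hQ : Q.IsMaximal] {ℓ : ℕ} (hℓ : ℓ.Prime)
    (hℓV : ((ℓ : ℕ) : AlgebraicClosure ℚ) ∈ V.nonunits)
    (hQV : ∀ q ∈ Q, (q : AlgebraicClosure ℚ) ∈ V.nonunits) (σ : GQ)
    (hσ : ∀ b : Zbar, σ • b ∈ Q ↔ b ∈ Q) (htriv : ∀ b : Zbar, σ • b - b ∈ Q)
    {x : AlgebraicClosure ℚ} (hx : x ∈ V) : σ x - x ∈ V.nonunits := by
  obtain ⟨s, hs_int, hs_nu, hsx_int⟩ :=
    exists_integral_mul V hℓ hℓV hx (isAlgebraic_int_Qbar x)
  let s' : Zbar := ⟨s, hs_int⟩
  let b' : Zbar := ⟨s * x, hsx_int⟩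
  have hσx : σ x ∈ V := map_mem_of_stabilizer V Q hℓ hℓV hQV σ hσ hx
  have h1 : σ s - s ∈ V.nonunits := hQV _ (htriv s')
  have h2 : σ (s * x) - s * x ∈ V.nonunits := hQV _ (htriv b')
  obtain ⟨hne, hinv⟩ := inv_mem_of_not_mem_nonunits V hs_nu
  have h4 : s * (σ x - x) = (σ (s * x) - s * x) - (σ s - s) * σ x := by
    rw [map_mul]; ring
  have h5 : s * (σ x - x) ∈ V.nonunits := by
    rw [h4]
    exact V.nonunits.sub_mem h2 (mul_mem_nonunits_of_mem V h1 hσx)
  have h6 : σ x - x = (s * (σ x - x)) * s⁻¹ := by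
    field_simp
  rw [h6]
  exact mul_mem_nonunits_of_mem V h5 hinv

/-- An element of `G_ℚ` stabilising `Q` and acting trivially on `Zbar ⧸ Q` lies in the
inertia group of any valuation subring centred on `Q`. -/
theorem mem_inertiaSubgroupIn [hQ : Q.IsMaximal] {ℓ : ℕ} (hℓ : ℓ.Prime)
    (hℓV : ((ℓ : ℕ) : AlgebraicClosure ℚ) ∈ V.nonunits)
    (hQV : ∀ q ∈ Q, (q : AlgebraicClosure ℚ) ∈ V.nonunits) (σ : GQ)
    (hσQ : σ • Q = Q) (htriv : ∀ b : Zbar, σ • b - b ∈ Q) :
    σ ∈ V.inertiaSubgroupIn ℚ := by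
  have hσ : ∀ b : Zbar, σ • b ∈ Q ↔ b ∈ Q := by
    intro b
    constructor
    · intro h
      rw [← hσQ] at h
      exact (Ideal.smul_mem_pointwise_smul_iff).mp h
    · intro h
      rw [← hσQ]
      exact (Ideal.smul_mem_pointwise_smul_iff).mpr h
  have hσinv : ∀ b : Zbar, σ⁻¹ • b ∈ Q ↔ b ∈ Q := by
    intro b
    have := hσ (σ⁻¹ • b)
    rw [smul_inv_smul] at this
    exact this.symm
  have hσV : σ ∈ V.decompositionSubgroup ℚ := by
    rw [MulAction.mem_stabilizer_iff]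
    apply ValuationSubring.ext
    intro x
    rw [ValuationSubring.mem_pointwise_smul_iff_inv_smul_mem]
    constructor
    · intro h
      have := map_mem_of_stabilizer V Q hℓ hℓV hQV σ hσ h
      have h2 : σ (σ⁻¹ • x) = x := by
        change σ • (σ⁻¹ • x) = x
        rw [smul_inv_smul]
      rwa [h2] at this
    · intro h
      exact map_mem_of_stabilizer V Q hℓ hℓV hQV σ⁻¹ hσinv h
  rw [ValuationSubring.inertiaSubgroupIn, Subgroup.mem_map]
  refine ⟨⟨σ, hσV⟩, ?_, rfl⟩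
  rw [ValuationSubring.inertiaSubgroup, MonoidHom.mem_ker]
  ext x
  obtain ⟨a, rfl⟩ := IsLocalRing.residue_surjective x
  show (⟨σ, hσV⟩ : V.decompositionSubgroup ℚ) • (IsLocalRing.residue V a) = IsLocalRing.residue V a
  rw [← IsLocalRing.ResidueField.residue_smul, ← sub_eq_zero, ← map_sub,
    IsLocalRing.residue_eq_zero_iff, ← ValuationSubring.coe_mem_nonunits_iff]
  exact triv_congr V Q hℓ hℓV hQV σ hσ htriv a.2

end Transfer



section Main

variable {K L : Type*} [Field K] [NumberField K] [Field L] [NumberField L] [Algebra K L]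
  (ι : L →ₐ[ℚ] AlgebraicClosure ℚ)

/-- The hypothesis delivered by the Galois side: every element of an inertia group of `G_ℚ`
(at any valuation subring of `AlgebraicClosure ℚ`) that fixes `K` also fixes `L`. -/
def InertiaHyp : Prop :=
  ∀ ℓ : ℕ, ℓ.Prime → ∀ A : ValuationSubring (AlgebraicClosure ℚ), A.LiesOverPrime ℓ →
    ∀ σ ∈ A.inertiaSubgroupIn ℚ,
      (∀ x : K, σ (ι (algebraMap K L x)) = ι (algebraMap K L x)) → ∀ y : L, σ (ι y) = ι y

omit [NumberField K] in
/-- The stronger-looking hypothesis quantifying over all valuation subrings implies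
`InertiaHyp`. -/
theorem inertiaHyp_of_forall
    (h : ∀ A : ValuationSubring (AlgebraicClosure ℚ), ∀ σ ∈ A.inertiaSubgroupIn ℚ,
      (∀ x : K, σ (ι (algebraMap K L x)) = ι (algebraMap K L x)) → ∀ y : L, σ (ι y) = ι y) :
    InertiaHyp (K := K) ι :=
  fun _ _ A _ σ hσ hK => h A σ hσ hK

variable {ι}

/-- Under `InertiaHyp`, an automorphism of `L/K` acting trivially on `𝓞 L ⧸ P` is trivial. -/
theorem eq_one_of_mem_inertia (h : InertiaHyp (K := K) ι) (P : Ideal (𝓞 L)) [hP : P.IsPrime]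
    (hP0 : P ≠ ⊥) (g : L ≃ₐ[K] L) (hg : ∀ x : 𝓞 L, g • x - x ∈ P) : g = 1 := by
  classical
  letI := algebraInt ι
  haveI hPmax : P.IsMaximal := hP.isMaximal hP0
  haveI : Algebra.IsIntegral (𝓞 L) Zbar :=
    ⟨fun b => (integralClosure.isIntegral b : IsIntegral ℤ b).tower_top⟩
  haveI : FaithfulSMul (𝓞 L) Zbar := by
    rw [faithfulSMul_iff_algebraMap_injective]
    intro x y hxy
    have h1 : ι (x : L) = ι (y : L) := congrArg Subtype.val hxy
    exact RingOfIntegers.ext (ι.injective h1)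
  obtain ⟨Q, hQmax, hQover⟩ := Ideal.exists_maximal_ideal_liesOver_of_isIntegral (S := Zbar) P
  have hQP : ∀ x : 𝓞 L, intMap ι x ∈ Q ↔ x ∈ P := by
    intro x
    have := hQover.over
    rw [this, Ideal.under_def, Ideal.mem_comap]
    rfl
  -- a rational prime in `P`
  have hn2 : 2 ≤ Ideal.absNorm P := by
    have h0 : Ideal.absNorm P ≠ 0 := by
      rw [Ne, Ideal.absNorm_eq_zero_iff]; exact hP0
    have h1 : Ideal.absNorm P ≠ 1 := by
      rw [Ne, Ideal.absNorm_eq_one_iff]; exact hP.ne_top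
    omega
  obtain ⟨ℓ, hℓ, hℓP⟩ := exists_prime_natCast_mem P _ hn2 (Ideal.absNorm_mem P)
  obtain ⟨V, -, hQV'⟩ :=
    Ideal.image_subset_nonunits_valuationSubring (A := Zbar.toSubring) Q hQmax.ne_top
  have hQV : ∀ q ∈ Q, (q : AlgebraicClosure ℚ) ∈ V.nonunits := fun q hq => hQV' ⟨q, hq, rfl⟩
  have hℓV : ((ℓ : ℕ) : AlgebraicClosure ℚ) ∈ V.nonunits := by
    have h1 : intMap ι ((ℓ : ℕ) : 𝓞 L) ∈ Q := (hQP _).mpr hℓP
    have h2 := hQV _ h1
    simpa [intMap_coe] using h2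
  -- lift `g`
  have hg' : ∀ x : 𝓞 L, (g.restrictScalars ℚ) • x - x ∈ P := hg
  obtain ⟨σ, hσL, hσQ, hσtriv⟩ := exists_inertia_lift ι P Q hQP (g.restrictScalars ℚ) hg'
  have hσI : σ ∈ V.inertiaSubgroupIn ℚ := mem_inertiaSubgroupIn V Q hℓ hℓV hQV σ hσQ hσtriv
  have hfix := h ℓ hℓ V hℓV σ hσI (by
    intro x
    rw [hσL]
    congr 1
    exact g.commutes x)
  ext y
  apply ι.injective
  show ι (g y) = ι y
  have h1 : ι (g y) = σ (ι y) := (hσL y).symm
  rw [h1]
  exact hfix y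

/-- Under `InertiaHyp`, all inertia groups of `L/K` are trivial. -/
theorem inertia_eq_bot_of_inertiaHyp (h : InertiaHyp (K := K) ι) (P : Ideal (𝓞 L)) [P.IsPrime]
    (hP0 : P ≠ ⊥) : P.inertia Gal(L/K) = ⊥ := by
  rw [eq_bot_iff]
  intro g hg
  rw [Subgroup.mem_bot]
  exact eq_one_of_mem_inertia h P hP0 g hg

/-- Under `InertiaHyp`, a Galois extension `L/K` is unramified at every nonzero prime. -/
theorem ramificationIdx_eq_one_of_inertiaHyp [IsGalois K L] (h : InertiaHyp (K := K) ι)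
    (P : Ideal (𝓞 L)) [P.IsPrime] (hP0 : P ≠ ⊥) : P.ramificationIdx (𝓞 K) = 1 := by
  have h1 : Nat.card (P.inertia Gal(L/K)) = (P.under (𝓞 K)).ramificationIdxIn (𝓞 L) :=
    Ideal.card_inertia_eq_ramificationIdxIn (G := Gal(L/K)) (P.under (𝓞 K)) P
  rw [Ideal.ramificationIdxIn_eq_ramificationIdx (P.under (𝓞 K)) P Gal(L/K),
    inertia_eq_bot_of_inertiaHyp h P hP0] at h1
  simpa using h1.symm

/-- Same, in the `Algebra.IsUnramifiedAt` form. -/
theorem isUnramifiedAt_of_inertiaHyp [IsGalois K L] (h : InertiaHyp (K := K) ι)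
    (P : Ideal (𝓞 L)) [P.IsPrime] (hP0 : P ≠ ⊥) : Algebra.IsUnramifiedAt (𝓞 K) P :=
  Ideal.ramificationIdx_eq_one_iff.mp (ramificationIdx_eq_one_of_inertiaHyp h P hP0)

/-- Same, in the shape of `Fermat.Agent.S14.IsUnramifiedEverywhere` (`Common.lean`). -/
theorem isUnramifiedEverywhere_of_inertiaHyp [IsGalois K L] (h : InertiaHyp (K := K) ι) :
    IsUnramifiedEverywhere K L :=
  fun P hP hP0 => by
    haveI := hP
    exact ramificationIdx_eq_one_of_inertiaHyp h P hP0

end Main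

section IntermediateFieldForm

variable (L : IntermediateField ℚ (AlgebraicClosure ℚ)) [NumberField ↥L]
  {K : Type*} [Field K] [NumberField K] [Algebra K ↥L]

/-- the inclusion of an intermediate field, as a `ℚ`-algebra map for the instance
`Algebra ℚ ↥L` found by type class search. -/
def incl : ↥L →ₐ[ℚ] AlgebraicClosure ℚ := L.val

omit [NumberField ↥L] in
theorem incl_apply (y : ↥L) : incl L y = (y : AlgebraicClosure ℚ) := rfl

/-- **(B1), weak hypothesis**: only valuation subrings lying over a rational prime are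
quantified over. -/
theorem ramificationIdx_eq_one_of_liesOverPrime [IsGalois K ↥L]
    (h : ∀ ℓ : ℕ, ℓ.Prime → ∀ A : ValuationSubring (AlgebraicClosure ℚ), A.LiesOverPrime ℓ →
      ∀ σ ∈ A.inertiaSubgroupIn ℚ,
        (∀ k : K, σ ((algebraMap K ↥L k : ↥L) : AlgebraicClosure ℚ)
          = ((algebraMap K ↥L k : ↥L) : AlgebraicClosure ℚ)) → ∀ x ∈ L, σ x = x)
    (P : Ideal (𝓞 ↥L)) [P.IsPrime] (hP : P ≠ ⊥) : P.ramificationIdx (𝓞 K) = 1 := by
  refine ramificationIdx_eq_one_of_inertiaHyp (ι := incl L) ?_ P hP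
  intro ℓ hℓ A hA σ hσ hK y
  exact h ℓ hℓ A hA σ hσ hK (y : AlgebraicClosure ℚ) y.2

/-- **(B1)** in the shape of board post #561 (all valuation subrings quantified over). -/
theorem ramificationIdx_eq_one [IsGalois K ↥L]
    (h : ∀ A : ValuationSubring (AlgebraicClosure ℚ), ∀ σ ∈ A.inertiaSubgroupIn ℚ,
      (∀ k : K, σ ((algebraMap K ↥L k : ↥L) : AlgebraicClosure ℚ)
        = ((algebraMap K ↥L k : ↥L) : AlgebraicClosure ℚ)) → ∀ x ∈ L, σ x = x)
    (P : Ideal (𝓞 ↥L)) [P.IsPrime] (hP : P ≠ ⊥) : P.ramificationIdx (𝓞 K) = 1 :=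
  ramificationIdx_eq_one_of_liesOverPrime L (fun _ _ A _ σ hσ hK => h A σ hσ hK) P hP

/-- **(B1)**, `IsUnramifiedEverywhere` form, weak hypothesis. -/
theorem isUnramifiedEverywhere_of_liesOverPrime [IsGalois K ↥L]
    (h : ∀ ℓ : ℕ, ℓ.Prime → ∀ A : ValuationSubring (AlgebraicClosure ℚ), A.LiesOverPrime ℓ →
      ∀ σ ∈ A.inertiaSubgroupIn ℚ,
        (∀ k : K, σ ((algebraMap K ↥L k : ↥L) : AlgebraicClosure ℚ)
          = ((algebraMap K ↥L k : ↥L) : AlgebraicClosure ℚ)) → ∀ x ∈ L, σ x = x) :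
    IsUnramifiedEverywhere K ↥L :=
  fun P hP hP0 => by
    haveI := hP
    exact ramificationIdx_eq_one_of_liesOverPrime L h P hP0

end IntermediateFieldForm

section Small

/-- Inertia is contained in decomposition. -/
theorem inertiaSubgroupIn_le_decompositionSubgroup
    (A : ValuationSubring (AlgebraicClosure ℚ)) :
    A.inertiaSubgroupIn ℚ ≤ A.decompositionSubgroup ℚ := by
  intro σ hσ
  rw [ValuationSubring.inertiaSubgroupIn, Subgroup.mem_map] at hσ
  obtain ⟨τ, -, rfl⟩ := hσ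
  exact τ.2

/-- The trivial valuation subring has trivial inertia. -/
theorem inertiaSubgroupIn_top :
    (⊤ : ValuationSubring (AlgebraicClosure ℚ)).inertiaSubgroupIn ℚ = ⊥ := by
  rw [eq_bot_iff]
  intro σ hσ
  rw [Subgroup.mem_bot]
  rw [ValuationSubring.inertiaSubgroupIn, Subgroup.mem_map] at hσ
  obtain ⟨τ, hτ, rfl⟩ := hσ
  rw [ValuationSubring.inertiaSubgroup, MonoidHom.mem_ker] at hτ
  ext x
  have hx : x ∈ (⊤ : ValuationSubring (AlgebraicClosure ℚ)) := trivial
  have h1 : τ • (IsLocalRing.residue (⊤ : ValuationSubring (AlgebraicClosure ℚ)) ⟨x, hx⟩)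
      = IsLocalRing.residue _ ⟨x, hx⟩ := by
    have := congrArg (fun e => e (IsLocalRing.residue _ ⟨x, hx⟩)) hτ
    exact this
  rw [← IsLocalRing.ResidueField.residue_smul, ← sub_eq_zero, ← map_sub,
    IsLocalRing.residue_eq_zero_iff, ← ValuationSubring.coe_mem_nonunits_iff,
    ValuationSubring.mem_nonunits_iff_or] at h1
  rcases h1 with h1 | h1
  · have h2 : (τ : GQ) x - x = 0 := h1
    exact sub_eq_zero.mp h2
  · exact absurd trivial h1

/-- A nontrivial valuation subring of `AlgebraicClosure ℚ` lies over a rational prime. -/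
theorem exists_liesOverPrime (A : ValuationSubring (AlgebraicClosure ℚ)) (hA : A ≠ ⊤) :
    ∃ ℓ : ℕ, ℓ.Prime ∧ A.LiesOverPrime ℓ := by
  by_contra hcon
  push Not at hcon
  apply hA
  have hprime : ∀ ℓ : ℕ, ℓ.Prime → ((ℓ : ℕ) : AlgebraicClosure ℚ)⁻¹ ∈ A := by
    intro ℓ hℓ
    have h1 : ((ℓ : ℕ) : AlgebraicClosure ℚ) ∉ A.nonunits := hcon ℓ hℓ
    rw [ValuationSubring.mem_nonunits_iff_or, not_or, not_not] at h1
    exact h1.2
  have hnat : ∀ n : ℕ, n ≠ 0 → ((n : ℕ) : AlgebraicClosure ℚ)⁻¹ ∈ A := by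
    intro n
    induction n using Nat.recOnMul with
    | zero => intro h; exact absurd rfl h
    | one => intro _; simp
    | prime p hp => intro _; exact hprime p hp
    | mul a b iha ihb =>
      intro hab
      have ha : a ≠ 0 := fun h => hab (by rw [h, zero_mul])
      have hb : b ≠ 0 := fun h => hab (by rw [h, mul_zero])
      rw [Nat.cast_mul, mul_inv]
      exact A.mul_mem _ _ (iha ha) (ihb hb)
  have hint : ∀ y : ℤ, y ≠ 0 → ((y : ℤ) : AlgebraicClosure ℚ)⁻¹ ∈ A := by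
    intro y hy
    have hn : y.natAbs ≠ 0 := Int.natAbs_ne_zero.mpr hy
    rcases Int.natAbs_eq y with h | h
    · rw [h]
      simpa using hnat _ hn
    · rw [h]
      have := A.neg_mem _ (hnat _ hn)
      simpa [inv_neg] using this
  rw [eq_top_iff]
  intro x _
  obtain ⟨y, hy, hxy⟩ := (isAlgebraic_int_Qbar x).exists_integral_multiple
  have h1 : y • x ∈ A := mem_valuationSubring_of_isIntegral A hxy
  have h2 := A.mul_mem _ _ (hint y hy) h1
  have hy' : ((y : ℤ) : AlgebraicClosure ℚ) ≠ 0 := by exact_mod_cast hy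
  have h3 : ((y : ℤ) : AlgebraicClosure ℚ)⁻¹ * (y • x) = x := by
    rw [zsmul_eq_mul, ← mul_assoc, inv_mul_cancel₀ hy', one_mul]
  rwa [h3] at h2

end Small

end Fermat.Agent.S14.H37
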