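import Mathlib
import Fermat.Agent.S14.H72_LogZeta

set_option autoImplicit false

/-!
# Primes of a relative extension `F/E` of number fields: fibres, norms, ramification
-/

namespace Fermat.Agent.S14.H72

open NumberField Ideal Filter Topology IsDedekindDomain
open scoped ENNReal

section generic

variable {α β : Type*}

/-- If the fibres of `π : α → β` have at most `d` elements and `g a ≤ h (π a)`, then
`∑ g ≤ d * ∑ h` (in `ℝ≥0∞`). -/
lemma tsum_le_mul_tsum_of_fiber (π : α → β) (d : ℕ)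
    (hfib : ∀ b, (π ⁻¹' {b}).encard ≤ d) (g : α → ℝ≥0∞) (h : β → ℝ≥0∞)
    (hgh : ∀ a, g a ≤ h (π a)) :
    ∑' a, g a ≤ d * ∑' b, h b := by
  rw [← (Equiv.sigmaFiberEquiv π).tsum_eq, ENNReal.tsum_sigma', ← ENNReal.tsum_mul_left]
  refine ENNReal.tsum_le_tsum fun b => ?_
  calc ∑' a : {a // π a = b}, g (Equiv.sigmaFiberEquiv π ⟨b, a⟩)
      ≤ ∑' _a : {a // π a = b}, h b := by
        refine ENNReal.tsum_le_tsum fun a => ?_
        have := hgh a.1
        rwa [a.2] at this
    _ = (ENat.card {a // π a = b} : ℝ≥0∞) * h b := ENNReal.tsum_const _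
    _ ≤ d * h b := by
        gcongr
        have h1 : ENat.card {a // π a = b} = (π ⁻¹' {b}).encard := by
          rw [Set.encard, ENat.card_congr]
          exact Equiv.subtypeEquivRight fun a => by simp
        rw [h1]
        exact_mod_cast hfib b

end generic

variable (E F : Type*) [Field E] [Field F] [NumberField E] [NumberField F] [Algebra E F]

/-- The prime of `E` below a prime of `F`. -/
noncomputable def underMap (P : HeightOneSpectrum (𝓞 F)) : HeightOneSpectrum (𝓞 E) :=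
  P.under (𝓞 E)

omit [NumberField E] [NumberField F] in
lemma underMap_asIdeal (P : HeightOneSpectrum (𝓞 F)) :
    (underMap E F P).asIdeal = P.asIdeal.under (𝓞 E) := rfl

instance liesOver_underMap (P : HeightOneSpectrum (𝓞 F)) :
    P.asIdeal.LiesOver (underMap E F P).asIdeal := ⟨rfl⟩

lemma finrank_ringOfIntegers : Module.finrank (𝓞 E) (𝓞 F) = Module.finrank E F :=
  (IsFractionRing.finrank_eq (𝓞 E) E (𝓞 F) F).symm

/-- The fibre of `underMap` over `Q` is the set of primes over `Q`. -/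
noncomputable def fiberEquiv (Q : HeightOneSpectrum (𝓞 E)) :
    {P : HeightOneSpectrum (𝓞 F) // underMap E F P = Q} ≃ Q.asIdeal.primesOver (𝓞 F) where
  toFun P := ⟨P.1.asIdeal, P.1.isPrime, ⟨(congrArg HeightOneSpectrum.asIdeal P.2).symm⟩⟩
  invFun I :=
    haveI : I.1.IsPrime := I.2.1
    haveI : I.1.LiesOver Q.asIdeal := I.2.2
    ⟨⟨I.1, I.2.1, Ideal.ne_bot_of_liesOver_of_ne_bot Q.ne_bot I.1⟩,
      HeightOneSpectrum.ext (I.2.2.over).symm⟩
  left_inv _ := rfl
  right_inv _ := rfl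

instance (Q : HeightOneSpectrum (𝓞 E)) : Q.asIdeal.IsMaximal := Q.isMaximal

lemma card_primesOver_le (Q : HeightOneSpectrum (𝓞 E)) :
    Fintype.card (Q.asIdeal.primesOver (𝓞 F)) ≤ Module.finrank E F := by
  have h := Ideal.sum_ramification_inertia_eq_finrank Q.asIdeal (𝓞 F)
  rw [finrank_ringOfIntegers] at h
  rw [← h, Fintype.card, Finset.card_eq_sum_ones]
  refine Finset.sum_le_sum fun q _ => ?_
  have : q.1.IsPrime := q.2.1
  exact Nat.one_le_iff_ne_zero.mpr (Nat.mul_ne_zero (Ideal.ramificationIdx_pos q.1 (𝓞 E)).ne'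
    (Ideal.inertiaDeg_pos q.1 (𝓞 E)).ne')

lemma encard_fiber_le (Q : HeightOneSpectrum (𝓞 E)) :
    (underMap E F ⁻¹' {Q}).encard ≤ (Module.finrank E F : ℕ) := by
  have h1 : (underMap E F ⁻¹' {Q}).encard =
      ENat.card {P : HeightOneSpectrum (𝓞 F) // underMap E F P = Q} := by
    rw [Set.encard, ENat.card_congr]
    exact Equiv.subtypeEquivRight fun a => by simp
  rw [h1, ENat.card_congr (fiberEquiv E F Q), ENat.card_eq_coe_fintype_card]
  exact_mod_cast card_primesOver_le E F Q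

instance (P : HeightOneSpectrum (𝓞 F)) : P.asIdeal.IsMaximal := P.isMaximal

/-- `N(P) = N(Q)^f` for `P` over `Q`. -/
lemma absNorm_eq_pow_inertiaDeg_underMap (P : HeightOneSpectrum (𝓞 F)) :
    absNorm P.asIdeal =
      absNorm (underMap E F P).asIdeal ^ (P.asIdeal.inertiaDeg (𝓞 E)) := by
  rw [← Ideal.inertiaDeg'_eq_inertiaDeg (underMap E F P).asIdeal P.asIdeal]
  exact Ideal.absNorm_eq_pow_inertiaDeg'_of_liesOver P.asIdeal (underMap E F P).asIdeal
    (underMap E F P).isPrime (underMap E F P).ne_bot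

lemma inertiaDeg_pos_underMap (P : HeightOneSpectrum (𝓞 F)) :
    0 < P.asIdeal.inertiaDeg (𝓞 E) :=
  Ideal.inertiaDeg_pos P.asIdeal (𝓞 E)

/-- `N(P)^(-s) ≤ N(Q)^(-s)` always, with equality if `f = 1`, and `≤ N(Q)^(-2s)` if `f ≥ 2`. -/
lemma primeTerm_le_underMap {s : ℝ} (hs : 0 ≤ s) (P : HeightOneSpectrum (𝓞 F)) :
    primeTerm F s P ≤ primeTerm E s (underMap E F P) := by
  unfold primeTerm
  rw [absNorm_eq_pow_inertiaDeg_underMap E F P]
  have h1 : (1 : ℝ) ≤ absNorm (underMap E F P).asIdeal := by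
    exact_mod_cast le_trans (by norm_num) (two_le_absNorm E (underMap E F P))
  refine Real.rpow_le_rpow_of_nonpos (by linarith) ?_ (by linarith)
  push_cast
  exact le_self_pow₀ h1 (inertiaDeg_pos_underMap E F P).ne'

lemma primeTerm_eq_underMap {s : ℝ} (P : HeightOneSpectrum (𝓞 F))
    (hf : P.asIdeal.inertiaDeg (𝓞 E) = 1) :
    primeTerm F s P = primeTerm E s (underMap E F P) := by
  unfold primeTerm
  rw [absNorm_eq_pow_inertiaDeg_underMap E F P, hf, pow_one]

lemma primeTerm_le_underMap_two {s : ℝ} (hs : 1 ≤ s) (P : HeightOneSpectrum (𝓞 F))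
    (hf : 2 ≤ P.asIdeal.inertiaDeg (𝓞 E)) :
    primeTerm F s P ≤ primeTerm E 2 (underMap E F P) := by
  unfold primeTerm
  rw [absNorm_eq_pow_inertiaDeg_underMap E F P]
  have h1 : (1 : ℝ) ≤ absNorm (underMap E F P).asIdeal := by
    exact_mod_cast le_trans (by norm_num) (two_le_absNorm E (underMap E F P))
  have h2 : ((absNorm (underMap E F P).asIdeal : ℝ)) ^ 2 ≤
      ((absNorm (underMap E F P).asIdeal ^ (P.asIdeal.inertiaDeg (𝓞 E)) : ℕ) : ℝ) := by
    push_cast
    exact pow_le_pow_right₀ h1 hf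
  calc (((absNorm (underMap E F P).asIdeal ^ (P.asIdeal.inertiaDeg (𝓞 E)) : ℕ) : ℝ)) ^ (-s)
      ≤ (((absNorm (underMap E F P).asIdeal : ℝ)) ^ 2) ^ (-s) :=
        Real.rpow_le_rpow_of_nonpos (by positivity) h2 (by linarith)
    _ = ((absNorm (underMap E F P).asIdeal : ℝ)) ^ (-(2 * s)) := by
        rw [← Real.rpow_natCast, ← Real.rpow_mul (by linarith)]
        congr 1; push_cast; ring
    _ ≤ ((absNorm (underMap E F P).asIdeal : ℝ)) ^ (-2 : ℝ) :=
        Real.rpow_le_rpow_of_exponent_le h1 (by linarith)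

/-- Primes of `F` that are ramified over `E`. -/
def ramSet : Set (HeightOneSpectrum (𝓞 F)) :=
  {P | P.asIdeal.ramificationIdx (𝓞 E) ≠ 1}

lemma ramSet_finite : (ramSet E F).Finite := by
  have hne : differentIdeal (𝓞 E) (𝓞 F) ≠ ⊥ := differentIdeal_ne_bot
  refine (Ideal.finite_factors hne).subset fun P hP => ?_
  simp only [ramSet, Set.mem_ofPred_eq] at hP ⊢
  by_contra hndvd
  have hunr : Algebra.IsUnramifiedAt (𝓞 E) P.asIdeal := not_dvd_differentIdeal_iff.mp hndvd
  exact hP (Ideal.ramificationIdx_eq_one P.asIdeal (𝓞 E))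

/-- Primes of `E` that split completely in `F`: every prime of `F` above has `e = f = 1`. -/
def splitSet : Set (HeightOneSpectrum (𝓞 E)) :=
  {Q | ∀ P : Ideal (𝓞 F), P.IsPrime → P ≠ ⊥ → P.under (𝓞 E) = Q.asIdeal →
      P.ramificationIdx (𝓞 E) = 1 ∧ P.inertiaDeg (𝓞 E) = 1}

variable {E F}

omit [NumberField E] [NumberField F] in
lemma inertiaDeg_eq_one_of_mem_splitSet {P : HeightOneSpectrum (𝓞 F)}
    (h : underMap E F P ∈ splitSet E F) : P.asIdeal.inertiaDeg (𝓞 E) = 1 :=
  (h P.asIdeal P.isPrime P.ne_bot rfl).2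

/-- In a Galois extension, if `Q` does not split completely then every prime above `Q` has
`f ≥ 2` or is ramified. -/
lemma two_le_inertiaDeg_or_mem_ramSet [IsGalois E F] {P : HeightOneSpectrum (𝓞 F)}
    (h : underMap E F P ∉ splitSet E F) :
    2 ≤ P.asIdeal.inertiaDeg (𝓞 E) ∨ P ∈ ramSet E F := by
  simp only [splitSet, Set.mem_ofPred_eq, not_forall] at h
  obtain ⟨P₀, hP₀, _, hunder, hne⟩ := h
  have hl₀ : P₀.LiesOver (underMap E F P).asIdeal := ⟨hunder.symm⟩
  have he := Ideal.ramificationIdx_eq_of_isGaloisGroup (underMap E F P).asIdeal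
    P.asIdeal P₀ Gal(F/E)
  have hf := Ideal.inertiaDeg_eq_of_isGaloisGroup (underMap E F P).asIdeal
    P.asIdeal P₀ Gal(F/E)
  by_cases hram : P.asIdeal.ramificationIdx (𝓞 E) = 1
  · left
    have hf1 : P.asIdeal.inertiaDeg (𝓞 E) ≠ 1 := by
      intro h1
      exact hne ⟨he ▸ hram, hf ▸ h1⟩
    have := inertiaDeg_pos_underMap E F P
    omega
  · right
    exact hram

end Fermat.Agent.S14.H72
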