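import Mathlib
import Fermat.Agent.S14.H72_Relative

set_option autoImplicit false

/-!
# Primes of absolute degree one carry the logarithmic singularity
-/

namespace Fermat.Agent.S14.H72

open NumberField Ideal Filter Topology IsDedekindDomain
open scoped ENNReal

variable (K : Type*) [Field K] [NumberField K]

/-- The rational prime below a prime of `K`. -/
noncomputable def ratPrime (P : HeightOneSpectrum (𝓞 K)) : ℕ := absNorm (under ℤ P.asIdeal)

omit [NumberField K] in
lemma ratPrime_prime (P : HeightOneSpectrum (𝓞 K)) : (ratPrime K P).Prime := by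
  have : NeZero P.asIdeal := ⟨P.ne_bot⟩
  exact Nat.absNorm_under_prime P.asIdeal

/-- The absolute residue degree. -/
noncomputable def absDeg (P : HeightOneSpectrum (𝓞 K)) : ℕ :=
  (span {((ratPrime K P : ℕ) : ℤ)}).inertiaDeg' P.asIdeal

lemma absNorm_eq_ratPrime_pow (P : HeightOneSpectrum (𝓞 K)) :
    absNorm P.asIdeal = ratPrime K P ^ absDeg K P := by
  have : NeZero P.asIdeal := ⟨P.ne_bot⟩
  have : P.asIdeal.LiesOver (span {((ratPrime K P : ℕ) : ℤ)}) :=
    Int.liesOver_span_absNorm P.asIdeal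
  exact Ideal.absNorm_eq_pow_inertiaDeg' P.asIdeal (Nat.absNorm_under_prime P.asIdeal)

lemma absDeg_pos (P : HeightOneSpectrum (𝓞 K)) : 0 < absDeg K P := by
  by_contra h
  have h0 : absDeg K P = 0 := by omega
  have := absNorm_eq_ratPrime_pow K P
  rw [h0, pow_zero] at this
  have h2 := two_le_absNorm K P
  omega

lemma two_le_absDeg_of_not_prime {P : HeightOneSpectrum (𝓞 K)}
    (h : ¬ (absNorm P.asIdeal).Prime) : 2 ≤ absDeg K P := by
  by_contra hlt
  have h1 : absDeg K P = 1 := by have := absDeg_pos K P; omega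
  apply h
  rw [absNorm_eq_ratPrime_pow K P, h1, pow_one]
  exact ratPrime_prime K P

lemma primeTerm_le_ratPrime_sq {s : ℝ} (hs : 1 ≤ s) {P : HeightOneSpectrum (𝓞 K)}
    (h : ¬ (absNorm P.asIdeal).Prime) :
    primeTerm K s P ≤ ((ratPrime K P : ℝ) ^ (2 : ℝ))⁻¹ := by
  unfold primeTerm
  have hp1 : (1 : ℝ) ≤ ratPrime K P := by exact_mod_cast (ratPrime_prime K P).one_le
  have h2 : ((ratPrime K P : ℝ)) ^ 2 ≤ (absNorm P.asIdeal : ℝ) := by
    rw [absNorm_eq_ratPrime_pow K P]
    push_cast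
    exact pow_le_pow_right₀ hp1 (two_le_absDeg_of_not_prime K h)
  have hpos : (0 : ℝ) < (ratPrime K P : ℝ) ^ 2 := by positivity
  calc ((absNorm P.asIdeal : ℝ)) ^ (-s) ≤ ((ratPrime K P : ℝ) ^ 2) ^ (-s) :=
        Real.rpow_le_rpow_of_nonpos hpos h2 (by linarith)
    _ ≤ ((ratPrime K P : ℝ) ^ 2) ^ (-1 : ℝ) :=
        Real.rpow_le_rpow_of_exponent_le (one_le_pow₀ hp1) (by linarith)
    _ = ((ratPrime K P : ℝ) ^ (2 : ℝ))⁻¹ := by
        rw [Real.rpow_neg_one, ← Real.rpow_natCast]; norm_num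

lemma encard_ratPrime_fiber_le (p : ℕ) :
    (ratPrime K ⁻¹' {p}).encard ≤ (Module.finrank ℚ K : ℕ) := by
  by_cases hp : p.Prime
  · have hfact : Fact p.Prime := ⟨hp⟩
    have hmax : (span {(p : ℤ)}).IsMaximal := Int.ideal_span_isMaximal_of_prime p
    have hcard : Fintype.card ((span {(p : ℤ)}).primesOver (𝓞 K)) ≤ Module.finrank ℚ K := by
      have h := Ideal.sum_ramification_inertia_eq_finrank (span {(p : ℤ)}) (𝓞 K)
      rw [RingOfIntegers.rank] at h
      rw [← h, Fintype.card, Finset.card_eq_sum_ones]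
      refine Finset.sum_le_sum fun q _ => ?_
      have : q.1.IsPrime := q.2.1
      exact Nat.one_le_iff_ne_zero.mpr (Nat.mul_ne_zero (Ideal.ramificationIdx_pos q.1 ℤ).ne'
        (Ideal.inertiaDeg_pos q.1 ℤ).ne')
    let f : (ratPrime K ⁻¹' {p}) → (span {(p : ℤ)}).primesOver (𝓞 K) := fun P =>
      ⟨P.1.asIdeal, P.1.isPrime, by
        have hP : ratPrime K P.1 = p := P.2
        have := Int.liesOver_span_absNorm P.1.asIdeal
        rw [ratPrime] at hP
        rwa [hP] at this⟩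
    have hf : Function.Injective f := by
      intro P P' h
      apply Subtype.ext
      exact HeightOneSpectrum.ext (congrArg Subtype.val h)
    calc (ratPrime K ⁻¹' {p}).encard = ENat.card (ratPrime K ⁻¹' {p}) := rfl
      _ ≤ ENat.card ((span {(p : ℤ)}).primesOver (𝓞 K)) := ENat.card_le_card_of_injective hf
      _ = (Fintype.card ((span {(p : ℤ)}).primesOver (𝓞 K)) : ℕ∞) :=
          ENat.card_eq_coe_fintype_card
      _ ≤ _ := by exact_mod_cast hcard
  · have : ratPrime K ⁻¹' {p} = ∅ := by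
      ext P
      simp only [Set.mem_preimage, Set.mem_singleton_iff, Set.mem_empty_iff_false, iff_false]
      intro h
      exact hp (h ▸ ratPrime_prime K P)
    rw [this]
    simp

/-- Primes of `K` whose absolute norm is a rational prime (absolute degree one). -/
def degOneSet : Set (HeightOneSpectrum (𝓞 K)) := {P | (absNorm P.asIdeal).Prime}

/-- `∑_n n^(-2)`. -/
noncomputable def zetaTwoConst : ℝ := ∑' n : ℕ, ((n : ℝ) ^ (2 : ℝ))⁻¹

lemma summable_inv_sq : Summable fun n : ℕ => ((n : ℝ) ^ (2 : ℝ))⁻¹ :=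
  Real.summable_nat_rpow_inv.mpr (by norm_num)

lemma zetaTwoConst_nonneg : 0 ≤ zetaTwoConst := tsum_nonneg fun n => by positivity

/-- Primes of degree `≥ 2` contribute a bounded amount, `ℝ≥0∞` form. -/
lemma tsum_compl_degOneSet_le_ennreal {s : ℝ} (hs : 1 ≤ s) :
    ∑' P, (degOneSet K)ᶜ.indicator (fun P => ENNReal.ofReal (primeTerm K s P)) P ≤
      (Module.finrank ℚ K : ℕ) * ENNReal.ofReal zetaTwoConst := by
  have h := tsum_le_mul_tsum_of_fiber (ratPrime K) (Module.finrank ℚ K)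
    (encard_ratPrime_fiber_le K)
    (fun P => (degOneSet K)ᶜ.indicator (fun P => ENNReal.ofReal (primeTerm K s P)) P)
    (fun p => ENNReal.ofReal (((p : ℝ) ^ (2 : ℝ))⁻¹)) ?_
  · rwa [← ENNReal.ofReal_tsum_of_nonneg (fun n => by positivity) summable_inv_sq] at h
  · intro P
    by_cases hP : P ∈ (degOneSet K)ᶜ
    · rw [Set.indicator_of_mem hP]
      exact ENNReal.ofReal_le_ofReal (primeTerm_le_ratPrime_sq K hs hP)
    · rw [Set.indicator_of_notMem hP]
      exact zero_le

/-- Primes of degree `≥ 2` contribute a bounded amount. -/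
theorem tsum_compl_degOneSet_le {s : ℝ} (hs : 1 < s) :
    ∑' P : ((degOneSet K)ᶜ : Set (HeightOneSpectrum (𝓞 K))), primeTerm K s P ≤
      (Module.finrank ℚ K : ℝ) * zetaTwoConst := by
  have h := tsum_compl_degOneSet_le_ennreal K hs.le
  have hnn : 0 ≤ ∑' P : ((degOneSet K)ᶜ : Set (HeightOneSpectrum (𝓞 K))), primeTerm K s P :=
    tsum_nonneg fun P => (primeTerm_pos K s P).le
  rw [tsum_subtype ((degOneSet K)ᶜ) (primeTerm K s)] at hnn ⊢
  have heq : ENNReal.ofReal (∑' P, (degOneSet K)ᶜ.indicator (primeTerm K s) P) =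
      ∑' P, (degOneSet K)ᶜ.indicator (fun P => ENNReal.ofReal (primeTerm K s P)) P := by
    rw [ENNReal.ofReal_tsum_of_nonneg
      (fun Q => Set.indicator_nonneg (fun Q _ => (primeTerm_pos K s Q).le) Q)
      ((summable_primeTerm K hs).indicator _)]
    refine tsum_congr fun Q => ?_
    by_cases hQ : Q ∈ (degOneSet K)ᶜ <;> simp [hQ]
  rw [← heq, ← ENNReal.ofReal_natCast, ← ENNReal.ofReal_mul (Nat.cast_nonneg _)] at h
  exact (ENNReal.ofReal_le_ofReal_iff
    (mul_nonneg (Nat.cast_nonneg _) zetaTwoConst_nonneg)).mp h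

/-- The degree-one prime sum. -/
noncomputable def degOneSum (s : ℝ) : ℝ := ∑' P : degOneSet K, primeTerm K s P

lemma degOneSum_add_compl {s : ℝ} (hs : 1 < s) :
    degOneSum K s +
      ∑' P : ((degOneSet K)ᶜ : Set (HeightOneSpectrum (𝓞 K))), primeTerm K s P =
        ∑' P, primeTerm K s P :=
  (summable_primeTerm K hs).tsum_subtype_add_tsum_subtype_compl (degOneSet K)

/-- **Degree-one primes carry the logarithm**:
`∑_{N(P) prime} N(P)^(-s) = log (1/(s-1)) + O(1)` on `(1, 2]`. -/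
theorem exists_bound_degOneSum :
    ∃ C : ℝ, ∀ s ∈ Set.Ioc (1 : ℝ) 2, |degOneSum K s - Real.log (1 / (s - 1))| ≤ C := by
  obtain ⟨C, hC⟩ := exists_bound_tsum_primeTerm K
  refine ⟨|C| + (Module.finrank ℚ K : ℝ) * zetaTwoConst, fun s hs => ?_⟩
  have h1 := degOneSum_add_compl K hs.1
  have h2 := tsum_compl_degOneSet_le K hs.1
  have h3 : 0 ≤ ∑' P : ((degOneSet K)ᶜ : Set (HeightOneSpectrum (𝓞 K))), primeTerm K s P :=
    tsum_nonneg fun P => (primeTerm_pos K s P).le
  have h4 := abs_le.mp (hC s hs)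
  have h5 := le_abs_self C
  have h6 := neg_abs_le C
  have h7 : 0 ≤ (Module.finrank ℚ K : ℝ) * zetaTwoConst :=
    mul_nonneg (Nat.cast_nonneg _) zetaTwoConst_nonneg
  rw [abs_le]
  constructor <;> linarith [h4.1, h4.2]

end Fermat.Agent.S14.H72
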