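import Mathlib
import Fermat.Agent.S14.H72_Relative

set_option autoImplicit false

/-!
# Density of completely split primes in a Galois extension of number fields
-/

namespace Fermat.Agent.S14.H72

open NumberField Ideal Filter Topology IsDedekindDomain
open scoped ENNReal

variable {E F : Type*} [Field E] [Field F] [NumberField E] [NumberField F] [Algebra E F]

lemma card_primesOver_of_mem_splitSet {Q : HeightOneSpectrum (𝓞 E)} (hQ : Q ∈ splitSet E F) :
    Fintype.card (Q.asIdeal.primesOver (𝓞 F)) = Module.finrank E F := by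
  have h := Ideal.sum_ramification_inertia_eq_finrank Q.asIdeal (𝓞 F)
  rw [finrank_ringOfIntegers] at h
  rw [← h, Fintype.card, Finset.card_eq_sum_ones]
  refine Finset.sum_congr rfl fun q _ => ?_
  have hq1 : q.1.IsPrime := q.2.1
  have hq2 : q.1.LiesOver Q.asIdeal := q.2.2
  obtain ⟨he, hf⟩ := hQ q.1 hq1 (Ideal.ne_bot_of_liesOver_of_ne_bot Q.ne_bot q.1)
    (hq2.over).symm
  rw [he, hf]

/-- Lower bound, `ℝ≥0∞` form: `n * ∑_{Q split} N(Q)^(-s) ≤ ∑_P N(P)^(-s)`. -/
lemma mul_tsum_split_le_ennreal (s : ℝ) :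
    (Module.finrank E F : ℝ≥0∞) *
        ∑' Q, (splitSet E F).indicator (fun Q => ENNReal.ofReal (primeTerm E s Q)) Q ≤
      ∑' P, ENNReal.ofReal (primeTerm F s P) := by
  rw [← (Equiv.sigmaFiberEquiv (underMap E F)).tsum_eq, ENNReal.tsum_sigma',
    ← ENNReal.tsum_mul_left]
  refine ENNReal.tsum_le_tsum fun Q => ?_
  by_cases hQ : Q ∈ splitSet E F
  · rw [Set.indicator_of_mem hQ]
    have hx : ∀ P : {P : HeightOneSpectrum (𝓞 F) // underMap E F P = Q},
        ENNReal.ofReal (primeTerm F s (Equiv.sigmaFiberEquiv (underMap E F) ⟨Q, P⟩)) =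
          ENNReal.ofReal (primeTerm E s Q) := by
      intro P
      have hmem : underMap E F P.1 ∈ splitSet E F := by rw [P.2]; exact hQ
      simp only [Equiv.sigmaFiberEquiv_apply]
      rw [primeTerm_eq_underMap E F P.1 (inertiaDeg_eq_one_of_mem_splitSet hmem), P.2]
    rw [tsum_congr hx, ENNReal.tsum_const, ENat.card_congr (fiberEquiv E F Q),
      ENat.card_eq_coe_fintype_card, card_primesOver_of_mem_splitSet hQ]
    exact le_of_eq (by norm_cast)
  · rw [Set.indicator_of_notMem hQ, mul_zero]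
    exact zero_le

/-- Upper bound, `ℝ≥0∞` form (Galois case). -/
lemma tsum_le_mul_tsum_split_ennreal [IsGalois E F] {s : ℝ} (hs : 1 ≤ s) :
    ∑' P, ENNReal.ofReal (primeTerm F s P) ≤
      (Module.finrank E F : ℕ) *
        ∑' Q, ((splitSet E F).indicator (fun Q => ENNReal.ofReal (primeTerm E s Q)) Q +
          ENNReal.ofReal (primeTerm E 2 Q)) +
        ∑' P, (ramSet E F).indicator (fun _ => (1 : ℝ≥0∞)) P := by
  have hpt : ∀ P : HeightOneSpectrum (𝓞 F),
      ENNReal.ofReal (primeTerm F s P) ≤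
        ((splitSet E F).indicator (fun Q => ENNReal.ofReal (primeTerm E s Q)) (underMap E F P) +
          ENNReal.ofReal (primeTerm E 2 (underMap E F P))) +
        (ramSet E F).indicator (fun _ => (1 : ℝ≥0∞)) P := by
    intro P
    by_cases hQ : underMap E F P ∈ splitSet E F
    · rw [Set.indicator_of_mem hQ,
        primeTerm_eq_underMap E F P (inertiaDeg_eq_one_of_mem_splitSet hQ)]
      exact le_trans (le_add_right le_rfl) (le_add_right le_rfl)
    · rcases two_le_inertiaDeg_or_mem_ramSet hQ with hf | hram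
      · refine le_trans ?_ (le_add_right (le_add_left le_rfl))
        exact ENNReal.ofReal_le_ofReal (primeTerm_le_underMap_two E F hs P hf)
      · rw [Set.indicator_of_mem hram]
        refine le_trans ?_ (le_add_left le_rfl)
        rw [← ENNReal.ofReal_one]
        exact ENNReal.ofReal_le_ofReal
          (le_trans (primeTerm_le_half F hs P) (by norm_num))
  refine le_trans (ENNReal.tsum_le_tsum hpt) ?_
  rw [ENNReal.tsum_add]
  gcongr
  exact tsum_le_mul_tsum_of_fiber (underMap E F) (Module.finrank E F)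
    (fun Q => encard_fiber_le E F Q) _ _ (fun _ => le_rfl)

variable (E F)

/-- `∑_{Q split} N(Q)^(-s)`, the prime ideal zeta sum of the split set. -/
noncomputable def splitSum (s : ℝ) : ℝ := ∑' Q : splitSet E F, primeTerm E s Q

omit [NumberField F] in
lemma splitSum_eq_primeIdealZetaSum (s : ℝ) :
    splitSum E F s = NumberField.Set.primeIdealZetaSum (splitSet E F) s := rfl

omit [NumberField F] in
lemma splitSum_nonneg (s : ℝ) : 0 ≤ splitSum E F s :=
  tsum_nonneg fun Q => (primeTerm_pos E s Q).le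

lemma ofReal_indicator {α : Type*} (S : Set α) (f : α → ℝ) (a : α) :
    ENNReal.ofReal (S.indicator f a) = S.indicator (fun a => ENNReal.ofReal (f a)) a := by
  by_cases h : a ∈ S <;> simp [h]

omit [NumberField F] in
lemma ofReal_splitSum {s : ℝ} (hs : 1 < s) :
    ENNReal.ofReal (splitSum E F s) =
      ∑' Q, (splitSet E F).indicator (fun Q => ENNReal.ofReal (primeTerm E s Q)) Q := by
  unfold splitSum
  rw [tsum_subtype (splitSet E F) (primeTerm E s),
    ENNReal.ofReal_tsum_of_nonneg
      (fun Q => Set.indicator_nonneg (fun Q _ => (primeTerm_pos E s Q).le) Q)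
      ((summable_primeTerm E hs).indicator _)]
  exact tsum_congr fun Q => ofReal_indicator _ _ _

lemma ofReal_tsum_primeTerm (K : Type*) [Field K] [NumberField K] {s : ℝ} (hs : 1 < s) :
    ENNReal.ofReal (∑' P, primeTerm K s P) = ∑' P, ENNReal.ofReal (primeTerm K s P) :=
  ENNReal.ofReal_tsum_of_nonneg (fun P => (primeTerm_pos K s P).le) (summable_primeTerm K hs)

/-- Lower bound: `n * ∑_{Q split} N(Q)^(-s) ≤ ∑_P N(P)^(-s)`. -/
theorem mul_splitSum_le {s : ℝ} (hs : 1 < s) :
    (Module.finrank E F : ℝ) * splitSum E F s ≤ ∑' P, primeTerm F s P := by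
  have h := mul_tsum_split_le_ennreal (E := E) (F := F) s
  rw [← ofReal_splitSum E F hs, ← ofReal_tsum_primeTerm F hs,
    ← ENNReal.ofReal_natCast, ← ENNReal.ofReal_mul (Nat.cast_nonneg _)] at h
  exact (ENNReal.ofReal_le_ofReal_iff
    (tsum_nonneg fun P => (primeTerm_pos F s P).le)).mp h

/-- Upper bound (Galois case):
`∑_P N(P)^(-s) ≤ n * (∑_{Q split} N(Q)^(-s) + ∑_Q N(Q)^(-2)) + #ramified`. -/
theorem tsum_primeTerm_le_splitSum [IsGalois E F] {s : ℝ} (hs : 1 < s) :
    ∑' P, primeTerm F s P ≤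
      (Module.finrank E F : ℝ) * (splitSum E F s + ∑' Q, primeTerm E 2 Q) +
        ((ramSet E F).ncard : ℝ) := by
  have h := tsum_le_mul_tsum_split_ennreal (E := E) (F := F) hs.le
  have hram : ∑' P, (ramSet E F).indicator (fun _ => (1 : ℝ≥0∞)) P =
      ENNReal.ofReal ((ramSet E F).ncard : ℝ) := by
    rw [← tsum_subtype (ramSet E F) (fun _ => (1 : ℝ≥0∞)), ENNReal.tsum_const, mul_one,
      ENNReal.ofReal_natCast]
    have : Finite (ramSet E F) := (ramSet_finite E F).to_subtype
    rw [ENat.card_eq_coe_natCard, Nat.card_coe_set_eq]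
    rfl
  have h2 : (1 : ℝ) < 2 := by norm_num
  rw [ENNReal.tsum_add, ← ofReal_splitSum E F hs, ← ofReal_tsum_primeTerm E h2,
    ← ofReal_tsum_primeTerm F hs, hram,
    ← ENNReal.ofReal_add (splitSum_nonneg E F s) (tsum_nonneg fun Q => (primeTerm_pos E 2 Q).le),
    ← ENNReal.ofReal_natCast, ← ENNReal.ofReal_mul (Nat.cast_nonneg _),
    ← ENNReal.ofReal_add (mul_nonneg (Nat.cast_nonneg _)
      (add_nonneg (splitSum_nonneg E F s) (tsum_nonneg fun Q => (primeTerm_pos E 2 Q).le)))
      (Nat.cast_nonneg _)] at h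
  refine (ENNReal.ofReal_le_ofReal_iff ?_).mp h
  exact add_nonneg (mul_nonneg (Nat.cast_nonneg _)
      (add_nonneg (splitSum_nonneg E F s) (tsum_nonneg fun Q => (primeTerm_pos E 2 Q).le)))
      (Nat.cast_nonneg _)

/-- **Density of completely split primes** (logarithmic form): for `F/E` Galois of degree `n`,
`∑_{Q split} N(Q)^(-s) = (1/n) log (1/(s-1)) + O(1)` on `(1, 2]`. -/
theorem exists_bound_splitSum [IsGalois E F] :
    ∃ C : ℝ, ∀ s ∈ Set.Ioc (1 : ℝ) 2,
      |splitSum E F s - (1 / (Module.finrank E F : ℝ)) * Real.log (1 / (s - 1))| ≤ C := by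
  obtain ⟨CF, hCF⟩ := exists_bound_tsum_primeTerm F
  have hn : (0 : ℝ) < Module.finrank E F := by exact_mod_cast Module.finrank_pos
  set n : ℝ := (Module.finrank E F : ℝ) with hndef
  set Z : ℝ := ∑' Q, primeTerm E 2 Q with hZ
  set R : ℝ := ((ramSet E F).ncard : ℝ) with hR
  have hZ0 : 0 ≤ Z := tsum_nonneg fun Q => (primeTerm_pos E 2 Q).le
  have hR0 : 0 ≤ R := Nat.cast_nonneg _
  refine ⟨(|CF| + n * Z + R) / n, fun s hs => ?_⟩
  have h1 := mul_splitSum_le E F hs.1
  have h2 := tsum_primeTerm_le_splitSum E F hs.1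
  have h3 := abs_le.mp (hCF s hs)
  have h4 := le_abs_self CF
  have h5 := neg_abs_le CF
  rw [abs_le, le_div_iff₀ hn, ← sub_nonneg (b := -((|CF| + n * Z + R) / n))]
  constructor
  · have : -((|CF| + n * Z + R) / n) =
        -(|CF| + n * Z + R) / n := by ring
    rw [sub_nonneg, this, div_le_iff₀ hn]
    have e : (splitSum E F s - 1 / n * Real.log (1 / (s - 1))) * n =
        n * splitSum E F s - Real.log (1 / (s - 1)) := by
      field_simp
    rw [e]
    nlinarith [h1, h2, h3.1, h3.2]
  · have e : (splitSum E F s - 1 / n * Real.log (1 / (s - 1))) * n =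
        n * splitSum E F s - Real.log (1 / (s - 1)) := by
      field_simp
    rw [e]
    nlinarith [h1, h2, h3.1, h3.2]

end Fermat.Agent.S14.H72
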