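import Mathlib
import Fermat.Agent.S14.H72_SplitDensity
import Fermat.Agent.S14.H72_DegreeOne

set_option autoImplicit false

/-!
# Existence of degree-one primes with prescribed splitting behaviour (EP5)

Comparison of logarithmic densities: if a set `A` of primes has lower density `a` and a set `B`
has upper density `b < a`, then there is a prime of absolute degree one in `A \ B` outside any
given finite set.  Applied to split sets of Galois extensions.
-/

namespace Fermat.Agent.S14.H72

open NumberField Ideal Filter Topology IsDedekindDomain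

variable (E : Type*) [Field E] [NumberField E]

/-- `∑_{Q ∈ A} N(Q)^(-s)`. -/
noncomputable def setSum (A : Set (HeightOneSpectrum (𝓞 E))) (s : ℝ) : ℝ :=
  ∑' Q : A, primeTerm E s Q

lemma setSum_eq_tsum_indicator (A : Set (HeightOneSpectrum (𝓞 E))) (s : ℝ) :
    setSum E A s = ∑' Q, A.indicator (primeTerm E s) Q :=
  tsum_subtype A (primeTerm E s)

lemma setSum_nonneg (A : Set (HeightOneSpectrum (𝓞 E))) (s : ℝ) : 0 ≤ setSum E A s :=
  tsum_nonneg fun Q => (primeTerm_pos E s Q).le

lemma setSum_univ (s : ℝ) : setSum E Set.univ s = ∑' Q, primeTerm E s Q :=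
  tsum_univ (primeTerm E s)

lemma setSum_degOneSet (s : ℝ) : setSum E (degOneSet E) s = degOneSum E s := rfl

lemma setSum_splitSet (F : Type*) [Field F] [NumberField F] [Algebra E F] (s : ℝ) :
    setSum E (splitSet E F) s = splitSum E F s := rfl

lemma setSum_finset_le (T : Finset (HeightOneSpectrum (𝓞 E))) {s : ℝ} (hs : 1 ≤ s) :
    setSum E (T : Set (HeightOneSpectrum (𝓞 E))) s ≤ T.card := by
  unfold setSum
  rw [Finset.tsum_subtype' T (primeTerm E s)]
  calc ∑ Q ∈ T, primeTerm E s Q ≤ ∑ _Q ∈ T, (1 : ℝ) :=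
        Finset.sum_le_sum fun Q _ => (primeTerm_le_half E hs Q).trans (by norm_num)
    _ = T.card := by simp

/-- Subadditivity of `setSum` for a cover by four sets. -/
lemma setSum_le_of_subset {A B C : Set (HeightOneSpectrum (𝓞 E))}
    (T : Finset (HeightOneSpectrum (𝓞 E)))
    (h : A ⊆ B ∪ C ∪ (T : Set (HeightOneSpectrum (𝓞 E)))) {s : ℝ} (hs : 1 < s) :
    setSum E A s ≤ setSum E B s + setSum E C s + T.card := by
  have hsum := summable_primeTerm E hs
  have hT := setSum_finset_le E T hs.le
  have key : setSum E A s ≤ setSum E B s + setSum E C s +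
      setSum E (T : Set (HeightOneSpectrum (𝓞 E))) s := by
    simp only [setSum_eq_tsum_indicator]
    rw [← (hsum.indicator B).tsum_add (hsum.indicator C),
      ← ((hsum.indicator B).add (hsum.indicator C)).tsum_add (hsum.indicator _)]
    refine (hsum.indicator A).tsum_le_tsum (fun Q => ?_)
      (((hsum.indicator B).add (hsum.indicator C)).add (hsum.indicator _))
    have hpos := (primeTerm_pos E s Q).le
    have hB : 0 ≤ B.indicator (primeTerm E s) Q :=
      Set.indicator_nonneg (fun Q _ => (primeTerm_pos E s Q).le) Q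
    have hC : 0 ≤ C.indicator (primeTerm E s) Q :=
      Set.indicator_nonneg (fun Q _ => (primeTerm_pos E s Q).le) Q
    have hT' : 0 ≤ (T : Set (HeightOneSpectrum (𝓞 E))).indicator (primeTerm E s) Q :=
      Set.indicator_nonneg (fun Q _ => (primeTerm_pos E s Q).le) Q
    by_cases hA : Q ∈ A
    · rw [Set.indicator_of_mem hA]
      rcases h hA with (hQ | hQ) | hQ
      · rw [Set.indicator_of_mem hQ]; linarith
      · rw [Set.indicator_of_mem hQ (primeTerm E s)]; linarith
      · rw [Set.indicator_of_mem hQ (primeTerm E s)]; linarith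
    · rw [Set.indicator_of_notMem hA]; positivity
  linarith

/-- `log (1/(s-1))` is unbounded on `(1, 2]`. -/
lemma exists_log_gt (M : ℝ) : ∃ s ∈ Set.Ioc (1 : ℝ) 2, M < Real.log (1 / (s - 1)) := by
  refine ⟨1 + Real.exp (-(|M| + 1)), ⟨by linarith [Real.exp_pos (-(|M| + 1))], ?_⟩, ?_⟩
  · have : Real.exp (-(|M| + 1)) ≤ 1 := Real.exp_le_one_iff.mpr (by linarith [abs_nonneg M])
    linarith
  · rw [add_sub_cancel_left, one_div, ← Real.exp_neg, Real.log_exp, neg_neg]
    linarith [le_abs_self M]

/-- **Density comparison**: if `A` has lower logarithmic density `≥ a` and `B` has upper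
logarithmic density `≤ b < a`, then there is a prime of absolute degree one in `A \ B`
outside any given finite set `T`. -/
theorem exists_mem_diff_of_density {A B : Set (HeightOneSpectrum (𝓞 E))} {a b : ℝ} (hab : b < a)
    (hA : ∃ C : ℝ, ∀ s ∈ Set.Ioc (1 : ℝ) 2, a * Real.log (1 / (s - 1)) - C ≤ setSum E A s)
    (hB : ∃ C : ℝ, ∀ s ∈ Set.Ioc (1 : ℝ) 2, setSum E B s ≤ b * Real.log (1 / (s - 1)) + C)
    (T : Finset (HeightOneSpectrum (𝓞 E))) :
    ∃ Q : HeightOneSpectrum (𝓞 E), Q ∈ A ∧ Q ∉ B ∧ Q ∈ degOneSet E ∧ Q ∉ T := by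
  by_contra hcon
  push Not at hcon
  obtain ⟨CA, hCA⟩ := hA
  obtain ⟨CB, hCB⟩ := hB
  have hcover : A ⊆ B ∪ (degOneSet E)ᶜ ∪ (T : Set (HeightOneSpectrum (𝓞 E))) := by
    intro Q hQ
    by_cases h1 : Q ∈ B
    · exact Or.inl (Or.inl h1)
    by_cases h2 : Q ∈ degOneSet E
    · exact Or.inr (hcon Q hQ h1 h2)
    · exact Or.inl (Or.inr h2)
  set D : ℝ := (Module.finrank ℚ E : ℝ) * zetaTwoConst with hD
  obtain ⟨s, hs, hlog⟩ := exists_log_gt ((CA + CB + D + T.card) / (a - b))
  have h1 := setSum_le_of_subset E T hcover hs.1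
  have h2 : setSum E (degOneSet E)ᶜ s ≤ D := tsum_compl_degOneSet_le E hs.1
  have h3 := hCA s hs
  have h4 := hCB s hs
  have hpos : 0 < a - b := sub_pos.mpr hab
  rw [div_lt_iff₀ hpos] at hlog
  nlinarith

variable (F : Type*) [Field F] [NumberField F] [Algebra E F]

/-- For `F/E` Galois of degree `≥ 2` there is a prime of `E` of absolute degree one, outside
any given finite set, which does not split completely in `F`. -/
theorem exists_degOne_not_mem_splitSet [IsGalois E F] (h2 : 2 ≤ Module.finrank E F)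
    (T : Finset (HeightOneSpectrum (𝓞 E))) :
    ∃ Q : HeightOneSpectrum (𝓞 E), Q ∉ splitSet E F ∧ Q ∈ degOneSet E ∧ Q ∉ T := by
  obtain ⟨C1, hC1⟩ := exists_bound_tsum_primeTerm E
  obtain ⟨C2, hC2⟩ := exists_bound_splitSum E F
  have hn : (2 : ℝ) ≤ (Module.finrank E F : ℝ) := by exact_mod_cast h2
  have hlt : 1 / (Module.finrank E F : ℝ) < 1 := by
    rw [div_lt_one (by linarith)]; linarith
  obtain ⟨Q, -, hQ⟩ := exists_mem_diff_of_density E (A := Set.univ) (B := splitSet E F) hlt
    ⟨C1, fun s hs => by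
      rw [setSum_univ]; have := (abs_le.mp (hC1 s hs)).1; linarith⟩
    ⟨C2, fun s hs => by
      rw [setSum_splitSet]; have := (abs_le.mp (hC2 s hs)).2; linarith⟩ T
  exact ⟨Q, hQ⟩

/-- The primes of `E` whose absolute norm lies in a given finite set of integers are finitely
many. -/
lemma finite_absNorm_mem (S : Finset ℕ) :
    {Q : HeightOneSpectrum (𝓞 E) | absNorm Q.asIdeal ∈ S}.Finite := by
  have h : {I : Ideal (𝓞 E) | absNorm I ∈ S}.Finite := by
    have : {I : Ideal (𝓞 E) | absNorm I ∈ S} = ⋃ n ∈ S, {I : Ideal (𝓞 E) | absNorm I = n} := by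
      ext I; simp
    rw [this]
    exact Set.Finite.biUnion S.finite_toSet fun n _ => Ideal.finite_setOfPred_absNorm_eq n
  refine Set.Finite.of_finite_image (f := fun Q : HeightOneSpectrum (𝓞 E) => Q.asIdeal)
    (h.subset ?_) (fun Q _ Q' _ hQQ => HeightOneSpectrum.ext hQQ)
  rintro _ ⟨Q, hQ, rfl⟩
  exact hQ

/-- **EP5** (helper82's shape): `F/E` Galois, `F1` a proper intermediate field Galois over `E`,
`S` a finite set of integers.  Then there is a prime `P` of `E` whose absolute norm is a rational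
prime not in `S`, which splits completely in `F1` but not in `F`. -/
theorem exists_prime_split_not_split [IsGalois E F] (F1 : IntermediateField E F) [IsGalois E F1]
    (hF1 : F1 ≠ ⊤) (S : Finset ℕ) :
    ∃ P : HeightOneSpectrum (𝓞 E), (absNorm P.asIdeal).Prime ∧ absNorm P.asIdeal ∉ S ∧
      P ∈ splitSet E ↥F1 ∧ P ∉ splitSet E F := by
  obtain ⟨C1, hC1⟩ := exists_bound_splitSum E ↥F1
  obtain ⟨C2, hC2⟩ := exists_bound_splitSum E F
  have hlt' : Module.finrank E ↥F1 < Module.finrank E F := by
    have hle : Module.finrank E ↥F1 ≤ Module.finrank E F := F1.toSubmodule.finrank_le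
    refine lt_of_le_of_ne hle fun heq => hF1 ?_
    refine IntermediateField.eq_of_le_of_finrank_eq le_top ?_
    rw [heq, IntermediateField.finrank_top']
  have h1pos : (0 : ℝ) < (Module.finrank E ↥F1 : ℝ) := by exact_mod_cast Module.finrank_pos
  have hlt : 1 / (Module.finrank E F : ℝ) < 1 / (Module.finrank E ↥F1 : ℝ) :=
    one_div_lt_one_div_of_lt h1pos (by exact_mod_cast hlt')
  obtain ⟨Q, hQ1, hQ2, hQ3, hQ4⟩ := exists_mem_diff_of_density E
    (A := splitSet E ↥F1) (B := splitSet E F) hlt
    ⟨C1, fun s hs => by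
      rw [setSum_splitSet]; have := (abs_le.mp (hC1 s hs)).1; linarith⟩
    ⟨C2, fun s hs => by
      rw [setSum_splitSet]; have := (abs_le.mp (hC2 s hs)).2; linarith⟩
    (finite_absNorm_mem E S).toFinset
  refine ⟨Q, hQ3, fun hS => hQ4 ?_, hQ1, hQ2⟩
  rw [Set.Finite.mem_toFinset]
  exact hS

end Fermat.Agent.S14.H72
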