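import Mathlib
import Fermat.Agent.S14.H27_Artin

/-!
S14 / WP2 split (helper32): (F8) Frobenius on roots of unity, (F2') conjugation in a tower.
Built on helper27's `H27_Frob` / `H27_Artin`.
-/

set_option autoImplicit false
set_option linter.unusedSectionVars false

noncomputable section

namespace Fermat.Agent.S14.H32

open NumberField Fermat.Agent.S14.H27
open scoped Pointwise IsMulCommutative

section Cyclotomic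

variable {K L : Type*} [Field K] [Field L] [NumberField K] [NumberField L]
  [Algebra K L] [IsGalois K L]

/-- (F8) integer form: Frobenius raises roots of unity prime to `𝔓` to the power `N𝔭`. -/
theorem frob_smul_of_pow_eq_one (𝔓 : Ideal (𝓞 L)) [𝔓.IsPrime] (h𝔓 : 𝔓 ≠ ⊥)
    {ζ : 𝓞 L} {m : ℕ} (hζ : ζ ^ m = 1) (hm : (m : 𝓞 L) ∉ 𝔓) :
    frob K 𝔓 h𝔓 • ζ = ζ ^ Nat.card (𝓞 K ⧸ 𝔓.under (𝓞 K)) :=
  (isArithFrobAt_frob (K := K) 𝔓 h𝔓).apply_of_pow_eq_one hζ hm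

/-- (F8) field form. -/
theorem frob_apply_of_pow_eq_one (𝔓 : Ideal (𝓞 L)) [𝔓.IsPrime] (h𝔓 : 𝔓 ≠ ⊥)
    {ξ : L} {m : ℕ} (hξ : ξ ^ m = 1) (hm : (m : 𝓞 L) ∉ 𝔓) :
    frob K 𝔓 h𝔓 ξ = ξ ^ Nat.card (𝓞 K ⧸ 𝔓.under (𝓞 K)) := by
  have hm0 : m ≠ 0 := by
    rintro rfl
    exact hm (by simp)
  have hint : IsIntegral ℤ ξ :=
    ⟨Polynomial.X ^ m - 1, Polynomial.monic_X_pow_sub_C 1 hm0, by simp [hξ]⟩
  set ζ : 𝓞 L := ⟨ξ, hint⟩ with hζdef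
  have hζ : ζ ^ m = 1 := by
    apply FaithfulSMul.algebraMap_injective (𝓞 L) L
    rw [map_pow, map_one]
    exact hξ
  have h := frob_smul_of_pow_eq_one (K := K) 𝔓 h𝔓 hζ hm
  have h2 := congrArg (algebraMap (𝓞 L) L) h
  rw [algebraMap.smul', map_pow] at h2
  exact h2

section CyclotomicArtin

variable [IsMulCommutative Gal(L/K)]

/-- (F8) for `frobP`. -/
theorem frobP_apply_of_pow_eq_one (𝔭 : Ideal (𝓞 K)) [𝔭.IsPrime] (h𝔭 : 𝔭 ≠ ⊥)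
    {ξ : L} {m : ℕ} (hξ : ξ ^ m = 1) (hm : (m : 𝓞 K) ∉ 𝔭) :
    frobP L 𝔭 ξ = ξ ^ Ideal.absNorm 𝔭 := by
  obtain ⟨⟨𝔓, h𝔓prime, h𝔓over⟩⟩ := 𝔭.nonempty_primesOver (S := 𝓞 L)
  have := h𝔓prime
  have := h𝔓over
  have h𝔓 : 𝔓 ≠ ⊥ := Ideal.ne_bot_of_liesOver_of_ne_bot h𝔭 𝔓
  rw [frobP_eq_frob 𝔭 h𝔭 𝔓 h𝔓]
  have hu : 𝔓.under (𝓞 K) = 𝔭 := (Ideal.over_def 𝔓 𝔭).symm
  have hm' : (m : 𝓞 L) ∉ 𝔓 := by
    intro hmem
    apply hm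
    rw [← hu, Ideal.under_def, Ideal.mem_comap, map_natCast]
    exact hmem
  rw [frob_apply_of_pow_eq_one (K := K) 𝔓 h𝔓 hξ hm', hu, Ideal.absNorm_apply,
    Submodule.cardQuot_apply]

/-- (F8) for the Artin map: on roots of unity prime to `𝔞`, `artin 𝔞` is `ξ ↦ ξ ^ N𝔞`. -/
theorem artin_apply_of_pow_eq_one {𝔞 : Ideal (𝓞 K)} (h𝔞 : 𝔞 ≠ ⊥)
    {ξ : L} {m : ℕ} (hξ : ξ ^ m = 1)
    (hm : ∀ 𝔭 : Ideal (𝓞 K), 𝔭.IsPrime → 𝔞 ≤ 𝔭 → (m : 𝓞 K) ∉ 𝔭) :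
    artin L 𝔞 ξ = ξ ^ Ideal.absNorm 𝔞 := by
  classical
  have key : ∀ s : Multiset (Ideal (𝓞 K)),
      (∀ 𝔭 ∈ s, 𝔭.IsPrime ∧ 𝔭 ≠ ⊥ ∧ (m : 𝓞 K) ∉ 𝔭) →
      ∀ η : L, η ^ m = 1 → (s.map (frobP L)).prod η = η ^ (s.map Ideal.absNorm).prod := by
    intro s
    induction s using Multiset.induction_on with
    | empty => intro _ η _; simp
    | cons 𝔭 s ih =>
      intro hs η hη
      obtain ⟨hp1, hp2, hp3⟩ := hs 𝔭 (Multiset.mem_cons_self 𝔭 s)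
      have := hp1
      rw [Multiset.map_cons, Multiset.prod_cons, Multiset.map_cons, Multiset.prod_cons,
        AlgEquiv.mul_apply, ih (fun 𝔮 h𝔮 => hs 𝔮 (Multiset.mem_cons_of_mem h𝔮)) η hη, map_pow,
        frobP_apply_of_pow_eq_one 𝔭 hp2 hη hp3, ← pow_mul]
  have hfac : ∀ 𝔭 ∈ UniqueFactorizationMonoid.normalizedFactors 𝔞,
      𝔭.IsPrime ∧ 𝔭 ≠ ⊥ ∧ (m : 𝓞 K) ∉ 𝔭 := by
    intro 𝔭 h𝔭
    have hprime := UniqueFactorizationMonoid.prime_of_normalized_factor 𝔭 h𝔭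
    have hp : 𝔭.IsPrime := Ideal.isPrime_of_prime hprime
    exact ⟨hp, hprime.ne_zero, hm 𝔭 hp
      (Ideal.le_of_dvd (UniqueFactorizationMonoid.dvd_of_mem_normalizedFactors h𝔭))⟩
  have hprod : (UniqueFactorizationMonoid.normalizedFactors 𝔞).prod = 𝔞 :=
    associated_iff_eq.mp (UniqueFactorizationMonoid.prod_normalizedFactors (by simpa using h𝔞))
  rw [artin, key _ hfac ξ hξ]
  congr 1
  rw [← map_multiset_prod, hprod]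

end CyclotomicArtin

end Cyclotomic

section Tower

variable {K0 K L : Type*} [Field K0] [Field K] [Field L] [NumberField K] [NumberField L]
  [Algebra K0 K] [Algebra K L] [Algebra K0 L] [IsScalarTower K0 K L]

/-- compatibility of `τ⁻¹` with `τK⁻¹`. -/
theorem symm_apply_algebraMap (τ : L ≃ₐ[K0] L) (τK : K ≃ₐ[K0] K)
    (hτ : ∀ k : K, τ (algebraMap K L k) = algebraMap K L (τK k)) (k : K) :
    τ.symm (algebraMap K L k) = algebraMap K L (τK.symm k) := by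
  rw [AlgEquiv.symm_apply_eq, hτ, AlgEquiv.apply_symm_apply]

/-- The conjugate `τ g τ⁻¹` of `g ∈ Gal(L/K)` by `τ ∈ Gal(L/K0)` preserving `K`. -/
def conjTower (τ : L ≃ₐ[K0] L) (τK : K ≃ₐ[K0] K)
    (hτ : ∀ k : K, τ (algebraMap K L k) = algebraMap K L (τK k)) (g : L ≃ₐ[K] L) :
    L ≃ₐ[K] L :=
  AlgEquiv.ofRingEquiv (f := (τ.symm.toRingEquiv.trans g.toRingEquiv).trans τ.toRingEquiv)
    (fun k => by
      show τ (g (τ.symm (algebraMap K L k))) = algebraMap K L k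
      rw [symm_apply_algebraMap τ τK hτ, g.commutes, hτ, AlgEquiv.apply_symm_apply])

theorem conjTower_apply (τ : L ≃ₐ[K0] L) (τK : K ≃ₐ[K0] K)
    (hτ : ∀ k : K, τ (algebraMap K L k) = algebraMap K L (τK k)) (g : L ≃ₐ[K] L) (x : L) :
    conjTower τ τK hτ g x = τ (g (τ.symm x)) := rfl

/-- the action of `Gal(L/K0)` and of `Gal(L/K)` on `𝓞 L` both come from the field action. -/
theorem coe_smul_integer {F : Type*} [Field F] [Algebra F L] (σ : L ≃ₐ[F] L) (y : 𝓞 L) :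
    algebraMap (𝓞 L) L (σ • y) = σ (algebraMap (𝓞 L) L y) := by
  rw [algebraMap.smul']
  rfl

theorem under_smul_eq_map (τ : L ≃ₐ[K0] L) (τK : K ≃ₐ[K0] K)
    (hτ : ∀ k : K, τ (algebraMap K L k) = algebraMap K L (τK k)) (𝔓 : Ideal (𝓞 L)) :
    (τ • 𝔓).under (𝓞 K) =
      (𝔓.under (𝓞 K)).map
        ((RingOfIntegers.mapRingEquiv (τK : K ≃+* K) : 𝓞 K ≃+* 𝓞 K) : 𝓞 K →+* 𝓞 K) := by
  ext x
  rw [Ideal.map_comap_of_equiv, Ideal.mem_comap, Ideal.under_def, Ideal.mem_comap,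
    Ideal.mem_pointwise_smul_iff_inv_smul_mem, Ideal.mem_comap]
  have : τ⁻¹ • (algebraMap (𝓞 K) (𝓞 L) x) =
      algebraMap (𝓞 K) (𝓞 L) ((RingOfIntegers.mapRingEquiv (τK : K ≃+* K)).symm x) := by
    apply FaithfulSMul.algebraMap_injective (𝓞 L) L
    rw [coe_smul_integer, ← IsScalarTower.algebraMap_apply (𝓞 K) (𝓞 L) L,
      ← IsScalarTower.algebraMap_apply (𝓞 K) (𝓞 L) L,
      IsScalarTower.algebraMap_apply (𝓞 K) K L, IsScalarTower.algebraMap_apply (𝓞 K) K L]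
    exact symm_apply_algebraMap τ τK hτ _
  rw [this]

theorem natCard_quotient_under_smul (τ : L ≃ₐ[K0] L) (τK : K ≃ₐ[K0] K)
    (hτ : ∀ k : K, τ (algebraMap K L k) = algebraMap K L (τK k)) (𝔓 : Ideal (𝓞 L)) :
    Nat.card (𝓞 K ⧸ (τ • 𝔓).under (𝓞 K)) = Nat.card (𝓞 K ⧸ 𝔓.under (𝓞 K)) :=
  (Nat.card_congr (Ideal.quotientEquiv (𝔓.under (𝓞 K)) ((τ • 𝔓).under (𝓞 K))
    (RingOfIntegers.mapRingEquiv (τK : K ≃+* K)) (under_smul_eq_map τ τK hτ 𝔓)).toEquiv).symm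

variable [IsGalois K L]

/-- `τ g τ⁻¹` is a Frobenius at `τ • 𝔓` when `g` is the Frobenius at `𝔓`. -/
theorem isArithFrobAt_conjTower (τ : L ≃ₐ[K0] L) (τK : K ≃ₐ[K0] K)
    (hτ : ∀ k : K, τ (algebraMap K L k) = algebraMap K L (τK k))
    (𝔓 : Ideal (𝓞 L)) [𝔓.IsPrime] (h𝔓 : 𝔓 ≠ ⊥) :
    IsArithFrobAt (𝓞 K) (conjTower τ τK hτ (frob K 𝔓 h𝔓)) (τ • 𝔓) := by
  intro y
  rw [natCard_quotient_under_smul τ τK hτ 𝔓]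
  have h1 := frob_spec (K := K) 𝔓 h𝔓 (τ⁻¹ • y)
  have h2 := Ideal.smul_mem_pointwise_smul τ _ 𝔓 h1
  have e : τ • (frob K 𝔓 h𝔓 • τ⁻¹ • y - (τ⁻¹ • y) ^ Nat.card (𝓞 K ⧸ 𝔓.under (𝓞 K))) =
      (MulSemiringAction.toAlgHom (𝓞 K) (𝓞 L) (conjTower τ τK hτ (frob K 𝔓 h𝔓))) y -
        y ^ Nat.card (𝓞 K ⧸ 𝔓.under (𝓞 K)) := by
    rw [smul_sub, smul_pow', smul_inv_smul]
    congr 1
  rw [← e]
  exact h2

/-- **(F2') conjugation in a tower**: `frob_{L/K}(τ • 𝔓) = τ ∘ frob_{L/K}(𝔓) ∘ τ⁻¹`. -/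
theorem frob_smul_tower (τ : L ≃ₐ[K0] L) (τK : K ≃ₐ[K0] K)
    (hτ : ∀ k : K, τ (algebraMap K L k) = algebraMap K L (τK k))
    (𝔓 : Ideal (𝓞 L)) [𝔓.IsPrime] (h𝔓 : 𝔓 ≠ ⊥) [(τ • 𝔓).IsPrime] (hτ𝔓 : τ • 𝔓 ≠ ⊥)
    (hur : Algebra.IsUnramifiedAt (𝓞 K) (τ • 𝔓)) :
    frob K (τ • 𝔓) hτ𝔓 = conjTower τ τK hτ (frob K 𝔓 h𝔓) :=
  (eq_of_isArithFrobAt (τ • 𝔓) hur (isArithFrobAt_conjTower τ τK hτ 𝔓 h𝔓)
    (isArithFrobAt_frob (τ • 𝔓) hτ𝔓)).symm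

theorem frob_smul_tower_apply (τ : L ≃ₐ[K0] L) (τK : K ≃ₐ[K0] K)
    (hτ : ∀ k : K, τ (algebraMap K L k) = algebraMap K L (τK k))
    (𝔓 : Ideal (𝓞 L)) [𝔓.IsPrime] (h𝔓 : 𝔓 ≠ ⊥) [(τ • 𝔓).IsPrime] (hτ𝔓 : τ • 𝔓 ≠ ⊥)
    (hur : Algebra.IsUnramifiedAt (𝓞 K) (τ • 𝔓)) (x : L) :
    frob K (τ • 𝔓) hτ𝔓 x = τ (frob K 𝔓 h𝔓 (τ.symm x)) := by
  rw [frob_smul_tower τ τK hτ 𝔓 h𝔓 hτ𝔓 hur, conjTower_apply]

theorem under_smul_eq_smul (τ : L ≃ₐ[K0] L) (τK : K ≃ₐ[K0] K)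
    (hτ : ∀ k : K, τ (algebraMap K L k) = algebraMap K L (τK k)) (𝔓 : Ideal (𝓞 L)) :
    (τ • 𝔓).under (𝓞 K) = τK • (𝔓.under (𝓞 K)) := by
  rw [under_smul_eq_map τ τK hτ 𝔓, Ideal.pointwise_smul_def]
  rfl

theorem conjTower_pow (τ : L ≃ₐ[K0] L) (τK : K ≃ₐ[K0] K)
    (hτ : ∀ k : K, τ (algebraMap K L k) = algebraMap K L (τK k)) (g : L ≃ₐ[K] L) (n : ℕ) :
    conjTower τ τK hτ (g ^ n) = conjTower τ τK hτ g ^ n := by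
  induction n with
  | zero =>
    ext x
    simp [conjTower_apply]
  | succ n ih =>
    rw [pow_succ, pow_succ, ← ih]
    ext x
    simp [conjTower_apply, AlgEquiv.mul_apply]

theorem conjTower_mul (τ : L ≃ₐ[K0] L) (τK : K ≃ₐ[K0] K)
    (hτ : ∀ k : K, τ (algebraMap K L k) = algebraMap K L (τK k)) (g h : L ≃ₐ[K] L) :
    conjTower τ τK hτ (g * h) = conjTower τ τK hτ g * conjTower τ τK hτ h := by
  ext x
  simp [conjTower_apply, AlgEquiv.mul_apply]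

/-- (F2') for `frobP`: the Artin symbol of the conjugate prime is the conjugate Artin symbol. -/
theorem frobP_smul_tower [IsMulCommutative Gal(L/K)] (τ : L ≃ₐ[K0] L) (τK : K ≃ₐ[K0] K)
    (hτ : ∀ k : K, τ (algebraMap K L k) = algebraMap K L (τK k))
    (hunr : ∀ (𝔓 : Ideal (𝓞 L)) [𝔓.IsPrime], 𝔓 ≠ ⊥ → Algebra.IsUnramifiedAt (𝓞 K) 𝔓)
    (𝔭 : Ideal (𝓞 K)) [𝔭.IsPrime] (h𝔭 : 𝔭 ≠ ⊥) :
    frobP L (τK • 𝔭) = conjTower τ τK hτ (frobP L 𝔭) := by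
  obtain ⟨⟨𝔓, h𝔓prime, h𝔓over⟩⟩ := 𝔭.nonempty_primesOver (S := 𝓞 L)
  have := h𝔓prime
  have := h𝔓over
  have h𝔓 : 𝔓 ≠ ⊥ := Ideal.ne_bot_of_liesOver_of_ne_bot h𝔭 𝔓
  have hu : 𝔓.under (𝓞 K) = 𝔭 := (Ideal.over_def 𝔓 𝔭).symm
  have hprime : (τ • 𝔓).IsPrime := by
    rw [Ideal.pointwise_smul_def]
    exact Ideal.map_isPrime_of_equiv (MulSemiringAction.toRingAut _ (𝓞 L) τ)
  have hτ𝔓 : τ • 𝔓 ≠ ⊥ := by
    intro h0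
    apply h𝔓
    have : τ⁻¹ • (τ • 𝔓) = τ⁻¹ • (⊥ : Ideal (𝓞 L)) := by rw [h0]
    rw [inv_smul_smul] at this
    rw [this, Ideal.pointwise_smul_def, Ideal.map_bot]
  have hprimeK : (τK • 𝔭).IsPrime := by
    rw [Ideal.pointwise_smul_def]
    exact Ideal.map_isPrime_of_equiv (MulSemiringAction.toRingAut _ (𝓞 K) τK)
  have hover : (τ • 𝔓).LiesOver (τK • 𝔭) := ⟨by
    rw [under_smul_eq_smul τ τK hτ 𝔓, hu]⟩
  have hne : τK • 𝔭 ≠ ⊥ := by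
    intro h0
    apply h𝔭
    have : τK⁻¹ • (τK • 𝔭) = τK⁻¹ • (⊥ : Ideal (𝓞 K)) := by rw [h0]
    rw [inv_smul_smul] at this
    rw [this, Ideal.pointwise_smul_def, Ideal.map_bot]
  rw [frobP_eq_frob (τK • 𝔭) hne (τ • 𝔓) hτ𝔓, frobP_eq_frob 𝔭 h𝔭 𝔓 h𝔓,
    frob_smul_tower τ τK hτ 𝔓 h𝔓 hτ𝔓 (hunr (τ • 𝔓) hτ𝔓)]

/-- (F2') in the shape used by the end game: if conjugation by `τ` is `g ↦ g ^ a` on
`Gal(L/K)`, then `frobP (τK • 𝔭) = frobP 𝔭 ^ a`. -/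
theorem frobP_smul_eq_pow [IsMulCommutative Gal(L/K)] (τ : L ≃ₐ[K0] L) (τK : K ≃ₐ[K0] K)
    (hτ : ∀ k : K, τ (algebraMap K L k) = algebraMap K L (τK k))
    (hunr : ∀ (𝔓 : Ideal (𝓞 L)) [𝔓.IsPrime], 𝔓 ≠ ⊥ → Algebra.IsUnramifiedAt (𝓞 K) 𝔓)
    (a : ℕ) (hconj : ∀ (g : L ≃ₐ[K] L) (x : L), τ (g (τ.symm x)) = (g ^ a) x)
    (𝔭 : Ideal (𝓞 K)) [𝔭.IsPrime] (h𝔭 : 𝔭 ≠ ⊥) :
    frobP L (τK • 𝔭) = frobP L 𝔭 ^ a := by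
  rw [frobP_smul_tower τ τK hτ hunr 𝔭 h𝔭]
  ext x
  rw [conjTower_apply, hconj]

end Tower

end Fermat.Agent.S14.H32
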