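/-
S14 / WP4a (helper56): Lipschitz-parametrizable sets.
-/
import Mathlib

set_option autoImplicit false

open scoped NNReal

namespace Fermat.Agent.S14.H56

/-- `T` is covered by finitely many Lipschitz images of unit cubes of dimension `≤ d`. -/
def IsLipParam {E : Type*} [PseudoEMetricSpace E] (d : ℕ) (T : Set E) : Prop :=
  ∃ (J : Type) (_ : Fintype J) (κ : J → Type) (_ : ∀ j, Fintype (κ j)) (K : ℝ≥0)
    (Φ : ∀ j, (κ j → ℝ) → E),
    (∀ j, Fintype.card (κ j) ≤ d) ∧ (∀ j, LipschitzOnWith K (Φ j) (Set.Icc 0 1)) ∧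
      T ⊆ ⋃ j, Φ j '' Set.Icc 0 1

namespace IsLipParam

variable {E : Type*} [PseudoEMetricSpace E] {d : ℕ} {S T : Set E}

theorem mono (hT : IsLipParam d T) (h : S ⊆ T) : IsLipParam d S := by
  obtain ⟨J, iJ, κ, i, K, Φ, h1, h2, h3⟩ := hT
  exact ⟨J, iJ, κ, i, K, Φ, h1, h2, h.trans h3⟩

theorem mono_dim {d' : ℕ} (hT : IsLipParam d T) (h : d ≤ d') : IsLipParam d' T := by
  obtain ⟨J, iJ, κ, i, K, Φ, h1, h2, h3⟩ := hT
  exact ⟨J, iJ, κ, i, K, Φ, fun j => (h1 j).trans h, h2, h3⟩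

theorem empty : IsLipParam d (∅ : Set E) :=
  ⟨Empty, inferInstance, fun _ => Empty, fun _ => inferInstance, 0, fun j => j.elim,
    fun j => j.elim, fun j => j.elim, Set.empty_subset _⟩

/-- The basic constructor: a Lipschitz image of a unit cube. -/
theorem of_image (κ : Type) [Fintype κ] (hκ : Fintype.card κ ≤ d) {K : ℝ≥0} {Φ : (κ → ℝ) → E}
    (hΦ : LipschitzOnWith K Φ (Set.Icc 0 1)) : IsLipParam d (Φ '' Set.Icc 0 1) := by
  refine ⟨Unit, inferInstance, fun _ => κ, fun _ => inferInstance, K, fun _ => Φ,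
    fun _ => hκ, fun _ => hΦ, ?_⟩
  intro x hx
  exact Set.mem_iUnion.mpr ⟨(), hx⟩

/-- Finite unions. -/
theorem iUnion {A : Type} [Fintype A] {T : A → Set E} (hT : ∀ a, IsLipParam d (T a)) :
    IsLipParam d (⋃ a, T a) := by
  choose J iJ κ i K Φ h1 h2 h3 using hT
  refine ⟨Σ a, J a, inferInstance, fun p => κ p.1 p.2, fun p => i p.1 p.2,
    Finset.univ.sup K, fun p => Φ p.1 p.2, fun p => h1 p.1 p.2, fun p => ?_, ?_⟩
  · exact (h2 p.1 p.2).weaken (Finset.le_sup (f := K) (Finset.mem_univ p.1))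
  · intro x hx
    obtain ⟨a, ha⟩ := Set.mem_iUnion.mp hx
    obtain ⟨j, hj⟩ := Set.mem_iUnion.mp (h3 a ha)
    exact Set.mem_iUnion.mpr ⟨⟨a, j⟩, hj⟩

theorem union (hS : IsLipParam d S) (hT : IsLipParam d T) : IsLipParam d (S ∪ T) := by
  have : S ∪ T = ⋃ b : Bool, cond b S T := by
    ext x; simp [Set.mem_iUnion, or_comm]
  rw [this]
  exact iUnion fun b => by cases b <;> simpa

/-- A single point (constant map on a zero-dimensional cube). -/
theorem singleton (x : E) : IsLipParam d ({x} : Set E) := by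
  have h : LipschitzOnWith 0 (fun _ : Empty → ℝ => x) (Set.Icc 0 1) :=
    (LipschitzWith.const x).lipschitzOnWith
  refine (of_image Empty (by simp) h).mono ?_
  rintro y rfl
  exact ⟨0, ⟨fun i => i.elim, fun i => i.elim⟩, rfl⟩

theorem finite (hT : T.Finite) : IsLipParam d T := by
  induction T, hT using Set.Finite.induction_on with
  | empty => exact empty
  | insert _ _ ih => exact (singleton _).union ih

/-- Images under maps that are Lipschitz on a set containing the parametrized pieces. -/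
theorem image {F : Type*} [PseudoEMetricSpace F] {f : E → F} {K' : ℝ≥0}
    (hf : LipschitzWith K' f) (hT : IsLipParam d T) : IsLipParam d (f '' T) := by
  obtain ⟨J, iJ, κ, i, K, Φ, h1, h2, h3⟩ := hT
  refine ⟨J, iJ, κ, i, K' * K, fun j => f ∘ Φ j, h1,
    fun j => hf.comp_lipschitzOnWith (h2 j), ?_⟩
  rintro _ ⟨x, hx, rfl⟩
  obtain ⟨j, u, hu, rfl⟩ := Set.mem_iUnion.mp (h3 hx)
  exact Set.mem_iUnion.mpr ⟨j, u, hu, rfl⟩

/-- Version of `image` with `LipschitzOnWith` on a set containing everything relevant. -/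
theorem image_of_lipschitzOnWith {F : Type*} [PseudoEMetricSpace F] {f : E → F} {K' : ℝ≥0}
    {U : Set E} (hf : LipschitzOnWith K' f U) {J : Type} [Fintype J] (κ : J → Type)
    [∀ j, Fintype (κ j)] {K : ℝ≥0} (Φ : ∀ j, (κ j → ℝ) → E)
    (h1 : ∀ j, Fintype.card (κ j) ≤ d) (h2 : ∀ j, LipschitzOnWith K (Φ j) (Set.Icc 0 1))
    (hU : ∀ j, Set.MapsTo (Φ j) (Set.Icc 0 1) U) (h3 : T ⊆ ⋃ j, Φ j '' Set.Icc 0 1) :
    IsLipParam d (f '' T) := by
  refine ⟨J, inferInstance, κ, inferInstance, K' * K, fun j => f ∘ Φ j, h1,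
    fun j => hf.comp (h2 j) (hU j), ?_⟩
  rintro _ ⟨x, hx, rfl⟩
  obtain ⟨j, u, hu, rfl⟩ := Set.mem_iUnion.mp (h3 hx)
  exact Set.mem_iUnion.mpr ⟨j, u, hu, rfl⟩

end IsLipParam

end Fermat.Agent.S14.H56
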