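/-
S14 / WP4a (helper56): lattice point counting with a power saving error term.
-/
import Mathlib
import Fermat.Agent.S14.H56_LipParam

set_option autoImplicit false
set_option linter.unusedSectionVars false

noncomputable section

open scoped NNReal Pointwise
open MeasureTheory Module Bornology Submodule BoxIntegral BoxIntegral.unitPartition

namespace Fermat.Agent.S14.H56

section topo

/-- A preconnected set meeting both `A` and its complement meets the frontier of `A`. -/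
theorem inter_frontier_nonempty_of_isPreconnected {X : Type*} [TopologicalSpace X]
    {C A : Set X} (hC : IsPreconnected C) (h1 : (C ∩ A).Nonempty) (h2 : (C ∩ Aᶜ).Nonempty) :
    (C ∩ frontier A).Nonempty := by
  by_contra hne
  rw [Set.not_nonempty_iff_eq_empty] at hne
  have hcov : C ⊆ interior A ∪ interior Aᶜ := by
    intro x hx
    by_cases hxA : x ∈ interior A
    · exact Or.inl hxA
    · right
      rw [interior_compl, Set.mem_compl_iff]
      intro hcl
      have : x ∈ C ∩ frontier A := ⟨hx, hcl, hxA⟩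
      rw [hne] at this
      exact this
  obtain ⟨x, hxC, hxA⟩ := h1
  obtain ⟨y, hyC, hyA⟩ := h2
  have hx' : x ∈ interior A := by
    rcases hcov hxC with h | h
    · exact h
    · exact absurd hxA (interior_subset h)
  have hy' : y ∈ interior Aᶜ := by
    rcases hcov hyC with h | h
    · exact absurd (interior_subset h) hyA
    · exact h
  obtain ⟨z, -, hz1, hz2⟩ := hC _ _ isOpen_interior isOpen_interior hcov ⟨x, hxC, hx'⟩ ⟨y, hyC, hy'⟩
  exact (interior_subset hz2) (interior_subset hz1)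

end topo

variable {ι : Type*} [Fintype ι]

/-- the unit cube `∏ (ν i, ν i + 1]` -/
abbrev ucube (ν : ι → ℤ) : Set (ι → ℝ) := (box 1 ν : Set (ι → ℝ))

theorem mem_ucube {ν : ι → ℤ} {x : ι → ℝ} : x ∈ ucube ν ↔ ∀ i, (ν i : ℝ) < x i ∧ x i ≤ ν i + 1 := by
  rw [ucube, Box.mem_coe, mem_box_iff]
  simp

theorem volume_ucube (ν : ι → ℤ) : volume (ucube ν) = 1 := by
  rw [ucube, volume_box]; simp

theorem measurableSet_ucube (ν : ι → ℤ) : MeasurableSet (ucube ν) :=
  Box.measurableSet_coe _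

theorem isPreconnected_ucube (ν : ι → ℤ) : IsPreconnected (ucube ν) := by
  rw [ucube, Box.coe_eq_pi]
  exact (convex_pi fun i _ => convex_Ioc _ _).isPreconnected

/-- the lattice point attached to the cube `ν` -/
abbrev utag (ν : ι → ℤ) : ι → ℝ := tag 1 ν

theorem utag_apply (ν : ι → ℤ) (i : ι) : utag ν i = ν i + 1 := by simp [utag]

theorem utag_mem (ν : ι → ℤ) : utag ν ∈ ucube ν := tag_mem 1 ν

theorem exists_mem_ucube (x : ι → ℝ) : ∃ ν : ι → ℤ, x ∈ ucube ν :=
  ⟨index 1 x, mem_box_iff_index.mpr rfl⟩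


/-! ### Cubes meeting / contained in a set -/

/-- indices of unit cubes meeting `A` -/
def meetIdx (A : Set (ι → ℝ)) : Set (ι → ℤ) := {ν | (ucube ν ∩ A).Nonempty}

/-- indices of unit cubes contained in `A` -/
def inIdx (A : Set (ι → ℝ)) : Set (ι → ℤ) := {ν | ucube ν ⊆ A}

/-- indices of unit cubes whose tag is in `A` -/
def tagIdx (A : Set (ι → ℝ)) : Set (ι → ℤ) := {ν | utag ν ∈ A}

theorem inIdx_subset_tagIdx (A : Set (ι → ℝ)) : inIdx A ⊆ tagIdx A :=
  fun ν h => h (utag_mem ν)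

theorem tagIdx_subset_meetIdx (A : Set (ι → ℝ)) : tagIdx A ⊆ meetIdx A :=
  fun ν h => ⟨utag ν, utag_mem ν, h⟩

theorem meetIdx_finite {A : Set (ι → ℝ)} (hA : IsBounded A) : (meetIdx A).Finite := by
  classical
  obtain ⟨R, hR⟩ := hA.subset_closedBall 0
  refine (Fintype.piFinset fun _ : ι => Finset.Icc (-⌈R⌉ - 1) ⌈R⌉).finite_toSet.subset ?_
  rintro ν ⟨x, hxν, hxA⟩
  rw [Finset.mem_coe, Fintype.mem_piFinset]
  intro i
  rw [Finset.mem_Icc]
  have h1 := (mem_ucube.mp hxν i)
  have h2 : |x i| ≤ R := by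
    have := hR hxA
    rw [mem_closedBall_zero_iff] at this
    exact (norm_le_pi_norm x i).trans this
  rw [abs_le] at h2
  constructor
  · have : (-(⌈R⌉ : ℝ) - 1) ≤ ν i := by
      have := Int.le_ceil R
      linarith
    exact_mod_cast this
  · have : (ν i : ℝ) < ⌈R⌉ + 1 := by
      have := Int.le_ceil R
      linarith
    have : ν i < ⌈R⌉ + 1 := by exact_mod_cast this
    omega

theorem ncard_inIdx_le_volume {A : Set (ι → ℝ)} (hA : IsBounded A) :
    ((inIdx A).ncard : ℝ) ≤ volume.real A := by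
  have hfin : (inIdx A).Finite :=
    (meetIdx_finite hA).subset ((inIdx_subset_tagIdx A).trans (tagIdx_subset_meetIdx A))
  have hsub : (⋃ ν ∈ hfin.toFinset, ucube ν) ⊆ A := by
    intro x hx
    simp only [Set.Finite.mem_toFinset, Set.mem_iUnion, exists_prop] at hx
    obtain ⟨ν, hν, hx⟩ := hx
    exact hν hx
  have hvol : volume.real (⋃ ν ∈ hfin.toFinset, ucube ν) = (inIdx A).ncard := by
    rw [measureReal_def, measure_biUnion_finset]
    · simp only [volume_ucube, Finset.sum_const, nsmul_eq_mul, mul_one, ENNReal.toReal_natCast]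
      rw [Set.ncard_eq_toFinset_card _ hfin]
    · intro ν _ ν' _ hne
      exact disjoint.mp hne
    · intro ν _
      exact measurableSet_ucube ν
  rw [← hvol]
  exact measureReal_mono hsub hA.measure_lt_top.ne

theorem volume_le_ncard_meetIdx {A : Set (ι → ℝ)} (hA : IsBounded A) :
    volume.real A ≤ ((meetIdx A).ncard : ℝ) := by
  have hfin := meetIdx_finite hA
  have hsub : A ⊆ ⋃ ν ∈ hfin.toFinset, ucube ν := by
    intro x hx
    obtain ⟨ν, hν⟩ := exists_mem_ucube x
    simp only [Set.Finite.mem_toFinset, Set.mem_iUnion, exists_prop]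
    exact ⟨ν, ⟨x, hν, hx⟩, hν⟩
  have hfinU : volume (⋃ ν ∈ hfin.toFinset, ucube ν) ≠ ⊤ := by
    refine ((measure_biUnion_finset_le _ _).trans_lt ?_).ne
    simp
  refine (measureReal_mono hsub hfinU).trans ?_
  refine (measureReal_biUnion_finset_le _ _).trans ?_
  simp only [measureReal_def, volume_ucube, ENNReal.toReal_one, Finset.sum_const, nsmul_eq_mul,
    mul_one]
  rw [Set.ncard_eq_toFinset_card _ hfin]

/-- The basic comparison: number of lattice points versus volume, with error bounded by the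
number of cubes meeting `A` without being contained in it. -/
theorem abs_ncard_tagIdx_sub_volume_le {A : Set (ι → ℝ)} (hA : IsBounded A) :
    |((tagIdx A).ncard : ℝ) - volume.real A| ≤ ((meetIdx A \ inIdx A).ncard : ℝ) := by
  have hfin := meetIdx_finite hA
  have h1 : (inIdx A).ncard ≤ (tagIdx A).ncard :=
    Set.ncard_le_ncard (inIdx_subset_tagIdx A) (hfin.subset (tagIdx_subset_meetIdx A))
  have h2 : (tagIdx A).ncard ≤ (meetIdx A).ncard :=
    Set.ncard_le_ncard (tagIdx_subset_meetIdx A) hfin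
  have h3 := ncard_inIdx_le_volume hA
  have h4 := volume_le_ncard_meetIdx hA
  have h5 : (meetIdx A \ inIdx A).ncard = (meetIdx A).ncard - (inIdx A).ncard :=
    Set.ncard_sdiff ((inIdx_subset_tagIdx A).trans (tagIdx_subset_meetIdx A))
      (hfin.subset ((inIdx_subset_tagIdx A).trans (tagIdx_subset_meetIdx A)))
  rw [h5, Nat.cast_sub (h1.trans h2), abs_le]
  have h1' : ((inIdx A).ncard : ℝ) ≤ (tagIdx A).ncard := by exact_mod_cast h1
  have h2' : ((tagIdx A).ncard : ℝ) ≤ (meetIdx A).ncard := by exact_mod_cast h2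
  constructor <;> linarith


/-! ### Boundary cubes -/

theorem inter_frontier_nonempty_of_mem_diff {A : Set (ι → ℝ)} {ν : ι → ℤ}
    (hν : ν ∈ meetIdx A \ inIdx A) : (ucube ν ∩ frontier A).Nonempty := by
  obtain ⟨h1, h2⟩ := hν
  have h2' : (ucube ν ∩ Aᶜ).Nonempty := by
    rw [inIdx, Set.mem_ofPred_eq, Set.not_subset] at h2
    obtain ⟨y, hy, hyA⟩ := h2
    exact ⟨y, hy, hyA⟩
  exact inter_frontier_nonempty_of_isPreconnected (isPreconnected_ucube ν) h1 h2'

/-- indices of the cubes containing a point within distance `R` of `p` -/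
theorem nearIdx_subset [DecidableEq ι] (p : ι → ℝ) (R : ℝ) (ν : ι → ℤ) (z : ι → ℝ) (hz : z ∈ ucube ν)
    (hd : dist z p ≤ R) :
    ν ∈ Fintype.piFinset fun i : ι => Finset.Icc (⌊p i⌋ - (⌈R⌉ + 1)) (⌊p i⌋ + (⌈R⌉ + 1)) := by
  rw [Fintype.mem_piFinset]
  intro i
  rw [Finset.mem_Icc]
  have h1 := mem_ucube.mp hz i
  have h2 : |z i - p i| ≤ R := by
    have := (dist_le_pi_dist z p i).trans hd
    rwa [Real.dist_eq] at this
  rw [abs_le] at h2
  have h3 := Int.le_ceil R
  have h4 := Int.floor_le (p i)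
  have h5 := Int.lt_floor_add_one (p i)
  constructor
  · have : ((⌊p i⌋ - (⌈R⌉ + 1) : ℤ) : ℝ) ≤ ν i := by
      push_cast
      linarith
    exact_mod_cast this
  · have : (ν i : ℝ) < ((⌊p i⌋ + (⌈R⌉ + 1) : ℤ) : ℝ) := by
      push_cast
      linarith
    have : ν i < ⌊p i⌋ + (⌈R⌉ + 1) := by exact_mod_cast this
    omega

theorem card_nearIdx [DecidableEq ι] (p : ι → ℝ) (R : ℝ) (hR : 0 ≤ R) :
    (Fintype.piFinset fun i : ι =>
      Finset.Icc (⌊p i⌋ - (⌈R⌉ + 1)) (⌊p i⌋ + (⌈R⌉ + 1))).card =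
      (2 * (⌈R⌉.toNat + 1) + 1) ^ Fintype.card ι := by
  rw [Fintype.card_piFinset]
  have h0 : 0 ≤ ⌈R⌉ := Int.ceil_nonneg hR
  have : ∀ i : ι, (Finset.Icc (⌊p i⌋ - (⌈R⌉ + 1)) (⌊p i⌋ + (⌈R⌉ + 1))).card =
      2 * (⌈R⌉.toNat + 1) + 1 := by
    intro i
    rw [Int.card_Icc]
    omega
  simp only [this, Finset.prod_const, Finset.card_univ]

/-- grid points of the unit cube -/
def gridPt {κ : Type} (N : ℕ) (g : κ → Fin N) : κ → ℝ := fun i => ((g i : ℕ) : ℝ) / N

theorem gridPt_mem_Icc {κ : Type} {N : ℕ} (g : κ → Fin N) :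
    gridPt N g ∈ Set.Icc (0 : κ → ℝ) 1 := by
  constructor
  · intro i
    simp only [Pi.zero_apply, gridPt]
    positivity
  · intro i
    simp only [Pi.one_apply, gridPt]
    have hN : 0 < N := Fin.pos (g i)
    rw [div_le_one (by exact_mod_cast hN)]
    exact_mod_cast (g i).2.le

theorem exists_gridPt_near {κ : Type} [Fintype κ] {N : ℕ} (hN : 0 < N) {u : κ → ℝ}
    (hu : u ∈ Set.Icc (0 : κ → ℝ) 1) : ∃ g : κ → Fin N, dist u (gridPt N g) ≤ 1 / N := by
  have hN' : (0 : ℝ) < N := by exact_mod_cast hN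
  refine ⟨fun i => ⟨min ⌊N * u i⌋₊ (N - 1), by omega⟩, ?_⟩
  rw [dist_pi_le_iff (by positivity)]
  intro i
  have h0 : 0 ≤ u i := hu.1 i
  have h1 : u i ≤ 1 := hu.2 i
  have ha0 : 0 ≤ N * u i := by positivity
  have haN : N * u i ≤ N := by nlinarith
  simp only [gridPt]
  have hfl := Nat.floor_le ha0
  have hfl' := Nat.lt_floor_add_one (N * u i)
  have key : |N * u i - ((min ⌊N * u i⌋₊ (N - 1) : ℕ) : ℝ)| ≤ 1 := by
    rw [abs_le]
    rcases le_or_gt ⌊N * u i⌋₊ (N - 1) with hle | hgt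
    · rw [min_eq_left hle]
      constructor <;> linarith
    · rw [min_eq_right hgt.le]
      have hge : (N : ℝ) ≤ ⌊N * u i⌋₊ := by
        have : N ≤ ⌊N * u i⌋₊ := by omega
        exact_mod_cast this
      have hcast : ((N - 1 : ℕ) : ℝ) = (N : ℝ) - 1 := by
        rw [Nat.cast_sub hN, Nat.cast_one]
      rw [hcast]
      constructor <;> linarith
  have hrw : u i - ((min ⌊N * u i⌋₊ (N - 1) : ℕ) : ℝ) / N =
      (N * u i - ((min ⌊N * u i⌋₊ (N - 1) : ℕ) : ℝ)) / N := by
    field_simp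
  rw [Real.dist_eq, hrw, abs_div, abs_of_pos hN']
  gcongr


theorem frontier_smul_set {E : Type*} [NormedAddCommGroup E] [NormedSpace ℝ E] {t : ℝ}
    (ht : t ≠ 0) (s : Set E) : frontier (t • s) = t • frontier s := by
  have := (Homeomorph.smulOfNeZero t ht).image_frontier s
  simpa [Set.image_smul] using this.symm

theorem ncard_bad_le {s : Set (ι → ℝ)}
    {J : Type} [Fintype J] {κ : J → Type} [∀ j, Fintype (κ j)] {K : ℝ≥0}
    {Φ : ∀ j, (κ j → ℝ) → (ι → ℝ)} {d' : ℕ}
    (h1 : ∀ j, Fintype.card (κ j) ≤ d') (h2 : ∀ j, LipschitzOnWith K (Φ j) (Set.Icc 0 1))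
    (h3 : frontier s ⊆ ⋃ j, Φ j '' Set.Icc 0 1) {t : ℝ} (ht : 1 ≤ t) :
    (meetIdx (t • s) \ inIdx (t • s)).ncard ≤
      Fintype.card J * ⌈t⌉₊ ^ d' * (2 * (⌈(K : ℝ)⌉.toNat + 1) + 1) ^ Fintype.card ι := by
  classical
  have ht0 : 0 < t := lt_of_lt_of_le one_pos ht
  set N := ⌈t⌉₊ with hNdef
  have hN : 0 < N := Nat.ceil_pos.mpr ht0
  have hN' : (0 : ℝ) < N := by exact_mod_cast hN
  have htN : t ≤ N := Nat.le_ceil t
  let p : (Σ j, κ j → Fin N) → (ι → ℝ) := fun q => t • Φ q.1 (gridPt N q.2)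
  let G : (Σ j, κ j → Fin N) → Finset (ι → ℤ) := fun q =>
    Fintype.piFinset fun i : ι =>
      Finset.Icc (⌊p q i⌋ - (⌈(K : ℝ)⌉ + 1)) (⌊p q i⌋ + (⌈(K : ℝ)⌉ + 1))
  have hsub : meetIdx (t • s) \ inIdx (t • s) ⊆
      ((Finset.univ : Finset (Σ j, κ j → Fin N)).biUnion G : Set (ι → ℤ)) := by
    intro ν hν
    obtain ⟨z, hzν, hzfr⟩ := inter_frontier_nonempty_of_mem_diff hν
    rw [frontier_smul_set ht0.ne'] at hzfr
    obtain ⟨z', hz', rfl⟩ := hzfr
    obtain ⟨j, u, hu, rfl⟩ := Set.mem_iUnion.mp (h3 hz')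
    obtain ⟨g, hg⟩ := exists_gridPt_near hN hu
    have hdist : dist (t • Φ j u) (p ⟨j, g⟩) ≤ (K : ℝ) := by
      simp only [p]
      rw [dist_smul₀, Real.norm_of_nonneg ht0.le]
      have hL := (h2 j).dist_le_mul u hu (gridPt N g) (gridPt_mem_Icc g)
      calc t * dist (Φ j u) (Φ j (gridPt N g)) ≤ t * (K * (1 / N)) := by
            gcongr
            exact hL.trans (by gcongr)
        _ = K * (t / N) := by ring
        _ ≤ K * 1 := by
            gcongr
            rw [div_le_one hN']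
            exact htN
        _ = K := mul_one _
    rw [Finset.mem_coe, Finset.mem_biUnion]
    exact ⟨⟨j, g⟩, Finset.mem_univ _, nearIdx_subset _ _ ν _ hzν hdist⟩
  calc (meetIdx (t • s) \ inIdx (t • s)).ncard
      ≤ ((Finset.univ : Finset (Σ j, κ j → Fin N)).biUnion G : Set (ι → ℤ)).ncard :=
        Set.ncard_le_ncard hsub (Finset.finite_toSet _)
    _ = ((Finset.univ : Finset (Σ j, κ j → Fin N)).biUnion G).card := Set.ncard_coe_finset _
    _ ≤ ∑ q ∈ (Finset.univ : Finset (Σ j, κ j → Fin N)), (G q).card := Finset.card_biUnion_le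
    _ = ∑ _q ∈ (Finset.univ : Finset (Σ j, κ j → Fin N)),
          (2 * (⌈(K : ℝ)⌉.toNat + 1) + 1) ^ Fintype.card ι := by
        refine Finset.sum_congr rfl fun q _ => ?_
        exact card_nearIdx (p q) K K.coe_nonneg
    _ = Fintype.card (Σ j, κ j → Fin N) * (2 * (⌈(K : ℝ)⌉.toNat + 1) + 1) ^ Fintype.card ι := by
        rw [Finset.sum_const, Finset.card_univ, smul_eq_mul]
    _ ≤ Fintype.card J * N ^ d' * (2 * (⌈(K : ℝ)⌉.toNat + 1) + 1) ^ Fintype.card ι := by
        gcongr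
        rw [Fintype.card_sigma]
        calc ∑ j, Fintype.card (κ j → Fin N) ≤ ∑ _j : J, N ^ d' := by
              refine Finset.sum_le_sum fun j _ => ?_
              rw [Fintype.card_fun, Fintype.card_fin]
              exact Nat.pow_le_pow_right hN (h1 j)
          _ = Fintype.card J * N ^ d' := by
              rw [Finset.sum_const, Finset.card_univ, smul_eq_mul]


/-! ### The counting theorem in `ι → ℝ` -/

theorem mem_span_basisFun_iff {x : ι → ℝ} :
    x ∈ span ℤ (Set.range (Pi.basisFun ℝ ι)) ↔ ∀ i, ∃ k : ℤ, (k : ℝ) = x i := by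
  classical
  rw [Module.Basis.mem_span_iff_repr_mem]
  simp only [Pi.basisFun_repr, Set.mem_range, eq_intCast]

theorem card_inter_span_eq (A : Set (ι → ℝ)) :
    Nat.card ↑(A ∩ (span ℤ (Set.range (Pi.basisFun ℝ ι)) : Set (ι → ℝ))) =
      (tagIdx A).ncard := by
  have himg : A ∩ (span ℤ (Set.range (Pi.basisFun ℝ ι)) : Set (ι → ℝ)) =
      (fun ν : ι → ℤ => utag ν) '' tagIdx A := by
    ext x
    constructor
    · rintro ⟨hxA, hxL⟩
      rw [SetLike.mem_coe, mem_span_basisFun_iff] at hxL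
      choose k hk using hxL
      refine ⟨fun i => k i - 1, ?_, ?_⟩
      · have : utag (fun i => k i - 1) = x := by
          ext i
          rw [utag_apply]
          push_cast
          rw [sub_add_cancel]
          exact hk i
        rw [tagIdx, Set.mem_ofPred_eq, this]
        exact hxA
      · ext i
        show utag (fun i => k i - 1) i = x i
        rw [utag_apply]
        push_cast
        rw [sub_add_cancel]
        exact hk i
    · rintro ⟨ν, hν, rfl⟩
      refine ⟨hν, ?_⟩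
      rw [SetLike.mem_coe, mem_span_basisFun_iff]
      intro i
      refine ⟨ν i + 1, ?_⟩
      show _ = utag ν i
      rw [utag_apply]; push_cast; rfl
  rw [Nat.card_coe_set_eq, himg]
  exact Set.ncard_image_of_injective _ (tag_injective 1)

theorem volume_real_smul_set (t : ℝ) (ht : 0 ≤ t) (s : Set (ι → ℝ)) :
    volume.real (t • s) = t ^ Fintype.card ι * volume.real s := by
  rw [measureReal_def, Measure.addHaar_smul, finrank_fintype_fun_eq_card, ENNReal.toReal_mul,
    ENNReal.toReal_ofReal (abs_nonneg _), abs_of_nonneg (pow_nonneg ht _), measureReal_def]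

/-- **Lattice point counting with error term** in `ι → ℝ` for the standard lattice. -/
theorem pi_card_sub_le {s : Set (ι → ℝ)} (hs : IsBounded s)
    (hfr : IsLipParam (Fintype.card ι - 1) (frontier s)) :
    ∃ C : ℝ, 0 ≤ C ∧ ∀ t : ℝ, 1 ≤ t →
      |(Nat.card ↑(t • s ∩ (span ℤ (Set.range (Pi.basisFun ℝ ι)) : Set (ι → ℝ))) : ℝ) -
        t ^ Fintype.card ι * volume.real s| ≤ C * t ^ (Fintype.card ι - 1) := by
  obtain ⟨J, iJ, κ, iκ, K, Φ, h1, h2, h3⟩ := hfr
  refine ⟨Fintype.card J * 2 ^ (Fintype.card ι - 1) *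
      (2 * (⌈(K : ℝ)⌉.toNat + 1) + 1) ^ Fintype.card ι, by positivity, fun t ht => ?_⟩
  have ht0 : 0 < t := lt_of_lt_of_le one_pos ht
  have hbd : IsBounded (t • s) := hs.smul₀ t
  rw [card_inter_span_eq, ← volume_real_smul_set t ht0.le]
  refine (abs_ncard_tagIdx_sub_volume_le hbd).trans ?_
  have hb := ncard_bad_le h1 h2 h3 ht
  have hb' : ((meetIdx (t • s) \ inIdx (t • s)).ncard : ℝ) ≤
      Fintype.card J * (⌈t⌉₊ : ℝ) ^ (Fintype.card ι - 1) *
        (2 * (⌈(K : ℝ)⌉.toNat + 1) + 1) ^ Fintype.card ι := by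
    exact_mod_cast hb
  refine hb'.trans ?_
  have hceil : (⌈t⌉₊ : ℝ) ≤ 2 * t := by
    have := Nat.ceil_lt_add_one ht0.le
    linarith
  calc (Fintype.card J : ℝ) * (⌈t⌉₊ : ℝ) ^ (Fintype.card ι - 1) *
        (2 * (⌈(K : ℝ)⌉.toNat + 1) + 1) ^ Fintype.card ι
      ≤ Fintype.card J * (2 * t) ^ (Fintype.card ι - 1) *
        (2 * (⌈(K : ℝ)⌉.toNat + 1) + 1) ^ Fintype.card ι := by gcongr
    _ = Fintype.card J * 2 ^ (Fintype.card ι - 1) *
        (2 * (⌈(K : ℝ)⌉.toNat + 1) + 1) ^ Fintype.card ι * t ^ (Fintype.card ι - 1) := by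
        rw [mul_pow]; ring

end Fermat.Agent.S14.H56
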