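/-
S14 / WP4a (helper56): lattice point counting with a power saving error term,
general lattices and the cone version.
-/
import Mathlib
import Fermat.Agent.S14.H56_LatticeRate

set_option autoImplicit false
set_option linter.unusedSectionVars false

noncomputable section

open scoped NNReal Pointwise
open MeasureTheory Module Bornology Submodule

namespace Fermat.Agent.S14.H56

section General

variable {E : Type*} [NormedAddCommGroup E] [NormedSpace ℝ E] [FiniteDimensional ℝ E]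
variable {L : Submodule ℤ E} [DiscreteTopology L] [IsZLattice ℝ L]
variable {ι : Type*} [Fintype ι] (b : Basis ι ℤ L)

theorem mem_lattice_iff_equivFun_mem (x : E) :
    x ∈ L ↔ (b.ofZLatticeBasis ℝ L).equivFun x ∈ span ℤ (Set.range (Pi.basisFun ℝ ι)) := by
  classical
  rw [mem_span_basisFun_iff]
  conv_lhs => rw [← b.ofZLatticeBasis_span ℝ, Module.Basis.mem_span_iff_repr_mem]
  simp only [Set.mem_range, eq_intCast, Basis.equivFun_apply]

theorem cone_eq_smul {X : Set E} (hX : ∀ ⦃x⦄ ⦃r : ℝ⦄, x ∈ X → 0 < r → r • x ∈ X)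
    {F : E → ℝ} {n : ℕ} (hF₁ : ∀ x ⦃r : ℝ⦄, 0 ≤ r → F (r • x) = r ^ n * (F x)) {c : ℝ}
    (hc : 0 < c) :
    c • {x ∈ X | F x ≤ 1} = {x ∈ X | F x ≤ c ^ n} := by
  ext x
  simp_rw [Set.mem_smul_set_iff_inv_smul_mem₀ hc.ne', Set.mem_ofPred_eq, hF₁ _
    (inv_pos_of_pos hc).le, inv_pow, inv_mul_le_iff₀ (pow_pos hc _), mul_one, and_congr_left_iff]
  exact fun _ ↦ ⟨fun h ↦ (smul_inv_smul₀ hc.ne' x) ▸ hX h hc, fun h ↦ hX h (inv_pos_of_pos hc)⟩

theorem card_smul_inter_lattice (D : Set E) (t : ℝ) :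
    Nat.card ↑(t • D ∩ (L : Set E)) =
      Nat.card ↑(t • ((b.ofZLatticeBasis ℝ L).equivFun '' D) ∩
        (span ℤ (Set.range (Pi.basisFun ℝ ι)) : Set (ι → ℝ))) := by
  refine Nat.card_congr ((b.ofZLatticeBasis ℝ L).equivFun.toEquiv.subtypeEquiv fun x => ?_)
  simp only [Set.mem_inter_iff, SetLike.mem_coe, LinearEquiv.coe_toEquiv]
  rw [← mem_lattice_iff_equivFun_mem b x, ← image_smul_set,
    (b.ofZLatticeBasis ℝ L).equivFun.injective.mem_set_image]

variable [MeasurableSpace E] [BorelSpace E]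

/-- General version: rate form of `ZLattice.covolume.tendsto_card_le_div''`. -/
theorem card_le_sub_le'' [Nonempty ι] {X : Set E}
    (hX : ∀ ⦃x⦄ ⦃r : ℝ⦄, x ∈ X → 0 < r → r • x ∈ X)
    {F : E → ℝ} (h₁ : ∀ x ⦃r : ℝ⦄, 0 ≤ r → F (r • x) = r ^ Fintype.card ι * (F x))
    (h₂ : IsBounded {x ∈ X | F x ≤ 1})
    (h₄ : IsLipParam (Fintype.card ι - 1) (frontier {x ∈ X | F x ≤ 1})) :
    ∃ C : ℝ, 0 ≤ C ∧ ∀ c : ℝ, 1 ≤ c →
      |(Nat.card ({x ∈ X | F x ≤ c} ∩ L : Set E) : ℝ) -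
        c * volume.real ((b.ofZLatticeBasis ℝ L).equivFun '' {x ∈ X | F x ≤ 1})| ≤
          C * c ^ (1 - 1 / (Fintype.card ι : ℝ)) := by
  set D := {x ∈ X | F x ≤ 1} with hD
  set e := (b.ofZLatticeBasis ℝ L).equivFunL with he
  have hee : ∀ S : Set E, (b.ofZLatticeBasis ℝ L).equivFun '' S = e '' S := fun S => rfl
  have hbd : IsBounded (e '' D) := by
    rw [← NormedSpace.isVonNBounded_iff ℝ] at h₂ ⊢
    exact Bornology.IsVonNBounded.image h₂ (e : E →L[ℝ] ι → ℝ)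
  have hfr : frontier (e '' D) = e '' frontier D :=
    (e.toHomeomorph.image_frontier D).symm
  have hlip : IsLipParam (Fintype.card ι - 1) (frontier (e '' D)) := by
    rw [hfr]
    exact IsLipParam.image (e : E →L[ℝ] ι → ℝ).lipschitz h₄
  obtain ⟨C, hC0, hC⟩ := pi_card_sub_le hbd hlip
  refine ⟨C, hC0, fun c hc => ?_⟩
  have hc0 : 0 < c := lt_of_lt_of_le one_pos hc
  have hd : (Fintype.card ι : ℝ) ≠ 0 := Nat.cast_ne_zero.mpr Fintype.card_ne_zero
  have hd1 : 1 ≤ Fintype.card ι := Fintype.card_pos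
  set t := c ^ (Fintype.card ι : ℝ)⁻¹ with ht
  have ht0 : 0 < t := Real.rpow_pos_of_pos hc0 _
  have ht1 : 1 ≤ t := Real.one_le_rpow hc (by positivity)
  have htpow : t ^ Fintype.card ι = c := by
    rw [ht, ← Real.rpow_natCast, Real.rpow_inv_rpow hc0.le hd]
  have hset : {x ∈ X | F x ≤ c} = t • D := by
    rw [hD, cone_eq_smul hX h₁ ht0, htpow]
  have hpow' : t ^ (Fintype.card ι - 1) = c ^ (1 - 1 / (Fintype.card ι : ℝ)) := by
    rw [ht, ← Real.rpow_natCast, ← Real.rpow_mul hc0.le, Nat.cast_sub hd1, Nat.cast_one]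
    congr 1
    field_simp
  have := hC t ht1
  rw [htpow, hpow'] at this
  rw [hset, card_smul_inter_lattice b D t, hee]
  exact this

end General

section InnerProductSpace

variable {E : Type*} [NormedAddCommGroup E] [InnerProductSpace ℝ E] [FiniteDimensional ℝ E]
  [MeasurableSpace E] [BorelSpace E]
variable (L : Submodule ℤ E) [DiscreteTopology L] [IsZLattice ℝ L]

/-- **Rate version of `ZLattice.covolume.tendsto_card_le_div'`.** -/
theorem card_le_sub_le [Nontrivial E] {X : Set E} {F : E → ℝ}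
    (hX : ∀ ⦃x⦄ ⦃r : ℝ⦄, x ∈ X → 0 < r → r • x ∈ X)
    (h₁ : ∀ x ⦃r : ℝ⦄, 0 ≤ r → F (r • x) = r ^ finrank ℝ E * (F x))
    (h₂ : IsBounded {x ∈ X | F x ≤ 1}) (h₃ : MeasurableSet {x ∈ X | F x ≤ 1})
    (h₄ : IsLipParam (finrank ℝ E - 1) (frontier {x ∈ X | F x ≤ 1})) :
    ∃ C : ℝ, 0 ≤ C ∧ ∀ c : ℝ, 1 ≤ c →
      |(Nat.card ({x ∈ X | F x ≤ c} ∩ L : Set E) : ℝ) -
        c * (volume.real {x ∈ X | F x ≤ 1} / ZLattice.covolume L)| ≤
          C * c ^ (1 - 1 / (finrank ℝ E : ℝ)) := by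
  let b := Module.Free.chooseBasis ℤ L
  have hcard : Fintype.card (Module.Free.ChooseBasisIndex ℤ L) = finrank ℝ E := by
    rw [← finrank_eq_card_chooseBasisIndex, ZLattice.rank ℝ L]
  have : Nontrivial L := nontrivial_of_finrank_pos <| (ZLattice.rank ℝ L).symm ▸ finrank_pos
  have hne : Nonempty (Module.Free.ChooseBasisIndex ℤ L) := inferInstance
  have hvol : volume.real ((b.ofZLatticeBasis ℝ L).equivFun '' {x ∈ X | F x ≤ 1}) =
      volume.real {x ∈ X | F x ≤ 1} / ZLattice.covolume L := by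
    simp only [measureReal_def]
    rw [ZLattice.volume_image_eq_volume_div_covolume' L b h₃.nullMeasurableSet,
      ENNReal.toReal_div, ENNReal.toReal_ofReal (ZLattice.covolume_pos L volume).le]
  have := card_le_sub_le'' (L := L) b hX (F := F) (by rwa [hcard]) h₂ (by rwa [hcard])
  rwa [hcard, hvol] at this

end InnerProductSpace

end Fermat.Agent.S14.H56
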