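/-
S14 / WP4 L3 (helper56, hedge): number of integral ideals of norm `≤ x` in a fixed ideal class,
with a power saving error term.  Rate version of Mathlib's
`NumberField.Ideal.tendsto_norm_le_and_mk_eq_div_atTop`.
-/
import Mathlib
import Fermat.Agent.S14.H56_LatticeRate2
import Fermat.Agent.S14.H38_Frontier
import Fermat.Agent.S14.H98_LDefs

set_option autoImplicit false
set_option linter.unusedSectionVars false

noncomputable section

open scoped NNReal Pointwise nonZeroDivisors Real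
open MeasureTheory Module Bornology Submodule Filter Topology Ideal
open NumberField NumberField.InfinitePlace NumberField.Units NumberField.mixedEmbedding
  NumberField.mixedEmbedding.euclidean NumberField.mixedEmbedding.fundamentalCone

namespace Fermat.Agent.S14.H56

variable (K : Type*) [Field K] [NumberField K]

open scoped Classical

/-- the frontier of `normLeOne K` is Lipschitz parametrizable (repackaging of helper38's theorem) -/
theorem isLipParam_frontier_normLeOne :
    IsLipParam (finrank ℚ K - 1) (frontier (normLeOne K)) := by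
  obtain ⟨m, φ, L, hφ, hcov⟩ := H38.exists_lipschitz_cover_frontier_normLeOne_fin K
  exact ⟨Fin m, inferInstance, fun _ => Fin (finrank ℚ K - 1), fun _ => inferInstance, L, φ,
    fun _ => by simp, hφ, hcov⟩

variable {K}

/-- copy of a private lemma of Mathlib (`Ideal/Asymptotics.lean`) -/
theorem card_class_eq_card_principal {C : ClassGroup (𝓞 K)} {J : (Ideal (𝓞 K))⁰}
    (hJ : ClassGroup.mk0 J = C⁻¹) (s : ℝ) :
    Nat.card {I : (Ideal (𝓞 K))⁰ // absNorm (I : Ideal (𝓞 K)) ≤ s ∧ ClassGroup.mk0 I = C}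
      = Nat.card {I : (Ideal (𝓞 K))⁰ // (J : Ideal (𝓞 K)) ∣ I ∧ IsPrincipal (I : Ideal (𝓞 K)) ∧
        absNorm (I : Ideal (𝓞 K)) ≤ s * absNorm (J : Ideal (𝓞 K))} := by
  simp_rw [← nonZeroDivisors_dvd_iff_dvd_coe]
  refine Nat.card_congr ?_
  refine ((Equiv.dvd J).subtypeEquiv fun I ↦ ?_).trans
    (Equiv.subtypeSubtypeEquivSubtypeInter (fun I : (Ideal (𝓞 K))⁰ ↦ J ∣ I) _)
  rw [← ClassGroup.mk0_eq_one_iff (SetLike.coe_mem _)]
  simp_rw [Equiv.dvd_apply, Submonoid.coe_mul, ← Submonoid.mul_def, _root_.map_mul, hJ,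
    inv_mul_eq_one, Nat.cast_mul, mul_comm s, eq_comm, and_comm, and_congr_left_iff]
  exact fun _ ↦
    (mul_le_mul_iff_of_pos_left (Nat.cast_pos.mpr (absNorm_pos_of_nonZeroDivisors J))).symm

/-- copy of a private definition of Mathlib (`Ideal/Asymptotics.lean`) -/
def coneLatticeEquiv (J : (Ideal (𝓞 K))⁰) (s : ℝ) :
    ↑({x | x ∈ (toMixed K) ⁻¹' fundamentalCone K ∧ mixedEmbedding.norm ((toMixed K) x) ≤ s} ∩
      (ZLattice.comap ℝ (idealLattice K ((FractionalIdeal.mk0 K) J)) (toMixed K).toLinearMap))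
        ≃ {a : idealSet K J // mixedEmbedding.norm (a : mixedSpace K) ≤ s} := by
  rw [ZLattice.coe_comap]
  refine (((toMixed K).toEquiv.image _).trans (Equiv.subtypeEquivProp ?_)).trans
    (Equiv.subtypeSubtypeEquivSubtypeInter _ (mixedEmbedding.norm · ≤ s)).symm
  ext
  simp_rw [mem_idealSet, Set.mem_image, Set.mem_inter_iff, Set.mem_preimage, SetLike.mem_coe,
    mem_idealLattice, FractionalIdeal.coe_mk0]
  constructor
  · rintro ⟨_, ⟨⟨hx₁, hx₂⟩, _, ⟨x, hx₃, rfl⟩, h⟩, rfl⟩
    exact ⟨⟨hx₁, x, hx₃, h⟩, hx₂⟩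
  · rintro ⟨⟨hx₁, ⟨x, hx₂, rfl⟩⟩, hx₃⟩
    exact ⟨(toMixed K).symm (mixedEmbedding K x), ⟨⟨hx₁, hx₃⟩, ⟨(x : K), by simp [hx₂], rfl⟩⟩, rfl⟩


variable (K)

/-- Counting points of the ideal lattice in the fundamental cone, with error term. -/
theorem exists_cone_count (J : (Ideal (𝓞 K))⁰) :
    ∃ a C : ℝ, 0 ≤ C ∧ ∀ c : ℝ, 1 ≤ c →
      |(Nat.card {a : idealSet K J // mixedEmbedding.norm (a : mixedSpace K) ≤ c} : ℝ) - c * a| ≤
        C * c ^ (1 - 1 / (finrank ℚ K : ℝ)) := by
  have h₁ : ∀ s : ℝ,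
    {x | x ∈ toMixed K ⁻¹' fundamentalCone K ∧ mixedEmbedding.norm (toMixed K x) ≤ s} =
      toMixed K ⁻¹' {x | x ∈ fundamentalCone K ∧ mixedEmbedding.norm x ≤ s} := fun _ ↦ rfl
  have h₂ : {x | x ∈ fundamentalCone K ∧ mixedEmbedding.norm x ≤ 1} = normLeOne K := by ext; simp
  have hX : ∀ ⦃x : euclidean.mixedSpace K⦄ ⦃r : ℝ⦄, x ∈ toMixed K ⁻¹' fundamentalCone K → 0 < r →
      r • x ∈ toMixed K ⁻¹' fundamentalCone K := fun x r hx hr => by
    rwa [Set.mem_preimage, map_smul, smul_mem_iff_mem hr.ne']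
  have hF : ∀ (x : euclidean.mixedSpace K) ⦃r : ℝ⦄, 0 ≤ r →
      mixedEmbedding.norm (toMixed K (r • x)) =
        r ^ finrank ℝ (euclidean.mixedSpace K) * mixedEmbedding.norm (toMixed K x) := by
    intro x r hr
    rw [map_smul, mixedEmbedding.norm_smul, euclidean.finrank, abs_of_nonneg hr]
  have hbd : IsBounded {x | x ∈ toMixed K ⁻¹' fundamentalCone K ∧
      mixedEmbedding.norm (toMixed K x) ≤ 1} := by
    rw [h₁, h₂]
    exact (toMixed K).antilipschitz.isBounded_preimage (isBounded_normLeOne K)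
  have hmeas : MeasurableSet {x | x ∈ toMixed K ⁻¹' fundamentalCone K ∧
      mixedEmbedding.norm (toMixed K x) ≤ 1} := by
    rw [h₁, h₂]
    exact (toMixed K).continuous.measurable (measurableSet_normLeOne K)
  have hfr : IsLipParam (finrank ℝ (euclidean.mixedSpace K) - 1)
      (frontier {x | x ∈ toMixed K ⁻¹' fundamentalCone K ∧
        mixedEmbedding.norm (toMixed K x) ≤ 1}) := by
    rw [h₁, h₂, euclidean.finrank, ← (toMixed K).coe_toHomeomorph,
      ← Homeomorph.preimage_frontier, (toMixed K).coe_toHomeomorph,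
      ← (toMixed K).image_symm_eq_preimage]
    exact IsLipParam.image ((toMixed K).symm : mixedSpace K →L[ℝ] euclidean.mixedSpace K).lipschitz
      (isLipParam_frontier_normLeOne K)
  obtain ⟨C, hC0, hC⟩ := card_le_sub_le
    (ZLattice.comap ℝ (mixedEmbedding.idealLattice K (FractionalIdeal.mk0 K J))
      (toMixed K).toLinearMap) hX hF hbd hmeas hfr
  refine ⟨volume.real {x | x ∈ toMixed K ⁻¹' fundamentalCone K ∧
      mixedEmbedding.norm (toMixed K x) ≤ 1} /
    ZLattice.covolume (ZLattice.comap ℝ (mixedEmbedding.idealLattice K (FractionalIdeal.mk0 K J))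
      (toMixed K).toLinearMap), C, hC0, fun c hc => ?_⟩
  have := hC c hc
  rw [euclidean.finrank] at this
  rw [← Nat.card_congr (coneLatticeEquiv J c)]
  exact this


/-- Ideal count in a class, with error term and an unspecified main constant. -/
theorem exists_class_count (C : ClassGroup (𝓞 K)) :
    ∃ a M : ℝ, 0 ≤ M ∧ ∀ x : ℝ, 1 ≤ x →
      |(Nat.card {I : (Ideal (𝓞 K))⁰ //
          absNorm (I : Ideal (𝓞 K)) ≤ x ∧ ClassGroup.mk0 I = C} : ℝ) - a * x| ≤
        M * x ^ (1 - 1 / (finrank ℚ K : ℝ)) := by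
  obtain ⟨J, hJ⟩ := ClassGroup.mk0_surjective C⁻¹
  obtain ⟨a₀, C₀, hC₀, hcone⟩ := exists_cone_count K J
  have hN1 : (1 : ℝ) ≤ (absNorm (J : Ideal (𝓞 K)) : ℝ) := by
    have : 1 ≤ absNorm (J : Ideal (𝓞 K)) := absNorm_pos_of_nonZeroDivisors J
    exact_mod_cast this
  have hw0 : (0 : ℝ) < (torsionOrder K : ℝ) := by
    have := torsionOrder_pos K
    exact_mod_cast this
  set N : ℝ := (absNorm (J : Ideal (𝓞 K)) : ℝ) with hN
  set w : ℝ := (torsionOrder K : ℝ) with hw
  set r : ℝ := 1 - 1 / (finrank ℚ K : ℝ) with hr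
  refine ⟨N * a₀ / w, C₀ * N ^ r / w, by positivity, fun x hx => ?_⟩
  have hx0 : 0 ≤ x := le_trans zero_le_one hx
  have hc1 : 1 ≤ x * N := by nlinarith
  have h1 := card_class_eq_card_principal hJ x
  have h2 := card_isPrincipal_dvd_norm_le K J (x * N)
  have h3 := hcone (x * N) hc1
  rw [← h2, Nat.cast_mul, ← h1, Real.mul_rpow hx0 (le_trans zero_le_one hN1)] at h3
  set cnt : ℝ := (Nat.card {I : (Ideal (𝓞 K))⁰ //
          absNorm (I : Ideal (𝓞 K)) ≤ x ∧ ClassGroup.mk0 I = C} : ℝ) with hcnt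
  have h4 : cnt - N * a₀ / w * x = (cnt * w - x * N * a₀) / w := by
    field_simp
  rw [h4, abs_div, abs_of_pos hw0, div_le_iff₀ hw0]
  calc |cnt * w - x * N * a₀| ≤ C₀ * (x ^ r * N ^ r) := h3
    _ = C₀ * N ^ r / w * x ^ r * w := by field_simp

/-- The main constant is Mathlib's. -/
theorem class_count_const_eq (C : ClassGroup (𝓞 K)) {a M : ℝ}
    (h : ∀ x : ℝ, 1 ≤ x →
      |(Nat.card {I : (Ideal (𝓞 K))⁰ //
          absNorm (I : Ideal (𝓞 K)) ≤ x ∧ ClassGroup.mk0 I = C} : ℝ) - a * x| ≤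
        M * x ^ (1 - 1 / (finrank ℚ K : ℝ))) :
    a = (2 ^ nrRealPlaces K * (2 * π) ^ nrComplexPlaces K * regulator K) /
            (torsionOrder K * Real.sqrt |discr K|) := by
  have hn : (0 : ℝ) < 1 / (finrank ℚ K : ℝ) := by
    have : 0 < finrank ℚ K := finrank_pos
    positivity
  have hlim := NumberField.Ideal.tendsto_norm_le_and_mk_eq_div_atTop K C
  have hlim2 : Tendsto (fun x : ℝ ↦
      (Nat.card {I : (Ideal (𝓞 K))⁰ //
        absNorm (I : Ideal (𝓞 K)) ≤ x ∧ ClassGroup.mk0 I = C} : ℝ) / x) atTop (𝓝 a) := by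
    rw [tendsto_iff_dist_tendsto_zero]
    have hz : Tendsto (fun x : ℝ => M * x ^ (-(1 / (finrank ℚ K : ℝ)))) atTop (𝓝 0) := by
      simpa using (tendsto_rpow_neg_atTop hn).const_mul M
    refine squeeze_zero' (Eventually.of_forall fun _ => dist_nonneg) ?_ hz
    filter_upwards [eventually_ge_atTop 1] with x hx
    have hx0 : 0 < x := lt_of_lt_of_le one_pos hx
    rw [Real.dist_eq]
    have h1 := h x hx
    have h2 : (Nat.card {I : (Ideal (𝓞 K))⁰ //
        absNorm (I : Ideal (𝓞 K)) ≤ x ∧ ClassGroup.mk0 I = C} : ℝ) / x - a =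
        ((Nat.card {I : (Ideal (𝓞 K))⁰ //
        absNorm (I : Ideal (𝓞 K)) ≤ x ∧ ClassGroup.mk0 I = C} : ℝ) - a * x) / x := by
      field_simp
    rw [h2, abs_div, abs_of_pos hx0, div_le_iff₀ hx0]
    refine h1.trans (le_of_eq ?_)
    rw [mul_assoc, ← Real.rpow_add_one hx0.ne']
    congr 2
    ring
  exact tendsto_nhds_unique hlim2 hlim

/-- **L3**: ideal count per class with a power saving error term (closes `H98.IdealCountError`). -/
theorem idealCountError : H98.IdealCountError K := by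
  choose a M hM h using exists_class_count K
  have ha : ∀ C, a C = (2 ^ nrRealPlaces K * (2 * π) ^ nrComplexPlaces K * regulator K) /
            (torsionOrder K * Real.sqrt |discr K|) := fun C => class_count_const_eq K C (h C)
  refine ⟨(2 ^ nrRealPlaces K * (2 * π) ^ nrComplexPlaces K * regulator K) /
            (torsionOrder K * Real.sqrt |discr K|), ∑ C, M C, ?_, fun C x hx => ?_⟩
  · refine div_pos (mul_pos (by positivity) (regulator_pos K)) ?_
    exact mul_pos (Nat.cast_pos.mpr (torsionOrder_pos K)) <|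
      Real.sqrt_pos_of_pos <| abs_pos.mpr (Int.cast_ne_zero.mpr (discr_ne_zero K))
  · have := h C x hx
    rw [ha C] at this
    refine this.trans ?_
    gcongr
    exact Finset.single_le_sum (f := M) (fun C _ => hM C) (Finset.mem_univ C)

end Fermat.Agent.S14.H56
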