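import Mathlib
import Fermat.Agent.S14.H27_BaseChange

/-!
# The cyclotomic symbol (WP5b / helper90's FC3)

* `frob_zeta`   : a Frobenius at a prime `𝔓 ∌ m` of `N` acts on a primitive `m`-th root of unity
  `ζ ∈ N` by `ζ ↦ ζ ^ N(𝔓 ∩ E)` (no unramifiedness needed).
* `frobP_zeta`, `artin_zeta` : `N/E` abelian, `𝔅` prime to `m` ⇒ `artin N 𝔅 ζ = ζ ^ absNorm 𝔅`.
* `artin_eq_one_of_absNorm_pow` : FC3 of the WP5 skeleton, verbatim.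
-/

set_option autoImplicit false

noncomputable section

namespace Fermat.Agent.S14.H69

open NumberField UniqueFactorizationMonoid Fermat.Agent.S14.H27
open scoped Pointwise IsMulCommutative

section Frob

variable {E N : Type*} [Field E] [NumberField E] [Field N] [NumberField N]
  [Algebra E N] [IsGalois E N]

/-- the image of a primitive `m`-th root of unity in a domain where `m ≠ 0` is primitive. -/
theorem isPrimitiveRoot_map_of_ne_zero {R S : Type*} [CommRing R] [IsDomain R] [CommRing S]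
    [IsDomain S] (f : R →+* S) {m : ℕ} (hm0 : 0 < m) (hmS : (m : S) ≠ 0) {ζ : R}
    (hζ : IsPrimitiveRoot ζ m) : IsPrimitiveRoot (f ζ) m := by
  haveI : NeZero (m : S) := ⟨hmS⟩
  rw [← Polynomial.isRoot_cyclotomic_iff, ← Polynomial.map_cyclotomic m f]
  exact (hζ.isRoot_cyclotomic hm0).map

/-- **Frobenius acts on roots of unity by the norm of the prime below.** -/
theorem frob_zeta {m : ℕ} (hm0 : 0 < m) {ζ : N} (hζ : IsPrimitiveRoot ζ m)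
    (𝔓 : Ideal (𝓞 N)) [𝔓.IsPrime] (h𝔓 : 𝔓 ≠ ⊥) (hm : (m : 𝓞 N) ∉ 𝔓) :
    frob E 𝔓 h𝔓 ζ = ζ ^ Nat.card (𝓞 E ⧸ 𝔓.under (𝓞 E)) := by
  haveI : NeZero m := ⟨hm0.ne'⟩
  set q := Nat.card (𝓞 E ⧸ 𝔓.under (𝓞 E)) with hq
  set σ := frob E 𝔓 h𝔓 with hσ
  have hζ' : IsPrimitiveRoot hζ.toInteger m := hζ.toInteger_isPrimitiveRoot
  -- `σ • ζ'` is an `m`-th root of unity, hence a power of `ζ'`
  have hpow : (σ • hζ.toInteger) ^ m = 1 := by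
    rw [← smul_pow', hζ'.pow_eq_one, smul_one]
  obtain ⟨a, -, ha⟩ := hζ'.eq_pow_of_pow_eq_one hpow
  -- reduce modulo `𝔓`
  have hmS : ((m : ℕ) : 𝓞 N ⧸ 𝔓) ≠ 0 := by
    rw [← map_natCast (Ideal.Quotient.mk 𝔓), Ne, Ideal.Quotient.eq_zero_iff_mem]
    exact hm
  have h₀ : IsPrimitiveRoot (Ideal.Quotient.mk 𝔓 hζ.toInteger) m :=
    isPrimitiveRoot_map_of_ne_zero (Ideal.Quotient.mk 𝔓) hm0 hmS hζ'
  have hspec : σ • hζ.toInteger - hζ.toInteger ^ q ∈ 𝔓 := frob_spec 𝔓 h𝔓 hζ.toInteger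
  rw [← ha, ← Ideal.Quotient.eq, map_pow, map_pow,
    (h₀.isOfFinOrder (NeZero.ne _)).pow_inj_mod, ← h₀.eq_orderOf] at hspec
  have hfin : hζ.toInteger ^ a = hζ.toInteger ^ q := by
    rw [(hζ'.isOfFinOrder (NeZero.ne _)).pow_inj_mod, ← hζ'.eq_orderOf]
    exact hspec
  have hsm : σ • hζ.toInteger = hζ.toInteger ^ q := by rw [← ha, hfin]
  have h4 := congrArg (fun x : 𝓞 N => (x : N)) hsm
  have h5 : ((σ • hζ.toInteger : 𝓞 N) : N) = σ ζ := rfl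
  simp only [h5] at h4
  simpa using h4

end Frob

section Abelian

variable {E N : Type*} [Field E] [NumberField E] [Field N] [NumberField N]
  [Algebra E N] [IsGalois E N] [IsMulCommutative Gal(N/E)]

/-- the Artin symbol of a prime `𝔮 ∌ m` acts on `ζ_m` by `ζ ↦ ζ ^ N𝔮`. -/
theorem frobP_zeta {m : ℕ} (hm0 : 0 < m) {ζ : N} (hζ : IsPrimitiveRoot ζ m)
    (𝔮 : Ideal (𝓞 E)) [𝔮.IsPrime] (h𝔮 : 𝔮 ≠ ⊥) (hm : (m : 𝓞 E) ∉ 𝔮) :
    frobP N 𝔮 ζ = ζ ^ Ideal.absNorm 𝔮 := by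
  obtain ⟨⟨𝔓, h𝔓prime, h𝔓over⟩⟩ := 𝔮.nonempty_primesOver (S := 𝓞 N)
  have h𝔓 : 𝔓 ≠ ⊥ := Ideal.ne_bot_of_liesOver_of_ne_bot h𝔮 𝔓
  have hu : 𝔓.under (𝓞 E) = 𝔮 := (Ideal.over_def 𝔓 𝔮).symm
  have hm' : (m : 𝓞 N) ∉ 𝔓 := by
    intro h
    apply hm
    rw [← hu, Ideal.under_def, Ideal.mem_comap, map_natCast]
    exact h
  rw [frobP_eq_frob 𝔮 h𝔮 𝔓 h𝔓, frob_zeta hm0 hζ 𝔓 h𝔓 hm', hu, Ideal.absNorm_apply,
    Submodule.cardQuot_apply]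

/-- **The cyclotomic symbol**: for `𝔅` prime to `m`, the Artin symbol of `𝔅` acts on `ζ_m` by
`ζ ↦ ζ ^ N𝔅`. -/
theorem artin_zeta {m : ℕ} (hm0 : 0 < m) {ζ : N} (hζ : IsPrimitiveRoot ζ m)
    (𝔅 : Ideal (𝓞 E)) (h𝔅 : 𝔅 ≠ ⊥)
    (hm : ∀ 𝔮 : Ideal (𝓞 E), 𝔮.IsPrime → 𝔅 ≤ 𝔮 → (m : 𝓞 E) ∉ 𝔮) :
    artin N 𝔅 ζ = ζ ^ Ideal.absNorm 𝔅 := by
  have key : ∀ s : Multiset (Ideal (𝓞 E)),
      (∀ 𝔮 ∈ s, ∃ _ : 𝔮.IsPrime, 𝔮 ≠ ⊥ ∧ (m : 𝓞 E) ∉ 𝔮) →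
      ((s.map (frobP N)).prod) ζ = ζ ^ Ideal.absNorm s.prod := by
    intro s
    induction s using Multiset.induction_on with
    | empty => intro _; simp
    | cons 𝔮 s ih =>
      intro hs
      obtain ⟨hq, hq0, hqm⟩ := hs 𝔮 (Multiset.mem_cons_self 𝔮 s)
      have hs' : ∀ 𝔮' ∈ s, ∃ _ : 𝔮'.IsPrime, 𝔮' ≠ ⊥ ∧ (m : 𝓞 E) ∉ 𝔮' :=
        fun 𝔮' h' => hs 𝔮' (Multiset.mem_cons_of_mem h')
      rw [Multiset.map_cons, Multiset.prod_cons, Multiset.prod_cons, AlgEquiv.mul_apply, ih hs',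
        map_pow, frobP_zeta hm0 hζ 𝔮 hq0 hqm, map_mul, pow_mul]
  rw [artin]
  conv_rhs => rw [← Ideal.prod_normalizedFactors_eq_self h𝔅]
  apply key
  intro 𝔮 h𝔮
  have hprime := prime_of_normalized_factor 𝔮 h𝔮
  have hqp := Ideal.isPrime_of_prime hprime
  exact ⟨hqp, hprime.ne_zero, hm 𝔮 hqp (Ideal.le_of_dvd (dvd_of_mem_normalizedFactors h𝔮))⟩

/-- a prime containing an ideal coprime to `(m)` does not contain `m`. -/
theorem natCast_not_mem_of_isCoprime {m : ℕ} {𝔅 : Ideal (𝓞 E)}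
    (hcop : IsCoprime 𝔅 (Ideal.span {(m : 𝓞 E)})) (𝔮 : Ideal (𝓞 E)) (hq : 𝔮.IsPrime)
    (hle : 𝔅 ≤ 𝔮) : (m : 𝓞 E) ∉ 𝔮 := by
  intro hmem
  rw [Ideal.isCoprime_iff_sup_eq] at hcop
  have : (⊤ : Ideal (𝓞 E)) ≤ 𝔮 := by
    rw [← hcop]
    exact sup_le hle ((Ideal.span_singleton_le_iff_mem _).mpr hmem)
  exact hq.ne_top (top_le_iff.mp this)

theorem artin_zeta_of_isCoprime {m : ℕ} (hm0 : 0 < m) {ζ : N} (hζ : IsPrimitiveRoot ζ m)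
    (𝔅 : Ideal (𝓞 E)) (h𝔅 : 𝔅 ≠ ⊥) (hcop : IsCoprime 𝔅 (Ideal.span {(m : 𝓞 E)})) :
    artin N 𝔅 ζ = ζ ^ Ideal.absNorm 𝔅 :=
  artin_zeta hm0 hζ 𝔅 h𝔅 (natCast_not_mem_of_isCoprime hcop)

end Abelian

section FC3

/-- **FC3: cyclotomic symbol.** `E ⊆ M ⊆ N`, `N/E` and `M/E` abelian, `M/E` unramified, `ζ ∈ N` a
primitive `m`-th root of unity, and every `σ ∈ Gal(N/E)` acting on `ζ` through a `p`-th power
residue fixes `M`. Then ideals of `E` prime to `m` whose absolute norm is a `p`-th power mod `m`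
have trivial Artin symbol in `M/E`. -/
theorem artin_eq_one_of_absNorm_pow
    {E M N : Type*} [Field E] [NumberField E] [Field M] [NumberField M] [Field N] [NumberField N]
    [Algebra E M] [Algebra M N] [Algebra E N] [IsScalarTower E M N]
    [IsGalois E M] [IsGalois E N] [IsMulCommutative Gal(M/E)] [IsMulCommutative Gal(N/E)]
    (hunr : ∀ (P : Ideal (𝓞 M)) [P.IsPrime], P ≠ ⊥ → P.ramificationIdx (𝓞 E) = 1)
    (p m : ℕ) (hm : m.Prime) (ζ : N) (hζ : IsPrimitiveRoot ζ m)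
    (hM : ∀ (σ : Gal(N/E)) (a t : ℕ), σ ζ = ζ ^ a → (t : ZMod m) ^ p = a →
      ∀ x : M, σ (algebraMap M N x) = algebraMap M N x)
    (𝔅 : Ideal (𝓞 E)) (h𝔅 : 𝔅 ≠ ⊥) (hcop : IsCoprime 𝔅 (Ideal.span {(m : 𝓞 E)}))
    (t : ZMod m) (ht : t ^ p = (Ideal.absNorm 𝔅 : ZMod m)) :
    artin M 𝔅 = 1 := by
  haveI : NeZero m := ⟨hm.ne_zero⟩
  have h1 : AlgEquiv.restrictNormalHom M (artin N 𝔅) = artin M 𝔅 :=
    restrictNormalHom_artin 𝔅 fun 𝔓 _ h𝔓 _ =>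
      (isUnramifiedAt_iff_ramificationIdx 𝔓).mpr (hunr 𝔓 h𝔓)
  have h2 : artin N 𝔅 ζ = ζ ^ Ideal.absNorm 𝔅 :=
    artin_zeta_of_isCoprime hm.pos hζ 𝔅 h𝔅 hcop
  have h3 := hM (artin N 𝔅) (Ideal.absNorm 𝔅) t.val h2 (by rw [ZMod.natCast_zmod_val, ht])
  rw [← h1]
  ext x
  apply FaithfulSMul.algebraMap_injective M N
  have h6 : algebraMap M N (AlgEquiv.restrictNormalHom M (artin N 𝔅) x)
      = artin N 𝔅 (algebraMap M N x) := AlgEquiv.restrictNormal_commutes (artin N 𝔅) M x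
  rw [h6, h3, AlgEquiv.one_apply]

/-- converse of FC3: if the subgroup of `Gal(N/E)` fixing `M` only contains automorphisms acting on
`ζ` through `p`-th power residues, then `artin M 𝔅 = 1` forces `absNorm 𝔅` to be a `p`-th power
modulo `m`. (No unramifiedness of `N/E` is needed, only of `M/E`.) -/
theorem exists_pow_eq_absNorm_of_artin_eq_one
    {E M N : Type*} [Field E] [NumberField E] [Field M] [NumberField M] [Field N] [NumberField N]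
    [Algebra E M] [Algebra M N] [Algebra E N] [IsScalarTower E M N]
    [IsGalois E M] [IsGalois E N] [IsMulCommutative Gal(M/E)] [IsMulCommutative Gal(N/E)]
    (hunr : ∀ (P : Ideal (𝓞 M)) [P.IsPrime], P ≠ ⊥ → P.ramificationIdx (𝓞 E) = 1)
    (p m : ℕ) (hm0 : 0 < m) (ζ : N) (hζ : IsPrimitiveRoot ζ m)
    (hM : ∀ (σ : Gal(N/E)) (a : ℕ), σ ζ = ζ ^ a →
      (∀ x : M, σ (algebraMap M N x) = algebraMap M N x) → ∃ t : ZMod m, t ^ p = a)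
    (𝔅 : Ideal (𝓞 E)) (h𝔅 : 𝔅 ≠ ⊥) (hcop : IsCoprime 𝔅 (Ideal.span {(m : 𝓞 E)}))
    (h1 : artin M 𝔅 = 1) :
    ∃ t : ZMod m, t ^ p = (Ideal.absNorm 𝔅 : ZMod m) := by
  have h2 : AlgEquiv.restrictNormalHom M (artin N 𝔅) = artin M 𝔅 :=
    restrictNormalHom_artin 𝔅 fun 𝔓 _ h𝔓 _ =>
      (isUnramifiedAt_iff_ramificationIdx 𝔓).mpr (hunr 𝔓 h𝔓)
  have h3 : artin N 𝔅 ζ = ζ ^ Ideal.absNorm 𝔅 :=
    artin_zeta_of_isCoprime hm0 hζ 𝔅 h𝔅 hcop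
  refine hM (artin N 𝔅) (Ideal.absNorm 𝔅) h3 fun x => ?_
  have h6 : algebraMap M N (AlgEquiv.restrictNormalHom M (artin N 𝔅) x)
      = artin N 𝔅 (algebraMap M N x) := AlgEquiv.restrictNormal_commutes (artin N 𝔅) M x
  rw [← h6, h2, h1, AlgEquiv.one_apply]

end FC3

end Fermat.Agent.S14.H69

end
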