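import Mathlib

/-!
# S14 / WP5-fields: generic sub-lemmas (R1), (R2) of helper80's post #613 (helper73)

* `inertia_apply_of_pow_eq_one` (R2): an element of the inertia group of a prime `𝔔 ∌ m` fixes
  every `m`-th root of unity.
* `sub_one_dvd_ramificationIdx` (R1): if `Ω ∋ ζ_m` (`m ≠ p` primes), `K = ℚ(ζ_p) ⊆ Ω` and `𝔔 ∣ m`
  is a prime of `Ω`, then `m - 1 ∣ e(𝔔 | K)`.
-/

set_option autoImplicit false
set_option linter.style.haveILetI false

noncomputable section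

namespace Fermat.Agent.S14.H73

open NumberField
open scoped Pointwise

section R2

/-- the image of a primitive `d`-th root of unity in a domain where `d ≠ 0` is primitive. -/
theorem isPrimitiveRoot_map_of_natCast_ne_zero {R S : Type*} [CommRing R] [IsDomain R]
    [CommRing S] [IsDomain S] (f : R →+* S) {d : ℕ} (hd0 : 0 < d) (hdS : (d : S) ≠ 0) {ζ : R}
    (hζ : IsPrimitiveRoot ζ d) : IsPrimitiveRoot (f ζ) d := by
  haveI : NeZero (d : S) := ⟨hdS⟩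
  rw [← Polynomial.isRoot_cyclotomic_iff, ← Polynomial.map_cyclotomic d f]
  exact (hζ.isRoot_cyclotomic hd0).map

/-- **(R2)** Inertia at a prime not containing `m` acts trivially on `m`-th roots of unity. -/
theorem inertia_apply_of_pow_eq_one {m : ℕ} {K Ω : Type*} [Field K] [NumberField K] [Field Ω]
    [NumberField Ω] [Algebra K Ω] [IsGalois K Ω] {ζ : Ω} (hζ : ζ ^ m = 1)
    (𝔔 : Ideal (𝓞 Ω)) [𝔔.IsPrime] (h𝔔 : (m : 𝓞 Ω) ∉ 𝔔) (σ : Gal(Ω/K))
    (hσ : σ ∈ 𝔔.inertia Gal(Ω/K)) : σ ζ = ζ := by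
  have hm0 : m ≠ 0 := by
    rintro rfl
    exact h𝔔 (by simp)
  -- `ζ` is a primitive `d`-th root of unity with `d ∣ m`
  set d := orderOf ζ with hd
  have hdm : d ∣ m := orderOf_dvd_of_pow_eq_one hζ
  have hd0 : 0 < d := Nat.pos_of_dvd_of_pos hdm (Nat.pos_of_ne_zero hm0)
  haveI : NeZero d := ⟨hd0.ne'⟩
  have hprim : IsPrimitiveRoot ζ d := IsPrimitiveRoot.orderOf ζ
  have hd𝔔 : (d : 𝓞 Ω) ∉ 𝔔 := by
    intro h
    obtain ⟨c, rfl⟩ := hdm
    apply h𝔔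
    rw [Nat.cast_mul]
    exact 𝔔.mul_mem_right _ h
  have hζ' : IsPrimitiveRoot hprim.toInteger d := hprim.toInteger_isPrimitiveRoot
  have hpow : (σ • hprim.toInteger) ^ d = 1 := by
    rw [← smul_pow', hζ'.pow_eq_one, smul_one]
  obtain ⟨a, -, ha⟩ := hζ'.eq_pow_of_pow_eq_one hpow
  have hdS : ((d : ℕ) : 𝓞 Ω ⧸ 𝔔) ≠ 0 := by
    rw [← map_natCast (Ideal.Quotient.mk 𝔔), Ne, Ideal.Quotient.eq_zero_iff_mem]
    exact hd𝔔
  have h₀ : IsPrimitiveRoot (Ideal.Quotient.mk 𝔔 hprim.toInteger) d :=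
    isPrimitiveRoot_map_of_natCast_ne_zero (Ideal.Quotient.mk 𝔔) hd0 hdS hζ'
  have hspec : σ • hprim.toInteger - hprim.toInteger ∈ 𝔔 := hσ hprim.toInteger
  rw [← ha, ← Ideal.Quotient.eq, map_pow] at hspec
  nth_rewrite 2 [← pow_one (Ideal.Quotient.mk 𝔔 hprim.toInteger)] at hspec
  rw [(h₀.isOfFinOrder (NeZero.ne _)).pow_inj_mod, ← h₀.eq_orderOf] at hspec
  have hfin : hprim.toInteger ^ a = hprim.toInteger ^ 1 := by
    rw [(hζ'.isOfFinOrder (NeZero.ne _)).pow_inj_mod, ← hζ'.eq_orderOf]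
    exact hspec
  have hsm : σ • hprim.toInteger = hprim.toInteger := by rw [← ha, hfin, pow_one]
  have h4 := congrArg (fun x : 𝓞 Ω => (x : Ω)) hsm
  have h5 : ((σ • hprim.toInteger : 𝓞 Ω) : Ω) = σ ζ := rfl
  simp only [h5] at h4
  simpa using h4

end R2

section R1

/-- **(R1)** `K = ℚ(ζ_p)`, `Ω ⊇ K` a number field containing a primitive `m`-th root of unity,
`m ≠ p` primes, `𝔔` a prime of `Ω` over `m`: then `m - 1` divides `e(𝔔 | K)`. -/
theorem sub_one_dvd_ramificationIdx {p m : ℕ} (hp : p.Prime) (hm : m.Prime) (hmp : m ≠ p)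
    {K Ω : Type*} [Field K] [NumberField K] [Field Ω] [NumberField Ω] [Algebra K Ω]
    [IsCyclotomicExtension {p} ℚ K] {ζ : Ω} (hζ : IsPrimitiveRoot ζ m)
    (𝔔 : Ideal (𝓞 Ω)) [𝔔.IsPrime] (h𝔔 : (m : 𝓞 Ω) ∈ 𝔔) :
    (m - 1) ∣ 𝔔.ramificationIdx (𝓞 K) := by
  haveI : Fact m.Prime := ⟨hm⟩
  haveI : Fact p.Prime := ⟨hp⟩
  haveI : NeZero m := ⟨hm.ne_zero⟩
  haveI : NeZero p := ⟨hp.ne_zero⟩
  -- `𝔔` lies over `(m)` in `ℤ`
  have hover : 𝔔.under ℤ = Ideal.span {(m : ℤ)} := by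
    have hle : Ideal.span {(m : ℤ)} ≤ 𝔔.under ℤ := by
      rw [Ideal.span_singleton_le_iff_mem, Ideal.under_def, Ideal.mem_comap]
      simpa using h𝔔
    have hmax : (Ideal.span {(m : ℤ)}).IsMaximal :=
      Int.ideal_span_isMaximal_of_prime m
    exact (hmax.eq_of_le (Ideal.IsPrime.ne_top inferInstance) hle).symm
  haveI h𝔔over : 𝔔.LiesOver (Ideal.span {(m : ℤ)}) := ⟨hover.symm⟩
  -- the prime of `K` below `𝔔` is unramified over `ℤ`
  set P : Ideal (𝓞 K) := 𝔔.under (𝓞 K) with hP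
  haveI : 𝔔.LiesOver P := ⟨rfl⟩
  haveI : P.LiesOver (Ideal.span {(m : ℤ)}) := Ideal.LiesOver.tower_bot 𝔔 P _
  have h1 : P.ramificationIdx ℤ = 1 :=
    IsCyclotomicExtension.Rat.ramificationIdx_eq_of_not_dvd m K P
      (fun h => hmp ((Nat.prime_dvd_prime_iff_eq hm hp).mp h))
  have htK : 𝔔.ramificationIdx ℤ = P.ramificationIdx ℤ * 𝔔.ramificationIdx (𝓞 K) :=
    Ideal.ramificationIdx_tower P 𝔔
  -- the cyclotomic subfield `ℚ(ζ_m)` is totally ramified at `m`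
  let F : IntermediateField ℚ Ω := IntermediateField.adjoin ℚ {ζ}
  haveI : IsCyclotomicExtension {m} ℚ F := hζ.intermediateField_adjoin_isCyclotomicExtension ℚ
  set P' : Ideal (𝓞 F) := 𝔔.under (𝓞 F) with hP'
  haveI : 𝔔.LiesOver P' := ⟨rfl⟩
  haveI : P'.LiesOver (Ideal.span {(m : ℤ)}) := Ideal.LiesOver.tower_bot 𝔔 P' _
  have h2 : P'.ramificationIdx ℤ = m - 1 :=
    IsCyclotomicExtension.Rat.ramificationIdx_eq_of_prime m F P'
  have htF : 𝔔.ramificationIdx ℤ = P'.ramificationIdx ℤ * 𝔔.ramificationIdx (𝓞 F) :=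
    Ideal.ramificationIdx_tower P' 𝔔
  rw [h1, one_mul] at htK
  rw [← htK, htF, h2]
  exact dvd_mul_right _ _

end R1

end Fermat.Agent.S14.H73
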