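import Mathlib
import Fermat.Agent.S14.H27_BaseChange

/-!
S14 / WP5-FB1 and WP5-FB2 (helper78).

* `unramified_of_resGal_injective` : base change of an unramified extension is unramified.
* `relNorm_under_eq_of_frob_fixes` : if the Frobenius of `𝔓` fixes the intermediate field `E`,
  the prime of `E` below `𝔓` has relative norm the prime of `K` below.
-/

set_option autoImplicit false

noncomputable section

namespace Fermat.Agent.S14.H78

open NumberField Fermat.Agent.S14.H27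
open scoped Pointwise IsMulCommutative nonZeroDivisors

section FB1

variable {K L E M : Type*} [Field K] [NumberField K] [Field L] [NumberField L]
  [Field E] [NumberField E] [Field M] [NumberField M]
  [Algebra K L] [Algebra K E] [Algebra L M] [Algebra E M] [Algebra K M]
  [IsScalarTower K L M] [IsScalarTower K E M]
  [IsGalois K L] [IsGalois E M]

/-- Restriction `Gal(M/E) → Gal(L/K)` (same definition as in helper90's WP5 skeleton). -/
def resGal (σ : Gal(M/E)) : Gal(L/K) := (σ.restrictScalars K).restrictNormal L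

theorem resGal_eq_resHom (σ : Gal(M/E)) :
    resGal (K := K) (L := L) σ = resHom K L σ := rfl

/-- The inertia group of a prime of `M` over `E` is trivial as soon as `L/K` is unramified
and restriction `Gal(M/E) → Gal(L/K)` is injective. -/
theorem inertia_eq_bot_of_resHom_injective
    (hunrL : ∀ (P : Ideal (𝓞 L)) [P.IsPrime], P ≠ ⊥ → P.ramificationIdx (𝓞 K) = 1)
    (hres : Function.Injective (resHom (E := E) (L' := M) K L))
    (P : Ideal (𝓞 M)) [P.IsPrime] (hP : P ≠ ⊥) : P.inertia Gal(M/E) = ⊥ := by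
  rw [eq_bot_iff]
  intro σ hσ
  rw [Subgroup.mem_bot]
  have hPL : P.under (𝓞 L) ≠ ⊥ := mt Ideal.eq_bot_of_comap_eq_bot hP
  have hur : Algebra.IsUnramifiedAt (𝓞 K) (P.under (𝓞 L)) :=
    (isUnramifiedAt_iff_ramificationIdx _).2 (hunrL _ hPL)
  have hin : resHom K L σ ∈ (P.under (𝓞 L)).inertia Gal(L/K) := by
    intro x
    show resHom K L σ • x - x ∈ P.under (𝓞 L)
    rw [Ideal.under_def, Ideal.mem_comap, map_sub, algebraMap_resHom_smul]
    exact hσ _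
  rw [inertia_eq_bot _ hPL hur, Subgroup.mem_bot] at hin
  exact hres (hin.trans (map_one _).symm)

theorem unramified_of_resGal_injective
    (hunrL : ∀ (P : Ideal (𝓞 L)) [P.IsPrime], P ≠ ⊥ → P.ramificationIdx (𝓞 K) = 1)
    (hres : Function.Injective (resGal (K := K) (L := L) (E := E) (M := M)))
    (P : Ideal (𝓞 M)) [P.IsPrime] (hP : P ≠ ⊥) : P.ramificationIdx (𝓞 E) = 1 := by
  have hbot := inertia_eq_bot_of_resHom_injective (K := K) (L := L) hunrL hres P hP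
  have hp : P.under (𝓞 E) ≠ ⊥ := mt Ideal.eq_bot_of_comap_eq_bot hP
  haveI : (P.under (𝓞 E)).IsMaximal := Ideal.IsPrime.isMaximal inferInstance hp
  have hcard := Ideal.card_inertia_eq_ramificationIdxIn (G := Gal(M/E)) (P.under (𝓞 E)) P
  rw [hbot, Ideal.ramificationIdxIn_eq_ramificationIdx (P.under (𝓞 E)) P Gal(M/E)] at hcard
  simpa using hcard.symm

end FB1

section FB2

variable {K E N : Type*} [Field K] [NumberField K] [Field E] [NumberField E] [Field N]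
  [NumberField N] [Algebra K E] [Algebra E N] [Algebra K N] [IsScalarTower K E N] [IsGalois K N]

/-- If the Frobenius of `𝔓` fixes `E` pointwise, every element of `𝓞 E` is congruent to its
`N𝔭`-th power modulo `𝔓 ∩ E`. -/
theorem pow_card_sub_mem_under_of_frob_fixes
    (𝔓 : Ideal (𝓞 N)) [𝔓.IsPrime] (h𝔓 : 𝔓 ≠ ⊥)
    (hfix : ∀ x : E, frob K 𝔓 h𝔓 (algebraMap E N x) = algebraMap E N x) (x : 𝓞 E) :
    x ^ Nat.card (𝓞 K ⧸ 𝔓.under (𝓞 K)) - x ∈ 𝔓.under (𝓞 E) := by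
  rw [Ideal.under_def, Ideal.mem_comap, map_sub, map_pow]
  have h1 := frob_spec (K := K) 𝔓 h𝔓 (algebraMap (𝓞 E) (𝓞 N) x)
  have h2 : frob K 𝔓 h𝔓 • algebraMap (𝓞 E) (𝓞 N) x = algebraMap (𝓞 E) (𝓞 N) x := by
    apply RingOfIntegers.ext
    exact hfix (x : E)
  rw [h2] at h1
  have := 𝔓.neg_mem h1
  rwa [neg_sub] at this

/-- FB2 (residue degree form). -/
theorem inertiaDeg_under_eq_one_of_frob_fixes
    (𝔓 : Ideal (𝓞 N)) [𝔓.IsPrime] (h𝔓 : 𝔓 ≠ ⊥)
    (hfix : ∀ x : E, frob K 𝔓 h𝔓 (algebraMap E N x) = algebraMap E N x) :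
    (𝔓.under (𝓞 E)).inertiaDeg (𝓞 K) = 1 := by
  have h𝔮 : 𝔓.under (𝓞 E) ≠ ⊥ := mt Ideal.eq_bot_of_comap_eq_bot h𝔓
  have hKE : (𝔓.under (𝓞 E)).under (𝓞 K) = 𝔓.under (𝓞 K) := Ideal.under_under _
  have hp : (𝔓.under (𝓞 E)).under (𝓞 K) ≠ ⊥ := mt Ideal.eq_bot_of_comap_eq_bot h𝔮
  haveI : (𝔓.under (𝓞 E)).IsMaximal := Ideal.IsPrime.isMaximal inferInstance h𝔮
  haveI : ((𝔓.under (𝓞 E)).under (𝓞 K)).IsMaximal := Ideal.IsPrime.isMaximal inferInstance hp
  letI := Ideal.Quotient.field ((𝔓.under (𝓞 E)).under (𝓞 K))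
  letI := Ideal.Quotient.field (𝔓.under (𝓞 E))
  haveI : Finite (𝓞 E ⧸ 𝔓.under (𝓞 E)) := Ideal.finiteQuotientOfFreeOfNeBot _ h𝔮
  haveI : Finite (𝓞 K ⧸ (𝔓.under (𝓞 E)).under (𝓞 K)) := Ideal.finiteQuotientOfFreeOfNeBot _ hp
  rw [Ideal.inertiaDeg_eq_of_isMaximal ((𝔓.under (𝓞 E)).under (𝓞 K)) (𝔓.under (𝓞 E))]
  have key : ∀ y : 𝓞 E ⧸ 𝔓.under (𝓞 E),
      y ^ (Nat.card (𝓞 K ⧸ (𝔓.under (𝓞 E)).under (𝓞 K)) ^ 1) = y := by
    intro y
    obtain ⟨x, rfl⟩ := Ideal.Quotient.mk_surjective y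
    rw [pow_one, ← map_pow, Ideal.Quotient.eq, hKE]
    exact pow_card_sub_mem_under_of_frob_fixes 𝔓 h𝔓 hfix x
  exact Nat.dvd_one.mp ((forall_pow_card_pow_eq_iff _ _ 1).mp key)

/-- **FB2**: if the Frobenius of `𝔓` (prime of `N`) fixes the intermediate field `E` pointwise,
then the prime of `E` below `𝔓` has residue degree one over `K`, hence its relative norm is the
prime of `K` below. -/
theorem relNorm_under_eq_of_frob_fixes
    (𝔓 : Ideal (𝓞 N)) [𝔓.IsPrime] (h𝔓 : 𝔓 ≠ ⊥)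
    (hfix : ∀ x : E, frob K 𝔓 h𝔓 (algebraMap E N x) = algebraMap E N x) :
    Ideal.relNorm (𝓞 K) (𝔓.under (𝓞 E)) = 𝔓.under (𝓞 K) := by
  have h𝔮 : 𝔓.under (𝓞 E) ≠ ⊥ := mt Ideal.eq_bot_of_comap_eq_bot h𝔓
  rw [relNorm_prime (K := K) (𝔓.under (𝓞 E)) h𝔮,
    inertiaDeg_under_eq_one_of_frob_fixes 𝔓 h𝔓 hfix, pow_one, Ideal.under_under]

end FB2

end Fermat.Agent.S14.H78
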