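import Mathlib
import Fermat.Agent.S14.H78_FB

/-!
S14 / WP5-fields sub-lemmas G1, D3, D3' of helper80's list (board #613) (helper78).
-/

set_option autoImplicit false

noncomputable section

namespace Fermat.Agent.S14.H78

open NumberField Fermat.Agent.S14.H27
open scoped Pointwise

section G1

variable {K E L M : Type*} [Field K] [NumberField K] [Field E] [NumberField E]
  [Field L] [NumberField L] [Field M] [NumberField M]
  [Algebra K E] [Algebra K L] [Algebra E M] [Algebra L M] [Algebra K M]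
  [IsScalarTower K E M] [IsScalarTower K L M] [IsGalois K L] [IsGalois E M]

/-- pointwise form of injectivity of restriction `Gal(M/E) → Gal(L/K)`. -/
theorem resHom_injective_of_forall
    (hres : ∀ σ : Gal(M/E), (∀ x : L, σ (algebraMap L M x) = algebraMap L M x) → σ = 1) :
    Function.Injective (resHom (E := E) (L' := M) K L) := by
  rw [injective_iff_map_eq_one]
  intro σ hσ
  apply hres
  intro x
  rw [← algebraMap_resHom (K := K) σ x, hσ, AlgEquiv.one_apply]

/-- (G1) unramified base change via inertia groups. -/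
theorem ramificationIdx_eq_one_of_res_inj
    (hres : ∀ σ : Gal(M/E), (∀ x : L, σ (algebraMap L M x) = algebraMap L M x) → σ = 1)
    (hunr : ∀ Q : Ideal (𝓞 L), Q.IsPrime → Q ≠ ⊥ → Q.ramificationIdx (𝓞 K) = 1) :
    ∀ 𝔓 : Ideal (𝓞 M), 𝔓.IsPrime → 𝔓 ≠ ⊥ → 𝔓.ramificationIdx (𝓞 E) = 1 := by
  intro 𝔓 h𝔓prime h𝔓
  haveI := h𝔓prime
  exact unramified_of_resGal_injective (K := K) (L := L) (fun P hP hP0 => hunr P hP hP0)
    (resHom_injective_of_forall hres) 𝔓 h𝔓

end G1

section D3

variable {K Ω : Type*} [Field K] [NumberField K] [Field Ω] [NumberField Ω]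
  [Algebra K Ω] [IsGalois K Ω]

/-- (D3') the inertia group has as many elements as the ramification index. -/
theorem card_inertia_eq_ramificationIdx (𝔔 : Ideal (𝓞 Ω)) [𝔔.IsPrime] (h𝔔 : 𝔔 ≠ ⊥) :
    Nat.card ↥(𝔔.inertia Gal(Ω/K)) = 𝔔.ramificationIdx (𝓞 K) := by
  have hp : 𝔔.under (𝓞 K) ≠ ⊥ := mt Ideal.eq_bot_of_comap_eq_bot h𝔔
  haveI : (𝔔.under (𝓞 K)).IsMaximal := Ideal.IsPrime.isMaximal inferInstance hp
  rw [Ideal.card_inertia_eq_ramificationIdxIn (G := Gal(Ω/K)) (𝔔.under (𝓞 K)) 𝔔,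
    Ideal.ramificationIdxIn_eq_ramificationIdx (𝔔.under (𝓞 K)) 𝔔 Gal(Ω/K)]

omit [NumberField K] in
/-- the inertia group over an intermediate field, viewed inside `Gal(Ω/K)`. -/
theorem map_inertia_intermediateField (F : IntermediateField K Ω) (𝔔 : Ideal (𝓞 Ω)) :
    (𝔔.inertia Gal(Ω/F)).map (AlgEquiv.restrictScalarsHom K) =
      𝔔.inertia Gal(Ω/K) ⊓ F.fixingSubgroup := by
  ext τ
  constructor
  · rintro ⟨σ, hσ, rfl⟩
    refine ⟨?_, ?_⟩
    · intro x
      exact hσ x
    · intro x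
      exact σ.commutes x
  · rintro ⟨hτI, hτF⟩
    refine ⟨IntermediateField.fixingSubgroupEquiv F ⟨τ, hτF⟩, ?_, ?_⟩
    · intro x
      exact hτI x
    · ext x
      rfl

/-- (D3) inertia dictionary: the ramification index over the fixed field of `H` is the number
of elements of the inertia group lying in `H`. -/
theorem ramificationIdx_fixedField (H : Subgroup Gal(Ω/K)) (𝔔 : Ideal (𝓞 Ω)) [𝔔.IsPrime]
    (h𝔔 : 𝔔 ≠ ⊥) :
    𝔔.ramificationIdx (𝓞 ↥(IntermediateField.fixedField H)) =
      Nat.card ↥(𝔔.inertia Gal(Ω/K) ⊓ H) := by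
  rw [← card_inertia_eq_ramificationIdx (K := ↥(IntermediateField.fixedField H)) 𝔔 h𝔔]
  have h1 := map_inertia_intermediateField (IntermediateField.fixedField H) 𝔔
  rw [IntermediateField.fixingSubgroup_fixedField] at h1
  rw [← h1]
  exact (Subgroup.card_map_of_injective (AlgEquiv.restrictScalars_injective K)).symm

end D3

end Fermat.Agent.S14.H78
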