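import Mathlib
import Fermat.Prelude.Def_EllipticCurve_FrobeniusTrace

set_option autoImplicit false

/-!
# The cyclotomic character at a Frobenius element (prelude vocabulary)

For a valuation subring `A` of `L` with `(q : L) ∈ A.nonunits`, a Frobenius element `σ` at `A`
(`A.IsFrobeniusAt σ q`) and a primitive `M`-th root of unity `ζ ∈ L` with `q` coprime to `M`:
`σ ζ = ζ ^ q`.  Consequently, if `σ` fixes `ζ` then `q ≡ 1 [MOD M]`.
-/

open scoped Pointwise

namespace Fermat.Agent.S14.H31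

variable {K L : Type*} [Field K] [Field L] [Algebra K L]

/-- A Frobenius element at `A` satisfies `σ x ≡ x ^ q` modulo the maximal ideal of `A`. -/
theorem sub_pow_mem_nonunits_of_isFrobeniusAt {A : ValuationSubring L} {σ : L ≃ₐ[K] L} {q : ℕ}
    (h : A.IsFrobeniusAt σ q) {x : L} (hx : x ∈ A) : σ x - x ^ q ∈ A.nonunits := by
  have hσ := h.mem_decompositionSubgroup
  have key := h.smul_residue_eq (IsLocalRing.residue A ⟨x, hx⟩)
  rw [← IsLocalRing.ResidueField.residue_smul, ← map_pow, ← sub_eq_zero, ← map_sub,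
    IsLocalRing.residue_eq_zero_iff, ← ValuationSubring.coe_mem_nonunits_iff] at key
  exact key

/-- Elements `x` with `x ^ n = 1` (`n ≠ 0`) lie in every valuation subring. -/
theorem mem_valuationSubring_of_pow_eq_one (A : ValuationSubring L) {x : L} {n : ℕ} (hn : n ≠ 0)
    (hx : x ^ n = 1) : x ∈ A := by
  rw [← A.valuation_le_one_iff]
  have h1 : A.valuation x ^ n = 1 := by rw [← map_pow, hx, map_one]
  rcases pow_eq_one_iff.mp h1 with h | h
  · exact h.le
  · exact absurd h hn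

/-- If `q` and `M` are coprime and `(q : L)` is a nonunit of `A`, then `(M : L)` is not. -/
theorem natCast_not_mem_nonunits_of_coprime {A : ValuationSubring L} {q M : ℕ}
    (hqA : (q : L) ∈ A.nonunits) (hqM : q.Coprime M) : (M : L) ∉ A.nonunits := by
  intro hM
  have hcop : IsCoprime (q : ℤ) (M : ℤ) := Nat.isCoprime_iff_coprime.mpr hqM
  obtain ⟨a, b, hab⟩ := hcop
  have hmem : ∀ (c : ℤ) {y : L}, y ∈ A.nonunits → (c : L) * y ∈ A.nonunits := by
    intro c y hy
    rw [ValuationSubring.mem_nonunits_iff] at hy ⊢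
    have hc : A.valuation (c : L) ≤ 1 := by
      rw [A.valuation_le_one_iff]
      exact intCast_mem A c
    rw [map_mul, mul_comm]
    exact mul_lt_one_of_lt_of_le hy hc
  have h1 : ((a * q + b * M : ℤ) : L) ∈ A.nonunits := by
    push_cast
    have hv1 := hmem a hqA
    have hv2 := hmem b hM
    rw [ValuationSubring.mem_nonunits_iff] at hv1 hv2 ⊢
    exact lt_of_le_of_lt (A.valuation.map_add _ _) (max_lt hv1 hv2)
  rw [hab, Int.cast_one, ValuationSubring.mem_nonunits_iff, map_one] at h1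
  exact lt_irrefl _ h1

/-- **Cyclotomic character at Frobenius**: `σ ζ = ζ ^ q` for a primitive `M`-th root of unity `ζ`
when `q` is coprime to `M`. -/
theorem map_primitiveRoot_of_isFrobeniusAt {A : ValuationSubring L} {σ : L ≃ₐ[K] L} {q M : ℕ}
    (hqA : (q : L) ∈ A.nonunits) (h : A.IsFrobeniusAt σ q) {ζ : L} (hζ : IsPrimitiveRoot ζ M)
    (hqM : q.Coprime M) : σ ζ = ζ ^ q := by
  rcases Nat.eq_zero_or_pos M with hM0 | hMpos
  · -- `M = 0` forces `q = 1`
    subst hM0
    have : q = 1 := by simpa using hqM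
    exfalso
    rw [this, Nat.cast_one, ValuationSubring.mem_nonunits_iff, map_one] at hqA
    exact lt_irrefl _ hqA
  obtain ⟨n, rfl⟩ : ∃ n, M = n + 1 := ⟨M - 1, by omega⟩
  have hζA : ζ ∈ A := mem_valuationSubring_of_pow_eq_one A (Nat.succ_ne_zero n) hζ.pow_eq_one
  have hpowA : ∀ k : ℕ, ζ ^ k ∈ A := fun k => pow_mem hζA k
  -- `σ ζ` is a power of `ζ`
  have hσζ : (σ ζ) ^ (n + 1) = 1 := by rw [← map_pow, hζ.pow_eq_one, map_one]
  obtain ⟨a, -, ha⟩ := hζ.eq_pow_of_pow_eq_one hσζ
  by_contra hne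
  -- `η := σ ζ * ζ ^ (n * q)` is an `M`-th root of unity different from `1`
  have hinv : ζ ^ q * ζ ^ (n * q) = 1 := by
    rw [← pow_add, show q + n * q = (n + 1) * q by ring, pow_mul, hζ.pow_eq_one, one_pow]
  set η : L := σ ζ * ζ ^ (n * q) with hη
  have hη1 : η ≠ 1 := by
    intro h1
    apply hne
    have : σ ζ * ζ ^ (n * q) = ζ ^ q * ζ ^ (n * q) := by rw [hinv]; exact h1
    exact mul_right_cancel₀ (pow_ne_zero _ (hζ.ne_zero (Nat.succ_ne_zero n))) this
  have hηpow : η = ζ ^ (a + n * q) := by rw [hη, ← ha, pow_add]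
  -- `η - 1` is a nonunit of `A`
  have hηmem : η - 1 ∈ A.nonunits := by
    have h1 : η - 1 = (σ ζ - ζ ^ q) * ζ ^ (n * q) := by
      rw [sub_mul, hinv]
    rw [h1, ValuationSubring.mem_nonunits_iff, map_mul]
    have h2 := sub_pow_mem_nonunits_of_isFrobeniusAt h hζA
    rw [ValuationSubring.mem_nonunits_iff] at h2
    exact mul_lt_one_of_lt_of_le h2 ((A.valuation_le_one_iff _).mpr (hpowA _))
  -- write `η = ζ ^ (k + 1)` with `k < n`
  set m : ℕ := (a + n * q) % (n + 1) with hm
  have hηm : η = ζ ^ m := by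
    rw [hηpow, hm]
    conv_lhs => rw [← Nat.div_add_mod (a + n * q) (n + 1), pow_add, pow_mul, hζ.pow_eq_one,
      one_pow, one_mul]
  have hmlt : m < n + 1 := Nat.mod_lt _ (Nat.succ_pos n)
  have hm0 : m ≠ 0 := by
    intro h0
    rw [h0, pow_zero] at hηm
    exact hη1 hηm
  obtain ⟨k, hk⟩ : ∃ k, m = k + 1 := ⟨m - 1, by omega⟩
  have hkn : k ∈ Finset.range n := Finset.mem_range.mpr (by omega)
  -- `n + 1 = ∏ (1 - ζ ^ (k + 1))` is then a nonunit of `A`
  have hprod := hζ.prod_one_sub_pow_eq_order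
  have hMmem : ((n + 1 : ℕ) : L) ∈ A.nonunits := by
    rw [Nat.cast_add, Nat.cast_one, ← hprod, ← Finset.mul_prod_erase _ _ hkn,
      ValuationSubring.mem_nonunits_iff, map_mul]
    have h1 : A.valuation (1 - ζ ^ (k + 1)) < 1 := by
      rw [← ValuationSubring.mem_nonunits_iff, ← hk, ← hηm]
      have : (1 : L) - η = -(η - 1) := by ring
      rw [this]
      rw [ValuationSubring.mem_nonunits_iff, Valuation.map_neg,
        ← ValuationSubring.mem_nonunits_iff]
      exact hηmem
    have h2 : A.valuation (∏ x ∈ (Finset.range n).erase k, (1 - ζ ^ (x + 1))) ≤ 1 := by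
      rw [A.valuation_le_one_iff]
      exact prod_mem fun i _ => sub_mem (one_mem A) (hpowA _)
    exact mul_lt_one_of_lt_of_le h1 h2
  exact natCast_not_mem_nonunits_of_coprime hqA hqM hMmem

/-- If a Frobenius element at `A` (above `q`, `q` coprime to `M`) fixes a primitive `M`-th root of
unity, then `q ≡ 1 [MOD M]`. -/
theorem modEq_one_of_isFrobeniusAt_of_map_eq {A : ValuationSubring L} {σ : L ≃ₐ[K] L} {q M : ℕ}
    (hqA : (q : L) ∈ A.nonunits) (h : A.IsFrobeniusAt σ q) {ζ : L} (hζ : IsPrimitiveRoot ζ M)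
    (hqM : q.Coprime M) (hfix : σ ζ = ζ) : q ≡ 1 [MOD M] := by
  rcases Nat.eq_zero_or_pos q with hq0 | hqpos
  · subst hq0
    have hM1 : M = 1 := by simpa using hqM
    rw [hM1]
    exact Nat.modEq_one
  have h1 : ζ ^ q = ζ := by
    rw [← map_primitiveRoot_of_isFrobeniusAt hqA h hζ hqM, hfix]
  have hζ0 : ζ ≠ 0 := by
    rintro rfl
    rcases Nat.eq_zero_or_pos M with hM0 | hMpos
    · subst hM0
      have : q = 1 := by simpa using hqM
      rw [this, Nat.cast_one, ValuationSubring.mem_nonunits_iff, map_one] at hqA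
      exact lt_irrefl _ hqA
    · exact hζ.ne_zero hMpos.ne' rfl
  have h2 : ζ ^ (q - 1) = 1 := by
    have h3 : ζ ^ (q - 1) * ζ = 1 * ζ := by
      rw [← pow_succ, Nat.sub_add_cancel hqpos, h1, one_mul]
    exact mul_right_cancel₀ hζ0 h3
  have hdvd : M ∣ q - 1 := (hζ.pow_eq_one_iff_dvd _).mp h2
  exact ((Nat.modEq_iff_dvd' hqpos).mpr hdvd).symm

end Fermat.Agent.S14.H31
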