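import Mathlib
import Fermat.Prelude.Def_EllipticCurve_FrobeniusTrace
import Fermat.Agent.S54.H69_Frobenius
import Fermat.Agent.S14.H27_Frob

set_option autoImplicit false

/-!
# Frobenius elements: from primes of a Galois number field inside `AlgebraicClosure ℚ`
to the prelude vocabulary (`ValuationSubring (AlgebraicClosure ℚ)`, `IsFrobeniusAt`)

* `isFrobeniusAt_valSub`: for a prime `Q` of the ring of all algebraic integers containing `ℓ`
  and `σ ∈ G_ℚ` stabilising `Q` and acting as `x ↦ x ^ ℓ` modulo `Q`, the valuation subring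
  `valSub Q` (helper69) lies over `ℓ` and `σ` is a Frobenius element at it.
* `exists_isFrobeniusAt_restrict_eq_frob`: for a finite Galois `F/ℚ` inside `AlgebraicClosure ℚ`
  and a prime `𝔔` of `𝓞 F` unramified over `ℚ` above the rational prime `q`, there are a valuation
  subring `A` above `q` and a Frobenius `φ` at `A` whose restriction to `F` is `H27.frob ℚ 𝔔`.
* `exists_isFrobeniusAt_zpowers_eq`: prelude form of the Frobenius density theorem (existence
  form), given the number field statement as a hypothesis.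
-/

open scoped Pointwise
open NumberField

namespace Fermat.Agent.S14.H31

noncomputable section

local notation "Qb" => AlgebraicClosure ℚ
local notation "GQ" => (AlgebraicClosure ℚ ≃ₐ[ℚ] AlgebraicClosure ℚ)
local notation "BQ" => integralClosure ℤ (AlgebraicClosure ℚ)

open Fermat.Agent.S54.H69 in
/-- `valSub Q` lies over `ℓ` and any `σ` stabilising `Q` which is `x ↦ x ^ ℓ` modulo `Q` is a
Frobenius element at it (the proof of helper69's `exists_isFrobeniusAt`, for a given `Q`). -/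
theorem isFrobeniusAt_valSub (Q : Ideal BQ) [hQp : Q.IsPrime] {ℓ : ℕ} (hℓ : ℓ.Prime)
    (hQ : (ℓ : BQ) ∈ Q) (σ : GQ) (hσQ : σ • Q = Q) (hσ : ∀ b : BQ, σ • b - b ^ ℓ ∈ Q) :
    (valSub Q hℓ hQ).LiesOverPrime ℓ ∧ (valSub Q hℓ hQ).IsFrobeniusAt σ ℓ := by
  have h1 : (1 : BQ) ∉ Q := by
    rw [← Ideal.eq_top_iff_one]
    exact hQp.ne_top
  refine ⟨?_, ?_⟩
  · show (ℓ : Qb) ∈ (valSub Q hℓ hQ).nonunits
    have h := mem_nonunits_valSub Q hℓ hQ hQ h1
    simpa using h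
  · have hσmem : σ ∈ (valSub Q hℓ hQ).decompositionSubgroup ℚ := by
      rw [MulAction.mem_stabilizer_iff]
      apply SetLike.ext
      intro x
      rw [ValuationSubring.mem_pointwise_smul_iff_inv_smul_mem]
      have hσinv : σ⁻¹ • Q = Q := by rw [inv_smul_eq_iff, hσQ]
      constructor
      · intro h
        have h' := smul_mem_valSub Q hℓ hQ σ hσQ h
        simpa using h'
      · intro h
        exact smul_mem_valSub Q hℓ hQ σ⁻¹ hσinv h
    refine ⟨hσmem, fun x => ?_⟩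
    obtain ⟨y, rfl⟩ := IsLocalRing.residue_surjective x
    rw [← IsLocalRing.ResidueField.residue_smul, ← map_pow, ← sub_eq_zero, ← map_sub,
      IsLocalRing.residue_eq_zero_iff, ← ValuationSubring.coe_mem_nonunits_iff]
    obtain ⟨a, s, hs, hy⟩ := (mem_valSub_iff Q hℓ hQ y).mp y.2
    have hcoe : (((⟨σ, hσmem⟩ : (valSub Q hℓ hQ).decompositionSubgroup ℚ) • y - y ^ ℓ :
        valSub Q hℓ hQ) : Qb) = σ (y : Qb) - (y : Qb) ^ ℓ := rfl
    rw [hcoe, hy]
    have hN : (σ • a) * s ^ ℓ - a ^ ℓ * (σ • s) ∈ Q := by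
      have e : (σ • a) * s ^ ℓ - a ^ ℓ * (σ • s) =
          (σ • a - a ^ ℓ) * s ^ ℓ - a ^ ℓ * (σ • s - s ^ ℓ) := by ring
      rw [e]
      exact Q.sub_mem (Q.mul_mem_right _ (hσ a)) (Q.mul_mem_left _ (hσ s))
    have hσs : σ • s ∉ Q := by
      intro h
      have h' : σ • s ∈ σ • Q := hσQ.symm ▸ h
      rw [Ideal.smul_mem_pointwise_smul_iff] at h'
      exact hs h'
    have hD : (σ • s) * s ^ ℓ ∉ Q := by
      intro h
      rcases hQp.mem_or_mem h with h | h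
      · exact hσs h
      · exact hs (hQp.mem_of_pow_mem _ h)
    have hfin := mem_nonunits_valSub Q hℓ hQ hN hD
    have hs0 : (s : Qb) ≠ 0 := by
      intro h'
      apply hs
      have : s = 0 := Subtype.ext h'
      rw [this]
      exact Q.zero_mem
    have hσs0 : σ (s : Qb) ≠ 0 := by
      rw [Ne, EmbeddingLike.map_eq_zero_iff]
      exact hs0
    have e : σ ((a : Qb) * (s : Qb)⁻¹) - ((a : Qb) * (s : Qb)⁻¹) ^ ℓ =
        (((σ • a) * s ^ ℓ - a ^ ℓ * (σ • s) : BQ) : Qb) * ((((σ • s) * s ^ ℓ : BQ)) : Qb)⁻¹ := by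
      have c1 : ((σ • a : BQ) : Qb) = σ (a : Qb) := rfl
      have c2 : ((σ • s : BQ) : Qb) = σ (s : Qb) := rfl
      have hspow : (s : Qb) ^ ℓ ≠ 0 := pow_ne_zero _ hs0
      push_cast
      rw [c1, c2, map_mul, map_inv₀, mul_pow, inv_pow]
      field_simp
    rw [e]
    exact hfin


variable (F : IntermediateField ℚ Qb)

/-- A finite-dimensional intermediate field of `AlgebraicClosure ℚ / ℚ` is a number field. -/
theorem numberField_intermediateField [FiniteDimensional ℚ F] : NumberField ↥F := { }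

/-- The inclusion of the ring of integers of `F` into the ring of all algebraic integers. -/
def toBQ : 𝓞 ↥F →+* BQ :=
  ((algebraMap ↥F Qb).comp (algebraMap (𝓞 ↥F) ↥F)).codRestrict BQ (fun x => by
    have hx : IsIntegral ℤ ((x : ↥F)) := x.2
    exact hx.map (IsScalarTower.toAlgHom ℤ ↥F Qb))

@[simp] theorem coe_toBQ (x : 𝓞 ↥F) : ((toBQ F x : BQ) : Qb) = ((x : ↥F) : Qb) := rfl

theorem toBQ_injective : Function.Injective (toBQ F) := by
  intro x y h
  have h' : ((x : ↥F) : Qb) = ((y : ↥F) : Qb) := by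
    rw [← coe_toBQ, ← coe_toBQ, h]
  exact RingOfIntegers.ext (Subtype.ext h')

/-- There is a prime of `BQ` above any prime of `𝓞 F`. -/
theorem exists_prime_comap_toBQ_eq (𝔔 : Ideal (𝓞 ↥F)) [𝔔.IsPrime] :
    ∃ Q : Ideal BQ, Q.IsPrime ∧ Q.comap (toBQ F) = 𝔔 := by
  letI : Algebra (𝓞 ↥F) BQ := (toBQ F).toAlgebra
  haveI : Algebra.IsIntegral (𝓞 ↥F) BQ := ⟨fun b => by
    have hb : IsIntegral ℤ b := Algebra.IsIntegral.isIntegral b
    exact hb.tower_top⟩
  refine Ideal.exists_ideal_over_prime_of_isIntegral_of_isDomain (S := BQ) 𝔔 ?_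
  show RingHom.ker (toBQ F) ≤ 𝔔
  rw [(RingHom.injective_iff_ker_eq_bot _).mp (toBQ_injective F)]
  exact bot_le

attribute [local instance] numberField_intermediateField

theorem toBQ_smul [IsGalois ℚ F] (σ : GQ) (x : 𝓞 ↥F) :
    toBQ F (AlgEquiv.restrictNormalHom ↥F σ • x) = σ • toBQ F x := by
  apply Subtype.ext
  show (((AlgEquiv.restrictNormalHom ↥F σ • x : 𝓞 ↥F) : ↥F) : Qb) = σ ((x : ↥F) : Qb)
  exact AlgEquiv.restrictNormal_commutes σ ↥F (x : ↥F)

variable [FiniteDimensional ℚ F] [IsGalois ℚ F]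

open Fermat.Agent.S54.H69 in
/-- For a prime `𝔔` of `𝓞 F` unramified over `ℚ` above the rational prime `q` there are a
valuation subring `A` of `AlgebraicClosure ℚ` above `q` and a Frobenius element `φ` at `A` whose
restriction to `F` is the Frobenius `H27.frob ℚ 𝔔`. -/
theorem exists_isFrobeniusAt_restrict_eq_frob (𝔔 : Ideal (𝓞 ↥F)) [𝔔.IsPrime] (h𝔔 : 𝔔 ≠ ⊥)
    {q : ℕ} (hq : q.Prime) (hqQ : Ideal.absNorm (𝔔.under (𝓞 ℚ)) = q)
    (he : 𝔔.ramificationIdx (𝓞 ℚ) = 1) :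
    ∃ (A : ValuationSubring Qb) (φ : GQ), A.LiesOverPrime q ∧ A.IsFrobeniusAt φ q ∧
      AlgEquiv.restrictNormalHom ↥F φ = H27.frob ℚ 𝔔 h𝔔 := by
  obtain ⟨Q, hQp, hQc⟩ := exists_prime_comap_toBQ_eq F 𝔔
  have hq𝔔 : ((q : ℕ) : 𝓞 ↥F) ∈ 𝔔 := by
    have h1 : ((Ideal.absNorm (𝔔.under (𝓞 ℚ)) : ℕ) : 𝓞 ℚ) ∈ 𝔔.under (𝓞 ℚ) :=
      Ideal.absNorm_mem _
    rw [hqQ, Ideal.under_def, Ideal.mem_comap] at h1
    simpa using h1
  have hQ : ((q : ℕ) : BQ) ∈ Q := by
    have : toBQ F ((q : ℕ) : 𝓞 ↥F) ∈ Q := by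
      rw [← Ideal.mem_comap, hQc]; exact hq𝔔
    simpa using this
  obtain ⟨σ, hσQ, hσ⟩ := exists_frob_BQ q hq Q hQ
  obtain ⟨hA1, hA2⟩ := isFrobeniusAt_valSub Q hq hQ σ hσQ hσ
  refine ⟨valSub Q hq hQ, σ, hA1, hA2, ?_⟩
  have hur : Algebra.IsUnramifiedAt (𝓞 ℚ) 𝔔 :=
    (H27.isUnramifiedAt_iff_ramificationIdx (K := ℚ) 𝔔).mpr he
  have hcard : Nat.card (𝓞 ℚ ⧸ 𝔔.under (𝓞 ℚ)) = q := by
    rw [← hqQ, Ideal.absNorm_apply, Submodule.cardQuot_apply]
  refine H27.eq_of_isArithFrobAt 𝔔 hur ?_ (H27.isArithFrobAt_frob 𝔔 h𝔔)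
  intro x
  show AlgEquiv.restrictNormalHom ↥F σ • x - x ^ Nat.card (𝓞 ℚ ⧸ 𝔔.under (𝓞 ℚ)) ∈ 𝔔
  rw [hcard, ← hQc, Ideal.mem_comap, map_sub, map_pow, toBQ_smul]
  exact hσ _

/-- The number field statement (Frobenius density theorem, existence form, over `ℚ`) in the shape
announced by helper82 (`exists_prime_zpowers_frob_eq` with `K := ℚ`). -/
def FrobeniusDensityStatement : Prop :=
  ∀ (L : Type) [Field L] [NumberField L] [IsGalois ℚ L] (σ : Gal(L/ℚ)) (S : Finset ℕ),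
    ∃ (𝔔 : Ideal (𝓞 L)) (_ : 𝔔.IsPrime) (h𝔔 : 𝔔 ≠ ⊥),
      (Ideal.absNorm (𝔔.under (𝓞 ℚ))).Prime ∧ Ideal.absNorm (𝔔.under (𝓞 ℚ)) ∉ S ∧
      𝔔.ramificationIdx (𝓞 ℚ) = 1 ∧
      Subgroup.zpowers (H27.frob ℚ 𝔔 h𝔔) = Subgroup.zpowers σ

/-- **Frobenius density theorem, existence form, prelude vocabulary** (finite Galois `F/ℚ`):
for every `g ∈ G_ℚ` and every finite set `T` of integers there are a prime `q ∉ T`, a valuation
subring `A` of `AlgebraicClosure ℚ` above `q` and a Frobenius element `φ` at `A` such that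
`φ|F` and `g|F` generate the same cyclic subgroup of `Gal(F/ℚ)`. -/
theorem exists_isFrobeniusAt_zpowers_eq (hFD : FrobeniusDensityStatement) (g : GQ)
    (T : Finset ℕ) :
    ∃ (q : ℕ) (A : ValuationSubring Qb) (φ : GQ), q.Prime ∧ q ∉ T ∧ A.LiesOverPrime q ∧
      A.IsFrobeniusAt φ q ∧
      Subgroup.zpowers (AlgEquiv.restrictNormalHom ↥F φ) =
        Subgroup.zpowers (AlgEquiv.restrictNormalHom ↥F g) := by
  obtain ⟨𝔔, h𝔔p, h𝔔, hqp, hqT, he, hz⟩ := hFD ↥F (AlgEquiv.restrictNormalHom ↥F g) T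
  obtain ⟨A, φ, hA1, hA2, hφ⟩ := exists_isFrobeniusAt_restrict_eq_frob F 𝔔 h𝔔 hqp rfl he
  exact ⟨_, A, φ, hqp, hqT, hA1, hA2, hφ ▸ hz⟩

omit [FiniteDimensional ℚ F] [IsGalois ℚ F] in
/-- **Consumer form**: a homomorphism `ρ` from `G_ℚ` to any group, trivial on the fixing subgroup
of a finite extension `F/ℚ` (not necessarily Galois).  For every `g ∈ G_ℚ` there is a Frobenius
element `φ` at a prime `q ∉ T` such that `ρ φ` and `ρ g` generate the same cyclic subgroup. -/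
theorem exists_isFrobeniusAt_map_zpowers_eq (hFD : FrobeniusDensityStatement)
    [FiniteDimensional ℚ F] {H : Type*} [Group H]
    (ρ : GQ →* H) (hF : F.fixingSubgroup ≤ ρ.ker) (g : GQ) (T : Finset ℕ) :
    ∃ (q : ℕ) (A : ValuationSubring Qb) (φ : GQ), q.Prime ∧ q ∉ T ∧ A.LiesOverPrime q ∧
      A.IsFrobeniusAt φ q ∧ Subgroup.zpowers (ρ φ) = Subgroup.zpowers (ρ g) := by
  haveI : Normal ℚ Qb := (Fermat.Agent.S54.H69.isGaloisQb).to_normal
  set N : IntermediateField ℚ Qb := IntermediateField.normalClosure ℚ ↥F Qb with hN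
  haveI hNn : Normal ℚ ↥N := normalClosure.normal ℚ ↥F Qb
  haveI : FiniteDimensional ℚ ↥N := normalClosure.is_finiteDimensional ℚ ↥F Qb
  haveI : IsGalois ℚ ↥N := ⟨⟩
  obtain ⟨q, A, φ, hq, hqT, hA1, hA2, hz⟩ := exists_isFrobeniusAt_zpowers_eq N hFD g T
  refine ⟨q, A, φ, hq, hqT, hA1, hA2, ?_⟩
  have hker : (AlgEquiv.restrictNormalHom (F := ℚ) (K₁ := Qb) ↥N).ker ≤ ρ.ker := by
    have h1 : (AlgEquiv.restrictNormalHom (F := ℚ) (K₁ := Qb) ↥N).ker = N.fixingSubgroup :=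
      IntermediateField.restrictNormalHom_ker N
    exact h1.le.trans
      ((IntermediateField.fixingSubgroup_le (IntermediateField.le_normalClosure F)).trans hF)
  -- generic: equal cyclic subgroups downstairs, kernel contained in `ρ.ker`
  have key : ∀ a b : GQ, AlgEquiv.restrictNormalHom ↥N a ∈
      Subgroup.zpowers (AlgEquiv.restrictNormalHom ↥N b) → ρ a ∈ Subgroup.zpowers (ρ b) := by
    intro a b hab
    obtain ⟨k, hk⟩ := Subgroup.mem_zpowers_iff.mp hab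
    have hmem : a⁻¹ * b ^ k ∈ (AlgEquiv.restrictNormalHom (F := ℚ) (K₁ := Qb) ↥N).ker := by
      rw [MonoidHom.mem_ker, map_mul, map_inv, map_zpow, hk, inv_mul_cancel]
    have h2 := hker hmem
    rw [MonoidHom.mem_ker, map_mul, map_inv, map_zpow, inv_mul_eq_one] at h2
    exact Subgroup.mem_zpowers_iff.mpr ⟨k, h2.symm⟩
  apply le_antisymm
  · rw [Subgroup.zpowers_le]
    exact key φ g (hz ▸ Subgroup.mem_zpowers _)
  · rw [Subgroup.zpowers_le]
    exact key g φ (hz ▸ Subgroup.mem_zpowers _)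

end

end Fermat.Agent.S14.H31
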