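import Mathlib
import Fermat.Agent.S14.H27_BaseChange
import Fermat.Agent.S14.H72_SplitCorollaries

/-!
# Frobenius density theorem (existence form) : the algebraic half

For `L/K` a finite Galois extension of number fields and `σ ∈ Gal(L/K)` we reduce the existence
of a prime `𝔔` of `L`, unramified and of absolute degree one over `K`, whose Frobenius generates
the same cyclic subgroup as `σ`, to an inclusion-exclusion density statement
(`InclExclStatement`, proved by helper88 on top of helper72's density of split primes).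

* `mem_splitSet_iff_frob_mem` : dictionary "splits completely in `F`" ↔ "Frobenius fixes `F`";
* `exists_prime_frob_generator` : the cyclic case (`Gal(L/M) = ⟨τ⟩`);
* `restrictScalars_frob` : transfer of Frobenius from `M` to `K` at primes of relative degree one;
* `exists_prime_zpowers_frob_eq_of` : the general case.
-/

set_option autoImplicit false

namespace Fermat.Agent.S14.H82

open NumberField IsDedekindDomain
open scoped Pointwise

section Dict

variable {M L : Type*} [Field M] [NumberField M] [Field L] [NumberField L] [Algebra M L]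
  [IsGalois M L]

/-- **Dictionary** between complete splitting in a Galois subextension and the Frobenius:
for `𝔔` a prime of `L` unramified over `M` and `F` an intermediate field Galois over `M`, the
prime of `M` below `𝔔` splits completely in `F` iff the Frobenius of `𝔔` fixes `F`. -/
theorem mem_splitSet_iff_frob_mem (F : IntermediateField M L) [IsGalois M F]
    (𝔔 : Ideal (𝓞 L)) [𝔔.IsPrime] (h𝔔 : 𝔔 ≠ ⊥) (hur : 𝔔.ramificationIdx (𝓞 M) = 1)
    (P : HeightOneSpectrum (𝓞 M)) (hP : 𝔔.under (𝓞 M) = P.asIdeal) :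
    P ∈ H72.splitSet M F ↔ H27.frob M 𝔔 h𝔔 ∈ F.fixingSubgroup := by
  set 𝔮 : Ideal (𝓞 F) := 𝔔.under (𝓞 F) with h𝔮def
  have h𝔮 : 𝔮 ≠ ⊥ := mt Ideal.eq_bot_of_comap_eq_bot h𝔔
  have h𝔮under : 𝔮.under (𝓞 M) = P.asIdeal := by rw [h𝔮def, Ideal.under_under, hP]
  have : 𝔔.LiesOver 𝔮 := ⟨rfl⟩
  have htower : 𝔔.ramificationIdx (𝓞 M) = 𝔮.ramificationIdx (𝓞 M) * 𝔔.ramificationIdx (𝓞 F) :=
    Ideal.ramificationIdx_tower 𝔮 𝔔
  have he : 𝔮.ramificationIdx (𝓞 M) = 1 := by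
    rw [hur] at htower
    exact Nat.eq_one_of_mul_eq_one_right htower.symm
  have hur' : Algebra.IsUnramifiedAt (𝓞 M) 𝔮 := (H27.isUnramifiedAt_iff_ramificationIdx 𝔮).2 he
  have hres : AlgEquiv.restrictNormalHom F (H27.frob M 𝔔 h𝔔) = H27.frob M 𝔮 h𝔮 :=
    H27.restrictNormalHom_frob 𝔔 h𝔔 h𝔮 hur'
  have h1 : H27.frob M 𝔔 h𝔔 ∈ F.fixingSubgroup ↔ 𝔮.inertiaDeg (𝓞 M) = 1 := by
    rw [← IntermediateField.restrictNormalHom_ker, MonoidHom.mem_ker, hres,
      H27.frob_eq_one_iff 𝔮 h𝔮 hur']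
  rw [h1]
  constructor
  · intro h
    exact (h 𝔮 inferInstance h𝔮 h𝔮under).2
  · intro hf P' hP' hP'0 hP'u
    have : 𝔮.LiesOver P.asIdeal := ⟨h𝔮under.symm⟩
    have : P'.LiesOver P.asIdeal := ⟨hP'u.symm⟩
    have he' := Ideal.ramificationIdx_eq_of_isGaloisGroup P.asIdeal P' 𝔮 Gal(F/M)
    have hf' := Ideal.inertiaDeg_eq_of_isGaloisGroup P.asIdeal P' 𝔮 Gal(F/M)
    exact ⟨by rw [he', he], by rw [hf', hf]⟩

end Dict

section CyclicLemmas

variable {G : Type*} [Group G]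

/-- In a group, for `τ` of finite order `n` and `d ∣ n`: `τ ^ k ∈ ⟨τ ^ d⟩ ↔ d ∣ k`. -/
theorem pow_mem_zpowers_pow_iff {τ : G} {d : ℕ} (hd : d ∣ orderOf τ)
    (k : ℕ) : τ ^ k ∈ Subgroup.zpowers (τ ^ d) ↔ d ∣ k := by
  constructor
  · intro h
    obtain ⟨j, hj⟩ := Subgroup.mem_zpowers_iff.1 h
    have h1 : τ ^ ((k : ℤ) - d * j) = 1 := by
      rw [zpow_sub, zpow_mul, zpow_natCast, zpow_natCast, hj, mul_inv_cancel]
    have h2 : (orderOf τ : ℤ) ∣ (k : ℤ) - d * j := orderOf_dvd_iff_zpow_eq_one.2 h1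
    have h3 : (d : ℤ) ∣ (k : ℤ) - d * j := (Int.natCast_dvd_natCast.2 hd).trans h2
    have h4 : (d : ℤ) ∣ (k : ℤ) := by
      have := dvd_add h3 (dvd_mul_right (d : ℤ) j)
      simpa using this
    exact_mod_cast h4
  · rintro ⟨j, rfl⟩
    rw [pow_mul]
    exact Subgroup.pow_mem _ (Subgroup.mem_zpowers _) _


/-- every element of a finite group generated by `τ` is a natural power of `τ` -/
theorem exists_pow_eq_of_zpowers_eq_top [Finite G] {τ : G} (hτ : Subgroup.zpowers τ = ⊤) (g : G) :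
    ∃ k : ℕ, τ ^ k = g := by
  have hg : g ∈ Subgroup.zpowers τ := by rw [hτ]; trivial
  rw [← mem_powers_iff_mem_zpowers] at hg
  exact (Submonoid.mem_powers_iff _ _).1 hg

theorem normal_of_zpowers_eq_top [Finite G] {τ : G} (hτ : Subgroup.zpowers τ = ⊤) (H : Subgroup G) :
    H.Normal := by
  refine ⟨fun h hh g => ?_⟩
  obtain ⟨i, rfl⟩ := exists_pow_eq_of_zpowers_eq_top hτ g
  obtain ⟨j, rfl⟩ := exists_pow_eq_of_zpowers_eq_top hτ h
  have : τ ^ i * τ ^ j * (τ ^ i)⁻¹ = τ ^ j := by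
    rw [← pow_add, add_comm, pow_add, mul_inv_cancel_right]
  rwa [this]

theorem orderOf_eq_card_of_zpowers_eq_top {τ : G} (hτ : Subgroup.zpowers τ = ⊤) :
    orderOf τ = Nat.card G := by
  rw [← Nat.card_zpowers, hτ, Subgroup.card_top]

/-- index of `⟨τ ^ d⟩` in the cyclic group `⟨τ⟩ = G` for `d ∣ |G|`. -/
theorem index_zpowers_pow [Finite G] {τ : G} (hτ : Subgroup.zpowers τ = ⊤) {d : ℕ}
    (hd : d ∣ orderOf τ) : (Subgroup.zpowers (τ ^ d)).index = d := by
  have hn : 0 < orderOf τ := orderOf_pos τ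
  have hd0 : d ≠ 0 := by
    rintro rfl
    rw [zero_dvd_iff] at hd
    omega
  have h1 : Nat.card (Subgroup.zpowers (τ ^ d)) = orderOf τ / d := by
    rw [Nat.card_zpowers, orderOf_pow' τ hd0, Nat.gcd_eq_right hd]
  have h2 := (Subgroup.zpowers (τ ^ d)).index_mul_card
  rw [h1, ← orderOf_eq_card_of_zpowers_eq_top hτ] at h2
  obtain ⟨e, he⟩ := hd
  have he0 : 0 < e := by
    rcases Nat.eq_zero_or_pos e with rfl | h
    · rw [mul_zero] at he; omega
    · exact h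
  rw [he, Nat.mul_div_cancel_left e (Nat.pos_of_ne_zero hd0)] at h2
  exact Nat.eq_of_mul_eq_mul_right he0 h2

/-- membership in `⟨τ ^ ∏ J⟩` for a set `J` of prime divisors of the order. -/
theorem mem_zpowers_pow_prod_iff [Finite G] {τ : G} (hτ : Subgroup.zpowers τ = ⊤) (J : Finset ℕ)
    (hJ : J ⊆ (orderOf τ).primeFactors) (g : G) :
    g ∈ Subgroup.zpowers (τ ^ (∏ r ∈ J, r)) ↔ ∀ r ∈ J, g ∈ Subgroup.zpowers (τ ^ r) := by
  obtain ⟨k, rfl⟩ := exists_pow_eq_of_zpowers_eq_top hτ g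
  have hprime : ∀ r ∈ J, Prime r := fun r hr =>
    (Nat.prime_of_mem_primeFactors (hJ hr)).prime
  have hdvd : ∀ r ∈ J, r ∣ orderOf τ := fun r hr => Nat.dvd_of_mem_primeFactors (hJ hr)
  have hprod : (∏ r ∈ J, r) ∣ orderOf τ := Finset.prod_primes_dvd _ hprime hdvd
  rw [pow_mem_zpowers_pow_iff hprod]
  constructor
  · intro h r hr
    rw [pow_mem_zpowers_pow_iff (hdvd r hr)]
    exact (Finset.dvd_prod_of_mem _ hr).trans h
  · intro h
    refine Finset.prod_primes_dvd _ hprime fun r hr => ?_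
    exact (pow_mem_zpowers_pow_iff (hdvd r hr) k).1 (h r hr)

/-- an element outside all maximal subgroups of a cyclic group is a generator. -/
theorem zpowers_eq_top_of_forall_not_mem [Finite G] {τ : G} (hτ : Subgroup.zpowers τ = ⊤) (g : G)
    (h : ∀ r ∈ (orderOf τ).primeFactors, g ∉ Subgroup.zpowers (τ ^ r)) :
    Subgroup.zpowers g = ⊤ := by
  obtain ⟨k, rfl⟩ := exists_pow_eq_of_zpowers_eq_top hτ g
  have hcop : (orderOf τ).Coprime k := by
    rw [Nat.coprime_comm]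
    apply Nat.Coprime.symm
    rw [Nat.coprime_iff_gcd_eq_one]
    by_contra hne
    obtain ⟨r, hr, hrd⟩ := Nat.exists_prime_and_dvd hne
    have hrn : r ∣ orderOf τ := hrd.trans (Nat.gcd_dvd_left _ _)
    have hrk : r ∣ k := hrd.trans (Nat.gcd_dvd_right _ _)
    have hmem : r ∈ (orderOf τ).primeFactors :=
      Nat.mem_primeFactors.2 ⟨hr, hrn, (orderOf_pos τ).ne'⟩
    exact h r hmem ((pow_mem_zpowers_pow_iff hrn k).2 hrk)
  apply Subgroup.eq_top_of_card_eq
  rw [Nat.card_zpowers, hcop.orderOf_pow, orderOf_eq_card_of_zpowers_eq_top hτ]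

end CyclicLemmas

section CyclicCase

variable (M L : Type*) [Field M] [NumberField M] [Field L] [NumberField L] [Algebra M L]
  [IsGalois M L]

/-- primes of `M` above which some prime of `L` is ramified -/
def ramBelow : Set (HeightOneSpectrum (𝓞 M)) := H72.underMap M L '' H72.ramSet M L

theorem ramBelow_finite : (ramBelow M L).Finite := (H72.ramSet_finite M L).image _

variable {M L}

/-- a prime of `L` over a prime of `M` outside `ramBelow` is unramified -/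
theorem ramificationIdx_eq_one_of_not_mem_ramBelow {Q : HeightOneSpectrum (𝓞 M)}
    (hQ : Q ∉ ramBelow M L) (𝔔 : Ideal (𝓞 L)) [h𝔔p : 𝔔.IsPrime] (h𝔔 : 𝔔 ≠ ⊥)
    (hover : 𝔔.under (𝓞 M) = Q.asIdeal) : 𝔔.ramificationIdx (𝓞 M) = 1 := by
  by_contra hne
  apply hQ
  refine ⟨⟨𝔔, h𝔔p, h𝔔⟩, hne, ?_⟩
  exact HeightOneSpectrum.ext hover

/-- The inclusion-exclusion density statement (analytic half, helper88). -/
def InclExclStatement (E : Type*) [Field E] [NumberField E] : Prop :=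
  ∀ (R : Finset ℕ) (_ : ∀ r ∈ R, 2 ≤ r) (A : ℕ → Set (HeightOneSpectrum (𝓞 E)))
    (B : Finset ℕ → Set (HeightOneSpectrum (𝓞 E))) (T₀ : Set (HeightOneSpectrum (𝓞 E)))
    (_ : T₀.Finite) (_ : ∀ J ⊆ R, ∀ Q ∉ T₀, (Q ∈ B J ↔ ∀ r ∈ J, Q ∈ A r))
    (_ : ∀ J ⊆ R, ∃ C : ℝ, ∀ s ∈ Set.Ioc (1 : ℝ) 2,
      |H72.setSum E (B J) s - (1 / (((∏ r ∈ J, r : ℕ)) : ℝ)) * Real.log (1 / (s - 1))| ≤ C)
    (S : Finset ℕ),
    ∃ Q : HeightOneSpectrum (𝓞 E), (Ideal.absNorm Q.asIdeal).Prime ∧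
      Ideal.absNorm Q.asIdeal ∉ S ∧ Q ∉ T₀ ∧ ∀ r ∈ R, Q ∉ A r

/-- **Cyclic case**: in a cyclic extension `L/M` with generator `τ` there is a prime `𝔔` of `L`,
unramified of absolute degree one over `M`, whose Frobenius generates `Gal(L/M)`. -/
theorem exists_prime_frob_generator (hIE : InclExclStatement M) (τ : Gal(L/M))
    (hτ : Subgroup.zpowers τ = ⊤) (T₁ : Set (HeightOneSpectrum (𝓞 M))) (hT₁ : T₁.Finite)
    (S : Finset ℕ) :
    ∃ (Q : HeightOneSpectrum (𝓞 M)) (𝔔 : Ideal (𝓞 L)) (_ : 𝔔.IsPrime) (h𝔔 : 𝔔 ≠ ⊥),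
      𝔔.under (𝓞 M) = Q.asIdeal ∧ (Ideal.absNorm Q.asIdeal).Prime ∧
      Ideal.absNorm Q.asIdeal ∉ S ∧ Q ∉ T₁ ∧ 𝔔.ramificationIdx (𝓞 M) = 1 ∧
      Subgroup.zpowers (H27.frob M 𝔔 h𝔔) = ⊤ := by
  classical
  set n := orderOf τ with hn
  set R := n.primeFactors with hR
  let F : ℕ → IntermediateField M L := fun d =>
    IntermediateField.fixedField (Subgroup.zpowers (τ ^ d))
  have hgal : ∀ d, IsGalois M (F d) := fun d => by
    have := normal_of_zpowers_eq_top hτ (Subgroup.zpowers (τ ^ d))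
    exact IsGalois.of_fixedField_normal_subgroup _
  have hfix : ∀ d, (F d).fixingSubgroup = Subgroup.zpowers (τ ^ d) := fun d =>
    IntermediateField.fixingSubgroup_fixedField _
  -- the key dictionary for primes outside `ramBelow`
  have hdict : ∀ (Q : HeightOneSpectrum (𝓞 M)), Q ∉ ramBelow M L →
      ∀ (𝔔 : Ideal (𝓞 L)) [𝔔.IsPrime] (h𝔔 : 𝔔 ≠ ⊥), 𝔔.under (𝓞 M) = Q.asIdeal →
      ∀ d, (Q ∈ H72.splitSet M (F d) ↔ H27.frob M 𝔔 h𝔔 ∈ Subgroup.zpowers (τ ^ d)) := by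
    intro Q hQ 𝔔 _ h𝔔 hover d
    have := hgal d
    rw [← hfix d]
    exact mem_splitSet_iff_frob_mem (F d) 𝔔 h𝔔
      (ramificationIdx_eq_one_of_not_mem_ramBelow hQ 𝔔 h𝔔 hover) Q hover
  -- existence of a prime above
  have hex : ∀ Q : HeightOneSpectrum (𝓞 M), ∃ (𝔔 : Ideal (𝓞 L)) (_ : 𝔔.IsPrime) (_ : 𝔔 ≠ ⊥),
      𝔔.under (𝓞 M) = Q.asIdeal := by
    intro Q
    obtain ⟨⟨𝔔, h𝔔p, h𝔔o⟩⟩ := Ideal.nonempty_primesOver (S := 𝓞 L) Q.asIdeal
    exact ⟨𝔔, h𝔔p, Ideal.ne_bot_of_liesOver_of_ne_bot Q.ne_bot 𝔔, h𝔔o.over.symm⟩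
  obtain ⟨Q, hQprime, hQS, hQT, hQA⟩ := hIE R
    (fun r hr => (Nat.prime_of_mem_primeFactors hr).two_le)
    (fun r => H72.splitSet M (F r))
    (fun J => H72.splitSet M (F (∏ r ∈ J, r)))
    (ramBelow M L ∪ T₁) ((ramBelow_finite M L).union hT₁)
    (by
      intro J hJ Q hQ
      have hQ' : Q ∉ ramBelow M L := fun h => hQ (Or.inl h)
      obtain ⟨𝔔, h𝔔p, h𝔔, hover⟩ := hex Q
      rw [hdict Q hQ' 𝔔 h𝔔 hover, mem_zpowers_pow_prod_iff hτ J hJ]
      exact forall₂_congr fun r _ => (hdict Q hQ' 𝔔 h𝔔 hover r).symm)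
    (by
      intro J hJ
      have := hgal (∏ r ∈ J, r)
      obtain ⟨C, hC⟩ := H72.exists_bound_splitSum M (F (∏ r ∈ J, r))
      refine ⟨C, fun s hs => ?_⟩
      have hdvd : (∏ r ∈ J, r) ∣ orderOf τ :=
        Finset.prod_primes_dvd _ (fun r hr => (Nat.prime_of_mem_primeFactors (hJ hr)).prime)
          (fun r hr => Nat.dvd_of_mem_primeFactors (hJ hr))
      have hfin : Module.finrank M (F (∏ r ∈ J, r)) = ∏ r ∈ J, r := by
        rw [IntermediateField.finrank_eq_fixingSubgroup_index, hfix, index_zpowers_pow hτ hdvd]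
      have := hC s hs
      rw [hfin] at this
      exact this)
    S
  have hQ' : Q ∉ ramBelow M L := fun h => hQT (Or.inl h)
  obtain ⟨𝔔, h𝔔p, h𝔔, hover⟩ := hex Q
  refine ⟨Q, 𝔔, h𝔔p, h𝔔, hover, hQprime, hQS, fun h => hQT (Or.inr h),
    ramificationIdx_eq_one_of_not_mem_ramBelow hQ' 𝔔 h𝔔 hover, ?_⟩
  apply zpowers_eq_top_of_forall_not_mem hτ
  intro r hr hmem
  exact hQA r hr ((hdict Q hQ' 𝔔 h𝔔 hover r).2 hmem)

end CyclicCase

section Transfer

variable {K L : Type*} [Field K] [NumberField K] [Field L] [NumberField L] [Algebra K L]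
  [IsGalois K L]

/-- the two actions on `𝓞 L` agree -/
theorem restrictScalars_smul_integer (M : IntermediateField K L) (g : Gal(L/M)) (x : 𝓞 L) :
    (g.restrictScalars K) • x = g • x := by
  apply RingOfIntegers.ext
  rfl

/-- **Transfer**: if the prime of `M` below `𝔔` has the same residue field as the prime of `K`
below, the Frobenius over `M` is the Frobenius over `K`. -/
theorem restrictScalars_frob (M : IntermediateField K L) (𝔔 : Ideal (𝓞 L)) [𝔔.IsPrime]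
    (h𝔔 : 𝔔 ≠ ⊥) (hur : 𝔔.ramificationIdx (𝓞 K) = 1)
    (hcard : Nat.card (𝓞 K ⧸ 𝔔.under (𝓞 K)) = Nat.card (𝓞 M ⧸ 𝔔.under (𝓞 M))) :
    (H27.frob M 𝔔 h𝔔).restrictScalars K = H27.frob K 𝔔 h𝔔 := by
  rw [H27.eq_frob_iff 𝔔 h𝔔 ((H27.isUnramifiedAt_iff_ramificationIdx 𝔔).2 hur)]
  intro x
  rw [restrictScalars_smul_integer, hcard]
  exact H27.frob_spec (K := M) 𝔔 h𝔔 x

end Transfer

section General

variable (K L : Type*) [Field K] [NumberField K] [Field L] [NumberField L] [Algebra K L]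
  [IsGalois K L]

/-- **Frobenius density theorem, existence form** (conditional on the inclusion-exclusion
density statement for the fixed field of `σ`). -/
theorem exists_prime_zpowers_frob_eq_of (σ : Gal(L/K))
    (hIE : InclExclStatement
      ↥(IntermediateField.fixedField (Subgroup.zpowers σ) : IntermediateField K L))
    (S : Finset ℕ) :
    ∃ (𝔔 : Ideal (𝓞 L)) (_ : 𝔔.IsPrime) (h𝔔 : 𝔔 ≠ ⊥),
      (Ideal.absNorm (𝔔.under (𝓞 K))).Prime ∧ Ideal.absNorm (𝔔.under (𝓞 K)) ∉ S ∧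
      𝔔.ramificationIdx (𝓞 K) = 1 ∧
      Subgroup.zpowers (H27.frob K 𝔔 h𝔔) = Subgroup.zpowers σ := by
  classical
  set M : IntermediateField K L := IntermediateField.fixedField (Subgroup.zpowers σ) with hM
  have hfix : M.fixingSubgroup = Subgroup.zpowers σ :=
    IntermediateField.fixingSubgroup_fixedField _
  have hσM : σ ∈ M.fixingSubgroup := by rw [hfix]; exact Subgroup.mem_zpowers σ
  let φ : Gal(L/M) →* Gal(L/K) := AlgEquiv.restrictScalarsHom K
  have hφinj : Function.Injective φ := AlgEquiv.restrictScalarsHom_injective K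
  let τ : Gal(L/M) := IntermediateField.fixingSubgroupEquiv M ⟨σ, hσM⟩
  have hφτ : φ τ = σ := by
    ext x
    rfl
  have hτ : Subgroup.zpowers τ = ⊤ := by
    rw [eq_top_iff]
    intro g _
    have h1 : φ g ∈ M.fixingSubgroup := by
      rw [IntermediateField.mem_fixingSubgroup_iff]
      intro x hx
      exact g.commutes ⟨x, hx⟩
    rw [hfix, ← hφτ, ← MonoidHom.map_zpowers] at h1
    obtain ⟨g', hg', hgg'⟩ := h1
    rwa [← hφinj hgg']
  obtain ⟨Q, 𝔔, h𝔔p, h𝔔, hover, hQprime, hQS, hQT, hurM, hgen⟩ :=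
    exists_prime_frob_generator (M := M) (L := L) hIE τ hτ (H72.ramSet K M)
      (H72.ramSet_finite K M) S
  -- the prime of `K` below
  have hunder : 𝔔.under (𝓞 K) = (H72.underMap K M Q).asIdeal := by
    rw [H72.underMap_asIdeal, ← hover, Ideal.under_under]
  have hnorm := H72.absNorm_eq_pow_inertiaDeg_underMap K M Q
  obtain ⟨hN, hf⟩ := (Nat.Prime.pow_eq_iff hQprime).1 hnorm.symm
  have hcard : Nat.card (𝓞 K ⧸ 𝔔.under (𝓞 K)) = Nat.card (𝓞 M ⧸ 𝔔.under (𝓞 M)) := by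
    rw [hunder, hover]
    have e1 : Nat.card (𝓞 K ⧸ (H72.underMap K M Q).asIdeal) =
        Ideal.absNorm (H72.underMap K M Q).asIdeal := by
      rw [Ideal.absNorm_apply, Submodule.cardQuot_apply]
    have e2 : Nat.card (𝓞 M ⧸ Q.asIdeal) = Ideal.absNorm Q.asIdeal := by
      rw [Ideal.absNorm_apply, Submodule.cardQuot_apply]
    rw [e1, e2, hN]
  -- unramified over `K`
  have heQ : Q.asIdeal.ramificationIdx (𝓞 K) = 1 := by
    by_contra hne
    exact hQT hne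
  have hurK : 𝔔.ramificationIdx (𝓞 K) = 1 := by
    have : 𝔔.LiesOver Q.asIdeal := ⟨hover.symm⟩
    have := Ideal.ramificationIdx_tower (R := 𝓞 K) Q.asIdeal 𝔔
    rw [this, heQ, hurM]
  refine ⟨𝔔, h𝔔p, h𝔔, ?_, ?_, hurK, ?_⟩
  · rw [hunder, hN]; exact hQprime
  · rw [hunder, hN]; exact hQS
  · have htr := restrictScalars_frob M 𝔔 h𝔔 hurK hcard
    have h2 : φ (H27.frob M 𝔔 h𝔔) = H27.frob K 𝔔 h𝔔 := htr
    rw [← h2, ← MonoidHom.map_zpowers, hgen, ← hτ, MonoidHom.map_zpowers, hφτ]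

end General

end Fermat.Agent.S14.H82
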