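import Mathlib
import Fermat.Agent.S14.H27_Frob

/-!
# S14 / WP5-kummer, part 1: splitting of primes in an abstract Kummer extension

`K ⊆ F` number fields, `F / K` Galois, `ζ ∈ 𝓞 K` a primitive `p`-th root of unity (`p` prime),
`α ∈ 𝓞 F` with `α ^ p = a ∈ 𝓞 K`, and `α` generates `F / K` in the sense that only the identity
of `Gal(F/K)` fixes `α`.  For a nonzero prime `𝔔` of `𝓞 F` not containing `p * α`:

* `𝔔` is unramified over `K`;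
* `𝔔` has residue degree one over `K` iff `a` is a `p`-th power modulo `𝔔 ∩ 𝓞 K`.
-/

set_option autoImplicit false

noncomputable section

namespace Fermat.Agent.S14.H88

open NumberField
open scoped Pointwise

/-! ### Roots of unity modulo a prime ideal -/

section RootsMod

variable {S : Type*} [CommRing S] [IsDomain S] {p : ℕ} {ζ : S}

/-- If `ζ` is a primitive `p`-th root of unity (`p` prime) and `ζ ^ k ≡ 1` modulo a prime ideal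
not containing `p`, then `p ∣ k`. -/
theorem dvd_of_zeta_pow_sub_one_mem (hp : p.Prime) (hζ : IsPrimitiveRoot ζ p)
    (Q : Ideal S) [Q.IsPrime] (hpQ : (p : S) ∉ Q) {k : ℕ} (hk : ζ ^ k - 1 ∈ Q) : p ∣ k := by
  by_contra hpk
  have hcop : Nat.Coprime k p := ((Nat.Prime.coprime_iff_not_dvd hp).2 hpk).symm
  -- in the quotient, the image of `ζ` is `1`
  have h1 : Ideal.Quotient.mk Q ζ ^ k = 1 := by
    rw [← map_pow, ← map_one (Ideal.Quotient.mk Q), Ideal.Quotient.eq]; exact hk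
  have h2 : Ideal.Quotient.mk Q ζ ^ p = 1 := by
    rw [← map_pow, hζ.pow_eq_one, map_one]
  have h3 : Ideal.Quotient.mk Q ζ = 1 := by
    have := pow_gcd_eq_one.2 ⟨h1, h2⟩
    rwa [Nat.Coprime.gcd_eq_one hcop, pow_one] at this
  have h4 : (∑ i ∈ Finset.range p, ζ ^ i) = 0 := hζ.geom_sum_eq_zero hp.one_lt
  have h5 := congrArg (Ideal.Quotient.mk Q) h4
  rw [map_sum, map_zero] at h5
  simp only [map_pow, h3, one_pow, Finset.sum_const, Finset.card_range, nsmul_eq_mul,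
    mul_one] at h5
  apply hpQ
  rw [← Ideal.Quotient.eq_zero_iff_mem, map_natCast]
  exact h5

end RootsMod

/-! ### Euler's criterion for `p`-th powers in a finite field -/

section Euler

variable {k : Type*} [Field k] [Fintype k]

/-- In a finite field `k` with `p ∣ #k - 1`, a nonzero `y` is a `p`-th power iff
`y ^ ((#k - 1) / p) = 1`. -/
theorem exists_pow_eq_iff_pow_eq_one {p : ℕ} (hp0 : 0 < p) (hdvd : p ∣ Fintype.card k - 1)
    {y : k} (hy : y ≠ 0) :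
    (∃ x : k, x ^ p = y) ↔ y ^ ((Fintype.card k - 1) / p) = 1 := by
  classical
  constructor
  · rintro ⟨x, rfl⟩
    have hx : x ≠ 0 := by
      rintro rfl
      exact hy (zero_pow hp0.ne')
    rw [← pow_mul, Nat.mul_div_cancel' hdvd]
    exact FiniteField.pow_card_sub_one_eq_one x hx
  · intro h
    obtain ⟨g, hg⟩ := IsCyclic.exists_generator (α := kˣ)
    obtain ⟨j, hj⟩ : ∃ j : ℕ, g ^ j = Units.mk0 y hy := by
      have := hg (Units.mk0 y hy)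
      rw [Subgroup.mem_zpowers_iff] at this
      obtain ⟨z, hz⟩ := this
      refine ⟨(z % (orderOf g : ℤ)).toNat, ?_⟩
      rw [← zpow_natCast, Int.toNat_of_nonneg (Int.emod_nonneg _ (by
        have := orderOf_pos g; omega)), zpow_mod_orderOf, hz]
    have hord : orderOf g = Fintype.card k - 1 := by
      rw [orderOf_eq_card_of_forall_mem_zpowers hg, Nat.card_eq_fintype_card, Fintype.card_units]
    have h' : g ^ (j * ((Fintype.card k - 1) / p)) = 1 := by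
      rw [pow_mul, hj]
      ext
      simpa using h
    have hdiv : Fintype.card k - 1 ∣ j * ((Fintype.card k - 1) / p) := by
      have := orderOf_dvd_of_pow_eq_one h'
      rwa [hord] at this
    obtain ⟨c, hc⟩ := hdvd
    have hcpos : 0 < c := by
      rcases Nat.eq_zero_or_pos c with h0 | h0
      · exfalso
        have hcard : Fintype.card k - 1 = 0 := by rw [hc, h0, mul_zero]
        have := Fintype.one_lt_card (α := k)
        omega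
      · exact h0
    rw [hc, Nat.mul_div_cancel_left _ hp0] at hdiv
    obtain ⟨t, ht⟩ := hdiv
    -- j * c = p * c * t, so j = p * t
    have hjt : j = p * t := by
      have : j * c = (p * t) * c := by rw [ht]; ring
      exact Nat.eq_of_mul_eq_mul_right hcpos this
    refine ⟨((g ^ t : kˣ) : k), ?_⟩
    rw [← Units.val_pow_eq_pow_val, ← pow_mul, mul_comm, ← hjt, hj]
    rfl

end Euler

/-! ### The abstract Kummer situation -/

section Abstract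

variable {K F : Type*} [Field K] [Field F] [NumberField K] [NumberField F]
  [Algebra K F] [IsGalois K F]
variable {p : ℕ} {ζ : 𝓞 K} {a : 𝓞 K} {α : 𝓞 F}

/-- Every automorphism multiplies `α` by a power of `ζ`. -/
theorem exists_smul_eq_zeta_pow_mul (hp : p.Prime) (hζ : IsPrimitiveRoot ζ p)
    (hα : α ^ p = algebraMap (𝓞 K) (𝓞 F) a) (σ : Gal(F/K)) :
    ∃ k < p, σ • α = algebraMap (𝓞 K) (𝓞 F) (ζ ^ k) * α := by
  have hζ' : IsPrimitiveRoot (algebraMap (𝓞 K) (𝓞 F) ζ) p :=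
    hζ.map_of_injective (FaithfulSMul.algebraMap_injective (𝓞 K) (𝓞 F))
  have h1 : (σ • α) ^ p = algebraMap (𝓞 K) (𝓞 F) a := by
    rw [← smul_pow', hα, smul_algebraMap]
  have h2 : σ • α ∈ Polynomial.nthRoots p (algebraMap (𝓞 K) (𝓞 F) a) := by
    rw [Polynomial.mem_nthRoots hp.pos]; exact h1
  rw [hζ'.nthRoots_eq hα] at h2
  simp only [Multiset.mem_map, Multiset.mem_range] at h2
  obtain ⟨k, hk, hk'⟩ := h2
  exact ⟨k, hk, by rw [← hk', map_pow]⟩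

variable (hp : p.Prime) (hζ : IsPrimitiveRoot ζ p)
  (hα : α ^ p = algebraMap (𝓞 K) (𝓞 F) a)
  (hgen : ∀ σ : Gal(F/K), σ • α = α → σ = 1)

include hp hζ hα hgen in
/-- If `σ • α ≡ α` modulo a prime `𝔔` not containing `p * α`, then `σ = 1`. -/
theorem eq_one_of_smul_sub_mem (𝔔 : Ideal (𝓞 F)) [𝔔.IsPrime] (hpQ : (p : 𝓞 F) ∉ 𝔔)
    (hαQ : α ∉ 𝔔) (σ : Gal(F/K)) (hσ : σ • α - α ∈ 𝔔) : σ = 1 := by
  obtain ⟨k, hk, hkα⟩ := exists_smul_eq_zeta_pow_mul hp hζ hα σ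
  have hζ' : IsPrimitiveRoot (algebraMap (𝓞 K) (𝓞 F) ζ) p :=
    hζ.map_of_injective (FaithfulSMul.algebraMap_injective (𝓞 K) (𝓞 F))
  have h1 : ((algebraMap (𝓞 K) (𝓞 F) ζ) ^ k - 1) * α ∈ 𝔔 := by
    have : ((algebraMap (𝓞 K) (𝓞 F) ζ) ^ k - 1) * α = σ • α - α := by
      rw [hkα, map_pow]; ring
    rw [this]; exact hσ
  have h2 : (algebraMap (𝓞 K) (𝓞 F) ζ) ^ k - 1 ∈ 𝔔 :=
    (Ideal.IsPrime.mem_or_mem inferInstance h1).resolve_right hαQ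
  have h3 : p ∣ k := dvd_of_zeta_pow_sub_one_mem hp hζ' 𝔔 hpQ h2
  have h4 : k = 0 := Nat.eq_zero_of_dvd_of_lt h3 hk
  apply hgen
  rw [hkα, h4, pow_zero, map_one, one_mul]

include hp hζ hα hgen in
/-- The inertia group at a prime not containing `p * α` is trivial. -/
theorem inertia_eq_bot_of_not_mem (𝔔 : Ideal (𝓞 F)) [𝔔.IsPrime] (hpQ : (p : 𝓞 F) ∉ 𝔔)
    (hαQ : α ∉ 𝔔) : 𝔔.inertia Gal(F/K) = ⊥ := by
  rw [eq_bot_iff]
  intro σ hσ
  rw [Subgroup.mem_bot]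
  exact eq_one_of_smul_sub_mem hp hζ hα hgen 𝔔 hpQ hαQ σ (hσ α)

include hp hζ hα hgen in
/-- A prime of `𝓞 F` not containing `p * α` is unramified over `K`. -/
theorem isUnramifiedAt_of_not_mem (𝔔 : Ideal (𝓞 F)) [𝔔.IsPrime] (h𝔔 : 𝔔 ≠ ⊥)
    (hpQ : (p : 𝓞 F) ∉ 𝔔) (hαQ : α ∉ 𝔔) : Algebra.IsUnramifiedAt (𝓞 K) 𝔔 := by
  have hm : 𝔔.under (𝓞 K) ≠ ⊥ := mt Ideal.eq_bot_of_comap_eq_bot h𝔔
  haveI : (𝔔.under (𝓞 K)).IsMaximal := Ideal.IsPrime.isMaximal inferInstance hm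
  haveI : Finite (𝓞 K ⧸ 𝔔.under (𝓞 K)) := Ideal.finiteQuotientOfFreeOfNeBot _ hm
  haveI : Finite (𝔔.under (𝓞 K)).ResidueField :=
    Finite.of_surjective (algebraMap (𝓞 K ⧸ 𝔔.under (𝓞 K)) (𝔔.under (𝓞 K)).ResidueField)
      (Ideal.bijective_algebraMap_quotient_residueField (𝔔.under (𝓞 K))).surjective
  rw [H27.isUnramifiedAt_iff_ramificationIdx,
    ← Ideal.ramificationIdxIn_eq_ramificationIdx (𝔔.under (𝓞 K)) 𝔔 Gal(F/K),
    ← Ideal.card_inertia_eq_ramificationIdxIn (G := Gal(F/K)) (𝔔.under (𝓞 K)) 𝔔,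
    inertia_eq_bot_of_not_mem hp hζ hα hgen 𝔔 hpQ hαQ]
  simp

include hp hζ hα hgen in
/-- **Splitting criterion**: a prime `𝔔` of `𝓞 F` not containing `p * α` has residue degree one
over `K` iff `a` is a `p`-th power modulo `𝔔 ∩ 𝓞 K`. -/
theorem inertiaDeg_eq_one_iff (𝔔 : Ideal (𝓞 F)) [𝔔.IsPrime] (h𝔔 : 𝔔 ≠ ⊥)
    (hpQ : (p : 𝓞 F) ∉ 𝔔) (hαQ : α ∉ 𝔔) :
    𝔔.inertiaDeg (𝓞 K) = 1 ↔
      ∃ x : 𝓞 K ⧸ 𝔔.under (𝓞 K), x ^ p = Ideal.Quotient.mk (𝔔.under (𝓞 K)) a := by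
  classical
  have hur := isUnramifiedAt_of_not_mem hp hζ hα hgen 𝔔 h𝔔 hpQ hαQ
  have hm : 𝔔.under (𝓞 K) ≠ ⊥ := mt Ideal.eq_bot_of_comap_eq_bot h𝔔
  haveI : (𝔔.under (𝓞 K)).IsMaximal := Ideal.IsPrime.isMaximal inferInstance hm
  letI := Ideal.Quotient.field (𝔔.under (𝓞 K))
  haveI : Finite (𝓞 K ⧸ 𝔔.under (𝓞 K)) := Ideal.finiteQuotientOfFreeOfNeBot _ hm
  letI := Fintype.ofFinite (𝓞 K ⧸ 𝔔.under (𝓞 K))
  set q := Nat.card (𝓞 K ⧸ 𝔔.under (𝓞 K)) with hq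
  have hqcard : q = Fintype.card (𝓞 K ⧸ 𝔔.under (𝓞 K)) := Nat.card_eq_fintype_card
  have hq1 : 1 < q := by rw [hqcard]; exact Fintype.one_lt_card
  -- membership transfer between `𝔔` and `𝔔 ∩ 𝓞 K`
  have hmem : ∀ x : 𝓞 K, algebraMap (𝓞 K) (𝓞 F) x ∈ 𝔔 ↔ x ∈ 𝔔.under (𝓞 K) := fun x => by
    rw [Ideal.under_def, Ideal.mem_comap]
  have hpm : (p : 𝓞 K) ∉ 𝔔.under (𝓞 K) := by
    rw [← hmem, map_natCast]; exact hpQ
  -- `p ∣ q - 1`
  have hdvd : p ∣ q - 1 := by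
    have hz1 : Ideal.Quotient.mk (𝔔.under (𝓞 K)) ζ ^ p = 1 := by
      rw [← map_pow, hζ.pow_eq_one, map_one]
    have hz2 : Ideal.Quotient.mk (𝔔.under (𝓞 K)) ζ ≠ 1 := by
      intro h
      have : ζ ^ 1 - 1 ∈ 𝔔.under (𝓞 K) := by
        rw [pow_one, ← Ideal.Quotient.eq, h, map_one]
      have := dvd_of_zeta_pow_sub_one_mem hp hζ (𝔔.under (𝓞 K)) hpm this
      exact hp.one_lt.ne' (Nat.dvd_one.mp this)
    have hz0 : Ideal.Quotient.mk (𝔔.under (𝓞 K)) ζ ≠ 0 := by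
      intro h
      rw [h, zero_pow hp.ne_zero] at hz1
      exact zero_ne_one hz1
    have hord : orderOf (Ideal.Quotient.mk (𝔔.under (𝓞 K)) ζ) = p :=
      haveI := Fact.mk hp
      orderOf_eq_prime hz1 hz2
    rw [← hord, hqcard]
    exact orderOf_dvd_of_pow_eq_one (FiniteField.pow_card_sub_one_eq_one _ hz0)
  -- `a` is a unit mod `𝔔 ∩ 𝓞 K`
  have ha0 : Ideal.Quotient.mk (𝔔.under (𝓞 K)) a ≠ 0 := by
    intro h
    rw [Ideal.Quotient.eq_zero_iff_mem, ← hmem, ← hα] at h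
    exact hαQ (Ideal.IsPrime.mem_of_pow_mem inferInstance _ h)
  obtain ⟨c, hc⟩ := hdvd
  have hcq : (q - 1) / p = c := by rw [hc, Nat.mul_div_cancel_left _ hp.pos]
  -- the chain of equivalences
  rw [← H27.frob_eq_one_iff 𝔔 h𝔔 hur,
    exists_pow_eq_iff_pow_eq_one hp.pos (by rw [← hqcard, hc]; exact dvd_mul_right _ _) ha0,
    ← hqcard, hcq]
  have hspec := H27.frob_spec (K := K) 𝔔 h𝔔 α
  -- `ā ^ c = 1 ↔ α ^ (q - 1) - 1 ∈ 𝔔`
  have hD : Ideal.Quotient.mk (𝔔.under (𝓞 K)) a ^ c = 1 ↔ α ^ (q - 1) - 1 ∈ 𝔔 := by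
    rw [← map_pow, ← map_one (Ideal.Quotient.mk (𝔔.under (𝓞 K))), Ideal.Quotient.eq, ← hmem,
      map_sub, map_pow, map_one, ← hα, ← pow_mul, ← hc]
  -- `α ^ (q - 1) - 1 ∈ 𝔔 ↔ α ^ q - α ∈ 𝔔`
  have hE : α ^ (q - 1) - 1 ∈ 𝔔 ↔ α ^ q - α ∈ 𝔔 := by
    have : α ^ q - α = α * (α ^ (q - 1) - 1) := by
      have hq' : q = (q - 1) + 1 := by omega
      conv_lhs => rw [hq']
      ring
    rw [this]
    constructor
    · intro h; exact Ideal.mul_mem_left _ _ h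
    · intro h; exact (Ideal.IsPrime.mem_or_mem inferInstance h).resolve_left hαQ
  rw [hD, hE]
  constructor
  · intro h
    have h1 : (H27.frob K 𝔔 h𝔔) • α - α ∈ 𝔔 := by rw [h, one_smul, sub_self]; exact 𝔔.zero_mem
    have : α ^ q - α = ((H27.frob K 𝔔 h𝔔) • α - α) - ((H27.frob K 𝔔 h𝔔) • α - α ^ q) := by ring
    rw [this]
    exact 𝔔.sub_mem h1 hspec
  · intro h
    apply eq_one_of_smul_sub_mem hp hζ hα hgen 𝔔 hpQ hαQ
    have : (H27.frob K 𝔔 h𝔔) • α - α = ((H27.frob K 𝔔 h𝔔) • α - α ^ q) + (α ^ q - α) := by ring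
    rw [this]
    exact 𝔔.add_mem hspec h

include hp hζ hα hgen in
/-- **Splitting criterion, all primes above `𝔪`**: for a nonzero prime `𝔪` of `𝓞 K` not
containing `p * a`, all primes of `𝓞 F` above `𝔪` have `e = f = 1` iff `a` is a `p`-th power
modulo `𝔪`. -/
theorem forall_ramificationIdx_inertiaDeg_eq_one_iff (𝔪 : Ideal (𝓞 K)) [𝔪.IsPrime]
    (h𝔪 : 𝔪 ≠ ⊥) (hpm : (p : 𝓞 K) ∉ 𝔪) (ham : a ∉ 𝔪) :
    (∀ 𝔔 : Ideal (𝓞 F), 𝔔.IsPrime → 𝔔 ≠ ⊥ → 𝔔.under (𝓞 K) = 𝔪 →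
        𝔔.ramificationIdx (𝓞 K) = 1 ∧ 𝔔.inertiaDeg (𝓞 K) = 1) ↔
      ∃ x : 𝓞 K ⧸ 𝔪, x ^ p = Ideal.Quotient.mk 𝔪 a := by
  have key : ∀ 𝔔 : Ideal (𝓞 F), 𝔔.IsPrime → 𝔔.under (𝓞 K) = 𝔪 →
      (p : 𝓞 F) ∉ 𝔔 ∧ α ∉ 𝔔 := by
    intro 𝔔 _ h𝔔m
    have hmem : ∀ x : 𝓞 K, algebraMap (𝓞 K) (𝓞 F) x ∈ 𝔔 ↔ x ∈ 𝔪 := fun x => by
      rw [← h𝔔m, Ideal.under_def, Ideal.mem_comap]
    refine ⟨fun h => hpm ?_, fun h => ham ?_⟩
    · rw [← hmem, map_natCast]; exact h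
    · rw [← hmem, ← hα]; exact Ideal.pow_mem_of_mem _ h _ hp.pos
  constructor
  · intro h
    haveI : 𝔪.IsMaximal := Ideal.IsPrime.isMaximal inferInstance h𝔪
    obtain ⟨𝔔, h𝔔max, h𝔔m⟩ :=
      Ideal.exists_ideal_over_maximal_of_isIntegral (S := 𝓞 F) 𝔪 (by
        rw [(RingHom.injective_iff_ker_eq_bot _).mp
          (FaithfulSMul.algebraMap_injective (𝓞 K) (𝓞 F))]
        exact bot_le)
    haveI : 𝔔.IsPrime := h𝔔max.isPrime
    have h𝔔0 : 𝔔 ≠ ⊥ := by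
      rintro rfl
      apply h𝔪
      rw [← h𝔔m]
      exact Ideal.comap_bot_of_injective _ (FaithfulSMul.algebraMap_injective (𝓞 K) (𝓞 F))
    have h𝔔m' : 𝔔.under (𝓞 K) = 𝔪 := h𝔔m
    obtain ⟨hpQ, hαQ⟩ := key 𝔔 inferInstance h𝔔m'
    have hres := (inertiaDeg_eq_one_iff hp hζ hα hgen 𝔔 h𝔔0 hpQ hαQ).1
      (h 𝔔 inferInstance h𝔔0 h𝔔m').2
    subst h𝔔m'
    exact hres
  · intro h 𝔔 _ h𝔔0 h𝔔m
    obtain ⟨hpQ, hαQ⟩ := key 𝔔 inferInstance h𝔔m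
    subst h𝔔m
    refine ⟨?_, (inertiaDeg_eq_one_iff hp hζ hα hgen 𝔔 h𝔔0 hpQ hαQ).2 h⟩
    rw [← H27.isUnramifiedAt_iff_ramificationIdx]
    exact isUnramifiedAt_of_not_mem hp hζ hα hgen 𝔔 h𝔔0 hpQ hαQ

end Abstract

end Fermat.Agent.S14.H88
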