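import Mathlib
import Fermat.Agent.S14.H88_KummerSplit

/-!
# S14 / WP5-kummer, part 2: the concrete Kummer field `K[p√a]`

For a number field `K` containing a primitive `p`-th root of unity `ζ` (`p` prime) and `a ∈ 𝓞 K`
which is not a `p`-th power in `K`, the field `kummerField K p a := AdjoinRoot (X ^ p - C a)` is a
number field, Galois of degree `p` over `K`, and the splitting criterion of part 1 applies.
-/

set_option autoImplicit false

noncomputable section

namespace Fermat.Agent.S14.H88

open NumberField Polynomial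
open scoped Pointwise

variable (K : Type*) [Field K] [NumberField K] (p : ℕ) (a : 𝓞 K)

/-- The Kummer field `K[p√a]`. -/
abbrev kummerField : Type _ := AdjoinRoot (X ^ p - C (a : K))

variable {K p a}

theorem irreducible_of_not_pow (hp : p.Prime) (ha : ∀ b : K, b ^ p ≠ (a : K)) :
    Irreducible (X ^ p - C (a : K)) :=
  X_pow_sub_C_irreducible_of_prime hp ha

variable [hirr : Fact (Irreducible (X ^ p - C (a : K)))]

instance : CharZero (kummerField K p a) :=
  charZero_of_injective_algebraMap (algebraMap K (kummerField K p a)).injective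

instance : FiniteDimensional K (kummerField K p a) :=
  (AdjoinRoot.powerBasis hirr.out.ne_zero).finite

instance : NumberField (kummerField K p a) where
  to_charZero := inferInstance
  to_finiteDimensional := Module.Finite.trans K (kummerField K p a)

section Galois

variable {ζ : 𝓞 K} (hζ : IsPrimitiveRoot ζ p)

include hζ in
theorem primitiveRoots_nonempty (hp : p.Prime) : (primitiveRoots p K).Nonempty :=
  ⟨(ζ : K), (mem_primitiveRoots hp.pos).2
    (hζ.map_of_injective (f := algebraMap (𝓞 K) K) RingOfIntegers.coe_injective)⟩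

include hζ in
theorem isGalois_kummerField (hp : p.Prime) : IsGalois K (kummerField K p a) :=
  haveI := isSplittingField_AdjoinRoot_X_pow_sub_C (primitiveRoots_nonempty hζ hp) hirr.out
  isGalois_of_isSplittingField_X_pow_sub_C (primitiveRoots_nonempty hζ hp) hirr.out _

include hζ in
theorem finrank_kummerField (hp : p.Prime) : Module.finrank K (kummerField K p a) = p :=
  haveI := isSplittingField_AdjoinRoot_X_pow_sub_C (primitiveRoots_nonempty hζ hp) hirr.out
  finrank_of_isSplittingField_X_pow_sub_C (primitiveRoots_nonempty hζ hp) hirr.out _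

end Galois

section Root

theorem root_pow (hp : p.Prime) :
    (AdjoinRoot.root (X ^ p - C (a : K))) ^ p = algebraMap K (kummerField K p a) (a : K) := by
  have := AdjoinRoot.eval₂_root (X ^ p - C (a : K))
  rw [eval₂_sub, eval₂_pow, eval₂_X, eval₂_C, sub_eq_zero] at this
  rw [this]; rfl

theorem isIntegral_root (hp : p.Prime) :
    IsIntegral ℤ (AdjoinRoot.root (X ^ p - C (a : K))) := by
  apply IsIntegral.of_pow hp.pos
  rw [root_pow hp]
  exact (RingOfIntegers.isIntegral_coe a).algebraMap

/-- The chosen `p`-th root of `a`, as an algebraic integer of `K[p√a]`. -/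
def kummerRoot (hp : p.Prime) : 𝓞 (kummerField K p a) :=
  ⟨AdjoinRoot.root (X ^ p - C (a : K)), isIntegral_root hp⟩

theorem kummerRoot_pow (hp : p.Prime) :
    (kummerRoot (K := K) (a := a) hp) ^ p = algebraMap (𝓞 K) (𝓞 (kummerField K p a)) a := by
  apply RingOfIntegers.ext
  show (AdjoinRoot.root (X ^ p - C (a : K))) ^ p = _
  rw [root_pow hp]
  rfl

end Root

section Criterion

theorem eq_one_of_smul_kummerRoot (hp : p.Prime) (σ : Gal(kummerField K p a/K))
    (h : σ • kummerRoot (K := K) (a := a) hp = kummerRoot hp) : σ = 1 := by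
  have h' : σ (AdjoinRoot.root (X ^ p - C (a : K))) = AdjoinRoot.root (X ^ p - C (a : K)) :=
    congrArg (fun x : 𝓞 (kummerField K p a) => (x : kummerField K p a)) h
  apply AlgEquiv.coe_algHom_injective
  apply AdjoinRoot.algHom_ext
  exact h'

variable {ζ : 𝓞 K}

/-- **Splitting criterion for `K[p√a] / K`**: for a nonzero prime `𝔪` of `𝓞 K` not containing
`p * a`, all primes of `K[p√a]` above `𝔪` have `e = f = 1` iff `a` is a `p`-th power mod `𝔪`. -/
theorem kummerField_splits_iff (hp : p.Prime) (hζ : IsPrimitiveRoot ζ p)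
    (𝔪 : Ideal (𝓞 K)) [𝔪.IsPrime] (h𝔪 : 𝔪 ≠ ⊥) (hpm : (p : 𝓞 K) ∉ 𝔪) (ham : a ∉ 𝔪) :
    (∀ 𝔔 : Ideal (𝓞 (kummerField K p a)), 𝔔.IsPrime → 𝔔 ≠ ⊥ → 𝔔.under (𝓞 K) = 𝔪 →
        𝔔.ramificationIdx (𝓞 K) = 1 ∧ 𝔔.inertiaDeg (𝓞 K) = 1) ↔
      ∃ x : 𝓞 K ⧸ 𝔪, x ^ p = Ideal.Quotient.mk 𝔪 a :=
  haveI := isGalois_kummerField (a := a) hζ hp
  forall_ramificationIdx_inertiaDeg_eq_one_iff hp hζ (kummerRoot_pow hp)
    (eq_one_of_smul_kummerRoot hp) 𝔪 h𝔪 hpm ham

end Criterion

end Fermat.Agent.S14.H88
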