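import Mathlib

/-!
# S14 / WP5-kummer, part 3: an abstract density (union bound) argument

`P` a type of "primes" with nonnegative weights `h s : P → ℝ` (`h s 𝔪 = N𝔪 ^ (-s)`), summable for
`s > 1`, whose total mass is `log (1/(s-1)) + O(1)` on `(1,2]`.  Let `S i` (`i` in a finite type
with at least two elements... in fact any `Fintype`) be sets of density `1/p` (`p ≥ 2`), and `D` a
set with small complement, such that on `D` the sets `S i` cover, and `S i₀ ∩ S i₁ ∩ D ⊆ S i` for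
all `i`.  Then `D ∩ S i₀ \ S i₁` is nonempty.
-/

set_option autoImplicit false

noncomputable section

namespace Fermat.Agent.S14.H88

open Set

section Abstract

variable {P : Type*} {ι : Type*} [Fintype ι]

/-- weighted sum over a subset. -/
def zsum (h : P → ℝ) (S : Set P) : ℝ := ∑' 𝔪 : S, h 𝔪

theorem zsum_eq_tsum_indicator (h : P → ℝ) (S : Set P) :
    zsum h S = ∑' 𝔪, S.indicator h 𝔪 := tsum_subtype S h

theorem summable_indicator {h : P → ℝ} (hs : Summable h) (S : Set P) :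
    Summable (S.indicator h) := hs.indicator S

theorem zsum_nonneg {h : P → ℝ} (h0 : ∀ 𝔪, 0 ≤ h 𝔪) (S : Set P) : 0 ≤ zsum h S :=
  tsum_nonneg fun _ => h0 _

theorem zsum_mono {h : P → ℝ} (h0 : ∀ 𝔪, 0 ≤ h 𝔪) (hs : Summable h) {S T : Set P}
    (hST : S ⊆ T) : zsum h S ≤ zsum h T := by
  rw [zsum_eq_tsum_indicator, zsum_eq_tsum_indicator]
  exact (summable_indicator hs S).tsum_le_tsum
    (fun 𝔪 => indicator_le_indicator_of_subset hST h0 𝔪) (summable_indicator hs T)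

/-- `Z(S) ≤ Z(S ∩ D) + Z(Dᶜ)`. -/
theorem zsum_le_inter_add_compl {h : P → ℝ} (h0 : ∀ 𝔪, 0 ≤ h 𝔪) (hs : Summable h)
    (S D : Set P) : zsum h S ≤ zsum h (D ∩ S) + zsum h Dᶜ := by
  rw [zsum_eq_tsum_indicator, zsum_eq_tsum_indicator, zsum_eq_tsum_indicator,
    ← (summable_indicator hs _).tsum_add (summable_indicator hs _)]
  refine (summable_indicator hs S).tsum_le_tsum (fun 𝔪 => ?_)
    ((summable_indicator hs _).add (summable_indicator hs _))
  by_cases hD : 𝔪 ∈ D <;> by_cases hS : 𝔪 ∈ S <;>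
    simp [indicator, hD, hS, h0 𝔪]

/-- The counting inequality `Z(D) + (N-1) Z(D ∩ S i₀) ≤ ∑ i, Z(D ∩ S i)` under the covering and
closure assumptions. -/
theorem zsum_add_le_sum {h : P → ℝ} (h0 : ∀ 𝔪, 0 ≤ h 𝔪) (hs : Summable h)
    (D : Set P) (S : ι → Set P) (i₀ : ι)
    (hcov : ∀ 𝔪 ∈ D, ∃ i, 𝔪 ∈ S i)
    (hall : ∀ 𝔪 ∈ D, 𝔪 ∈ S i₀ → ∀ i, 𝔪 ∈ S i) :
    zsum h D + ((Fintype.card ι : ℝ) - 1) * zsum h (D ∩ S i₀) ≤ ∑ i, zsum h (D ∩ S i) := by
  classical
  simp only [zsum_eq_tsum_indicator]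
  rw [← tsum_mul_left, ← (summable_indicator hs _).tsum_add
    ((summable_indicator hs _).mul_left _),
    ← Summable.tsum_finsetSum (fun i _ => summable_indicator hs (D ∩ S i))]
  refine ((summable_indicator hs _).add ((summable_indicator hs _).mul_left _)).tsum_le_tsum
    (fun 𝔪 => ?_) (summable_sum fun i _ => summable_indicator hs (D ∩ S i))
  have hN1 : (1 : ℝ) ≤ Fintype.card ι ∨ IsEmpty ι := by
    rcases isEmpty_or_nonempty ι with h | h
    · exact Or.inr h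
    · exact Or.inl (by exact_mod_cast Fintype.card_pos)
  by_cases hD : 𝔪 ∈ D
  · by_cases h0' : 𝔪 ∈ S i₀
    · have : ∀ i, (D ∩ S i).indicator h 𝔪 = h 𝔪 := fun i =>
        indicator_of_mem (show 𝔪 ∈ D ∩ S i from ⟨hD, hall 𝔪 hD h0' i⟩) h
      simp only [this, Finset.sum_const, Finset.card_univ, nsmul_eq_mul,
        indicator_of_mem hD]
      linarith
    · obtain ⟨i, hi⟩ := hcov 𝔪 hD
      have h1 : (D ∩ S i₀).indicator h 𝔪 = 0 := indicator_of_notMem (fun hh => h0' hh.2) h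
      rw [indicator_of_mem hD, h1, mul_zero, add_zero]
      calc h 𝔪 = (D ∩ S i).indicator h 𝔪 :=
            (indicator_of_mem (show 𝔪 ∈ D ∩ S i from ⟨hD, hi⟩) h).symm
        _ ≤ ∑ i, (D ∩ S i).indicator h 𝔪 :=
          Finset.single_le_sum (f := fun i => (D ∩ S i).indicator h 𝔪)
            (fun j _ => indicator_nonneg (fun _ _ => h0 _) _) (Finset.mem_univ i)
  · have : ∀ i, (D ∩ S i).indicator h 𝔪 = 0 := fun i =>
      indicator_of_notMem (fun hh => hD hh.1) h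
    simp [this, indicator_of_notMem hD]

/-- **Abstract union bound.**  Weights `h s` (`s > 1`), total mass `≥ log (1/(s-1)) - C`, a set
`D` whose complement has bounded mass, `n + 1` sets `S i` of density at most `1/n` each, with
`S i₀` of density at least `1/n`; if on `D` the `S i` cover and `D ∩ S i₀ ∩ S i₁ ⊆ S i` for every
`i`, then `D ∩ S i₀ \ S i₁` is nonempty. -/
theorem exists_mem_inter_diff (h : ℝ → P → ℝ) (h0 : ∀ s 𝔪, 0 ≤ h s 𝔪)
    (hs : ∀ s, 1 < s → Summable (h s))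
    (D : Set P) (S : ι → Set P) (i₀ i₁ : ι) (n : ℝ) (hn : 1 < n)
    (hcard : (Fintype.card ι : ℝ) = n + 1)
    (hcov : ∀ 𝔪 ∈ D, ∃ i, 𝔪 ∈ S i)
    (hclos : ∀ 𝔪 ∈ D, 𝔪 ∈ S i₀ → 𝔪 ∈ S i₁ → ∀ i, 𝔪 ∈ S i)
    (C : ℝ)
    (htot : ∀ s ∈ Ioc (1:ℝ) 2, Real.log (1 / (s - 1)) - C ≤ zsum (h s) univ)
    (hD : ∀ s ∈ Ioc (1:ℝ) 2, zsum (h s) Dᶜ ≤ C)
    (hup : ∀ i, ∀ s ∈ Ioc (1:ℝ) 2, zsum (h s) (S i) ≤ (1 / n) * Real.log (1 / (s - 1)) + C)
    (hlow : ∀ s ∈ Ioc (1:ℝ) 2, (1 / n) * Real.log (1 / (s - 1)) - C ≤ zsum (h s) (S i₀)) :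
    ∃ 𝔪 ∈ D, 𝔪 ∈ S i₀ ∧ 𝔪 ∉ S i₁ := by
  classical
  by_contra hcon
  push Not at hcon
  have hall : ∀ 𝔪 ∈ D, 𝔪 ∈ S i₀ → ∀ i, 𝔪 ∈ S i := fun 𝔪 hm h0' =>
    hclos 𝔪 hm h0' (hcon 𝔪 hm h0')
  have hn0 : 0 < n := by linarith
  -- the key inequality for every `s`
  have key : ∀ s ∈ Ioc (1:ℝ) 2, (1 - 1 / n) * Real.log (1 / (s - 1)) ≤ (3 * n + 3) * C := by
    intro s hsmem
    have hs1 : 1 < s := hsmem.1
    set L := Real.log (1 / (s - 1)) with hL
    have e1 := zsum_add_le_sum (h0 s) (hs s hs1) D S i₀ hcov hall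
    have e2 : zsum (h s) univ ≤ zsum (h s) (D ∩ univ) + zsum (h s) Dᶜ :=
      zsum_le_inter_add_compl (h0 s) (hs s hs1) univ D
    rw [inter_univ] at e2
    have e3 : zsum (h s) (S i₀) ≤ zsum (h s) (D ∩ S i₀) + zsum (h s) Dᶜ :=
      zsum_le_inter_add_compl (h0 s) (hs s hs1) (S i₀) D
    have e4 : ∑ i, zsum (h s) (D ∩ S i) ≤ ∑ _i : ι, ((1 / n) * L + C) := by
      refine Finset.sum_le_sum fun i _ => ?_
      exact (zsum_mono (h0 s) (hs s hs1) inter_subset_right).trans (hup i s hsmem)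
    rw [Finset.sum_const, Finset.card_univ, nsmul_eq_mul, hcard] at e4
    rw [hcard] at e1
    have a1 := htot s hsmem
    have a2 := hD s hsmem
    have a3 := hlow s hsmem
    have hD1 : L - 2 * C ≤ zsum (h s) D := by linarith
    have hD2 : (1 / n) * L - 2 * C ≤ zsum (h s) (D ∩ S i₀) := by linarith
    have hD3 : n * ((1 / n) * L - 2 * C) ≤ n * zsum (h s) (D ∩ S i₀) :=
      mul_le_mul_of_nonneg_left hD2 hn0.le
    have hnn : n * ((1 / n) * L) = L := by field_simp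
    have e5 : (n + 1) * ((1 / n) * L + C) = L + (1 / n) * L + (n + 1) * C := by
      have : n * ((1 / n) * L) = L := hnn
      ring_nf
      ring_nf at this
      linarith
    have e6 : n + 1 - 1 = n := by ring
    rw [e6] at e1
    nlinarith [e1, e4, hD1, hD3, e5, hnn]
  -- choose `s` close to `1`
  have hpos : 0 < 1 - 1 / n := by
    have : 1 / n < 1 := by rw [div_lt_one hn0]; exact hn
    linarith
  obtain ⟨T, hT0, hT⟩ : ∃ T : ℝ, 0 ≤ T ∧ (3 * n + 3) * C < (1 - 1 / n) * T := by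
    refine ⟨max 0 ((3 * n + 3) * C / (1 - 1 / n) + 1), le_max_left _ _, ?_⟩
    have : (3 * n + 3) * C / (1 - 1 / n) + 1 ≤ max 0 ((3 * n + 3) * C / (1 - 1 / n) + 1) :=
      le_max_right _ _
    have h2 : (3 * n + 3) * C / (1 - 1 / n) < max 0 ((3 * n + 3) * C / (1 - 1 / n) + 1) := by
      linarith
    rw [div_lt_iff₀ hpos] at h2
    linarith
  have hsmem : 1 + Real.exp (-T) ∈ Ioc (1:ℝ) 2 := by
    refine ⟨by linarith [Real.exp_pos (-T)], ?_⟩
    have : Real.exp (-T) ≤ 1 := Real.exp_le_one_iff.mpr (by linarith)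
    linarith
  have := key _ hsmem
  have hlog : Real.log (1 / (1 + Real.exp (-T) - 1)) = T := by
    rw [add_sub_cancel_left, one_div, ← Real.exp_neg, neg_neg, Real.log_exp]
  rw [hlog] at this
  linarith

end Abstract

end Fermat.Agent.S14.H88
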