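import Mathlib
import Fermat.Agent.S14.H72_LogZeta
import Fermat.Agent.S14.H88_UnionBound

/-!
# S14 / WP5-kummer, part 4: density of the primes that split completely

`K ⊆ F` number fields, `n = [F : K]`.  If a set `T` of primes of `K` coincides, outside a finite
set `B`, with the set of primes all of whose prime divisors in `F` have `e = f = 1`, and every
prime outside `T ∪ B` has only prime divisors of residue degree `≥ 2`, then
`∑_{P ∈ T} N P ^ (-s) = (1/n) log (1/(s-1)) + O(1)` on `(1, 2]`.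
-/

set_option autoImplicit false

noncomputable section

namespace Fermat.Agent.S14.H88

open NumberField IsDedekindDomain Ideal

section Fibre

variable (K F : Type*) [Field K] [NumberField K] [Field F] [NumberField F] [Algebra K F]

/-- The prime of `K` below a prime of `F`. -/
def primeBelow (𝔓 : HeightOneSpectrum (𝓞 F)) : HeightOneSpectrum (𝓞 K) :=
  ⟨𝔓.asIdeal.under (𝓞 K), inferInstance, Ideal.under_ne_bot (𝓞 K) 𝔓.ne_bot⟩

variable {K}

/-- The fibre of `primeBelow` over `P` is the set of primes over `P`. -/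
def fibreEquiv (P : HeightOneSpectrum (𝓞 K)) :
    (primeBelow K F ⁻¹' {P}) ≃ P.asIdeal.primesOver (𝓞 F) where
  toFun 𝔓 := ⟨𝔓.1.asIdeal, 𝔓.1.isPrime, ⟨by
    have h := 𝔓.2
    simp only [Set.mem_preimage, Set.mem_singleton_iff] at h
    exact (congrArg HeightOneSpectrum.asIdeal h).symm⟩⟩
  invFun q := ⟨⟨q.1, q.2.1, by
      have := q.2.2
      exact Ideal.ne_bot_of_liesOver_of_ne_bot P.ne_bot q.1⟩, by
    simp only [Set.mem_preimage, Set.mem_singleton_iff]
    apply HeightOneSpectrum.ext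
    exact (q.2.2.over).symm⟩
  left_inv 𝔓 := by ext; rfl
  right_inv q := by ext; rfl

instance (P : HeightOneSpectrum (𝓞 K)) : Fintype (P.asIdeal.primesOver (𝓞 F)) :=
  (Algebra.QuasiFinite.finite_primesOver P.asIdeal).fintype

variable {F}

theorem fibre_tsum_eq (P : HeightOneSpectrum (𝓞 K)) (s : ℝ) :
    ∑' 𝔓 : (primeBelow K F ⁻¹' {P}), H72.primeTerm F s 𝔓 =
      ∑ q : P.asIdeal.primesOver (𝓞 F), (absNorm q.1 : ℝ) ^ (-s) := by
  calc ∑' 𝔓 : (primeBelow K F ⁻¹' {P}), H72.primeTerm F s 𝔓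
      = ∑' q : P.asIdeal.primesOver (𝓞 F), (absNorm q.1 : ℝ) ^ (-s) :=
        (fibreEquiv F P).tsum_eq (fun q : P.asIdeal.primesOver (𝓞 F) => (absNorm q.1 : ℝ) ^ (-s))
    _ = ∑ q : P.asIdeal.primesOver (𝓞 F), (absNorm q.1 : ℝ) ^ (-s) := tsum_fintype _

theorem absNorm_of_mem_primesOver (P : HeightOneSpectrum (𝓞 K))
    (q : P.asIdeal.primesOver (𝓞 F)) :
    absNorm q.1 = absNorm P.asIdeal ^ q.1.inertiaDeg (𝓞 K) := by
  have := q.2.1
  have := q.2.2
  exact (Ideal.absNorm_pow_inertiaDeg P.asIdeal q.1).symm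

theorem sum_e_mul_f (P : HeightOneSpectrum (𝓞 K)) :
    ∑ q : P.asIdeal.primesOver (𝓞 F), q.1.ramificationIdx (𝓞 K) * q.1.inertiaDeg (𝓞 K) =
      Module.finrank K F := by
  rw [Ideal.sum_ramification_inertia_eq_finrank, IsFractionRing.finrank_eq (𝓞 K) K (𝓞 F) F]

theorem card_primesOver_le (P : HeightOneSpectrum (𝓞 K)) :
    Fintype.card (P.asIdeal.primesOver (𝓞 F)) ≤ Module.finrank K F := by
  rw [← sum_e_mul_f P, Fintype.card_eq_sum_ones]
  refine Finset.sum_le_sum fun q _ => ?_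
  have := q.2.1
  exact Right.one_le_mul (Ideal.ramificationIdx_pos q.1 (𝓞 K)) (Ideal.inertiaDeg_pos q.1 (𝓞 K))

theorem card_primesOver_eq (P : HeightOneSpectrum (𝓞 K))
    (h : ∀ q : P.asIdeal.primesOver (𝓞 F),
      q.1.ramificationIdx (𝓞 K) = 1 ∧ q.1.inertiaDeg (𝓞 K) = 1) :
    Fintype.card (P.asIdeal.primesOver (𝓞 F)) = Module.finrank K F := by
  rw [← sum_e_mul_f P, Fintype.card_eq_sum_ones]
  refine Finset.sum_congr rfl fun q _ => ?_
  rw [(h q).1, (h q).2]

theorem one_le_absNorm_cast (P : HeightOneSpectrum (𝓞 K)) : (1 : ℝ) ≤ absNorm P.asIdeal := by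
  exact_mod_cast le_trans (by norm_num) (H72.two_le_absNorm K P)

/-- Each term of the fibre sum is at most `N P ^ (-s)`. -/
theorem term_le_primeTerm (P : HeightOneSpectrum (𝓞 K)) (q : P.asIdeal.primesOver (𝓞 F))
    {s : ℝ} (hs : 0 ≤ s) : (absNorm q.1 : ℝ) ^ (-s) ≤ H72.primeTerm K s P := by
  have := q.2.1
  rw [absNorm_of_mem_primesOver P q]
  unfold H72.primeTerm
  have h1 := one_le_absNorm_cast P
  refine Real.rpow_le_rpow_of_nonpos (by linarith) ?_ (by linarith)
  push_cast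
  exact le_self_pow₀ h1 (Ideal.inertiaDeg_pos q.1 (𝓞 K)).ne'

/-- A term of the fibre sum of residue degree `≥ 2` is at most `N P ^ (-2)`. -/
theorem term_le_primeTerm_two (P : HeightOneSpectrum (𝓞 K)) (q : P.asIdeal.primesOver (𝓞 F))
    (hq : 2 ≤ q.1.inertiaDeg (𝓞 K))
    {s : ℝ} (hs : 1 ≤ s) : (absNorm q.1 : ℝ) ^ (-s) ≤ H72.primeTerm K 2 P := by
  refine le_trans ?_ (H72.primeTerm_sq_le K hs P)
  rw [absNorm_of_mem_primesOver P q]
  unfold H72.primeTerm
  have h1 := one_le_absNorm_cast P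
  rw [Real.rpow_pow_comm (by linarith)]
  refine Real.rpow_le_rpow_of_nonpos (by positivity) ?_ (by linarith)
  push_cast
  exact pow_le_pow_right₀ h1 hq

theorem fibre_sum_le (P : HeightOneSpectrum (𝓞 K)) {s : ℝ} (hs : 0 ≤ s) :
    ∑ q : P.asIdeal.primesOver (𝓞 F), (absNorm q.1 : ℝ) ^ (-s) ≤
      (Module.finrank K F : ℝ) * H72.primeTerm K s P := by
  calc ∑ q : P.asIdeal.primesOver (𝓞 F), (absNorm q.1 : ℝ) ^ (-s)
      ≤ ∑ _q : P.asIdeal.primesOver (𝓞 F), H72.primeTerm K s P :=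
        Finset.sum_le_sum fun q _ => term_le_primeTerm P q hs
    _ = (Fintype.card (P.asIdeal.primesOver (𝓞 F)) : ℝ) * H72.primeTerm K s P := by
        rw [Finset.sum_const, Finset.card_univ, nsmul_eq_mul]
    _ ≤ (Module.finrank K F : ℝ) * H72.primeTerm K s P := by
        refine mul_le_mul_of_nonneg_right ?_ (H72.primeTerm_pos K s P).le
        exact_mod_cast card_primesOver_le P

theorem fibre_sum_le_two (P : HeightOneSpectrum (𝓞 K))
    (h : ∀ q : P.asIdeal.primesOver (𝓞 F), 2 ≤ q.1.inertiaDeg (𝓞 K)) {s : ℝ} (hs : 1 ≤ s) :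
    ∑ q : P.asIdeal.primesOver (𝓞 F), (absNorm q.1 : ℝ) ^ (-s) ≤
      (Module.finrank K F : ℝ) * H72.primeTerm K 2 P := by
  calc ∑ q : P.asIdeal.primesOver (𝓞 F), (absNorm q.1 : ℝ) ^ (-s)
      ≤ ∑ _q : P.asIdeal.primesOver (𝓞 F), H72.primeTerm K 2 P :=
        Finset.sum_le_sum fun q _ => term_le_primeTerm_two P q (h q) hs
    _ = (Fintype.card (P.asIdeal.primesOver (𝓞 F)) : ℝ) * H72.primeTerm K 2 P := by
        rw [Finset.sum_const, Finset.card_univ, nsmul_eq_mul]
    _ ≤ (Module.finrank K F : ℝ) * H72.primeTerm K 2 P := by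
        refine mul_le_mul_of_nonneg_right ?_ (H72.primeTerm_pos K 2 P).le
        exact_mod_cast card_primesOver_le P

theorem fibre_sum_eq (P : HeightOneSpectrum (𝓞 K))
    (h : ∀ q : P.asIdeal.primesOver (𝓞 F),
      q.1.ramificationIdx (𝓞 K) = 1 ∧ q.1.inertiaDeg (𝓞 K) = 1) (s : ℝ) :
    ∑ q : P.asIdeal.primesOver (𝓞 F), (absNorm q.1 : ℝ) ^ (-s) =
      (Module.finrank K F : ℝ) * H72.primeTerm K s P := by
  calc ∑ q : P.asIdeal.primesOver (𝓞 F), (absNorm q.1 : ℝ) ^ (-s)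
      = ∑ _q : P.asIdeal.primesOver (𝓞 F), H72.primeTerm K s P := by
        refine Finset.sum_congr rfl fun q _ => ?_
        rw [absNorm_of_mem_primesOver P q, (h q).2, pow_one]
        rfl
    _ = (Fintype.card (P.asIdeal.primesOver (𝓞 F)) : ℝ) * H72.primeTerm K s P := by
        rw [Finset.sum_const, Finset.card_univ, nsmul_eq_mul]
    _ = (Module.finrank K F : ℝ) * H72.primeTerm K s P := by
        rw [card_primesOver_eq P h]

end Fibre

section Density

variable {K F : Type*} [Field K] [NumberField K] [Field F] [NumberField F] [Algebra K F]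

open Set

/-- The fibre sums are summable with sum `∑_𝔓 N𝔓^(-s)`. -/
theorem hasSum_fibre_sum {s : ℝ} (hs : 1 < s) :
    HasSum (fun P : HeightOneSpectrum (𝓞 K) =>
      ∑ q : P.asIdeal.primesOver (𝓞 F), (absNorm q.1 : ℝ) ^ (-s))
      (∑' 𝔓, H72.primeTerm F s 𝔓) := by
  have h := (H72.summable_primeTerm F hs).hasSum.tsum_fiberwise (primeBelow K F)
  simpa only [fibre_tsum_eq] using h

theorem zsum_primeTerm_le_ncard {B : Set (HeightOneSpectrum (𝓞 K))} (hB : B.Finite) {s : ℝ}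
    (hs : 0 ≤ s) : zsum (H72.primeTerm K s) B ≤ B.ncard :=
  NumberField.Set.primeIdealZetaSum_le_card_of_finite hB hs

/-- **Density of a set of primes that is "the split set up to finitely many primes".** -/
theorem exists_bound_zsum_of_split (T B : Set (HeightOneSpectrum (𝓞 K))) (hB : B.Finite)
    (h1 : ∀ P ∈ T, P ∉ B → ∀ q : P.asIdeal.primesOver (𝓞 F),
      q.1.ramificationIdx (𝓞 K) = 1 ∧ q.1.inertiaDeg (𝓞 K) = 1)
    (h2 : ∀ P ∉ T, P ∉ B → ∀ q : P.asIdeal.primesOver (𝓞 F), 2 ≤ q.1.inertiaDeg (𝓞 K)) :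
    ∃ C : ℝ, ∀ s ∈ Ioc (1 : ℝ) 2,
      |zsum (H72.primeTerm K s) T - (1 / (Module.finrank K F : ℝ)) * Real.log (1 / (s - 1))|
        ≤ C := by
  classical
  obtain ⟨CF, hCF⟩ := H72.exists_bound_tsum_primeTerm F
  set n : ℝ := (Module.finrank K F : ℝ) with hn
  have hn0 : 0 < n := by
    rw [hn]; exact_mod_cast Module.finrank_pos
  set Z2 : ℝ := ∑' P, H72.primeTerm K 2 P with hZ2
  have hsum2 : Summable (H72.primeTerm K 2) := H72.summable_primeTerm K (by norm_num)
  refine ⟨(CF + n * B.ncard + n * Z2) / n, fun s hs => ?_⟩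
  have hs1 : 1 < s := hs.1
  have hsumK : Summable (H72.primeTerm K s) := H72.summable_primeTerm K hs1
  have h0 : ∀ P, 0 ≤ H72.primeTerm K s P := fun P => (H72.primeTerm_pos K s P).le
  have hfib := hasSum_fibre_sum (K := K) (F := F) hs1
  set Φ : HeightOneSpectrum (𝓞 K) → ℝ := fun P =>
    ∑ q : P.asIdeal.primesOver (𝓞 F), (absNorm q.1 : ℝ) ^ (-s) with hΦ
  have hΦ0 : ∀ P, 0 ≤ Φ P := fun P => Finset.sum_nonneg fun q _ => by positivity
  set ZF : ℝ := ∑' 𝔓, H72.primeTerm F s 𝔓 with hZF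
  have hCFs := abs_le.mp (hCF s hs)
  set L : ℝ := Real.log (1 / (s - 1)) with hL
  -- upper bound
  have hup : n * zsum (H72.primeTerm K s) (Bᶜ ∩ T) ≤ ZF := by
    rw [zsum_eq_tsum_indicator, ← tsum_mul_left, ← hfib.tsum_eq]
    refine ((summable_indicator hsumK _).mul_left n).tsum_le_tsum (fun P => ?_) hfib.summable
    by_cases hP : P ∈ Bᶜ ∩ T
    · rw [indicator_of_mem hP]
      exact (fibre_sum_eq P (h1 P hP.2 hP.1) s).ge
    · rw [indicator_of_notMem hP, mul_zero]
      exact hΦ0 P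
  have hT : zsum (H72.primeTerm K s) T ≤
      zsum (H72.primeTerm K s) (Bᶜ ∩ T) + zsum (H72.primeTerm K s) B := by
    have := zsum_le_inter_add_compl h0 hsumK T Bᶜ
    rwa [compl_compl] at this
  have hBc : zsum (H72.primeTerm K s) B ≤ B.ncard := zsum_primeTerm_le_ncard hB (by linarith)
  -- lower bound
  have hlow : ZF ≤ n * zsum (H72.primeTerm K s) T + n * zsum (H72.primeTerm K s) B + n * Z2 := by
    rw [zsum_eq_tsum_indicator, zsum_eq_tsum_indicator, ← tsum_mul_left, ← tsum_mul_left,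
      hZ2, ← tsum_mul_left,
      ← ((summable_indicator hsumK _).mul_left n).tsum_add ((summable_indicator hsumK _).mul_left n),
      ← (((summable_indicator hsumK _).mul_left n).add
        ((summable_indicator hsumK _).mul_left n)).tsum_add (hsum2.mul_left n), ← hfib.tsum_eq]
    refine hfib.summable.tsum_le_tsum (fun P => ?_)
      ((((summable_indicator hsumK _).mul_left n).add
        ((summable_indicator hsumK _).mul_left n)).add (hsum2.mul_left n))
    have hp2 : 0 ≤ n * H72.primeTerm K 2 P :=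
      mul_nonneg hn0.le (H72.primeTerm_pos K 2 P).le
    have hps : 0 ≤ n * H72.primeTerm K s P := mul_nonneg hn0.le (h0 P)
    by_cases hPT : P ∈ T
    · rw [indicator_of_mem hPT]
      have := fibre_sum_le (F := F) P (s := s) (by linarith)
      have hB0 : 0 ≤ n * B.indicator (H72.primeTerm K s) P :=
        mul_nonneg hn0.le (indicator_nonneg (fun P _ => h0 P) P)
      linarith
    · rw [indicator_of_notMem hPT, mul_zero, zero_add]
      by_cases hPB : P ∈ B
      · rw [indicator_of_mem hPB]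
        have := fibre_sum_le (F := F) P (s := s) (by linarith)
        linarith
      · rw [indicator_of_notMem hPB, mul_zero, zero_add]
        exact fibre_sum_le_two P (h2 P hPT hPB) hs1.le
  have hZ2n : 0 ≤ Z2 := tsum_nonneg fun P => (H72.primeTerm_pos K 2 P).le
  have hBn : (0 : ℝ) ≤ B.ncard := Nat.cast_nonneg _
  have hB0 : 0 ≤ zsum (H72.primeTerm K s) B := zsum_nonneg h0 B
  have hsub : zsum (H72.primeTerm K s) (Bᶜ ∩ T) ≤ zsum (H72.primeTerm K s) T :=
    zsum_mono h0 hsumK inter_subset_right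
  -- conclude
  have e1 : n * zsum (H72.primeTerm K s) T ≤ L + (CF + n * B.ncard + n * Z2) := by
    have := mul_le_mul_of_nonneg_left hT hn0.le
    have hb := mul_le_mul_of_nonneg_left hBc hn0.le
    have hz := mul_nonneg hn0.le hZ2n
    nlinarith
  have e2 : L - (CF + n * B.ncard + n * Z2) ≤ n * zsum (H72.primeTerm K s) T := by
    have hb := mul_le_mul_of_nonneg_left hBc hn0.le
    nlinarith
  have hLn : (1 / n) * L = L / n := by ring
  have key : zsum (H72.primeTerm K s) T - L / n = (n * zsum (H72.primeTerm K s) T - L) / n := by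
    field_simp
  rw [hLn, key, abs_le, le_div_iff₀ hn0, div_le_iff₀ hn0]
  have e3 : (CF + n * B.ncard + n * Z2) / n * n = CF + n * B.ncard + n * Z2 := by
    field_simp
  constructor
  · rw [neg_mul, e3]; linarith
  · rw [e3]; linarith

/-- Primes of `F` of residue degree `≥ 2` over `K` contribute a bounded amount. -/
theorem zsum_le_of_inertiaDeg_ge_two (U : Set (HeightOneSpectrum (𝓞 F)))
    (hU : ∀ 𝔓 ∈ U, 2 ≤ 𝔓.asIdeal.inertiaDeg (𝓞 K)) {s : ℝ} (hs : 1 < s) :
    zsum (H72.primeTerm F s) U ≤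
      (Module.finrank K F : ℝ) * ∑' P, H72.primeTerm K 2 P := by
  classical
  have hsumF : Summable (U.indicator (H72.primeTerm F s)) :=
    summable_indicator (H72.summable_primeTerm F hs) U
  have hsum2 : Summable (H72.primeTerm K 2) := H72.summable_primeTerm K (by norm_num)
  have hfib := hsumF.hasSum.tsum_fiberwise (primeBelow K F)
  rw [zsum_eq_tsum_indicator, ← hfib.tsum_eq, ← tsum_mul_left]
  refine hfib.summable.tsum_le_tsum (fun P => ?_) (hsum2.mul_left _)
  have h1 : ∑' 𝔓 : (primeBelow K F ⁻¹' {P}), U.indicator (H72.primeTerm F s) 𝔓 =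
      ∑ q : P.asIdeal.primesOver (𝓞 F),
        U.indicator (H72.primeTerm F s) ((fibreEquiv F P).symm q).1 := by
    exact (((fibreEquiv F P).symm.tsum_eq
      (fun 𝔓 : (primeBelow K F ⁻¹' {P}) => U.indicator (H72.primeTerm F s) 𝔓.1)).symm).trans
        (tsum_fintype _)
  rw [h1]
  calc ∑ q : P.asIdeal.primesOver (𝓞 F),
        U.indicator (H72.primeTerm F s) ((fibreEquiv F P).symm q).1
      ≤ ∑ _q : P.asIdeal.primesOver (𝓞 F), H72.primeTerm K 2 P := by
        refine Finset.sum_le_sum fun q _ => ?_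
        by_cases hq : ((fibreEquiv F P).symm q).1 ∈ U
        · rw [indicator_of_mem hq]
          exact term_le_primeTerm_two P q (hU _ hq) hs.le
        · rw [indicator_of_notMem hq]
          exact (H72.primeTerm_pos K 2 P).le
    _ = (Fintype.card (P.asIdeal.primesOver (𝓞 F)) : ℝ) * H72.primeTerm K 2 P := by
        rw [Finset.sum_const, Finset.card_univ, nsmul_eq_mul]
    _ ≤ (Module.finrank K F : ℝ) * H72.primeTerm K 2 P := by
        refine mul_le_mul_of_nonneg_right ?_ (H72.primeTerm_pos K 2 P).le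
        exact_mod_cast card_primesOver_le P

end Density

section NotPrime

open Set

/-- The absolute norm of a nonzero prime ideal of `𝓞 ℚ` is a prime number. -/
theorem absNorm_prime_of_rat (P₀ : HeightOneSpectrum (𝓞 ℚ)) : (absNorm P₀.asIdeal).Prime := by
  classical
  set J : Ideal ℤ := P₀.asIdeal.under ℤ with hJ
  have hJ0 : J ≠ ⊥ := Ideal.under_ne_bot ℤ P₀.ne_bot
  have hJp : J.IsPrime := inferInstance
  set ℓ := absNorm J with hℓdef
  have hspan : span {(ℓ : ℤ)} = J := Int.ideal_span_absNorm_eq_self J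
  have hℓ0 : (ℓ : ℤ) ≠ 0 := by
    intro h
    apply hJ0
    rw [← hspan, h]
    simp
  have hℓ : ℓ.Prime := by
    have h1 : (span {(ℓ : ℤ)}).IsPrime := hspan ▸ hJp
    rw [Ideal.span_singleton_prime hℓ0] at h1
    exact Nat.prime_iff_prime_int.mpr h1
  have : P₀.asIdeal.LiesOver (span {(ℓ : ℤ)}) := ⟨hspan⟩
  have h1 := Ideal.pow_inertiaDeg ℓ P₀.asIdeal
  have : (span {(ℓ : ℤ)}).IsPrime := hspan ▸ hJp
  let _ : Fintype ((span {(ℓ : ℤ)}).primesOver (𝓞 ℚ)) :=
    (Algebra.QuasiFinite.finite_primesOver _).fintype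
  have h2 := Ideal.sum_ramification_inertia_eq_finrank (span {(ℓ : ℤ)}) (𝓞 ℚ)
  rw [RingOfIntegers.rank ℚ, Module.finrank_self] at h2
  have hmem : P₀.asIdeal ∈ (span {(ℓ : ℤ)}).primesOver (𝓞 ℚ) := ⟨P₀.isPrime, inferInstance⟩
  have h3 : (⟨P₀.asIdeal, hmem⟩ : (span {(ℓ : ℤ)}).primesOver (𝓞 ℚ)).1.ramificationIdx ℤ *
      (⟨P₀.asIdeal, hmem⟩ : (span {(ℓ : ℤ)}).primesOver (𝓞 ℚ)).1.inertiaDeg ℤ ≤ 1 := by
    rw [← h2]
    exact Finset.single_le_sum
      (f := fun q : (span {(ℓ : ℤ)}).primesOver (𝓞 ℚ) =>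
        q.1.ramificationIdx ℤ * q.1.inertiaDeg ℤ)
      (fun _ _ => Nat.zero_le _) (Finset.mem_univ _)
  have he : 0 < P₀.asIdeal.ramificationIdx ℤ := Ideal.ramificationIdx_pos _ ℤ
  have hf0 : 0 < P₀.asIdeal.inertiaDeg ℤ := Ideal.inertiaDeg_pos _ ℤ
  have hf : P₀.asIdeal.inertiaDeg ℤ = 1 := by
    have : P₀.asIdeal.ramificationIdx ℤ * P₀.asIdeal.inertiaDeg ℤ ≤ 1 := h3
    nlinarith
  rw [hf, pow_one] at h1
  rw [← h1]
  exact hℓ

variable (K : Type*) [Field K] [NumberField K]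

/-- **EP3**: the primes whose absolute norm is not a prime number contribute `O(1)`. -/
theorem exists_bound_zsum_not_prime :
    ∃ C : ℝ, ∀ s ∈ Ioc (1 : ℝ) 2,
      zsum (H72.primeTerm K s) {P | ¬ (absNorm P.asIdeal).Prime} ≤ C := by
  refine ⟨(Module.finrank ℚ K : ℝ) * ∑' P, H72.primeTerm ℚ 2 P, fun s hs => ?_⟩
  refine zsum_le_of_inertiaDeg_ge_two (K := ℚ) (F := K) _ (fun P hP => ?_) hs.1
  by_contra hlt
  have hf0 : 0 < P.asIdeal.inertiaDeg (𝓞 ℚ) := Ideal.inertiaDeg_pos _ _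
  have hf : P.asIdeal.inertiaDeg (𝓞 ℚ) = 1 := by omega
  have h1 := Ideal.absNorm_pow_inertiaDeg (P.asIdeal.under (𝓞 ℚ)) P.asIdeal
  rw [hf, pow_one] at h1
  apply hP
  show (absNorm P.asIdeal).Prime
  rw [← h1]
  exact absNorm_prime_of_rat (primeBelow ℚ K P)

end NotPrime

end Fermat.Agent.S14.H88
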