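import Mathlib
import Fermat.Agent.S14.H88_KummerField
import Fermat.Agent.S14.H88_SplitDensity

/-!
# S14 / WP5-kummer, part 5: the auxiliary prime

For an odd prime `p`, distinct primes `q₀, q₁ ≠ p`, exponents `f₀, f₁` prime to `p` and any `e`,
there is a prime `m ≡ 1 (mod p)`, `m ∉ {p, q₀, q₁}`, such that `q₀ ^ f₀` is *not* a `p`-th power
modulo `m` while `q₁ ^ f₁ * (q₀ ^ f₀) ^ e` *is* one.
-/

set_option autoImplicit false
set_option linter.style.haveILetI false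
set_option linter.unusedSectionVars false

noncomputable section

namespace Fermat.Agent.S14.H88

open NumberField IsDedekindDomain Ideal Polynomial

/-! ### (K0) natural numbers that are not `p`-th powers in `K` -/

section NotPow

theorem not_pow_of_padicValNat {K : Type*} [Field K] [NumberField K] {p : ℕ} (hp : p.Prime)
    (hdeg : Module.finrank ℚ K = p - 1) {w q : ℕ} [Fact q.Prime] (hw : w ≠ 0)
    (hq : ¬ p ∣ padicValNat q w) (b : K) : b ^ p ≠ (w : K) := by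
  intro h
  have hw' : (w : ℚ) ≠ 0 := Nat.cast_ne_zero.2 hw
  have h1 : (Algebra.norm ℚ b) ^ p = (w : ℚ) ^ (p - 1) := by
    rw [← map_pow, h]
    have : (w : K) = algebraMap ℚ K (w : ℚ) := by simp
    rw [this, Algebra.norm_algebraMap, hdeg]
  have h2 := congrArg (padicValRat q) h1
  rw [padicValRat.pow, padicValRat.pow, padicValRat.of_nat] at h2
  have h3 : (p : ℤ) ∣ ((p - 1 : ℕ) : ℤ) * (padicValNat q w : ℤ) := ⟨_, h2.symm⟩
  have h4 : p ∣ (p - 1) * padicValNat q w := by exact_mod_cast h3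
  have hcop : Nat.Coprime p (p - 1) :=
    Nat.coprime_of_lt_prime (by have := hp.two_le; omega) (by have := hp.two_le; omega) hp
  exact hq (hcop.dvd_of_dvd_mul_left h4)

end NotPow

/-! ### The per-prime Kummer criterion for `kummerField` -/

section KummerPrime

variable {K : Type*} [Field K] [NumberField K] {p : ℕ} {a : 𝓞 K}
  [hirr : Fact (Irreducible (X ^ p - C (a : K)))] {ζ : 𝓞 K}

theorem kummerField_not_mem (hp : p.Prime) (𝔪 : Ideal (𝓞 K))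
    (hpm : (p : 𝓞 K) ∉ 𝔪) (ham : a ∉ 𝔪) (𝔔 : Ideal (𝓞 (kummerField K p a))) [𝔔.IsPrime]
    (h : 𝔔.under (𝓞 K) = 𝔪) :
    (p : 𝓞 (kummerField K p a)) ∉ 𝔔 ∧ kummerRoot (K := K) (a := a) hp ∉ 𝔔 := by
  have hmem : ∀ x : 𝓞 K, algebraMap (𝓞 K) (𝓞 (kummerField K p a)) x ∈ 𝔔 ↔ x ∈ 𝔪 := fun x => by
    rw [← h, Ideal.under_def, Ideal.mem_comap]
  refine ⟨fun h' => hpm ?_, fun h' => ham ?_⟩
  · rw [← hmem, map_natCast]; exact h'
  · rw [← hmem, ← kummerRoot_pow hp]; exact Ideal.pow_mem_of_mem _ h' _ hp.pos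

theorem kummerField_inertiaDeg_eq_one_iff (hp : p.Prime) (hζ : IsPrimitiveRoot ζ p)
    (𝔪 : Ideal (𝓞 K)) (hpm : (p : 𝓞 K) ∉ 𝔪) (ham : a ∉ 𝔪)
    (𝔔 : Ideal (𝓞 (kummerField K p a))) [𝔔.IsPrime] (h𝔔 : 𝔔 ≠ ⊥)
    (h : 𝔔.under (𝓞 K) = 𝔪) :
    𝔔.inertiaDeg (𝓞 K) = 1 ↔ ∃ x : 𝓞 K ⧸ 𝔪, x ^ p = Ideal.Quotient.mk 𝔪 a := by
  have := isGalois_kummerField (a := a) hζ hp
  obtain ⟨hpQ, hαQ⟩ := kummerField_not_mem hp 𝔪 hpm ham 𝔔 h
  subst h
  exact inertiaDeg_eq_one_iff hp hζ (kummerRoot_pow hp) (eq_one_of_smul_kummerRoot hp) 𝔔 h𝔔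
    hpQ hαQ

end KummerPrime

/-! ### The sets `powSet w` and their density -/

section PowSet

variable (K : Type*) [Field K] [NumberField K] (p : ℕ)

/-- The primes modulo which the natural number `w` is a `p`-th power. -/
def powSet (w : ℕ) : Set (HeightOneSpectrum (𝓞 K)) :=
  {P | ∃ x : 𝓞 K ⧸ P.asIdeal, x ^ p = Ideal.Quotient.mk P.asIdeal (w : 𝓞 K)}

/-- The primes dividing `p * w`. -/
def badSet (w : ℕ) : Set (HeightOneSpectrum (𝓞 K)) :=
  {P | (p : 𝓞 K) * (w : 𝓞 K) ∈ P.asIdeal}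

variable {K p}

theorem badSet_finite (hp : p ≠ 0) {w : ℕ} (hw : w ≠ 0) : (badSet K p w).Finite := by
  have h0 : (p : 𝓞 K) * (w : 𝓞 K) ≠ 0 :=
    mul_ne_zero (Nat.cast_ne_zero.2 hp) (Nat.cast_ne_zero.2 hw)
  have hI : Ideal.span {(p : 𝓞 K) * (w : 𝓞 K)} ≠ 0 := by
    rw [Ne, Ideal.zero_eq_bot, Ideal.span_singleton_eq_bot]; exact h0
  refine (Ideal.finite_factors hI).subset fun P hP => ?_
  exact Ideal.dvd_span_singleton.2 hP

omit [NumberField K] in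
theorem not_mem_of_not_mem_badSet {w : ℕ} {P : HeightOneSpectrum (𝓞 K)}
    (hP : P ∉ badSet K p w) : (p : 𝓞 K) ∉ P.asIdeal ∧ (w : 𝓞 K) ∉ P.asIdeal :=
  ⟨fun h => hP (Ideal.mul_mem_right _ _ h), fun h => hP (Ideal.mul_mem_left _ _ h)⟩

/-- **Density `1/p` of `powSet w`** when `w` is not a `p`-th power in `K ∋ ζ_p`. -/
theorem exists_bound_zsum_powSet (hp : p.Prime) {ζ : 𝓞 K} (hζ : IsPrimitiveRoot ζ p) {w : ℕ}
    (hw : w ≠ 0) (hnot : ∀ b : K, b ^ p ≠ (w : K)) :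
    ∃ C : ℝ, ∀ s ∈ Set.Ioc (1 : ℝ) 2,
      |zsum (H72.primeTerm K s) (powSet K p w) - (1 / (p : ℝ)) * Real.log (1 / (s - 1))|
        ≤ C := by
  have hnot' : ∀ b : K, b ^ p ≠ (((w : 𝓞 K) : 𝓞 K) : K) := by
    intro b
    have : (((w : 𝓞 K) : 𝓞 K) : K) = (w : K) := map_natCast (algebraMap (𝓞 K) K) w
    rw [this]; exact hnot b
  have : Fact (Irreducible (X ^ p - C (((w : 𝓞 K) : 𝓞 K) : K))) :=
    ⟨irreducible_of_not_pow hp hnot'⟩
  have hfr : Module.finrank K (kummerField K p (w : 𝓞 K)) = p := finrank_kummerField hζ hp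
  have key := exists_bound_zsum_of_split (K := K) (F := kummerField K p (w : 𝓞 K))
    (powSet K p w) (badSet K p w) (badSet_finite hp.ne_zero hw) ?_ ?_
  · rwa [hfr] at key
  · intro P hPT hPB q
    obtain ⟨hpm, ham⟩ := not_mem_of_not_mem_badSet hPB
    have := q.2.1
    have hq0 : q.1 ≠ ⊥ := by
      have := q.2.2
      exact Ideal.ne_bot_of_liesOver_of_ne_bot P.ne_bot q.1
    exact (kummerField_splits_iff hp hζ P.asIdeal P.ne_bot hpm ham).2 hPT q.1 q.2.1 hq0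
      (q.2.2.over).symm
  · intro P hPT hPB q
    obtain ⟨hpm, ham⟩ := not_mem_of_not_mem_badSet hPB
    have := q.2.1
    have hq0 : q.1 ≠ ⊥ := by
      have := q.2.2
      exact Ideal.ne_bot_of_liesOver_of_ne_bot P.ne_bot q.1
    by_contra hlt
    have hpos : 0 < q.1.inertiaDeg (𝓞 K) := Ideal.inertiaDeg_pos q.1 (𝓞 K)
    have h1 : q.1.inertiaDeg (𝓞 K) = 1 := by omega
    exact hPT ((kummerField_inertiaDeg_eq_one_iff hp hζ P.asIdeal hpm ham q.1 hq0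
      (q.2.2.over).symm).1 h1)

end PowSet

/-! ### Residue fields of prime order -/

section Residue

variable {K : Type*} [Field K] [NumberField K] {p : ℕ}

theorem natCard_quot (P : HeightOneSpectrum (𝓞 K)) :
    Nat.card (𝓞 K ⧸ P.asIdeal) = absNorm P.asIdeal := by
  rw [Ideal.absNorm_apply, Submodule.cardQuot_apply]

/-- **(K4)** transfer of `p`-th power statements to `ZMod m` for a prime of prime norm `m`. -/
theorem exists_pow_eq_zmod_iff (P : HeightOneSpectrum (𝓞 K)) {m : ℕ} (hm : m.Prime)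
    (hPm : absNorm P.asIdeal = m) (w : ℕ) :
    (∃ x : 𝓞 K ⧸ P.asIdeal, x ^ p = Ideal.Quotient.mk P.asIdeal (w : 𝓞 K)) ↔
      ∃ x : ZMod m, x ^ p = (w : ZMod m) := by
  classical
  haveI : Finite (𝓞 K ⧸ P.asIdeal) := Ideal.finiteQuotientOfFreeOfNeBot _ P.ne_bot
  letI := Fintype.ofFinite (𝓞 K ⧸ P.asIdeal)
  have hcard : Fintype.card (𝓞 K ⧸ P.asIdeal) = m := by
    rw [← Nat.card_eq_fintype_card, natCard_quot, hPm]
  let φ : ZMod m ≃+* (𝓞 K ⧸ P.asIdeal) := ZMod.ringEquivOfPrime _ hm hcard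
  have hmk : Ideal.Quotient.mk P.asIdeal (w : 𝓞 K) = ((w : ℕ) : 𝓞 K ⧸ P.asIdeal) :=
    map_natCast _ w
  rw [hmk]
  constructor
  · rintro ⟨x, hx⟩
    refine ⟨φ.symm x, ?_⟩
    rw [← map_pow, hx, map_natCast]
  · rintro ⟨x, hx⟩
    refine ⟨φ x, ?_⟩
    rw [← map_pow, hx, map_natCast]

/-- A natural number not divisible by the (prime) norm of `P` is not in `P`. -/
theorem natCast_not_mem (P : HeightOneSpectrum (𝓞 K)) {m : ℕ} (hm : m.Prime)
    (hPm : absNorm P.asIdeal = m) {t : ℕ} (ht : ¬ m ∣ t) : (t : 𝓞 K) ∉ P.asIdeal := by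
  classical
  haveI : Finite (𝓞 K ⧸ P.asIdeal) := Ideal.finiteQuotientOfFreeOfNeBot _ P.ne_bot
  letI := Fintype.ofFinite (𝓞 K ⧸ P.asIdeal)
  have hcard : Fintype.card (𝓞 K ⧸ P.asIdeal) = m := by
    rw [← Nat.card_eq_fintype_card, natCard_quot, hPm]
  let φ : ZMod m ≃+* (𝓞 K ⧸ P.asIdeal) := ZMod.ringEquivOfPrime _ hm hcard
  intro hmem
  have h1 : Ideal.Quotient.mk P.asIdeal (t : 𝓞 K) = 0 := Ideal.Quotient.eq_zero_iff_mem.2 hmem
  rw [map_natCast] at h1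
  have h2 : φ.symm ((t : ℕ) : 𝓞 K ⧸ P.asIdeal) = 0 := by rw [h1, map_zero]
  rw [map_natCast, ZMod.natCast_eq_zero_iff] at h2
  exact ht h2

/-- The image of `ζ` in the residue field is a primitive `p`-th root of unity. -/
theorem isPrimitiveRoot_mk (hp : p.Prime) {ζ : 𝓞 K} (hζ : IsPrimitiveRoot ζ p)
    (P : HeightOneSpectrum (𝓞 K)) (hpm : (p : 𝓞 K) ∉ P.asIdeal) :
    IsPrimitiveRoot (Ideal.Quotient.mk P.asIdeal ζ) p := by
  haveI : P.asIdeal.IsMaximal := P.isMaximal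
  letI := Ideal.Quotient.field P.asIdeal
  have hz1 : Ideal.Quotient.mk P.asIdeal ζ ^ p = 1 := by
    rw [← map_pow, hζ.pow_eq_one, map_one]
  have hz2 : Ideal.Quotient.mk P.asIdeal ζ ≠ 1 := by
    intro h
    have : ζ ^ 1 - 1 ∈ P.asIdeal := by
      rw [pow_one, ← Ideal.Quotient.eq, h, map_one]
    have := dvd_of_zeta_pow_sub_one_mem hp hζ P.asIdeal hpm this
    exact hp.one_lt.ne' (Nat.dvd_one.mp this)
  have hord : orderOf (Ideal.Quotient.mk P.asIdeal ζ) = p :=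
    haveI := Fact.mk hp
    orderOf_eq_prime hz1 hz2
  rw [← hord]
  exact IsPrimitiveRoot.orderOf _

/-- `p ∣ N P - 1` when `ζ_p ∈ K` and `p ∉ P`. -/
theorem dvd_absNorm_sub_one (hp : p.Prime) {ζ : 𝓞 K} (hζ : IsPrimitiveRoot ζ p)
    (P : HeightOneSpectrum (𝓞 K)) (hpm : (p : 𝓞 K) ∉ P.asIdeal) :
    p ∣ absNorm P.asIdeal - 1 := by
  classical
  haveI : P.asIdeal.IsMaximal := P.isMaximal
  letI := Ideal.Quotient.field P.asIdeal
  haveI : Finite (𝓞 K ⧸ P.asIdeal) := Ideal.finiteQuotientOfFreeOfNeBot _ P.ne_bot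
  letI := Fintype.ofFinite (𝓞 K ⧸ P.asIdeal)
  have hprim := isPrimitiveRoot_mk hp hζ P hpm
  have hz0 : Ideal.Quotient.mk P.asIdeal ζ ≠ 0 := by
    intro h
    have := hprim.pow_eq_one
    rw [h, zero_pow hp.ne_zero] at this
    exact zero_ne_one this
  rw [← natCard_quot, Nat.card_eq_fintype_card]
  have h1 := orderOf_dvd_of_pow_eq_one (FiniteField.pow_card_sub_one_eq_one _ hz0)
  rwa [← hprim.eq_orderOf] at h1

/-- **Covering**: modulo a prime `P ∤ p u v`, one of `v`, `u v^j` (`j < p`) is a `p`-th power. -/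
theorem mem_powSet_or (hp : p.Prime) {ζ : 𝓞 K} (hζ : IsPrimitiveRoot ζ p)
    (P : HeightOneSpectrum (𝓞 K)) (hpm : (p : 𝓞 K) ∉ P.asIdeal) {u v : ℕ}
    (hu : (u : 𝓞 K) ∉ P.asIdeal) (hv : (v : 𝓞 K) ∉ P.asIdeal) :
    P ∈ powSet K p v ∨ ∃ j < p, P ∈ powSet K p (u * v ^ j) := by
  classical
  haveI : P.asIdeal.IsMaximal := P.isMaximal
  letI := Ideal.Quotient.field P.asIdeal
  haveI : Finite (𝓞 K ⧸ P.asIdeal) := Ideal.finiteQuotientOfFreeOfNeBot _ P.ne_bot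
  letI := Fintype.ofFinite (𝓞 K ⧸ P.asIdeal)
  haveI : NeZero p := ⟨hp.ne_zero⟩
  haveI : Fact p.Prime := ⟨hp⟩
  set mk := Ideal.Quotient.mk P.asIdeal with hmk
  have hprim := isPrimitiveRoot_mk hp hζ P hpm
  have hdvd : p ∣ Fintype.card (𝓞 K ⧸ P.asIdeal) - 1 := by
    rw [← Nat.card_eq_fintype_card, natCard_quot]
    exact dvd_absNorm_sub_one hp hζ P hpm
  obtain ⟨c, hc⟩ := hdvd
  have hcq : (Fintype.card (𝓞 K ⧸ P.asIdeal) - 1) / p = c := by
    rw [hc, Nat.mul_div_cancel_left _ hp.pos]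
  have hu0 : mk (u : 𝓞 K) ≠ 0 := fun h => hu (Ideal.Quotient.eq_zero_iff_mem.1 h)
  have hv0 : mk (v : 𝓞 K) ≠ 0 := fun h => hv (Ideal.Quotient.eq_zero_iff_mem.1 h)
  -- the characters
  have hchar : ∀ y : 𝓞 K ⧸ P.asIdeal, y ≠ 0 → ∃ i < p, mk ζ ^ i = y ^ c := by
    intro y hy
    apply hprim.eq_pow_of_pow_eq_one
    rw [← pow_mul, mul_comm, ← hc]
    exact FiniteField.pow_card_sub_one_eq_one _ hy
  have hcrit : ∀ y : 𝓞 K ⧸ P.asIdeal, y ≠ 0 → ((∃ x, x ^ p = y) ↔ y ^ c = 1) := by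
    intro y hy
    rw [exists_pow_eq_iff_pow_eq_one hp.pos ⟨c, hc⟩ hy, hcq]
  obtain ⟨a', _, ha'⟩ := hchar _ hv0
  obtain ⟨b', _, hb'⟩ := hchar _ hu0
  by_cases hpa : p ∣ a'
  · left
    show ∃ x, x ^ p = mk (v : 𝓞 K)
    rw [hcrit _ hv0, ← ha']
    exact (hprim.pow_eq_one_iff_dvd a').2 hpa
  · right
    have ha0 : (a' : ZMod p) ≠ 0 := by
      rwa [Ne, ZMod.natCast_eq_zero_iff]
    refine ⟨(-(b' : ZMod p) * (a' : ZMod p)⁻¹).val, ZMod.val_lt _, ?_⟩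
    set j := (-(b' : ZMod p) * (a' : ZMod p)⁻¹).val with hj
    have hdiv : p ∣ b' + j * a' := by
      rw [← ZMod.natCast_eq_zero_iff]
      push_cast
      rw [hj, ZMod.natCast_zmod_val, mul_assoc, inv_mul_cancel₀ ha0]
      ring
    have huv0 : mk ((u * v ^ j : ℕ) : 𝓞 K) ≠ 0 := by
      push_cast
      rw [map_mul, map_pow]
      exact mul_ne_zero hu0 (pow_ne_zero _ hv0)
    show ∃ x, x ^ p = mk ((u * v ^ j : ℕ) : 𝓞 K)
    rw [hcrit _ huv0]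
    push_cast
    rw [map_mul, map_pow, mul_pow, ← pow_mul, mul_comm j c, pow_mul, ← hb', ← ha', ← pow_mul,
      ← pow_add]
    exact (hprim.pow_eq_one_iff_dvd _).2 (by rwa [mul_comm a' j])

/-- **Closure**: if `u * v ^ 0` and `v` are `p`-th powers mod `P`, so is every `u * v ^ j`. -/
theorem mem_powSet_mul_pow (P : HeightOneSpectrum (𝓞 K)) {u v : ℕ}
    (hu : P ∈ powSet K p (u * v ^ 0)) (hv : P ∈ powSet K p v) (j : ℕ) :
    P ∈ powSet K p (u * v ^ j) := by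
  obtain ⟨x, hx⟩ := hu
  obtain ⟨y, hy⟩ := hv
  refine ⟨x * y ^ j, ?_⟩
  rw [mul_pow, ← pow_mul, mul_comm j p, pow_mul, hx, hy]
  push_cast
  simp only [map_mul, map_pow, pow_zero, mul_one]

end Residue

/-! ### Final assembly -/

section Final

open Set

/-- `exists_mem_inter_diff` with existentially quantified constants. -/
theorem exists_mem_inter_diff' {P ι : Type*} [Fintype ι] (h : ℝ → P → ℝ)
    (h0 : ∀ s 𝔪, 0 ≤ h s 𝔪) (hs : ∀ s, 1 < s → Summable (h s))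
    (D : Set P) (S : ι → Set P) (i₀ i₁ : ι) (n : ℝ) (hn : 1 < n)
    (hcard : (Fintype.card ι : ℝ) = n + 1)
    (hcov : ∀ 𝔪 ∈ D, ∃ i, 𝔪 ∈ S i)
    (hclos : ∀ 𝔪 ∈ D, 𝔪 ∈ S i₀ → 𝔪 ∈ S i₁ → ∀ i, 𝔪 ∈ S i)
    (htot : ∃ C, ∀ s ∈ Ioc (1:ℝ) 2, |zsum (h s) univ - Real.log (1 / (s - 1))| ≤ C)
    (hD : ∃ C, ∀ s ∈ Ioc (1:ℝ) 2, zsum (h s) Dᶜ ≤ C)
    (hS : ∀ i, ∃ C, ∀ s ∈ Ioc (1:ℝ) 2,
      |zsum (h s) (S i) - (1 / n) * Real.log (1 / (s - 1))| ≤ C) :
    ∃ 𝔪 ∈ D, 𝔪 ∈ S i₀ ∧ 𝔪 ∉ S i₁ := by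
  classical
  obtain ⟨C1, h1⟩ := htot
  obtain ⟨C2, h2⟩ := hD
  choose Cf hCf using hS
  have hsum : ∀ i, |Cf i| ≤ ∑ j, |Cf j| := fun i =>
    Finset.single_le_sum (f := fun j => |Cf j|) (fun j _ => abs_nonneg _) (Finset.mem_univ i)
  have hsum0 : 0 ≤ ∑ j, |Cf j| := Finset.sum_nonneg fun j _ => abs_nonneg _
  refine exists_mem_inter_diff h h0 hs D S i₀ i₁ n hn hcard hcov hclos
    (|C1| + |C2| + ∑ j, |Cf j|) ?_ ?_ ?_ ?_
  · intro s hs'
    have := abs_le.mp (h1 s hs')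
    have := le_abs_self C1
    have := abs_nonneg C2
    linarith
  · intro s hs'
    have := h2 s hs'
    have := le_abs_self C2
    have := abs_nonneg C1
    linarith
  · intro i s hs'
    have := abs_le.mp (hCf i s hs')
    have := le_abs_self (Cf i)
    have := hsum i
    have := abs_nonneg C1
    have := abs_nonneg C2
    linarith
  · intro s hs'
    have := abs_le.mp (hCf i₀ s hs')
    have := le_abs_self (Cf i₀)
    have := hsum i₀
    have := abs_nonneg C1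
    have := abs_nonneg C2
    linarith

variable {K : Type*} [Field K] [NumberField K]

theorem finite_absNorm_mem (T : Finset ℕ) :
    {P : HeightOneSpectrum (𝓞 K) | absNorm P.asIdeal ∈ T}.Finite := by
  have h1 : (⋃ m ∈ T, {I : Ideal (𝓞 K) | absNorm I = m}).Finite :=
    Set.Finite.biUnion T.finite_toSet fun m _ => Ideal.finite_setOfPred_absNorm_eq m
  refine (h1.preimage (f := HeightOneSpectrum.asIdeal) ?_).subset ?_
  · intro P _ Q _ hPQ
    exact HeightOneSpectrum.ext hPQ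
  · intro P hP
    simp only [Set.mem_preimage, Set.mem_iUnion, Set.mem_ofPred_eq, exists_prop]
    exact ⟨_, hP, rfl⟩

/-- The primes of prime norm outside a finite set of norms. -/
def goodSet (K : Type*) [Field K] [NumberField K] (T : Finset ℕ) :
    Set (HeightOneSpectrum (𝓞 K)) :=
  {P | (absNorm P.asIdeal).Prime ∧ absNorm P.asIdeal ∉ T}

theorem exists_bound_zsum_compl_goodSet (T : Finset ℕ) :
    ∃ C : ℝ, ∀ s ∈ Ioc (1 : ℝ) 2, zsum (H72.primeTerm K s) (goodSet K T)ᶜ ≤ C := by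
  obtain ⟨C, hC⟩ := exists_bound_zsum_not_prime K
  refine ⟨C + ({P : HeightOneSpectrum (𝓞 K) | absNorm P.asIdeal ∈ T}.ncard : ℝ), fun s hs => ?_⟩
  have h0 : ∀ P, 0 ≤ H72.primeTerm K s P := fun P => (H72.primeTerm_pos K s P).le
  have hsum := H72.summable_primeTerm K hs.1
  have h1 := zsum_le_inter_add_compl h0 hsum (goodSet K T)ᶜ
    {P : HeightOneSpectrum (𝓞 K) | (absNorm P.asIdeal).Prime}
  have h2 : zsum (H72.primeTerm K s)
      ({P : HeightOneSpectrum (𝓞 K) | (absNorm P.asIdeal).Prime} ∩ (goodSet K T)ᶜ) ≤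
      zsum (H72.primeTerm K s) {P : HeightOneSpectrum (𝓞 K) | absNorm P.asIdeal ∈ T} := by
    refine zsum_mono h0 hsum ?_
    rintro P ⟨hP1, hP2⟩
    by_contra hP3
    exact hP2 ⟨hP1, hP3⟩
  have h3 := zsum_primeTerm_le_ncard (finite_absNorm_mem (K := K) T) (s := s) (by linarith [hs.1])
  have h4 := hC s hs
  have h5 : {P : HeightOneSpectrum (𝓞 K) | (absNorm P.asIdeal).Prime}ᶜ =
      {P : HeightOneSpectrum (𝓞 K) | ¬ (absNorm P.asIdeal).Prime} := rfl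
  rw [h5] at h1
  linarith

theorem padicValNat_aux {q0 q1 : ℕ} [Fact q0.Prime] [Fact q1.Prime] (h01 : q0 ≠ q1)
    (f0 f1 e j : ℕ) :
    padicValNat q1 (q1 ^ f1 * (q0 ^ f0) ^ e * (q0 ^ f0) ^ j) = f1 := by
  have hq0 : q0 ≠ 0 := (Fact.out : q0.Prime).ne_zero
  have hq1 : q1 ≠ 0 := (Fact.out : q1.Prime).ne_zero
  rw [← pow_mul, ← pow_mul, mul_assoc, ← pow_add,
    padicValNat.mul (pow_ne_zero _ hq1) (pow_ne_zero _ hq0), padicValNat.prime_pow,
    padicValNat.pow, padicValNat_primes (Ne.symm h01), mul_zero, add_zero]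

theorem prime_not_dvd_of_ne {m q : ℕ} (hm : m.Prime) (hq : q.Prime) (h : m ≠ q) : ¬ m ∣ q :=
  fun hd => h ((Nat.prime_dvd_prime_iff_eq hm hq).1 hd)

/-- **The auxiliary prime, for a general field `K ∋ ζ_p` of degree `p - 1`.** -/
theorem exists_aux_prime_of_field {p : ℕ} (hp : p.Prime)
    (hdeg : Module.finrank ℚ K = p - 1) {ζ : 𝓞 K} (hζ : IsPrimitiveRoot ζ p)
    {q0 q1 : ℕ} (hq0 : q0.Prime) (hq1 : q1.Prime) (h01 : q0 ≠ q1)
    {f0 f1 : ℕ} (hf0 : ¬ p ∣ f0) (hf1 : ¬ p ∣ f1) (e : ℕ) (T : Finset ℕ) :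
    ∃ m : ℕ, m.Prime ∧ m % p = 1 ∧ m ∉ T ∧ m ≠ p ∧ m ≠ q0 ∧ m ≠ q1 ∧
      (¬ ∃ x : ZMod m, x ^ p = ((q0 ^ f0 : ℕ) : ZMod m)) ∧
      (∃ x : ZMod m, x ^ p = ((q1 ^ f1 * (q0 ^ f0) ^ e : ℕ) : ZMod m)) := by
  classical
  haveI := Fact.mk hq0
  haveI := Fact.mk hq1
  set v : ℕ := q0 ^ f0 with hv
  set u : ℕ := q1 ^ f1 * v ^ e with hu
  have hv0 : v ≠ 0 := pow_ne_zero _ hq0.ne_zero
  have hu0 : u ≠ 0 := mul_ne_zero (pow_ne_zero _ hq1.ne_zero) (pow_ne_zero _ hv0)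
  -- the index set and the numbers
  let W : Option (Fin p) → ℕ := fun i => i.elim v (fun j => u * v ^ (j : ℕ))
  have hW0 : ∀ i, W i ≠ 0 := by
    intro i
    cases i with
    | none => exact hv0
    | some j => exact mul_ne_zero hu0 (pow_ne_zero _ hv0)
  have hWnot : ∀ i, ∀ b : K, b ^ p ≠ (W i : K) := by
    intro i
    cases i with
    | none =>
      refine not_pow_of_padicValNat hp hdeg (q := q0) hv0 ?_
      show ¬ p ∣ padicValNat q0 (q0 ^ f0)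
      rwa [padicValNat.prime_pow]
    | some j =>
      refine not_pow_of_padicValNat hp hdeg (q := q1) (mul_ne_zero hu0 (pow_ne_zero _ hv0)) ?_
      show ¬ p ∣ padicValNat q1 (q1 ^ f1 * (q0 ^ f0) ^ e * (q0 ^ f0) ^ (j : ℕ))
      rwa [padicValNat_aux h01]
  set T' : Finset ℕ := T ∪ {p, q0, q1} with hT'
  have hp1 : (1 : ℝ) < p := by exact_mod_cast hp.one_lt
  have key : ∃ P ∈ goodSet K T', P ∈ powSet K p (W (some ⟨0, hp.pos⟩)) ∧
      P ∉ powSet K p (W none) := by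
    refine exists_mem_inter_diff' (fun s => H72.primeTerm K s)
      (fun s P => (H72.primeTerm_pos K s P).le) (fun s hs => H72.summable_primeTerm K hs)
      (goodSet K T') (fun i => powSet K p (W i)) (some ⟨0, hp.pos⟩) none (p : ℝ) hp1
      (by rw [Fintype.card_option, Fintype.card_fin]; push_cast; ring)
      ?_ ?_ ?_ (exists_bound_zsum_compl_goodSet T')
      (fun i => exists_bound_zsum_powSet hp hζ (hW0 i) (hWnot i))
    · -- covering
      rintro P ⟨hm, hmT⟩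
      simp only [hT', Finset.mem_union, Finset.mem_insert, Finset.mem_singleton, not_or] at hmT
      obtain ⟨-, hmp, hmq0, hmq1⟩ := hmT
      have hpm : (p : 𝓞 K) ∉ P.asIdeal :=
        natCast_not_mem P hm rfl (prime_not_dvd_of_ne hm hp hmp)
      have hmv : ¬ absNorm P.asIdeal ∣ v := fun hd =>
        prime_not_dvd_of_ne hm hq0 hmq0 (hm.dvd_of_dvd_pow hd)
      have hmu : ¬ absNorm P.asIdeal ∣ u := fun hd => by
        rcases (Nat.Prime.dvd_mul hm).1 hd with h | h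
        · exact prime_not_dvd_of_ne hm hq1 hmq1 (hm.dvd_of_dvd_pow h)
        · exact hmv (hm.dvd_of_dvd_pow h)
      rcases mem_powSet_or hp hζ P hpm (natCast_not_mem P hm rfl hmu)
        (natCast_not_mem P hm rfl hmv) with h | ⟨j, hj, h⟩
      · exact ⟨none, h⟩
      · exact ⟨some ⟨j, hj⟩, h⟩
    · -- closure
      intro P _ h0 h1 i
      cases i with
      | none => exact h1
      | some j => exact mem_powSet_mul_pow P h0 h1 j
    · -- total mass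
      obtain ⟨C, hC⟩ := H72.exists_bound_tsum_primeTerm K
      refine ⟨C, fun s hs => ?_⟩
      have : zsum (H72.primeTerm K s) univ = ∑' P, H72.primeTerm K s P := tsum_univ _
      rw [this]
      exact hC s hs

  obtain ⟨P, hPD, hP0, hP1⟩ := key
  -- extraction
  obtain ⟨hm, hmT⟩ := hPD
  set m := absNorm P.asIdeal with hmdef
  simp only [hT', Finset.mem_union, Finset.mem_insert, Finset.mem_singleton, not_or] at hmT
  obtain ⟨hmT, hmp, hmq0, hmq1⟩ := hmT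
  have hpm : (p : 𝓞 K) ∉ P.asIdeal :=
    natCast_not_mem P hm rfl (prime_not_dvd_of_ne hm hp hmp)
  refine ⟨m, hm, ?_, hmT, hmp, hmq0, hmq1, ?_, ?_⟩
  · obtain ⟨c, hc⟩ := dvd_absNorm_sub_one hp hζ P hpm
    have hm2 := hm.two_le
    have : m = p * c + 1 := by omega
    rw [this, Nat.mul_add_mod, Nat.mod_eq_of_lt hp.one_lt]
  · intro hx
    exact hP1 ((exists_pow_eq_zmod_iff P hm rfl v).2 hx)
  · have := (exists_pow_eq_zmod_iff P hm rfl (u * v ^ 0)).1 hP0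
    simpa using this

end Final

/-! ### The statement over `ℚ(ζ_p)` -/

section Cyclotomic

/-- **Auxiliary prime, with a finite set of primes to avoid.** -/
theorem exists_aux_prime_finset {p : ℕ} (hp : p.Prime) {q0 q1 : ℕ} (hq0 : q0.Prime)
    (hq1 : q1.Prime) (h01 : q0 ≠ q1) {f0 f1 : ℕ} (hf0 : ¬ p ∣ f0) (hf1 : ¬ p ∣ f1) (e : ℕ)
    (T : Finset ℕ) :
    ∃ m : ℕ, m.Prime ∧ m % p = 1 ∧ m ∉ T ∧ m ≠ p ∧ m ≠ q0 ∧ m ≠ q1 ∧
      (¬ ∃ x : ZMod m, x ^ p = ((q0 ^ f0 : ℕ) : ZMod m)) ∧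
      (∃ x : ZMod m, x ^ p = ((q1 ^ f1 * (q0 ^ f0) ^ e : ℕ) : ZMod m)) := by
  haveI : NeZero p := ⟨hp.ne_zero⟩
  haveI : NeZero ((p : ℕ) : ℚ) := NeZero.charZero
  haveI : IsCyclotomicExtension {p} ℚ (CyclotomicField p ℚ) :=
    CyclotomicField.isCyclotomicExtension p ℚ
  have hspec := IsCyclotomicExtension.zeta_spec p ℚ (CyclotomicField p ℚ)
  have hdeg : Module.finrank ℚ (CyclotomicField p ℚ) = p - 1 := by
    rw [IsCyclotomicExtension.finrank (CyclotomicField p ℚ)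
      (Polynomial.cyclotomic.irreducible_rat hp.pos), Nat.totient_prime hp]
  exact exists_aux_prime_of_field hp hdeg hspec.toInteger_isPrimitiveRoot hq0 hq1 h01 hf0 hf1 e T

/-- **The auxiliary prime** (blueprint step (a) of the crossing lemma). -/
theorem exists_aux_prime {p : ℕ} (hp : p.Prime) (_hp2 : p ≠ 2) {q0 q1 : ℕ} (hq0 : q0.Prime)
    (hq1 : q1.Prime) (h01 : q0 ≠ q1) (_h0p : q0 ≠ p) (_h1p : q1 ≠ p) {f0 f1 : ℕ}
    (hf0 : ¬ p ∣ f0) (hf1 : ¬ p ∣ f1) (e : ℕ) :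
    ∃ m : ℕ, m.Prime ∧ m % p = 1 ∧ m ≠ p ∧ m ≠ q0 ∧ m ≠ q1 ∧
      (¬ ∃ x : ZMod m, x ^ p = ((q0 ^ f0 : ℕ) : ZMod m)) ∧
      (∃ x : ZMod m, x ^ p = ((q1 ^ f1 * (q0 ^ f0) ^ e : ℕ) : ZMod m)) := by
  obtain ⟨m, h1, h2, -, h3, h4, h5, h6, h7⟩ :=
    exists_aux_prime_finset hp hq0 hq1 h01 hf0 hf1 e ∅
  exact ⟨m, h1, h2, h3, h4, h5, h6, h7⟩

end Cyclotomic

end Fermat.Agent.S14.H88
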