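import Mathlib
import Fermat.Agent.S14.H88_AuxPrime
import Fermat.Agent.S14.H72_SplitCorollaries

/-!
# S14 helper: inclusion-exclusion for logarithmic densities

Abstract statement: weights `h s : P → ℝ` (nonnegative, summable for `s > 1`), a finite family of
sets `A r` (`r ∈ R`) such that for every `J ⊆ R` the intersection `⋂ r ∈ J, A r` coincides on a
"good" set `D` (whose complement has bounded mass) with a set `B J` of logarithmic density
`∏ r ∈ J, (n r)⁻¹` where `1 < n r`.  Then `D \ ⋃ r ∈ R, A r` is nonempty (it has positive density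
`∏ r ∈ R, (1 - (n r)⁻¹)`).

Concrete statement for number fields: `exists_degOne_notMem_of_density`.
-/

set_option autoImplicit false

noncomputable section

namespace Fermat.Agent.S14.H88

open Set Finset

section Abstract

variable {P : Type*} {ι : Type*}

/-- Pointwise inclusion-exclusion: on `D`, where `B J` is the intersection of the `A r`, `r ∈ J`,
the indicator of `D \ ⋃ r ∈ R, A r` is the alternating sum of the indicators of `D ∩ B J`. -/
theorem indicator_inclExcl [DecidableEq ι] (g : P → ℝ) (R : Finset ι) (A : ι → Set P)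
    (B : Finset ι → Set P) (D : Set P)
    (hB : ∀ J ⊆ R, ∀ x ∈ D, (x ∈ B J ↔ ∀ r ∈ J, x ∈ A r)) (x : P) :
    (D ∩ {y | ∀ r ∈ R, y ∉ A r}).indicator g x =
      ∑ J ∈ R.powerset, (-1 : ℝ) ^ #J * (D ∩ B J).indicator g x := by
  classical
  by_cases hD : x ∈ D
  · -- the 0/1 valued membership function
    set a : ι → ℝ := fun r => if x ∈ A r then 1 else 0 with ha
    have h1 : (D ∩ {y | ∀ r ∈ R, y ∉ A r}).indicator g x = g x * ∏ r ∈ R, (1 - a r) := by
      by_cases hx : ∀ r ∈ R, x ∉ A r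
      · rw [indicator_of_mem (show x ∈ D ∩ {y | ∀ r ∈ R, y ∉ A r} from ⟨hD, hx⟩)]
        have : ∏ r ∈ R, (1 - a r) = 1 :=
          Finset.prod_eq_one fun r hr => by simp [ha, hx r hr]
        rw [this, mul_one]
      · rw [indicator_of_notMem (fun hh => hx hh.2)]
        push Not at hx
        obtain ⟨r, hr, hxr⟩ := hx
        have : ∏ r ∈ R, (1 - a r) = 0 :=
          Finset.prod_eq_zero hr (by simp [ha, hxr])
        rw [this, mul_zero]
    have h2 : ∀ J ∈ R.powerset, (D ∩ B J).indicator g x = g x * ∏ r ∈ J, a r := by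
      intro J hJ
      have hJR : J ⊆ R := Finset.mem_powerset.mp hJ
      by_cases hx : ∀ r ∈ J, x ∈ A r
      · rw [indicator_of_mem (show x ∈ D ∩ B J from ⟨hD, (hB J hJR x hD).mpr hx⟩)]
        have : ∏ r ∈ J, a r = 1 := Finset.prod_eq_one fun r hr => by simp [ha, hx r hr]
        rw [this, mul_one]
      · rw [indicator_of_notMem (fun hh => hx ((hB J hJR x hD).mp hh.2))]
        push Not at hx
        obtain ⟨r, hr, hxr⟩ := hx
        have : ∏ r ∈ J, a r = 0 := Finset.prod_eq_zero hr (by simp [ha, hxr])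
        rw [this, mul_zero]
    rw [h1, Finset.prod_sub, Finset.mul_sum]
    refine Finset.sum_congr rfl fun J hJ => ?_
    rw [h2 J hJ]
    simp only [Finset.prod_const_one, mul_one]
    ring
  · rw [indicator_of_notMem (fun hh => hD hh.1)]
    symm
    refine Finset.sum_eq_zero fun J _ => ?_
    rw [indicator_of_notMem (fun hh => hD hh.1), mul_zero]

/-- Inclusion-exclusion for `zsum`. -/
theorem zsum_inclExcl [DecidableEq ι] {g : P → ℝ} (hg : Summable g) (R : Finset ι)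
    (A : ι → Set P) (B : Finset ι → Set P) (D : Set P)
    (hB : ∀ J ⊆ R, ∀ x ∈ D, (x ∈ B J ↔ ∀ r ∈ J, x ∈ A r)) :
    zsum g (D ∩ {y | ∀ r ∈ R, y ∉ A r}) =
      ∑ J ∈ R.powerset, (-1 : ℝ) ^ #J * zsum g (D ∩ B J) := by
  classical
  simp only [zsum_eq_tsum_indicator]
  simp_rw [← tsum_mul_left]
  rw [← Summable.tsum_finsetSum
    (fun J _ => (summable_indicator hg (D ∩ B J)).mul_left _)]
  exact tsum_congr fun x => indicator_inclExcl g R A B D hB x

/-- `Z(D ∩ S)` and `Z(S)` differ by at most `Z(Dᶜ)`. -/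
theorem abs_zsum_inter_sub_le {g : P → ℝ} (g0 : ∀ x, 0 ≤ g x) (hg : Summable g) (S D : Set P) :
    |zsum g (D ∩ S) - zsum g S| ≤ zsum g Dᶜ := by
  have h1 : zsum g (D ∩ S) ≤ zsum g S := zsum_mono g0 hg inter_subset_right
  have h2 := zsum_le_inter_add_compl g0 hg S D
  rw [abs_le]
  constructor <;> linarith

/-- **Abstract inclusion-exclusion density argument.** -/
theorem exists_mem_forall_notMem_of_density (h : ℝ → P → ℝ) (h0 : ∀ s x, 0 ≤ h s x)
    (hs : ∀ s, 1 < s → Summable (h s)) (R : Finset ι) (n : ι → ℝ) (hn : ∀ r ∈ R, 1 < n r)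
    (A : ι → Set P) (B : Finset ι → Set P) (D : Set P)
    (hB : ∀ J ⊆ R, ∀ x ∈ D, (x ∈ B J ↔ ∀ r ∈ J, x ∈ A r))
    (hD : ∃ C, ∀ s ∈ Ioc (1:ℝ) 2, zsum (h s) Dᶜ ≤ C)
    (hdens : ∀ J ⊆ R, ∃ C, ∀ s ∈ Ioc (1:ℝ) 2,
      |zsum (h s) (B J) - (∏ r ∈ J, (n r)⁻¹) * Real.log (1 / (s - 1))| ≤ C) :
    ∃ x ∈ D, ∀ r ∈ R, x ∉ A r := by
  classical
  obtain ⟨CD, hCD⟩ := hD
  choose! Cf hCf using hdens
  -- the density of the target set
  set κ : ℝ := ∏ r ∈ R, (1 - (n r)⁻¹) with hκ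
  have hκpos : 0 < κ := Finset.prod_pos fun r hr => by
    have h1 : 1 < n r := hn r hr
    have : (n r)⁻¹ < 1 := inv_lt_one_of_one_lt₀ h1
    linarith
  have hκeq : κ = ∑ J ∈ R.powerset, (-1 : ℝ) ^ #J * ∏ r ∈ J, (n r)⁻¹ := by
    rw [hκ, Finset.prod_sub]
    refine Finset.sum_congr rfl fun J _ => ?_
    simp only [Finset.prod_const_one, mul_one]
  -- the total error constant
  set C' : ℝ := ∑ J ∈ R.powerset, (Cf J + CD) with hC'
  -- the key lower bound
  have key : ∀ s ∈ Ioc (1:ℝ) 2,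
      κ * Real.log (1 / (s - 1)) - C' ≤ zsum (h s) (D ∩ {y | ∀ r ∈ R, y ∉ A r}) := by
    intro s hsmem
    have hs1 : 1 < s := hsmem.1
    set L := Real.log (1 / (s - 1)) with hL
    rw [zsum_inclExcl (hs s hs1) R A B D hB, hκeq, Finset.sum_mul, hC', ← Finset.sum_sub_distrib]
    refine Finset.sum_le_sum fun J hJ => ?_
    have hJR : J ⊆ R := Finset.mem_powerset.mp hJ
    have e1 := abs_zsum_inter_sub_le (h0 s) (hs s hs1) (B J) D
    have e2 := hCD s hsmem
    have e3 := hCf J hJR s hsmem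
    have e4 : |zsum (h s) (D ∩ B J) - (∏ r ∈ J, (n r)⁻¹) * L| ≤ Cf J + CD := by
      calc |zsum (h s) (D ∩ B J) - (∏ r ∈ J, (n r)⁻¹) * L|
          = |(zsum (h s) (D ∩ B J) - zsum (h s) (B J)) +
              (zsum (h s) (B J) - (∏ r ∈ J, (n r)⁻¹) * L)| := by ring_nf
        _ ≤ |zsum (h s) (D ∩ B J) - zsum (h s) (B J)| +
              |zsum (h s) (B J) - (∏ r ∈ J, (n r)⁻¹) * L| := abs_add_le _ _
        _ ≤ Cf J + CD := by linarith
    have hsign : |(-1 : ℝ) ^ #J| = 1 := by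
      rw [abs_pow, abs_neg, abs_one, one_pow]
    have e5 : |(-1 : ℝ) ^ #J * zsum (h s) (D ∩ B J) -
        (-1 : ℝ) ^ #J * (∏ r ∈ J, (n r)⁻¹) * L| ≤ Cf J + CD := by
      have : (-1 : ℝ) ^ #J * zsum (h s) (D ∩ B J) - (-1 : ℝ) ^ #J * (∏ r ∈ J, (n r)⁻¹) * L
          = (-1 : ℝ) ^ #J * (zsum (h s) (D ∩ B J) - (∏ r ∈ J, (n r)⁻¹) * L) := by ring
      rw [this, abs_mul, hsign, one_mul]
      exact e4
    have := abs_le.mp e5
    linarith [this.1]
  -- choose `s` close to `1`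
  obtain ⟨T, hT0, hT⟩ : ∃ T : ℝ, 0 ≤ T ∧ C' < κ * T := by
    refine ⟨max 0 (C' / κ + 1), le_max_left _ _, ?_⟩
    have h2 : C' / κ < max 0 (C' / κ + 1) := by
      have : C' / κ + 1 ≤ max 0 (C' / κ + 1) := le_max_right _ _
      linarith
    rw [div_lt_iff₀ hκpos] at h2
    linarith
  have hsmem : 1 + Real.exp (-T) ∈ Ioc (1:ℝ) 2 := by
    refine ⟨by linarith [Real.exp_pos (-T)], ?_⟩
    have : Real.exp (-T) ≤ 1 := Real.exp_le_one_iff.mpr (by linarith)
    linarith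
  have hlog : Real.log (1 / (1 + Real.exp (-T) - 1)) = T := by
    rw [add_sub_cancel_left, one_div, ← Real.exp_neg, neg_neg, Real.log_exp]
  have hpos := key _ hsmem
  rw [hlog] at hpos
  have hpos' : 0 < zsum (h (1 + Real.exp (-T))) (D ∩ {y | ∀ r ∈ R, y ∉ A r}) := by linarith
  -- hence the set is nonempty
  by_contra hcon
  push Not at hcon
  have hempty : D ∩ {y | ∀ r ∈ R, y ∉ A r} = ∅ := by
    ext x
    simp only [mem_inter_iff, Set.mem_ofPred_eq, mem_empty_iff_false, iff_false, not_and]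
    intro hxD hx
    obtain ⟨r, hr, hxr⟩ := hcon x hxD
    exact hx r hr hxr
  rw [hempty] at hpos'
  have : zsum (h (1 + Real.exp (-T))) (∅ : Set P) = 0 := by
    rw [zsum_eq_tsum_indicator]
    simp
  linarith

end Abstract

section NumberField

open NumberField Ideal IsDedekindDomain

/-- **Inclusion-exclusion for degree one primes of a number field.**  If for every `J ⊆ R` the
intersection of the sets `A r` (`r ∈ J`) agrees, outside a finite set `T₀`, with a set `B J` of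
logarithmic density `1 / ∏ r ∈ J, r`, where all `r ∈ R` are `≥ 2`, then there is a prime of
absolute degree one, of residue characteristic outside any given finite set `S`, outside `T₀`,
lying in no `A r`. -/
theorem exists_degOne_notMem_of_density (E : Type*) [Field E] [NumberField E] (R : Finset ℕ)
    (hR : ∀ r ∈ R, 2 ≤ r)
    (A : ℕ → Set (HeightOneSpectrum (𝓞 E))) (B : Finset ℕ → Set (HeightOneSpectrum (𝓞 E)))
    (T₀ : Set (HeightOneSpectrum (𝓞 E))) (hT₀ : T₀.Finite)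
    (hB : ∀ J ⊆ R, ∀ Q ∉ T₀, (Q ∈ B J ↔ ∀ r ∈ J, Q ∈ A r))
    (hdens : ∀ J ⊆ R, ∃ C : ℝ, ∀ s ∈ Set.Ioc (1:ℝ) 2,
      |H72.setSum E (B J) s - (1 / (((∏ r ∈ J, r : ℕ)) : ℝ)) * Real.log (1 / (s - 1))| ≤ C)
    (S : Finset ℕ) :
    ∃ Q : HeightOneSpectrum (𝓞 E), (absNorm Q.asIdeal).Prime ∧ absNorm Q.asIdeal ∉ S ∧
      Q ∉ T₀ ∧ ∀ r ∈ R, Q ∉ A r := by
  classical
  have h0 : ∀ (s : ℝ) (Q : HeightOneSpectrum (𝓞 E)), 0 ≤ H72.primeTerm E s Q :=
    fun s Q => (H72.primeTerm_pos E s Q).le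
  have hsum : ∀ s : ℝ, 1 < s → Summable (H72.primeTerm E s) :=
    fun s hs => H72.summable_primeTerm E hs
  -- the good set
  have hD : ∃ C, ∀ s ∈ Ioc (1:ℝ) 2,
      zsum (H72.primeTerm E s) (goodSet E S \ T₀)ᶜ ≤ C := by
    obtain ⟨C1, hC1⟩ := exists_bound_zsum_compl_goodSet (K := E) S
    refine ⟨C1 + T₀.ncard, fun s hsmem => ?_⟩
    have hs1 : 1 < s := hsmem.1
    have hsub : (goodSet E S \ T₀)ᶜ ⊆ (goodSet E S)ᶜ ∪ T₀ := by
      intro Q hQ
      by_cases hQT : Q ∈ T₀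
      · exact Or.inr hQT
      · exact Or.inl fun hg => hQ ⟨hg, hQT⟩
    have e1 : zsum (H72.primeTerm E s) (goodSet E S \ T₀)ᶜ ≤
        zsum (H72.primeTerm E s) ((goodSet E S)ᶜ ∪ T₀) :=
      zsum_mono (h0 s) (hsum s hs1) hsub
    have e2 : zsum (H72.primeTerm E s) ((goodSet E S)ᶜ ∪ T₀) ≤
        zsum (H72.primeTerm E s) (T₀ᶜ ∩ ((goodSet E S)ᶜ ∪ T₀)) +
          zsum (H72.primeTerm E s) (T₀ᶜ)ᶜ :=
      zsum_le_inter_add_compl (h0 s) (hsum s hs1) _ _
    have e3 : zsum (H72.primeTerm E s) (T₀ᶜ ∩ ((goodSet E S)ᶜ ∪ T₀)) ≤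
        zsum (H72.primeTerm E s) (goodSet E S)ᶜ := by
      refine zsum_mono (h0 s) (hsum s hs1) ?_
      rintro Q ⟨hQT, hQ | hQ⟩
      · exact hQ
      · exact absurd hQ hQT
    rw [compl_compl] at e2
    have e5 : zsum (H72.primeTerm E s) T₀ ≤ T₀.ncard :=
      zsum_primeTerm_le_ncard hT₀ (by linarith)
    have := hC1 s hsmem
    linarith
  obtain ⟨Q, ⟨⟨hQp, hQS⟩, hQT⟩, hQA⟩ :=
    exists_mem_forall_notMem_of_density (fun s => H72.primeTerm E s) h0 hsum R
      (fun r => (r : ℝ)) (fun r hr => by exact_mod_cast hR r hr) A B (goodSet E S \ T₀)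
      (fun J hJ Q hQ => hB J hJ Q hQ.2) hD
      (fun J hJ => by
        obtain ⟨C, hC⟩ := hdens J hJ
        refine ⟨C, fun s hsmem => ?_⟩
        have := hC s hsmem
        have hprod : (∏ r ∈ J, ((r : ℕ) : ℝ)⁻¹) = 1 / ((∏ r ∈ J, r : ℕ) : ℝ) := by
          rw [Nat.cast_prod, Finset.prod_inv_distrib, one_div]
        rw [hprod]
        exact this)
  exact ⟨Q, hQp, hQS, hQT, hQA⟩

end NumberField

end Fermat.Agent.S14.H88
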