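import Mathlib
import Fermat.Agent.S14.H82_FrobDensityAlg
import Fermat.Agent.S14.H88_InclExcl

/-!
# Frobenius density theorem (existence form)

For `L/K` a finite Galois extension of number fields, `σ ∈ Gal(L/K)` and a finite set `S` of
integers, there is a prime `𝔔` of `L`, unramified over `K`, lying over a prime of `K` whose
absolute norm is a rational prime outside `S`, such that the Frobenius of `𝔔` generates the same
cyclic subgroup as `σ` (i.e. `Frob = σ ^ k` with `k` prime to the order of `σ`).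

Algebraic half: `H82_FrobDensityAlg` (helper82); analytic half (inclusion-exclusion on the
densities of split primes): `H88_InclExcl` (helper88), on top of helper72's density of split primes.
-/

set_option autoImplicit false

namespace Fermat.Agent.S14.H82

open NumberField IsDedekindDomain
open scoped Pointwise

/-- helper88's inclusion-exclusion density theorem, in the shape consumed by the algebraic half. -/
theorem inclExclStatement (E : Type*) [Field E] [NumberField E] : InclExclStatement E :=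
  fun R hR A B T₀ hT₀ hB hdens S =>
    H88.exists_degOne_notMem_of_density E R hR A B T₀ hT₀ hB hdens S

/-- **Frobenius density theorem, existence form.** -/
theorem exists_prime_zpowers_frob_eq (K L : Type*) [Field K] [NumberField K] [Field L]
    [NumberField L] [Algebra K L] [IsGalois K L] (σ : Gal(L/K)) (S : Finset ℕ) :
    ∃ (𝔔 : Ideal (𝓞 L)) (_ : 𝔔.IsPrime) (h𝔔 : 𝔔 ≠ ⊥),
      (Ideal.absNorm (𝔔.under (𝓞 K))).Prime ∧ Ideal.absNorm (𝔔.under (𝓞 K)) ∉ S ∧
      𝔔.ramificationIdx (𝓞 K) = 1 ∧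
      Subgroup.zpowers (H27.frob K 𝔔 h𝔔) = Subgroup.zpowers σ :=
  exists_prime_zpowers_frob_eq_of K L σ (inclExclStatement _) S

/-- Variant: the Frobenius is a power of `σ` and `σ` is a power of the Frobenius. -/
theorem exists_prime_frob_eq_pow (K L : Type*) [Field K] [NumberField K] [Field L]
    [NumberField L] [Algebra K L] [IsGalois K L] (σ : Gal(L/K)) (S : Finset ℕ) :
    ∃ (𝔔 : Ideal (𝓞 L)) (_ : 𝔔.IsPrime) (h𝔔 : 𝔔 ≠ ⊥) (j k : ℤ),
      (Ideal.absNorm (𝔔.under (𝓞 K))).Prime ∧ Ideal.absNorm (𝔔.under (𝓞 K)) ∉ S ∧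
      𝔔.ramificationIdx (𝓞 K) = 1 ∧
      H27.frob K 𝔔 h𝔔 = σ ^ k ∧ σ = H27.frob K 𝔔 h𝔔 ^ j := by
  obtain ⟨𝔔, h𝔔p, h𝔔, h1, h2, h3, h4⟩ := exists_prime_zpowers_frob_eq K L σ S
  have hk : H27.frob K 𝔔 h𝔔 ∈ Subgroup.zpowers σ := by
    rw [← h4]; exact Subgroup.mem_zpowers _
  have hj : σ ∈ Subgroup.zpowers (H27.frob K 𝔔 h𝔔) := by
    rw [h4]; exact Subgroup.mem_zpowers _
  obtain ⟨k, hk⟩ := Subgroup.mem_zpowers_iff.1 hk
  obtain ⟨j, hj⟩ := Subgroup.mem_zpowers_iff.1 hj
  exact ⟨𝔔, h𝔔p, h𝔔, j, k, h1, h2, h3, hk.symm, hj.symm⟩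

end Fermat.Agent.S14.H82
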