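import Mathlib
import Fermat.Agent.S14.H31_FrobBridge
import Fermat.Agent.S14.H82_FrobDensity

set_option autoImplicit false

/-!
# Frobenius density theorem (existence form) in the prelude vocabulary — unconditional

`H31_FrobBridge` + helper82/helper88's number field theorem `H82.exists_prime_zpowers_frob_eq`.
-/

open NumberField

namespace Fermat.Agent.S14.H31

noncomputable section

local notation "Qb" => AlgebraicClosure ℚ
local notation "GQ" => (AlgebraicClosure ℚ ≃ₐ[ℚ] AlgebraicClosure ℚ)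

/-- helper82's theorem discharges the hypothesis of `H31_FrobBridge`. -/
theorem frobeniusDensityStatement : FrobeniusDensityStatement :=
  fun L _ _ _ σ S => H82.exists_prime_zpowers_frob_eq ℚ L σ S

attribute [local instance] numberField_intermediateField

/-- **Frobenius density theorem, existence form, prelude vocabulary**: `F/ℚ` finite Galois inside
`AlgebraicClosure ℚ`, `g ∈ G_ℚ`, `T` a finite set of integers.  There are a prime `q ∉ T`, a
valuation subring `A` above `q` and a Frobenius element `φ` at `A` such that `φ|F` and `g|F`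
generate the same cyclic subgroup of `Gal(F/ℚ)`. -/
theorem exists_isFrobeniusAt_restrict_zpowers_eq (F : IntermediateField ℚ Qb)
    [FiniteDimensional ℚ F] [IsGalois ℚ F] (g : GQ) (T : Finset ℕ) :
    ∃ (q : ℕ) (A : ValuationSubring Qb) (φ : GQ), q.Prime ∧ q ∉ T ∧ A.LiesOverPrime q ∧
      A.IsFrobeniusAt φ q ∧
      Subgroup.zpowers (AlgEquiv.restrictNormalHom ↥F φ) =
        Subgroup.zpowers (AlgEquiv.restrictNormalHom ↥F g) :=
  exists_isFrobeniusAt_zpowers_eq F frobeniusDensityStatement g T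

/-- **Consumer form**: `ρ : G_ℚ →* H` any group homomorphism which is trivial on the fixing
subgroup of a finite extension `F/ℚ`.  For every `g ∈ G_ℚ` and finite `T ⊆ ℕ` there is a
Frobenius element `φ` at a prime `q ∉ T` with `⟨ρ φ⟩ = ⟨ρ g⟩`. -/
theorem exists_isFrobeniusAt_zpowers_map_eq (F : IntermediateField ℚ Qb) [FiniteDimensional ℚ F]
    {H : Type*} [Group H] (ρ : GQ →* H) (hF : F.fixingSubgroup ≤ ρ.ker) (g : GQ)
    (T : Finset ℕ) :
    ∃ (q : ℕ) (A : ValuationSubring Qb) (φ : GQ), q.Prime ∧ q ∉ T ∧ A.LiesOverPrime q ∧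
      A.IsFrobeniusAt φ q ∧ Subgroup.zpowers (ρ φ) = Subgroup.zpowers (ρ g) :=
  exists_isFrobeniusAt_map_zpowers_eq F frobeniusDensityStatement ρ hF g T

/-- Convenience form: `ρ g` is a power of `ρ φ` and conversely. -/
theorem exists_isFrobeniusAt_map_eq_zpow (F : IntermediateField ℚ Qb) [FiniteDimensional ℚ F]
    {H : Type*} [Group H] (ρ : GQ →* H) (hF : F.fixingSubgroup ≤ ρ.ker) (g : GQ)
    (T : Finset ℕ) :
    ∃ (q : ℕ) (A : ValuationSubring Qb) (φ : GQ) (j k : ℤ), q.Prime ∧ q ∉ T ∧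
      A.LiesOverPrime q ∧ A.IsFrobeniusAt φ q ∧ ρ φ = ρ g ^ k ∧ ρ g = ρ φ ^ j := by
  obtain ⟨q, A, φ, hq, hqT, hA1, hA2, hz⟩ := exists_isFrobeniusAt_zpowers_map_eq F ρ hF g T
  obtain ⟨k, hk⟩ := Subgroup.mem_zpowers_iff.mp (hz ▸ Subgroup.mem_zpowers (ρ φ))
  obtain ⟨j, hj⟩ := Subgroup.mem_zpowers_iff.mp (hz.symm ▸ Subgroup.mem_zpowers (ρ g))
  exact ⟨q, A, φ, j, k, hq, hqT, hA1, hA2, hk.symm, hj.symm⟩

end

end Fermat.Agent.S14.H31
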