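import Mathlib
import Fermat.Agent.S14.H31_FrobPrelude
import Fermat.Agent.S14.H31_FrobCyclo

set_option autoImplicit false

/-!
# Frobenius density with a congruence condition (prelude vocabulary)

Consumer form for "non-Eisenstein" arguments: `ρ : G_ℚ →* H` trivial on the fixing subgroup of a
finite extension, `g ∈ G_ℚ` fixing a primitive `M`-th root of unity `ζ`.  Then there is a Frobenius
element `φ` at a prime `q ∉ T`, `q ≡ 1 [MOD M]`, with `φ ζ = ζ`, `ρ φ = ρ g ^ k`, `ρ g = ρ φ ^ j`.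
-/

namespace Fermat.Agent.S14.H31

noncomputable section

local notation "Qb" => AlgebraicClosure ℚ
local notation "GQ" => (AlgebraicClosure ℚ ≃ₐ[ℚ] AlgebraicClosure ℚ)

/-- `ζ ^ j = ζ ^ (j % M)` for a primitive `M`-th root of unity. -/
theorem pow_mod_of_isPrimitiveRoot {R : Type*} [CommMonoid R] {ζ : R} {M : ℕ}
    (hζ : IsPrimitiveRoot ζ M) (j : ℕ) : ζ ^ j = ζ ^ (j % M) := by
  conv_lhs => rw [← Nat.div_add_mod j M, pow_add, pow_mul, hζ.pow_eq_one, one_pow, one_mul]

/-- An automorphism fixing the primitive root `ζ` has trivial mod-`M` cyclotomic character. -/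
theorem autToPow_eq_one_of_map_eq {M : ℕ} [NeZero M] {ζ : Qb} (hζ : IsPrimitiveRoot ζ M)
    (s : GQ) (hs : s ζ = ζ) : hζ.autToPow ℚ s = 1 := by
  rcases Nat.lt_or_ge 1 M with hM | hM
  · have hspec := hζ.autToPow_spec ℚ s
    rw [hs] at hspec
    have hlt : (hζ.autToPow ℚ s : ZMod M).val < M := ZMod.val_lt _
    have h1 : (hζ.autToPow ℚ s : ZMod M).val = 1 :=
      hζ.pow_inj hlt hM (by rw [hspec, pow_one])
    apply Units.ext
    rw [Units.val_one, ← ZMod.natCast_zmod_val (hζ.autToPow ℚ s : ZMod M), h1, Nat.cast_one]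
  · have hM1 : M = 1 := le_antisymm hM (Nat.one_le_iff_ne_zero.mpr (NeZero.ne M))
    subst hM1
    exact Subsingleton.elim _ _

/-- An automorphism with trivial mod-`M` cyclotomic character fixes `ζ`. -/
theorem map_eq_of_autToPow_eq_one {M : ℕ} [NeZero M] {ζ : Qb} (hζ : IsPrimitiveRoot ζ M)
    (s : GQ) (hs : hζ.autToPow ℚ s = 1) : s ζ = ζ := by
  have hspec := hζ.autToPow_spec ℚ s
  rw [hs, Units.val_one, ZMod.val_one_eq_one_mod, ← pow_mod_of_isPrimitiveRoot hζ, pow_one]
    at hspec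
  exact hspec.symm

/-- **Frobenius density with a congruence condition.** -/
theorem exists_isFrobeniusAt_modEq_one_map_eq_zpow (F : IntermediateField ℚ Qb)
    [FiniteDimensional ℚ F] {H : Type*} [Group H] (ρ : GQ →* H) (hF : F.fixingSubgroup ≤ ρ.ker)
    {M : ℕ} [NeZero M] {ζ : Qb} (hζ : IsPrimitiveRoot ζ M) (g : GQ) (hg : g ζ = ζ)
    (T : Finset ℕ) :
    ∃ (q : ℕ) (A : ValuationSubring Qb) (φ : GQ) (j k : ℤ), q.Prime ∧ q ∉ T ∧ q ≡ 1 [MOD M] ∧
      A.LiesOverPrime q ∧ A.IsFrobeniusAt φ q ∧ φ ζ = ζ ∧ ρ φ = ρ g ^ k ∧ ρ g = ρ φ ^ j := by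
  have hζint : IsIntegral ℚ ζ :=
    (hζ.isIntegral (NeZero.pos M)).tower_top
  haveI : FiniteDimensional ℚ (IntermediateField.adjoin ℚ {ζ}) :=
    IntermediateField.adjoin.finiteDimensional hζint
  set F' : IntermediateField ℚ Qb := F ⊔ IntermediateField.adjoin ℚ {ζ} with hF'def
  haveI : FiniteDimensional ℚ F' := IntermediateField.finiteDimensional_sup _ _
  set χ : GQ →* (ZMod M)ˣ := hζ.autToPow ℚ with hχ
  have hF' : F'.fixingSubgroup ≤ (ρ.prod χ).ker := by
    intro s hs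
    rw [IntermediateField.mem_fixingSubgroup_iff] at hs
    rw [MonoidHom.mem_ker, MonoidHom.prod_apply, Prod.mk_eq_one]
    constructor
    · have : s ∈ F.fixingSubgroup := by
        rw [IntermediateField.mem_fixingSubgroup_iff]
        exact fun x hx => hs x ((le_sup_left : F ≤ F') hx)
      exact MonoidHom.mem_ker.mp (hF this)
    · apply autToPow_eq_one_of_map_eq hζ
      exact hs ζ ((le_sup_right : IntermediateField.adjoin ℚ {ζ} ≤ F')
        (IntermediateField.mem_adjoin_simple_self ℚ ζ))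
  obtain ⟨q, A, φ, j, k, hq, hqT, hA1, hA2, hk, hj⟩ :=
    exists_isFrobeniusAt_map_eq_zpow F' (ρ.prod χ) hF' g (T ∪ M.primeFactors)
  have hχg : χ g = 1 := autToPow_eq_one_of_map_eq hζ g hg
  have hk1 : ρ φ = ρ g ^ k := by
    have := congrArg Prod.fst hk
    simpa using this
  have hj1 : ρ g = ρ φ ^ j := by
    have := congrArg Prod.fst hj
    simpa using this
  have hχφ : χ φ = 1 := by
    have := congrArg Prod.snd hk
    simp only [MonoidHom.prod_apply, Prod.pow_snd, hχg, one_zpow] at this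
    exact this
  have hφζ : φ ζ = ζ := map_eq_of_autToPow_eq_one hζ φ hχφ
  have hqT' : q ∉ T := fun h => hqT (Finset.mem_union_left _ h)
  have hqM : q.Coprime M := by
    rw [Nat.Prime.coprime_iff_not_dvd hq]
    intro hdvd
    exact hqT (Finset.mem_union_right _
      (Nat.mem_primeFactors.mpr ⟨hq, hdvd, NeZero.ne M⟩))
  exact ⟨q, A, φ, j, k, hq, hqT', modEq_one_of_isFrobeniusAt_of_map_eq hA1 hA2 hζ hqM hφζ,
    hA1, hA2, hφζ, hk1, hj1⟩

end

end Fermat.Agent.S14.H31
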