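import Mathlib
import Fermat.Agent.S14.H67_Reduction

/-!
# S14, work package WP1a: the Galois side of the bridge

For an unramified cocycle `φ` (see `H67_Reduction`), with `χ = cycloChar p`, `H = ker χ`,
`N = hφ.kerSubgroup = ker (φ|_H)`:

* `cycloField p = ℚ̄^H = ℚ(ζ_p)` (`cycloField_eq_adjoin`, `fixingSubgroup_cycloField`,
  cyclotomic / finite / Galois instances, `finrank_cycloField`).
* `hφ.field = ℚ̄^N`, finite Galois over `ℚ`, containing `cycloField p`, `fixingSubgroup_field`.
* `hφ.res : G_ℚ →* Gal(L/ℚ)` (restriction, surjective, kernel `N`), and the descents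
  `hφ.galChi : Gal(L/ℚ) →* (ZMod p)ˣ`, `hφ.galPhi : Gal(L/ℚ) → ZMod p` with
  `galChi_res`, `galPhi_res`, `galPhi_mul` (cocycle), `gal_ext` (`(χ, φ)` is injective on
  `Gal(L/ℚ)`), `galChi_eq_one_iff` (`χ g = 1` iff `g` fixes `ℚ(ζ_p)`), `conj_eq_pow`
  (`g h g⁻¹ = h ^ χ(g)⁻¹` for `h ∈ Gal(L/K)`), `galPhiHom : ker galChi →* Multiplicative (ZMod p)`
  (injective; bijective if `φ|_H ≠ 0`), `card_ker_galChi`.

Instance warning: for `L : IntermediateField ℚ ℚ̄` the instance `Algebra ℚ ↥L` found by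
type class search is `DivisionRing.toRatAlgebra`, whereas Mathlib's lemmas on intermediate fields
use `IntermediateField.algebra'`; the two are defeq but not reducibly, so use `exact` and
not `rw`/`simp` across them.
-/

set_option autoImplicit false

namespace Fermat.Agent.S14.H67

open ExtCitation Polynomial IntermediateField

local notation "GQ" => (AlgebraicClosure ℚ ≃ₐ[ℚ] AlgebraicClosure ℚ)
local notation "Qbar" => AlgebraicClosure ℚ

local instance isAlgebraicQb' : Algebra.IsAlgebraic ℚ (AlgebraicClosure ℚ) :=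
  AlgebraicClosure.isAlgebraic ℚ
local instance isAlgClosureQb' : IsAlgClosure ℚ (AlgebraicClosure ℚ) :=
  ⟨inferInstance, inferInstance⟩
local instance isGaloisQb' : IsGalois ℚ (AlgebraicClosure ℚ) := IsSepClosure.isGalois

section CycloField

variable (p : ℕ) [Fact p.Prime]

/-- `K = ℚ(ζ_p)` inside `ℚ̄`, defined as the fixed field of the kernel of the cyclotomic
character. -/
noncomputable def cycloField : IntermediateField ℚ Qbar :=
  IntermediateField.fixedField (cycloChar p).ker

variable {p}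

theorem cycloChar_eq_one_iff {ζ : Qbar} (hζ : IsPrimitiveRoot ζ p) (σ : GQ) :
    cycloChar p σ = 1 ↔ σ ζ = ζ := by
  have hp : p.Prime := Fact.out
  have : NeZero p := ⟨hp.ne_zero⟩
  constructor
  · intro h
    have := cycloChar_spec_primitive p σ hζ
    rw [h, Units.val_one, ZMod.val_one'' (by have := hp.one_lt; omega), pow_one] at this
    exact this
  · intro h
    apply Units.ext
    rw [Units.val_one]
    refine cycloChar_eq_of_primitive p σ hζ ?_
    rw [h, ZMod.val_one'' (by have := hp.one_lt; omega), pow_one]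

theorem ker_cycloChar_eq_fixingSubgroup {ζ : Qbar} (hζ : IsPrimitiveRoot ζ p) :
    (cycloChar p).ker = (IntermediateField.adjoin ℚ {ζ}).fixingSubgroup := by
  ext σ
  rw [MonoidHom.mem_ker, cycloChar_eq_one_iff hζ, IntermediateField.mem_fixingSubgroup_iff]
  constructor
  · intro h x hx
    have hle : IntermediateField.adjoin ℚ {ζ} ≤
        IntermediateField.fixedField (Subgroup.zpowers σ) := by
      rw [IntermediateField.adjoin_le_iff]
      rintro y rfl
      rw [SetLike.mem_coe, IntermediateField.mem_fixedField_iff]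
      rintro τ hτ
      obtain ⟨k, rfl⟩ := Subgroup.mem_zpowers_iff.mp hτ
      have h1 : ∀ n : ℕ, (σ ^ n) y = y := by
        intro n
        induction n with
        | zero => simp
        | succ n ih => rw [pow_succ, AlgEquiv.mul_apply, h, ih]
      rcases Int.eq_nat_or_neg k with ⟨n, rfl | rfl⟩
      · simpa using h1 n
      · rw [zpow_neg, zpow_natCast]
        have := h1 n
        calc (σ ^ n)⁻¹ y = (σ ^ n)⁻¹ ((σ ^ n) y) := by rw [this]
          _ = y := by rw [← AlgEquiv.mul_apply, inv_mul_cancel, AlgEquiv.one_apply]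
    have := hle hx
    rw [IntermediateField.mem_fixedField_iff] at this
    exact this σ (Subgroup.mem_zpowers σ)
  · intro h
    exact h ζ (IntermediateField.mem_adjoin_simple_self ℚ ζ)

theorem cycloField_eq_adjoin {ζ : Qbar} (hζ : IsPrimitiveRoot ζ p) :
    cycloField p = IntermediateField.adjoin ℚ {ζ} := by
  unfold cycloField
  rw [ker_cycloChar_eq_fixingSubgroup hζ, InfiniteGalois.fixedField_fixingSubgroup]

theorem fixingSubgroup_cycloField : (cycloField p).fixingSubgroup = (cycloChar p).ker := by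
  obtain ⟨ζ, hζ⟩ := exists_primitiveRoot p
  rw [cycloField_eq_adjoin hζ, ker_cycloChar_eq_fixingSubgroup hζ]

theorem mem_cycloField_of_primitiveRoot {ζ : Qbar} (hζ : IsPrimitiveRoot ζ p) :
    ζ ∈ cycloField p := by
  rw [cycloField_eq_adjoin hζ]
  exact IntermediateField.mem_adjoin_simple_self ℚ ζ

end CycloField

section CycloField2

variable (p : ℕ) [Fact p.Prime]

instance isCyclotomicExtension_cycloField : IsCyclotomicExtension {p} ℚ (cycloField p) := by
  have hp : p.Prime := Fact.out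
  have : NeZero p := ⟨hp.ne_zero⟩
  obtain ⟨ζ, hζ⟩ := exists_primitiveRoot p
  rw [cycloField_eq_adjoin hζ]
  exact hζ.intermediateField_adjoin_isCyclotomicExtension ℚ

instance finiteDimensional_cycloField : FiniteDimensional ℚ (cycloField p) := by
  have hp : p.Prime := Fact.out
  have : NeZero p := ⟨hp.ne_zero⟩
  exact IsCyclotomicExtension.finiteDimensional {p} ℚ (cycloField p)

instance isGalois_cycloField : IsGalois ℚ (cycloField p) := by
  have hp : p.Prime := Fact.out
  have : NeZero p := ⟨hp.ne_zero⟩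
  exact IsCyclotomicExtension.isGalois {p} ℚ (cycloField p)

theorem finrank_cycloField : Module.finrank ℚ (cycloField p) = p - 1 := by
  have hp : p.Prime := Fact.out
  have : NeZero p := ⟨hp.ne_zero⟩
  rw [IsCyclotomicExtension.finrank (n := p) (cycloField p)
    (Polynomial.cyclotomic.irreducible_rat hp.pos), Nat.totient_prime hp]

end CycloField2

section CocycleField

variable {p : ℕ} [Fact p.Prime]

/-- `φ|_H ≠ 0`, where `H = ker χ`. -/
def NonzeroOnKer (p : ℕ) [Fact p.Prime] (φ : GQ → ZMod p) : Prop :=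
  ∃ τ : GQ, cycloChar p τ = 1 ∧ φ τ ≠ 0

namespace IsUnramifiedCocycle

variable {φ : GQ → ZMod p} (hφ : IsUnramifiedCocycle p φ)

/-- The field `L` cut out by `φ|_H`: fixed field of `N = ker(φ|_H)`. -/
noncomputable def field : IntermediateField ℚ Qbar :=
  IntermediateField.fixedField hφ.kerSubgroup

theorem fixingSubgroup_field : hφ.field.fixingSubgroup = hφ.kerSubgroup := by
  have hcl : IsClosed (hφ.kerSubgroup : Set GQ) :=
    Subgroup.isClosed_of_isOpen _ hφ.kerSubgroup_isOpen
  exact InfiniteGalois.fixingSubgroup_fixedField ⟨hφ.kerSubgroup, hcl⟩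

theorem cycloField_le_field : cycloField p ≤ hφ.field := by
  unfold cycloField field
  exact IntermediateField.fixedField_antitone hφ.kerSubgroup_le_ker

instance finiteDimensional_field : FiniteDimensional ℚ hφ.field := by
  rw [← InfiniteGalois.isOpen_iff_finite, fixingSubgroup_field]
  exact hφ.kerSubgroup_isOpen

instance isGalois_field : IsGalois ℚ hφ.field := by
  have h : hφ.field.fixingSubgroup.Normal := by
    rw [fixingSubgroup_field]
    exact hφ.kerSubgroup_normal
  exact (InfiniteGalois.normal_iff_isGalois _).mp h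

/-- The same instance for the `IntermediateField.algebra'` structure (definitionally equal, but not
reducibly so, to the default `DivisionRing.toRatAlgebra` one). -/
instance isGalois_field' : @IsGalois ℚ _ hφ.field _ hφ.field.algebra' := hφ.isGalois_field

/-- Restriction `G_ℚ → Gal(L/ℚ)`. -/
noncomputable def res : GQ →* (hφ.field ≃ₐ[ℚ] hφ.field) :=
  AlgEquiv.restrictNormalHom hφ.field

theorem res_surjective : Function.Surjective hφ.res :=
  AlgEquiv.restrictNormalHom_surjective Qbar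

theorem res_apply (σ : GQ) (x : hφ.field) : ((hφ.res σ x : hφ.field) : Qbar) = σ x :=
  AlgEquiv.restrictNormalHom_apply hφ.field σ x

theorem res_ker : hφ.res.ker = hφ.kerSubgroup := by
  rw [← fixingSubgroup_field]
  exact IntermediateField.restrictNormalHom_ker hφ.field

theorem res_eq_res_iff (σ τ : GQ) : hφ.res σ = hφ.res τ ↔ σ⁻¹ * τ ∈ hφ.kerSubgroup := by
  rw [← res_ker, MonoidHom.mem_ker, _root_.map_mul, _root_.map_inv, inv_mul_eq_one]

/-- `χ` descended to `Gal(L/ℚ)`. -/
noncomputable def galChi : (hφ.field ≃ₐ[ℚ] hφ.field) →* (ZMod p)ˣ :=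
  (QuotientGroup.lift hφ.res.ker (cycloChar p) (by
    intro σ hσ
    rw [res_ker] at hσ
    exact hσ.1)).comp (QuotientGroup.quotientKerEquivOfSurjective hφ.res hφ.res_surjective).symm.toMonoidHom

theorem galChi_res (σ : GQ) : hφ.galChi (hφ.res σ) = cycloChar p σ := by
  unfold galChi
  have : (QuotientGroup.quotientKerEquivOfSurjective hφ.res hφ.res_surjective).symm (hφ.res σ) =
      (σ : GQ ⧸ hφ.res.ker) := by
    rw [MulEquiv.symm_apply_eq]
    rfl
  simp only [MonoidHom.coe_comp, Function.comp_apply, MulEquiv.coe_toMonoidHom, this]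
  rfl

/-- `φ` descended to `Gal(L/ℚ)`. -/
noncomputable def galPhi (g : hφ.field ≃ₐ[ℚ] hφ.field) : ZMod p :=
  φ (Classical.choose (hφ.res_surjective g))

theorem galPhi_res (σ : GQ) : hφ.galPhi (hφ.res σ) = φ σ := by
  unfold galPhi
  have h := Classical.choose_spec (hφ.res_surjective (hφ.res σ))
  set τ := Classical.choose (hφ.res_surjective (hφ.res σ)) with hτ
  rw [res_eq_res_iff] at h
  obtain ⟨h1, h2⟩ := h
  have : σ = τ * (τ⁻¹ * σ) := by group
  rw [this, hφ.cocycle, h2, mul_zero, add_zero]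

theorem galPhi_mul (g h : hφ.field ≃ₐ[ℚ] hφ.field) :
    hφ.galPhi (g * h) = hφ.galPhi g + (((hφ.galChi g)⁻¹ : (ZMod p)ˣ) : ZMod p) * hφ.galPhi h := by
  obtain ⟨σ, rfl⟩ := hφ.res_surjective g
  obtain ⟨τ, rfl⟩ := hφ.res_surjective h
  rw [← _root_.map_mul, galPhi_res, galPhi_res, galPhi_res, galChi_res, hφ.cocycle]

theorem eq_one_of_galChi_of_galPhi (g : hφ.field ≃ₐ[ℚ] hφ.field) (h1 : hφ.galChi g = 1)
    (h2 : hφ.galPhi g = 0) : g = 1 := by
  obtain ⟨σ, rfl⟩ := hφ.res_surjective g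
  rw [galChi_res] at h1
  rw [galPhi_res] at h2
  rw [← MonoidHom.mem_ker, res_ker]
  exact ⟨h1, h2⟩

/-- `g ∈ Gal(L/ℚ)` fixes `K = ℚ(ζ_p)` iff `χ(g) = 1`. -/
theorem galChi_eq_one_iff (g : hφ.field ≃ₐ[ℚ] hφ.field) :
    hφ.galChi g = 1 ↔ ∀ x : hφ.field, (x : Qbar) ∈ cycloField p → g x = x := by
  obtain ⟨σ, rfl⟩ := hφ.res_surjective g
  rw [galChi_res, ← MonoidHom.mem_ker, ← fixingSubgroup_cycloField,
    IntermediateField.mem_fixingSubgroup_iff]
  constructor
  · intro h x hx
    apply Subtype.ext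
    rw [res_apply]
    exact h _ hx
  · intro h x hx
    have := h ⟨x, hφ.cycloField_le_field hx⟩ hx
    have h2 := congrArg (Subtype.val) this
    rw [res_apply] at h2
    exact h2

theorem galPhi_one : hφ.galPhi 1 = 0 := by
  have := hφ.galPhi_res 1
  rwa [_root_.map_one, hφ.map_one] at this

theorem galPhi_mul_of_left (g h : hφ.field ≃ₐ[ℚ] hφ.field) (hg : hφ.galChi g = 1) :
    hφ.galPhi (g * h) = hφ.galPhi g + hφ.galPhi h := by
  rw [galPhi_mul, hg]; simp

theorem galPhi_pow (g : hφ.field ≃ₐ[ℚ] hφ.field) (hg : hφ.galChi g = 1) (n : ℕ) :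
    hφ.galPhi (g ^ n) = n * hφ.galPhi g := by
  induction n with
  | zero => simp [galPhi_one]
  | succ n ih =>
    rw [pow_succ', galPhi_mul_of_left _ _ _ hg, ih]; push_cast; ring

theorem galPhi_conj (g h : hφ.field ≃ₐ[ℚ] hφ.field) (hh : hφ.galChi h = 1) :
    hφ.galPhi (g * h * g⁻¹) = (((hφ.galChi g)⁻¹ : (ZMod p)ˣ) : ZMod p) * hφ.galPhi h := by
  obtain ⟨σ, rfl⟩ := hφ.res_surjective g
  obtain ⟨τ, rfl⟩ := hφ.res_surjective h
  rw [galChi_res] at hh
  rw [← _root_.map_inv, ← _root_.map_mul, ← _root_.map_mul, galPhi_res, galPhi_res, galChi_res,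
    hφ.map_conj σ τ hh]

/-- Elements of `Gal(L/ℚ)` are determined by `χ` and `φ`. -/
theorem gal_ext {g h : hφ.field ≃ₐ[ℚ] hφ.field} (h1 : hφ.galChi g = hφ.galChi h)
    (h2 : hφ.galPhi g = hφ.galPhi h) : g = h := by
  have h3 : hφ.galChi (g⁻¹ * h) = 1 := by rw [_root_.map_mul, _root_.map_inv, h1, inv_mul_cancel]
  have h4 : hφ.galPhi (g * (g⁻¹ * h)) = hφ.galPhi g +
      (((hφ.galChi g)⁻¹ : (ZMod p)ˣ) : ZMod p) * hφ.galPhi (g⁻¹ * h) := galPhi_mul _ _ _
  rw [mul_inv_cancel_left, h2, left_eq_add] at h4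
  have h5 : hφ.galPhi (g⁻¹ * h) = 0 := by
    rcases mul_eq_zero.mp h4 with h | h
    · exact absurd h (Units.ne_zero _)
    · exact h
  have := hφ.eq_one_of_galChi_of_galPhi _ h3 h5
  rw [inv_mul_eq_one] at this
  exact this

/-- **Conjugation formula**: `Gal(L/ℚ)` acts on `Gal(L/K) = ker χ` through `χ⁻¹`. -/
theorem conj_eq_pow (g h : hφ.field ≃ₐ[ℚ] hφ.field) (hh : hφ.galChi h = 1) :
    g * h * g⁻¹ = h ^ (((hφ.galChi g)⁻¹ : (ZMod p)ˣ) : ZMod p).val := by
  have : NeZero p := ⟨(Fact.out : p.Prime).ne_zero⟩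
  apply hφ.gal_ext
  · rw [_root_.map_mul, _root_.map_mul, _root_.map_inv, hh, mul_one, mul_inv_cancel,
      _root_.map_pow, hh, one_pow]
  · rw [galPhi_conj _ _ _ hh, galPhi_pow _ _ hh, ZMod.natCast_val, ZMod.cast_id]

/-- `φ` as a homomorphism on `Gal(L/K) = ker χ ⊆ Gal(L/ℚ)`. -/
noncomputable def galPhiHom : hφ.galChi.ker →* Multiplicative (ZMod p) where
  toFun g := Multiplicative.ofAdd (hφ.galPhi g.1)
  map_one' := by simp [galPhi_one]
  map_mul' g h := by
    rw [← ofAdd_add]
    congr 1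
    exact hφ.galPhi_mul_of_left g.1 h.1 g.2

theorem galPhiHom_injective : Function.Injective hφ.galPhiHom := by
  rw [injective_iff_map_eq_one]
  intro g hg
  apply Subtype.ext
  exact hφ.eq_one_of_galChi_of_galPhi g.1 g.2 (by simpa [galPhiHom] using hg)

theorem galPhiHom_surjective (hnt : NonzeroOnKer p φ) : Function.Surjective hφ.galPhiHom := by
  have : NeZero p := ⟨(Fact.out : p.Prime).ne_zero⟩
  obtain ⟨τ, hτ1, hτ2⟩ := hnt
  have hmem : hφ.res τ ∈ hφ.galChi.ker := by rw [MonoidHom.mem_ker, galChi_res]; exact hτ1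
  intro y
  set a : ZMod p := Multiplicative.toAdd y with ha
  refine ⟨⟨hφ.res τ, hmem⟩ ^ (a * (φ τ)⁻¹).val, ?_⟩
  rw [_root_.map_pow]
  change Multiplicative.ofAdd (hφ.galPhi (hφ.res τ)) ^ (a * (φ τ)⁻¹).val = y
  rw [galPhi_res, ← ofAdd_nsmul, nsmul_eq_mul, ZMod.natCast_val, ZMod.cast_id, mul_assoc,
    inv_mul_cancel₀ hτ2, mul_one]
  rfl

theorem card_ker_galChi (hnt : NonzeroOnKer p φ) : Nat.card hφ.galChi.ker = p := by
  rw [Nat.card_congr (Equiv.ofBijective _ ⟨hφ.galPhiHom_injective, hφ.galPhiHom_surjective hnt⟩),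
    Nat.card_eq_fintype_card, Fintype.card_multiplicative, ZMod.card]

theorem galChi_surjective : Function.Surjective hφ.galChi := by
  intro u
  obtain ⟨σ, rfl⟩ := cycloChar_surjective p u
  exact ⟨hφ.res σ, hφ.galChi_res σ⟩

/-- Inertia at `ℓ ≠ p` dies in `Gal(L/ℚ)`. -/
theorem res_eq_one_of_mem_inertia {ℓ : ℕ} (hℓ : ℓ.Prime) (hℓp : ℓ ≠ p)
    {A : ValuationSubring Qbar} (hA : A.LiesOverPrime ℓ) {σ : GQ}
    (hσ : σ ∈ A.inertiaSubgroupIn ℚ) : hφ.res σ = 1 := by
  rw [← MonoidHom.mem_ker, res_ker]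
  exact hφ.unramified ℓ hℓ hℓp A hA σ hσ

/-- The part of a decomposition group above `p` that fixes `ℚ(ζ_p)` dies in `Gal(L/ℚ)`:
the primes above `p` split completely in `L/ℚ(ζ_p)`. -/
theorem res_eq_one_of_mem_decomposition {A : ValuationSubring Qbar} (hA : A.LiesOverPrime p)
    {σ : GQ} (hσ : σ ∈ A.decompositionSubgroup ℚ) (hχ : cycloChar p σ = 1) : hφ.res σ = 1 := by
  rw [← MonoidHom.mem_ker, res_ker]
  exact ⟨hχ, hφ.split_at_p A hA σ hσ hχ⟩

end IsUnramifiedCocycle

end CocycleField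

end Fermat.Agent.S14.H67
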