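import Mathlib
import Fermat.Agent.S14.H67_Fields

/-!
# S14, WP1c: glue between the Galois side (`H67_Fields`) and the number-field core

For `hφ : IsUnramifiedCocycle p φ`, `L := hφ.field` and `K := hφ.subK : IntermediateField ℚ L`
(`ℚ(ζ_p)` viewed inside `L`), so that all algebra/tower/Galois instances are Mathlib's canonical
ones. Provided: `NumberField` instances, `IsCyclotomicExtension {p} ℚ K`, `finrank K L = p`,
the TWIST `τ⁻¹ g τ = g ^ a` whenever `τ` raises `p`-th roots of unity to the `a`-th power, the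
group-theoretic form of "`L/K` is unramified" (`mem_kerSubgroup_of_mem_inertia`,
`inertia_fixes_field`), and the final glue
`extVanishingCts_of_nfCore_of_bridge : 3 ≤ p → NFCore p → RamificationBridge → ExtVanishingCts p`.
-/

set_option autoImplicit false

namespace Fermat.Agent.S14.H67

open ExtCitation Polynomial IntermediateField NumberField

local notation "GQ" => (AlgebraicClosure ℚ ≃ₐ[ℚ] AlgebraicClosure ℚ)
local notation "Qbar" => AlgebraicClosure ℚ

local instance isAlgebraicQb'' : Algebra.IsAlgebraic ℚ (AlgebraicClosure ℚ) :=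
  AlgebraicClosure.isAlgebraic ℚ
local instance isAlgClosureQb'' : IsAlgClosure ℚ (AlgebraicClosure ℚ) :=
  ⟨inferInstance, inferInstance⟩
local instance isGaloisQb'' : IsGalois ℚ (AlgebraicClosure ℚ) := IsSepClosure.isGalois

section Valuation

/-- Integral elements lie in every valuation subring. -/
theorem mem_of_isIntegral_int (A : ValuationSubring Qbar) {x : Qbar}
    (hx : IsIntegral ℤ x) : x ∈ A := by
  have h1 : IsIntegral A x := hx.tower_top
  obtain ⟨y, hy⟩ := (IsIntegrallyClosed.isIntegral_iff (R := A) (K := Qbar)).mp h1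
  rw [← hy]
  exact y.2

/-- A non-trivial valuation subring of `ℚ̄` lies over a rational prime. -/
theorem exists_liesOverPrime {A : ValuationSubring Qbar} (hA : A ≠ ⊤) :
    ∃ ℓ : ℕ, ℓ.Prime ∧ A.LiesOverPrime ℓ := by
  by_contra hcon
  push Not at hcon
  apply hA
  have hnat : ∀ n : ℕ, n ≠ 0 → A.valuation (n : Qbar) = 1 := by
    intro n
    induction n using Nat.recOnMul with
    | zero => intro h; exact absurd rfl h
    | one => intro _; simp
    | prime ℓ hℓ =>
      intro _
      have hint : IsIntegral ℤ ((ℓ : ℕ) : Qbar) := by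
        have := isIntegral_algebraMap (R := ℤ) (A := Qbar) (x := (ℓ : ℤ))
        simpa using this
      have h1 : A.valuation (ℓ : Qbar) ≤ 1 :=
        (A.valuation_le_one_iff _).mpr (mem_of_isIntegral_int A hint)
      have h2 : ¬ A.valuation (ℓ : Qbar) < 1 := by
        intro h
        exact hcon ℓ hℓ (A.mem_nonunits_iff.mpr h)
      exact le_antisymm h1 (not_lt.mp h2)
    | mul a b iha ihb =>
      intro hab
      have ha : a ≠ 0 := fun h => hab (by rw [h, zero_mul])
      have hb : b ≠ 0 := fun h => hab (by rw [h, mul_zero])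
      rw [Nat.cast_mul, map_mul, iha ha, ihb hb, one_mul]
  rw [eq_top_iff]
  intro x _
  have hxalg : IsAlgebraic ℤ x :=
    (IsFractionRing.isAlgebraic_iff ℤ ℚ Qbar).mpr (Algebra.IsAlgebraic.isAlgebraic x)
  obtain ⟨y, hy, hint⟩ := hxalg.exists_integral_multiple
  set w : Qbar := y • x with hyx
  have hw : (w : Qbar) ∈ A := mem_of_isIntegral_int A hint
  have hyv : A.valuation ((y : ℤ) : Qbar) = 1 := by
    have h := hnat y.natAbs (Int.natAbs_ne_zero.mpr hy)
    rcases Int.natAbs_eq y with h' | h'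
    · rw [h']; simpa using h
    · rw [h']; simpa using h
  have hy0 : ((y : ℤ) : Qbar) ≠ 0 := by exact_mod_cast hy
  have hx : x = ((y : ℤ) : Qbar)⁻¹ * (w : Qbar) := by
    rw [hyx, zsmul_eq_mul]
    field_simp
  rw [hx]
  refine A.mul_mem _ _ ?_ hw
  apply (A.valuation_le_one_iff _).mp
  rw [map_inv₀, hyv, inv_one]

/-- Elements of an inertia group lie in the decomposition group. -/
theorem mem_decomposition_of_mem_inertia {A : ValuationSubring Qbar} {σ : GQ}
    (hσ : σ ∈ A.inertiaSubgroupIn ℚ) : σ ∈ A.decompositionSubgroup ℚ := by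
  obtain ⟨τ, -, rfl⟩ := hσ
  exact τ.2

/-- Elements of the inertia group act trivially modulo the maximal ideal. -/
theorem valuation_map_sub_lt_one_of_mem_inertia {A : ValuationSubring Qbar}
    {σ : GQ} (hσ : σ ∈ A.inertiaSubgroupIn ℚ) {x : Qbar} (hx : x ∈ A) :
    A.valuation (σ x - x) < 1 := by
  obtain ⟨τ, hτ, rfl⟩ := hσ
  have hker : MulSemiringAction.toRingAut (A.decompositionSubgroup ℚ)
      (IsLocalRing.ResidueField A) τ = 1 := hτ
  have h1 : τ • (IsLocalRing.residue A ⟨x, hx⟩) = IsLocalRing.residue A ⟨x, hx⟩ := by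
    have := congrArg (fun e : RingAut (IsLocalRing.ResidueField A) =>
      e (IsLocalRing.residue A ⟨x, hx⟩)) hker
    simpa using this
  rw [← IsLocalRing.ResidueField.residue_smul] at h1
  have h2 : IsLocalRing.residue A (τ • (⟨x, hx⟩ : A) - ⟨x, hx⟩) = 0 := by
    rw [map_sub, h1, sub_self]
  rw [IsLocalRing.residue_eq_zero_iff, ValuationSubring.valuation_lt_one_iff] at h2
  exact h2

/-- The inertia group of the trivial valuation subring is trivial. -/
theorem eq_one_of_mem_inertia_top {σ : GQ}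
    (hσ : σ ∈ (⊤ : ValuationSubring Qbar).inertiaSubgroupIn ℚ) : σ = 1 := by
  ext x
  have h := valuation_map_sub_lt_one_of_mem_inertia hσ (x := x) trivial
  by_contra hne
  have hy : σ x - x ≠ 0 := sub_ne_zero.mpr hne
  have h1 : (⊤ : ValuationSubring Qbar).valuation ((σ x - x)⁻¹) ≤ 1 :=
    ((⊤ : ValuationSubring Qbar).valuation_le_one_iff _).mpr trivial
  rw [map_inv₀] at h1
  have h0 : (⊤ : ValuationSubring Qbar).valuation (σ x - x) ≠ 0 := by
    rw [Ne, Valuation.zero_iff]; exact hy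
  have h2 : 1 ≤ (⊤ : ValuationSubring Qbar).valuation (σ x - x) := by
    have := (inv_le_one₀ (zero_lt_iff.mpr h0)).mp h1
    exact this
  exact absurd h (not_lt.mpr h2)

end Valuation

variable {p : ℕ} [Fact p.Prime]

namespace IsUnramifiedCocycle

variable {φ : GQ → ZMod p} (hφ : IsUnramifiedCocycle p φ)

instance numberField_field : NumberField hφ.field where
  to_charZero := inferInstance
  to_finiteDimensional := hφ.finiteDimensional_field

/-- `K = ℚ(ζ_p)` viewed inside `L`: the fixed field of `ker galChi ⊆ Gal(L/ℚ)`. -/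
noncomputable def subK : IntermediateField ℚ hφ.field :=
  IntermediateField.fixedField hφ.galChi.ker

theorem mem_subK (x : hφ.field) : x ∈ hφ.subK ↔ (x : Qbar) ∈ cycloField p := by
  unfold subK cycloField
  rw [IntermediateField.mem_fixedField_iff, IntermediateField.mem_fixedField_iff]
  constructor
  · intro h σ hσ
    have hmem : hφ.res σ ∈ hφ.galChi.ker := by
      rw [MonoidHom.mem_ker, galChi_res]; exact hσ
    have := h (hφ.res σ) hmem
    have h2 := congrArg Subtype.val this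
    rw [res_apply] at h2
    exact h2
  · intro h g hg
    obtain ⟨σ, rfl⟩ := hφ.res_surjective g
    rw [MonoidHom.mem_ker, galChi_res] at hg
    apply Subtype.ext
    rw [res_apply]
    exact h σ hg

theorem fixingSubgroup_subK : hφ.subK.fixingSubgroup = hφ.galChi.ker := by
  unfold subK
  exact IntermediateField.fixingSubgroup_fixedField _

theorem finrank_subK (hnt : NonzeroOnKer p φ) : Module.finrank hφ.subK hφ.field = p := by
  rw [← IsGalois.card_fixingSubgroup_eq_finrank, fixingSubgroup_subK, hφ.card_ker_galChi hnt]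

/-- The embedding `K → ℚ̄` as a `ℚ`-algebra map. -/
noncomputable def subKEmb : hφ.subK →ₐ[ℚ] Qbar :=
  (IsScalarTower.toAlgHom ℚ hφ.field Qbar).comp (IsScalarTower.toAlgHom ℚ hφ.subK hφ.field)

theorem subKEmb_apply (x : hφ.subK) : hφ.subKEmb x = ((x : hφ.field) : Qbar) := rfl

theorem subKEmb_injective : Function.Injective hφ.subKEmb := hφ.subKEmb.injective

theorem exists_primitiveRoot_subK : ∃ ζ : hφ.subK, IsPrimitiveRoot ζ p := by
  obtain ⟨ζ, hζ⟩ := exists_primitiveRoot p
  have hζK : ζ ∈ cycloField p := mem_cycloField_of_primitiveRoot hζ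
  refine ⟨⟨⟨ζ, hφ.cycloField_le_field hζK⟩, (hφ.mem_subK _).mpr hζK⟩, ?_⟩
  exact IsPrimitiveRoot.of_map_of_injective (f := hφ.subKEmb) hζ hφ.subKEmb_injective

instance isCyclotomicExtension_subK : IsCyclotomicExtension {p} ℚ hφ.subK := by
  have hp : p.Prime := Fact.out
  have : NeZero p := ⟨hp.ne_zero⟩
  obtain ⟨ζK, hζK⟩ := hφ.exists_primitiveRoot_subK
  rw [IsCyclotomicExtension.iff_singleton]
  refine ⟨⟨ζK, hζK⟩, fun x => ?_⟩
  -- the image of `x` lies in `ℚ(ζ) = ℚ[ζ]`
  set ζ : Qbar := hφ.subKEmb ζK with hζdef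
  have hζ : IsPrimitiveRoot ζ p := hζK.map_of_injective hφ.subKEmb_injective
  have hx : hφ.subKEmb x ∈ cycloField p := (hφ.mem_subK _).mp x.2
  rw [cycloField_eq_adjoin hζ, ← IntermediateField.mem_toSubalgebra,
    IntermediateField.adjoin_simple_toSubalgebra_of_isAlgebraic
      (Algebra.IsAlgebraic.isAlgebraic ζ)] at hx
  have himg : Algebra.adjoin ℚ ({ζ} : Set Qbar) =
      (Algebra.adjoin ℚ ({ζK} : Set hφ.subK)).map hφ.subKEmb := by
    rw [AlgHom.map_adjoin, Set.image_singleton]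
  rw [himg] at hx
  obtain ⟨y, hy, hyx⟩ := hx
  have hyx' : y = x := hφ.subKEmb_injective hyx
  rw [← hyx']
  refine Algebra.adjoin_mono ?_ hy
  rintro b rfl
  exact hζK.pow_eq_one

/-- If `τ ∈ Gal(L/ℚ)` raises the `p`-th roots of unity of `L` to the `a`-th power then
`χ(τ) = a`. -/
theorem galChi_eq_natCast (τ : hφ.field ≃ₐ[ℚ] hφ.field) (a : ℕ)
    (ha : ∀ ξ : hφ.field, ξ ^ p = 1 → τ ξ = ξ ^ a) :
    ((hφ.galChi τ : (ZMod p)ˣ) : ZMod p) = (a : ZMod p) := by
  have hp : p.Prime := Fact.out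
  have : NeZero p := ⟨hp.ne_zero⟩
  obtain ⟨σ, rfl⟩ := hφ.res_surjective τ
  rw [galChi_res]
  obtain ⟨ζ, hζ⟩ := exists_primitiveRoot p
  have hζK : ζ ∈ cycloField p := mem_cycloField_of_primitiveRoot hζ
  have h1 := ha ⟨ζ, hφ.cycloField_le_field hζK⟩ (Subtype.ext (by simpa using hζ.pow_eq_one))
  have h2 := congrArg Subtype.val h1
  rw [res_apply] at h2
  refine cycloChar_eq_of_primitive p σ hζ ?_
  rw [h2, ZMod.val_natCast]
  simp only [SubmonoidClass.coe_pow]
  conv_lhs => rw [← Nat.mod_add_div a p, pow_add, pow_mul, hζ.pow_eq_one, one_pow, mul_one]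

theorem pow_p_eq_one (g : hφ.field ≃ₐ[ℚ] hφ.field) (hg : hφ.galChi g = 1) : g ^ p = 1 := by
  apply hφ.gal_ext
  · rw [_root_.map_pow, hg, one_pow, _root_.map_one]
  · rw [galPhi_pow _ _ hg, galPhi_one, ZMod.natCast_self, zero_mul]

/-- **TWIST**, in the shape consumed by the number-field core (helper26 `nf_core.hconj`). -/
theorem twist (τ : hφ.field ≃ₐ[ℚ] hφ.field) (g : hφ.field ≃ₐ[hφ.subK] hφ.field) (a : ℕ)
    (ha : ∀ ξ : hφ.field, ξ ^ p = 1 → τ ξ = ξ ^ a) (x : hφ.field) :
    τ.symm (g (τ x)) = (g ^ a) x := by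
  have hp : p.Prime := Fact.out
  have : NeZero p := ⟨hp.ne_zero⟩
  set g' : hφ.field ≃ₐ[ℚ] hφ.field := AlgEquiv.restrictScalarsHom ℚ g with hg'
  have hg'1 : hφ.galChi g' = 1 := by
    rw [galChi_eq_one_iff]
    intro y hy
    have hy' : y ∈ hφ.subK := (hφ.mem_subK y).mpr hy
    exact g.commutes ⟨y, hy'⟩
  have hconj := hφ.conj_eq_pow τ⁻¹ g' hg'1
  rw [inv_inv, _root_.map_inv, inv_inv] at hconj
  have hval : (((hφ.galChi τ : (ZMod p)ˣ) : ZMod p)).val = a % p := by
    rw [hφ.galChi_eq_natCast τ a ha, ZMod.val_natCast]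
  have hpow : g' ^ (a % p) = g' ^ a := by
    conv_rhs => rw [← Nat.mod_add_div a p, pow_add, pow_mul, hφ.pow_p_eq_one g' hg'1, one_pow,
      mul_one]
  rw [hval, hpow] at hconj
  have h1 : (τ⁻¹ * g' * τ) x = τ.symm (g (τ x)) := rfl
  have h2 : (g' ^ a) x = (g ^ a) x := by
    rw [hg', ← _root_.map_pow]
    rfl
  rw [← h1, hconj, h2]

/-- **Unramifiedness of `L/K` in group form.** For every valuation subring `A` of `ℚ̄`, an element
of the inertia group of `A` that fixes `ℚ(ζ_p)` fixes `L`. -/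
theorem mem_kerSubgroup_of_mem_inertia (A : ValuationSubring Qbar) {σ : GQ}
    (hσ : σ ∈ A.inertiaSubgroupIn ℚ) (hχ : cycloChar p σ = 1) : σ ∈ hφ.kerSubgroup := by
  by_cases hA : A = ⊤
  · subst hA
    rw [eq_one_of_mem_inertia_top hσ]
    exact hφ.kerSubgroup.one_mem
  · obtain ⟨ℓ, hℓ, hAℓ⟩ := exists_liesOverPrime hA
    by_cases hℓp : ℓ = p
    · subst hℓp
      exact ⟨hχ, hφ.split_at_p A hAℓ σ (mem_decomposition_of_mem_inertia hσ) hχ⟩
    · exact hφ.unramified ℓ hℓ hℓp A hAℓ σ hσ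


/-- The hypothesis of the ramification bridge (WP1b) holds for `K = hφ.subK ⊆ L = hφ.field`:
an inertia element of `G_ℚ` fixing (the image of) `K` fixes `L`. -/
theorem inertia_fixes_field (A : ValuationSubring Qbar) {σ : GQ}
    (hσ : σ ∈ A.inertiaSubgroupIn ℚ)
    (hK : ∀ k : hφ.subK, σ (((k : hφ.field)) : Qbar) = (((k : hφ.field)) : Qbar)) :
    ∀ x ∈ hφ.field, σ x = x := by
  have hχ : cycloChar p σ = 1 := by
    rw [← MonoidHom.mem_ker, ← fixingSubgroup_cycloField,
      IntermediateField.mem_fixingSubgroup_iff]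
    intro x hx
    exact hK ⟨⟨x, hφ.cycloField_le_field hx⟩, (hφ.mem_subK _).mpr hx⟩
  have hmem := hφ.mem_kerSubgroup_of_mem_inertia A hσ hχ
  rw [← hφ.fixingSubgroup_field, IntermediateField.mem_fixingSubgroup_iff] at hmem
  exact hmem

end IsUnramifiedCocycle

/-- **The number-field core** (output shape of WP7): no cyclic degree `p` extension `L` of
`K = ℚ(ζ_p)`, unramified at all finite primes, Galois over `ℚ`, with `Gal(K/ℚ)` acting on
`Gal(L/K)` through `χ⁻¹`. -/
def NFCore (p : ℕ) [Fact p.Prime] : Prop :=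
  ∀ (K L : Type) [Field K] [NumberField K] [Field L] [NumberField L] [Algebra K L]
    [IsCyclotomicExtension {p} ℚ K] [IsGalois K L] [IsGalois ℚ L],
    Module.finrank K L = p →
    (∀ (P : Ideal (𝓞 L)) [P.IsPrime], P ≠ ⊥ → P.ramificationIdx (𝓞 K) = 1) →
    (∀ (τ : L ≃ₐ[ℚ] L) (g : L ≃ₐ[K] L) (a : ℕ), (∀ ξ : L, ξ ^ p = 1 → τ ξ = ξ ^ a) →
      ∀ x : L, τ.symm (g (τ x)) = (g ^ a) x) → False

/-- **The ramification bridge** (output shape of WP1b), for an abstract presentation of the base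
field. -/
def RamificationBridge : Prop :=
  ∀ (L : IntermediateField ℚ Qbar) [NumberField L] [IsGalois ℚ L]
    (K : Type) [Field K] [NumberField K] [Algebra K L] [IsGalois K L],
    (∀ A : ValuationSubring Qbar, ∀ σ ∈ A.inertiaSubgroupIn ℚ,
      (∀ k : K, σ ((algebraMap K L k : L) : Qbar) = ((algebraMap K L k : L) : Qbar)) →
      ∀ x ∈ L, σ x = x) →
    ∀ (P : Ideal (𝓞 L)) [P.IsPrime], P ≠ ⊥ → P.ramificationIdx (𝓞 K) = 1

/-- **CORE from the number-field core and the unramifiedness of `L/K`.** -/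
theorem core_of_nfCore_of_unr (hnf : NFCore p)
    (hunr : ∀ (φ : GQ → ZMod p) (hφ : IsUnramifiedCocycle p φ), NonzeroOnKer p φ →
      ∀ (P : Ideal (𝓞 hφ.field)) [P.IsPrime], P ≠ ⊥ → P.ramificationIdx (𝓞 hφ.subK) = 1)
    (φ : GQ → ZMod p) (hφ : IsUnramifiedCocycle p φ) (τ : GQ) (hτ : cycloChar p τ = 1) :
    φ τ = 0 := by
  by_contra hne
  have hnt : NonzeroOnKer p φ := ⟨τ, hτ, hne⟩
  exact hnf hφ.subK hφ.field (hφ.finrank_subK hnt) (fun P _ hP => hunr φ hφ hnt P hP)
    (fun τ g a ha x => hφ.twist τ g a ha x)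

/-- **CORE from the number-field core and the ramification bridge.** -/
theorem core_of_nfCore_of_bridge (hnf : NFCore p) (hbr : RamificationBridge)
    (φ : GQ → ZMod p) (hφ : IsUnramifiedCocycle p φ) (τ : GQ) (hτ : cycloChar p τ = 1) :
    φ τ = 0 := by
  refine core_of_nfCore_of_unr hnf ?_ φ hφ τ hτ
  intro φ hφ _ P _ hP
  exact hbr hφ.field hφ.subK (fun A σ hσ hK => hφ.inertia_fixes_field A hσ hK) P hP

/-- **S14 from the number-field core and the ramification bridge.** -/
theorem extVanishingCts_of_nfCore_of_bridge (h3 : 3 ≤ p) (hnf : NFCore p)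
    (hbr : RamificationBridge) : ExtVanishingCts p :=
  extVanishingCts_of_core h3 (core_of_nfCore_of_bridge hnf hbr)

end Fermat.Agent.S14.H67
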