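import Mathlib
import Fermat.Agent.S14.H54_Dict

/-!
# S14 / WP1b : lifting inertia from a finite level to the absolute Galois group

For an intermediate field `L` of `Qbar/ℚ` the closed subgroup `L.fixingSubgroup` of `GQ` acts on
`Zbar` with invariants `ZL L = Zbar ∩ L`.  Mathlib's profinite invariant theory then gives
transitivity on primes and surjectivity onto residue automorphisms, from which we deduce the
inertia lifting lemma `exists_mul_mem_inertia`.
-/

set_option autoImplicit false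
set_option linter.style.haveILetI false

namespace Fermat.Agent.S14.H54

open Fermat.Agent.S54
open scoped Pointwise

attribute [local instance] isAlgebraic_Qbar isAlgClosure_Qbar isGalois_Qbar

variable (L : IntermediateField ℚ Qbar)

/-- The algebraic integers lying in `L`, as a subalgebra of `Zbar`. -/
noncomputable def ZL : Subalgebra ℤ Zbar := (L.toSubalgebra.restrictScalars ℤ).comap Zbar.val

theorem mem_ZL {b : Zbar} : b ∈ ZL L ↔ (b : Qbar) ∈ L := Iff.rfl

theorem smul_eq_of_mem_fixingSubgroup {σ : GQ} (hσ : σ ∈ L.fixingSubgroup) {b : Zbar}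
    (hb : b ∈ ZL L) : σ • b = b := by
  apply Subtype.ext
  rw [coe_smul_Zbar]
  exact (IntermediateField.mem_fixingSubgroup_iff L σ).mp hσ _ hb

instance smulCommClass_ZL : SMulCommClass ↥(L.fixingSubgroup) ↥(ZL L) Zbar where
  smul_comm h a b := by
    change (h : GQ) • ((a : Zbar) * b) = (a : Zbar) * ((h : GQ) • b)
    rw [smul_mul', smul_eq_of_mem_fixingSubgroup L h.2 a.2]

instance isInvariant_ZL : Algebra.IsInvariant ↥(ZL L) Zbar ↥(L.fixingSubgroup) where
  isInvariant b hb := by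
    have h1 : (b : Qbar) ∈ IntermediateField.fixedField L.fixingSubgroup := by
      rw [IntermediateField.mem_fixedField_iff]
      intro f hf
      have := congrArg Subtype.val (hb ⟨f, hf⟩)
      exact this
    rw [InfiniteGalois.fixedField_fixingSubgroup] at h1
    exact ⟨⟨b, h1⟩, rfl⟩

instance compactSpace_fixingSubgroup : CompactSpace ↥(L.fixingSubgroup) :=
  isCompact_iff_compactSpace.mp (InfiniteGalois.fixingSubgroup_isClosed L).isCompact

theorem continuousSMul_fixingSubgroup [TopologicalSpace Zbar] [DiscreteTopology Zbar] :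
    ContinuousSMul ↥(L.fixingSubgroup) Zbar := by
  haveI := continuousSMul_Zbar
  infer_instance


theorem coe_inv_smul (h : ↥(L.fixingSubgroup)) (x : Zbar) : h⁻¹ • x = (h : GQ)⁻¹ • x := rfl

theorem coe_smul' (h : ↥(L.fixingSubgroup)) (x : Zbar) : h • x = (h : GQ) • x := rfl

/-- **Inertia lifting.**  Let `A` be a valuation subring of `Qbar` above the prime `ℓ`, and let
`σ₀ ∈ GQ` preserve the intermediate field `L` and act trivially on `(Zbar ∩ L)` modulo the prime
of `A`.  Then `σ₀` can be corrected by an element fixing `L` pointwise to an element of the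
inertia group of `A`. -/
theorem exists_mul_mem_inertia {A : ValuationSubring Qbar} {ℓ : ℕ} (hℓ : ℓ.Prime)
    (hA : A.LiesOverPrime ℓ) (σ₀ : GQ) (hσL : ∀ x ∈ L, σ₀ x ∈ L) (hσL' : ∀ x ∈ L, σ₀⁻¹ x ∈ L)
    (hin : ∀ b : Zbar, b ∈ ZL L → σ₀ • b - b ∈ idealOf A) :
    ∃ h ∈ L.fixingSubgroup, h * σ₀ ∈ A.inertiaSubgroupIn ℚ := by
  classical
  letI : TopologicalSpace Zbar := ⊥
  haveI : DiscreteTopology Zbar := ⟨rfl⟩
  haveI := continuousSMul_fixingSubgroup L
  haveI hQmax := idealOf_isMaximal hℓ hA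
  -- Step 1: `σ₀ • Q` and `Q` have the same contraction to `ZL L`.
  have hinv_mem : ∀ b : Zbar, b ∈ ZL L → σ₀⁻¹ • b ∈ ZL L := fun b hb => hσL' _ hb
  have hunder : (σ₀ • idealOf A).under (ZL L) = (idealOf A).under (ZL L) := by
    ext x
    rw [Ideal.under_def, Ideal.under_def, Ideal.mem_comap, Ideal.mem_comap,
      Ideal.mem_pointwise_smul_iff_inv_smul_mem]
    have hx : (algebraMap (ZL L) Zbar x) ∈ ZL L := x.2
    set b : Zbar := algebraMap (ZL L) Zbar x with hb
    have h1 := hin (σ₀⁻¹ • b) (hinv_mem b hx)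
    rw [smul_inv_smul] at h1
    constructor
    · intro h2
      have := (idealOf A).add_mem h1 h2
      simpa using this
    · intro h2
      have := (idealOf A).sub_mem h2 h1
      simpa using this
  obtain ⟨h, hh⟩ := Algebra.IsInvariant.exists_smul_of_under_eq_of_profinite
    (A := ZL L) (G := ↥(L.fixingSubgroup)) (σ₀ • idealOf A) (idealOf A) hunder
  -- `σ₁ = h σ₀` stabilizes `Q`
  set σ₁ : GQ := (h : GQ) * σ₀ with hσ₁
  have hh2 : σ₁ • idealOf A = idealOf A := by
    ext x
    conv_rhs => rw [hh]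
    rw [Ideal.mem_pointwise_smul_iff_inv_smul_mem, Ideal.mem_pointwise_smul_iff_inv_smul_mem,
      Ideal.mem_pointwise_smul_iff_inv_smul_mem, hσ₁, mul_inv_rev, mul_smul, coe_inv_smul]
  have hin₁ : ∀ b : Zbar, b ∈ ZL L → σ₁ • b - b ∈ idealOf A := by
    intro b hb
    have h2 : σ₁ • b = σ₀ • b := by
      rw [hσ₁, mul_smul]
      exact smul_eq_of_mem_fixingSubgroup L h.2 (hσL _ hb)
    rw [h2]
    exact hin b hb
  have hstab₁ : σ₁ ∈ MulAction.stabilizer GQ (idealOf A) := by
    rw [MulAction.mem_stabilizer_iff]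
    exact hh2
  -- Step 2: the induced automorphism of the residue field fixes the image of `ZL L`.
  let P : Ideal ↥(ZL L) := (idealOf A).under (ZL L)
  let ψ := Ideal.Quotient.stabilizerHom (idealOf A) ((idealOf A).under ℤ) GQ ⟨σ₁, hstab₁⟩
  have hψ : ∀ b : Zbar, ψ (Ideal.Quotient.mk (idealOf A) b)
      = Ideal.Quotient.mk (idealOf A) (σ₁ • b) := fun b => rfl
  let φ : (Zbar ⧸ idealOf A) ≃ₐ[↥(ZL L) ⧸ P] (Zbar ⧸ idealOf A) :=
    AlgEquiv.ofRingEquiv (f := ψ.toRingEquiv) (by
      intro x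
      obtain ⟨r, rfl⟩ := Ideal.Quotient.mk_surjective x
      have h3 : algebraMap (↥(ZL L) ⧸ P) (Zbar ⧸ idealOf A) (Ideal.Quotient.mk P r)
          = Ideal.Quotient.mk (idealOf A) (r : Zbar) :=
        Ideal.Quotient.algebraMap_mk_of_liesOver (idealOf A) P r
      rw [h3]
      change ψ (Ideal.Quotient.mk (idealOf A) (r : Zbar)) = _
      rw [hψ, Ideal.Quotient.eq]
      exact hin₁ _ r.2)
  obtain ⟨⟨h', hh'⟩, hφ⟩ := Ideal.Quotient.stabilizerHom_surjective_of_profinite
    (G := ↥(L.fixingSubgroup)) P (idealOf A) φ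
  have hcong : ∀ b : Zbar, σ₁ • b - (h' : GQ) • b ∈ idealOf A := by
    intro b
    have h4 := congrArg (fun f => f (Ideal.Quotient.mk (idealOf A) b)) hφ
    simp only [Ideal.Quotient.stabilizerHom_apply] at h4
    have h5 : φ (Ideal.Quotient.mk (idealOf A) b) = Ideal.Quotient.mk (idealOf A) (σ₁ • b) :=
      hψ b
    rw [h5] at h4
    rw [← Ideal.Quotient.eq]
    exact h4.symm
  have hh'Q : (h' : GQ) • idealOf A = idealOf A := by
    ext x
    conv_rhs => rw [← MulAction.mem_stabilizer_iff.mp hh']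
    rw [Ideal.mem_pointwise_smul_iff_inv_smul_mem, Ideal.mem_pointwise_smul_iff_inv_smul_mem,
      coe_inv_smul]
  -- Step 3: `σ₂ = h'⁻¹ σ₁` lies in the inertia group.
  refine ⟨(h' : GQ)⁻¹ * (h : GQ), L.fixingSubgroup.mul_mem (L.fixingSubgroup.inv_mem h'.2) h.2, ?_⟩
  have hσ₂ : (h' : GQ)⁻¹ * (h : GQ) * σ₀ = (h' : GQ)⁻¹ * σ₁ := by
    rw [hσ₁, mul_assoc]
  rw [hσ₂]
  have hstab₂ : ((h' : GQ)⁻¹ * σ₁) • idealOf A = idealOf A := by
    rw [mul_smul, MulAction.mem_stabilizer_iff.mp hstab₁, inv_smul_eq_iff, hh'Q]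
  refine mem_inertiaSubgroupIn_of_idealOf hℓ hA _ ?_ ?_
  · intro b
    constructor
    · intro hb
      have := (Ideal.smul_mem_pointwise_smul_iff (a := (h' : GQ)⁻¹ * σ₁) (S := idealOf A)
        (x := b))
      rw [hstab₂] at this
      exact this.mp hb
    · intro hb
      have := (Ideal.smul_mem_pointwise_smul_iff (a := (h' : GQ)⁻¹ * σ₁) (S := idealOf A)
        (x := b))
      rw [hstab₂] at this
      exact this.mpr hb
  · intro b
    have h6 : ((h' : GQ)⁻¹ * σ₁) • b - b = (h' : GQ)⁻¹ • (σ₁ • b - (h' : GQ) • b) := by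
      rw [smul_sub, inv_smul_smul, mul_smul]
    rw [h6]
    have h7 : (h' : GQ)⁻¹ • idealOf A = idealOf A := by
      rw [inv_smul_eq_iff, hh'Q]
    have := (Ideal.smul_mem_pointwise_smul_iff (a := (h' : GQ)⁻¹) (S := idealOf A)
        (x := σ₁ • b - (h' : GQ) • b)).mpr (hcong b)
    rwa [h7] at this

end Fermat.Agent.S14.H54
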