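import Mathlib
import Fermat.Agent.S14.H54_Lift

/-!
# S14 / WP1b : from inertia in `GQ` to ramification indices in number fields

`K ⊆ L` are number fields, `L/K` Galois, and `ι : L →ₐ[ℚ] Qbar` an embedding.  If every element of
every inertia group `A.inertiaSubgroupIn ℚ` (in the sense of the frozen prelude) which fixes
`ι K` pointwise also fixes `ι L` pointwise, then `L/K` is unramified at every nonzero prime.
-/

set_option autoImplicit false
set_option linter.style.haveILetI false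

namespace Fermat.Agent.S14.H54

open Fermat.Agent.S54 NumberField
open scoped Pointwise

attribute [local instance] isAlgebraic_Qbar isAlgClosure_Qbar isGalois_Qbar

section Embedding

variable {L : Type} [Field L] [NumberField L] (ι : L →ₐ[ℚ] Qbar)

/-- The ring homomorphism `𝓞 L → Zbar` induced by an embedding `L → Qbar`. -/
noncomputable def toZbar : 𝓞 L →+* Zbar where
  toFun x := ⟨ι (x : L), map_isIntegral_int ι (RingOfIntegers.isIntegral_coe x)⟩
  map_one' := by
    apply Subtype.ext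
    simp
  map_mul' x y := by
    apply Subtype.ext
    simp
  map_zero' := by
    apply Subtype.ext
    simp
  map_add' x y := by
    apply Subtype.ext
    simp

@[simp] theorem coe_toZbar (x : 𝓞 L) : ((toZbar ι x : Zbar) : Qbar) = ι (x : L) := rfl

theorem toZbar_injective : Function.Injective (toZbar ι) := by
  intro x y h
  have h1 := congrArg (Subtype.val) h
  simp only [coe_toZbar] at h1
  exact RingOfIntegers.ext (ι.injective h1)

theorem toZbar_mem_ZL (x : 𝓞 L) : toZbar ι x ∈ ZL ι.fieldRange := by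
  rw [mem_ZL, coe_toZbar]
  exact ⟨_, rfl⟩

theorem exists_toZbar_eq {b : Zbar} (hb : b ∈ ZL ι.fieldRange) : ∃ x : 𝓞 L, toZbar ι x = b := by
  rw [mem_ZL] at hb
  obtain ⟨y, hy⟩ := hb
  have hint : IsIntegral ℤ y := by
    have h1 : IsIntegral ℤ (ι y) := by
      have : ι y = (b : Qbar) := hy
      rw [this]; exact b.2
    exact (isIntegral_algHom_iff (ι.restrictScalars ℤ) ι.injective).mp h1
  refine ⟨⟨y, hint⟩, ?_⟩
  apply Subtype.ext
  exact hy

/-- Every nonzero prime of `𝓞 L` is cut out by a valuation subring of `Qbar`. -/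
theorem exists_valuationSubring_comap (P : Ideal (𝓞 L)) [P.IsPrime] (hP : P ≠ ⊥) :
    ∃ A : ValuationSubring Qbar, (idealOf A).comap (toZbar ι) = P := by
  haveI : P.IsMaximal := Ring.DimensionLEOne.maximalOfPrime hP inferInstance
  letI : Algebra (𝓞 L) Zbar := (toZbar ι).toAlgebra
  haveI : Algebra.IsIntegral (𝓞 L) Zbar := ⟨fun b => (Algebra.IsIntegral.isIntegral (R := ℤ) b).tower_top⟩
  have hker : RingHom.ker (algebraMap (𝓞 L) Zbar) ≤ P := by
    have : RingHom.ker (algebraMap (𝓞 L) Zbar) = ⊥ :=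
      (RingHom.injective_iff_ker_eq_bot _).mp (toZbar_injective ι)
    rw [this]
    exact bot_le
  obtain ⟨Q, hQmax, hQP⟩ := Ideal.exists_ideal_over_maximal_of_isIntegral P hker
  obtain ⟨A, hA⟩ := exists_valuationSubring_of_isMaximal Q
  exact ⟨A, by rw [hA]; exact hQP⟩

theorem ne_top_of_comap_ne_bot {A : ValuationSubring Qbar}
    (h : (idealOf A).comap (toZbar ι) ≠ ⊥) : A ≠ ⊤ := by
  rintro rfl
  apply h
  rw [eq_bot_iff]
  intro x hx
  rw [Ideal.mem_comap, mem_idealOf, ValuationSubring.mem_nonunits_iff] at hx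
  have h0 : ι (x : L) = 0 := by
    by_contra hne
    have : (⊤ : ValuationSubring Qbar).valuation (ι (x : L)) = 1 := by
      have h1 : (⊤ : ValuationSubring Qbar).valuation (ι (x : L)) ≤ 1 :=
        (ValuationSubring.valuation_le_one_iff _ _).mpr trivial
      have h2 : (⊤ : ValuationSubring Qbar).valuation (ι (x : L))⁻¹ ≤ 1 :=
        (ValuationSubring.valuation_le_one_iff _ _).mpr trivial
      rw [map_inv₀] at h2
      have hpos : (⊤ : ValuationSubring Qbar).valuation (ι (x : L)) ≠ 0 :=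
        (Valuation.ne_zero_iff _).mpr hne
      have h3 : 1 ≤ (⊤ : ValuationSubring Qbar).valuation (ι (x : L)) := by
        rwa [inv_le_one₀ (zero_lt_iff.mpr hpos)] at h2
      exact le_antisymm h1 h3
    rw [coe_toZbar, this] at hx
    exact lt_irrefl _ hx
  have h1 : (x : L) = 0 := (map_eq_zero_iff ι ι.injective).mp h0
  rw [Ideal.mem_bot]
  exact RingOfIntegers.ext (by simpa using h1)

end Embedding


section Main

variable {K L : Type} [Field K] [Field L] [NumberField K] [NumberField L] [Algebra K L]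
  (ι : L →ₐ[ℚ] Qbar)

/-- Every `K`-automorphism of `L` extends to an element of `GQ`. -/
theorem exists_lift (g : L ≃ₐ[K] L) : ∃ σ : GQ, ∀ y : L, σ (ι y) = ι (g y) := by
  letI : Algebra L Qbar := ι.toRingHom.toAlgebra
  haveI : IsScalarTower ℚ L Qbar := IsScalarTower.of_algebraMap_eq (fun q => (ι.commutes q).symm)
  haveI : Normal ℚ Qbar := IsGalois.to_normal
  refine ⟨(g.restrictScalars ℚ).liftNormal Qbar, fun y => ?_⟩
  exact AlgEquiv.liftNormal_commutes (g.restrictScalars ℚ) Qbar y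

omit [NumberField K] [NumberField L] in
theorem coe_smul_ringOfIntegers (g : L ≃ₐ[K] L) (x : 𝓞 L) : ((g • x : 𝓞 L) : L) = g (x : L) := rfl

/-- **Triviality of inertia.**  If every element of every prelude inertia group that fixes `ι K`
pointwise also fixes `ι L` pointwise, then all inertia groups of `L/K` are trivial. -/
theorem inertia_eq_bot
    (h : ∀ A : ValuationSubring Qbar, ∀ σ ∈ A.inertiaSubgroupIn ℚ,
      (∀ x : K, σ (ι (algebraMap K L x)) = ι (algebraMap K L x)) → ∀ y : L, σ (ι y) = ι y)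
    (P : Ideal (𝓞 L)) [P.IsPrime] (hP : P ≠ ⊥) : P.inertia (L ≃ₐ[K] L) = ⊥ := by
  rw [eq_bot_iff]
  intro g hg
  rw [Subgroup.mem_bot]
  obtain ⟨A, hAP⟩ := exists_valuationSubring_comap ι P hP
  have hAtop : A ≠ ⊤ := ne_top_of_comap_ne_bot ι (by rw [hAP]; exact hP)
  obtain ⟨ℓ, hℓ, hA⟩ := exists_liesOverPrime hAtop
  obtain ⟨σ₀, hσ₀⟩ := exists_lift ι g
  have hσ₀inv : ∀ y : L, σ₀⁻¹ (ι y) = ι (g⁻¹ y) := by
    intro y
    have h1 := hσ₀ (g⁻¹ y)
    have h2 : g (g⁻¹ y) = y := by
      change (g * g⁻¹) y = y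
      rw [mul_inv_cancel]; rfl
    rw [h2] at h1
    rw [← h1]
    change σ₀⁻¹ • (σ₀ • ι (g⁻¹ y)) = _
    rw [inv_smul_smul]
  have hin : ∀ b : Zbar, b ∈ ZL ι.fieldRange → σ₀ • b - b ∈ idealOf A := by
    intro b hb
    obtain ⟨x, rfl⟩ := exists_toZbar_eq ι hb
    have h1 : g • x - x ∈ P := hg x
    rw [← hAP, Ideal.mem_comap] at h1
    have h2 : σ₀ • toZbar ι x - toZbar ι x = toZbar ι (g • x - x) := by
      apply Subtype.ext
      rw [map_sub]
      change σ₀ (ι (x : L)) - ι (x : L) = ι ((g • x : 𝓞 L) : L) - ι (x : L)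
      rw [hσ₀, coe_smul_ringOfIntegers]
    rw [h2]
    exact h1
  obtain ⟨τ, hτ, hτσ⟩ := exists_mul_mem_inertia ι.fieldRange hℓ hA σ₀
    (by rintro _ ⟨y, rfl⟩; exact ⟨g y, (hσ₀ y).symm⟩)
    (by rintro _ ⟨y, rfl⟩; exact ⟨g⁻¹ y, (hσ₀inv y).symm⟩) hin
  have hτfix : ∀ y : L, τ (ι y) = ι y := fun y =>
    (IntermediateField.mem_fixingSubgroup_iff _ τ).mp hτ _ ⟨y, rfl⟩
  have hfix := h A (τ * σ₀) hτσ (by
    intro x
    change τ (σ₀ (ι (algebraMap K L x))) = _
    rw [hσ₀, g.commutes, hτfix])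
  ext y
  apply ι.injective
  have := hfix y
  change τ (σ₀ (ι y)) = ι y at this
  rw [hσ₀, hτfix] at this
  exact this

variable [IsGalois K L]

/-- **Unramifiedness.**  Under the hypothesis of `inertia_eq_bot`, every nonzero prime of `𝓞 L`
has ramification index `1` over `𝓞 K`. -/
theorem ramificationIdx_eq_one
    (h : ∀ A : ValuationSubring Qbar, ∀ σ ∈ A.inertiaSubgroupIn ℚ,
      (∀ x : K, σ (ι (algebraMap K L x)) = ι (algebraMap K L x)) → ∀ y : L, σ (ι y) = ι y)
    (P : Ideal (𝓞 L)) [P.IsPrime] (hP : P ≠ ⊥) :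
    P.ramificationIdx (𝓞 K) = 1 := by
  haveI : IsGaloisGroup (L ≃ₐ[K] L) (𝓞 K) (𝓞 L) := IsGaloisGroup.of_isFractionRing _ _ _ K L
  have hp0 : P.under (𝓞 K) ≠ ⊥ := by
    intro h0
    exact hP (Ideal.eq_bot_of_comap_eq_bot h0)
  haveI : (P.under (𝓞 K)).IsMaximal := Ring.DimensionLEOne.maximalOfPrime hp0 inferInstance
  have h1 := Ideal.card_inertia_eq_ramificationIdxIn (G := L ≃ₐ[K] L) (P.under (𝓞 K)) P
  rw [inertia_eq_bot ι h P hP] at h1
  rw [← Ideal.ramificationIdxIn_eq_ramificationIdx (P.under (𝓞 K)) P (L ≃ₐ[K] L), ← h1]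
  simp

end Main

end Fermat.Agent.S14.H54
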