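import Mathlib

set_option autoImplicit false

/-!
# S14 / WP6 (helper10): a power sum over a finite field

`∑ x : F, x ^ m * (1 - x) ^ m = 0` whenever `2 * m < #F - 1`.
-/

namespace Fermat.Agent.S14.H10

open Finset

variable {F : Type*} [Field F] [Fintype F]

/-- `∑ x, x ^ m * (1 - x) ^ m = 0` in a finite field with more than `2 m + 1` elements. -/
theorem sum_pow_mul_one_sub_pow (m : ℕ) (hm : 2 * m < Fintype.card F - 1) :
    ∑ x : F, x ^ m * (1 - x) ^ m = 0 := by
  have key : ∀ x : F, x ^ m * (1 - x) ^ m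
      = ∑ j ∈ range (m + 1), ((-1) ^ j * (m.choose j : F)) * x ^ (m + j) := by
    intro x
    have h1 : (1 - x) ^ m = ∑ j ∈ range (m + 1), (-x) ^ j * 1 ^ (m - j) * (m.choose j : F) := by
      rw [← add_pow]; ring
    rw [h1, Finset.mul_sum]
    refine Finset.sum_congr rfl fun j _ => ?_
    rw [neg_pow, pow_add]; ring
  simp_rw [key]
  rw [Finset.sum_comm]
  refine Finset.sum_eq_zero fun j hj => ?_
  rw [← Finset.mul_sum, FiniteField.sum_pow_lt_card_sub_one, mul_zero]
  have : j ≤ m := Nat.lt_succ_iff.mp (Finset.mem_range.mp hj)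
  omega

end Fermat.Agent.S14.H10
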