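import Mathlib
import Fermat.Agent.S14.H10_PowerSum

set_option autoImplicit false

/-!
# S14 / WP6 (helper10): the `p`-th power residue character modulo a degree-one prime

`K` is a number field containing a primitive `p`-th root of unity (`p` prime), `𝔔` a prime ideal
of `𝓞 K` with `absNorm 𝔔 = q` a rational prime different from `p`.  We construct the
multiplicative character `χ : 𝓞 K ⧸ 𝔔 → 𝓞 K` with `χ x ^ p = 1` and
`χ x ≡ x ^ ((q - 1) / p) mod 𝔔`, and show that the Jacobi sums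
`J e = jacobiSum (χ ^ e) (χ ^ e)` lie in `𝔔` for `0 < e`, `2 * e < p`.
-/

namespace Fermat.Agent.S14.H10

open NumberField Ideal Finset

variable {p : ℕ} [hp : Fact p.Prime] {K : Type*} [Field K] [NumberField K]

/-- The hypotheses on the prime `𝔔`: it has prime norm `q ≠ p`, and `𝓞 K` contains a primitive
`p`-th root of unity `ζ`. -/
structure DegOne (p : ℕ) (K : Type*) [Field K] [NumberField K] (𝔔 : Ideal (𝓞 K)) (q : ℕ)
    (ζ : 𝓞 K) : Prop where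
  prime : q.Prime
  ne : q ≠ p
  norm : absNorm 𝔔 = q
  root : IsPrimitiveRoot ζ p

variable {𝔔 : Ideal (𝓞 K)} {q : ℕ} {ζ : 𝓞 K}

namespace DegOne

variable (h : DegOne p K 𝔔 q ζ)
include h

omit hp in
theorem ne_top : 𝔔 ≠ ⊤ := by
  intro ht
  have := h.norm
  rw [ht, absNorm_top] at this
  exact h.prime.one_lt.ne this

omit hp in
theorem ne_bot : 𝔔 ≠ ⊥ := by
  intro ht
  have := h.norm
  rw [ht, absNorm_bot] at this
  exact h.prime.ne_zero this.symm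

omit hp in
theorem natCast_q_mem : (q : 𝓞 K) ∈ 𝔔 := h.norm ▸ absNorm_mem 𝔔

theorem natCast_p_notMem : (p : 𝓞 K) ∉ 𝔔 := by
  intro hmem
  have hcop : IsCoprime (p : ℤ) (q : ℤ) :=
    Nat.isCoprime_iff_coprime.mpr ((Nat.coprime_primes hp.out h.prime).mpr h.ne.symm)
  obtain ⟨u, v, huv⟩ := hcop
  have h1 : ((u * p + v * q : ℤ) : 𝓞 K) ∈ 𝔔 := by
    push_cast
    exact 𝔔.add_mem (𝔔.mul_mem_left _ hmem) (𝔔.mul_mem_left _ h.natCast_q_mem)
  rw [huv, Int.cast_one] at h1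
  exact h.ne_top ((Ideal.eq_top_iff_one 𝔔).mpr h1)

/-- A nontrivial `p`-th root of unity is not congruent to `1` modulo `𝔔`. -/
theorem sub_one_notMem {η : 𝓞 K} (hη : η ^ p = 1) (hη1 : η ≠ 1) : η - 1 ∉ 𝔔 := by
  intro hmem
  have hord : orderOf η = p := orderOf_eq_prime hη hη1
  have hprim : IsPrimitiveRoot η p := hord ▸ IsPrimitiveRoot.orderOf η
  obtain ⟨n, rfl⟩ : ∃ n, p = n + 1 := ⟨p - 1, (Nat.succ_pred_eq_of_pos hp.out.pos).symm⟩
  have hprod := IsPrimitiveRoot.prod_one_sub_pow_eq_order hprim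
  have hn : 0 < n := by
    have := hp.out.two_le
    omega
  have h0 : 0 ∈ range n := mem_range.mpr hn
  have hdvd : (1 - η ^ (0 + 1)) ∣ ∏ k ∈ range n, (1 - η ^ (k + 1)) := dvd_prod_of_mem _ h0
  rw [hprod, zero_add, pow_one] at hdvd
  have h1 : (1 - η) ∈ 𝔔 := by
    have := 𝔔.neg_mem hmem
    rwa [neg_sub] at this
  have := 𝔔.mem_of_dvd hdvd h1
  exact h.natCast_p_notMem (by exact_mod_cast this)

/-- Two `p`-th roots of unity congruent modulo `𝔔` are equal. -/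
theorem eq_of_sub_mem {ξ ξ' : 𝓞 K} (hξ : ξ ^ p = 1) (hξ' : ξ' ^ p = 1) (hmem : ξ - ξ' ∈ 𝔔) :
    ξ = ξ' := by
  have hpos : 0 < p := hp.out.pos
  have hinv : ξ' * ξ' ^ (p - 1) = 1 := by
    rw [← pow_succ', Nat.sub_add_cancel hpos, hξ']
  by_contra hne
  have hη : (ξ * ξ' ^ (p - 1)) ^ p = 1 := by
    rw [mul_pow, hξ, one_mul, ← pow_mul, mul_comm, pow_mul, hξ', one_pow]
  have hη1 : ξ * ξ' ^ (p - 1) ≠ 1 := by
    intro h1
    apply hne
    calc ξ = ξ * (ξ' ^ (p - 1) * ξ') := by rw [mul_comm (ξ' ^ (p - 1)), hinv, mul_one]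
      _ = (ξ * ξ' ^ (p - 1)) * ξ' := by ring
      _ = ξ' := by rw [h1, one_mul]
  apply h.sub_one_notMem hη hη1
  have : ξ * ξ' ^ (p - 1) - 1 = (ξ - ξ') * ξ' ^ (p - 1) := by
    rw [sub_mul, hinv]
  rw [this]
  exact 𝔔.mul_mem_right _ hmem

omit hp in
theorem isMaximal [𝔔.IsPrime] : 𝔔.IsMaximal := Ideal.IsPrime.isMaximal inferInstance h.ne_bot

section Char

variable [hmax : 𝔔.IsMaximal]

attribute [local instance] Ideal.Quotient.field

/-- The `Fintype` structure on the residue field used throughout (noncomputable). -/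
noncomputable local instance instFintypeQuot : Fintype (𝓞 K ⧸ 𝔔) := Fintype.ofFinite _

omit hp in
theorem card_quot : Fintype.card (𝓞 K ⧸ 𝔔) = q := by
  rw [← Nat.card_eq_fintype_card, ← h.norm, absNorm_apply, Submodule.cardQuot_apply]

omit hp hmax in
theorem mk_root_pow : (Ideal.Quotient.mk 𝔔 ζ) ^ p = 1 := by
  rw [← map_pow, h.root.pow_eq_one, map_one]

omit hmax in
theorem mk_root_ne_one : Ideal.Quotient.mk 𝔔 ζ ≠ 1 := by
  intro h1
  have : ζ - 1 ∈ 𝔔 := by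
    rw [← Ideal.Quotient.eq_zero_iff_mem, map_sub, h1, map_one, sub_self]
  exact h.sub_one_notMem h.root.pow_eq_one (h.root.ne_one hp.out.one_lt) this

omit hmax in
theorem isPrimitiveRoot_mk : IsPrimitiveRoot (Ideal.Quotient.mk 𝔔 ζ) p := by
  have hord : orderOf (Ideal.Quotient.mk 𝔔 ζ) = p := orderOf_eq_prime h.mk_root_pow h.mk_root_ne_one
  exact hord ▸ IsPrimitiveRoot.orderOf _

theorem dvd_sub_one : p ∣ q - 1 := by
  have hne : Ideal.Quotient.mk 𝔔 ζ ≠ 0 := by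
    intro h0
    have := h.mk_root_pow
    rw [h0, zero_pow hp.out.ne_zero] at this
    exact zero_ne_one this
  have := FiniteField.pow_card_sub_one_eq_one (Ideal.Quotient.mk 𝔔 ζ) hne
  rw [h.card_quot] at this
  exact h.isPrimitiveRoot_mk.dvd_of_pow_eq_one _ this

theorem mul_div_eq : p * ((q - 1) / p) = q - 1 := Nat.mul_div_cancel' h.dvd_sub_one

theorem div_pos : 0 < (q - 1) / p := by
  rcases Nat.eq_zero_or_pos ((q - 1) / p) with h0 | h0
  · have := h.mul_div_eq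
    rw [h0, mul_zero] at this
    have := h.prime.two_le
    omega
  · exact h0

/-- The unit of `𝓞 K` attached to the primitive root `ζ`. -/
noncomputable def rootUnit : (𝓞 K)ˣ := (h.root.isUnit hp.out.ne_zero).unit

omit hmax in
theorem rootUnit_coe : (h.rootUnit : 𝓞 K) = ζ := IsUnit.unit_spec _

omit hmax in
theorem rootUnit_pow : h.rootUnit ^ p = 1 := by
  apply Units.ext
  rw [Units.val_pow_eq_pow_val, h.rootUnit_coe, h.root.pow_eq_one, Units.val_one]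

theorem exists_unit (x : (𝓞 K ⧸ 𝔔)ˣ) :
    ∃ ξ : (𝓞 K)ˣ, ξ ^ p = 1 ∧
      Ideal.Quotient.mk 𝔔 (ξ : 𝓞 K) = (x : 𝓞 K ⧸ 𝔔) ^ ((q - 1) / p) := by
  have hx : ((x : 𝓞 K ⧸ 𝔔) ^ ((q - 1) / p)) ^ p = 1 := by
    rw [← pow_mul, mul_comm, h.mul_div_eq, ← h.card_quot]
    exact FiniteField.pow_card_sub_one_eq_one _ x.ne_zero
  have : NeZero p := ⟨hp.out.ne_zero⟩
  obtain ⟨i, -, hi⟩ := h.isPrimitiveRoot_mk.eq_pow_of_pow_eq_one hx
  refine ⟨h.rootUnit ^ i, ?_, ?_⟩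
  · rw [← pow_mul, mul_comm, pow_mul, h.rootUnit_pow, one_pow]
  · rw [Units.val_pow_eq_pow_val, h.rootUnit_coe, map_pow, hi]

omit hmax in
theorem unit_unique {ξ ξ' : (𝓞 K)ˣ} (hξ : ξ ^ p = 1) (hξ' : ξ' ^ p = 1)
    (hmk : Ideal.Quotient.mk 𝔔 (ξ : 𝓞 K) = Ideal.Quotient.mk 𝔔 (ξ' : 𝓞 K)) : ξ = ξ' := by
  apply Units.ext
  refine h.eq_of_sub_mem ?_ ?_ (Ideal.Quotient.eq.mp hmk)
  · rw [← Units.val_pow_eq_pow_val, hξ, Units.val_one]
  · rw [← Units.val_pow_eq_pow_val, hξ', Units.val_one]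

/-- The value of the power residue character on a unit of the residue field. -/
noncomputable def chiFun (x : (𝓞 K ⧸ 𝔔)ˣ) : (𝓞 K)ˣ := Classical.choose (h.exists_unit x)

theorem chiFun_pow (x : (𝓞 K ⧸ 𝔔)ˣ) : h.chiFun x ^ p = 1 :=
  (Classical.choose_spec (h.exists_unit x)).1

theorem mk_chiFun (x : (𝓞 K ⧸ 𝔔)ˣ) :
    Ideal.Quotient.mk 𝔔 (h.chiFun x : 𝓞 K) = (x : 𝓞 K ⧸ 𝔔) ^ ((q - 1) / p) :=
  (Classical.choose_spec (h.exists_unit x)).2

theorem chiFun_eq (x : (𝓞 K ⧸ 𝔔)ˣ) {ξ : (𝓞 K)ˣ} (hξ : ξ ^ p = 1)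
    (hmk : Ideal.Quotient.mk 𝔔 (ξ : 𝓞 K) = (x : 𝓞 K ⧸ 𝔔) ^ ((q - 1) / p)) : h.chiFun x = ξ :=
  h.unit_unique (h.chiFun_pow x) hξ ((h.mk_chiFun x).trans hmk.symm)

/-- The power residue character as a homomorphism of unit groups. -/
noncomputable def chiHom : (𝓞 K ⧸ 𝔔)ˣ →* (𝓞 K)ˣ where
  toFun := h.chiFun
  map_one' := h.chiFun_eq 1 (one_pow p) (by simp)
  map_mul' x y := by
    refine h.chiFun_eq (x * y) ?_ ?_
    · rw [mul_pow, h.chiFun_pow, h.chiFun_pow, one_mul]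
    · rw [Units.val_mul, map_mul, h.mk_chiFun, h.mk_chiFun, Units.val_mul, mul_pow]

/-- The `p`-th power residue character modulo `𝔔`, with values in `𝓞 K`. -/
noncomputable def chi : MulChar (𝓞 K ⧸ 𝔔) (𝓞 K) := MulChar.ofUnitHom h.chiHom

theorem chi_pow_eq_one {x : 𝓞 K ⧸ 𝔔} (hx : x ≠ 0) : h.chi x ^ p = 1 := by
  have : h.chi (Units.mk0 x hx : (𝓞 K ⧸ 𝔔)ˣ) = (h.chiFun (Units.mk0 x hx) : 𝓞 K) :=
    MulChar.ofUnitHom_coe _ _
  rw [Units.val_mk0] at this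
  rw [this, ← Units.val_pow_eq_pow_val, h.chiFun_pow, Units.val_one]

theorem mk_chi (x : 𝓞 K ⧸ 𝔔) :
    Ideal.Quotient.mk 𝔔 (h.chi x) = x ^ ((q - 1) / p) := by
  by_cases hx : x = 0
  · rw [hx, MulChar.map_zero, map_zero, zero_pow h.div_pos.ne']
  · have : h.chi (Units.mk0 x hx : (𝓞 K ⧸ 𝔔)ˣ) = (h.chiFun (Units.mk0 x hx) : 𝓞 K) :=
      MulChar.ofUnitHom_coe _ _
    rw [Units.val_mk0] at this
    rw [this, h.mk_chiFun, Units.val_mk0]

/-- The Jacobi sums `J(χ^e, χ^e)`. -/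
noncomputable def J (e : ℕ) : 𝓞 K := jacobiSum (h.chi ^ e) (h.chi ^ e)

theorem mk_J {e : ℕ} (he : e ≠ 0) :
    Ideal.Quotient.mk 𝔔 (h.J e) =
      ∑ x : 𝓞 K ⧸ 𝔔, x ^ ((q - 1) / p * e) * (1 - x) ^ ((q - 1) / p * e) := by
  unfold J jacobiSum
  rw [map_sum]
  refine Finset.sum_congr rfl fun x _ => ?_
  rw [map_mul, MulChar.pow_apply' _ he, MulChar.pow_apply' _ he, map_pow, map_pow, h.mk_chi,
    h.mk_chi, ← pow_mul, ← pow_mul]

/-- **Stickelberger's congruence**: `J(χ^e, χ^e) ∈ 𝔔` for `0 < e < p / 2`. -/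
theorem J_mem {e : ℕ} (he : 0 < e) (h2 : 2 * e < p) : h.J e ∈ 𝔔 := by
  rw [← Ideal.Quotient.eq_zero_iff_mem, h.mk_J he.ne']
  apply sum_pow_mul_one_sub_pow
  rw [h.card_quot]
  have := h.div_pos
  calc 2 * ((q - 1) / p * e) = (2 * e) * ((q - 1) / p) := by ring
    _ < p * ((q - 1) / p) := Nat.mul_lt_mul_of_pos_right h2 this
    _ = q - 1 := h.mul_div_eq

end Char

end DegOne

end Fermat.Agent.S14.H10
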