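import Mathlib
import Fermat.Prelude.Def_Stickelberger_Basic
import Fermat.Agent.S14.H10_ResidueChar

set_option autoImplicit false

/-!
# S14 / WP6 (helper10): Stickelberger's factorisation of the Jacobi sum `J(χ, χ)`

For a degree-one prime `𝔔 ∤ p` of `𝓞 K`, `K = ℚ(ζ_p)`, the Jacobi sum `J = J(χ, χ)` of the `p`-th
power residue character `χ` modulo `𝔔` generates the ideal `∏_{0 < a < p/2} σ_a⁻¹ 𝔔`.
-/

namespace Fermat.Agent.S14.H10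

open NumberField Ideal Finset

open scoped Pointwise

variable {p : ℕ} [hp : Fact p.Prime] {K : Type*} [Field K] [NumberField K]

variable {𝔔 : Ideal (𝓞 K)} {q : ℕ} {ζ : 𝓞 K}

/-! ### General facts on the Galois action on ideals of `𝓞 K` -/

omit hp in
/-- The absolute norm is invariant under the Galois action. -/
theorem absNorm_smul (σ : K ≃ₐ[ℚ] K) (I : Ideal (𝓞 K)) : absNorm (σ • I) = absNorm I := by
  rw [absNorm_apply, absNorm_apply, Submodule.cardQuot_apply, Submodule.cardQuot_apply]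
  have e : (𝓞 K ⧸ I) ≃+* (𝓞 K ⧸ σ • I) :=
    Ideal.quotientEquiv I (σ • I) (MulSemiringAction.toRingEquiv (K ≃ₐ[ℚ] K) (𝓞 K) σ) rfl
  exact (Nat.card_congr e.toEquiv).symm

omit hp in
theorem smul_span_singleton (σ : K ≃ₐ[ℚ] K) (x : 𝓞 K) :
    σ • (Ideal.span {x} : Ideal (𝓞 K)) = Ideal.span {σ • x} := by
  rw [Ideal.pointwise_smul_def, Ideal.map_span, Set.image_singleton]
  rfl

omit hp in
theorem smul_intCast (σ : K ≃ₐ[ℚ] K) (n : ℤ) : σ • (n : 𝓞 K) = (n : 𝓞 K) :=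
  map_intCast (MulSemiringAction.toRingHom (K ≃ₐ[ℚ] K) (𝓞 K) σ) n

omit hp in
theorem smul_natCast (σ : K ≃ₐ[ℚ] K) (n : ℕ) : σ • (n : 𝓞 K) = (n : 𝓞 K) :=
  map_natCast (MulSemiringAction.toRingHom (K ≃ₐ[ℚ] K) (𝓞 K) σ) n

omit hp in
theorem smul_pow_int (σ : K ≃ₐ[ℚ] K) (x : 𝓞 K) (n : ℕ) : σ • (x ^ n) = (σ • x) ^ n :=
  map_pow (MulSemiringAction.toRingHom (K ≃ₐ[ℚ] K) (𝓞 K) σ) x n

omit hp in
/-- If `σ` acts on `p`-th roots of unity of `K` by `ξ ↦ ξ ^ a`, the same holds in `𝓞 K`. -/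
theorem smul_eq_pow_of_pow_eq_one {σ : K ≃ₐ[ℚ] K} {a : ℕ}
    (hσ : ∀ ξ : K, ξ ^ p = 1 → σ ξ = ξ ^ a) {ξ : 𝓞 K} (hξ : ξ ^ p = 1) : σ • ξ = ξ ^ a := by
  apply RingOfIntegers.ext
  have h1 : ((ξ : 𝓞 K) : K) ^ p = 1 := by
    rw [← map_pow, hξ, map_one]
  have := hσ _ h1
  calc ((σ • ξ : 𝓞 K) : K) = σ (ξ : K) := rfl
    _ = (ξ : K) ^ a := this
    _ = ((ξ ^ a : 𝓞 K) : K) := (map_pow (algebraMap (𝓞 K) K) ξ a).symm

namespace DegOne

variable (h : DegOne p K 𝔔 q ζ)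
include h

omit hp in
theorem absNorm_smul_eq (σ : K ≃ₐ[ℚ] K) : absNorm (σ • 𝔔) = q := by
  rw [absNorm_smul, h.norm]

omit hp in
/-- The Galois conjugates of `𝔔` again satisfy `DegOne`. -/
theorem smul (σ : K ≃ₐ[ℚ] K) : DegOne p K (σ • 𝔔) q ζ :=
  ⟨h.prime, h.ne, h.absNorm_smul_eq σ, h.root⟩

omit hp in
theorem isMaximal_smul [𝔔.IsPrime] (σ : K ≃ₐ[ℚ] K) : (σ • 𝔔).IsMaximal :=
  (h.smul σ).isMaximal

section Char

variable [hmax : 𝔔.IsMaximal]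

attribute [local instance] Ideal.Quotient.field DegOne.instFintypeQuot

omit hp in
/-- Every element of `𝓞 K` is congruent to a rational integer modulo `𝔔`. -/
theorem exists_int_sub_mem (z : 𝓞 K) : ∃ n : ℤ, z - n ∈ 𝔔 := by
  have : Fact q.Prime := ⟨h.prime⟩
  have hcard : Nat.card (𝓞 K ⧸ 𝔔) = q := by
    rw [← h.norm, absNorm_apply, Submodule.cardQuot_apply]
  have h1 : (1 : 𝓞 K ⧸ 𝔔) ≠ 0 := one_ne_zero
  have := mem_zmultiples_of_prime_card hcard (g' := Ideal.Quotient.mk 𝔔 z) h1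
  obtain ⟨n, hn⟩ := AddSubgroup.mem_zmultiples_iff.mp this
  refine ⟨n, ?_⟩
  rw [← Ideal.Quotient.eq_zero_iff_mem, map_sub, map_intCast, ← hn, zsmul_one, sub_self]

omit hp in
/-- An automorphism stabilising `𝔔` acts trivially on the residue field. -/
theorem smul_sub_mem_of_smul_eq {τ : K ≃ₐ[ℚ] K} (hτ : τ • 𝔔 = 𝔔) (z : 𝓞 K) : τ • z - z ∈ 𝔔 := by
  obtain ⟨n, hn⟩ := h.exists_int_sub_mem z
  have h1 : τ • (z - n) ∈ 𝔔 := by
    have := Ideal.smul_mem_pointwise_smul τ _ 𝔔 hn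
    rwa [hτ] at this
  have h2 : τ • z - z = τ • (z - n) - (z - n) := by
    rw [smul_sub, smul_intCast]; ring
  rw [h2]
  exact 𝔔.sub_mem h1 hn

/-- Conjugates of `𝔔` by automorphisms acting differently on `μ_p` are different. -/
theorem inv_smul_ne_inv_smul {σ₁ σ₂ : K ≃ₐ[ℚ] K} {a b : ℕ}
    (hσ₁ : ∀ ξ : K, ξ ^ p = 1 → σ₁ ξ = ξ ^ a) (hσ₂ : ∀ ξ : K, ξ ^ p = 1 → σ₂ ξ = ξ ^ b)
    (hab : ¬ a ≡ b [MOD p]) : σ₁⁻¹ • 𝔔 ≠ σ₂⁻¹ • 𝔔 := by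
  intro heq
  have hτ : (σ₁ * σ₂⁻¹) • 𝔔 = 𝔔 := by
    rw [mul_smul, ← heq, smul_inv_smul]
  set ζ' : 𝓞 K := σ₂⁻¹ • ζ with hζ'
  have hζ'p : ζ' ^ p = 1 := by
    rw [hζ', ← smul_pow_int, h.root.pow_eq_one, smul_one]
  have h2 : ζ = ζ' ^ b := by
    rw [← smul_eq_pow_of_pow_eq_one hσ₂ hζ'p, hζ', smul_inv_smul]
  have h1 : (σ₁ * σ₂⁻¹) • ζ = ζ' ^ a := by
    rw [mul_smul, ← hζ', smul_eq_pow_of_pow_eq_one hσ₁ hζ'p]
  have hmem := h.smul_sub_mem_of_smul_eq hτ ζ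
  rw [h1, h2] at hmem
  have hpa : (ζ' ^ a) ^ p = 1 := by rw [← pow_mul, mul_comm, pow_mul, hζ'p, one_pow]
  have hpb : (ζ' ^ b) ^ p = 1 := by rw [← pow_mul, mul_comm, pow_mul, hζ'p, one_pow]
  have hpow := h.eq_of_sub_mem hpa hpb hmem
  have hne1 : ζ' ≠ 1 := by
    intro h1'
    rw [h1', one_pow] at h2
    exact h.root.ne_one hp.out.one_lt h2
  have hord : orderOf ζ' = p := orderOf_eq_prime hζ'p hne1
  have hprim : IsPrimitiveRoot ζ' p := hord ▸ IsPrimitiveRoot.orderOf ζ'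
  have hmod : ζ' ^ (a % p) = ζ' ^ (b % p) := by
    have ha' := pow_mod_orderOf ζ' a
    have hb' := pow_mod_orderOf ζ' b
    rw [hord] at ha' hb'
    rw [ha', hb', hpow]
  exact hab (hprim.pow_inj (Nat.mod_lt _ hp.out.pos) (Nat.mod_lt _ hp.out.pos) hmod)

/-! ### Nontriviality of the character -/

theorem exists_unit_pow_ne_one {e : ℕ} (he : 0 < e) (hep : e < p) :
    ∃ x : (𝓞 K ⧸ 𝔔)ˣ, (x : 𝓞 K ⧸ 𝔔) ^ ((q - 1) / p * e) ≠ 1 := by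
  obtain ⟨g, hg⟩ := IsCyclic.exists_generator (α := (𝓞 K ⧸ 𝔔)ˣ)
  refine ⟨g, fun h1 => ?_⟩
  have hord : orderOf g = q - 1 := by
    rw [orderOf_eq_card_of_forall_mem_zpowers hg, Nat.card_units, Nat.card_eq_fintype_card,
      h.card_quot]
  have h1' : g ^ ((q - 1) / p * e) = 1 := by
    apply Units.ext
    rw [Units.val_pow_eq_pow_val, h1, Units.val_one]
  have hdvd := orderOf_dvd_of_pow_eq_one h1'
  rw [hord] at hdvd
  have hk := h.div_pos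
  have hle := Nat.le_of_dvd (Nat.mul_pos hk he) hdvd
  have : (q - 1) / p * e < p * ((q - 1) / p) := by
    rw [mul_comm]
    exact Nat.mul_lt_mul_of_pos_right hep hk
  exact absurd (lt_of_le_of_lt hle (this.trans_eq h.mul_div_eq)) (lt_irrefl _)

theorem chi_pow_ne_one {e : ℕ} (he : 0 < e) (hep : e < p) : h.chi ^ e ≠ 1 := by
  intro h1
  obtain ⟨x, hx⟩ := h.exists_unit_pow_ne_one he hep
  apply hx
  have h2 : (h.chi ^ e) (x : 𝓞 K ⧸ 𝔔) = 1 := by rw [h1, MulChar.one_apply_coe]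
  rw [MulChar.pow_apply' _ he.ne'] at h2
  have h3 := congrArg (Ideal.Quotient.mk 𝔔) h2
  rwa [map_pow, h.mk_chi, ← pow_mul, map_one] at h3

theorem chi_pow_p : h.chi ^ p = 1 := by
  ext x
  rw [MulChar.pow_apply' _ hp.out.ne_zero, MulChar.one_apply_coe, h.chi_pow_eq_one x.ne_zero]

theorem chi_inv : (h.chi)⁻¹ = h.chi ^ (p - 1) := by
  apply inv_eq_of_mul_eq_one_right
  rw [← pow_succ', Nat.sub_add_cancel hp.out.pos, h.chi_pow_p]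

/-- `J(χ, χ) * J(χ⁻¹, χ⁻¹) = q`. -/
theorem J_one_mul_J (hp2 : p ≠ 2) : h.J 1 * h.J (p - 1) = (q : 𝓞 K) := by
  have hp3 : 2 < p := lt_of_le_of_ne hp.out.two_le (Ne.symm hp2)
  apply RingOfIntegers.coe_injective
  have hinj : Function.Injective (algebraMap (𝓞 K) K) := RingOfIntegers.coe_injective
  have hχ : h.chi.ringHomComp (algebraMap (𝓞 K) K) ≠ 1 := by
    rw [MulChar.ringHomComp_ne_one_iff hinj]
    have := h.chi_pow_ne_one (e := 1) one_pos hp.out.one_lt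
    rwa [pow_one] at this
  have hχ2 : h.chi.ringHomComp (algebraMap (𝓞 K) K) * h.chi.ringHomComp (algebraMap (𝓞 K) K) ≠ 1 := by
    rw [← MulChar.ringHomComp_mul, MulChar.ringHomComp_ne_one_iff hinj, ← pow_two]
    exact h.chi_pow_ne_one (e := 2) two_pos hp3
  have hchar : ringChar K ≠ ringChar (𝓞 K ⧸ 𝔔) := by
    rw [ringChar.eq_zero]
    exact (CharP.ringChar_ne_zero_of_finite _).symm
  have key := jacobiSum_mul_jacobiSum_inv hchar hχ hχ hχ2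
  rw [MulChar.ringHomComp_inv, jacobiSum_ringHomComp, jacobiSum_ringHomComp, h.card_quot] at key
  rw [map_mul, map_natCast]
  unfold J
  rw [pow_one, ← h.chi_inv]
  exact key

/-! ### Galois action on the Jacobi sums -/

theorem smul_chi {σ : K ≃ₐ[ℚ] K} {a : ℕ} (ha : a ≠ 0)
    (hσ : ∀ ξ : K, ξ ^ p = 1 → σ ξ = ξ ^ a) (x : 𝓞 K ⧸ 𝔔) : σ • h.chi x = (h.chi ^ a) x := by
  rw [MulChar.pow_apply' _ ha]
  by_cases hx : x = 0
  · rw [hx, MulChar.map_zero, smul_zero, zero_pow ha]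
  · exact smul_eq_pow_of_pow_eq_one hσ (h.chi_pow_eq_one hx)

theorem smul_J_one {σ : K ≃ₐ[ℚ] K} {a : ℕ} (ha : a ≠ 0)
    (hσ : ∀ ξ : K, ξ ^ p = 1 → σ ξ = ξ ^ a) : σ • h.J 1 = h.J a := by
  unfold J jacobiSum
  rw [Finset.smul_sum]
  refine Finset.sum_congr rfl fun x _ => ?_
  rw [smul_mul', pow_one, h.smul_chi ha hσ, h.smul_chi ha hσ]

/-- `J(χ, χ) ∈ σ_a⁻¹ 𝔔` for `0 < a < p / 2`. -/
theorem J_one_mem_inv_smul {σ : K ≃ₐ[ℚ] K} {a : ℕ} (ha : 0 < a) (ha2 : 2 * a < p)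
    (hσ : ∀ ξ : K, ξ ^ p = 1 → σ ξ = ξ ^ a) : h.J 1 ∈ σ⁻¹ • 𝔔 := by
  rw [Ideal.mem_inv_pointwise_smul_iff, h.smul_J_one ha.ne' hσ]
  exact h.J_mem ha ha2

end Char

end DegOne

end Fermat.Agent.S14.H10
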