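import Mathlib
import Fermat.Prelude.Def_Stickelberger_Basic
import Fermat.Agent.S14.H10_Stickelberger

set_option autoImplicit false

/-!
# S14 / WP6 (helper10): the ideal generated by the Jacobi sum `J(χ, χ)`

Main result: `Fermat.Agent.S14.H10.exists_span_eq_prod_smul`.
-/

namespace Fermat.Agent.S14.H10

open NumberField Ideal Finset

open scoped Pointwise

variable {p : ℕ} [hp : Fact p.Prime] {K : Type*} [Field K] [NumberField K]
  [hK : IsCyclotomicExtension {p} ℚ K]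

/-- For `a` prime to `p` there is an automorphism of `K = ℚ(ζ_p)` raising every `p`-th root of
unity to the `a`-th power. -/
theorem exists_aut_pow {a : ℕ} (ha : a.Coprime p) :
    ∃ τ : K ≃ₐ[ℚ] K, ∀ ξ : K, ξ ^ p = 1 → τ ξ = ξ ^ a := by
  have : NeZero p := ⟨hp.out.ne_zero⟩
  have hirr : Irreducible (Polynomial.cyclotomic p ℚ) :=
    Polynomial.cyclotomic.irreducible_rat hp.out.pos
  have hz := IsCyclotomicExtension.zeta_spec p ℚ K
  have hμ : IsPrimitiveRoot (IsCyclotomicExtension.zeta p ℚ K ^ a) p := hz.pow_of_coprime a ha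
  refine ⟨IsCyclotomicExtension.fromZetaAut hμ hirr, fun ξ hξ => ?_⟩
  obtain ⟨i, -, rfl⟩ := hz.eq_pow_of_pow_eq_one hξ
  rw [map_pow, IsCyclotomicExtension.fromZetaAut_spec, ← pow_mul, ← pow_mul, mul_comm]

omit hK in
theorem card_exponentSet (hp2 : p ≠ 2) : (Stickelberger.exponentSet p).card = (p - 1) / 2 := by
  have hodd : p % 2 = 1 := (hp.out.eq_two_or_odd).resolve_left hp2
  have : Stickelberger.exponentSet p = Finset.Icc 1 ((p - 1) / 2) := by
    ext c
    rw [Stickelberger.mem_exponentSet, Finset.mem_Icc]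
    omega
  rw [this, Nat.card_Icc]
  omega

theorem finrank_int : Module.finrank ℤ (𝓞 K) = p - 1 := by
  have : NeZero p := ⟨hp.out.ne_zero⟩
  rw [RingOfIntegers.rank, IsCyclotomicExtension.finrank K
    (Polynomial.cyclotomic.irreducible_rat hp.out.pos), Nat.totient_prime hp.out]

variable {𝔔 : Ideal (𝓞 K)} {q : ℕ} {ζ : 𝓞 K}

/-- The absolute norm of the Jacobi sum `J(χ, χ)` is `q ^ ((p - 1) / 2)`. -/
theorem DegOne.absNorm_span_J_one (h : DegOne p K 𝔔 q ζ) [𝔔.IsMaximal] (hp2 : p ≠ 2) :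
    absNorm (Ideal.span {h.J 1}) = q ^ ((p - 1) / 2) := by
  have hodd : p % 2 = 1 := (hp.out.eq_two_or_odd).resolve_left hp2
  have h2 := hp.out.two_le
  have hcop : (p - 1).Coprime p := by
    apply Nat.Coprime.symm
    rw [Nat.Prime.coprime_iff_not_dvd hp.out]
    exact Nat.not_dvd_of_pos_of_lt (by omega) (by omega)
  obtain ⟨τ, hτ⟩ := exists_aut_pow (K := K) hcop
  have hJ' : τ • h.J 1 = h.J (p - 1) := h.smul_J_one (by omega) hτ
  have hn : absNorm (Ideal.span {h.J (p - 1)}) = absNorm (Ideal.span {h.J 1}) := by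
    rw [← hJ', ← smul_span_singleton, absNorm_smul]
  have hmul : Ideal.span {h.J 1} * Ideal.span {h.J (p - 1)} = Ideal.span {(q : 𝓞 K)} := by
    rw [Ideal.span_singleton_mul_span_singleton, h.J_one_mul_J hp2]
  have hnorm := congrArg absNorm hmul
  rw [map_mul, hn, Ideal.absNorm_span_natCast, finrank_int (p := p)] at hnorm
  have hpm : p - 1 = (p - 1) / 2 + (p - 1) / 2 := by omega
  rw [hpm, pow_add] at hnorm
  have := Nat.mul_self_inj.mp hnorm
  rw [this]

/-- **Stickelberger's theorem for the Jacobi sum `J(χ, χ)`** of the `p`-th power residue character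
`χ` modulo a degree-one prime `𝔔` of `ℚ(ζ_p)` not above `p`:
`(J(χ, χ)) = ∏_{0 < a < p/2} σ_a⁻¹ 𝔔`, where `σ_a` raises `p`-th roots of unity to the `a`-th
power. -/
theorem exists_span_eq_prod_smul (hp2 : p ≠ 2) (𝔔 : Ideal (𝓞 K)) [𝔔.IsPrime] {q : ℕ}
    (hq : q.Prime) (hqp : q ≠ p) (hN : absNorm 𝔔 = q) (σ : ℕ → (K ≃ₐ[ℚ] K))
    (hσ : ∀ a ∈ Stickelberger.exponentSet p, ∀ ξ : K, ξ ^ p = 1 → σ a ξ = ξ ^ a) :
    ∃ J : 𝓞 K, Ideal.span {J} = ∏ a ∈ Stickelberger.exponentSet p, (σ a)⁻¹ • 𝔔 := by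
  have : NeZero p := ⟨hp.out.ne_zero⟩
  have hz := IsCyclotomicExtension.zeta_spec p ℚ K
  have h : DegOne p K 𝔔 q hz.toInteger := ⟨hq, hqp, hN, hz.toInteger_isPrimitiveRoot⟩
  have hmax : 𝔔.IsMaximal := h.isMaximal
  refine ⟨h.J 1, ?_⟩
  have hdvd : ∏ a ∈ Stickelberger.exponentSet p, (σ a)⁻¹ • 𝔔 ∣ Ideal.span {h.J 1} := by
    apply Finset.prod_dvd_of_coprime
    · intro a ha b hb hab
      rw [Finset.mem_coe, Stickelberger.mem_exponentSet] at ha hb
      show IsCoprime ((σ a)⁻¹ • 𝔔) ((σ b)⁻¹ • 𝔔)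
      rw [Ideal.isCoprime_iff_sup_eq]
      refine Ideal.IsMaximal.coprime_of_ne (h.isMaximal_smul _) (h.isMaximal_smul _) ?_
      refine h.inv_smul_ne_inv_smul (hσ a (Stickelberger.mem_exponentSet.mpr ha))
        (hσ b (Stickelberger.mem_exponentSet.mpr hb)) fun hmod => hab ?_
      exact hmod.eq_of_lt_of_lt (by omega) (by omega)
    · intro a ha
      rw [Ideal.dvd_span_singleton]
      have ha' := Stickelberger.mem_exponentSet.mp ha
      exact h.J_one_mem_inv_smul ha'.1 ha'.2 (hσ a ha)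
  obtain ⟨M, hM⟩ := hdvd
  have hnorm := congrArg absNorm hM
  rw [h.absNorm_span_J_one hp2, map_mul, map_prod,
    Finset.prod_congr rfl (fun a _ => h.absNorm_smul_eq (σ a)⁻¹), Finset.prod_const,
    card_exponentSet hp2] at hnorm
  have hqpos : 0 < q ^ ((p - 1) / 2) := pow_pos hq.pos _
  have hM1 : absNorm M = 1 := by
    have : q ^ ((p - 1) / 2) * 1 = q ^ ((p - 1) / 2) * absNorm M := by rw [mul_one]; exact hnorm
    exact (Nat.eq_of_mul_eq_mul_left hqpos this).symm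
  rw [Ideal.absNorm_eq_one_iff] at hM1
  rw [hM, hM1, Ideal.mul_top]

end Fermat.Agent.S14.H10
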