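import Mathlib
import Fermat.Prelude.Def_Stickelberger_Basic
import Fermat.Agent.Kummer.H26_Basic

/-!
# S14 / WP7, part I: the `ω⁻¹`-eigenquotient of `Cl(ℚ(ζ_p))/p` is trivial

`K = ℚ(ζ_p)`, `p ≥ 3`.  Let `Art` be a multiplicative function on the nonzero ideals of `𝓞 K`
with values in a commutative group killed by `p`, trivial on principal ideals, and such that
`Art (τ⁻¹ • 𝔮) = Art 𝔮 ^ a` whenever `τ ∈ Gal(K/ℚ)` acts on `μ_p` as `ξ ↦ ξ ^ a`.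
Then, granting the Jacobi-sum form of Stickelberger's theorem (`JacobiStickelberger`, WP6),
`Art` is trivial on every nonzero prime.
-/

set_option autoImplicit false

namespace Fermat.Agent.S14.H26

open NumberField Ideal IsCyclotomicExtension IsCyclotomicExtension.Rat
open scoped Pointwise

/-! ### Arithmetic of the Stickelberger exponent `∑_{0 < a < p/2} a = (p² - 1)/8` -/

theorem sum_exponentSet (m : ℕ) :
    (∑ c ∈ Stickelberger.exponentSet (2 * m + 1), c) * 2 = (m + 1) * m := by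
  have h1 : ∑ c ∈ Stickelberger.exponentSet (2 * m + 1), c = ∑ c ∈ Finset.range (m + 1), c := by
    have hsub : Stickelberger.exponentSet (2 * m + 1) ⊆ Finset.range (m + 1) := by
      intro c hc
      rw [Stickelberger.mem_exponentSet] at hc
      rw [Finset.mem_range]
      omega
    refine Finset.sum_subset hsub ?_
    intro c hc hnc
    rw [Finset.mem_range] at hc
    rw [Stickelberger.mem_exponentSet] at hnc
    omega
  rw [h1, Finset.sum_range_id_mul_two]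
  simp

theorem coprime_eigenvalueScalar {p : ℕ} (hp : p.Prime) (h3 : 3 ≤ p) :
    Nat.Coprime (Stickelberger.eigenvalueScalar p) p := by
  obtain ⟨m, rfl⟩ : ∃ m, p = 2 * m + 1 := by
    rcases hp.eq_two_or_odd with h | h
    · omega
    · exact ⟨p / 2, by omega⟩
  rw [Nat.coprime_comm, hp.coprime_iff_not_dvd]
  intro hdvd
  have h2 : (2 * m + 1) ∣ (m + 1) * m := by
    rw [← sum_exponentSet m]
    exact Dvd.dvd.mul_right hdvd 2
  rcases (hp.dvd_mul).mp h2 with h | h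
  · have := Nat.le_of_dvd (by omega) h
    omega
  · have hm : 0 < m := by omega
    have := Nat.le_of_dvd hm h
    omega

/-- An element killed by two coprime exponents is trivial. -/
theorem eq_one_of_pow_eq_one_of_coprime {G : Type*} [Group G] {g : G} {m n : ℕ}
    (hm : g ^ m = 1) (hn : g ^ n = 1) (hmn : Nat.Coprime m n) : g = 1 := by
  have h := orderOf_dvd_of_pow_eq_one hm
  have h' := orderOf_dvd_of_pow_eq_one hn
  have := Nat.dvd_gcd h h'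
  rw [hmn.gcd_eq_one, Nat.dvd_one, orderOf_eq_one_iff] at this
  exact this

section Cyclo

universe u

variable {p : ℕ} [hp : Fact p.Prime] {K : Type u} [Field K] [NumberField K]
  [IsCyclotomicExtension {p} ℚ K]

/-- The automorphism of `ℚ(ζ_p)` raising `p`-th roots of unity to the `a`-th power. -/
theorem exists_aut_pow (a : ℕ) (ha : ¬ p ∣ a) :
    ∃ τ : K ≃ₐ[ℚ] K, ∀ ξ : K, ξ ^ p = 1 → τ ξ = ξ ^ a := by
  have hcop : Nat.Coprime a p := (Nat.coprime_comm.mp ((hp.out.coprime_iff_not_dvd).mpr ha))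
  refine ⟨Fermat.Agent.Kummer.H26.sigmaPow p K (ZMod.unitOfCoprime a hcop), fun ξ hξ => ?_⟩
  have hζ := zeta_spec p ℚ K
  obtain ⟨k, -, rfl⟩ := hζ.eq_pow_of_pow_eq_one hξ
  rw [map_pow, Fermat.Agent.Kummer.H26.sigmaPow_zeta, ZMod.coe_unitOfCoprime, ZMod.val_natCast,
    ← pow_mul, ← pow_mul, mul_comm k a]
  rw [pow_mul, pow_mul (zeta p ℚ K) a k]
  congr 1
  conv_rhs => rw [← Nat.mod_add_div a p, pow_add, pow_mul, hζ.pow_eq_one, one_pow, mul_one]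

/-- The pointwise action of an automorphism does not kill nonzero ideals. -/
theorem smul_ne_bot (τ : K ≃ₐ[ℚ] K) {I : Ideal (𝓞 K)} (hI : I ≠ ⊥) : τ • I ≠ ⊥ := by
  intro h
  apply hI
  have : τ⁻¹ • (τ • I) = τ⁻¹ • (⊥ : Ideal (𝓞 K)) := by rw [h]
  rw [inv_smul_smul] at this
  rw [this, ← Ideal.zero_eq_bot, smul_zero]

/-- The Jacobi-sum form of Stickelberger's theorem (deliverable of WP6, in the shape announced by
its owner): for a degree-one prime `𝔔 ∤ p` of `ℚ(ζ_p)` the ideal `∏_{0 < a < p/2} σ_a⁻¹ 𝔔` is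
principal. -/
def JacobiStickelberger (p : ℕ) [Fact p.Prime] (K : Type u) [Field K] [NumberField K]
    [IsCyclotomicExtension {p} ℚ K] : Prop :=
  ∀ (𝔔 : Ideal (𝓞 K)) [𝔔.IsPrime] {q : ℕ} (_ : q.Prime) (_ : q ≠ p) (_ : Ideal.absNorm 𝔔 = q)
    (σ : ℕ → (K ≃ₐ[ℚ] K))
    (_ : ∀ a ∈ Stickelberger.exponentSet p, ∀ ξ : K, ξ ^ p = 1 → σ a ξ = ξ ^ a),
    ∃ J : 𝓞 K, Ideal.span {J} = ∏ a ∈ Stickelberger.exponentSet p, (σ a)⁻¹ • 𝔔

section Main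

variable {G : Type*} [CommGroup G] (Art : Ideal (𝓞 K) → G)

omit [NumberField K] in
/-- multiplicativity over finite products of nonzero ideals -/
theorem art_prod (hone : Art ⊤ = 1)
    (hmul : ∀ I J : Ideal (𝓞 K), I ≠ ⊥ → J ≠ ⊥ → Art (I * J) = Art I * Art J)
    {ι : Type*} (s : Finset ι) (f : ι → Ideal (𝓞 K)) (hf : ∀ i ∈ s, f i ≠ ⊥) :
    Art (∏ i ∈ s, f i) = ∏ i ∈ s, Art (f i) := by
  classical
  induction s using Finset.induction_on with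
  | empty => simpa [Ideal.one_eq_top] using hone
  | insert a s ha ih =>
    rw [Finset.prod_insert ha, Finset.prod_insert ha,
      hmul _ _ (hf a (Finset.mem_insert_self a s))
        (Finset.prod_ne_zero_iff.mpr fun i hi => hf i (Finset.mem_insert_of_mem hi)),
      ih fun i hi => hf i (Finset.mem_insert_of_mem hi)]

omit [NumberField K] in
theorem art_top
    (hmul : ∀ I J : Ideal (𝓞 K), I ≠ ⊥ → J ≠ ⊥ → Art (I * J) = Art I * Art J) : Art ⊤ = 1 := by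
  have h := hmul ⊤ ⊤ top_ne_bot top_ne_bot
  rw [Ideal.mul_top] at h
  exact (mul_eq_left.mp h.symm)

/-- Case of the prime above `p`: it is principal. -/
theorem art_eq_one_of_liesOver_self
    (hprinc : ∀ x : 𝓞 K, x ≠ 0 → Art (Ideal.span {x}) = 1)
    (𝔮 : Ideal (𝓞 K)) [𝔮.IsPrime] [𝔮.LiesOver (span {(p : ℤ)})] : Art 𝔮 = 1 := by
  have hζ := zeta_spec p ℚ K
  rw [eq_span_zeta_sub_one_of_liesOver' p K hζ 𝔮]
  apply hprinc
  exact (hζ.zeta_sub_one_prime').ne_zero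

/-- Case of the prime above `p`, from the twist alone: it is fixed by `Gal(K/ℚ)`, so
`Art 𝔮 = Art 𝔮 ^ 2`. -/
theorem art_eq_one_of_liesOver_self_of_conj (hp3 : 3 ≤ p)
    (hconj : ∀ (τ : K ≃ₐ[ℚ] K) (a : ℕ), (∀ ξ : K, ξ ^ p = 1 → τ ξ = ξ ^ a) →
      ∀ 𝔮 : Ideal (𝓞 K), 𝔮.IsPrime → 𝔮 ≠ ⊥ → Art (τ⁻¹ • 𝔮) = Art 𝔮 ^ a)
    (𝔮 : Ideal (𝓞 K)) [𝔮.IsPrime] (h𝔮 : 𝔮 ≠ ⊥) [𝔮.LiesOver (span {(p : ℤ)})] : Art 𝔮 = 1 := by
  have h2 : ¬ p ∣ 2 := by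
    intro h
    have := Nat.le_of_dvd (by norm_num) h
    omega
  obtain ⟨τ, hτ⟩ := exists_aut_pow (p := p) (K := K) 2 h2
  have hζ := zeta_spec p ℚ K
  have hprime : (τ⁻¹ • 𝔮).IsPrime := by
    rw [Ideal.pointwise_smul_eq_comap]
    exact Ideal.comap_isPrime _ _
  have hlies : (τ⁻¹ • 𝔮).LiesOver (span {(p : ℤ)}) := by
    constructor
    rw [Ideal.over_def 𝔮 (span {(p : ℤ)}), Ideal.pointwise_smul_eq_comap]
    ext x
    simp only [Ideal.under_def, Ideal.mem_comap, eq_intCast, map_intCast]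
  have hfix : τ⁻¹ • 𝔮 = 𝔮 := by
    rw [eq_span_zeta_sub_one_of_liesOver' p K hζ 𝔮]
    conv_lhs => rw [← eq_span_zeta_sub_one_of_liesOver' p K hζ 𝔮]
    exact eq_span_zeta_sub_one_of_liesOver' p K hζ (τ⁻¹ • 𝔮)
  have h1 := hconj τ 2 hτ 𝔮 inferInstance h𝔮
  rw [hfix] at h1
  have h3 : Art 𝔮 * Art 𝔮 = Art 𝔮 := by
    rw [← pow_two]
    exact h1.symm
  exact mul_eq_left.mp h3

/-- Case of a degree-one prime not above `p`: Stickelberger. -/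
theorem art_eq_one_of_absNorm_prime (hp3 : 3 ≤ p) (hS : JacobiStickelberger p K)
    (hG : ∀ g : G, g ^ p = 1)
    (hmul : ∀ I J : Ideal (𝓞 K), I ≠ ⊥ → J ≠ ⊥ → Art (I * J) = Art I * Art J)
    (hprinc : ∀ x : 𝓞 K, x ≠ 0 → Art (Ideal.span {x}) = 1)
    (hconj : ∀ (τ : K ≃ₐ[ℚ] K) (a : ℕ), (∀ ξ : K, ξ ^ p = 1 → τ ξ = ξ ^ a) →
      ∀ 𝔮 : Ideal (𝓞 K), 𝔮.IsPrime → 𝔮 ≠ ⊥ → Art (τ⁻¹ • 𝔮) = Art 𝔮 ^ a)
    (𝔮 : Ideal (𝓞 K)) [𝔮.IsPrime] (h𝔮 : 𝔮 ≠ ⊥) {q : ℕ} (hq : q.Prime) (hqp : q ≠ p)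
    (hN : Ideal.absNorm 𝔮 = q) : Art 𝔮 = 1 := by
  classical
  have hex : ∀ a : ℕ, ∃ τ : K ≃ₐ[ℚ] K, ¬ p ∣ a → ∀ ξ : K, ξ ^ p = 1 → τ ξ = ξ ^ a := by
    intro a
    by_cases ha : p ∣ a
    · exact ⟨1, fun h => absurd ha h⟩
    · obtain ⟨τ, hτ⟩ := exists_aut_pow (p := p) (K := K) a ha
      exact ⟨τ, fun _ => hτ⟩
  choose σ hσ' using hex
  have hσ : ∀ a ∈ Stickelberger.exponentSet p, ∀ ξ : K, ξ ^ p = 1 → σ a ξ = ξ ^ a := by
    intro a ha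
    rw [Stickelberger.mem_exponentSet] at ha
    apply hσ'
    intro hdvd
    have := Nat.le_of_dvd ha.1 hdvd
    omega
  obtain ⟨J, hJ⟩ := hS 𝔮 hq hqp hN σ hσ
  have hne : ∀ a ∈ Stickelberger.exponentSet p, (σ a)⁻¹ • 𝔮 ≠ ⊥ :=
    fun a _ => smul_ne_bot _ h𝔮
  have hprod : (∏ a ∈ Stickelberger.exponentSet p, (σ a)⁻¹ • 𝔮) ≠ ⊥ := by
    rw [← Ideal.zero_eq_bot, Finset.prod_ne_zero_iff]
    exact hne
  have hJ0 : J ≠ 0 := by
    rintro rfl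
    rw [Ideal.span_singleton_eq_bot.mpr rfl] at hJ
    exact hprod hJ.symm
  have h1 : Art (Ideal.span {J}) = 1 := hprinc J hJ0
  rw [hJ, art_prod Art (art_top Art hmul) hmul _ _ hne] at h1
  have h2 : ∏ a ∈ Stickelberger.exponentSet p, Art ((σ a)⁻¹ • 𝔮)
      = ∏ a ∈ Stickelberger.exponentSet p, Art 𝔮 ^ a :=
    Finset.prod_congr rfl (fun a ha => hconj (σ a) a (hσ a ha) 𝔮 inferInstance h𝔮)
  rw [h2, Finset.prod_pow_eq_pow_sum] at h1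
  exact eq_one_of_pow_eq_one_of_coprime h1 (hG _) (coprime_eigenvalueScalar hp.out hp3)

/-- Case of a prime above `q ≢ 0, 1 (mod p)`: the Frobenius of `K/ℚ` at `𝔮` fixes `𝔮`. -/
theorem art_eq_one_of_ne_one
    (hG : ∀ g : G, g ^ p = 1)
    (hconj : ∀ (τ : K ≃ₐ[ℚ] K) (a : ℕ), (∀ ξ : K, ξ ^ p = 1 → τ ξ = ξ ^ a) →
      ∀ 𝔮 : Ideal (𝓞 K), 𝔮.IsPrime → 𝔮 ≠ ⊥ → Art (τ⁻¹ • 𝔮) = Art 𝔮 ^ a)
    (𝔮 : Ideal (𝓞 K)) [𝔮.IsPrime] (h𝔮 : 𝔮 ≠ ⊥) {q : ℕ} (hq : q.Prime)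
    [h𝔮q : 𝔮.LiesOver (span {(q : ℤ)})] (hqp : q ≠ p) (hq1 : (q : ZMod p) ≠ 1) : Art 𝔮 = 1 := by
  have : IsGalois ℚ K := isGalois {p} ℚ K
  have : Finite (𝓞 K ⧸ 𝔮) := Ideal.finiteQuotientOfFreeOfNeBot 𝔮 h𝔮
  have hτ : IsArithFrobAt ℤ (arithFrobAt ℤ (K ≃ₐ[ℚ] K) 𝔮) 𝔮 :=
    IsArithFrobAt.arithFrobAt ℤ (K ≃ₐ[ℚ] K) 𝔮
  set τ := arithFrobAt ℤ (K ≃ₐ[ℚ] K) 𝔮 with hτdef
  have hunder : 𝔮.under ℤ = span {(q : ℤ)} := (Ideal.over_def 𝔮 (span {(q : ℤ)})).symm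
  have hcard : Nat.card (ℤ ⧸ 𝔮.under ℤ) = q := by
    rw [hunder, ← Submodule.cardQuot_apply, ← Ideal.absNorm_apply,
      Fermat.Agent.Kummer.H26.absNorm_span_natCast_int]
  have hp𝔮 : ((p : ℕ) : 𝓞 K) ∉ 𝔮 := by
    intro hmem
    have h1 : ((p : ℕ) : ℤ) ∈ 𝔮.under ℤ := by
      rw [Ideal.under_def, Ideal.mem_comap]
      simpa using hmem
    rw [hunder, Ideal.mem_span_singleton] at h1
    have h2 : q ∣ p := by exact_mod_cast h1
    exact hqp ((Nat.prime_dvd_prime_iff_eq hq hp.out).mp h2)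
  have hτξ : ∀ ξ : K, ξ ^ p = 1 → τ ξ = ξ ^ q := by
    intro ξ hξ
    have hint : IsIntegral ℤ ξ :=
      IsIntegral.of_pow hp.out.pos (by rw [hξ]; exact isIntegral_one)
    obtain ⟨y, rfl⟩ := (IsIntegralClosure.isIntegral_iff (A := 𝓞 K)).mp hint
    have h1 : y ^ p = 1 := by
      apply FaithfulSMul.algebraMap_injective (𝓞 K) K
      rw [map_pow, map_one]
      exact hξ
    have h2 := AlgHom.IsArithFrobAt.apply_of_pow_eq_one hτ h1 hp𝔮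
    rw [hcard] at h2
    have h3 := congrArg (algebraMap (𝓞 K) K) h2
    rw [map_pow] at h3
    rw [← h3]
    rfl
  have hstab : τ • 𝔮 = 𝔮 := MulAction.mem_stabilizer_iff.mp hτ.mem_stabilizer
  have hstab' : τ⁻¹ • 𝔮 = 𝔮 := by rw [inv_smul_eq_iff, hstab]
  have h1 := hconj τ q hτξ 𝔮 inferInstance h𝔮
  rw [hstab'] at h1
  have h2 : Art 𝔮 ^ (q - 1) = 1 := by
    have h3 : Art 𝔮 ^ (q - 1) * Art 𝔮 = Art 𝔮 := by
      rw [← pow_succ, Nat.sub_add_cancel hq.one_le, ← h1]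
    exact mul_eq_right.mp h3
  have hcop : Nat.Coprime (q - 1) p := by
    rw [Nat.coprime_comm, hp.out.coprime_iff_not_dvd]
    intro hdvd
    apply hq1
    have h4 : ((q - 1 : ℕ) : ZMod p) = 0 := (ZMod.natCast_eq_zero_iff _ _).mpr hdvd
    have h5 : q = (q - 1) + 1 := (Nat.sub_add_cancel hq.one_le).symm
    rw [h5, Nat.cast_add, h4, zero_add, Nat.cast_one]
  exact eq_one_of_pow_eq_one_of_coprime h2 (hG _) hcop

/-- **WP7, part I.** A `p`-torsion-valued multiplicative function on ideals of `ℚ(ζ_p)` which kills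
principal ideals and on which `Gal(K/ℚ)` acts through `ω⁻¹` is trivial on all primes. -/
theorem art_prime_eq_one (hp3 : 3 ≤ p) (hS : JacobiStickelberger p K)
    (hG : ∀ g : G, g ^ p = 1)
    (hmul : ∀ I J : Ideal (𝓞 K), I ≠ ⊥ → J ≠ ⊥ → Art (I * J) = Art I * Art J)
    (hprinc : ∀ x : 𝓞 K, x ≠ 0 → Art (Ideal.span {x}) = 1)
    (hconj : ∀ (τ : K ≃ₐ[ℚ] K) (a : ℕ), (∀ ξ : K, ξ ^ p = 1 → τ ξ = ξ ^ a) →
      ∀ 𝔮 : Ideal (𝓞 K), 𝔮.IsPrime → 𝔮 ≠ ⊥ → Art (τ⁻¹ • 𝔮) = Art 𝔮 ^ a) :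
    ∀ 𝔮 : Ideal (𝓞 K), 𝔮.IsPrime → 𝔮 ≠ ⊥ → Art 𝔮 = 1 := by
  intro 𝔮 h𝔮prime h𝔮
  have := h𝔮prime
  have : NeZero 𝔮 := ⟨h𝔮⟩
  have hq : (absNorm (under ℤ 𝔮)).Prime := Nat.absNorm_under_prime 𝔮
  have hlies : 𝔮.LiesOver (span {((absNorm (under ℤ 𝔮) : ℕ) : ℤ)}) := Int.liesOver_span_absNorm 𝔮
  generalize absNorm (under ℤ 𝔮) = q at hq hlies
  by_cases hqp : q = p
  · have hl : 𝔮.LiesOver (span {(p : ℤ)}) := hqp ▸ hlies
    exact art_eq_one_of_liesOver_self_of_conj (p := p) Art hp3 hconj 𝔮 h𝔮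
  · by_cases hq1 : (q : ZMod p) = 1
    · have : Fact q.Prime := ⟨hq⟩
      have hqdvd : ¬ q ∣ p := fun h => hqp ((Nat.prime_dvd_prime_iff_eq hq hp.out).mp h)
      have hdeg : 𝔮.inertiaDeg ℤ = 1 := by
        rw [inertiaDeg_eq_of_not_dvd q K 𝔮 hqdvd, hq1, orderOf_one]
      have hnorm : (span {(q : ℤ)}).absNorm ^ 𝔮.inertiaDeg ℤ = 𝔮.absNorm :=
        absNorm_pow_inertiaDeg (span {(q : ℤ)}) 𝔮
      rw [hdeg, pow_one, Fermat.Agent.Kummer.H26.absNorm_span_natCast_int] at hnorm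
      exact art_eq_one_of_absNorm_prime Art hp3 hS hG hmul hprinc hconj 𝔮 h𝔮 hq hqp hnorm.symm
    · exact art_eq_one_of_ne_one Art hG hconj 𝔮 h𝔮 hq hqp hq1

end Main

end Cyclo

end Fermat.Agent.S14.H26
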