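import Mathlib
import Fermat.Agent.S14.H10_JacobiFactor
import Fermat.Agent.S14.H26_Core

set_option autoImplicit false

/-!
# S14: WP6 discharges the hypothesis `JacobiStickelberger` of WP7 (helper26's `H26_Core`)
-/

namespace Fermat.Agent.S14.H10

open NumberField

universe u

/-- The Jacobi-sum form of Stickelberger's theorem, in the shape consumed by
`Fermat.Agent.S14.H26.art_prime_eq_one`. -/
theorem jacobiStickelberger {p : ℕ} [Fact p.Prime] (hp2 : p ≠ 2) (K : Type u) [Field K]
    [NumberField K] [IsCyclotomicExtension {p} ℚ K] :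
    Fermat.Agent.S14.H26.JacobiStickelberger p K :=
  fun 𝔔 _ _ hq hqp hN σ hσ => exists_span_eq_prod_smul hp2 𝔔 hq hqp hN σ hσ

end Fermat.Agent.S14.H10
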