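import Mathlib

/-!
# Coprime representatives of ideal classes (S14 shared lemma, helper18)

In a Dedekind domain every ideal class contains an integral ideal coprime to a given
nonzero ideal.
-/

namespace Fermat.Agent.S14.H18

open scoped nonZeroDivisors

section Dedekind

variable {R : Type*} [CommRing R] [IsDedekindDomain R]

/-- For nonzero ideals `J`, `I` of a Dedekind domain there is an ideal `K`, coprime to `I`,
with `J * K` principal (generated by a nonzero element). -/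
theorem exists_mul_eq_span_and_sup_eq_top {J I : Ideal R} (hJ : J ≠ ⊥) (hI : I ≠ ⊥) :
    ∃ (K : Ideal R) (a : R), a ≠ 0 ∧ K ≠ ⊥ ∧ J * K = Ideal.span {a} ∧ I ⊔ K = ⊤ := by
  by_cases hItop : I = ⊤
  · -- any nonzero element of `J` works
    obtain ⟨a, haJ, ha⟩ := Submodule.exists_mem_ne_zero_of_ne_bot hJ
    obtain ⟨K, hK⟩ : J ∣ Ideal.span {a} := by
      rw [Ideal.dvd_iff_le, Ideal.span_singleton_le_iff_mem]; exact haJ
    refine ⟨K, a, ha, ?_, hK.symm, by simp [hItop]⟩
    rintro rfl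
    rw [Ideal.mul_bot, Ideal.span_singleton_eq_bot] at hK
    exact ha hK
  have hJI : J * I ≠ 0 := by
    rw [Ideal.zero_eq_bot]
    exact mul_ne_zero hJ hI
  obtain ⟨a, ha⟩ := IsDedekindDomain.exists_sup_span_eq (I := J * I) (J := J)
    Ideal.mul_le_left hJI
  have haJ : a ∈ J := by
    rw [← ha]
    exact Ideal.mem_sup_right (Ideal.mem_span_singleton_self a)
  obtain ⟨K, hK⟩ : J ∣ Ideal.span {a} := by
    rw [Ideal.dvd_iff_le, Ideal.span_singleton_le_iff_mem]; exact haJ
  have hsup : I ⊔ K = ⊤ := by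
    have h1 : J * (I ⊔ K) = J * ⊤ := by
      rw [Ideal.mul_sup, ← hK, ha, Ideal.mul_top]
    exact mul_left_cancel₀ hJ h1
  have ha0 : a ≠ 0 := by
    rintro rfl
    have : J * K = ⊥ := by rw [← hK]; simp
    rcases mul_eq_zero.mp this with h | h
    · exact hJ h
    · rw [h, Ideal.zero_eq_bot, sup_bot_eq] at hsup
      exact hItop hsup
  refine ⟨K, a, ha0, ?_, hK.symm, hsup⟩
  rintro rfl
  rw [Ideal.mul_bot, Ideal.span_singleton_eq_bot] at hK
  exact ha0 hK

/-- Every ideal class of a Dedekind domain contains an integral ideal coprime to a given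
nonzero ideal. -/
theorem exists_mk0_eq_and_isCoprime (C : ClassGroup R) {I : Ideal R} (hI : I ≠ ⊥) :
    ∃ K : (Ideal R)⁰, ClassGroup.mk0 K = C ∧ IsCoprime (K : Ideal R) I := by
  obtain ⟨J, hJ⟩ := ClassGroup.mk0_surjective C⁻¹
  have hJ0 : (J : Ideal R) ≠ ⊥ := by
    have := J.2
    rw [mem_nonZeroDivisors_iff_ne_zero] at this
    exact this
  obtain ⟨K, a, ha, hK0, hJK, hsup⟩ := exists_mul_eq_span_and_sup_eq_top hJ0 hI
  have hKmem : K ∈ (Ideal R)⁰ := mem_nonZeroDivisors_iff_ne_zero.mpr hK0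
  refine ⟨⟨K, hKmem⟩, ?_, ?_⟩
  · have hprod : ClassGroup.mk0 (J * ⟨K, hKmem⟩) = 1 := by
      rw [ClassGroup.mk0_eq_one_iff]
      change ((J : Ideal R) * K).IsPrincipal
      rw [hJK]
      exact ⟨⟨a, rfl⟩⟩
    rw [map_mul, hJ] at hprod
    exact (inv_mul_eq_one.mp hprod).symm
  · rw [Ideal.isCoprime_iff_sup_eq, sup_comm]
    exact hsup

/-- Variant: an integral representative of the class of a given nonzero ideal `A`, coprime to `I`,
with the explicit relation `span {x} * A = span {y} * K`. -/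
theorem exists_span_mul_eq_span_mul_and_isCoprime {A I : Ideal R} (hA : A ≠ ⊥) (hI : I ≠ ⊥) :
    ∃ (K : Ideal R) (x y : R), x ≠ 0 ∧ y ≠ 0 ∧ K ≠ ⊥ ∧
      Ideal.span {x} * A = Ideal.span {y} * K ∧ IsCoprime K I := by
  have hAmem : A ∈ (Ideal R)⁰ := mem_nonZeroDivisors_iff_ne_zero.mpr hA
  obtain ⟨K, hK, hcop⟩ := exists_mk0_eq_and_isCoprime (ClassGroup.mk0 ⟨A, hAmem⟩) hI
  have hK0 : (K : Ideal R) ≠ ⊥ := by
    have := K.2
    rw [mem_nonZeroDivisors_iff_ne_zero] at this
    exact this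
  obtain ⟨x, y, hx, hy, h⟩ := (ClassGroup.mk0_eq_mk0_iff).mp hK
  exact ⟨K, y, x, hy, hx, hK0, h.symm, hcop⟩

/-- A subgroup of the class group containing the classes of all integral ideals coprime to a
fixed nonzero ideal is everything. -/
theorem subgroup_eq_top_of_forall_isCoprime (H : Subgroup (ClassGroup R)) {I : Ideal R}
    (hI : I ≠ ⊥)
    (h : ∀ K : (Ideal R)⁰, IsCoprime (K : Ideal R) I → ClassGroup.mk0 K ∈ H) : H = ⊤ := by
  rw [eq_top_iff]
  intro C _
  obtain ⟨K, rfl, hK⟩ := exists_mk0_eq_and_isCoprime C hI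
  exact h K hK

/-- The class of a nonzero ideal coprime to `I` lies in any subgroup containing the classes of
all nonzero primes not containing `I`. -/
theorem mk0_mem_of_forall_prime (H : Subgroup (ClassGroup R)) {I : Ideal R}
    (h : ∀ P : Ideal R, ∀ _ : P.IsPrime, ∀ hP0 : P ≠ ⊥, ¬ I ≤ P →
      ClassGroup.mk0 ⟨P, mem_nonZeroDivisors_iff_ne_zero.mpr hP0⟩ ∈ H)
    (K : Ideal R) (hK0 : K ≠ ⊥) (hK : IsCoprime K I) :
    ClassGroup.mk0 ⟨K, mem_nonZeroDivisors_iff_ne_zero.mpr hK0⟩ ∈ H := by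
  induction K using UniqueFactorizationMonoid.induction_on_prime with
  | h₁ => exact absurd rfl hK0
  | h₂ K hu =>
    have hK1 : K = 1 := by
      rw [Ideal.one_eq_top]
      exact Ideal.isUnit_iff.mp hu
    subst hK1
    have : (⟨(1 : Ideal R), mem_nonZeroDivisors_iff_ne_zero.mpr hK0⟩ : (Ideal R)⁰) = 1 := rfl
    rw [this, map_one]
    exact H.one_mem
  | h₃ A P hA0 hP ih =>
    have hP0 : P ≠ ⊥ := hP.ne_zero
    have hPprime : P.IsPrime := Ideal.isPrime_of_prime hP
    have hcopP : IsCoprime P I := hK.of_mul_left_left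
    have hcopA : IsCoprime A I := hK.of_mul_left_right
    have hnot : ¬ I ≤ P := by
      intro hle
      rw [Ideal.isCoprime_iff_sup_eq] at hcopP
      have : P ⊔ I = P := sup_eq_left.mpr hle
      rw [this] at hcopP
      exact hPprime.ne_top hcopP
    have h1 := h P hPprime hP0 hnot
    have h2 := ih hA0 hcopA
    have : (⟨P * A, mem_nonZeroDivisors_iff_ne_zero.mpr hK0⟩ : (Ideal R)⁰) =
        ⟨P, mem_nonZeroDivisors_iff_ne_zero.mpr hP0⟩ *
          ⟨A, mem_nonZeroDivisors_iff_ne_zero.mpr hA0⟩ := rfl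
    rw [this, map_mul]
    exact H.mul_mem h1 h2

/-- A subgroup of the class group containing the classes of all nonzero primes not containing a
fixed nonzero ideal `I` is everything. -/
theorem subgroup_eq_top_of_forall_prime (H : Subgroup (ClassGroup R)) {I : Ideal R}
    (hI : I ≠ ⊥)
    (h : ∀ P : Ideal R, ∀ _ : P.IsPrime, ∀ hP0 : P ≠ ⊥, ¬ I ≤ P →
      ClassGroup.mk0 ⟨P, mem_nonZeroDivisors_iff_ne_zero.mpr hP0⟩ ∈ H) : H = ⊤ := by
  refine subgroup_eq_top_of_forall_isCoprime H hI fun K hK => ?_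
  have hK0 : (K : Ideal R) ≠ ⊥ := mem_nonZeroDivisors_iff_ne_zero.mp K.2
  exact mk0_mem_of_forall_prime H h K hK0 hK

end Dedekind

end Fermat.Agent.S14.H18
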