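import Mathlib
import Fermat.Agent.S14.H18_CoprimeRep

/-!
# Abstract reciprocity from the crossing lemma (S14, WP5 Step 5, helper18)

`R` is a Dedekind domain of characteristic zero in which every nonzero prime contains a rational
prime (e.g. `𝓞 K`), `G` a group of prime order `p` (e.g. `Gal(L/K)`), `f : Ideal R → G` a map
which is multiplicative on nonzero ideals (the Artin map), `N` a subgroup of the class group
(the classes of norms from `L`).  Hypotheses: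

* `hN : N ≠ ⊤` (first inequality);
* `hpow : ∀ x, x ^ p ∈ N` (`𝔞 ^ p` is the norm of the extension of `𝔞`);
* `hsplit`: a prime with trivial symbol has its class in `N` (split primes are norms);
* `hcross`: the crossing lemma for two primes with nontrivial symbol lying over distinct
  rational primes `q0 ≠ q1` (outside a set `bad` of rational primes over which `f` is trivial).

Conclusion: for every nonzero ideal `𝔞`, the class of `𝔞` lies in `N` iff `f 𝔞 = 1`.  In particular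
`f` is trivial on principal ideals (Artin reciprocity for the unramified cyclic extension).
-/

namespace Fermat.Agent.S14.H18

open scoped nonZeroDivisors

section

variable {R : Type*} [CommRing R] [IsDedekindDomain R]

/-- The class of a nonzero ideal, as a total function (junk value `1` at `⊥`). -/
noncomputable def cls (𝔞 : Ideal R) : ClassGroup R :=
  open Classical in
  if h : 𝔞 ≠ ⊥ then ClassGroup.mk0 ⟨𝔞, mem_nonZeroDivisors_iff_ne_zero.mpr h⟩ else 1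

theorem cls_of_ne_bot {𝔞 : Ideal R} (h : 𝔞 ≠ ⊥) :
    cls 𝔞 = ClassGroup.mk0 ⟨𝔞, mem_nonZeroDivisors_iff_ne_zero.mpr h⟩ := by
  rw [cls, dif_pos h]

theorem cls_coe (𝔞 : (Ideal R)⁰) : cls (𝔞 : Ideal R) = ClassGroup.mk0 𝔞 := by
  rw [cls_of_ne_bot (mem_nonZeroDivisors_iff_ne_zero.mp 𝔞.2)]

theorem cls_mul {𝔞 𝔟 : Ideal R} (h𝔞 : 𝔞 ≠ ⊥) (h𝔟 : 𝔟 ≠ ⊥) : cls (𝔞 * 𝔟) = cls 𝔞 * cls 𝔟 := by
  have hab : 𝔞 * 𝔟 ≠ ⊥ := mul_ne_zero h𝔞 h𝔟
  rw [cls_of_ne_bot hab, cls_of_ne_bot h𝔞, cls_of_ne_bot h𝔟, ← map_mul]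
  rfl

theorem cls_top : cls (⊤ : Ideal R) = 1 := by
  have h : (⊤ : Ideal R) ≠ ⊥ := top_ne_bot
  rw [cls_of_ne_bot h]
  have : (⟨(⊤ : Ideal R), mem_nonZeroDivisors_iff_ne_zero.mpr h⟩ : (Ideal R)⁰) = 1 := by
    ext1; exact Ideal.one_eq_top.symm
  rw [this, map_one]

theorem cls_span_singleton {x : R} (hx : x ≠ 0) : cls (Ideal.span {x}) = 1 := by
  have h : Ideal.span {x} ≠ (⊥ : Ideal R) := by
    rwa [Ne, Ideal.span_singleton_eq_bot]
  rw [cls_of_ne_bot h, ClassGroup.mk0_eq_one_iff]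
  exact ⟨⟨x, rfl⟩⟩

end

section Main

variable {R : Type*} [CommRing R] [IsDedekindDomain R] [CharZero R]
variable {G : Type*} [Group G] {p : ℕ} [hp : Fact p.Prime]

/-- Every element of a group of prime order `p` is a power of a given nontrivial element. -/
private theorem exists_pow_eq (hG : Nat.card G = p) {s g : G} (hs : s ≠ 1) : ∃ d : ℕ, g = s ^ d := by
  obtain ⟨d, hd⟩ := mem_powers_of_prime_card hG hs (g' := g)
  exact ⟨d, hd.symm⟩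

/-- **Abstract reciprocity.**  See the module docstring. -/
theorem cls_mem_iff_eq_one (hG : Nat.card G = p) (f : Ideal R → G)
    (hf : ∀ 𝔞 𝔟 : Ideal R, 𝔞 ≠ ⊥ → 𝔟 ≠ ⊥ → f (𝔞 * 𝔟) = f 𝔞 * f 𝔟)
    (N : Subgroup (ClassGroup R)) (hN : N ≠ ⊤) (hpow : ∀ x : ClassGroup R, x ^ p ∈ N)
    (hrat : ∀ Q : Ideal R, Q.IsPrime → Q ≠ ⊥ → ∃ q : ℕ, q.Prime ∧ (q : R) ∈ Q)
    (bad : ℕ → Prop)
    (hbad : ∀ q : ℕ, bad q → ∀ Q : Ideal R, Q.IsPrime → Q ≠ ⊥ → (q : R) ∈ Q → f Q = 1)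
    (hsplit : ∀ Q : Ideal R, Q.IsPrime → Q ≠ ⊥ → f Q = 1 → cls Q ∈ N)
    (hcross : ∀ q0 q1 : ℕ, q0.Prime → q1.Prime → q0 ≠ q1 → ¬ bad q0 → ¬ bad q1 →
      ∀ Q0 Q1 : Ideal R, Q0.IsPrime → Q1.IsPrime → Q0 ≠ ⊥ → Q1 ≠ ⊥ →
      (q0 : R) ∈ Q0 → (q1 : R) ∈ Q1 → f Q0 ≠ 1 → f Q1 ≠ 1 →
      ∀ d : ℕ, f Q1 = f Q0 ^ d → cls Q1 * (cls Q0 ^ d)⁻¹ ∈ N)
    (𝔞 : Ideal R) (h𝔞 : 𝔞 ≠ ⊥) : cls 𝔞 ∈ N ↔ f 𝔞 = 1 := by
  classical
  -- `f ⊤ = 1`
  have hf1 : f ⊤ = 1 := by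
    have h := hf ⊤ ⊤ top_ne_bot top_ne_bot
    rw [Ideal.mul_top] at h
    exact (left_eq_mul.mp h)
  -- Step A: there is a prime with nontrivial symbol
  have exA : ∃ Q0 : Ideal R, Q0.IsPrime ∧ Q0 ≠ ⊥ ∧ f Q0 ≠ 1 := by
    by_contra hcon
    push Not at hcon
    apply hN
    apply subgroup_eq_top_of_forall_prime N (I := ⊤) top_ne_bot
    intro P hP hP0 _
    have := hsplit P hP hP0 (hcon P hP hP0)
    rwa [cls_of_ne_bot hP0] at this
  obtain ⟨Q0, hQ0p, hQ00, hQ0f⟩ := exA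
  obtain ⟨q0, hq0, hq0Q⟩ := hrat Q0 hQ0p hQ00
  have hq0bad : ¬ bad q0 := fun hb => hQ0f (hbad q0 hb Q0 hQ0p hQ00 hq0Q)
  -- Step B: a second such prime not containing `q0`
  have exB : ∃ Q1 : Ideal R, Q1.IsPrime ∧ Q1 ≠ ⊥ ∧ f Q1 ≠ 1 ∧ (q0 : R) ∉ Q1 := by
    by_contra hcon
    push Not at hcon
    apply hN
    have hI : Ideal.span {(q0 : R)} ≠ ⊥ := by
      rw [Ne, Ideal.span_singleton_eq_bot]
      exact_mod_cast hq0.ne_zero
    apply subgroup_eq_top_of_forall_prime N hI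
    intro P hP hP0 hnot
    have hq0P : (q0 : R) ∉ P := fun h => hnot ((Ideal.span_singleton_le_iff_mem P).mpr h)
    have hfP : f P = 1 := by
      by_contra hne
      exact hq0P (hcon P hP hP0 hne)
    have := hsplit P hP hP0 hfP
    rwa [cls_of_ne_bot hP0] at this
  obtain ⟨Q1, hQ1p, hQ10, hQ1f, hq0Q1⟩ := exB
  obtain ⟨q1, hq1, hq1Q⟩ := hrat Q1 hQ1p hQ10
  have hq01 : q0 ≠ q1 := by
    rintro rfl
    exact hq0Q1 hq1Q
  have hq1bad : ¬ bad q1 := fun hb => hQ1f (hbad q1 hb Q1 hQ1p hQ10 hq1Q)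
  -- two distinct rational primes cannot lie in the same prime ideal
  have hcop : ∀ (a b : ℕ), a.Prime → b.Prime → a ≠ b → ∀ Q : Ideal R, Q.IsPrime →
      (a : R) ∈ Q → (b : R) ∉ Q := by
    intro a b ha hb hab Q hQ haQ hbQ
    have hco : IsCoprime (a : ℤ) (b : ℤ) :=
      Nat.isCoprime_iff_coprime.mpr ((Nat.coprime_primes ha hb).mpr hab)
    obtain ⟨u, v, huv⟩ := hco
    have h1 : (u : R) * (a : R) + (v : R) * (b : R) = 1 := by
      have := congrArg (Int.cast : ℤ → R) huv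
      push_cast at this
      exact this
    have : (1 : R) ∈ Q := by
      rw [← h1]
      exact Q.add_mem (Q.mul_mem_left _ haQ) (Q.mul_mem_left _ hbQ)
    exact hQ.ne_top ((Ideal.eq_top_iff_one Q).mpr this)
  set s0 := f Q0 with hs0
  set c0 : ClassGroup R ⧸ N := QuotientGroup.mk (cls Q0) with hc0
  -- the projection to `C = Cl / N`
  let π : Ideal R → ClassGroup R ⧸ N := fun 𝔟 => QuotientGroup.mk (cls 𝔟)
  have hπmul : ∀ 𝔟 𝔠 : Ideal R, 𝔟 ≠ ⊥ → 𝔠 ≠ ⊥ → π (𝔟 * 𝔠) = π 𝔟 * π 𝔠 := by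
    intro 𝔟 𝔠 hb hc
    simp only [π]
    rw [cls_mul hb hc, QuotientGroup.mk_mul]
  have hπone : ∀ 𝔟 : Ideal R, π 𝔟 = 1 ↔ cls 𝔟 ∈ N := by
    intro 𝔟
    simp only [π]
    exact QuotientGroup.eq_one_iff _
  -- translation of `hcross`
  have hcross' : ∀ q q' : ℕ, q.Prime → q'.Prime → q ≠ q' → ¬ bad q → ¬ bad q' →
      ∀ P P' : Ideal R, P.IsPrime → P'.IsPrime → P ≠ ⊥ → P' ≠ ⊥ →
      (q : R) ∈ P → (q' : R) ∈ P' → f P ≠ 1 → f P' ≠ 1 →
      ∀ d : ℕ, f P' = f P ^ d → π P' = π P ^ d := by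
    intro q q' hq hq' hne hb hb' P P' hP hP' hP0 hP'0 hqP hq'P' hfP hfP' d hd
    have := hcross q q' hq hq' hne hb hb' P P' hP hP' hP0 hP'0 hqP hq'P' hfP hfP' d hd
    simp only [π]
    rw [← QuotientGroup.mk_pow, QuotientGroup.eq]
    have h2 : (cls P' * (cls P ^ d)⁻¹)⁻¹ ∈ N := N.inv_mem this
    rw [mul_inv_rev, inv_inv, mul_comm] at h2
    exact h2
  -- Step C: every nonzero prime has `f Q = s0 ^ d` and `π Q = c0 ^ d` for a common `d`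
  have keyPrime : ∀ Q : Ideal R, Q.IsPrime → Q ≠ ⊥ → ∃ d : ℕ, f Q = s0 ^ d ∧ π Q = c0 ^ d := by
    intro Q hQ hQ0
    by_cases hfQ : f Q = 1
    · refine ⟨0, by simpa using hfQ, ?_⟩
      rw [pow_zero, hπone]
      exact hsplit Q hQ hQ0 hfQ
    · obtain ⟨q, hq, hqQ⟩ := hrat Q hQ hQ0
      have hqbad : ¬ bad q := fun hb => hfQ (hbad q hb Q hQ hQ0 hqQ)
      by_cases hqq0 : q = q0
      · -- `Q` lies over `q0`: go through `Q1`
        subst hqq0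
        obtain ⟨d1, hd1⟩ := exists_pow_eq hG hQ0f (g := f Q1)
        have h1 : π Q1 = c0 ^ d1 :=
          hcross' q q1 hq0 hq1 hq01 hq0bad hq1bad Q0 Q1 hQ0p hQ1p hQ00 hQ10 hq0Q hq1Q hQ0f hQ1f
            d1 hd1
        obtain ⟨e, he⟩ := exists_pow_eq hG hQ1f (g := f Q)
        have h2 : π Q = π Q1 ^ e :=
          hcross' q1 q hq1 hq0 (Ne.symm hq01) hq1bad hq0bad Q1 Q hQ1p hQ hQ10 hQ0 hq1Q hqQ hQ1f hfQ
            e he
        refine ⟨d1 * e, ?_, ?_⟩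
        · rw [he, hd1, pow_mul]
        · rw [h2, h1, pow_mul]
      · obtain ⟨d, hd⟩ := exists_pow_eq hG hQ0f (g := f Q)
        exact ⟨d, hd, hcross' q0 q hq0 hq (Ne.symm hqq0) hq0bad hqbad Q0 Q hQ0p hQ hQ00 hQ0 hq0Q hqQ
          hQ0f hfQ d hd⟩
  -- Step D: the same for all nonzero ideals
  have keyAll : ∀ 𝔟 : Ideal R, 𝔟 ≠ ⊥ → ∃ d : ℕ, f 𝔟 = s0 ^ d ∧ π 𝔟 = c0 ^ d := by
    intro 𝔟
    induction 𝔟 using UniqueFactorizationMonoid.induction_on_prime with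
    | h₁ => intro h; exact absurd rfl h
    | h₂ 𝔟 hu =>
      intro _
      have : 𝔟 = ⊤ := Ideal.isUnit_iff.mp hu
      subst this
      refine ⟨0, by simpa using hf1, ?_⟩
      rw [pow_zero, hπone, cls_top]
      exact N.one_mem
    | h₃ 𝔟 P hb0 hP ih =>
      intro _
      have hP0 : P ≠ ⊥ := hP.ne_zero
      have hPprime : P.IsPrime := Ideal.isPrime_of_prime hP
      obtain ⟨d1, hd1, hd1'⟩ := keyPrime P hPprime hP0
      obtain ⟨d2, hd2, hd2'⟩ := ih hb0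
      refine ⟨d1 + d2, ?_, ?_⟩
      · rw [hf P 𝔟 hP0 hb0, hd1, hd2, pow_add]
      · rw [hπmul P 𝔟 hP0 hb0, hd1', hd2', pow_add]
  -- Step E: orders
  have hs0p : s0 ^ p = 1 := by
    have := pow_card_eq_one' (G := G) (x := s0)
    rwa [hG] at this
  have hc0p : c0 ^ p = 1 := by
    rw [hc0, ← QuotientGroup.mk_pow, QuotientGroup.eq_one_iff]
    exact hpow _
  have hc0ne : c0 ≠ 1 := by
    intro hc
    apply hN
    apply subgroup_eq_top_of_forall_isCoprime N (I := ⊤) top_ne_bot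
    intro K _
    obtain ⟨d, -, hd⟩ := keyAll K (mem_nonZeroDivisors_iff_ne_zero.mp K.2)
    rw [hc, one_pow, hπone, cls_coe] at hd
    exact hd
  have hos : orderOf s0 = p := orderOf_eq_prime hs0p hQ0f
  have hoc : orderOf c0 = p := orderOf_eq_prime hc0p hc0ne
  obtain ⟨d, hd, hd'⟩ := keyAll 𝔞 h𝔞
  rw [← hπone, hd, hd', ← orderOf_dvd_iff_pow_eq_one, ← orderOf_dvd_iff_pow_eq_one, hos, hoc]

/-- In the situation of `cls_mem_iff_eq_one`, `f` is trivial on nonzero principal ideals. -/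
theorem eq_one_of_span_singleton (hG : Nat.card G = p) (f : Ideal R → G)
    (hf : ∀ 𝔞 𝔟 : Ideal R, 𝔞 ≠ ⊥ → 𝔟 ≠ ⊥ → f (𝔞 * 𝔟) = f 𝔞 * f 𝔟)
    (N : Subgroup (ClassGroup R)) (hN : N ≠ ⊤) (hpow : ∀ x : ClassGroup R, x ^ p ∈ N)
    (hrat : ∀ Q : Ideal R, Q.IsPrime → Q ≠ ⊥ → ∃ q : ℕ, q.Prime ∧ (q : R) ∈ Q)
    (bad : ℕ → Prop)
    (hbad : ∀ q : ℕ, bad q → ∀ Q : Ideal R, Q.IsPrime → Q ≠ ⊥ → (q : R) ∈ Q → f Q = 1)
    (hsplit : ∀ Q : Ideal R, Q.IsPrime → Q ≠ ⊥ → f Q = 1 → cls Q ∈ N)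
    (hcross : ∀ q0 q1 : ℕ, q0.Prime → q1.Prime → q0 ≠ q1 → ¬ bad q0 → ¬ bad q1 →
      ∀ Q0 Q1 : Ideal R, Q0.IsPrime → Q1.IsPrime → Q0 ≠ ⊥ → Q1 ≠ ⊥ →
      (q0 : R) ∈ Q0 → (q1 : R) ∈ Q1 → f Q0 ≠ 1 → f Q1 ≠ 1 →
      ∀ d : ℕ, f Q1 = f Q0 ^ d → cls Q1 * (cls Q0 ^ d)⁻¹ ∈ N)
    {x : R} (hx : x ≠ 0) : f (Ideal.span {x}) = 1 := by
  have h : Ideal.span {x} ≠ (⊥ : Ideal R) := by
    rwa [Ne, Ideal.span_singleton_eq_bot]
  rw [← cls_mem_iff_eq_one hG f hf N hN hpow hrat bad hbad hsplit hcross _ h,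
    cls_span_singleton hx]
  exact N.one_mem

end Main

section NumberField

open NumberField

/-- A prime ideal of a commutative ring containing a natural number `n ≠ 1` (as an element)
contains a prime factor of `n` or `n = 0`. -/
theorem exists_prime_natCast_mem {R : Type*} [CommRing R] (Q : Ideal R) [hQ : Q.IsPrime] :
    ∀ n : ℕ, n ≠ 0 → (n : R) ∈ Q → ∃ q : ℕ, q.Prime ∧ q ∣ n ∧ (q : R) ∈ Q := by
  intro n
  induction n using Nat.strong_induction_on with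
  | _ n ih =>
    intro hn0 hnQ
    have hn1 : n ≠ 1 := by
      rintro rfl
      rw [Nat.cast_one] at hnQ
      exact hQ.ne_top ((Ideal.eq_top_iff_one Q).mpr hnQ)
    have hmf : (n.minFac).Prime := Nat.minFac_prime hn1
    obtain ⟨m, hm⟩ : n.minFac ∣ n := Nat.minFac_dvd n
    have hm0 : m ≠ 0 := by
      rintro rfl
      rw [mul_zero] at hm
      exact hn0 hm
    have hmem : ((n.minFac : ℕ) : R) * (m : R) ∈ Q := by
      rw [← Nat.cast_mul, ← hm]; exact hnQ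
    rcases hQ.mem_or_mem hmem with h | h
    · exact ⟨n.minFac, hmf, Nat.minFac_dvd n, h⟩
    · have hlt : m < n := by
        calc m = 1 * m := (one_mul m).symm
          _ < n.minFac * m := Nat.mul_lt_mul_of_pos_right hmf.one_lt (Nat.pos_of_ne_zero hm0)
          _ = n := hm.symm
      obtain ⟨q, hq, hqm, hqQ⟩ := ih m hlt hm0 h
      exact ⟨q, hq, hqm.trans (Dvd.intro_left n.minFac hm.symm), hqQ⟩

/-- Every nonzero prime of the ring of integers of a number field contains a rational prime. -/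
theorem exists_prime_mem_of_isPrime {K : Type*} [Field K] [NumberField K] (Q : Ideal (𝓞 K))
    (hQ : Q.IsPrime) (hQ0 : Q ≠ ⊥) : ∃ q : ℕ, q.Prime ∧ (q : 𝓞 K) ∈ Q := by
  have hmem : ((Ideal.absNorm Q : ℕ) : 𝓞 K) ∈ Q := Ideal.absNorm_mem Q
  have hne : Ideal.absNorm Q ≠ 0 := by
    rw [Ne, Ideal.absNorm_eq_zero_iff]
    exact hQ0
  obtain ⟨q, hq, -, hqQ⟩ := exists_prime_natCast_mem Q _ hne hmem
  exact ⟨q, hq, hqQ⟩

end NumberField

end Fermat.Agent.S14.H18
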