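import Fermat.Agent.S14.H63_AmbigClass

set_option autoImplicit false
set_option linter.unusedSectionVars false

namespace Fermat.Agent.S14.H63

open Module NumberField Fermat.Agent.Kummer.H63
open scoped Pointwise nonZeroDivisors

variable {K L : Type} [Field K] [Field L] [NumberField K] [NumberField L] [Algebra K L]
  [IsGalois K L]

/-- The data attached to an ambiguous ideal class. -/
lemma exists_amb_data (σ : L ≃ₐ[K] L) (c : ClassGroup (𝓞 L)) (hc : clAct σ c = c) :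
    ∃ (J : (Ideal (𝓞 L))⁰) (x y : 𝓞 L) (u : (𝓞 K)ˣ), ClassGroup.mk0 J = c ∧ x ≠ 0 ∧ y ≠ 0 ∧
      Ideal.span {x} * σ • (J : Ideal (𝓞 L)) = Ideal.span {y} * J ∧
      Algebra.norm K (y : L) = ((u : 𝓞 K) : K) * Algebra.norm K (x : L) := by
  obtain ⟨J, rfl⟩ := ClassGroup.mk0_surjective c
  rw [clAct_mk0] at hc
  obtain ⟨x, y, hx, hy, hxy⟩ := ClassGroup.mk0_eq_mk0_iff.mp hc
  rw [coe_idealAct] at hxy
  have hJ0 : (J : Ideal (𝓞 L)) ≠ ⊥ := mem_nonZeroDivisors_iff_ne_zero.mp J.2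
  have hNJ0 : Ideal.relNorm (𝓞 K) (J : Ideal (𝓞 L)) ≠ ⊥ := by
    rw [Ne, Ideal.relNorm_eq_bot_iff]; exact hJ0
  have h1 := congrArg (Ideal.relNorm (𝓞 K)) hxy
  rw [map_mul, map_mul, Ideal.relNorm_singleton, Ideal.relNorm_singleton, Ideal.relNorm_smul] at h1
  have h2 := mul_right_cancel₀ hNJ0 h1
  rw [Ideal.span_singleton_eq_span_singleton] at h2
  obtain ⟨u, hu⟩ := h2
  refine ⟨J, x, y, u, rfl, hx, hy, hxy, ?_⟩
  have h3 := congrArg (algebraMap (𝓞 K) K) hu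
  rw [map_mul, Algebra.algebraMap_intNorm (L := L), Algebra.algebraMap_intNorm (L := L)] at h3
  rw [← h3, mul_comm]

variable {p : ℕ} [hp : Fact p.Prime]

/-- `|Cl_L^G| ≤ [E_K : N E_L] * |im (Cl_K → Cl_L)|` for an unramified cyclic extension of odd
prime degree. -/
theorem card_ambig_le (hp2 : p ≠ 2) (hKL : Module.finrank K L = p) (σ : L ≃ₐ[K] L)
    (hσ : ∀ τ : L ≃ₐ[K] L, τ ∈ Subgroup.zpowers σ)
    (hunr : ∀ Q : Ideal (𝓞 L), Q.IsPrime → Q ≠ ⊥ → Q.ramificationIdx (𝓞 K) = 1) :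
    Nat.card (clAct σ / MonoidHom.id (ClassGroup (𝓞 L))).ker ≤
      Nat.card (fixedSub (unitsEnd σ) ⧸ LinearMap.range (normTo (unitsEnd_pow_eq_one hKL σ))) *
        Nat.card (ClassGroup.extendedHom (𝓞 K) (𝓞 L)).range := by
  classical
  have hdata : ∀ c : (clAct σ / MonoidHom.id (ClassGroup (𝓞 L))).ker,
      ∃ (J : (Ideal (𝓞 L))⁰) (x y : 𝓞 L) (u : (𝓞 K)ˣ), ClassGroup.mk0 J = c.1 ∧ x ≠ 0 ∧ y ≠ 0 ∧
      Ideal.span {x} * σ • (J : Ideal (𝓞 L)) = Ideal.span {y} * J ∧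
      Algebra.norm K (y : L) = ((u : 𝓞 K) : K) * Algebra.norm K (x : L) :=
    fun c => exists_amb_data σ c.1 ((mem_ker_clAct_div σ c.1).mp c.2)
  choose J x y u hJc hx hy hxy hu using hdata
  have hmem : ∀ v : Additive (𝓞 K)ˣ, unitsIncl K L v ∈ fixedSub (unitsEnd σ) := by
    intro v
    rw [← range_unitsIncl σ hσ]
    exact ⟨v, rfl⟩
  let δ : (clAct σ / MonoidHom.id (ClassGroup (𝓞 L))).ker →
      (fixedSub (unitsEnd σ) ⧸ LinearMap.range (normTo (unitsEnd_pow_eq_one hKL σ))) :=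
    fun c => Submodule.Quotient.mk ⟨unitsIncl K L (Additive.ofMul (u c)), hmem _⟩
  have hkey : ∀ c c' : (clAct σ / MonoidHom.id (ClassGroup (𝓞 L))).ker, δ c' = δ c →
      ∃ d : ClassGroup (𝓞 K), c'.1 = c.1 * ClassGroup.extendedHom (𝓞 K) (𝓞 L) d := by
    intro c c' hcc
    obtain ⟨e, he⟩ := (Submodule.Quotient.eq _).mp hcc
    have he' : normEnd p (unitsEnd σ) e =
        unitsIncl K L (Additive.ofMul (u c')) - unitsIncl K L (Additive.ofMul (u c)) := by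
      have := congrArg Subtype.val he
      rwa [normTo_apply] at this
    have he'' := congrArg uval he'
    rw [uval_normEnd_eq_norm hKL σ hσ, uval_sub, uval_unitsIncl, uval_unitsIncl, ← map_div₀] at he''
    have he3 := (algebraMap K L).injective he''
    simp only [toMul_ofMul] at he3
    have hu0 : (((u c : (𝓞 K)ˣ) : 𝓞 K) : K) ≠ 0 := fun h0 =>
      (u c).ne_zero (RingOfIntegers.coe_eq_zero_iff.mp h0)
    rw [← hJc c, ← hJc c']
    refine mk0_eq_mul_extendedHom hunr σ hσ (J c) (J c') (x c) (y c) (x c') (y c')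
      (hx c) (hy c) (hx c') (hy c') (hxy c) (hxy c') e.toMul ?_
    rw [hu c, hu c']
    change _ = _ * _ * Algebra.norm K (uval e)
    rw [he3]
    field_simp
  have hfin : Finite (fixedSub (unitsEnd σ) ⧸
      LinearMap.range (normTo (unitsEnd_pow_eq_one hKL σ))) :=
    Nat.finite_of_card_ne_zero (units_herbrand hp2 hKL σ hσ).1.ne'
  let rep : (fixedSub (unitsEnd σ) ⧸ LinearMap.range (normTo (unitsEnd_pow_eq_one hKL σ))) →
      (clAct σ / MonoidHom.id (ClassGroup (𝓞 L))).ker :=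
    fun h => if hh : ∃ c, δ c = h then hh.choose else 1
  have hrep : ∀ c, δ (rep (δ c)) = δ c := by
    intro c
    have hh : ∃ c', δ c' = δ c := ⟨c, rfl⟩
    simp only [rep, dif_pos hh]
    exact hh.choose_spec
  have hrange : ∀ c : (clAct σ / MonoidHom.id (ClassGroup (𝓞 L))).ker,
      c.1 / (rep (δ c)).1 ∈ (ClassGroup.extendedHom (𝓞 K) (𝓞 L)).range := by
    intro c
    obtain ⟨d, hd⟩ := hkey (rep (δ c)) c (hrep c).symm
    exact ⟨d, by rw [hd, mul_div_cancel_left]⟩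
  let Φ : (clAct σ / MonoidHom.id (ClassGroup (𝓞 L))).ker →
      (fixedSub (unitsEnd σ) ⧸ LinearMap.range (normTo (unitsEnd_pow_eq_one hKL σ))) ×
        (ClassGroup.extendedHom (𝓞 K) (𝓞 L)).range :=
    fun c => (δ c, ⟨c.1 / (rep (δ c)).1, hrange c⟩)
  have hΦ : Function.Injective Φ := by
    intro c c' hcc
    have h1 : δ c = δ c' := congrArg Prod.fst hcc
    have h2 : c.1 / (rep (δ c)).1 = c'.1 / (rep (δ c')).1 :=
      congrArg (fun z => (z.2 : ClassGroup (𝓞 L))) hcc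
    rw [h1] at h2
    exact Subtype.ext (div_left_injective h2)
  calc Nat.card (clAct σ / MonoidHom.id (ClassGroup (𝓞 L))).ker
      ≤ Nat.card ((fixedSub (unitsEnd σ) ⧸ LinearMap.range (normTo (unitsEnd_pow_eq_one hKL σ))) ×
        (ClassGroup.extendedHom (𝓞 K) (𝓞 L)).range) := Nat.card_le_card_of_injective Φ hΦ
    _ = _ := Nat.card_prod _ _

/-- `p * |Cl_L^G| ≤ h_K` for an unramified cyclic extension of odd prime degree. -/
theorem mul_card_ambig_le (hp2 : p ≠ 2) (hKL : Module.finrank K L = p) (σ : L ≃ₐ[K] L)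
    (hσ : ∀ τ : L ≃ₐ[K] L, τ ∈ Subgroup.zpowers σ)
    (hunr : ∀ Q : Ideal (𝓞 L), Q.IsPrime → Q ≠ ⊥ → Q.ramificationIdx (𝓞 K) = 1) :
    p * Nat.card (clAct σ / MonoidHom.id (ClassGroup (𝓞 L))).ker ≤
      Nat.card (ClassGroup (𝓞 K)) := by
  have h1 := card_ambig_le hp2 hKL σ hσ hunr
  have h2 := card_H1_le_card_ker hKL σ hσ hunr
  obtain ⟨h3, h4⟩ := units_herbrand hp2 hKL σ hσ
  have h5 : Nat.card (ClassGroup.extendedHom (𝓞 K) (𝓞 L)).ker *
      Nat.card (ClassGroup.extendedHom (𝓞 K) (𝓞 L)).range = Nat.card (ClassGroup (𝓞 K)) := by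
    rw [← Subgroup.index_ker, Subgroup.card_mul_index]
  calc p * Nat.card (clAct σ / MonoidHom.id (ClassGroup (𝓞 L))).ker
      ≤ p * (Nat.card (fixedSub (unitsEnd σ) ⧸
          LinearMap.range (normTo (unitsEnd_pow_eq_one hKL σ))) *
        Nat.card (ClassGroup.extendedHom (𝓞 K) (𝓞 L)).range) := Nat.mul_le_mul_left _ h1
    _ = (p * Nat.card (fixedSub (unitsEnd σ) ⧸
          LinearMap.range (normTo (unitsEnd_pow_eq_one hKL σ)))) *
        Nat.card (ClassGroup.extendedHom (𝓞 K) (𝓞 L)).range := by ring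
    _ ≤ Nat.card (ClassGroup.extendedHom (𝓞 K) (𝓞 L)).ker *
        Nat.card (ClassGroup.extendedHom (𝓞 K) (𝓞 L)).range :=
      Nat.mul_le_mul_right _ (h4.trans h2)
    _ = _ := h5

/-- **The first inequality** for an unramified cyclic extension of odd prime degree:
`p * |N(Cl_L)| ≤ h_K`. -/
theorem first_inequality (hp2 : p ≠ 2) (hKL : Module.finrank K L = p) (σ : L ≃ₐ[K] L)
    (hσ : ∀ τ : L ≃ₐ[K] L, τ ∈ Subgroup.zpowers σ)
    (hunr : ∀ Q : Ideal (𝓞 L), Q.IsPrime → Q ≠ ⊥ → Q.ramificationIdx (𝓞 K) = 1) :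
    p * Nat.card (clNorm K (L := L)).range ≤ Nat.card (ClassGroup (𝓞 K)) :=
  (Nat.mul_le_mul_left p (card_range_clNorm_le σ)).trans (mul_card_ambig_le hp2 hKL σ hσ hunr)

end Fermat.Agent.S14.H63
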