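import Fermat.Agent.S14.Common
import Fermat.Agent.S14.H63_FirstInequality

set_option autoImplicit false
set_option linter.unusedSectionVars false

/-!
# The first inequality in the shapes used by the S14 project (`Common.lean`)
-/

namespace Fermat.Agent.S14.H63

open Module NumberField
open scoped Pointwise nonZeroDivisors

section Bridge

variable {K L : Type*} [Field K] [Field L] [NumberField K] [NumberField L] [Algebra K L]
  [IsGalois K L]

lemma idealNorm_eq_relNormNZ (I : (Ideal (𝓞 L))⁰) :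
    idealNorm K I = relNormNZ (𝓞 K) (𝓞 L) I := Subtype.ext rfl

/-- The norm on class groups of this package is the one of `Common.lean`. -/
theorem clNorm_eq_classNormNF : clNorm K (L := L) = classNormNF K L := by
  ext c
  obtain ⟨I, rfl⟩ := ClassGroup.mk0_surjective c
  rw [clNorm_mk0, classNormNF, classNorm_mk0, idealNorm_eq_relNormNZ]

theorem range_clNorm_eq_normSubgroupNF : (clNorm K (L := L)).range = normSubgroupNF K L := by
  rw [clNorm_eq_classNormNF]; rfl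

end Bridge

variable {K L : Type} [Field K] [Field L] [NumberField K] [NumberField L] [Algebra K L]
  [IsGalois K L] {p : ℕ} [hp : Fact p.Prime]

/-- **First inequality**, `Common.lean` shape: `p * |N(Cl_L)| ≤ h_K`. -/
theorem mul_card_normSubgroupNF_le (hp2 : p ≠ 2) (hKL : Module.finrank K L = p) (σ : L ≃ₐ[K] L)
    (hσ : ∀ τ : L ≃ₐ[K] L, τ ∈ Subgroup.zpowers σ) (hunr : IsUnramifiedEverywhere K L) :
    p * Nat.card (normSubgroupNF K L) ≤ Nat.card (ClassGroup (𝓞 K)) := by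
  rw [← range_clNorm_eq_normSubgroupNF]
  exact first_inequality hp2 hKL σ hσ hunr

/-- **First inequality**: the norm subgroup of the class group is proper. -/
theorem normSubgroupNF_ne_top (hp2 : p ≠ 2) (hKL : Module.finrank K L = p) (σ : L ≃ₐ[K] L)
    (hσ : ∀ τ : L ≃ₐ[K] L, τ ∈ Subgroup.zpowers σ) (hunr : IsUnramifiedEverywhere K L) :
    normSubgroupNF K L ≠ ⊤ := by
  intro htop
  have h1 := mul_card_normSubgroupNF_le hp2 hKL σ hσ hunr
  rw [htop, Subgroup.card_top] at h1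
  have h2 : 0 < Nat.card (ClassGroup (𝓞 K)) := Nat.card_pos
  have h3 : 2 ≤ p := hp.out.two_le
  nlinarith

/-- **First inequality**: some ideal class of `K` is not a norm. -/
theorem exists_not_mem_normSubgroupNF (hp2 : p ≠ 2) (hKL : Module.finrank K L = p)
    (σ : L ≃ₐ[K] L) (hσ : ∀ τ : L ≃ₐ[K] L, τ ∈ Subgroup.zpowers σ)
    (hunr : IsUnramifiedEverywhere K L) :
    ∃ c : ClassGroup (𝓞 K), c ∉ normSubgroupNF K L := by
  by_contra hcon
  push Not at hcon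
  exact normSubgroupNF_ne_top hp2 hKL σ hσ hunr ((Subgroup.eq_top_iff' _).mpr hcon)

/-- The index of the norm subgroup is divisible by `p` (it is a nontrivial power of `p`). -/
theorem dvd_index_normSubgroupNF (hp2 : p ≠ 2) (hKL : Module.finrank K L = p) (σ : L ≃ₐ[K] L)
    (hσ : ∀ τ : L ≃ₐ[K] L, τ ∈ Subgroup.zpowers σ) (hunr : IsUnramifiedEverywhere K L) :
    p ≤ (normSubgroupNF K L).index := by
  have h1 := mul_card_normSubgroupNF_le hp2 hKL σ hσ hunr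
  rw [← Subgroup.card_mul_index (normSubgroupNF K L)] at h1
  have h2 : 0 < Nat.card (normSubgroupNF K L) := Nat.card_pos
  rw [mul_comm] at h1
  exact Nat.le_of_mul_le_mul_left h1 h2

/-- **First inequality**, ideal-level shape (`NormEquiv`-free): some nonzero ideal of `𝓞 K` is
not equivalent to the unit ideal modulo principal ideals and norms. -/
theorem exists_ideal_not_normEquiv_top (hp2 : p ≠ 2) (hKL : Module.finrank K L = p)
    (σ : L ≃ₐ[K] L) (hσ : ∀ τ : L ≃ₐ[K] L, τ ∈ Subgroup.zpowers σ)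
    (hunr : IsUnramifiedEverywhere K L) :
    ∃ 𝔞 : Ideal (𝓞 K), 𝔞 ≠ ⊥ ∧ ¬ ∃ (x y : 𝓞 K) (𝔄 𝔅 : Ideal (𝓞 L)), x ≠ 0 ∧ y ≠ 0 ∧ 𝔄 ≠ ⊥ ∧
      𝔅 ≠ ⊥ ∧ Ideal.span {x} * 𝔞 * Ideal.relNorm (𝓞 K) 𝔄 =
        Ideal.span {y} * ⊤ * Ideal.relNorm (𝓞 K) 𝔅 := by
  obtain ⟨c, hc⟩ := exists_not_mem_normSubgroupNF hp2 hKL σ hσ hunr
  obtain ⟨𝔞, rfl⟩ := ClassGroup.mk0_surjective c
  refine ⟨𝔞, mem_nonZeroDivisors_iff_ne_zero.mp 𝔞.2, ?_⟩
  rintro ⟨x, y, 𝔄, 𝔅, hx, hy, h𝔄, h𝔅, h⟩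
  apply hc
  let 𝔄' : (Ideal (𝓞 L))⁰ := ⟨𝔄, mem_nonZeroDivisors_iff_ne_zero.mpr h𝔄⟩
  let 𝔅' : (Ideal (𝓞 L))⁰ := ⟨𝔅, mem_nonZeroDivisors_iff_ne_zero.mpr h𝔅⟩
  have h1 : spanNZ x hx * 𝔞 * relNormNZ (𝓞 K) (𝓞 L) 𝔄' =
      spanNZ y hy * relNormNZ (𝓞 K) (𝓞 L) 𝔅' := by
    apply Subtype.ext
    simp only [Submonoid.coe_mul, coe_spanNZ, coe_relNormNZ]
    rw [h, ← Ideal.one_eq_top, mul_one]
  have h2 := congrArg ClassGroup.mk0 h1
  rw [map_mul, map_mul, map_mul, mk0_spanNZ, mk0_spanNZ, one_mul, one_mul] at h2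
  have h3 : ClassGroup.mk0 𝔞 = ClassGroup.mk0 (relNormNZ (𝓞 K) (𝓞 L) 𝔅') *
      (ClassGroup.mk0 (relNormNZ (𝓞 K) (𝓞 L) 𝔄'))⁻¹ := by
    rw [← h2, mul_inv_cancel_right]
  rw [h3]
  exact Subgroup.mul_mem _ (mk0_relNorm_mem_normSubgroup _ _ _)
    (Subgroup.inv_mem _ (mk0_relNorm_mem_normSubgroup _ _ _))

end Fermat.Agent.S14.H63
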