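import Mathlib
import Fermat.Agent.S14.H26_Core
import Fermat.Agent.S14.H27_Split
import Fermat.Agent.S14.H27_Tower
import Fermat.Agent.S14.H18_Reciprocity
import Fermat.Agent.S14.Common
import Fermat.Agent.S14.H10_WP6Bridge
import Fermat.Agent.S14.H63_FirstInequalityNF

/-!
# S14 / WP7, part II: the number-field core

`K = ℚ(ζ_p)`, `L/K` Galois of degree `p`, unramified at all finite primes, `L/ℚ` Galois and
`Gal(K/ℚ)` acting on `Gal(L/K)` through `ω⁻¹` (TWIST).  From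
* (S) Jacobi-sum Stickelberger (`JacobiStickelberger`, WP6),
* (A) `N(Cl_L) ≠ Cl_K` (WP3),
* (X) the crossing lemma (`CrossingStatement`, WP5), and
* (F2') conjugation of Frobenius in the tower `ℚ ⊆ K ⊆ L` (`FrobConjStatement`, WP2)
we derive a contradiction.  (S), (A), (F2') are landed and discharged here
(`H10.jacobiStickelberger`, `H63.normSubgroupNF_ne_top`, `H27.frobP_smul_tower_apply`), so the final
statement `nf_core_of_crossing` only assumes the crossing lemma (X).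
-/

set_option autoImplicit false
set_option linter.unusedSectionVars false

namespace Fermat.Agent.S14.H26

open NumberField Ideal IsCyclotomicExtension IsCyclotomicExtension.Rat
open Fermat.Agent.S14 Fermat.Agent.S14.H27 Fermat.Agent.S14.H18
open scoped Pointwise IsMulCommutative nonZeroDivisors

section Statements

variable (p : ℕ) (K L : Type) [Field K] [NumberField K] [Field L] [NumberField L] [Algebra K L]
  [IsGalois K L]

/-- TWIST: `τ⁻¹ g τ = g ^ a` for `τ ∈ Gal(L/ℚ)` acting on `μ_p` by `ξ ↦ ξ ^ a`, `g ∈ Gal(L/K)`. -/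
def TwistStatement : Prop :=
  ∀ (τ : L ≃ₐ[ℚ] L) (g : L ≃ₐ[K] L) (a : ℕ), (∀ ξ : L, ξ ^ p = 1 → τ ξ = ξ ^ a) →
    ∀ x : L, τ.symm (g (τ x)) = (g ^ a) x

variable [IsMulCommutative Gal(L/K)]

/-- (X) the crossing lemma, in the shape consumed by `H18.eq_one_of_span_singleton`. -/
def CrossingStatement : Prop :=
  ∀ q0 q1 : ℕ, q0.Prime → q1.Prime → q0 ≠ q1 → q0 ≠ p → q1 ≠ p →
    ∀ Q0 Q1 : Ideal (𝓞 K), Q0.IsPrime → Q1.IsPrime → Q0 ≠ ⊥ → Q1 ≠ ⊥ →
    (q0 : 𝓞 K) ∈ Q0 → (q1 : 𝓞 K) ∈ Q1 → artin L Q0 ≠ 1 → artin L Q1 ≠ 1 →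
    ∀ d : ℕ, artin L Q1 = artin L Q0 ^ d → cls Q1 * (cls Q0 ^ d)⁻¹ ∈ normSubgroupNF K L

/-- (F2') conjugation of the Frobenius in the tower `ℚ ⊆ K ⊆ L`, function form. -/
def FrobConjStatement : Prop :=
  ∀ (τ : L ≃ₐ[ℚ] L) (τK : K ≃ₐ[ℚ] K),
    (∀ k : K, τ (algebraMap K L k) = algebraMap K L (τK k)) →
    ∀ 𝔭 : Ideal (𝓞 K), 𝔭.IsPrime → 𝔭 ≠ ⊥ →
    ∀ x : L, frobP L (τK • 𝔭) x = τ (frobP L 𝔭 (τ.symm x))

end Statements

section Bridges

variable {p : ℕ} [hp : Fact p.Prime] {K L : Type} [Field K] [NumberField K] [Field L]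
  [NumberField L] [Algebra K L] [IsGalois K L]

theorem card_gal (hdeg : Module.finrank K L = p) : Nat.card Gal(L/K) = p := by
  rw [IsGalois.card_aut_eq_finrank, hdeg]

/-- A Galois group of prime order is commutative. -/
theorem isMulCommutative_gal (hdeg : Module.finrank K L = p) : IsMulCommutative Gal(L/K) := by
  have : IsCyclic Gal(L/K) := isCyclic_of_prime_card (card_gal hdeg)
  infer_instance

theorem finrank_ringOfIntegers : Module.finrank (𝓞 K) (𝓞 L) = Module.finrank K L :=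
  (IsFractionRing.finrank_eq (𝓞 K) K (𝓞 L) L).symm

/-- `hpow`: `[L:K]`-th powers of ideal classes are norms. -/
theorem pow_finrank_mem_normSubgroup (x : ClassGroup (𝓞 K)) :
    x ^ Module.finrank K L ∈ normSubgroupNF K L := by
  obtain ⟨I, rfl⟩ := ClassGroup.mk0_surjective x
  have hI : (I : Ideal (𝓞 K)) ≠ ⊥ := mem_nonZeroDivisors_iff_ne_zero.mp I.2
  have hmap : Ideal.map (algebraMap (𝓞 K) (𝓞 L)) (I : Ideal (𝓞 K)) ≠ ⊥ := by
    rw [Ne, Ideal.map_eq_bot_iff_of_injective (FaithfulSMul.algebraMap_injective (𝓞 K) (𝓞 L))]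
    exact hI
  have hmem : Ideal.map (algebraMap (𝓞 K) (𝓞 L)) (I : Ideal (𝓞 K)) ∈ (Ideal (𝓞 L))⁰ :=
    mem_nonZeroDivisors_iff_ne_zero.mpr hmap
  rw [mem_normSubgroup_iff]
  refine ⟨⟨_, hmem⟩, ?_⟩
  rw [← map_pow]
  congr 1
  apply Subtype.ext
  rw [coe_relNormNZ, Ideal.relNorm_algebraMap, finrank_ringOfIntegers]
  rfl

/-- A prime ideal containing the rational prime `q` lies over `(q)`. -/
theorem liesOver_of_natCast_mem {Q : Ideal (𝓞 K)} [hQ : Q.IsPrime] {q : ℕ} (hq : q.Prime)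
    (hqQ : (q : 𝓞 K) ∈ Q) : Q.LiesOver (span {(q : ℤ)}) := by
  constructor
  have hle : span {(q : ℤ)} ≤ Q.under ℤ := by
    rw [Ideal.span_singleton_le_iff_mem, Ideal.under_def, Ideal.mem_comap]
    simpa using hqQ
  have hmax : (span {(q : ℤ)}).IsMaximal :=
    Ideal.IsPrime.isMaximal ((Ideal.span_singleton_prime (by exact_mod_cast hq.ne_zero)).mpr
      (Nat.prime_iff_prime_int.mp hq)) (by
        rw [Ne, Ideal.span_singleton_eq_bot]; exact_mod_cast hq.ne_zero)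
  have hne : Q.under ℤ ≠ ⊤ := (Ideal.IsPrime.under ℤ Q).ne_top
  exact hmax.eq_of_le hne hle

section Abelian

variable [IsMulCommutative Gal(L/K)]

/-- `hsplit`: a prime with trivial Artin symbol is a norm. -/
theorem cls_mem_normSubgroup_of_artin_eq_one (hunr : IsUnramifiedEverywhere K L)
    (Q : Ideal (𝓞 K)) (hQ : Q.IsPrime) (hQ0 : Q ≠ ⊥) (h1 : artin L Q = 1) :
    cls Q ∈ normSubgroupNF K L := by
  rw [artin_prime Q hQ0] at h1
  obtain ⟨⟨𝔓, h𝔓prime, h𝔓over⟩⟩ := Q.nonempty_primesOver (S := 𝓞 L)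
  have h𝔓 : 𝔓 ≠ ⊥ := Ideal.ne_bot_of_liesOver_of_ne_bot hQ0 𝔓
  have hur : Algebra.IsUnramifiedAt (𝓞 K) 𝔓 :=
    (isUnramifiedAt_iff_ramificationIdx 𝔓).mpr (hunr 𝔓 h𝔓prime h𝔓)
  have hrel : Ideal.relNorm (𝓞 K) 𝔓 = Q := relNorm_eq_of_frobP_eq_one Q hQ0 𝔓 hur h1
  have hmem : 𝔓 ∈ (Ideal (𝓞 L))⁰ := mem_nonZeroDivisors_iff_ne_zero.mpr h𝔓
  rw [cls_of_ne_bot hQ0, mem_normSubgroup_iff]
  refine ⟨⟨𝔓, hmem⟩, ?_⟩
  congr 1
  exact Subtype.ext hrel

/-- (F2') in the function form used below, from `H27.frobP_smul_tower_apply`. -/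
theorem frobConjStatement [IsGalois ℚ K] (hunr : IsUnramifiedEverywhere K L) :
    FrobConjStatement K L := by
  intro τ τK hτ 𝔭 _ _ x
  have hres : τ.restrictNormal K = τK := by
    apply AlgEquiv.ext
    intro k
    apply FaithfulSMul.algebraMap_injective K L
    rw [AlgEquiv.restrictNormal_commutes, hτ]
  have := frobP_smul_tower_apply (K₀ := ℚ) (K := K) (L := L) τ 𝔭
    (fun 𝔓 _ h𝔓 _ => (isUnramifiedAt_iff_ramificationIdx 𝔓).mpr (hunr 𝔓 inferInstance h𝔓)) x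
  rwa [hres] at this

/-- `hconj` for the Artin map, from (F2') and TWIST. -/
theorem artin_inv_smul_eq_pow [IsCyclotomicExtension {p} ℚ K] [IsGalois ℚ L]
    (hF2 : FrobConjStatement K L) (htw : TwistStatement p K L)
    (τK : K ≃ₐ[ℚ] K) (a : ℕ) (hτK : ∀ ξ : K, ξ ^ p = 1 → τK ξ = ξ ^ a)
    (𝔮 : Ideal (𝓞 K)) (h𝔮p : 𝔮.IsPrime) (h𝔮 : 𝔮 ≠ ⊥) :
    artin L (τK⁻¹ • 𝔮) = artin L 𝔮 ^ a := by
  have hprime : (τK⁻¹ • 𝔮).IsPrime := by
    rw [Ideal.pointwise_smul_eq_comap]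
    exact Ideal.comap_isPrime _ _
  have hne : τK⁻¹ • 𝔮 ≠ ⊥ := smul_ne_bot _ h𝔮
  rw [artin_prime 𝔮 h𝔮, artin_prime _ hne]
  -- a lift of `τK` to `L`
  set τ : L ≃ₐ[ℚ] L := τK.liftNormal L with hτdef
  have hτ : ∀ k : K, τ (algebraMap K L k) = algebraMap K L (τK k) :=
    fun k => τK.liftNormal_commutes L k
  have hτinv : ∀ k : K, τ⁻¹ (algebraMap K L k) = algebraMap K L (τK⁻¹ k) := by
    intro k
    rw [AlgEquiv.aut_inv, AlgEquiv.symm_apply_eq, hτ, AlgEquiv.aut_inv, AlgEquiv.apply_symm_apply]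
  -- `τ` acts on `μ_p(L)` as the `a`-th power
  have hτξ : ∀ ξ : L, ξ ^ p = 1 → τ ξ = ξ ^ a := by
    intro ξ hξ
    have hζ := zeta_spec p ℚ K
    have hζL : IsPrimitiveRoot (algebraMap K L (zeta p ℚ K)) p :=
      hζ.map_of_injective (FaithfulSMul.algebraMap_injective K L)
    obtain ⟨k, -, rfl⟩ := hζL.eq_pow_of_pow_eq_one hξ
    rw [map_pow, hτ, hτK _ hζ.pow_eq_one, map_pow, ← pow_mul, ← pow_mul, mul_comm]
  apply AlgEquiv.ext
  intro x
  rw [hF2 τ⁻¹ τK⁻¹ hτinv 𝔮 h𝔮p h𝔮 x]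
  have := htw τ (frobP L 𝔮) a hτξ x
  rw [AlgEquiv.aut_inv, AlgEquiv.symm_symm]
  exact this

/-- **WP7, part II (conditional form).** The number-field core, from (S), (A), (X), (F2'). -/
theorem nf_core_of [IsCyclotomicExtension {p} ℚ K] [IsGalois ℚ L] (hp3 : 3 ≤ p)
    (hdeg : Module.finrank K L = p) (hunr : IsUnramifiedEverywhere K L)
    (htw : TwistStatement p K L)
    (hS : JacobiStickelberger p K)
    (hA : normSubgroupNF K L ≠ ⊤)
    (hX : CrossingStatement p K L)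
    (hF2 : FrobConjStatement K L) : False := by
  have hcard : Nat.card Gal(L/K) = p := card_gal hdeg
  have hG : ∀ g : Gal(L/K), g ^ p = 1 := by
    intro g
    have := pow_card_eq_one' (G := Gal(L/K)) (x := g)
    rwa [hcard] at this
  have hmul : ∀ I J : Ideal (𝓞 K), I ≠ ⊥ → J ≠ ⊥ →
      artin L (I * J) = artin L I * artin L J := fun I J hI hJ => artin_mul hI hJ
  have hpow : ∀ x : ClassGroup (𝓞 K), x ^ p ∈ normSubgroupNF K L := by
    intro x
    have := pow_finrank_mem_normSubgroup (K := K) (L := L) x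
    rwa [hdeg] at this
  have hconj : ∀ (τ : K ≃ₐ[ℚ] K) (a : ℕ), (∀ ξ : K, ξ ^ p = 1 → τ ξ = ξ ^ a) →
      ∀ 𝔮 : Ideal (𝓞 K), 𝔮.IsPrime → 𝔮 ≠ ⊥ → artin L (τ⁻¹ • 𝔮) = artin L 𝔮 ^ a :=
    fun τ a hτ 𝔮 h𝔮p h𝔮 => artin_inv_smul_eq_pow hF2 htw τ a hτ 𝔮 h𝔮p h𝔮
  have hbad : ∀ q : ℕ, q = p → ∀ Q : Ideal (𝓞 K), Q.IsPrime → Q ≠ ⊥ → (q : 𝓞 K) ∈ Q →
      artin L Q = 1 := by
    rintro q rfl Q hQ hQ0 hqQ
    have := liesOver_of_natCast_mem (K := K) hp.out hqQ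
    exact art_eq_one_of_liesOver_self_of_conj (artin L) hp3 hconj Q hQ0
  have hsplit : ∀ Q : Ideal (𝓞 K), Q.IsPrime → Q ≠ ⊥ → artin L Q = 1 →
      cls Q ∈ normSubgroupNF K L :=
    fun Q hQ hQ0 h1 => cls_mem_normSubgroup_of_artin_eq_one hunr Q hQ hQ0 h1
  have hprinc : ∀ x : 𝓞 K, x ≠ 0 → artin L (Ideal.span {x}) = 1 := by
    intro x hx
    exact eq_one_of_span_singleton hcard (artin L) hmul (normSubgroupNF K L) hA hpow
      (fun Q hQ hQ0 => exists_prime_mem_of_isPrime Q hQ hQ0) (fun q => q = p) hbad hsplit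
      (fun q0 q1 hq0 hq1 h01 h0 h1 => hX q0 q1 hq0 hq1 h01 h0 h1) hx
  have hall : ∀ 𝔮 : Ideal (𝓞 K), 𝔮.IsPrime → 𝔮 ≠ ⊥ → artin L 𝔮 = 1 :=
    art_prime_eq_one (artin L) hp3 hS hG hmul hprinc hconj
  apply hA
  apply subgroup_eq_top_of_forall_prime (normSubgroupNF K L) (I := ⊤) top_ne_bot
  intro P hP hP0 _
  have := hsplit P hP hP0 (hall P hP hP0)
  rwa [cls_of_ne_bot hP0] at this

end Abelian

/-- **WP7, part II.** The number-field core of S14, assuming only the crossing lemma (X)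
(stated for the `IsMulCommutative` instance coming from `[L:K] = p`). -/
theorem nf_core_of_crossing [IsCyclotomicExtension {p} ℚ K] [IsGalois ℚ L] (hp3 : 3 ≤ p)
    (hdeg : Module.finrank K L = p) (hunr : IsUnramifiedEverywhere K L)
    (htw : TwistStatement p K L)
    (hX : ∀ _ : IsMulCommutative Gal(L/K), CrossingStatement p K L) : False := by
  have hcomm : IsMulCommutative Gal(L/K) := isMulCommutative_gal hdeg
  have hp2 : p ≠ 2 := by omega
  have : IsGalois ℚ K := isGalois {p} ℚ K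
  have hcyc : IsCyclic Gal(L/K) := isCyclic_of_prime_card (card_gal hdeg)
  obtain ⟨σ, hσ⟩ := hcyc.exists_generator
  exact nf_core_of hp3 hdeg hunr htw (H10.jacobiStickelberger hp2 K)
    (H63.normSubgroupNF_ne_top hp2 hdeg σ hσ hunr) (hX hcomm) (frobConjStatement hunr)

end Bridges

end Fermat.Agent.S14.H26
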