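import Mathlib
import Fermat.Agent.S14.H54_Unram
import Fermat.Agent.S14.H67_Bridge

/-!
# S14, WP1b: the ramification bridge in helper67's `RamificationBridge` shape

`Fermat.Agent.S14.H67.RamificationBridge` (a `Prop` defined in `H67_Bridge`) is proved from
`Fermat.Agent.S14.H54.ramificationIdx_eq_one` by taking `ι := L.val`.
-/

set_option autoImplicit false

namespace Fermat.Agent.S14.H54

open NumberField

/-- **The ramification bridge** in the shape consumed by `H67.extVanishingCts_of_nfCore_of_bridge`. -/
theorem ramificationBridge : Fermat.Agent.S14.H67.RamificationBridge := by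
  intro L _ _ K _ _ _ _ h P _ hP
  exact ramificationIdx_eq_one (K := K) (L := L) L.val
    (fun A σ hσ hK y => h A σ hσ hK y y.2) P hP

end Fermat.Agent.S14.H54
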