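import Mathlib
import Fermat.Agent.S14.H26_NFCore
import Fermat.Agent.S14.H67_Bridge
import Fermat.Agent.S14.H54_Bridge

/-!
# S14 / WP7: final glue

`ExtVanishingCts p` from the crossing lemma (X) for all admissible pairs `(K, L)`
(`CrossingAll p`): everything else (WP0, WP1a, WP1b, WP2, WP3, WP6, WP7) is discharged.
-/

set_option autoImplicit false

namespace Fermat.Agent.S14.H26

open NumberField Fermat.Agent.S14 Fermat.Agent.S14.H27 Fermat.Agent.S14.H18
open scoped Pointwise IsMulCommutative nonZeroDivisors

/-- The crossing lemma (X) for every unramified degree-`p` Galois extension `L` of `K = ℚ(ζ_p)`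
(the deliverable of WP5), in the `hcross` shape of `H18.eq_one_of_span_singleton`
with `f := H27.artin L`, `N := normSubgroupNF K L`, `bad := (· = p)`. -/
def CrossingAll (p : ℕ) [Fact p.Prime] : Prop :=
  ∀ (K L : Type) [Field K] [NumberField K] [Field L] [NumberField L] [Algebra K L]
    [IsCyclotomicExtension {p} ℚ K] [IsGalois K L] [IsMulCommutative Gal(L/K)],
    Module.finrank K L = p → IsUnramifiedEverywhere K L → CrossingStatement p K L

variable {p : ℕ} [hp : Fact p.Prime]

/-- The number-field core in helper67's shape `H67.NFCore`, from the crossing lemma. -/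
theorem nfCore_of_crossingAll (hp3 : 3 ≤ p) (hX : CrossingAll p) : H67.NFCore p := by
  intro K L _ _ _ _ _ _ _ _ hdeg hunr htw
  have hunr' : IsUnramifiedEverywhere K L := fun P hP hP0 => hunr P hP0
  exact nf_core_of_crossing hp3 hdeg hunr' htw (fun _ => hX K L hdeg hunr')

/-- **S14 from the crossing lemma.** -/
theorem extVanishingCts_of_crossingAll (hp3 : 3 ≤ p) (hX : CrossingAll p) :
    ExtCitation.ExtVanishingCts p :=
  H67.extVanishingCts_of_nfCore_of_bridge hp3 (nfCore_of_crossingAll hp3 hX)
    H54.ramificationBridge

end Fermat.Agent.S14.H26
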