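import Mathlib
import Fermat.Agent.S14.H27_Artin

/-!
# S14 / WP5-fields (helper80): interface for the fields of the crossing lemma

`CrossFields p m K L s0 n0` bundles the two auxiliary number fields `E ⊆ M` used in the
crossing lemma (blueprint: board post #463, Step 4):

* `M = L · K_m`, where `K_m/K` is the degree-`p` subextension of `K(ζ_m)/K`;
* `E` = fixed field of the "diagonal" subgroup of `Gal(M/K) = Gal(L/K) × (ZMod m)ˣ/p-th powers`
  generated by `(s0, n0)`.

The structure only records what the crossing lemma consumes; the auxiliary field `K_m` does not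
appear.  The existence theorem is in `H80_CrossFieldsExist.lean`.
-/

set_option autoImplicit false

namespace Fermat.Agent.S14.H80

open NumberField
open scoped Pointwise IsMulCommutative

/-- The fields `E ⊆ M ⊇ L` of the crossing lemma, with the four facts the lemma consumes. -/
structure CrossFields (p m : ℕ) (K L : Type) [Field K] [Field L] [NumberField K] [NumberField L]
    [Algebra K L] [IsGalois K L] [IsMulCommutative Gal(L/K)]
    (s0 : Gal(L/K)) (n0 : ZMod m) : Type 1 where
  /-- the fixed field of the diagonal -/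
  E : Type
  /-- the compositum `L · K_m` -/
  M : Type
  [fieldE : Field E]
  [fieldM : Field M]
  [numberFieldE : NumberField E]
  [numberFieldM : NumberField M]
  [algebraKE : Algebra K E]
  [algebraKM : Algebra K M]
  [algebraEM : Algebra E M]
  [algebraLM : Algebra L M]
  [towerKEM : IsScalarTower K E M]
  [towerKLM : IsScalarTower K L M]
  [isGaloisEM : IsGalois E M]
  [commGalEM : IsMulCommutative Gal(M/E)]
  /-- `M/E` is cyclic of degree `p`. -/
  finrank_EM : Module.finrank E M = p
  /-- `finrank K E = p`. -/
  finrank_KE : Module.finrank K E = p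
  /-- Restriction `Gal(M/E) → Gal(L/K)` is injective (`M = E · L`). -/
  res_inj : ∀ σ : Gal(M/E), (∀ x : L, σ (algebraMap L M x) = algebraMap L M x) → σ = 1
  /-- `M/E` is unramified at every prime. -/
  unram : ∀ 𝔓 : Ideal (𝓞 M), 𝔓.IsPrime → 𝔓 ≠ ⊥ → 𝔓.ramificationIdx (𝓞 E) = 1
  /-- A prime `Q ∤ m` of `K` whose Frobenius data `(frobP L Q, N Q mod m)` lies in the diagonal
  generated by `(s0, n0)` (modulo `p`-th powers in the second factor) has a prime of `E` of
  relative degree one above it. -/
  split : ∀ (Q : Ideal (𝓞 K)) [Q.IsPrime], Q ≠ ⊥ → (m : 𝓞 K) ∉ Q → ∀ k : ℕ,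
    H27.frobP L Q = s0 ^ k → (∃ x : ZMod m, (Ideal.absNorm Q : ZMod m) = n0 ^ k * x ^ p) →
    ∃ QQ : Ideal (𝓞 E), QQ.IsPrime ∧ QQ.LiesOver Q ∧ Ideal.relNorm (𝓞 K) QQ = Q ∧
      IsCoprime QQ (Ideal.span {(m : 𝓞 E)})
  /-- Elementary reciprocity: principal ideals prime to `m` have trivial Artin symbol in `M/E`. -/
  principal : ∀ β : 𝓞 E, IsCoprime (Ideal.span {β}) (Ideal.span {(m : 𝓞 E)}) →
    H27.artin M (Ideal.span {β}) = 1

attribute [instance] CrossFields.fieldE CrossFields.fieldM CrossFields.numberFieldE
  CrossFields.numberFieldM CrossFields.algebraKE CrossFields.algebraKM CrossFields.algebraEM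
  CrossFields.algebraLM CrossFields.towerKEM CrossFields.towerKLM CrossFields.isGaloisEM
  CrossFields.commGalEM

end Fermat.Agent.S14.H80
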