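import Mathlib
import Fermat.Agent.S14.H18_Reciprocity

/-!
# Kernel identification for a symbol defined on ideals prime to `I₀` (S14, WP5 step 4(e))

`R` Dedekind, `ψ : Ideal R → D` multiplicative on nonzero ideals, trivial on the principal ideals
coprime to a fixed nonzero ideal `I₀`.  Then `ψ` induces a group hom `Φ : ClassGroup R →* D` with
`Φ (cls 𝔅) = ψ 𝔅` for every nonzero `𝔅` coprime to `I₀`.  If moreover `D` has prime order `p`,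
`ψ` is nontrivial on ideals coprime to `I₀`, and `H'` is a subgroup of index `≤ p` all of whose
classes have a representative coprime to `I₀` with trivial symbol, then `ker Φ = H'`.
-/

namespace Fermat.Agent.S14.H18

open scoped nonZeroDivisors

section

variable {R : Type*} [CommRing R] [IsDedekindDomain R]
variable {D : Type*} [Group D]

/-- `ψ ⊤ = 1` for a map multiplicative on nonzero ideals. -/
theorem map_top_eq_one (ψ : Ideal R → D)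
    (hψ : ∀ 𝔞 𝔟 : Ideal R, 𝔞 ≠ ⊥ → 𝔟 ≠ ⊥ → ψ (𝔞 * 𝔟) = ψ 𝔞 * ψ 𝔟) : ψ ⊤ = 1 := by
  have h := hψ ⊤ ⊤ top_ne_bot top_ne_bot
  rw [Ideal.mul_top] at h
  exact left_eq_mul.mp h

/-- If `cls 𝔅 = 1` then `𝔅` is a nonzero principal ideal. -/
theorem exists_span_singleton_of_cls_eq_one {𝔅 : Ideal R} (h𝔅 : 𝔅 ≠ ⊥) (h : cls 𝔅 = 1) :
    ∃ x : R, x ≠ 0 ∧ 𝔅 = Ideal.span {x} := by
  rw [cls_of_ne_bot h𝔅, ClassGroup.mk0_eq_one_iff] at h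
  obtain ⟨⟨x, hx⟩⟩ := h
  refine ⟨x, ?_, hx⟩
  rintro rfl
  apply h𝔅
  change 𝔅 = Ideal.span {0} at hx
  rw [hx, Ideal.span_singleton_eq_bot]

variable (ψ : Ideal R → D)
  (hψ : ∀ 𝔞 𝔟 : Ideal R, 𝔞 ≠ ⊥ → 𝔟 ≠ ⊥ → ψ (𝔞 * 𝔟) = ψ 𝔞 * ψ 𝔟)
  {I₀ : Ideal R} (hI₀ : I₀ ≠ ⊥)
  (hprinc : ∀ x : R, x ≠ 0 → IsCoprime (Ideal.span {x}) I₀ → ψ (Ideal.span {x}) = 1)

include hψ hI₀ hprinc in
/-- The symbol of an ideal coprime to `I₀` only depends on its class. -/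
theorem symbol_eq_of_cls_eq {𝔅 𝔅' : Ideal R} (h𝔅 : 𝔅 ≠ ⊥) (h𝔅' : 𝔅' ≠ ⊥)
    (hc : IsCoprime 𝔅 I₀) (hc' : IsCoprime 𝔅' I₀) (h : cls 𝔅 = cls 𝔅') : ψ 𝔅 = ψ 𝔅' := by
  obtain ⟨ℭ, hℭ, hℭc⟩ := exists_mk0_eq_and_isCoprime (cls 𝔅)⁻¹ hI₀
  have hℭ0 : (ℭ : Ideal R) ≠ ⊥ := mem_nonZeroDivisors_iff_ne_zero.mp ℭ.2
  have hℭcls : cls (ℭ : Ideal R) = (cls 𝔅)⁻¹ := by rw [cls_coe, hℭ]
  have key : ∀ 𝔄 : Ideal R, 𝔄 ≠ ⊥ → IsCoprime 𝔄 I₀ → cls 𝔄 = cls 𝔅 → ψ 𝔄 * ψ ℭ = 1 := by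
    intro 𝔄 h𝔄 hcop hcl
    have h1 : cls (𝔄 * (ℭ : Ideal R)) = 1 := by
      rw [cls_mul h𝔄 hℭ0, hℭcls, hcl, mul_inv_cancel]
    obtain ⟨x, hx, hxe⟩ := exists_span_singleton_of_cls_eq_one (mul_ne_zero h𝔄 hℭ0) h1
    have hcopx : IsCoprime (Ideal.span {x}) I₀ := by
      rw [← hxe]; exact hcop.mul_left hℭc
    rw [← hψ 𝔄 ℭ h𝔄 hℭ0, hxe]
    exact hprinc x hx hcopx
  have e1 := key 𝔅 h𝔅 hc rfl
  have e2 := key 𝔅' h𝔅' hc' h.symm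
  exact mul_right_cancel (e1.trans e2.symm)

/-- The underlying function of the induced map on the class group. -/
noncomputable def classMapFun (c : ClassGroup R) : D :=
  ψ ((exists_mk0_eq_and_isCoprime c hI₀).choose : Ideal R)

include hψ hprinc in
theorem classMapFun_cls {𝔅 : Ideal R} (h𝔅 : 𝔅 ≠ ⊥) (hc : IsCoprime 𝔅 I₀) :
    classMapFun ψ hI₀ (cls 𝔅) = ψ 𝔅 := by
  have hspec := (exists_mk0_eq_and_isCoprime (cls 𝔅) hI₀).choose_spec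
  set ℭ := (exists_mk0_eq_and_isCoprime (cls 𝔅) hI₀).choose with hℭdef
  have hℭ0 : (ℭ : Ideal R) ≠ ⊥ := mem_nonZeroDivisors_iff_ne_zero.mp ℭ.2
  change ψ (ℭ : Ideal R) = ψ 𝔅
  apply symbol_eq_of_cls_eq ψ hψ hI₀ hprinc hℭ0 h𝔅 hspec.2 hc
  rw [cls_coe, hspec.1]

include hψ hI₀ hprinc in
/-- The induced group homomorphism `ClassGroup R →* D`. -/
theorem exists_classMap :
    ∃ Φ : ClassGroup R →* D, ∀ 𝔅 : Ideal R, 𝔅 ≠ ⊥ → IsCoprime 𝔅 I₀ → Φ (cls 𝔅) = ψ 𝔅 := by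
  have hrep : ∀ c : ClassGroup R, ∃ 𝔅 : Ideal R, 𝔅 ≠ ⊥ ∧ IsCoprime 𝔅 I₀ ∧ cls 𝔅 = c := by
    intro c
    obtain ⟨K, hK, hKc⟩ := exists_mk0_eq_and_isCoprime c hI₀
    exact ⟨K, mem_nonZeroDivisors_iff_ne_zero.mp K.2, hKc, by rw [cls_coe, hK]⟩
  refine ⟨MonoidHom.mk' (classMapFun ψ hI₀) ?_, ?_⟩
  · intro c c'
    obtain ⟨𝔅, h𝔅, hc, rfl⟩ := hrep c
    obtain ⟨𝔅', h𝔅', hc', rfl⟩ := hrep c'
    rw [← cls_mul h𝔅 h𝔅', classMapFun_cls ψ hψ hI₀ hprinc (mul_ne_zero h𝔅 h𝔅') (hc.mul_left hc'),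
      classMapFun_cls ψ hψ hI₀ hprinc h𝔅 hc, classMapFun_cls ψ hψ hI₀ hprinc h𝔅' hc',
      hψ 𝔅 𝔅' h𝔅 h𝔅']
  · intro 𝔅 h𝔅 hc
    exact classMapFun_cls ψ hψ hI₀ hprinc h𝔅 hc

include hψ hI₀ hprinc in
/-- **Kernel identification.** -/
theorem exists_classMap_ker_eq {p : ℕ} [hp : Fact p.Prime] (hD : Nat.card D = p)
    (H' : Subgroup (ClassGroup R)) (hidx0 : H'.index ≠ 0) (hidx : H'.index ≤ p)
    (hH' : ∀ c ∈ H', ∃ 𝔅 : Ideal R, 𝔅 ≠ ⊥ ∧ IsCoprime 𝔅 I₀ ∧ cls 𝔅 = c ∧ ψ 𝔅 = 1)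
    (hsurj : ∃ 𝔅₀ : Ideal R, 𝔅₀ ≠ ⊥ ∧ IsCoprime 𝔅₀ I₀ ∧ ψ 𝔅₀ ≠ 1) :
    ∃ Φ : ClassGroup R →* D,
      (∀ 𝔅 : Ideal R, 𝔅 ≠ ⊥ → IsCoprime 𝔅 I₀ → Φ (cls 𝔅) = ψ 𝔅) ∧ Φ.ker = H' := by
  obtain ⟨Φ, hΦ⟩ := exists_classMap ψ hψ hI₀ hprinc
  refine ⟨Φ, hΦ, ?_⟩
  have hle : H' ≤ Φ.ker := by
    intro c hc
    obtain ⟨𝔅, h𝔅, hcop, rfl, h1⟩ := hH' c hc
    rw [MonoidHom.mem_ker, hΦ 𝔅 h𝔅 hcop, h1]
  apply le_antisymm _ hle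
  -- the induced map on the quotient is a bijection
  let Φbar : ClassGroup R ⧸ H' →* D := QuotientGroup.lift H' Φ hle
  have hfin : Finite (ClassGroup R ⧸ H') := by
    apply Nat.finite_of_card_ne_zero
    rwa [← Subgroup.index_eq_card]
  have hDfin : Finite D := Nat.finite_of_card_ne_zero (hD ▸ hp.1.ne_zero)
  have hsurjΦ : Function.Surjective Φbar := by
    obtain ⟨𝔅₀, h𝔅₀, hcop₀, hne⟩ := hsurj
    have hrange : Φbar.range = ⊤ := by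
      have : Fact (Nat.card D).Prime := ⟨hD ▸ hp.1⟩
      rcases Φbar.range.eq_bot_or_eq_top_of_prime_card with h | h
      · exfalso
        apply hne
        have hmem : ψ 𝔅₀ ∈ Φbar.range := ⟨QuotientGroup.mk (cls 𝔅₀), by
          change Φ (cls 𝔅₀) = ψ 𝔅₀
          exact hΦ 𝔅₀ h𝔅₀ hcop₀⟩
        rw [h, Subgroup.mem_bot] at hmem
        exact hmem
      · exact h
    exact MonoidHom.range_eq_top.mp hrange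
  have hcard : Nat.card (ClassGroup R ⧸ H') ≤ Nat.card D := by
    rw [← Subgroup.index_eq_card, hD]; exact hidx
  have hbij := hsurjΦ.bijective_of_nat_card_le hcard
  intro c hc
  rw [MonoidHom.mem_ker] at hc
  have h1 : Φbar (QuotientGroup.mk c) = Φbar 1 := by
    rw [map_one]
    exact hc
  have h2 := hbij.1 h1
  exact (QuotientGroup.eq_one_iff c).mp h2

end

end Fermat.Agent.S14.H18
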