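import Mathlib
import Fermat.Agent.S14.Common
import Fermat.Agent.S14.H18_ClassMap
import Fermat.Agent.S14.H27_BaseChange

/-!
# The core of the crossing lemma (S14, WP5, blueprint #463 steps (e) and (f))

Number fields `K ⊆ L`, `K ⊆ E ⊆ M`, `L ⊆ M` with `L/K` and `M/E` abelian, `M/E` unramified of prime
degree `p`, restriction `Gal(M/E) → Gal(L/K)` injective, principal ideals of `E` prime to `I₀` in
the kernel of the Artin map of `M/E`, and the second inequality for `M/E`.  Then for ideals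
`𝔔₀ 𝔔₁` of `E` prime to `I₀` whose norms to `K` have Artin symbols `s₀ ≠ 1` and `s₀ ^ d` in `L/K`,
the class of `N 𝔔₁ * (N 𝔔₀) ^ (-d)` is a norm class from `L`.
-/

set_option autoImplicit false
set_option linter.overlappingInstances false
set_option linter.style.haveILetI false

namespace Fermat.Agent.S14.H90

open NumberField
open scoped nonZeroDivisors IsMulCommutative

section CoprimeNorm

variable {R S : Type*} [CommRing R] [IsDomain R] [IsDedekindDomain R]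
  [CommRing S] [IsDomain S] [IsDedekindDomain S] [Algebra R S] [Module.Finite R S]
  [Module.IsTorsionFree R S]

/-- If a prime `𝔮` contains the relative norm of `𝔄`, it contains `𝔄 ∩ R`. -/
theorem under_le_of_relNorm_le (𝔄 : Ideal S) (𝔮 : Ideal R) [𝔮.IsPrime]
    (h : Ideal.relNorm R 𝔄 ≤ 𝔮) : 𝔄.under R ≤ 𝔮 := by
  have h1 : Ideal.relNorm R ((𝔄.under R).map (algebraMap R S)) ≤ Ideal.relNorm R 𝔄 :=
    Ideal.relNorm_mono _ (Ideal.map_le_iff_le_comap.mpr le_rfl)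
  rw [Ideal.relNorm_algebraMap S] at h1
  exact Ideal.IsPrime.le_of_pow_le (h1.trans h)

/-- The relative norm of an ideal coprime to the extension of `I₀` is coprime to `I₀`. -/
theorem isCoprime_relNorm (𝔄 : Ideal S) (I₀ : Ideal R)
    (h : IsCoprime 𝔄 (I₀.map (algebraMap R S))) : IsCoprime (Ideal.relNorm R 𝔄) I₀ := by
  rw [Ideal.isCoprime_iff_sup_eq] at h ⊢
  by_contra hne
  obtain ⟨𝔮, h𝔮max, hle⟩ := Ideal.exists_le_maximal _ hne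
  haveI : 𝔮.IsPrime := h𝔮max.isPrime
  have h1 : Ideal.relNorm R 𝔄 ≤ 𝔮 := le_sup_left.trans hle
  have h2 : I₀ ≤ 𝔮 := le_sup_right.trans hle
  have h3 : 𝔄.under R ≤ 𝔮 := under_le_of_relNorm_le 𝔄 𝔮 h1
  obtain ⟨𝔓, h𝔄𝔓, h𝔓prime, h𝔓over⟩ :=
    Ideal.exists_ideal_over_prime_of_isIntegral 𝔮 𝔄 h3
  have h4 : I₀.map (algebraMap R S) ≤ 𝔓 := by
    rw [Ideal.map_le_iff_le_comap, h𝔓over]
    exact h2
  have h5 : 𝔄 ⊔ I₀.map (algebraMap R S) ≤ 𝔓 := sup_le h𝔄𝔓 h4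
  rw [h] at h5
  exact h𝔓prime.ne_top (top_le_iff.mp h5)

end CoprimeNorm

section Core

variable {K L E M : Type*} [Field K] [Field L] [Field E] [Field M]
  [NumberField K] [NumberField L] [NumberField E] [NumberField M]
  [Algebra K E] [Algebra K L] [Algebra E M] [Algebra L M] [Algebra K M]
  [IsScalarTower K E M] [IsScalarTower K L M] [IsGalois K L] [IsGalois E M]
  [IsMulCommutative Gal(L/K)] [IsMulCommutative Gal(M/E)]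

/-- `classNorm` on the class of a nonzero ideal. -/
theorem classNorm_cls {F F' : Type*} [Field F] [Field F'] [NumberField F] [NumberField F']
    [Algebra F F'] {𝔄 : Ideal (𝓞 F')} (h𝔄 : 𝔄 ≠ ⊥) :
    classNormNF F F' (H18.cls 𝔄) = H18.cls (Ideal.relNorm (𝓞 F) 𝔄) := by
  have h' : Ideal.relNorm (𝓞 F) 𝔄 ≠ ⊥ := by rwa [Ne, Ideal.relNorm_eq_bot_iff]
  rw [H18.cls_of_ne_bot h𝔄, H18.cls_of_ne_bot h', classNorm_mk0]
  rfl

/-- Norm classes from a bigger field are norm classes. -/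
theorem normSubgroupNF_le_of_tower (F F' F'' : Type*) [Field F] [Field F'] [Field F'']
    [NumberField F] [NumberField F'] [NumberField F''] [Algebra F F'] [Algebra F' F'']
    [Algebra F F''] [IsScalarTower F F' F''] :
    normSubgroupNF F F'' ≤ normSubgroupNF F F' := by
  rintro _ ⟨c, rfl⟩
  exact ⟨classNormNF F' F'' c, classNorm_classNorm (𝓞 F) (𝓞 F') (𝓞 F'') c⟩

/-- **Core of the crossing lemma** (blueprint #463, steps (e) and (f)). -/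
theorem crossing_core {p : ℕ} [Fact p.Prime] (hcard : Nat.card Gal(M/E) = p)
    (hunrL : IsUnramifiedEverywhere K L) (hunrM : IsUnramifiedEverywhere E M)
    (hres : Function.Injective (H27.resHom K L : Gal(M/E) →* Gal(L/K)))
    {I₀ : Ideal (𝓞 E)} (hI₀ : I₀ ≠ ⊥)
    (hprinc : ∀ β : 𝓞 E, β ≠ 0 → IsCoprime (Ideal.span {β}) I₀ →
      H27.artin M (Ideal.span {β}) = 1)
    (hB : (normSubgroupNF E M).index ≤ p)
    {𝔔₀ 𝔔₁ : Ideal (𝓞 E)} (h𝔔₀ : 𝔔₀ ≠ ⊥) (h𝔔₁ : 𝔔₁ ≠ ⊥)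
    (hc₀ : IsCoprime 𝔔₀ I₀) (hc₁ : IsCoprime 𝔔₁ I₀)
    (hne : H27.artin L (Ideal.relNorm (𝓞 K) 𝔔₀) ≠ 1) (d : ℕ)
    (hd : H27.artin L (Ideal.relNorm (𝓞 K) 𝔔₁) =
      H27.artin L (Ideal.relNorm (𝓞 K) 𝔔₀) ^ d) :
    H18.cls (Ideal.relNorm (𝓞 K) 𝔔₁) * (H18.cls (Ideal.relNorm (𝓞 K) 𝔔₀) ^ d)⁻¹ ∈
      normSubgroupNF K L := by
  -- unramifiedness in the `Algebra.IsUnramifiedAt` form
  have hurL : ∀ (𝔓 : Ideal (𝓞 L)) [𝔓.IsPrime], 𝔓 ≠ ⊥ → Algebra.IsUnramifiedAt (𝓞 K) 𝔓 :=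
    fun 𝔓 _ h𝔓 => (H27.isUnramifiedAt_iff_ramificationIdx 𝔓).mpr (hunrL 𝔓 inferInstance h𝔓)
  have hurM : ∀ (𝔓 : Ideal (𝓞 M)) [𝔓.IsPrime], 𝔓 ≠ ⊥ → Algebra.IsUnramifiedAt (𝓞 E) 𝔓 :=
    fun 𝔓 _ h𝔓 => (H27.isUnramifiedAt_iff_ramificationIdx 𝔓).mpr (hunrM 𝔓 inferInstance h𝔓)
  -- F7
  have hF7 : ∀ 𝔄 : Ideal (𝓞 E),
      H27.resHom K L (H27.artin M 𝔄) = H27.artin L (Ideal.relNorm (𝓞 K) 𝔄) :=
    fun 𝔄 => H27.resHom_artin 𝔄 fun 𝔓 _ h𝔓 _ => hurL 𝔓 h𝔓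
  -- the kernel identification
  have hmap : I₀.map (algebraMap (𝓞 E) (𝓞 M)) ≠ ⊥ := by
    rw [Ne, Ideal.map_eq_bot_iff_of_injective (RingOfIntegers.algebraMap.injective E M)]
    exact hI₀
  have hH' : ∀ c ∈ normSubgroupNF E M, ∃ 𝔅 : Ideal (𝓞 E), 𝔅 ≠ ⊥ ∧ IsCoprime 𝔅 I₀ ∧
      H18.cls 𝔅 = c ∧ H27.artin M 𝔅 = 1 := by
    rintro _ ⟨c', rfl⟩
    obtain ⟨𝔄, h𝔄, hcop⟩ := H18.exists_mk0_eq_and_isCoprime c' hmap
    have h𝔄0 : (𝔄 : Ideal (𝓞 M)) ≠ ⊥ := mem_nonZeroDivisors_iff_ne_zero.mp 𝔄.2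
    refine ⟨Ideal.relNorm (𝓞 E) (𝔄 : Ideal (𝓞 M)), ?_, isCoprime_relNorm _ _ hcop, ?_, ?_⟩
    · rwa [Ne, Ideal.relNorm_eq_bot_iff]
    · rw [← classNorm_cls h𝔄0, H18.cls_coe, h𝔄]
    · exact H27.artin_relNorm _ fun 𝔓 _ h𝔓 _ => hurM 𝔓 h𝔓
  have hsurj : ∃ 𝔅₀ : Ideal (𝓞 E), 𝔅₀ ≠ ⊥ ∧ IsCoprime 𝔅₀ I₀ ∧ H27.artin M 𝔅₀ ≠ 1 := by
    refine ⟨𝔔₀, h𝔔₀, hc₀, fun h1 => hne ?_⟩
    rw [← hF7, h1, map_one]
  obtain ⟨Φ, hΦ, hker⟩ := H18.exists_classMap_ker_eq (H27.artin M)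
    (fun 𝔞 𝔟 h𝔞 h𝔟 => H27.artin_mul h𝔞 h𝔟) hI₀ hprinc hcard (normSubgroupNF E M)
    Subgroup.index_ne_zero_of_finite hB hH' hsurj
  -- the class `[𝔔₁] [𝔔₀]^{-d}` is killed by `Φ`
  have hpow : H27.artin M 𝔔₁ = H27.artin M 𝔔₀ ^ d := by
    apply hres
    rw [map_pow, hF7, hF7, hd]
  have hmem : H18.cls 𝔔₁ * (H18.cls 𝔔₀ ^ d)⁻¹ ∈ normSubgroupNF E M := by
    rw [← hker, MonoidHom.mem_ker, map_mul, map_inv, map_pow, hΦ 𝔔₁ h𝔔₁ hc₁, hΦ 𝔔₀ h𝔔₀ hc₀, hpow,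
      mul_inv_cancel]
  -- push down to `K`
  have h1 : classNormNF K E (H18.cls 𝔔₁ * (H18.cls 𝔔₀ ^ d)⁻¹) ∈ normSubgroupNF K M :=
    map_normSubgroup_le (𝓞 K) (𝓞 E) (𝓞 M) (Subgroup.mem_map_of_mem _ hmem)
  rw [map_mul, map_inv, map_pow, classNorm_cls h𝔔₁, classNorm_cls h𝔔₀] at h1
  exact normSubgroupNF_le_of_tower K L M h1

end Core

end Fermat.Agent.S14.H90
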