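import Mathlib
import Fermat.Agent.S14.Common
import Fermat.Agent.S14.H27_BaseChange
import Fermat.Agent.S14.H18_Reciprocity
import Fermat.Agent.S14.H80_CrossFields
import Fermat.Agent.S14.H90_CrossCore

/-!
# S14 / WP5: assembly of the crossing lemma (X)

`crossing_of` proves the crossing lemma in the exact `hcross` shape consumed by
`H18.cls_mem_iff_eq_one` (with `bad q := (q = p)`), from its four inputs, each taken as an explicit
hypothesis in the shape announced by its owner: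

* `haux`   : the auxiliary prime `m` (WP5-kummer, helper88 / helper82);
* `hfields`: existence of `H80.CrossFields` (WP5-fields, helper80);
* `hB`     : the second inequality `[Cl_E : N Cl_M] ≤ [M:E]` (WP4);
* `hcore`  : the class-group core of the crossing (WP5-core, helper90).
-/

set_option autoImplicit false

namespace Fermat.Agent.S14.H67

open NumberField Fermat.Agent.S14
open scoped Pointwise IsMulCommutative nonZeroDivisors

section Arith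

/-- Two distinct rational primes cannot lie in the same proper ideal. -/
theorem natCast_not_mem_of_prime_ne {R : Type*} [CommRing R] {a b : ℕ} (ha : a.Prime)
    (hb : b.Prime) (hab : a ≠ b) {Q : Ideal R} (hQ : Q ≠ ⊤) (haQ : (a : R) ∈ Q) :
    (b : R) ∉ Q := by
  intro hbQ
  have hco : IsCoprime (a : ℤ) (b : ℤ) :=
    Nat.isCoprime_iff_coprime.mpr ((Nat.coprime_primes ha hb).mpr hab)
  obtain ⟨u, v, huv⟩ := hco
  have h1 : (u : R) * (a : R) + (v : R) * (b : R) = 1 := by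
    have := congrArg (Int.cast : ℤ → R) huv
    push_cast at this
    exact this
  have : (1 : R) ∈ Q := by
    rw [← h1]
    exact Q.add_mem (Q.mul_mem_left _ haQ) (Q.mul_mem_left _ hbQ)
  exact hQ ((Ideal.eq_top_iff_one Q).mpr this)

/-- The absolute norm of a nonzero prime of `𝓞 K` containing the rational prime `q` is `q ^ f`
with `1 ≤ f ≤ [K:ℚ]`. -/
theorem exists_absNorm_eq_pow {K : Type*} [Field K] [NumberField K] {q : ℕ} (hq : q.Prime)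
    (Q : Ideal (𝓞 K)) [hQ : Q.IsPrime] (hqQ : (q : 𝓞 K) ∈ Q) :
    ∃ f : ℕ, 1 ≤ f ∧ f ≤ Module.finrank ℚ K ∧ Ideal.absNorm Q = q ^ f := by
  have hle : Ideal.span {(q : 𝓞 K)} ≤ Q := (Ideal.span_singleton_le_iff_mem Q).mpr hqQ
  have hdvd : Ideal.absNorm Q ∣ Ideal.absNorm (Ideal.span {(q : 𝓞 K)}) :=
    Ideal.absNorm_dvd_absNorm_of_le hle
  have hnorm : Ideal.absNorm (Ideal.span {(q : 𝓞 K)}) = q ^ Module.finrank ℚ K := by
    rw [Ideal.absNorm_span_singleton]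
    have h1 : (Algebra.norm ℤ ((q : 𝓞 K))) = (q : ℤ) ^ Module.finrank ℚ K := by
      have := Algebra.norm_algebraMap (R := ℤ) (S := 𝓞 K) (q : ℤ)
      rw [RingOfIntegers.rank] at this
      simpa using this
    rw [h1, Int.natAbs_pow, Int.natAbs_natCast]
  rw [hnorm] at hdvd
  obtain ⟨f, hf, hfeq⟩ := (Nat.dvd_prime_pow hq).mp hdvd
  refine ⟨f, ?_, hf, hfeq⟩
  rcases Nat.eq_zero_or_pos f with h0 | h0
  · exfalso
    rw [h0, pow_zero, Ideal.absNorm_eq_one_iff] at hfeq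
    exact hQ.ne_top hfeq
  · exact h0

end Arith

section ZModArith

/-- From `y ^ p = N₁ * n₀ ^ (p - d)` with `n₀ ≠ 0`, `d ≤ p`: `N₁ = n₀ ^ d * x ^ p`. -/
theorem exists_eq_pow_mul_pow {m : ℕ} [Fact m.Prime] {p d : ℕ} (hd : d ≤ p) {n0 N1 y : ZMod m}
    (hn0 : n0 ≠ 0) (hy : y ^ p = N1 * n0 ^ (p - d)) : ∃ x : ZMod m, N1 = n0 ^ d * x ^ p := by
  refine ⟨y * n0⁻¹, ?_⟩
  have h1 : n0 ^ p = n0 ^ d * n0 ^ (p - d) := by rw [← pow_add, Nat.add_sub_cancel' hd]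
  have h2 : n0 ^ (p - d) ≠ 0 := pow_ne_zero _ hn0
  have h3 : n0 ^ p ≠ 0 := pow_ne_zero _ hn0
  rw [mul_pow, hy, inv_pow]
  field_simp
  rw [h1]
  ring

end ZModArith

section Crossing

variable {K L : Type} [Field K] [NumberField K] [Field L] [NumberField L] [Algebra K L]
  [IsGalois K L] [IsMulCommutative Gal(L/K)]

/-- **The crossing lemma (X)**, assembled from its four inputs (auxiliary prime, crossing fields,
second inequality for `M/E`, and the class-group core), in the `hcross` shape of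
`H18.cls_mem_iff_eq_one` with `bad q := (q = p)`. -/
theorem crossing_of {p : ℕ} [hpF : Fact p.Prime] [IsCyclotomicExtension {p} ℚ K]
    (hdeg : Module.finrank K L = p) (hunr : IsUnramifiedEverywhere K L)
    -- (a) auxiliary prime (WP5-kummer / WP5a)
    (haux : ∀ {q0 q1 : ℕ}, q0.Prime → q1.Prime → q0 ≠ q1 → q0 ≠ p → q1 ≠ p →
      ∀ {f0 f1 : ℕ}, ¬ p ∣ f0 → ¬ p ∣ f1 → ∀ e : ℕ,
        ∃ m : ℕ, m.Prime ∧ m % p = 1 ∧ m ≠ p ∧ m ≠ q0 ∧ m ≠ q1 ∧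
          (¬ ∃ x : ZMod m, x ^ p = ((q0 ^ f0 : ℕ) : ZMod m)) ∧
          (∃ x : ZMod m, x ^ p = ((q1 ^ f1 * (q0 ^ f0) ^ e : ℕ) : ZMod m)))
    -- (b)(c)(d) the crossing fields (WP5-fields)
    (hfields : ∀ m : ℕ, m.Prime → m ≠ p → p ∣ m - 1 → ∀ s0 : Gal(L/K), s0 ≠ 1 →
      ∀ n0 : ZMod m, (¬ ∃ x : ZMod m, x ^ p = n0) → Nonempty (H80.CrossFields p m K L s0 n0))
    -- (B) second inequality (WP4)
    (hB : ∀ (E M : Type) [Field E] [NumberField E] [Field M] [NumberField M] [Algebra E M]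
      [IsGalois E M], (normSubgroupNF E M).index ≤ Module.finrank E M)
    -- (e)(f) class-group core (WP5-core)
    (hcore : ∀ (E M : Type) [Field E] [NumberField E] [Field M] [NumberField M]
      [Algebra K E] [Algebra L M] [Algebra E M] [Algebra K M]
      [IsScalarTower K E M] [IsScalarTower K L M] [IsGalois E M] [IsMulCommutative Gal(M/E)],
      Nat.card Gal(M/E) = p → IsUnramifiedEverywhere K L → IsUnramifiedEverywhere E M →
      Function.Injective (H27.resHom K L : Gal(M/E) →* Gal(L/K)) →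
      ∀ {I0 : Ideal (𝓞 E)}, I0 ≠ ⊥ →
      (∀ b : 𝓞 E, b ≠ 0 → IsCoprime (Ideal.span {b}) I0 → H27.artin M (Ideal.span {b}) = 1) →
      (normSubgroupNF E M).index ≤ p →
      ∀ {Q0' Q1' : Ideal (𝓞 E)}, Q0' ≠ ⊥ → Q1' ≠ ⊥ → IsCoprime Q0' I0 → IsCoprime Q1' I0 →
      H27.artin L (Ideal.relNorm (𝓞 K) Q0') ≠ 1 → ∀ d : ℕ,
      H27.artin L (Ideal.relNorm (𝓞 K) Q1') = H27.artin L (Ideal.relNorm (𝓞 K) Q0') ^ d →
      H18.cls (Ideal.relNorm (𝓞 K) Q1') * (H18.cls (Ideal.relNorm (𝓞 K) Q0') ^ d)⁻¹ ∈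
        normSubgroupNF K L)
    (q0 q1 : ℕ) (hq0 : q0.Prime) (hq1 : q1.Prime) (h01 : q0 ≠ q1) (h0p : ¬ q0 = p)
    (h1p : ¬ q1 = p) (Q0 Q1 : Ideal (𝓞 K)) (hQ0 : Q0.IsPrime) (hQ1 : Q1.IsPrime)
    (h0 : Q0 ≠ ⊥) (h1 : Q1 ≠ ⊥) (hq0Q : (q0 : 𝓞 K) ∈ Q0) (hq1Q : (q1 : 𝓞 K) ∈ Q1)
    (hf0 : H27.artin L Q0 ≠ 1) (_hf1 : H27.artin L Q1 ≠ 1) (d : ℕ)
    (hd : H27.artin L Q1 = H27.artin L Q0 ^ d) :
    H18.cls Q1 * (H18.cls Q0 ^ d)⁻¹ ∈ normSubgroupNF K L := by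
  have hp : p.Prime := hpF.out
  have hpos : 0 < p := hp.pos
  -- residue degrees
  have hfin : Module.finrank ℚ K = p - 1 := by
    have : NeZero p := ⟨hp.ne_zero⟩
    rw [IsCyclotomicExtension.finrank (n := p) K (Polynomial.cyclotomic.irreducible_rat hp.pos),
      Nat.totient_prime hp]
  obtain ⟨f0, hf01, hf0le, hN0⟩ := exists_absNorm_eq_pow hq0 Q0 hq0Q
  obtain ⟨f1, hf11, hf1le, hN1⟩ := exists_absNorm_eq_pow hq1 Q1 hq1Q
  rw [hfin] at hf0le hf1le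
  have hpf0 : ¬ p ∣ f0 := fun h => by
    have := Nat.le_of_dvd (by omega) h; omega
  have hpf1 : ¬ p ∣ f1 := fun h => by
    have := Nat.le_of_dvd (by omega) h; omega
  -- the order of the Galois group
  have hcardG : Nat.card Gal(L/K) = p := by rw [IsGalois.card_aut_eq_finrank, hdeg]
  set s0 : Gal(L/K) := H27.frobP L Q0 with hs0
  have hs0' : H27.artin L Q0 = s0 := H27.artin_prime Q0 h0
  have hs1' : H27.artin L Q1 = H27.frobP L Q1 := H27.artin_prime Q1 h1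
  have hs0ne : s0 ≠ 1 := by rw [← hs0']; exact hf0
  have hs0p : s0 ^ p = 1 := by
    rw [← hcardG]; exact pow_card_eq_one'
  set d' : ℕ := d % p with hd'
  have hd'lt : d' < p := Nat.mod_lt _ hpos
  have hpow_d : s0 ^ d = s0 ^ d' := by
    conv_lhs => rw [← Nat.mod_add_div d p, pow_add, pow_mul, hs0p, one_pow, mul_one]
  -- auxiliary prime
  obtain ⟨m, hm, hm1, hmp, hmq0, hmq1, hnr, ⟨y, hy⟩⟩ :=
    haux hq0 hq1 h01 h0p h1p hpf0 hpf1 (p - d')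
  have : Fact m.Prime := ⟨hm⟩
  set n0 : ZMod m := (Ideal.absNorm Q0 : ZMod m) with hn0
  have hn0eq : n0 = ((q0 ^ f0 : ℕ) : ZMod m) := by rw [hn0, hN0]
  have hnr' : ¬ ∃ x : ZMod m, x ^ p = n0 := by rw [hn0eq]; exact hnr
  have hn0ne : n0 ≠ 0 := by
    intro h
    exact hnr' ⟨0, by rw [h, zero_pow hp.ne_zero]⟩
  have hpm : p ∣ m - 1 := by
    have h2 : 1 ≤ m := hm.one_lt.le
    have : (m - 1) % p = 0 := by
      have h3 : m = p * (m / p) + 1 := by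
        have := Nat.div_add_mod m p
        omega
      rw [h3, Nat.add_sub_cancel, Nat.mul_mod_right]
    exact Nat.dvd_of_mod_eq_zero this
  -- crossing fields
  obtain ⟨cf⟩ := hfields m hm hmp hpm s0 hs0ne n0 hnr'
  have hmQ0 : (m : 𝓞 K) ∉ Q0 :=
    natCast_not_mem_of_prime_ne hq0 hm (Ne.symm hmq0) hQ0.ne_top hq0Q
  have hmQ1 : (m : 𝓞 K) ∉ Q1 :=
    natCast_not_mem_of_prime_ne hq1 hm (Ne.symm hmq1) hQ1.ne_top hq1Q
  -- the primes of `E` above `Q0`, `Q1`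
  obtain ⟨QQ0, hQQ0p, -, hQQ0n, hQQ0c⟩ :=
    cf.split Q0 h0 hmQ0 1 (by rw [pow_one]) ⟨1, by rw [pow_one, one_pow, mul_one]⟩
  have hN1' : ∃ x : ZMod m, (Ideal.absNorm Q1 : ZMod m) = n0 ^ d' * x ^ p := by
    apply exists_eq_pow_mul_pow hd'lt.le hn0ne (y := y)
    rw [hy, hn0eq, hN1]
    push_cast
    ring
  have hfrob1 : H27.frobP L Q1 = s0 ^ d' := by
    rw [← hs1', hd, hs0', hpow_d]
  obtain ⟨QQ1, hQQ1p, -, hQQ1n, hQQ1c⟩ := cf.split Q1 h1 hmQ1 d' hfrob1 hN1'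
  -- non-vanishing
  have hQQ0ne : QQ0 ≠ ⊥ := by
    rintro rfl
    rw [Ideal.relNorm_bot] at hQQ0n
    exact h0 hQQ0n.symm
  have hQQ1ne : QQ1 ≠ ⊥ := by
    rintro rfl
    rw [Ideal.relNorm_bot] at hQQ1n
    exact h1 hQQ1n.symm
  have hI0 : Ideal.span {(m : 𝓞 cf.E)} ≠ ⊥ := by
    rw [Ne, Ideal.span_singleton_eq_bot]
    exact_mod_cast hm.ne_zero
  -- the Galois group of `M/E`
  have hcardM : Nat.card Gal(cf.M/cf.E) = p := by
    rw [IsGalois.card_aut_eq_finrank, cf.finrank_EM]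
  have hres : Function.Injective (H27.resHom K L : Gal(cf.M/cf.E) →* Gal(L/K)) := by
    rw [injective_iff_map_eq_one]
    intro σ hσ
    apply cf.res_inj
    intro x
    rw [← H27.algebraMap_resHom (K := K) σ x, hσ]
    rfl
  have hBM : (normSubgroupNF cf.E cf.M).index ≤ p := by
    have := hB cf.E cf.M
    rwa [cf.finrank_EM] at this
  have key := hcore cf.E cf.M hcardM hunr cf.unram hres hI0
    (fun b _ hb => cf.principal b hb) hBM hQQ0ne hQQ1ne hQQ0c hQQ1c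
    (by rw [hQQ0n]; exact hf0) d (by rw [hQQ0n, hQQ1n]; exact hd)
  rwa [hQQ0n, hQQ1n] at key

/-- **The crossing lemma (X)** with the class-group core `H90.crossing_core` plugged in: only the
auxiliary prime, the crossing fields and the second inequality remain as hypotheses. -/
theorem crossing_of_aux_fields_secondIneq {p : ℕ} [hpF : Fact p.Prime]
    [IsCyclotomicExtension {p} ℚ K]
    (hdeg : Module.finrank K L = p) (hunr : IsUnramifiedEverywhere K L)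
    (haux : ∀ {q0 q1 : ℕ}, q0.Prime → q1.Prime → q0 ≠ q1 → q0 ≠ p → q1 ≠ p →
      ∀ {f0 f1 : ℕ}, ¬ p ∣ f0 → ¬ p ∣ f1 → ∀ e : ℕ,
        ∃ m : ℕ, m.Prime ∧ m % p = 1 ∧ m ≠ p ∧ m ≠ q0 ∧ m ≠ q1 ∧
          (¬ ∃ x : ZMod m, x ^ p = ((q0 ^ f0 : ℕ) : ZMod m)) ∧
          (∃ x : ZMod m, x ^ p = ((q1 ^ f1 * (q0 ^ f0) ^ e : ℕ) : ZMod m)))
    (hfields : ∀ m : ℕ, m.Prime → m ≠ p → p ∣ m - 1 → ∀ s0 : Gal(L/K), s0 ≠ 1 →
      ∀ n0 : ZMod m, (¬ ∃ x : ZMod m, x ^ p = n0) → Nonempty (H80.CrossFields p m K L s0 n0))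
    (hB : ∀ (E M : Type) [Field E] [NumberField E] [Field M] [NumberField M] [Algebra E M]
      [IsGalois E M], (normSubgroupNF E M).index ≤ Module.finrank E M)
    (q0 q1 : ℕ) (hq0 : q0.Prime) (hq1 : q1.Prime) (h01 : q0 ≠ q1) (h0p : q0 ≠ p)
    (h1p : q1 ≠ p) (Q0 Q1 : Ideal (𝓞 K)) (hQ0 : Q0.IsPrime) (hQ1 : Q1.IsPrime)
    (h0 : Q0 ≠ ⊥) (h1 : Q1 ≠ ⊥) (hq0Q : (q0 : 𝓞 K) ∈ Q0) (hq1Q : (q1 : 𝓞 K) ∈ Q1)
    (hf0 : H27.artin L Q0 ≠ 1) (hf1 : H27.artin L Q1 ≠ 1) (d : ℕ)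
    (hd : H27.artin L Q1 = H27.artin L Q0 ^ d) :
    H18.cls Q1 * (H18.cls Q0 ^ d)⁻¹ ∈ normSubgroupNF K L := by
  refine crossing_of hdeg hunr haux hfields hB ?_ q0 q1 hq0 hq1 h01 h0p h1p Q0 Q1 hQ0 hQ1 h0 h1
    hq0Q hq1Q hf0 hf1 d hd
  intro E M _ _ _ _ _ _ _ _ _ _ _ _ hcard hunrL hunrM hres I0 hI0 hprinc hB' Q0' Q1' h0' h1'
    hc0 hc1 hne d' hd'
  exact H90.crossing_core hcard hunrL hunrM hres hI0 hprinc hB' h0' h1' hc0 hc1 hne d' hd'

end Crossing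

end Fermat.Agent.S14.H67
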