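import Mathlib
import Fermat.Agent.S14.H26_Final
import Fermat.Agent.S14.H67_Crossing
import Fermat.Agent.S14.H79_SecondInequalityMain

/-!
# S14: everything wired except the two remaining WP5 inputs

`extVanishingCts_of_auxPrime_of_crossFields : 3 ≤ p → AuxPrimeStatement p → CrossFieldsStatement p
  → ExtCitation.ExtVanishingCts p`, where

* `AuxPrimeStatement p` is the existence of the auxiliary prime `m` (WP5-kummer / WP5a), a statement
  about rational integers only;
* `CrossFieldsStatement p` is the existence of the crossing fields `H80.CrossFields` (WP5-fields).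
-/

set_option autoImplicit false

namespace Fermat.Agent.S14.H67

open NumberField Fermat.Agent.S14
open scoped Pointwise IsMulCommutative nonZeroDivisors

/-- Existence of the auxiliary prime (blueprint #463, step 4 (a)). -/
def AuxPrimeStatement (p : ℕ) : Prop :=
  ∀ {q0 q1 : ℕ}, q0.Prime → q1.Prime → q0 ≠ q1 → q0 ≠ p → q1 ≠ p →
    ∀ {f0 f1 : ℕ}, ¬ p ∣ f0 → ¬ p ∣ f1 → ∀ e : ℕ,
      ∃ m : ℕ, m.Prime ∧ m % p = 1 ∧ m ≠ p ∧ m ≠ q0 ∧ m ≠ q1 ∧
        (¬ ∃ x : ZMod m, x ^ p = ((q0 ^ f0 : ℕ) : ZMod m)) ∧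
        (∃ x : ZMod m, x ^ p = ((q1 ^ f1 * (q0 ^ f0) ^ e : ℕ) : ZMod m))

/-- Existence of the crossing fields (blueprint #463, steps 4 (b)(c)(d)). -/
def CrossFieldsStatement (p : ℕ) : Prop :=
  ∀ (K L : Type) [Field K] [NumberField K] [Field L] [NumberField L] [Algebra K L]
    [IsCyclotomicExtension {p} ℚ K] [IsGalois K L] [IsMulCommutative Gal(L/K)],
    Module.finrank K L = p → IsUnramifiedEverywhere K L →
    ∀ m : ℕ, m.Prime → m ≠ p → p ∣ m - 1 → ∀ s0 : Gal(L/K), s0 ≠ 1 →
    ∀ n0 : ZMod m, (¬ ∃ x : ZMod m, x ^ p = n0) → Nonempty (H80.CrossFields p m K L s0 n0)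

variable {p : ℕ} [Fact p.Prime]

/-- The crossing lemma (X) for all admissible pairs `(K, L)`. -/
theorem crossingAll_of (haux : AuxPrimeStatement p) (hfields : CrossFieldsStatement p) :
    H26.CrossingAll p := by
  intro K L _ _ _ _ _ _ _ _ hdeg hunr
  exact crossing_of_aux_fields_secondIneq hdeg hunr haux (hfields K L hdeg hunr)
    (fun E M _ _ _ _ _ _ => H79.index_normSubgroupNF_le E M)

/-- **S14 from the auxiliary prime and the crossing fields.** -/
theorem extVanishingCts_of_auxPrime_of_crossFields (h3 : 3 ≤ p) (haux : AuxPrimeStatement p)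
    (hfields : CrossFieldsStatement p) : ExtCitation.ExtVanishingCts p :=
  H26.extVanishingCts_of_crossingAll h3 (crossingAll_of haux hfields)

end Fermat.Agent.S14.H67
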