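import Mathlib

/-!
# S14 / WP5a : the auxiliary prime of the crossing argument (Kummer side)

For an odd prime `p`, two distinct rational primes `q₀ ≠ q₁` (both `≠ p`) and exponents
`f₀ f₁` prime to `p`, we produce a prime `m ≡ 1 mod p`, outside a given finite set, such that
`q₀ ^ f₀` is NOT a `p`-th power mod `m` while `q₁ ^ f₁ * q₀ ^ e` IS a `p`-th power mod `m`.

Route: `K = ℚ(ζ_p)`, `F₁ = K(b^(1/p))`, `F = K(a^(1/p), b^(1/p))` with `a = q₀^f₀`,
`b = q₁^f₁ q₀^e`; `[F₁ : K] = p < [F : K]`; a degree-one prime of `K` which splits completely in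
`F₁` but not in `F` (density input) does the job:

* Lemma A (`exists_zmod_pow_eq_of_inertiaDeg_eq_one`): a degree one prime above in `F₁` forces
  `b` to be a `p`-th power residue;
* Lemma B (`stabilizer_eq_bot_of_residues`): if `a` and `b` are both `p`-th power residues, every
  decomposition group above the prime in `F` is trivial, hence the prime splits completely.
-/

set_option autoImplicit false

namespace Fermat.Agent.S14.H82

open NumberField Polynomial
open scoped Pointwise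

/-! ## Lemma A -/


section LemmaA

/-- A ring with a prime number `m` of elements: every element is the image of an integer. -/
theorem exists_intCast_eq_of_card_prime {R : Type*} [Ring R] {m : ℕ} (hm : m.Prime)
    (hR : Nat.card R = m) (x : R) : ∃ n : ℤ, (n : R) = x := by
  have : Finite R := Nat.finite_of_card_ne_zero (by rw [hR]; exact hm.ne_zero)
  have : Nontrivial R := by
    rw [← Finite.one_lt_card_iff_nontrivial, hR]; exact hm.one_lt
  -- the additive subgroup generated by 1 is everything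
  have h1 : (1 : R) ≠ 0 := one_ne_zero
  have hcyc : AddSubgroup.zmultiples (1 : R) = ⊤ := by
    have hdvd := AddSubgroup.card_addSubgroup_dvd_card (AddSubgroup.zmultiples (1 : R))
    rw [hR] at hdvd
    rcases (Nat.dvd_prime hm).1 hdvd with h | h
    · exfalso
      have : AddSubgroup.zmultiples (1 : R) = ⊥ := by
        rwa [← AddSubgroup.card_eq_one]
      rw [AddSubgroup.zmultiples_eq_bot] at this
      exact h1 this
    · exact AddSubgroup.eq_top_of_card_eq _ (h.trans hR.symm)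
  have hx : x ∈ AddSubgroup.zmultiples (1 : R) := by rw [hcyc]; trivial
  obtain ⟨n, hn⟩ := AddSubgroup.mem_zmultiples_iff.1 hx
  exact ⟨n, by rw [← hn]; simp⟩

end LemmaA


theorem exists_zmod_pow_eq_of_card_prime {R : Type*} [CommRing R] {m : ℕ} (hm : m.Prime)
    (hR : Nat.card R = m) {p : ℕ} (y : R) (b : ℤ) (hy : y ^ p = (b : R)) :
    ∃ x : ZMod m, x ^ p = (b : ZMod m) := by
  have : Finite R := Nat.finite_of_card_ne_zero (by rw [hR]; exact hm.ne_zero)
  have : Nontrivial R := by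
    rw [← Finite.one_lt_card_iff_nontrivial, hR]; exact hm.one_lt
  have : Fact m.Prime := ⟨hm⟩
  let _ := Fintype.ofFinite R
  have : CharP R m := charP_of_card_eq_prime (by rw [← Nat.card_eq_fintype_card, hR])
  obtain ⟨n, hn⟩ := exists_intCast_eq_of_card_prime hm hR y
  refine ⟨(n : ZMod m), ?_⟩
  have hinj : Function.Injective (ZMod.castHom (dvd_refl m) R) := RingHom.injective _
  apply hinj
  simp only [map_pow, map_intCast, hn, hy]

section NFa

variable {K F : Type*} [Field K] [NumberField K] [Field F] [NumberField F] [Algebra K F]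

theorem exists_zmod_pow_eq_of_inertiaDeg_eq_one {m : ℕ} (hm : m.Prime) (P : Ideal (𝓞 K))
    (hP : Ideal.absNorm P = m) (Q : Ideal (𝓞 F)) [Q.IsPrime] [Q.LiesOver P]
    (hf : Q.inertiaDeg (𝓞 K) = 1) {p : ℕ} (β : 𝓞 F) (b : ℤ) (hβ : β ^ p = (b : 𝓞 F)) :
    ∃ x : ZMod m, x ^ p = (b : ZMod m) := by
  have hQ : Ideal.absNorm Q = m := by
    rw [← Ideal.absNorm_pow_inertiaDeg P Q, hf, pow_one, hP]
  have hcard : Nat.card (𝓞 F ⧸ Q) = m := by
    rw [← hQ, Ideal.absNorm_apply, Submodule.cardQuot_apply]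
  refine exists_zmod_pow_eq_of_card_prime hm hcard (Ideal.Quotient.mk Q β) b ?_
  rw [← map_pow, hβ, map_intCast]

/-! ## Lemma B -/


/-- Abstract core of the converse direction: a ring endomorphism `σ` preserving a prime ideal `Q`
fixes a `p`-th root `α` of a `σ`-fixed element as soon as `α ^ p ≡ c ^ p` modulo `Q` for some
`σ`-fixed `c ∉ Q` and `p ∉ Q`. -/
theorem map_eq_self_of_pow_sub_pow_mem {S : Type*} [CommRing S] [IsDomain S] (Q : Ideal S)
    [Q.IsPrime] (σ : S →+* S) (hσQ : ∀ x ∈ Q, σ x ∈ Q) {p : ℕ} (hp : p.Prime) {ζ : S}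
    (hζ : IsPrimitiveRoot ζ p) (hσζ : σ ζ = ζ) (hpQ : (p : S) ∉ Q) (α c : S) (hσc : σ c = c)
    (hcQ : c ∉ Q) (hαc : α ^ p - c ^ p ∈ Q) (hσα : σ (α ^ p) = α ^ p) : σ α = α := by
  have : NeZero p := ⟨hp.ne_zero⟩
  -- σ α = μ α for a p-th root of unity μ
  have h1 : (σ α) ^ p - α ^ p = 0 := by rw [← map_pow, hσα, sub_self]
  rw [hζ.pow_sub_pow_eq_prod_sub_mul _ _ hp.pos, Finset.prod_eq_zero_iff] at h1
  obtain ⟨μ, hμ, hμα⟩ := h1
  rw [sub_eq_zero] at hμα
  have hμp : μ ^ p = 1 := (mem_nthRootsFinset hp.pos 1).1 hμ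
  -- α ≡ η c for a p-th root of unity η
  rw [hζ.pow_sub_pow_eq_prod_sub_mul _ _ hp.pos] at hαc
  obtain ⟨η, hη, hηQ⟩ := (Ideal.IsPrime.prod_mem_iff).1 hαc
  have hηp : η ^ p = 1 := (mem_nthRootsFinset hp.pos 1).1 hη
  obtain ⟨k, -, rfl⟩ := hζ.eq_pow_of_pow_eq_one hηp
  have hση : σ (ζ ^ k) = ζ ^ k := by rw [map_pow, hσζ]
  -- apply σ
  have h2 : μ * α - ζ ^ k * c ∈ Q := by
    have := hσQ _ hηQ
    rwa [map_sub, map_mul, hση, hσc, hμα] at this
  have h3 : ζ ^ k * c * (μ - 1) ∈ Q := by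
    have : ζ ^ k * c * (μ - 1) = (μ * α - ζ ^ k * c) - μ * (α - ζ ^ k * c) := by ring
    rw [this]
    exact Q.sub_mem h2 (Q.mul_mem_left _ hηQ)
  have hηQ' : ζ ^ k ∉ Q := by
    intro h
    have : (ζ ^ k) ^ p ∈ Q := Q.pow_mem_of_mem h p hp.pos
    rw [hηp] at this
    exact (Ideal.IsPrime.ne_top ‹_›) ((Ideal.eq_top_iff_one Q).2 this)
  have hμ1 : μ - 1 ∈ Q := by
    rcases (Ideal.IsPrime.mem_or_mem ‹_› h3) with h | h
    · rcases (Ideal.IsPrime.mem_or_mem ‹_› h) with h | h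
      · exact absurd h hηQ'
      · exact absurd h hcQ
    · exact h
  -- μ = 1
  by_cases hμ1' : μ = 1
  · rw [hμα, hμ1', one_mul]
  exfalso
  have hsum : ∑ i ∈ Finset.range p, μ ^ i = 0 := by
    have := mul_geom_sum μ p
    rw [hμp, sub_self] at this
    exact (mul_eq_zero.1 this).resolve_left (sub_ne_zero.2 hμ1')
  have hmem : (∑ i ∈ Finset.range p, μ ^ i) - (p : S) ∈ Q := by
    have : (∑ i ∈ Finset.range p, μ ^ i) - (p : S) = ∑ i ∈ Finset.range p, (μ ^ i - 1) := by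
      rw [Finset.sum_sub_distrib]; simp
    rw [this]
    refine Q.sum_mem fun i _ => ?_
    obtain ⟨d, hd⟩ := sub_dvd_pow_sub_pow μ 1 i
    rw [one_pow] at hd
    rw [hd]
    exact Q.mul_mem_right _ hμ1
  rw [hsum, zero_sub, neg_mem_iff] at hmem
  exact hpQ hmem



end NFa

section NFb

variable {K F : Type*} [Field K] [NumberField K] [Field F] [NumberField F] [Algebra K F]
  [IsGalois K F]

theorem intCast_not_mem_of_not_dvd {S : Type*} [CommRing S] (Q : Ideal S) [Q.IsPrime] {m : ℕ}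
    (hm : m.Prime) (hmQ : (m : S) ∈ Q) {c : ℤ} (hc : ¬ (m : ℤ) ∣ c) : (c : S) ∉ Q := by
  intro hcQ
  have hcop : IsCoprime (m : ℤ) c :=
    (Nat.prime_iff_prime_int.1 hm).coprime_iff_not_dvd.2 hc
  obtain ⟨u, v, huv⟩ := hcop
  have : ((u * m + v * c : ℤ) : S) ∈ Q := by
    push_cast
    exact Q.add_mem (Q.mul_mem_left _ hmQ) (Q.mul_mem_left _ hcQ)
  rw [huv, Int.cast_one] at this
  exact (Ideal.IsPrime.ne_top ‹_›) ((Ideal.eq_top_iff_one Q).2 this)

theorem stabilizer_eq_bot_of_residues {p : ℕ} (hp : p.Prime) {ζ : 𝓞 K}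
    (hζ : IsPrimitiveRoot ζ p) {ι : Type*} (α : ι → 𝓞 F) (a c : ι → ℤ)
    (hα : ∀ i, α i ^ p = (a i : 𝓞 F))
    (hgen : ∀ σ : F ≃ₐ[K] F, (∀ i, σ (α i : F) = (α i : F)) → σ = 1)
    {m : ℕ} (hm : m.Prime) (hmp : m ≠ p) (Q : Ideal (𝓞 F)) [Q.IsPrime]
    (hmQ : (m : 𝓞 F) ∈ Q) (hac : ∀ i, (m : ℤ) ∣ a i - c i ^ p) (hc : ∀ i, ¬ (m : ℤ) ∣ c i) :
    MulAction.stabilizer (F ≃ₐ[K] F) Q = ⊥ := by
  rw [eq_bot_iff]
  intro σ hσ
  rw [Subgroup.mem_bot]
  have hσQ' : σ • Q = Q := hσ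
  apply hgen
  intro i
  let φ : 𝓞 F →+* 𝓞 F := MulSemiringAction.toRingHom (F ≃ₐ[K] F) (𝓞 F) σ
  have hφ : ∀ x, φ x = σ • x := fun _ => rfl
  have hφQ : ∀ x ∈ Q, φ x ∈ Q := by
    intro x hx
    have : σ • x ∈ σ • Q := Ideal.smul_mem_pointwise_smul_iff.mpr hx
    rwa [hσQ'] at this
  have hζF : IsPrimitiveRoot (algebraMap (𝓞 K) (𝓞 F) ζ) p :=
    hζ.map_of_injective (FaithfulSMul.algebraMap_injective (𝓞 K) (𝓞 F))
  have hφζ : φ (algebraMap (𝓞 K) (𝓞 F) ζ) = algebraMap (𝓞 K) (𝓞 F) ζ := by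
    rw [hφ, smul_algebraMap]
  have hpQ : ((p : ℕ) : 𝓞 F) ∉ Q := by
    have : ¬ (m : ℤ) ∣ (p : ℤ) := by
      rw [Int.natCast_dvd_natCast]
      intro h
      exact hmp ((Nat.prime_dvd_prime_iff_eq hm hp).1 h)
    have := intCast_not_mem_of_not_dvd Q hm hmQ this
    simpa using this
  have key := map_eq_self_of_pow_sub_pow_mem Q φ hφQ hp hζF hφζ hpQ (α i) (c i : 𝓞 F)
    (by rw [map_intCast]) (intCast_not_mem_of_not_dvd Q hm hmQ (hc i))
    (by
      obtain ⟨d, hd⟩ := hac i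
      rw [hα i]
      have : ((a i : 𝓞 F) - (c i : 𝓞 F) ^ p) = ((a i - c i ^ p : ℤ) : 𝓞 F) := by push_cast; ring
      rw [this, hd]
      push_cast
      exact Q.mul_mem_right _ hmQ)
    (by rw [hα i, map_intCast])
  have : ((σ • α i : 𝓞 F) : F) = (α i : F) := by rw [← hφ, key]
  exact this


end NFb

section NFc

variable {K F : Type*} [Field K] [NumberField K] [Field F] [NumberField F] [Algebra K F]
  [IsGalois K F]

theorem ramificationIdx_inertiaDeg_eq_one_of_stabilizer_eq_bot (P : Ideal (𝓞 K)) [P.IsPrime]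
    (Q : Ideal (𝓞 F)) [Q.IsPrime] [Q.LiesOver P]
    (h : MulAction.stabilizer (F ≃ₐ[K] F) Q = ⊥) :
    Q.ramificationIdx (𝓞 K) = 1 ∧ Q.inertiaDeg (𝓞 K) = 1 := by
  have := Ideal.card_stabilizer_eq (G := F ≃ₐ[K] F) P Q
  rw [h, Subgroup.card_bot, Ideal.ramificationIdxIn_eq_ramificationIdx P Q (F ≃ₐ[K] F),
    Ideal.inertiaDegIn_eq_inertiaDeg P Q (F ≃ₐ[K] F)] at this
  exact ⟨Nat.eq_one_of_mul_eq_one_right this.symm, Nat.eq_one_of_mul_eq_one_left this.symm⟩

end NFc

/-! ## Independence -/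


/-- If `q0 ^ A * q1 ^ B` is a `p`-th power in a number field `K` of degree prime to `p`, then
`p ∣ A` and `p ∣ B`. -/
theorem dvd_of_pow_eq_natCast {K : Type*} [Field K] [NumberField K] {p : ℕ} (hp : p.Prime)
    (hdeg : (Module.finrank ℚ K).Coprime p) {q0 q1 : ℕ} (hq0 : q0.Prime) (hq1 : q1.Prime)
    (h01 : q0 ≠ q1) (A B : ℕ) (c : K) (hc : c ^ p = ((q0 ^ A * q1 ^ B : ℕ) : K)) :
    p ∣ A ∧ p ∣ B := by
  set n := Module.finrank ℚ K with hn
  have hnorm : (Algebra.norm ℚ c) ^ p = ((q0 ^ A * q1 ^ B : ℕ) : ℚ) ^ n := by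
    rw [← map_pow, hc]
    have : ((q0 ^ A * q1 ^ B : ℕ) : K) = algebraMap ℚ K ((q0 ^ A * q1 ^ B : ℕ) : ℚ) := by
      simp
    rw [this, Algebra.norm_algebraMap]
  have hN0 : Algebra.norm ℚ c ≠ 0 := by
    intro h
    rw [h, zero_pow hp.ne_zero] at hnorm
    have : ((q0 ^ A * q1 ^ B : ℕ) : ℚ) ≠ 0 := by
      have := hq0.pos; have := hq1.pos
      positivity
    exact (pow_ne_zero n this) hnorm.symm
  have := Fact.mk hq0
  have := Fact.mk hq1
  have key : ∀ (q : ℕ) [Fact q.Prime] (E : ℕ), padicValNat q (q0 ^ A * q1 ^ B) = E → p ∣ E := by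
    intro q _ E hE
    have h1 : padicValRat q ((Algebra.norm ℚ c) ^ p) = p * padicValRat q (Algebra.norm ℚ c) := by
      rw [padicValRat.pow]
    have h2 : padicValRat q (((q0 ^ A * q1 ^ B : ℕ) : ℚ) ^ n) = n * E := by
      rw [padicValRat.pow, padicValRat.of_nat, hE]
    rw [hnorm, h2] at h1
    have : (p : ℤ) ∣ (n : ℤ) * (E : ℤ) := ⟨_, h1⟩
    have hcop : IsCoprime (p : ℤ) (n : ℤ) := by
      rw [Int.isCoprime_iff_gcd_eq_one]
      simpa [Int.gcd_natCast_natCast, Nat.coprime_comm] using hdeg.symm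
    have := hcop.dvd_of_dvd_mul_left this
    exact_mod_cast this
  constructor
  · apply key q0 A
    rw [padicValNat.mul (pow_ne_zero _ hq0.ne_zero) (pow_ne_zero _ hq1.ne_zero),
      padicValNat.prime_pow, padicValNat.pow,
      padicValNat_primes h01, mul_zero, add_zero]
  · apply key q1 B
    rw [padicValNat.mul (pow_ne_zero _ hq0.ne_zero) (pow_ne_zero _ hq1.ne_zero),
      padicValNat.prime_pow, padicValNat.pow,
      padicValNat_primes h01.symm, mul_zero, zero_add]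

/-! ## The Kummer fields -/


section Fields
variable {K : Type*} [Field K]

/-- the product polynomial whose splitting field is `K(a^(1/p), b^(1/p))` -/
noncomputable abbrev kummerPoly (p : ℕ) (a b : K) : K[X] := (X ^ p - C a) * (X ^ p - C b)

theorem kummerPoly_ne_zero {p : ℕ} (hp : 0 < p) (a b : K) : kummerPoly p a b ≠ 0 :=
  mul_ne_zero (X_pow_sub_C_ne_zero hp a) (X_pow_sub_C_ne_zero hp b)

theorem exists_root_left {p : ℕ} (hp : 0 < p) (a b : K) (F : Type*) [Field F] [Algebra K F]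
    [IsSplittingField K F (kummerPoly p a b)] : ∃ α : F, α ^ p = algebraMap K F a := by
  have hs := IsSplittingField.splits F (kummerPoly p a b)
  have h1 : ((X ^ p - C a : K[X]).map (algebraMap K F)).Splits := by
    refine hs.of_dvd ?_ ?_
    · exact (Polynomial.map_ne_zero_iff (algebraMap K F).injective).2 (kummerPoly_ne_zero hp a b)
    · exact Polynomial.map_dvd _ (dvd_mul_right _ _)
  obtain ⟨α, hα⟩ := h1.exists_eval_eq_zero (by
    rw [degree_map, degree_X_pow_sub_C hp]; exact_mod_cast hp.ne')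
  refine ⟨α, ?_⟩
  simpa [sub_eq_zero] using hα

theorem exists_root_right {p : ℕ} (hp : 0 < p) (a b : K) (F : Type*) [Field F] [Algebra K F]
    [IsSplittingField K F (kummerPoly p a b)] : ∃ β : F, β ^ p = algebraMap K F b := by
  have hs := IsSplittingField.splits F (kummerPoly p a b)
  have h1 : ((X ^ p - C b : K[X]).map (algebraMap K F)).Splits := by
    refine hs.of_dvd ?_ ?_
    · exact (Polynomial.map_ne_zero_iff (algebraMap K F).injective).2 (kummerPoly_ne_zero hp a b)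
    · exact Polynomial.map_dvd _ (dvd_mul_left _ _)
  obtain ⟨β, hβ⟩ := h1.exists_eval_eq_zero (by
    rw [degree_map, degree_X_pow_sub_C hp]; exact_mod_cast hp.ne')
  refine ⟨β, ?_⟩
  simpa [sub_eq_zero] using hβ

end Fields


section Fields2
variable {K : Type*} [Field K]

/-- An automorphism fixing a `p`-th root of `a` fixes all of them (given `ζ_p ∈ K`). -/
theorem algEquiv_apply_eq_of_pow_eq {p : ℕ} [NeZero p] {ζ : K} (hζ : IsPrimitiveRoot ζ p)
    {F : Type*} [Field F] [Algebra K F] (σ : F ≃ₐ[K] F) {α r : F} (hα0 : α ≠ 0)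
    (hσ : σ α = α) (hr : r ^ p = α ^ p) : σ r = r := by
  have hζF : IsPrimitiveRoot (algebraMap K F ζ) p := hζ.map_of_injective (algebraMap K F).injective
  have h1 : (r / α) ^ p = 1 := by rw [div_pow, hr, div_self (pow_ne_zero _ hα0)]
  obtain ⟨k, -, hk⟩ := hζF.eq_pow_of_pow_eq_one h1
  have : r = (algebraMap K F ζ) ^ k * α := by rw [hk, div_mul_cancel₀ _ hα0]
  rw [this, map_mul, map_pow, σ.commutes, hσ]

theorem algEquiv_eq_one_of_fixes {p : ℕ} [NeZero p] {ζ : K} (hζ : IsPrimitiveRoot ζ p) {a b : K}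
    (ha : a ≠ 0) (hb : b ≠ 0)
    {F : Type*} [Field F] [Algebra K F] [IsSplittingField K F (kummerPoly p a b)]
    {α β : F} (hα : α ^ p = algebraMap K F a) (hβ : β ^ p = algebraMap K F b)
    (σ : F ≃ₐ[K] F) (hσα : σ α = α) (hσβ : σ β = β) : σ = 1 := by
  have hp : 0 < p := Nat.pos_of_ne_zero (NeZero.ne p)
  have hα0 : α ≠ 0 := by
    rintro rfl
    rw [zero_pow hp.ne'] at hα
    exact ha ((map_eq_zero (algebraMap K F)).1 hα.symm)
  have hβ0 : β ≠ 0 := by
    rintro rfl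
    rw [zero_pow hp.ne'] at hβ
    exact hb ((map_eq_zero (algebraMap K F)).1 hβ.symm)
  have htop := IsSplittingField.adjoin_rootSet F (kummerPoly p a b)
  have : (σ : F →ₐ[K] F) = AlgHom.id K F := by
    refine AlgHom.ext_of_adjoin_eq_top htop ?_
    intro r hr
    rw [mem_rootSet_of_ne (kummerPoly_ne_zero hp a b)] at hr
    simp only [kummerPoly, map_mul, map_sub, map_pow, aeval_X, aeval_C, mul_eq_zero,
      sub_eq_zero] at hr
    rcases hr with hr | hr
    · exact algEquiv_apply_eq_of_pow_eq hζ σ hα0 hσα (hr.trans hα.symm)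
    · exact algEquiv_apply_eq_of_pow_eq hζ σ hβ0 hσβ (hr.trans hβ.symm)
  ext x
  exact congrArg (fun f : F →ₐ[K] F => f x) this

end Fields2


section Degree
variable {K : Type*} [Field K]

/-- exponent of the root of unity by which `σ` multiplies a `p`-th root of an element of `K` -/
theorem exists_pow_mul_eq {p : ℕ} [NeZero p] {ζ : K} (hζ : IsPrimitiveRoot ζ p)
    {F : Type*} [Field F] [Algebra K F] (σ : F ≃ₐ[K] F) {α : F} {a : K} (hα0 : α ≠ 0)
    (hα : α ^ p = algebraMap K F a) : ∃ i < p, σ α = algebraMap K F ζ ^ i * α := by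
  have hζF : IsPrimitiveRoot (algebraMap K F ζ) p := hζ.map_of_injective (algebraMap K F).injective
  have h1 : (σ α / α) ^ p = 1 := by
    rw [div_pow, ← map_pow, hα, σ.commutes, div_self]
    rw [← hα]; exact pow_ne_zero _ hα0
  obtain ⟨k, hk, hk'⟩ := hζF.eq_pow_of_pow_eq_one h1
  exact ⟨k, hk, by rw [hk', div_mul_cancel₀ _ hα0]⟩

theorem lt_finrank_of_independent {p : ℕ} (hp : p.Prime) {ζ : K} (hζ : IsPrimitiveRoot ζ p)
    {a b : K} (ha : a ≠ 0) (hb : b ≠ 0)
    (hbK : ∀ c : K, c ^ p ≠ b)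
    (hind : ∀ (x y : ℕ) (c : K), c ^ p = a ^ x * b ^ y → p ∣ x)
    {F : Type*} [Field F] [Algebra K F] [FiniteDimensional K F] [IsGalois K F]
    {α β : F} (hα : α ^ p = algebraMap K F a) (hβ : β ^ p = algebraMap K F b) :
    p < Module.finrank K F := by
  have : NeZero p := ⟨hp.ne_zero⟩
  have hζF : IsPrimitiveRoot (algebraMap K F ζ) p := hζ.map_of_injective (algebraMap K F).injective
  have hα0 : α ≠ 0 := by
    rintro rfl
    rw [zero_pow hp.ne_zero] at hα
    exact ha ((map_eq_zero (algebraMap K F)).1 hα.symm)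
  have hβ0 : β ≠ 0 := by
    rintro rfl
    rw [zero_pow hp.ne_zero] at hβ
    exact hb ((map_eq_zero (algebraMap K F)).1 hβ.symm)
  by_contra hlt
  rw [not_lt, ← IsGalois.card_aut_eq_finrank] at hlt
  -- some automorphism moves β
  obtain ⟨σ, hσβ⟩ : ∃ σ : F ≃ₐ[K] F, σ β ≠ β := by
    by_contra hall
    push Not at hall
    obtain ⟨c, hc⟩ := (IsGalois.mem_range_algebraMap_iff_fixed (F := K) (E := F) β).2 hall
    apply hbK c
    apply (algebraMap K F).injective
    rw [map_pow, hc, hβ]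
  obtain ⟨j, hjp, hj⟩ := exists_pow_mul_eq hζ σ hβ0 hβ
  obtain ⟨i, -, hi⟩ := exists_pow_mul_eq hζ σ hα0 hα
  have hj0 : ¬ p ∣ j := by
    intro hdvd
    apply hσβ
    obtain ⟨t, rfl⟩ := hdvd
    rw [hj, pow_mul, hζF.pow_eq_one, one_pow, one_mul]
  -- powers of σ
  have hpow : ∀ n : ℕ, (σ ^ n) β = algebraMap K F ζ ^ (j * n) * β := by
    intro n
    induction n with
    | zero => simp
    | succ n ih =>
      rw [pow_succ', AlgEquiv.mul_apply, ih, map_mul, map_pow, σ.commutes, hj, mul_add, pow_add,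
        mul_one]
      ring
  have hord : p ∣ orderOf σ := by
    have h1 := hpow (orderOf σ)
    rw [pow_orderOf_eq_one, AlgEquiv.one_apply] at h1
    have h2 : algebraMap K F ζ ^ (j * orderOf σ) = 1 := by
      have h1' : algebraMap K F ζ ^ (j * orderOf σ) * β = 1 * β := by rw [one_mul]; exact h1.symm
      exact mul_right_cancel₀ hβ0 h1'
    have h3 := (hζF.pow_eq_one_iff_dvd _).1 h2
    exact (hp.dvd_mul.1 h3).resolve_left hj0
  have hfin : Finite (F ≃ₐ[K] F) := inferInstance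
  have hcard : orderOf σ = Nat.card (F ≃ₐ[K] F) := by
    apply le_antisymm (orderOf_le_card)
    exact hlt.trans (Nat.le_of_dvd (orderOf_pos σ) hord)
  have htop : Subgroup.zpowers σ = ⊤ := by
    apply Subgroup.eq_top_of_card_eq
    rw [Nat.card_zpowers, hcard]
  -- the fixed element
  set θ : F := α ^ j * β ^ ((p - 1) * i) with hθ
  have hσθ : σ θ = θ := by
    rw [hθ, map_mul, map_pow, map_pow, hi, hj, mul_pow, mul_pow, ← pow_mul, ← pow_mul]
    have : algebraMap K F ζ ^ (i * j) * algebraMap K F ζ ^ (j * ((p - 1) * i)) = 1 := by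
      rw [← pow_add]
      have : i * j + j * ((p - 1) * i) = p * (i * j) := by
        obtain ⟨q, rfl⟩ : ∃ q, p = q + 1 := ⟨p - 1, (Nat.succ_pred_eq_of_pos hp.pos).symm⟩
        simp only [Nat.add_sub_cancel]; ring
      rw [this, pow_mul, hζF.pow_eq_one, one_pow]
    calc algebraMap K F ζ ^ (i * j) * α ^ j * (algebraMap K F ζ ^ (j * ((p - 1) * i)) * β ^ ((p - 1) * i))
        = (algebraMap K F ζ ^ (i * j) * algebraMap K F ζ ^ (j * ((p - 1) * i))) *
          (α ^ j * β ^ ((p - 1) * i)) := by ring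
      _ = α ^ j * β ^ ((p - 1) * i) := by rw [this, one_mul]
  have hall : ∀ τ : F ≃ₐ[K] F, τ θ = θ := by
    intro τ
    have hτ : τ ∈ Subgroup.zpowers σ := by rw [htop]; trivial
    obtain ⟨n, rfl⟩ := Subgroup.mem_zpowers_iff.1 hτ
    have hfix : σ ∈ MulAction.stabilizer (F ≃ₐ[K] F) θ := hσθ
    have := (MulAction.stabilizer (F ≃ₐ[K] F) θ).zpow_mem hfix n
    exact this
  obtain ⟨c, hc⟩ := (IsGalois.mem_range_algebraMap_iff_fixed (F := K) (E := F) θ).2 hall
  have hcp : c ^ p = a ^ j * b ^ ((p - 1) * i) := by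
    apply (algebraMap K F).injective
    rw [map_pow, hc, hθ, mul_pow, ← pow_mul, ← pow_mul, mul_comm j p, mul_comm ((p-1)*i) p,
      pow_mul, pow_mul, hα, hβ]
    simp
  have := hind j ((p - 1) * i) c hcp
  exact hj0 this

end Degree

end Fermat.Agent.S14.H82
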