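import Mathlib
import Fermat.Agent.S14.H82_AuxPrime
import Fermat.Agent.S14.H72_SplitCorollaries

/-!
# S14 / WP5a : the auxiliary prime of the crossing argument (assembly)
-/

set_option autoImplicit false
namespace Fermat.Agent.S14.H82
open NumberField Polynomial IsDedekindDomain
open scoped Pointwise

/-- Density input, for two unrelated Galois extensions of different degrees. -/
theorem exists_prime_split_not_split_of_finrank_lt (E : Type*) [Field E] [NumberField E]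
    (F₁ : Type*) [Field F₁] [NumberField F₁] [Algebra E F₁] [IsGalois E F₁]
    (F₂ : Type*) [Field F₂] [NumberField F₂] [Algebra E F₂] [IsGalois E F₂]
    (hlt' : Module.finrank E F₁ < Module.finrank E F₂) (S : Finset ℕ) :
    ∃ P : HeightOneSpectrum (𝓞 E), (Ideal.absNorm P.asIdeal).Prime ∧
      Ideal.absNorm P.asIdeal ∉ S ∧ P ∈ H72.splitSet E F₁ ∧ P ∉ H72.splitSet E F₂ := by
  obtain ⟨C1, hC1⟩ := H72.exists_bound_splitSum E F₁
  obtain ⟨C2, hC2⟩ := H72.exists_bound_splitSum E F₂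
  have h1pos : (0 : ℝ) < (Module.finrank E F₁ : ℝ) := by exact_mod_cast Module.finrank_pos
  have hlt : 1 / (Module.finrank E F₂ : ℝ) < 1 / (Module.finrank E F₁ : ℝ) :=
    one_div_lt_one_div_of_lt h1pos (by exact_mod_cast hlt')
  obtain ⟨Q, hQ1, hQ2, hQ3, hQ4⟩ := H72.exists_mem_diff_of_density E
    (A := H72.splitSet E F₁) (B := H72.splitSet E F₂) hlt
    ⟨C1, fun s hs => by
      rw [H72.setSum_splitSet]; have := (abs_le.mp (hC1 s hs)).1; linarith⟩
    ⟨C2, fun s hs => by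
      rw [H72.setSum_splitSet]; have := (abs_le.mp (hC2 s hs)).2; linarith⟩
    (H72.finite_absNorm_mem E S).toFinset
  refine ⟨Q, hQ3, fun hS => hQ4 ?_, hQ1, hQ2⟩
  rw [Set.Finite.mem_toFinset]
  exact hS

/-- The density input in the shape consumed by `aux_core`. -/
theorem splitDensity (E : Type*) [Field E] [NumberField E]
    (F₁ : Type*) [Field F₁] [NumberField F₁] [Algebra E F₁] [IsGalois E F₁]
    (F₂ : Type*) [Field F₂] [NumberField F₂] [Algebra E F₂] [IsGalois E F₂]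
    (hlt : Module.finrank E F₁ < Module.finrank E F₂) (S : Finset ℕ) :
    ∃ (P : Ideal (𝓞 E)) (m : ℕ), P.IsPrime ∧ m.Prime ∧ m ∉ S ∧ Ideal.absNorm P = m ∧
      (∃ Q₁ : Ideal (𝓞 F₁), Q₁.IsPrime ∧ Q₁.LiesOver P ∧ Q₁.inertiaDeg (𝓞 E) = 1) ∧
      (∃ Q₂ : Ideal (𝓞 F₂), Q₂.IsPrime ∧ Q₂.LiesOver P ∧
        ¬ (Q₂.ramificationIdx (𝓞 E) = 1 ∧ Q₂.inertiaDeg (𝓞 E) = 1)) := by
  obtain ⟨P, hPm, hPS, hP1, hP2⟩ := exists_prime_split_not_split_of_finrank_lt E F₁ F₂ hlt S
  refine ⟨P.asIdeal, Ideal.absNorm P.asIdeal, P.isPrime, hPm, hPS, rfl, ?_, ?_⟩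
  · -- existence of a prime above
    obtain ⟨⟨Q, hQp, hQo⟩⟩ := Ideal.nonempty_primesOver (S := 𝓞 F₁) P.asIdeal
    have hQ0 : Q ≠ ⊥ := Ideal.ne_bot_of_liesOver_of_ne_bot P.ne_bot Q
    exact ⟨Q, hQp, hQo, (hP1 Q hQp hQ0 hQo.over.symm).2⟩
  · simp only [H72.splitSet, Set.mem_ofPred_eq, not_forall] at hP2
    obtain ⟨Q, hQp, hQ0, hQu, hQn⟩ := hP2
    exact ⟨Q, hQp, ⟨hQu.symm⟩, hQn⟩

section Main

variable {K : Type*} [Field K] [NumberField K]

/-- `m ≡ 1 mod p` for a degree one prime of a field containing `ζ_p`, `m ≠ p`. -/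
theorem mod_eq_one_of_absNorm_eq {p m : ℕ} (hp : p.Prime) (hm : m.Prime) (hmp : m ≠ p)
    {ζ : 𝓞 K} (hζ : IsPrimitiveRoot ζ p) (P : Ideal (𝓞 K)) [P.IsPrime]
    (hP : Ideal.absNorm P = m) : m % p = 1 := by
  have hP0 : P ≠ ⊥ := by
    rintro rfl
    rw [Ideal.absNorm_bot] at hP
    exact hm.ne_zero hP.symm
  have hmax : P.IsMaximal := Ring.DimensionLEOne.maximalOfPrime hP0 ‹_›
  let _ := Ideal.Quotient.field P
  have hcard : Nat.card (𝓞 K ⧸ P) = m := by
    rw [← hP, Ideal.absNorm_apply, Submodule.cardQuot_apply]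
  have hfin : Finite (𝓞 K ⧸ P) := Nat.finite_of_card_ne_zero (by rw [hcard]; exact hm.ne_zero)
  let _ := Fintype.ofFinite (𝓞 K ⧸ P)
  have hmP : (m : 𝓞 K) ∈ P := hP ▸ Ideal.absNorm_mem P
  have hpP : (p : 𝓞 K) ∉ P := by
    have h1 : ¬ (m : ℤ) ∣ (p : ℤ) := by
      rw [Int.natCast_dvd_natCast]
      intro h
      exact hmp ((Nat.prime_dvd_prime_iff_eq hm hp).1 h)
    have := intCast_not_mem_of_not_dvd P hm hmP h1
    simpa using this
  set z : 𝓞 K ⧸ P := Ideal.Quotient.mk P ζ with hz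
  have hzp : z ^ p = 1 := by rw [hz, ← map_pow, hζ.pow_eq_one, map_one]
  have hz1 : z ≠ 1 := by
    intro h
    apply hpP
    have hsum : ∑ i ∈ Finset.range p, ζ ^ i = 0 := hζ.geom_sum_eq_zero hp.one_lt
    have : Ideal.Quotient.mk P (∑ i ∈ Finset.range p, ζ ^ i) = (p : 𝓞 K ⧸ P) := by
      rw [map_sum]
      simp only [map_pow, ← hz, h, one_pow, Finset.sum_const, Finset.card_range, nsmul_eq_mul,
        mul_one]
    rw [hsum, map_zero] at this
    rw [← Ideal.Quotient.eq_zero_iff_mem, map_natCast, ← this]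
  have := Fact.mk hp
  have hord : orderOf z = p := orderOf_eq_prime hzp hz1
  have hz0 : z ≠ 0 := by
    intro h
    rw [h, zero_pow hp.ne_zero] at hzp
    exact zero_ne_one hzp
  have h2 : z ^ (m - 1) = 1 := by
    have := FiniteField.pow_card_sub_one_eq_one z hz0
    rwa [← Nat.card_eq_fintype_card, hcard] at this
  have hdvd : p ∣ m - 1 := hord ▸ orderOf_dvd_of_pow_eq_one h2
  obtain ⟨t, ht⟩ := hdvd
  have hm1 : m = p * t + 1 := by
    have := hm.one_lt
    omega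
  rw [hm1, Nat.mul_add_mod]
  exact Nat.mod_eq_of_lt hp.one_lt


theorem exists_int_of_zmod_pow_eq {m p : ℕ} [NeZero m] (a : ℤ)
    (h : ∃ x : ZMod m, x ^ p = (a : ZMod m)) : ∃ c : ℤ, (m : ℤ) ∣ a - c ^ p := by
  obtain ⟨x, hx⟩ := h
  refine ⟨(x.val : ℤ), ?_⟩
  rw [← ZMod.intCast_zmod_eq_zero_iff_dvd]
  push_cast
  rw [ZMod.natCast_zmod_val, hx, sub_self]

theorem aux_core {p : ℕ} (hp : p.Prime) {K : Type} [Field K]
    [NumberField K] {ζ : 𝓞 K} (hζ : IsPrimitiveRoot ζ p) (a b : ℕ) (ha : a ≠ 0) (hb : b ≠ 0)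
    (F₁ F : Type) [Field F₁] [NumberField F₁] [Algebra K F₁] [IsGalois K F₁]
    [Field F] [NumberField F] [Algebra K F] [IsGalois K F]
    [IsSplittingField K F (kummerPoly p (a : K) (b : K))]
    (β₁ : F₁) (hβ₁ : β₁ ^ p = (b : F₁))
    (hlt : Module.finrank K F₁ < Module.finrank K F) (S : Finset ℕ) :
    ∃ m : ℕ, m.Prime ∧ m % p = 1 ∧ m ∉ S ∧ (¬ ∃ x : ZMod m, x ^ p = (a : ZMod m)) ∧
      (∃ x : ZMod m, x ^ p = (b : ZMod m)) := by
  have hNZ : NeZero p := ⟨hp.ne_zero⟩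
  obtain ⟨P, m, hPprime, hm, hmS, hPm, ⟨Q₁, hQ₁p, hQ₁o, hQ₁f⟩, ⟨Q₂, hQ₂p, hQ₂o, hQ₂n⟩⟩ :=
    splitDensity K F₁ F hlt (S ∪ {p} ∪ (a * b).primeFactors)
  have hmS' : m ∉ S := fun h => hmS (by simp [h])
  have hmp : m ≠ p := fun h => hmS (by simp [h])
  have hmab : ¬ m ∣ a * b := by
    intro h
    apply hmS
    simp only [Finset.mem_union, Nat.mem_primeFactors]
    exact Or.inr ⟨hm, h, mul_ne_zero ha hb⟩
  have hma : ¬ m ∣ a := fun h => hmab (dvd_mul_of_dvd_left h b)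
  have hmb : ¬ m ∣ b := fun h => hmab (dvd_mul_of_dvd_right h a)
  have hmNZ : NeZero m := ⟨hm.ne_zero⟩
  refine ⟨m, hm, mod_eq_one_of_absNorm_eq hp hm hmp hζ P hPm, hmS', ?_, ?_⟩
  · -- non-residue
    rintro ⟨y, hy⟩
    apply hQ₂n
    -- b is a residue (shown below, repeated here)
    have hbres : ∃ x : ZMod m, x ^ p = ((b : ℤ) : ZMod m) := by
      have hint : IsIntegral ℤ β₁ := IsIntegral.of_pow hp.pos (hβ₁ ▸ isIntegral_natCast b)
      have := exists_zmod_pow_eq_of_inertiaDeg_eq_one hm P hPm Q₁ hQ₁f (p := p)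
        (⟨β₁, hint⟩ : 𝓞 F₁) (b : ℤ) (by
          apply RingOfIntegers.ext
          show β₁ ^ p = _
          rw [hβ₁]
          simp)
      exact this
    have hares : ∃ x : ZMod m, x ^ p = ((a : ℤ) : ZMod m) := ⟨y, by simpa using hy⟩
    obtain ⟨ca, hca⟩ := exists_int_of_zmod_pow_eq (a : ℤ) hares
    obtain ⟨cb, hcb⟩ := exists_int_of_zmod_pow_eq (b : ℤ) hbres
    have hca' : ¬ (m : ℤ) ∣ ca := by
      intro h
      apply hma
      have h2 : (m : ℤ) ∣ ca ^ p := dvd_pow h hp.ne_zero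
      have h3 : (m : ℤ) ∣ (a : ℤ) := by
        have := dvd_add hca h2
        simpa using this
      exact_mod_cast h3
    have hcb' : ¬ (m : ℤ) ∣ cb := by
      intro h
      apply hmb
      have h2 : (m : ℤ) ∣ cb ^ p := dvd_pow h hp.ne_zero
      have h3 : (m : ℤ) ∣ (b : ℤ) := by
        have := dvd_add hcb h2
        simpa using this
      exact_mod_cast h3
    -- roots in F
    obtain ⟨α, hα⟩ := exists_root_left hp.pos (a : K) (b : K) F
    obtain ⟨β, hβ⟩ := exists_root_right hp.pos (a : K) (b : K) F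
    have hαi : IsIntegral ℤ α := IsIntegral.of_pow hp.pos (by
      rw [hα, map_natCast]; exact isIntegral_natCast a)
    have hβi : IsIntegral ℤ β := IsIntegral.of_pow hp.pos (by
      rw [hβ, map_natCast]; exact isIntegral_natCast b)
    let αI : 𝓞 F := ⟨α, hαi⟩
    let βI : 𝓞 F := ⟨β, hβi⟩
    have hζK : IsPrimitiveRoot (ζ : K) p :=
      hζ.map_of_injective (FaithfulSMul.algebraMap_injective (𝓞 K) K)
    have hmQ : (m : 𝓞 F) ∈ Q₂ := by
      have h1 : (m : 𝓞 K) ∈ P := hPm ▸ Ideal.absNorm_mem P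
      have := (Ideal.mem_of_liesOver Q₂ P (m : 𝓞 K)).1 h1
      simpa using this
    have hstab := stabilizer_eq_bot_of_residues (K := K) (F := F) hp hζ
      (fun i : Bool => bif i then αI else βI)
      (fun i : Bool => bif i then (a : ℤ) else (b : ℤ))
      (fun i : Bool => bif i then ca else cb)
      (by
        rintro (_ | _)
        · apply RingOfIntegers.ext
          simp only [cond_false, map_pow, Int.cast_natCast]
          show β ^ p = (b : F)
          rw [hβ, map_natCast]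
        · apply RingOfIntegers.ext
          simp only [cond_true, map_pow, Int.cast_natCast]
          show α ^ p = (a : F)
          rw [hα, map_natCast])
      (by
        intro σ hσ
        have h1 : σ α = α := hσ true
        have h2 : σ β = β := hσ false
        exact algEquiv_eq_one_of_fixes hζK (by exact_mod_cast ha) (by exact_mod_cast hb)
          hα hβ σ h1 h2)
      hm hmp Q₂ hmQ
      (by rintro (_ | _) <;> simpa using (by assumption))
      (by rintro (_ | _) <;> simpa using (by assumption))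
    exact ramificationIdx_inertiaDeg_eq_one_of_stabilizer_eq_bot P Q₂ hstab
  · -- residue
    have hint : IsIntegral ℤ β₁ := IsIntegral.of_pow hp.pos (hβ₁ ▸ isIntegral_natCast b)
    have := exists_zmod_pow_eq_of_inertiaDeg_eq_one hm P hPm Q₁ hQ₁f (p := p)
      (⟨β₁, hint⟩ : 𝓞 F₁) (b : ℤ) (by
        apply RingOfIntegers.ext
        show β₁ ^ p = _
        rw [hβ₁]
        simp)
    simpa using this

end Main

/-- arithmetic: the independence hypotheses for `a = q₀^f₀`, `b = q₁^f₁ * a^e` in a number field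
of degree prime to `p`. -/
theorem kummer_independent {K : Type*} [Field K] [NumberField K] {p : ℕ} (hp : p.Prime)
    (hdeg : (Module.finrank ℚ K).Coprime p) {q0 q1 : ℕ} (hq0 : q0.Prime) (hq1 : q1.Prime)
    (h01 : q0 ≠ q1) {f0 f1 : ℕ} (hf0 : ¬ p ∣ f0) (hf1 : ¬ p ∣ f1) (e : ℕ) :
    (∀ c : K, c ^ p ≠ ((q1 ^ f1 * (q0 ^ f0) ^ e : ℕ) : K)) ∧
    (∀ (x y : ℕ) (c : K), c ^ p = ((q0 ^ f0 : ℕ) : K) ^ x *
        ((q1 ^ f1 * (q0 ^ f0) ^ e : ℕ) : K) ^ y → p ∣ x) := by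
  constructor
  · intro c hc
    have h : ((q1 ^ f1 * (q0 ^ f0) ^ e : ℕ) : K) = ((q0 ^ (f0 * e) * q1 ^ f1 : ℕ) : K) := by
      congr 1
      rw [pow_mul]; ring
    rw [h] at hc
    exact hf1 (dvd_of_pow_eq_natCast hp hdeg hq0 hq1 h01 _ _ c hc).2
  · intro x y c hc
    have h : ((q0 ^ f0 : ℕ) : K) ^ x * ((q1 ^ f1 * (q0 ^ f0) ^ e : ℕ) : K) ^ y =
        ((q0 ^ (f0 * x + f0 * e * y) * q1 ^ (f1 * y) : ℕ) : K) := by
      push_cast
      ring
    rw [h] at hc
    obtain ⟨h1, h2⟩ := dvd_of_pow_eq_natCast hp hdeg hq0 hq1 h01 _ _ c hc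
    have hy : p ∣ y := (hp.dvd_mul.1 h2).resolve_left hf1
    have h3 : p ∣ f0 * x := by
      have : p ∣ f0 * e * y := dvd_mul_of_dvd_right hy _
      exact (Nat.dvd_add_left this).1 h1
    exact (hp.dvd_mul.1 h3).resolve_left hf0


/-- General form: the auxiliary prime avoiding a finite set `S`. -/
theorem exists_aux_prime_not_mem {p : ℕ} (hp : p.Prime) {q0 q1 : ℕ}
    (hq0 : q0.Prime) (hq1 : q1.Prime) (h01 : q0 ≠ q1) {f0 f1 : ℕ} (hf0 : ¬ p ∣ f0)
    (hf1 : ¬ p ∣ f1) (e : ℕ) (S : Finset ℕ) :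
    ∃ m : ℕ, m.Prime ∧ m % p = 1 ∧ m ∉ S ∧
      (¬ ∃ x : ZMod m, x ^ p = ((q0 ^ f0 : ℕ) : ZMod m)) ∧
      (∃ x : ZMod m, x ^ p = ((q1 ^ f1 * (q0 ^ f0) ^ e : ℕ) : ZMod m)) := by
  have hNZ : NeZero p := ⟨hp.ne_zero⟩
  have hNZ' : NeZero ((p : ℕ) : ℚ) := ⟨by exact_mod_cast hp.ne_zero⟩
  let K := CyclotomicField p ℚ
  have hcyc : IsCyclotomicExtension {p} ℚ K := CyclotomicField.isCyclotomicExtension p ℚ
  have hNF : NumberField K := IsCyclotomicExtension.numberField {p} ℚ K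
  have hζ0 := IsCyclotomicExtension.zeta_spec p ℚ K
  have hζ : IsPrimitiveRoot hζ0.toInteger p := hζ0.toInteger_isPrimitiveRoot
  have hζK : IsPrimitiveRoot (IsCyclotomicExtension.zeta p ℚ K) p := hζ0
  have hfin : Module.finrank ℚ K = p - 1 := by
    rw [IsCyclotomicExtension.finrank K (cyclotomic.irreducible_rat hp.pos), Nat.totient_prime hp]
  have hdeg : (Module.finrank ℚ K).Coprime p := by
    rw [hfin, Nat.coprime_comm, hp.coprime_iff_not_dvd]
    intro h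
    have := Nat.le_of_dvd (by have := hp.two_le; omega) h
    have := hp.two_le
    omega
  set a : ℕ := q0 ^ f0 with ha
  set b : ℕ := q1 ^ f1 * (q0 ^ f0) ^ e with hb
  obtain ⟨hbK, hind⟩ := kummer_independent (K := K) hp hdeg hq0 hq1 h01 hf0 hf1 e
  have ha0 : a ≠ 0 := pow_ne_zero _ hq0.ne_zero
  have hb0 : b ≠ 0 := mul_ne_zero (pow_ne_zero _ hq1.ne_zero) (pow_ne_zero _ (pow_ne_zero _ hq0.ne_zero))
  have haK : (a : K) ≠ 0 := by exact_mod_cast ha0
  have hbK0 : (b : K) ≠ 0 := by exact_mod_cast hb0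
  have H : Irreducible (X ^ p - C (b : K)) := X_pow_sub_C_irreducible_of_prime hp hbK
  have hprim : (primitiveRoots p K).Nonempty :=
    ⟨_, (mem_primitiveRoots hp.pos).2 hζK⟩
  -- the field F₁
  let F₁ := (X ^ p - C (b : K)).SplittingField
  have hF₁fd : FiniteDimensional K F₁ := IsSplittingField.finiteDimensional F₁ (X ^ p - C (b : K))
  have hF₁nf : NumberField F₁ := NumberField.of_module_finite K F₁
  have hF₁gal : IsGalois K F₁ := isGalois_of_isSplittingField_X_pow_sub_C hprim H F₁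
  have hF₁deg : Module.finrank K F₁ = p := finrank_of_isSplittingField_X_pow_sub_C hprim H F₁
  -- the field F
  let F := (kummerPoly p (a : K) (b : K)).SplittingField
  have hFfd : FiniteDimensional K F :=
    IsSplittingField.finiteDimensional F (kummerPoly p (a : K) (b : K))
  have hFnf : NumberField F := NumberField.of_module_finite K F
  have hFgal : IsGalois K F :=
    { to_isSeparable := inferInstance
      to_normal := Normal.of_isSplittingField (kummerPoly p (a : K) (b : K)) }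
  obtain ⟨α, hα⟩ := exists_root_left hp.pos (a : K) (b : K) F
  obtain ⟨β, hβ⟩ := exists_root_right hp.pos (a : K) (b : K) F
  have hlt : Module.finrank K F₁ < Module.finrank K F := by
    rw [hF₁deg]
    exact lt_finrank_of_independent hp hζK haK hbK0 hbK hind hα hβ
  have hβ₁ : (rootOfSplitsXPowSubC hp.pos (b : K) F₁) ^ p = (b : F₁) := by
    rw [rootOfSplitsXPowSubC_pow, map_natCast]
  exact aux_core hp hζ a b ha0 hb0 F₁ F _ hβ₁ hlt S

/-- **The auxiliary prime** (shape of helper88's #516, consumed by `H67.crossing_of`). -/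
theorem exists_aux_prime {p : ℕ} (hp : p.Prime) (_hp2 : p ≠ 2) {q0 q1 : ℕ} (hq0 : q0.Prime)
    (hq1 : q1.Prime) (h01 : q0 ≠ q1) (_h0p : q0 ≠ p) (_h1p : q1 ≠ p) {f0 f1 : ℕ}
    (hf0 : ¬ p ∣ f0) (hf1 : ¬ p ∣ f1) (e : ℕ) :
    ∃ m : ℕ, m.Prime ∧ m % p = 1 ∧ m ≠ p ∧ m ≠ q0 ∧ m ≠ q1 ∧
      (¬ ∃ x : ZMod m, x ^ p = ((q0 ^ f0 : ℕ) : ZMod m)) ∧
      (∃ x : ZMod m, x ^ p = ((q1 ^ f1 * (q0 ^ f0) ^ e : ℕ) : ZMod m)) := by
  obtain ⟨m, hm, hm1, hmS, h1, h2⟩ :=
    exists_aux_prime_not_mem hp hq0 hq1 h01 hf0 hf1 e {p, q0, q1}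
  refine ⟨m, hm, hm1, ?_, ?_, ?_, h1, h2⟩
  · rintro rfl; exact hmS (by simp)
  · rintro rfl; exact hmS (by simp)
  · rintro rfl; exact hmS (by simp)

end Fermat.Agent.S14.H82
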