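import Mathlib
import Fermat.Agent.S14.H78_FB
import Fermat.Agent.S14.H32_FrobExtra

/-!
S14 / WP5-fields: abstract form of the `split` field of `H80.CrossFields` (helper78).

`K ⊆ L ⊆ Ω`, `K ⊆ E ⊆ Ω`, `Ω/K` Galois containing an `m`-th root of unity `ζ`.  If every
`γ ∈ Gal(Ω/K)` which restricts to the Artin symbol of `Q` on `L` and acts on `ζ` as
`ζ ↦ ζ ^ N(Q)` fixes `E` pointwise, then `Q` has a prime of `E` of relative degree one above it.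
-/

set_option autoImplicit false

noncomputable section

namespace Fermat.Agent.S14.H78

open NumberField Fermat.Agent.S14.H27
open scoped Pointwise IsMulCommutative

section Split

variable {K L E Ω : Type*} [Field K] [NumberField K] [Field L] [NumberField L]
  [Field E] [NumberField E] [Field Ω] [NumberField Ω]
  [Algebra K L] [Algebra L Ω] [Algebra K Ω] [IsScalarTower K L Ω]
  [Algebra K E] [Algebra E Ω] [IsScalarTower K E Ω]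
  [IsGalois K L] [IsGalois K Ω] [IsMulCommutative Gal(L/K)]

/-- The Frobenius of a prime `𝔓` of `Ω` over `Q` restricts to `frobP L Q` on `L` and raises
`m`-th roots of unity to the power `N(Q)` (for `m ∉ Q`). -/
theorem frob_restrict_and_zeta {m : ℕ} {ζ : Ω} (hζ : ζ ^ m = 1)
    (Q : Ideal (𝓞 K)) [Q.IsPrime] (hQ : Q ≠ ⊥) (hmQ : (m : 𝓞 K) ∉ Q)
    (hunr : ∀ (P : Ideal (𝓞 L)) [P.IsPrime], P ≠ ⊥ → P.under (𝓞 K) = Q →
      P.ramificationIdx (𝓞 K) = 1)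
    (𝔓 : Ideal (𝓞 Ω)) [𝔓.IsPrime] [𝔓.LiesOver Q] (h𝔓 : 𝔓 ≠ ⊥) :
    AlgEquiv.restrictNormalHom L (frob K 𝔓 h𝔓) = frobP L Q ∧
      frob K 𝔓 h𝔓 ζ = ζ ^ Ideal.absNorm Q := by
  have hu : 𝔓.under (𝓞 K) = Q := (Ideal.over_def 𝔓 Q).symm
  have hPLu : (𝔓.under (𝓞 L)).under (𝓞 K) = Q := by rw [Ideal.under_under, hu]
  haveI : (𝔓.under (𝓞 L)).LiesOver Q := ⟨hPLu.symm⟩
  have hPL : 𝔓.under (𝓞 L) ≠ ⊥ := Ideal.ne_bot_of_liesOver_of_ne_bot hQ _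
  have hur : Algebra.IsUnramifiedAt (𝓞 K) (𝔓.under (𝓞 L)) :=
    (isUnramifiedAt_iff_ramificationIdx _).2 (hunr _ hPL hPLu)
  refine ⟨?_, ?_⟩
  · rw [restrictNormalHom_frob 𝔓 h𝔓 hPL hur, frobP_eq_frob Q hQ (𝔓.under (𝓞 L)) hPL]
  · have hm𝔓 : (m : 𝓞 Ω) ∉ 𝔓 := by
      intro h
      apply hmQ
      rw [← hu, Ideal.under_def, Ideal.mem_comap, map_natCast]
      exact h
    rw [Fermat.Agent.S14.H32.frob_apply_of_pow_eq_one (K := K) 𝔓 h𝔓 hζ hm𝔓, hu,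
      Ideal.absNorm_apply, Submodule.cardQuot_apply]

/-- **Abstract `split`**: existence of a prime of `E` of relative degree one above `Q`. -/
theorem exists_prime_relNorm_eq {m : ℕ} {ζ : Ω} (hζ : ζ ^ m = 1)
    (Q : Ideal (𝓞 K)) [Q.IsPrime] (hQ : Q ≠ ⊥) (hmQ : (m : 𝓞 K) ∉ Q)
    (hunr : ∀ (P : Ideal (𝓞 L)) [P.IsPrime], P ≠ ⊥ → P.under (𝓞 K) = Q →
      P.ramificationIdx (𝓞 K) = 1)
    (hfix : ∀ γ : Gal(Ω/K), AlgEquiv.restrictNormalHom L γ = frobP L Q →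
      γ ζ = ζ ^ Ideal.absNorm Q → ∀ x : E, γ (algebraMap E Ω x) = algebraMap E Ω x) :
    ∃ QQ : Ideal (𝓞 E), QQ.IsPrime ∧ QQ.LiesOver Q ∧ Ideal.relNorm (𝓞 K) QQ = Q ∧
      IsCoprime QQ (Ideal.span {(m : 𝓞 E)}) := by
  obtain ⟨⟨𝔓, h𝔓prime, h𝔓over⟩⟩ := Q.nonempty_primesOver (S := 𝓞 Ω)
  have h𝔓 : 𝔓 ≠ ⊥ := Ideal.ne_bot_of_liesOver_of_ne_bot hQ 𝔓
  have hu : 𝔓.under (𝓞 K) = Q := (Ideal.over_def 𝔓 Q).symm
  obtain ⟨h1, h2⟩ := frob_restrict_and_zeta (L := L) hζ Q hQ hmQ hunr 𝔓 h𝔓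
  have hrel := relNorm_under_eq_of_frob_fixes (K := K) (E := E) 𝔓 h𝔓 (hfix _ h1 h2)
  have hQQu : (𝔓.under (𝓞 E)).under (𝓞 K) = Q := by rw [Ideal.under_under, hu]
  have hQQ0 : 𝔓.under (𝓞 E) ≠ ⊥ := mt Ideal.eq_bot_of_comap_eq_bot h𝔓
  refine ⟨𝔓.under (𝓞 E), inferInstance, ⟨hQQu.symm⟩, by rw [hrel, hu], ?_⟩
  have hmax : (𝔓.under (𝓞 E)).IsMaximal := Ideal.IsPrime.isMaximal inferInstance hQQ0
  rw [Ideal.isCoprime_iff_sup_eq]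
  by_contra hne
  have hle : 𝔓.under (𝓞 E) ⊔ Ideal.span {(m : 𝓞 E)} = 𝔓.under (𝓞 E) :=
    (hmax.eq_of_le hne le_sup_left).symm
  have hmem : (m : 𝓞 E) ∈ 𝔓.under (𝓞 E) := by
    rw [← hle]
    exact Ideal.mem_sup_right (Ideal.mem_span_singleton_self _)
  apply hmQ
  rw [← hQQu, Ideal.under_def, Ideal.mem_comap, map_natCast]
  exact hmem

end Split

end Fermat.Agent.S14.H78
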