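import Mathlib

/-!
# S14 / WP5-fields (helper80): the ambient field `Ω = L(ζ_m)` and its Galois group

For a Galois extension of number fields `L/K` and `m ≠ 0` we set `Ω := CyclotomicField m L`,
`Γ := Gal(Ω/K)`, and define
* `resL : Γ →* Gal(L/K)` (restriction),
* `chi : Γ →* (ZMod m)ˣ` (cyclotomic character),
and prove that `(resL, chi)` is injective.
-/

set_option autoImplicit false
set_option linter.unusedSectionVars false

noncomputable section

namespace Fermat.Agent.S14.H80

open NumberField Polynomial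

section Omega

variable (m : ℕ) [NeZero m] (K L : Type) [Field K] [Field L] [NumberField K] [NumberField L]
  [Algebra K L] [IsGalois K L]

/-- The ambient field `Ω = L(ζ_m)`. -/
abbrev Om : Type := CyclotomicField m L

instance isGalois_Om : IsGalois K (Om m L) := by
  obtain ⟨f, hf0, hf⟩ : ∃ f : K[X], f ≠ 0 ∧ IsSplittingField K L f := by
    obtain ⟨f, hf⟩ := Normal.exists_isSplittingField K L
    by_cases h : f = 0
    · subst h
      refine ⟨1, one_ne_zero, ⟨by simp, ?_⟩⟩
      have := hf.adjoin_rootSet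
      simpa [Polynomial.rootSet] using this
    · exact ⟨f, h, hf⟩
  have h1 : Polynomial.IsSplittingField L (Om m L) ((X ^ m - 1 : K[X]).map (algebraMap K L)) := by
    rw [Polynomial.map_sub, Polynomial.map_pow, map_X, Polynomial.map_one]
    exact IsCyclotomicExtension.isSplittingField_X_pow_sub_one m L (Om m L)
  have hX : (X ^ m - 1 : K[X]) ≠ 0 := Polynomial.X_pow_sub_C_ne_zero (NeZero.pos m) 1
  have h2 := Polynomial.IsSplittingField.mul (F := K) (K := L) (Om m L) f (X^m - 1) hf0 hX
  have : Normal K (Om m L) := Normal.of_isSplittingField (f * (X^m - 1))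
  exact ⟨⟩

/-- The chosen primitive `m`-th root of unity of `Ω`. -/
def zetaOm : Om m L := IsCyclotomicExtension.zeta m L (Om m L)

theorem zetaOm_spec : IsPrimitiveRoot (zetaOm m L) m :=
  IsCyclotomicExtension.zeta_spec m L (Om m L)

/-- Restriction `Gal(Ω/K) → Gal(L/K)`. -/
def resL : Gal(Om m L/K) →* Gal(L/K) := AlgEquiv.restrictNormalHom L

theorem resL_commutes (γ : Gal(Om m L/K)) (x : L) :
    algebraMap L (Om m L) (resL m K L γ x) = γ (algebraMap L (Om m L) x) :=
  AlgEquiv.restrictNormal_commutes γ L x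

theorem resL_surjective : Function.Surjective (resL m K L) :=
  AlgEquiv.restrictNormalHom_surjective (Om m L)

/-- The cyclotomic character `Gal(Ω/K) → (ZMod m)ˣ`. -/
def chi : Gal(Om m L/K) →* (ZMod m)ˣ := (zetaOm_spec m L).autToPow K

theorem chi_spec (γ : Gal(Om m L/K)) :
    γ (zetaOm m L) = zetaOm m L ^ ((chi m K L γ : ZMod m).val) :=
  ((zetaOm_spec m L).autToPow_spec K γ).symm

theorem zetaOm_pow_val_one : zetaOm m L ^ ((1 : ZMod m).val) = zetaOm m L := by
  have h : (1 : ZMod m).val ≡ 1 [MOD m] := by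
    rw [← ZMod.natCast_eq_natCast_iff, ZMod.natCast_zmod_val, Nat.cast_one]
  conv_rhs => rw [← pow_one (zetaOm m L)]
  rw [← pow_mod_orderOf, ← pow_mod_orderOf (zetaOm m L) 1, ← (zetaOm_spec m L).eq_orderOf, h]

/-- An element of `Gal(Ω/K)` is determined by its restriction to `L` and its value on `ζ_m`. -/
theorem eq_one_of_resL_of_chi (γ : Gal(Om m L/K)) (h1 : resL m K L γ = 1)
    (h2 : chi m K L γ = 1) : γ = 1 := by
  have hζ : γ (zetaOm m L) = zetaOm m L := by
    rw [chi_spec, h2, Units.val_one, zetaOm_pow_val_one]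
  have hL : ∀ x : L, γ (algebraMap L (Om m L) x) = algebraMap L (Om m L) x := by
    intro x
    rw [← resL_commutes, h1]; rfl
  let γ' : Om m L →ₐ[L] Om m L := { γ.toAlgHom.toRingHom with commutes' := hL }
  have hγ' : γ' = AlgHom.id L (Om m L) := by
    apply AlgHom.ext_of_adjoin_eq_top
      (IsCyclotomicExtension.adjoin_primitive_root_eq_top (zetaOm_spec m L))
    intro x hx
    rw [Set.mem_singleton_iff] at hx
    subst hx
    exact hζ
  ext x
  exact congr($hγ' x)

theorem resL_chi_injective :
    Function.Injective (fun γ : Gal(Om m L/K) => (resL m K L γ, chi m K L γ)) := by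
  intro γ δ h
  have h' := Prod.ext_iff.mp h
  simp only at h'
  have h1 : resL m K L (γ * δ⁻¹) = 1 := by
    rw [map_mul, map_inv, h'.1, mul_inv_cancel]
  have h2 : chi m K L (γ * δ⁻¹) = 1 := by
    rw [map_mul, map_inv, h'.2, mul_inv_cancel]
  exact mul_inv_eq_one.mp (eq_one_of_resL_of_chi m K L _ h1 h2)

end Omega

end Fermat.Agent.S14.H80
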