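import Mathlib
import Fermat.Agent.S14.H80_Omega

/-!
# S14 / WP5-fields (helper80): the subgroups `N₀ ≤ D̃` of `Γ = Gal(Ω/K)` and the fields `E ⊆ M`

`M := fixedField N₀`, `E := fixedField D̃` as intermediate fields of `Ω/K`, together with all the
`Algebra` / `IsScalarTower` / `IsGalois` instances relating `K, L, E, M, Ω`.
-/

set_option autoImplicit false
set_option linter.unusedSectionVars false

noncomputable section

namespace Fermat.Agent.S14.H80

open NumberField Polynomial

section Sub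

variable (p m : ℕ) [NeZero m] (K L : Type) [Field K] [Field L] [NumberField K] [NumberField L]
  [Algebra K L] [IsGalois K L] (s0 : Gal(L/K)) (n0 : (ZMod m)ˣ)

/-- `N₀ = ker r ⊓ χ⁻¹(U^p)`; its fixed field is `M = L · K_m`. -/
def N0 : Subgroup Gal(Om m L/K) :=
  (resL m K L).ker ⊓ ((powMonoidHom p : (ZMod m)ˣ →* (ZMod m)ˣ).range).comap (chi m K L)

theorem mem_N0 {γ : Gal(Om m L/K)} :
    γ ∈ N0 p m K L ↔ resL m K L γ = 1 ∧ ∃ u : (ZMod m)ˣ, u ^ p = chi m K L γ := by
  simp [N0, Subgroup.mem_inf, MonoidHom.mem_ker, MonoidHom.mem_range]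

/-- The diagonal subgroup `D̃`; its fixed field is `E`. -/
def Dt : Subgroup Gal(Om m L/K) where
  carrier := {γ | ∃ k : ℤ, resL m K L γ = s0 ^ k ∧ ∃ u : (ZMod m)ˣ, chi m K L γ = n0 ^ k * u ^ p}
  mul_mem' := by
    rintro a b ⟨k, hk, u, hu⟩ ⟨l, hl, v, hv⟩
    refine ⟨k + l, by rw [map_mul, hk, hl, zpow_add], u * v, ?_⟩
    rw [map_mul, hu, hv, zpow_add, mul_pow]
    exact mul_mul_mul_comm _ _ _ _
  one_mem' := ⟨0, by simp, 1, by simp⟩
  inv_mem' := by
    rintro a ⟨k, hk, u, hu⟩
    refine ⟨-k, by rw [map_inv, hk, zpow_neg], u⁻¹, ?_⟩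
    rw [map_inv, hu, zpow_neg, mul_inv, inv_pow]

theorem mem_Dt {γ : Gal(Om m L/K)} :
    γ ∈ Dt p m K L s0 n0 ↔
      ∃ k : ℤ, resL m K L γ = s0 ^ k ∧ ∃ u : (ZMod m)ˣ, chi m K L γ = n0 ^ k * u ^ p := Iff.rfl

theorem N0_le_Dt : N0 p m K L ≤ Dt p m K L s0 n0 := by
  intro γ hγ
  obtain ⟨h1, u, hu⟩ := (mem_N0 p m K L).mp hγ
  exact ⟨0, by simpa using h1, u, by simpa using hu.symm⟩

/-- `M = L · K_m` as an intermediate field of `Ω/K`. -/
def MField : IntermediateField K (Om m L) := IntermediateField.fixedField (N0 p m K L)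

/-- `E` as an intermediate field of `Ω/K`. -/
def EField : IntermediateField K (Om m L) := IntermediateField.fixedField (Dt p m K L s0 n0)

theorem EField_le_MField : EField p m K L s0 n0 ≤ MField p m K L := by
  intro x hx γ
  exact hx ⟨γ.1, N0_le_Dt p m K L s0 n0 γ.2⟩

instance algebraEM : Algebra ↥(EField p m K L s0 n0) ↥(MField p m K L) :=
  (IntermediateField.inclusion (EField_le_MField p m K L s0 n0)).toRingHom.toAlgebra

theorem algebraMap_EM_coe (x : ↥(EField p m K L s0 n0)) :
    ((algebraMap ↥(EField p m K L s0 n0) ↥(MField p m K L) x : ↥(MField p m K L)) : Om m L) = x :=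
  rfl

instance towerKEM : IsScalarTower K ↥(EField p m K L s0 n0) ↥(MField p m K L) :=
  IsScalarTower.of_algebraMap_eq fun _ => rfl

instance towerEMOm : IsScalarTower ↥(EField p m K L s0 n0) ↥(MField p m K L) (Om m L) :=
  IsScalarTower.of_algebraMap_eq fun _ => rfl

theorem algebraMap_L_mem_MField (x : L) : algebraMap L (Om m L) x ∈ MField p m K L := by
  intro γ
  have h := ((mem_N0 p m K L).mp γ.2).1
  change γ.1 (algebraMap L (Om m L) x) = _
  rw [← resL_commutes, h]; rfl

instance algebraLM : Algebra L ↥(MField p m K L) :=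
  ((algebraMap L (Om m L)).codRestrict (MField p m K L).toSubfield
    (algebraMap_L_mem_MField p m K L)).toAlgebra

theorem algebraMap_LM_coe (x : L) :
    ((algebraMap L ↥(MField p m K L) x : ↥(MField p m K L)) : Om m L) = algebraMap L (Om m L) x :=
  rfl

instance towerKLM : IsScalarTower K L ↥(MField p m K L) :=
  IsScalarTower.of_algebraMap_eq fun x => Subtype.ext (IsScalarTower.algebraMap_apply K L (Om m L) x)

instance towerLMOm : IsScalarTower L ↥(MField p m K L) (Om m L) :=
  IsScalarTower.of_algebraMap_eq fun _ => rfl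

section Comm

variable [IsMulCommutative Gal(L/K)]

theorem Gamma_mul_comm (a b : Gal(Om m L/K)) : a * b = b * a := by
  apply resL_chi_injective m K L
  simp only [map_mul]
  rw [mul_comm (chi m K L a), IsMulCommutative.is_comm.comm (resL m K L a)]

instance isMulCommutative_Gamma : IsMulCommutative Gal(Om m L/K) :=
  ⟨⟨Gamma_mul_comm m K L⟩⟩

instance normal_subgroup_Gamma (H : Subgroup Gal(Om m L/K)) : H.Normal :=
  ⟨fun n hn g => by rw [Gamma_mul_comm m K L g n, mul_inv_cancel_right]; exact hn⟩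

instance isGalois_K_MField : IsGalois K ↥(MField p m K L) :=
  IsGalois.of_fixedField_normal_subgroup (N0 p m K L)

instance isGalois_K_EField : IsGalois K ↥(EField p m K L s0 n0) :=
  IsGalois.of_fixedField_normal_subgroup (Dt p m K L s0 n0)

instance isGalois_EField_MField : IsGalois ↥(EField p m K L s0 n0) ↥(MField p m K L) :=
  IsGalois.tower_top_of_isGalois K ↥(EField p m K L s0 n0) ↥(MField p m K L)

theorem Gal_MField_K_mul_comm (a b : Gal(↥(MField p m K L)/K)) : a * b = b * a := by
  obtain ⟨a', rfl⟩ := AlgEquiv.restrictNormalHom_surjective (F := K) (K₁ := ↥(MField p m K L))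
    (Om m L) a
  obtain ⟨b', rfl⟩ := AlgEquiv.restrictNormalHom_surjective (F := K) (K₁ := ↥(MField p m K L))
    (Om m L) b
  rw [← map_mul, ← map_mul, Gamma_mul_comm m K L a' b']

instance isMulCommutative_Gal_EM :
    IsMulCommutative Gal(↥(MField p m K L)/↥(EField p m K L s0 n0)) := by
  refine ⟨⟨fun a b => ?_⟩⟩
  have h := Gal_MField_K_mul_comm p m K L (a.restrictScalars K) (b.restrictScalars K)
  ext x
  exact congr($h x)

end Comm

end Sub
end Fermat.Agent.S14.H80
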