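import Mathlib
import Fermat.Agent.S14.H78_Split
import Fermat.Agent.S14.H80_Fields

/-!
S14 / WP5-fields: the `split` field of `H80.CrossFields` for helper80's `EField` (helper78).
-/

set_option autoImplicit false

noncomputable section

namespace Fermat.Agent.S14.H78

open NumberField Fermat.Agent.S14.H27 Fermat.Agent.S14.H80
open scoped Pointwise IsMulCommutative

section SplitInst

variable (p m : ℕ) [NeZero m] (K L : Type) [Field K] [Field L] [NumberField K] [NumberField L]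
  [Algebra K L] [IsGalois K L] [IsMulCommutative Gal(L/K)] (s0 : Gal(L/K)) (n0 : (ZMod m)ˣ)

/-- the value of the cyclotomic character from the action on `ζ_m`. -/
theorem chi_eq_of_apply_zeta (γ : Gal(Om m L/K)) (a : ℕ)
    (h : γ (zetaOm m L) = zetaOm m L ^ a) : ((chi m K L γ : (ZMod m)ˣ) : ZMod m) = (a : ZMod m) := by
  rw [chi_spec] at h
  have hfin : IsOfFinOrder (zetaOm m L) :=
    isOfFinOrder_iff_pow_eq_one.mpr ⟨m, NeZero.pos m, (zetaOm_spec m L).pow_eq_one⟩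
  have h2 := hfin.pow_eq_pow_iff_modEq.mp h
  rw [← (zetaOm_spec m L).eq_orderOf, ← ZMod.natCast_eq_natCast_iff, ZMod.natCast_zmod_val] at h2
  exact h2

/-- membership in the diagonal subgroup `D̃` from the `(r, χ)`-data. -/
theorem mem_Dt_of (hp : p ≠ 0) (γ : Gal(Om m L/K)) (k : ℕ) (a : ℕ)
    (h1 : AlgEquiv.restrictNormalHom L γ = s0 ^ k)
    (h2 : γ (zetaOm m L) = zetaOm m L ^ a)
    (hx : ∃ x : ZMod m, (a : ZMod m) = (n0 : ZMod m) ^ k * x ^ p) :
    γ ∈ Dt p m K L s0 n0 := by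
  obtain ⟨x, hx⟩ := hx
  have hchi := chi_eq_of_apply_zeta m K L γ a h2
  -- `x ^ p` is a unit
  have hxp : x ^ p = (((n0 ^ k)⁻¹ * chi m K L γ : (ZMod m)ˣ) : ZMod m) := by
    rw [Units.val_mul, hchi, hx, ← mul_assoc, ← Units.val_pow_eq_pow_val, Units.inv_mul,
      one_mul]
  have hxu : IsUnit x := by
    have : IsUnit (x ^ p) := hxp ▸ Units.isUnit _
    exact (isUnit_pow_iff hp).mp this
  refine (mem_Dt p m K L s0 n0).mpr ⟨(k : ℤ), ?_, hxu.unit, ?_⟩
  · rw [zpow_natCast]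
    exact h1
  · apply Units.ext
    rw [Units.val_mul, Units.val_pow_eq_pow_val, zpow_natCast, Units.val_pow_eq_pow_val,
      IsUnit.unit_spec, hchi, hx]

/-- **The `split` field of `CrossFields`** for `E = EField`. -/
theorem split_EField (hp : p ≠ 0)
    (hunr : ∀ (P : Ideal (𝓞 L)) [P.IsPrime], P ≠ ⊥ → P.ramificationIdx (𝓞 K) = 1)
    (Q : Ideal (𝓞 K)) [Q.IsPrime] (hQ : Q ≠ ⊥) (hmQ : (m : 𝓞 K) ∉ Q) (k : ℕ)
    (hk : frobP L Q = s0 ^ k)
    (hx : ∃ x : ZMod m, (Ideal.absNorm Q : ZMod m) = (n0 : ZMod m) ^ k * x ^ p) :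
    ∃ QQ : Ideal (𝓞 ↥(EField p m K L s0 n0)), QQ.IsPrime ∧ QQ.LiesOver Q ∧
      Ideal.relNorm (𝓞 K) QQ = Q ∧
      IsCoprime QQ (Ideal.span {(m : 𝓞 ↥(EField p m K L s0 n0))}) := by
  apply exists_prime_relNorm_eq (L := L) (Ω := Om m L) (E := ↥(EField p m K L s0 n0))
    (ζ := zetaOm m L) ((zetaOm_spec m L).pow_eq_one) Q hQ hmQ
    (fun P _ hP _ => hunr P hP)
  intro γ h1 h2 x
  have hγ : γ ∈ Dt p m K L s0 n0 :=
    mem_Dt_of p m K L s0 n0 hp γ k (Ideal.absNorm Q) (h1.trans hk) h2 hx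
  exact x.2 ⟨γ, hγ⟩

end SplitInst

end Fermat.Agent.S14.H78
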