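import Mathlib
import Fermat.Agent.S14.H80_Fields
import Fermat.Agent.S14.H27_Frob
import Fermat.Agent.S14.H73_FieldsR
import Fermat.Agent.S14.H78_FieldsLemmas

/-!
# S14 / WP5-fields (helper80): inertia groups in `Γ = Gal(Ω/K)`, `Ω = L(ζ_m)`

`L/K` unramified everywhere, `K = ℚ(ζ_p)`, `m ≠ p` prime.  Then
* inertia groups of `Ω/K` lie in `ker resL`;
* they are trivial at primes not containing `m`;
* they are equal to `ker resL` at primes containing `m`;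
* `(resL, chi) : Γ → Gal(L/K) × (ZMod m)ˣ` is surjective (hence bijective).
-/

set_option autoImplicit false
set_option linter.unusedSectionVars false

noncomputable section

namespace Fermat.Agent.S14.H80

open NumberField
open scoped Pointwise

variable (p m : ℕ) [NeZero m] (K L : Type) [Field K] [Field L] [NumberField K] [NumberField L]
  [Algebra K L] [IsGalois K L]

theorem algebraMap_resL_smul (σ : Gal(Om m L/K)) (x : 𝓞 L) :
    algebraMap (𝓞 L) (𝓞 (Om m L)) (resL m K L σ • x) =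
      σ • algebraMap (𝓞 L) (𝓞 (Om m L)) x := by
  apply RingOfIntegers.ext
  exact resL_commutes m K L σ (x : L)

theorem inertia_le_ker_resL
    (hunr : ∀ Q : Ideal (𝓞 L), Q.IsPrime → Q ≠ ⊥ → Q.ramificationIdx (𝓞 K) = 1)
    (𝔔 : Ideal (𝓞 (Om m L))) [𝔔.IsPrime] (h𝔔 : 𝔔 ≠ ⊥) :
    𝔔.inertia Gal(Om m L/K) ≤ (resL m K L).ker := by
  intro σ hσ
  rw [MonoidHom.mem_ker]
  have hPL : 𝔔.under (𝓞 L) ≠ ⊥ := mt Ideal.eq_bot_of_comap_eq_bot h𝔔
  have hur : Algebra.IsUnramifiedAt (𝓞 K) (𝔔.under (𝓞 L)) :=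
    (H27.isUnramifiedAt_iff_ramificationIdx _).2 (hunr _ inferInstance hPL)
  have hin : resL m K L σ ∈ (𝔔.under (𝓞 L)).inertia Gal(L/K) := by
    intro x
    show resL m K L σ • x - x ∈ 𝔔.under (𝓞 L)
    rw [Ideal.under_def, Ideal.mem_comap, map_sub, algebraMap_resL_smul]
    exact hσ _
  rw [H27.inertia_eq_bot _ hPL hur, Subgroup.mem_bot] at hin
  exact hin

/-- variant of `eq_one_of_resL_of_chi`. -/
theorem eq_one_of_resL_of_apply_zeta (γ : Gal(Om m L/K)) (h1 : resL m K L γ = 1)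
    (hζ : γ (zetaOm m L) = zetaOm m L) : γ = 1 := by
  have hL : ∀ x : L, γ (algebraMap L (Om m L) x) = algebraMap L (Om m L) x := by
    intro x
    rw [← resL_commutes, h1]; rfl
  let γ' : Om m L →ₐ[L] Om m L := { γ.toAlgHom.toRingHom with commutes' := hL }
  have hγ' : γ' = AlgHom.id L (Om m L) := by
    apply AlgHom.ext_of_adjoin_eq_top
      (IsCyclotomicExtension.adjoin_primitive_root_eq_top (zetaOm_spec m L))
    intro x hx
    rw [Set.mem_singleton_iff] at hx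
    subst hx
    exact hζ
  ext x
  exact congr($hγ' x)

theorem inertia_eq_bot_of_not_mem
    (hunr : ∀ Q : Ideal (𝓞 L), Q.IsPrime → Q ≠ ⊥ → Q.ramificationIdx (𝓞 K) = 1)
    (𝔔 : Ideal (𝓞 (Om m L))) [𝔔.IsPrime] (h𝔔 : 𝔔 ≠ ⊥) (hm𝔔 : (m : 𝓞 (Om m L)) ∉ 𝔔) :
    𝔔.inertia Gal(Om m L/K) = ⊥ := by
  rw [eq_bot_iff]
  intro σ hσ
  rw [Subgroup.mem_bot]
  apply eq_one_of_resL_of_apply_zeta m K L σ
  · exact MonoidHom.mem_ker.mp (inertia_le_ker_resL m K L hunr 𝔔 h𝔔 hσ)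
  · exact H73.inertia_apply_of_pow_eq_one (zetaOm_spec m L).pow_eq_one 𝔔 hm𝔔 σ hσ

theorem chi_injOn_ker_resL :
    Function.Injective (fun γ : (resL m K L).ker => chi m K L γ.1) := by
  intro a b h
  apply Subtype.ext
  apply resL_chi_injective m K L
  simp only [Prod.mk.injEq]
  exact ⟨(MonoidHom.mem_ker.mp a.2).trans (MonoidHom.mem_ker.mp b.2).symm, h⟩

theorem card_ker_resL_le (hm : m.Prime) : Nat.card (resL m K L).ker ≤ m - 1 := by
  have : Fact m.Prime := ⟨hm⟩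
  have h := Nat.card_le_card_of_injective _ (chi_injOn_ker_resL m K L)
  have h' : Nat.card (ZMod m)ˣ = m - 1 := by
    rw [Nat.card_eq_fintype_card, ZMod.card_units_eq_totient, Nat.totient_prime hm]
  rwa [h'] at h

theorem ne_bot_of_natCast_mem (hm : m.Prime) (𝔔 : Ideal (𝓞 (Om m L)))
    (hm𝔔 : (m : 𝓞 (Om m L)) ∈ 𝔔) : 𝔔 ≠ ⊥ := by
  rintro rfl
  rw [Ideal.mem_bot] at hm𝔔
  exact hm.ne_zero (by exact_mod_cast hm𝔔)

theorem inertia_eq_ker_resL_of_mem (hp : p.Prime) (hm : m.Prime) (hmp : m ≠ p)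
    [IsCyclotomicExtension {p} ℚ K]
    (hunr : ∀ Q : Ideal (𝓞 L), Q.IsPrime → Q ≠ ⊥ → Q.ramificationIdx (𝓞 K) = 1)
    (𝔔 : Ideal (𝓞 (Om m L))) [𝔔.IsPrime] (hm𝔔 : (m : 𝓞 (Om m L)) ∈ 𝔔) :
    𝔔.inertia Gal(Om m L/K) = (resL m K L).ker := by
  have h𝔔 : 𝔔 ≠ ⊥ := ne_bot_of_natCast_mem m L hm 𝔔 hm𝔔
  have hle := inertia_le_ker_resL m K L hunr 𝔔 h𝔔
  have hcard : Nat.card (𝔔.inertia Gal(Om m L/K)) = 𝔔.ramificationIdx (𝓞 K) :=
    H78.card_inertia_eq_ramificationIdx 𝔔 h𝔔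
  have hdvd : (m - 1) ∣ 𝔔.ramificationIdx (𝓞 K) :=
    H73.sub_one_dvd_ramificationIdx hp hm hmp (zetaOm_spec m L) 𝔔 hm𝔔
  have hpos : 0 < Nat.card (𝔔.inertia Gal(Om m L/K)) := Nat.card_pos
  have hge : m - 1 ≤ Nat.card (𝔔.inertia Gal(Om m L/K)) := by
    rw [hcard] at hpos ⊢
    exact Nat.le_of_dvd hpos hdvd
  exact Subgroup.eq_of_le_of_card_ge hle ((card_ker_resL_le m K L hm).trans hge)

theorem exists_prime_natCast_mem (hm : m.Prime) :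
    ∃ 𝔔 : Ideal (𝓞 (Om m L)), 𝔔.IsPrime ∧ (m : 𝓞 (Om m L)) ∈ 𝔔 := by
  haveI : (Ideal.span {(m : ℤ)}).IsPrime :=
    (Ideal.span_singleton_prime (by exact_mod_cast hm.ne_zero)).mpr
      (Nat.prime_iff_prime_int.mp hm)
  obtain ⟨⟨𝔔, h𝔔prime, h𝔔over⟩⟩ := (Ideal.span {(m : ℤ)}).nonempty_primesOver (S := 𝓞 (Om m L))
  refine ⟨𝔔, h𝔔prime, ?_⟩
  have h1 : (m : ℤ) ∈ 𝔔.under ℤ := by
    rw [← h𝔔over.over]
    exact Ideal.mem_span_singleton_self _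
  rw [Ideal.under_def, Ideal.mem_comap] at h1
  simpa using h1

theorem card_ker_resL (hp : p.Prime) (hm : m.Prime) (hmp : m ≠ p)
    [IsCyclotomicExtension {p} ℚ K]
    (hunr : ∀ Q : Ideal (𝓞 L), Q.IsPrime → Q ≠ ⊥ → Q.ramificationIdx (𝓞 K) = 1) :
    Nat.card (resL m K L).ker = m - 1 := by
  obtain ⟨𝔔, h𝔔, hm𝔔⟩ := exists_prime_natCast_mem m L hm
  have h𝔔0 : 𝔔 ≠ ⊥ := ne_bot_of_natCast_mem m L hm 𝔔 hm𝔔
  have heq := inertia_eq_ker_resL_of_mem p m K L hp hm hmp hunr 𝔔 hm𝔔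
  have hcard : Nat.card (𝔔.inertia Gal(Om m L/K)) = 𝔔.ramificationIdx (𝓞 K) :=
    H78.card_inertia_eq_ramificationIdx 𝔔 h𝔔0
  have hdvd : (m - 1) ∣ 𝔔.ramificationIdx (𝓞 K) :=
    H73.sub_one_dvd_ramificationIdx hp hm hmp (zetaOm_spec m L) 𝔔 hm𝔔
  have hpos : 0 < Nat.card (𝔔.inertia Gal(Om m L/K)) := Nat.card_pos
  apply le_antisymm (card_ker_resL_le m K L hm)
  rw [← heq, hcard]
  rw [hcard] at hpos
  exact Nat.le_of_dvd hpos hdvd

theorem resL_chi_surjective (hp : p.Prime) (hm : m.Prime) (hmp : m ≠ p)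
    [IsCyclotomicExtension {p} ℚ K]
    (hunr : ∀ Q : Ideal (𝓞 L), Q.IsPrime → Q ≠ ⊥ → Q.ramificationIdx (𝓞 K) = 1) :
    Function.Surjective (fun γ : Gal(Om m L/K) => (resL m K L γ, chi m K L γ)) := by
  have : Fact m.Prime := ⟨hm⟩
  have hbij : Function.Bijective (fun γ : (resL m K L).ker => chi m K L γ.1) := by
    apply Function.Injective.bijective_of_nat_card_le (chi_injOn_ker_resL m K L)
    have h' : Nat.card (ZMod m)ˣ = m - 1 := by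
      rw [Nat.card_eq_fintype_card, ZMod.card_units_eq_totient, Nat.totient_prime hm]
    rw [card_ker_resL p m K L hp hm hmp hunr, h']
  rintro ⟨g, u⟩
  obtain ⟨γ₁, hγ₁⟩ := resL_surjective m K L g
  obtain ⟨γ₂, hγ₂⟩ := hbij.2 (u * (chi m K L γ₁)⁻¹)
  refine ⟨γ₁ * γ₂.1, ?_⟩
  simp only [map_mul, Prod.mk.injEq]
  refine ⟨by rw [hγ₁, MonoidHom.mem_ker.mp γ₂.2, mul_one], ?_⟩
  have : chi m K L γ₂.1 = u * (chi m K L γ₁)⁻¹ := hγ₂
  rw [this, mul_comm u, mul_inv_cancel_left]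

end Fermat.Agent.S14.H80
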