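import Mathlib

set_option autoImplicit false

noncomputable section

namespace Fermat.Agent.S14.H94

open NumberField
open scoped Pointwise

section Relative

variable {K E : Type*} [Field K] [NumberField K] [Field E] [NumberField E] [Algebra K E]
  [IsGalois K E]

/-- A totally ramified prime has the whole Galois group as inertia group. -/
theorem inertia_eq_top_of_totallyRamified (𝔐 : Ideal (𝓞 E)) [𝔐.IsPrime]
    (hram : 𝔐.ramificationIdx (𝓞 K) = Module.finrank K E) :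
    𝔐.inertia Gal(E/K) = ⊤ := by
  have h1 : Nat.card (𝔐.inertia Gal(E/K)) = (𝔐.under (𝓞 K)).ramificationIdxIn (𝓞 E) :=
    Ideal.card_inertia_eq_ramificationIdxIn (G := Gal(E/K)) (𝔐.under (𝓞 K)) 𝔐
  rw [Ideal.ramificationIdxIn_eq_ramificationIdx (𝔐.under (𝓞 K)) 𝔐 Gal(E/K), hram,
    ← IsGaloisGroup.card_eq_finrank Gal(E/K) K E] at h1
  exact Subgroup.eq_top_of_card_eq _ h1

theorem smul_sub_mem_of_totallyRamified (𝔐 : Ideal (𝓞 E)) [𝔐.IsPrime]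
    (hram : 𝔐.ramificationIdx (𝓞 K) = Module.finrank K E) (σ : Gal(E/K)) (x : 𝓞 E) :
    σ • x - x ∈ 𝔐 := by
  have h : σ ∈ 𝔐.inertia Gal(E/K) := by
    rw [inertia_eq_top_of_totallyRamified 𝔐 hram]; exact Subgroup.mem_top σ
  exact h x

/-- The relative norm written as the product of the conjugates, inside `𝓞 E`. -/
theorem algebraMap_norm_eq_prod_smul (β : 𝓞 E) :
    algebraMap (𝓞 K) (𝓞 E) (RingOfIntegers.norm K β) = ∏ σ : Gal(E/K), σ • β := by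
  apply RingOfIntegers.ext
  rw [RingOfIntegers.coe_algebraMap_norm, Algebra.norm_eq_prod_automorphisms]
  have h : ((∏ σ : Gal(E/K), σ • β : 𝓞 E) : E) = ∏ σ : Gal(E/K), ((σ • β : 𝓞 E) : E) :=
    map_prod (algebraMap (𝓞 E) E) _ _
  rw [h]
  rfl

/-- **Key congruence**: modulo a totally ramified prime, `N_{E/K} β ≡ β ^ [E:K]`. -/
theorem algebraMap_norm_sub_pow_mem (𝔐 : Ideal (𝓞 E)) [𝔐.IsPrime]
    (hram : 𝔐.ramificationIdx (𝓞 K) = Module.finrank K E) (β : 𝓞 E) :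
    algebraMap (𝓞 K) (𝓞 E) (RingOfIntegers.norm K β) - β ^ Module.finrank K E ∈ 𝔐 := by
  rw [algebraMap_norm_eq_prod_smul, ← Ideal.Quotient.eq, map_prod, map_pow]
  have : ∀ σ : Gal(E/K), Ideal.Quotient.mk 𝔐 (σ • β) = Ideal.Quotient.mk 𝔐 β := fun σ =>
    Ideal.Quotient.eq.mpr (smul_sub_mem_of_totallyRamified 𝔐 hram σ β)
  simp only [this, Finset.prod_const, Finset.card_univ]
  rw [← Nat.card_eq_fintype_card, IsGaloisGroup.card_eq_finrank Gal(E/K) K E]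

/-- A totally ramified prime has residue degree one. -/
theorem inertiaDeg_eq_one_of_totallyRamified (𝔐 : Ideal (𝓞 E)) [𝔐.IsPrime]
    (hram : 𝔐.ramificationIdx (𝓞 K) = Module.finrank K E) :
    𝔐.inertiaDeg (𝓞 K) = 1 := by
  have h := Ideal.ncard_primesOver_mul_ramificationIdxIn_mul_inertiaDegIn
    (𝔐.under (𝓞 K)) (𝓞 E) Gal(E/K)
  rw [Ideal.ramificationIdxIn_eq_ramificationIdx (𝔐.under (𝓞 K)) 𝔐 Gal(E/K),
    Ideal.inertiaDegIn_eq_inertiaDeg (𝔐.under (𝓞 K)) 𝔐 Gal(E/K), hram,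
    IsGaloisGroup.card_eq_finrank Gal(E/K) K E] at h
  have hn : 0 < Module.finrank K E := Module.finrank_pos
  have h2 : ((𝔐.under (𝓞 K)).primesOver (𝓞 E)).ncard * 𝔐.inertiaDeg (𝓞 K) = 1 := by
    have h3 : Module.finrank K E *
        (((𝔐.under (𝓞 K)).primesOver (𝓞 E)).ncard * 𝔐.inertiaDeg (𝓞 K)) =
        Module.finrank K E * 1 := by
      rw [mul_one]; linarith [h, mul_comm (Module.finrank K E) (𝔐.inertiaDeg (𝓞 K)),
        mul_assoc ((𝔐.under (𝓞 K)).primesOver (𝓞 E)).ncard (Module.finrank K E)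
          (𝔐.inertiaDeg (𝓞 K)),
        mul_left_comm (Module.finrank K E) ((𝔐.under (𝓞 K)).primesOver (𝓞 E)).ncard
          (𝔐.inertiaDeg (𝓞 K))]
    exact Nat.eq_of_mul_eq_mul_left hn h3
  exact Nat.eq_one_of_mul_eq_one_left h2

/-- Modulo a totally ramified prime every integer of `E` is congruent to an integer of `K`. -/
theorem exists_sub_algebraMap_mem (𝔐 : Ideal (𝓞 E)) [𝔐.IsPrime] (h𝔐 : 𝔐 ≠ ⊥)
    (hram : 𝔐.ramificationIdx (𝓞 K) = Module.finrank K E) (β : 𝓞 E) :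
    ∃ b : 𝓞 K, β - algebraMap (𝓞 K) (𝓞 E) b ∈ 𝔐 := by
  have hmax : 𝔐.IsMaximal := Ideal.isMaximal_of_isPrime_of_ne_bot 𝔐 h𝔐
  have hbot : 𝔐.under (𝓞 K) ≠ ⊥ := Ideal.under_ne_bot (𝓞 K) h𝔐
  have hmax' : (𝔐.under (𝓞 K)).IsMaximal :=
    Ideal.isMaximal_of_isPrime_of_ne_bot _ hbot
  have hf : Module.finrank (𝓞 K ⧸ 𝔐.under (𝓞 K)) (𝓞 E ⧸ 𝔐) = 1 := by
    rw [← Ideal.inertiaDeg_eq_of_isMaximal (𝔐.under (𝓞 K)) 𝔐]
    exact inertiaDeg_eq_one_of_totallyRamified 𝔐 hram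
  let _ : Field (𝓞 K ⧸ 𝔐.under (𝓞 K)) := Ideal.Quotient.field _
  have htop : (⊥ : Subalgebra (𝓞 K ⧸ 𝔐.under (𝓞 K)) (𝓞 E ⧸ 𝔐)) = ⊤ :=
    Subalgebra.bot_eq_top_of_finrank_eq_one hf
  have hx : Ideal.Quotient.mk 𝔐 β ∈ (⊥ : Subalgebra (𝓞 K ⧸ 𝔐.under (𝓞 K)) (𝓞 E ⧸ 𝔐)) := by
    rw [htop]; exact Algebra.mem_top
  obtain ⟨y, hy⟩ := Algebra.mem_bot.mp hx
  obtain ⟨b, rfl⟩ := Ideal.Quotient.mk_surjective y
  refine ⟨b, ?_⟩
  rw [← Ideal.Quotient.eq, ← hy]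
  rfl

/-- Modulo the prime of `K` below a totally ramified prime, every relative norm is a
`[E:K]`-th power. -/
theorem exists_norm_sub_pow_mem_under (𝔐 : Ideal (𝓞 E)) [𝔐.IsPrime] (h𝔐 : 𝔐 ≠ ⊥)
    (hram : 𝔐.ramificationIdx (𝓞 K) = Module.finrank K E) (β : 𝓞 E) :
    ∃ b : 𝓞 K, RingOfIntegers.norm K β - b ^ Module.finrank K E ∈ 𝔐.under (𝓞 K) := by
  obtain ⟨b, hb⟩ := exists_sub_algebraMap_mem 𝔐 h𝔐 hram β
  refine ⟨b, ?_⟩
  rw [Ideal.under_def, Ideal.mem_comap, map_sub, map_pow]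
  have h1 := algebraMap_norm_sub_pow_mem 𝔐 hram β
  have h2 : β ^ Module.finrank K E - (algebraMap (𝓞 K) (𝓞 E) b) ^ Module.finrank K E ∈ 𝔐 := by
    rw [← Ideal.Quotient.eq] at hb ⊢
    rw [map_pow, map_pow, hb]
  have := 𝔐.add_mem h1 h2
  simpa using this

end Relative

section Absolute

variable {K : Type*} [Field K] [NumberField K] [IsGalois ℚ K]

/-- The absolute norm of an integer of `K` as the product of its conjugates, inside `𝓞 K`. -/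
theorem intCast_norm_eq_prod_smul (α : 𝓞 K) :
    ((Algebra.norm ℤ α : ℤ) : 𝓞 K) = ∏ τ : Gal(K/ℚ), τ • α := by
  apply RingOfIntegers.ext
  have h : ((∏ τ : Gal(K/ℚ), τ • α : 𝓞 K) : K) = ∏ τ : Gal(K/ℚ), ((τ • α : 𝓞 K) : K) :=
    map_prod (algebraMap (𝓞 K) K) _ _
  rw [h]
  have h2 : (((Algebra.norm ℤ α : ℤ) : 𝓞 K) : K) = algebraMap ℚ K (Algebra.norm ℚ (α : K)) := by
    rw [← Algebra.coe_norm_int]
    simp
  rw [h2, Algebra.norm_eq_prod_automorphisms]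
  rfl

omit [IsGalois ℚ K] in
/-- If the quotient by `𝔪` has prime cardinality, every class is represented by an integer. -/
theorem exists_int_sub_mem {m : ℕ} (hm : m.Prime) (𝔪 : Ideal (𝓞 K))
    (h0 : Ideal.absNorm 𝔪 = m) (x : 𝓞 K) : ∃ c : ℤ, x - (c : 𝓞 K) ∈ 𝔪 := by
  have : Fact m.Prime := ⟨hm⟩
  have hcard : Nat.card (Multiplicative (𝓞 K ⧸ 𝔪)) = m := by
    rw [Nat.card_congr Multiplicative.toAdd, ← h0]
    rfl
  have hne : (Multiplicative.ofAdd (1 : 𝓞 K ⧸ 𝔪)) ≠ 1 := by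
    intro h
    have h1 : (1 : 𝓞 K ⧸ 𝔪) = 0 := h
    have h2 : Subsingleton (𝓞 K ⧸ 𝔪) := subsingleton_of_zero_eq_one h1.symm
    have h3 : Nat.card (𝓞 K ⧸ 𝔪) = 1 := Nat.card_unique
    have h4 : Nat.card (𝓞 K ⧸ 𝔪) = m := by
      rw [← h0]; rfl
    exact hm.one_lt.ne' (h4.symm.trans h3)
  have htop := zpowers_eq_top_of_prime_card hcard hne
  have hx : Multiplicative.ofAdd (Ideal.Quotient.mk 𝔪 x) ∈
      Subgroup.zpowers (Multiplicative.ofAdd (1 : 𝓞 K ⧸ 𝔪)) := by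
    rw [htop]; exact Subgroup.mem_top _
  obtain ⟨c, hc⟩ := Subgroup.mem_zpowers_iff.mp hx
  refine ⟨c, ?_⟩
  rw [← Ideal.Quotient.eq, map_intCast]
  have h5 : (c • (1 : 𝓞 K ⧸ 𝔪)) = Ideal.Quotient.mk 𝔪 x := by
    have := congrArg Multiplicative.toAdd hc
    simpa using this
  rw [← h5]
  simp

omit [IsGalois ℚ K] in
/-- An integer lying in a prime of absolute norm `m` is divisible by `m`. -/
theorem dvd_of_intCast_mem {m : ℕ} (hm : m.Prime) (𝔪 : Ideal (𝓞 K)) [𝔪.IsPrime]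
    (h0 : Ideal.absNorm 𝔪 = m) (d : ℤ) (hd : (d : 𝓞 K) ∈ 𝔪) : (m : ℤ) ∣ d := by
  by_contra hnd
  have hmem : (m : 𝓞 K) ∈ 𝔪 := by
    have := Ideal.absNorm_mem 𝔪
    rw [h0] at this
    exact this
  have hcop : IsCoprime (m : ℤ) d :=
    (Prime.coprime_iff_not_dvd (Nat.prime_iff_prime_int.mp hm)).mpr hnd
  obtain ⟨u, v, huv⟩ := hcop
  have h1 : ((u * m + v * d : ℤ) : 𝓞 K) ∈ 𝔪 := by
    push_cast
    exact 𝔪.add_mem (𝔪.mul_mem_left _ hmem) (𝔪.mul_mem_left _ hd)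
  rw [huv] at h1
  have h2 : (1 : 𝓞 K) ∈ 𝔪 := by simpa using h1
  exact (Ideal.IsPrime.ne_top inferInstance) ((Ideal.eq_top_iff_one 𝔪).mpr h2)

/-- If `α` is an `n`-th power modulo every conjugate of a degree-one prime `𝔪₀` over `m`,
then `N_{K/ℚ} α` is an `n`-th power modulo `m`. -/
theorem exists_int_pow_dvd_norm_sub_of_forall_conj {m : ℕ} (hm : m.Prime) (n : ℕ)
    (𝔪₀ : Ideal (𝓞 K)) [𝔪₀.IsPrime] (h0 : Ideal.absNorm 𝔪₀ = m) (α : 𝓞 K)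
    (hα : ∀ τ : Gal(K/ℚ), ∃ b : 𝓞 K, α - b ^ n ∈ τ • 𝔪₀) :
    ∃ c : ℤ, (m : ℤ) ∣ Algebra.norm ℤ α - c ^ n := by
  choose b hb using fun τ : Gal(K/ℚ) => hα τ⁻¹
  have hb' : ∀ τ : Gal(K/ℚ), τ • α - (τ • b τ) ^ n ∈ 𝔪₀ := by
    intro τ
    have h1 := Ideal.smul_mem_pointwise_smul τ _ _ (hb τ)
    rw [smul_inv_smul, smul_sub, smul_pow'] at h1
    exact h1
  obtain ⟨c, hc⟩ := exists_int_sub_mem hm 𝔪₀ h0 (∏ τ : Gal(K/ℚ), τ • b τ)
  refine ⟨c, dvd_of_intCast_mem hm 𝔪₀ h0 _ ?_⟩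
  push_cast
  rw [intCast_norm_eq_prod_smul, ← Ideal.Quotient.eq, map_prod, map_pow]
  have h2 : ∀ τ : Gal(K/ℚ), Ideal.Quotient.mk 𝔪₀ (τ • α) =
      (Ideal.Quotient.mk 𝔪₀ (τ • b τ)) ^ n := fun τ => by
    rw [← map_pow]; exact Ideal.Quotient.eq.mpr (hb' τ)
  rw [Finset.prod_congr rfl fun τ _ => h2 τ, Finset.prod_pow, ← map_prod]
  congr 1
  exact Ideal.Quotient.eq.mpr hc

end Absolute

section Main

variable {K E : Type*} [Field K] [NumberField K] [Field E] [NumberField E] [Algebra K E]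

/-- Transitivity of the integral norm. -/
theorem norm_int_norm (β : 𝓞 E) :
    Algebra.norm ℤ (RingOfIntegers.norm K β) = Algebra.norm ℤ β := by
  apply Int.cast_injective (α := ℚ)
  rw [Algebra.coe_norm_int, Algebra.coe_norm_int, RingOfIntegers.coe_norm, Algebra.norm_norm]

variable [IsGalois K E] [IsGalois ℚ K]

/-- **Elementary reciprocity, integer form.**  Let `E/K` be Galois, `K/ℚ` Galois, `m` a prime
such that every prime of `K` above `m` has absolute norm `m` and every prime of `E` above `m` is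
totally ramified over `K`.  Then the absolute norm of every integer of `E` is an `[E:K]`-th power
modulo `m`. -/
theorem exists_int_pow_dvd_norm_sub {m : ℕ} (hm : m.Prime)
    (hsplit : ∀ 𝔪 : Ideal (𝓞 K), 𝔪.IsPrime → (m : 𝓞 K) ∈ 𝔪 → Ideal.absNorm 𝔪 = m)
    (hram : ∀ 𝔐 : Ideal (𝓞 E), 𝔐.IsPrime → (m : 𝓞 E) ∈ 𝔐 →
      𝔐.ramificationIdx (𝓞 K) = Module.finrank K E)
    (β : 𝓞 E) : ∃ c : ℤ, (m : ℤ) ∣ Algebra.norm ℤ β - c ^ Module.finrank K E := by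
  have hmZ : (Ideal.span {(m : ℤ)}).IsPrime :=
    (Ideal.span_singleton_prime (by exact_mod_cast hm.ne_zero)).mpr
      (Nat.prime_iff_prime_int.mp hm)
  obtain ⟨⟨𝔪₀, h𝔪₀, hlies⟩⟩ :=
    (inferInstance : Nonempty ((Ideal.span {(m : ℤ)}).primesOver (𝓞 K)))
  have hm0 : (m : 𝓞 K) ∈ 𝔪₀ := by
    have h1 : (m : ℤ) ∈ 𝔪₀.under ℤ := by
      rw [← Ideal.over_def 𝔪₀ (Ideal.span {(m : ℤ)})]
      exact Ideal.mem_span_singleton_self _
    rw [Ideal.under_def, Ideal.mem_comap] at h1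
    simpa using h1
  have hmK : (m : 𝓞 K) ≠ 0 := by exact_mod_cast hm.ne_zero
  rw [← norm_int_norm (K := K) β]
  refine exists_int_pow_dvd_norm_sub_of_forall_conj hm _ 𝔪₀ (hsplit 𝔪₀ h𝔪₀ hm0) _ ?_
  intro τ
  have hτprime : (τ • 𝔪₀).IsPrime := inferInstance
  have hτm : (m : 𝓞 K) ∈ τ • 𝔪₀ := by
    have h1 := Ideal.smul_mem_pointwise_smul τ _ _ hm0
    have h2 : τ • (m : 𝓞 K) = (m : 𝓞 K) := by
      exact map_natCast (MulSemiringAction.toRingHom Gal(K/ℚ) (𝓞 K) τ) m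
    rwa [h2] at h1
  have hτbot : τ • 𝔪₀ ≠ ⊥ := fun h => hmK (by rw [h] at hτm; simpa using hτm)
  obtain ⟨⟨𝔐, h𝔐, h𝔐lies⟩⟩ := (inferInstance : Nonempty ((τ • 𝔪₀).primesOver (𝓞 E)))
  have h𝔐bot : 𝔐 ≠ ⊥ := Ideal.ne_bot_of_liesOver_of_ne_bot hτbot 𝔐
  have hmE : (m : 𝓞 E) ∈ 𝔐 := by
    have h1 : (m : 𝓞 K) ∈ 𝔐.under (𝓞 K) := by
      rw [← Ideal.over_def 𝔐 (τ • 𝔪₀)]; exact hτm
    rw [Ideal.under_def, Ideal.mem_comap] at h1
    simpa using h1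
  obtain ⟨b, hb⟩ := exists_norm_sub_pow_mem_under 𝔐 h𝔐bot (hram 𝔐 h𝔐 hmE) β
  refine ⟨b, ?_⟩
  rw [Ideal.over_def 𝔐 (τ • 𝔪₀)]
  exact hb

/-- **Elementary reciprocity, ideal-norm form.**  Same hypotheses, `[E:K]` odd: the absolute norm
of a principal ideal of `𝓞 E` is an `[E:K]`-th power in `ZMod m`. -/
theorem exists_zmod_pow_eq_absNorm_span {m : ℕ} (hm : m.Prime)
    (hsplit : ∀ 𝔪 : Ideal (𝓞 K), 𝔪.IsPrime → (m : 𝓞 K) ∈ 𝔪 → Ideal.absNorm 𝔪 = m)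
    (hram : ∀ 𝔐 : Ideal (𝓞 E), 𝔐.IsPrime → (m : 𝓞 E) ∈ 𝔐 →
      𝔐.ramificationIdx (𝓞 K) = Module.finrank K E)
    (hodd : Odd (Module.finrank K E)) (β : 𝓞 E) :
    ∃ c : ZMod m, ((Ideal.absNorm (Ideal.span {β}) : ℕ) : ZMod m) = c ^ Module.finrank K E := by
  obtain ⟨c, hc⟩ := exists_int_pow_dvd_norm_sub hm hsplit hram β
  have h1 : ((Algebra.norm ℤ β : ℤ) : ZMod m) = (c : ZMod m) ^ Module.finrank K E := by
    have := (ZMod.intCast_zmod_eq_zero_iff_dvd _ m).mpr hc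
    push_cast at this
    exact sub_eq_zero.mp this
  rw [Ideal.absNorm_span_singleton]
  rcases Int.natAbs_eq (Algebra.norm ℤ β) with h | h
  · refine ⟨c, ?_⟩
    rw [← h1]
    conv_rhs => rw [h]
    simp
  · refine ⟨-c, ?_⟩
    rw [hodd.neg_pow, ← h1]
    conv_rhs => rw [h]
    simp

end Main

end Fermat.Agent.S14.H94
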