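import Mathlib
import Fermat.Agent.S14.H94_TotRam

set_option autoImplicit false

noncomputable section

namespace Fermat.Agent.S14.H94

open NumberField
open scoped Pointwise

/-- A prime ideal of `𝓞 K` containing the rational prime `m` lies over `(m)`. -/
theorem liesOver_span_of_natCast_mem {K : Type*} [Field K] [NumberField K] {m : ℕ}
    (hm : m.Prime) (𝔪 : Ideal (𝓞 K)) [𝔪.IsPrime] (h : (m : 𝓞 K) ∈ 𝔪) :
    𝔪.LiesOver (Ideal.span {(m : ℤ)}) := by
  constructor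
  have hmax : (Ideal.span {(m : ℤ)}).IsMaximal :=
    PrincipalIdealRing.isMaximal_of_irreducible (Nat.prime_iff_prime_int.mp hm).irreducible
  have hle : Ideal.span {(m : ℤ)} ≤ 𝔪.under ℤ := by
    rw [Ideal.span_le, Set.singleton_subset_iff, SetLike.mem_coe, Ideal.under_def,
      Ideal.mem_comap]
    simpa using h
  have hne : 𝔪.under ℤ ≠ ⊤ := Ideal.IsPrime.ne_top inferInstance
  exact hmax.eq_of_le hne hle

/-- In `K = ℚ(ζ_p)`, a prime above a rational prime `m ≡ 1 mod p`, `m ≠ p`, has absolute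
norm `m`. -/
theorem absNorm_eq_of_natCast_mem_of_dvd_sub_one {p m : ℕ} (hp : p.Prime) (hm : m.Prime)
    (hmp : m ≠ p) (hm1 : p ∣ m - 1) {K : Type*} [Field K] [NumberField K]
    [IsCyclotomicExtension {p} ℚ K] (𝔪 : Ideal (𝓞 K)) [𝔪.IsPrime] (h : (m : 𝓞 K) ∈ 𝔪) :
    Ideal.absNorm 𝔪 = m := by
  have : Fact m.Prime := ⟨hm⟩
  have : NeZero p := ⟨hp.ne_zero⟩
  have hlies := liesOver_span_of_natCast_mem hm 𝔪 h
  have hnd : ¬ m ∣ p := fun hd => hmp ((Nat.prime_dvd_prime_iff_eq hm hp).mp hd)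
  have hf : 𝔪.inertiaDeg ℤ = orderOf (m : ZMod p) :=
    IsCyclotomicExtension.Rat.inertiaDeg_eq_of_not_dvd m K 𝔪 hnd
  have hone : (m : ZMod p) = 1 := by
    have h1 : ((m - 1 : ℕ) : ZMod p) = 0 := (ZMod.natCast_eq_zero_iff _ _).mpr hm1
    have h2 : m = (m - 1) + 1 := (Nat.sub_add_cancel hm.one_lt.le).symm
    rw [h2, Nat.cast_add, h1, zero_add, Nat.cast_one]
  rw [hone, orderOf_one] at hf
  have := Ideal.pow_inertiaDeg m 𝔪
  rw [hf, pow_one] at this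
  exact this.symm

/-- **P5 (elementary reciprocity)**, in the shape requested by WP5-fields. -/
theorem elementary_reciprocity {p m : ℕ} (hp : p.Prime) (hp2 : p ≠ 2) (hm : m.Prime)
    (hmp : m ≠ p) (hm1 : p ∣ m - 1) {K E : Type*} [Field K] [NumberField K] [Field E]
    [NumberField E] [Algebra K E] [IsGalois K E] [IsCyclotomicExtension {p} ℚ K]
    (hKE : Module.finrank K E = p)
    (hram : ∀ 𝔐 : Ideal (𝓞 E), 𝔐.IsPrime → (m : 𝓞 E) ∈ 𝔐 → 𝔐.ramificationIdx (𝓞 K) = p)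
    (β : 𝓞 E) :
    ∃ x : ZMod m, x ^ p = (Ideal.absNorm (Ideal.span {β}) : ZMod m) := by
  have : NeZero p := ⟨hp.ne_zero⟩
  have : IsGalois ℚ K := IsCyclotomicExtension.isGalois {p} ℚ K
  have hodd : Odd (Module.finrank K E) := by
    rw [hKE]; exact hp.odd_of_ne_two hp2
  obtain ⟨c, hc⟩ := exists_zmod_pow_eq_absNorm_span (K := K) (E := E) hm
    (fun 𝔪 h𝔪 hmem => by
      have := h𝔪
      exact absNorm_eq_of_natCast_mem_of_dvd_sub_one hp hm hmp hm1 𝔪 hmem)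
    (fun 𝔐 h𝔐 hmem => by rw [hKE]; exact hram 𝔐 h𝔐 hmem) hodd β
  exact ⟨c, by rw [hc, hKE]⟩

/-- **P5**, verbatim (the coprimality hypothesis is not needed). -/
theorem elementary_reciprocity' {p m : ℕ} (hp : p.Prime) (hp2 : p ≠ 2) (hm : m.Prime)
    (hmp : m ≠ p) (hm1 : p ∣ m - 1) {K E : Type*} [Field K] [NumberField K] [Field E]
    [NumberField E] [Algebra K E] [IsGalois K E] [IsCyclotomicExtension {p} ℚ K]
    (hKE : Module.finrank K E = p)
    (hram : ∀ 𝔐 : Ideal (𝓞 E), 𝔐.IsPrime → (m : 𝓞 E) ∈ 𝔐 → 𝔐.ramificationIdx (𝓞 K) = p)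
    (β : 𝓞 E) (_hβ : IsCoprime (Ideal.span {β}) (Ideal.span {(m : 𝓞 E)})) :
    ∃ x : ZMod m, x ^ p = (Ideal.absNorm (Ideal.span {β}) : ZMod m) :=
  elementary_reciprocity hp hp2 hm hmp hm1 hKE hram β

end Fermat.Agent.S14.H94
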