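import Mathlib
import Fermat.Agent.S14.Common
import Fermat.Agent.S14.H80_CrossFields
import Fermat.Agent.S14.H78_FieldsLemmas
import Fermat.Agent.S14.H69_CycloSymbol
import Fermat.Agent.S14.H94_P5

/-!
# Crossing fields from a pair of subgroups (S14, WP5-fields, field-theory half)

`K ⊆ L ⊆ Ω` number fields, `Ω/K` abelian, `ζ ∈ Ω` a primitive `m`-th root of unity.  Given
subgroups `N₀ ≤ Dt` of `Gal(Ω/K)` with the group-theoretic properties (a)–(e) below, the fixed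
fields `E := Ω^Dt ⊆ M := Ω^N₀` form a `H80.CrossFields p m K L s0 n0`.
-/

set_option autoImplicit false
set_option linter.overlappingInstances false
set_option linter.style.haveILetI false
set_option linter.unusedSectionVars false

noncomputable section

namespace Fermat.Agent.S14.H90

open NumberField
open scoped Pointwise IsMulCommutative

section Setup

variable {K Ω : Type} [Field K] [Field Ω] [NumberField K] [NumberField Ω]
  [Algebra K Ω] [IsGalois K Ω]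

/-- The fixed field of a subgroup, as an abbreviation. -/
abbrev FF (H : Subgroup Gal(Ω/K)) : IntermediateField K Ω := IntermediateField.fixedField H

/-- The algebra structure between fixed fields of nested subgroups. -/
@[reducible] def algebraFF {N D : Subgroup Gal(Ω/K)} (h : N ≤ D) : Algebra ↥(FF D) ↥(FF N) :=
  (IntermediateField.inclusion (IntermediateField.fixedField_le h)).toRingHom.toAlgebra

theorem isScalarTower_FF_base {N D : Subgroup Gal(Ω/K)} (h : N ≤ D) :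
    letI := algebraFF h
    IsScalarTower K ↥(FF D) ↥(FF N) :=
  letI := algebraFF h
  IsScalarTower.of_algebraMap_eq fun _ => rfl

theorem isScalarTower_FF_top {N D : Subgroup Gal(Ω/K)} (h : N ≤ D) :
    letI := algebraFF h
    IsScalarTower ↥(FF D) ↥(FF N) Ω :=
  letI := algebraFF h
  IsScalarTower.of_algebraMap_eq fun _ => rfl

theorem mem_of_forall_FF {D : Subgroup Gal(Ω/K)} {γ : Gal(Ω/K)}
    (h : ∀ x ∈ FF D, γ x = x) : γ ∈ D := by
  rw [← IntermediateField.fixingSubgroup_fixedField D, IntermediateField.mem_fixingSubgroup_iff]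
  exact h

theorem restrictScalars_mem_FF {D : Subgroup Gal(Ω/K)} (σ : Gal(Ω/↥(FF D))) :
    σ.restrictScalars K ∈ D :=
  mem_of_forall_FF fun y hy => σ.commutes ⟨y, hy⟩

theorem finrank_FF (D : Subgroup Gal(Ω/K)) : Module.finrank K ↥(FF D) = D.index := by
  rw [IntermediateField.finrank_eq_fixingSubgroup_index, IntermediateField.fixingSubgroup_fixedField]

theorem finrank_FF_FF {N D : Subgroup Gal(Ω/K)} (h : N ≤ D) :
    letI := algebraFF h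
    Module.finrank ↥(FF D) ↥(FF N) = N.relIndex D := by
  letI := algebraFF h
  haveI := isScalarTower_FF_top h
  have h1 := Module.finrank_mul_finrank ↥(FF D) ↥(FF N) Ω
  rw [IntermediateField.finrank_fixedField_eq_card, IntermediateField.finrank_fixedField_eq_card]
    at h1
  have h2 := Subgroup.relIndex_mul_relIndex ⊥ N D bot_le h
  rw [Subgroup.relIndex_bot_left, Subgroup.relIndex_bot_left] at h2
  have h3 : 0 < Nat.card ↥N := Nat.card_pos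
  have h4 : Module.finrank ↥(FF D) ↥(FF N) * Nat.card ↥N = N.relIndex D * Nat.card ↥N := by
    rw [h1, ← h2, mul_comm]
  exact Nat.eq_of_mul_eq_mul_right h3 h4

theorem isAbelianGalois_FF_FF [IsMulCommutative Gal(Ω/K)] {N D : Subgroup Gal(Ω/K)} (h : N ≤ D) :
    letI := algebraFF h
    IsAbelianGalois ↥(FF D) ↥(FF N) := by
  letI := algebraFF h
  haveI := isScalarTower_FF_base h
  haveI : IsAbelianGalois K Ω := { }
  exact IsAbelianGalois.tower_top K ↥(FF D) ↥(FF N)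

/-- **Total ramification dictionary**: if the inertia group of `𝔔` together with `D` generates
`Gal(Ω/K)` (abelian), the prime of `Ω^D` below `𝔔` has ramification index `[Ω^D : K]`. -/
theorem ramificationIdx_FF [IsMulCommutative Gal(Ω/K)] (D : Subgroup Gal(Ω/K))
    (𝔔 : Ideal (𝓞 Ω)) [𝔔.IsPrime] (h𝔔 : 𝔔 ≠ ⊥) (h : 𝔔.inertia Gal(Ω/K) ⊔ D = ⊤) :
    (𝔔.under (𝓞 ↥(FF D))).ramificationIdx (𝓞 K) = D.index := by
  haveI : 𝔔.LiesOver (𝔔.under (𝓞 ↥(FF D))) := ⟨rfl⟩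
  have h1 : 𝔔.ramificationIdx (𝓞 K) =
      (𝔔.under (𝓞 ↥(FF D))).ramificationIdx (𝓞 K) * 𝔔.ramificationIdx (𝓞 ↥(FF D)) :=
    Ideal.ramificationIdx_tower (𝔔.under (𝓞 ↥(FF D))) 𝔔
  rw [← H78.card_inertia_eq_ramificationIdx 𝔔 h𝔔, H78.ramificationIdx_fixedField D 𝔔 h𝔔] at h1
  set I := 𝔔.inertia Gal(Ω/K) with hI
  have h2 := Subgroup.relIndex_mul_relIndex ⊥ (I ⊓ D) I bot_le inf_le_left
  rw [Subgroup.relIndex_bot_left, Subgroup.relIndex_bot_left, Subgroup.inf_relIndex_left,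
    ← Subgroup.relIndex_sup_right, h, Subgroup.relIndex_top_right] at h2
  have h3 : 0 < Nat.card ↥(I ⊓ D) := Nat.card_pos
  have h4 : (𝔔.under (𝓞 ↥(FF D))).ramificationIdx (𝓞 K) * Nat.card ↥(I ⊓ D) =
      D.index * Nat.card ↥(I ⊓ D) := by
    rw [← h1, ← h2, mul_comm]
  exact Nat.eq_of_mul_eq_mul_right h3 h4

/-- **principal**: elementary reciprocity for `Ω^N / Ω^D`. -/
theorem principal_FF [IsMulCommutative Gal(Ω/K)] {p m : ℕ} (hp : p.Prime) (hp2 : p ≠ 2)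
    (hm : m.Prime) (hmp : m ≠ p) (hm1 : p ∣ m - 1) [IsCyclotomicExtension {p} ℚ K]
    {N D : Subgroup Gal(Ω/K)} (h : N ≤ D) (hidx : D.index = p)
    {ζ : Ω} (hζ : IsPrimitiveRoot ζ m)
    (hc : ∀ γ ∈ D, ∀ a t : ℕ, γ ζ = ζ ^ a → (t : ZMod m) ^ p = a → γ ∈ N)
    (hd : ∀ 𝔔 : Ideal (𝓞 Ω), 𝔔.IsPrime → (m : 𝓞 Ω) ∈ 𝔔 → 𝔔.inertia Gal(Ω/K) ⊔ D = ⊤) :
    letI := algebraFF h
    haveI := isAbelianGalois_FF_FF h
    (∀ 𝔓 : Ideal (𝓞 ↥(FF N)), 𝔓.IsPrime → 𝔓 ≠ ⊥ → 𝔓.ramificationIdx (𝓞 ↥(FF D)) = 1) →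
    ∀ β : 𝓞 ↥(FF D), IsCoprime (Ideal.span {β}) (Ideal.span {(m : 𝓞 ↥(FF D))}) →
      H27.artin ↥(FF N) (Ideal.span {β}) = 1 := by
  letI := algebraFF h
  haveI := isAbelianGalois_FF_FF h
  haveI := isScalarTower_FF_top h
  haveI : IsAbelianGalois K Ω := { }
  intro hunrM β hβ
  by_cases hβ0 : β = 0
  · have : Ideal.span {β} = (⊥ : Ideal (𝓞 ↥(FF D))) := by
      rw [hβ0, Ideal.span_singleton_eq_bot]
    rw [this]
    exact H27.artin_bot
  have h𝔅 : Ideal.span {β} ≠ (⊥ : Ideal (𝓞 ↥(FF D))) := by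
    rwa [Ne, Ideal.span_singleton_eq_bot]
  -- total ramification of `Ω^D / K` over `m`
  have hKE : Module.finrank K ↥(FF D) = p := by rw [finrank_FF, hidx]
  have hram : ∀ 𝔐 : Ideal (𝓞 ↥(FF D)), 𝔐.IsPrime → (m : 𝓞 ↥(FF D)) ∈ 𝔐 →
      𝔐.ramificationIdx (𝓞 K) = p := by
    intro 𝔐 h𝔐prime hmem
    haveI := h𝔐prime
    obtain ⟨⟨𝔔, h𝔔prime, h𝔔over⟩⟩ := 𝔐.nonempty_primesOver (S := 𝓞 Ω)
    have hu : 𝔔.under (𝓞 ↥(FF D)) = 𝔐 := (Ideal.over_def 𝔔 𝔐).symm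
    have hm𝔔 : (m : 𝓞 Ω) ∈ 𝔔 := by
      have : (m : 𝓞 ↥(FF D)) ∈ 𝔔.under (𝓞 ↥(FF D)) := hu ▸ hmem
      rwa [Ideal.under_def, Ideal.mem_comap, map_natCast] at this
    have h𝔔 : 𝔔 ≠ ⊥ := by
      rintro rfl
      rw [Ideal.mem_bot, Nat.cast_eq_zero] at hm𝔔
      exact hm.ne_zero hm𝔔
    rw [← hu, ramificationIdx_FF D 𝔔 h𝔔 (hd 𝔔 h𝔔prime hm𝔔), hidx]
  obtain ⟨t, ht⟩ := H94.elementary_reciprocity hp hp2 hm hmp hm1 hKE hram β
  refine H69.artin_eq_one_of_absNorm_pow (E := ↥(FF D)) (M := ↥(FF N)) (N := Ω)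
    (fun P _ hP => hunrM P inferInstance hP) p m hm ζ hζ ?_ (Ideal.span {β}) h𝔅 hβ t ht
  intro σ a t' hσ ht' x
  have hγD : σ.restrictScalars K ∈ D := restrictScalars_mem_FF σ
  have hγN : σ.restrictScalars K ∈ N := hc _ hγD a t' hσ ht'
  exact (IntermediateField.mem_fixedField_iff N (x : Ω)).mp x.2 _ hγN

end Setup

section WithL

variable {K L Ω : Type} [Field K] [Field L] [Field Ω] [NumberField K] [NumberField L]
  [NumberField Ω] [Algebra K L] [Algebra K Ω] [Algebra L Ω] [IsScalarTower K L Ω]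
  [IsGalois K L] [IsGalois K Ω]

variable (K L Ω) in
/-- restriction `Gal(Ω/K) → Gal(L/K)`. -/
abbrev resL : Gal(Ω/K) →* Gal(L/K) := AlgEquiv.restrictNormalHom L

theorem algebraMap_resL (σ : Gal(Ω/K)) (x : L) :
    algebraMap L Ω (resL K L Ω σ x) = σ (algebraMap L Ω x) :=
  AlgEquiv.restrictNormal_commutes σ L x

theorem algebraMap_mem_FF {N : Subgroup Gal(Ω/K)} (hN : N ≤ (resL K L Ω).ker) (x : L) :
    algebraMap L Ω x ∈ FF N := by
  rw [IntermediateField.mem_fixedField_iff]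
  intro σ hσ
  have h1 : resL K L Ω σ = 1 := hN hσ
  rw [← algebraMap_resL, h1, AlgEquiv.one_apply]

/-- the algebra structure `L → Ω^N` for `N ≤ ker (res_L)`. -/
@[reducible] def algebraLFF {N : Subgroup Gal(Ω/K)} (hN : N ≤ (resL K L Ω).ker) :
    Algebra L ↥(FF N) :=
  ((IsScalarTower.toAlgHom K L Ω).codRestrict (FF N).toSubalgebra
    (algebraMap_mem_FF hN)).toRingHom.toAlgebra

theorem isScalarTower_LFF_base {N : Subgroup Gal(Ω/K)} (hN : N ≤ (resL K L Ω).ker) :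
    letI := algebraLFF hN
    IsScalarTower K L ↥(FF N) :=
  letI := algebraLFF hN
  IsScalarTower.of_algebraMap_eq fun x => Subtype.ext (IsScalarTower.algebraMap_apply K L Ω x)

theorem isScalarTower_LFF_top {N : Subgroup Gal(Ω/K)} (hN : N ≤ (resL K L Ω).ker) :
    letI := algebraLFF hN
    IsScalarTower L ↥(FF N) Ω :=
  letI := algebraLFF hN
  IsScalarTower.of_algebraMap_eq fun _ => rfl

/-- **res_inj**: an automorphism of `Ω^N / Ω^D` fixing `L` is trivial, provided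
`ker res_L ⊓ D ≤ N`. -/
theorem res_inj_FF [IsMulCommutative Gal(Ω/K)] {N D : Subgroup Gal(Ω/K)} (h : N ≤ D)
    (hN : N ≤ (resL K L Ω).ker) (ha : (resL K L Ω).ker ⊓ D ≤ N) :
    letI := algebraFF h
    letI := algebraLFF hN
    ∀ σ : Gal(↥(FF N)/↥(FF D)),
      (∀ x : L, σ (algebraMap L ↥(FF N) x) = algebraMap L ↥(FF N) x) → σ = 1 := by
  letI := algebraFF h
  letI := algebraLFF hN
  haveI := isScalarTower_FF_top h
  haveI := isScalarTower_FF_base h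
  haveI : IsAbelianGalois ↥(FF D) ↥(FF N) := isAbelianGalois_FF_FF h
  intro σ hσ
  obtain ⟨σ', rfl⟩ := AlgEquiv.restrictNormalHom_surjective (F := ↥(FF D)) (K₁ := ↥(FF N)) Ω σ
  set γ : Gal(Ω/K) := σ'.restrictScalars K with hγ
  have hcomm : ∀ y : ↥(FF N), algebraMap ↥(FF N) Ω (AlgEquiv.restrictNormalHom ↥(FF N) σ' y) =
      σ' (algebraMap ↥(FF N) Ω y) := fun y => AlgEquiv.restrictNormal_commutes σ' ↥(FF N) y
  have hγD : γ ∈ D := by
    rw [← IntermediateField.fixingSubgroup_fixedField D, IntermediateField.mem_fixingSubgroup_iff]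
    intro x hx
    exact σ'.commutes ⟨x, hx⟩
  have hγL : γ ∈ (resL K L Ω).ker := by
    rw [MonoidHom.mem_ker]
    ext x
    apply FaithfulSMul.algebraMap_injective L Ω
    rw [algebraMap_resL, AlgEquiv.one_apply]
    have h1 := hσ x
    have h2 := hcomm (algebraMap L ↥(FF N) x)
    rw [h1] at h2
    exact h2.symm
  have hγN : γ ∈ N := ha ⟨hγL, hγD⟩
  ext y
  change algebraMap ↥(FF N) Ω (AlgEquiv.restrictNormalHom ↥(FF N) σ' y) = (y : Ω)
  rw [hcomm]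
  exact (IntermediateField.mem_fixedField_iff N (y : Ω)).mp y.2 γ hγN

/-- a rational integer lies in a prime iff it lies in the prime below. -/
theorem natCast_mem_under_iff {F F' : Type*} [Field F] [Field F'] [NumberField F]
    [NumberField F'] [Algebra F F'] (𝔓 : Ideal (𝓞 F')) (m : ℕ) :
    (m : 𝓞 F) ∈ 𝔓.under (𝓞 F) ↔ (m : 𝓞 F') ∈ 𝔓 := by
  rw [Ideal.under_def, Ideal.mem_comap, map_natCast]

/-- **split**: a prime `Q` of `K` not dividing `m` such that every `γ` with the Frobenius data of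
`Q` lies in `D` has a prime of relative degree one above it in `Ω^D`. -/
theorem split_FF [IsMulCommutative Gal(L/K)] (hunr : IsUnramifiedEverywhere K L) {m : ℕ}
    (hm0 : 0 < m) {ζ : Ω} (hζ : IsPrimitiveRoot ζ m) (D : Subgroup Gal(Ω/K))
    (Q : Ideal (𝓞 K)) [Q.IsPrime] (hQ : Q ≠ ⊥) (hmQ : (m : 𝓞 K) ∉ Q)
    (hD : ∀ γ : Gal(Ω/K), resL K L Ω γ = H27.frobP L Q → γ ζ = ζ ^ Ideal.absNorm Q → γ ∈ D) :
    ∃ QQ : Ideal (𝓞 ↥(FF D)), QQ.IsPrime ∧ QQ.LiesOver Q ∧ Ideal.relNorm (𝓞 K) QQ = Q ∧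
      IsCoprime QQ (Ideal.span {(m : 𝓞 ↥(FF D))}) := by
  obtain ⟨⟨𝔓, h𝔓prime, h𝔓over⟩⟩ := Q.nonempty_primesOver (S := 𝓞 Ω)
  have h𝔓 : 𝔓 ≠ ⊥ := Ideal.ne_bot_of_liesOver_of_ne_bot hQ 𝔓
  have hu : 𝔓.under (𝓞 K) = Q := (Ideal.over_def 𝔓 Q).symm
  have hmΩ : (m : 𝓞 Ω) ∉ 𝔓 := by
    rw [← natCast_mem_under_iff (F := K), hu]
    exact hmQ
  -- the Frobenius
  have huL : (𝔓.under (𝓞 L)).under (𝓞 K) = Q := by rw [Ideal.under_under, hu]
  haveI : (𝔓.under (𝓞 L)).LiesOver Q := ⟨huL.symm⟩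
  have h𝔓L : 𝔓.under (𝓞 L) ≠ ⊥ := Ideal.ne_bot_of_liesOver_of_ne_bot hQ _
  have hur : Algebra.IsUnramifiedAt (𝓞 K) (𝔓.under (𝓞 L)) :=
    (H27.isUnramifiedAt_iff_ramificationIdx _).mpr (hunr _ inferInstance h𝔓L)
  have h1 : resL K L Ω (H27.frob K 𝔓 h𝔓) = H27.frobP L Q := by
    rw [H27.frobP_eq_frob Q hQ (𝔓.under (𝓞 L)) h𝔓L]
    exact H27.restrictNormalHom_frob 𝔓 h𝔓 h𝔓L hur
  have h2 : H27.frob K 𝔓 h𝔓 ζ = ζ ^ Ideal.absNorm Q := by
    rw [H69.frob_zeta hm0 hζ 𝔓 h𝔓 hmΩ, hu, Ideal.absNorm_apply, Submodule.cardQuot_apply]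
  have h3 : H27.frob K 𝔓 h𝔓 ∈ D := hD _ h1 h2
  have hfix : ∀ x : ↥(FF D), H27.frob K 𝔓 h𝔓 (algebraMap ↥(FF D) Ω x) = algebraMap ↥(FF D) Ω x :=
    fun x => (IntermediateField.mem_fixedField_iff D (x : Ω)).mp x.2 _ h3
  have h4 := H78.relNorm_under_eq_of_frob_fixes (K := K) (E := ↥(FF D)) 𝔓 h𝔓 hfix
  have h𝔮 : 𝔓.under (𝓞 ↥(FF D)) ≠ ⊥ := mt Ideal.eq_bot_of_comap_eq_bot h𝔓
  refine ⟨𝔓.under (𝓞 ↥(FF D)), inferInstance, ⟨?_⟩, h4.trans hu, ?_⟩
  · rw [Ideal.under_under, hu]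
  · haveI : (𝔓.under (𝓞 ↥(FF D))).IsMaximal := Ideal.IsPrime.isMaximal inferInstance h𝔮
    rw [Ideal.isCoprime_iff_sup_eq]
    by_contra hne
    have h5 : 𝔓.under (𝓞 ↥(FF D)) = 𝔓.under (𝓞 ↥(FF D)) ⊔ Ideal.span {(m : 𝓞 ↥(FF D))} :=
      Ideal.IsMaximal.eq_of_le inferInstance hne le_sup_left
    have h6 : (m : 𝓞 ↥(FF D)) ∈ 𝔓.under (𝓞 ↥(FF D)) := by
      rw [h5]
      exact Ideal.mem_sup_right (Ideal.mem_span_singleton_self _)
    exact hmΩ ((natCast_mem_under_iff 𝔓 m).mp h6)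

/-- **Crossing fields from subgroups** (the field-theory half of `nonempty_crossFields`). -/
theorem nonempty_crossFields_of_subgroups {p m : ℕ} (hp : p.Prime) (hp2 : p ≠ 2) (hm : m.Prime)
    (hmp : m ≠ p) (hm1 : p ∣ m - 1)
    [IsMulCommutative Gal(L/K)] [IsMulCommutative Gal(Ω/K)] [IsCyclotomicExtension {p} ℚ K]
    (hunr : IsUnramifiedEverywhere K L) {ζ : Ω} (hζ : IsPrimitiveRoot ζ m)
    (s0 : Gal(L/K)) (n0 : ZMod m) (N₀ Dt : Subgroup Gal(Ω/K))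
    (hND : N₀ ≤ Dt) (hNr : N₀ ≤ (resL K L Ω).ker) (ha : (resL K L Ω).ker ⊓ Dt ≤ N₀)
    (hb1 : N₀.relIndex Dt = p) (hb2 : Dt.index = p)
    (hc : ∀ γ ∈ Dt, ∀ a t : ℕ, γ ζ = ζ ^ a → (t : ZMod m) ^ p = a → γ ∈ N₀)
    (hd : ∀ 𝔔 : Ideal (𝓞 Ω), 𝔔.IsPrime → (m : 𝓞 Ω) ∈ 𝔔 → 𝔔.inertia Gal(Ω/K) ⊔ Dt = ⊤)
    (he : ∀ (γ : Gal(Ω/K)) (k a : ℕ), resL K L Ω γ = s0 ^ k → γ ζ = ζ ^ a →
      (∃ x : ZMod m, (a : ZMod m) = n0 ^ k * x ^ p) → γ ∈ Dt) :
    Nonempty (H80.CrossFields p m K L s0 n0) := by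
  letI := algebraFF hND
  letI := algebraLFF hNr
  haveI := isScalarTower_FF_base hND
  haveI := isScalarTower_LFF_base hNr
  haveI hab : IsAbelianGalois ↥(FF Dt) ↥(FF N₀) := isAbelianGalois_FF_FF hND
  have hres := res_inj_FF (L := L) hND hNr ha
  have hunrM : ∀ 𝔓 : Ideal (𝓞 ↥(FF N₀)), 𝔓.IsPrime → 𝔓 ≠ ⊥ →
      𝔓.ramificationIdx (𝓞 ↥(FF Dt)) = 1 :=
    H78.ramificationIdx_eq_one_of_res_inj (K := K) (L := L) hres hunr
  exact ⟨{
    E := ↥(FF Dt)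
    M := ↥(FF N₀)
    finrank_EM := by rw [finrank_FF_FF hND, hb1]
    finrank_KE := by rw [finrank_FF, hb2]
    res_inj := hres
    unram := hunrM
    split := fun Q _ hQ hmQ k hk hx =>
      split_FF hunr hm.pos hζ Dt Q hQ hmQ fun γ h1 h2 => he γ k _ (h1.trans hk) h2 hx
    principal := principal_FF hp hp2 hm hmp hm1 hND hb2 hζ hc hd hunrM }⟩

end WithL

end Fermat.Agent.S14.H90
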