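import Mathlib

set_option autoImplicit false

/-!
# S14 / WP5-fields: the finite group theory of the "diagonal" subgroup

Abstract setting: `r : Γ →* G'`, `χ : Γ →* U` (`U` commutative), `P ≤ U` a subgroup containing
all `p`-th powers, `s0 : G'`, `n0 : U`.

* `N0 = ker r ⊓ χ⁻¹ P`          (the subgroup fixing `M = L · K_m`)
* `Dt = {γ | ∃ k : ℤ, r γ = s0 ^ k ∧ χ γ * (n0 ^ k)⁻¹ ∈ P}`   (the subgroup fixing `E`)
-/

namespace Fermat.Agent.S14.H94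

section

variable {Γ G' U : Type*} [Group Γ] [Group G'] [CommGroup U]
  (r : Γ →* G') (χ : Γ →* U) (P : Subgroup U) (s0 : G') (n0 : U)

/-- The subgroup `ker r ⊓ χ⁻¹ P`. -/
def diagN0 : Subgroup Γ := r.ker ⊓ P.comap χ

/-- The "diagonal" subgroup `{γ | ∃ k, r γ = s0 ^ k ∧ χ γ ∈ n0 ^ k • P}`. -/
def diagDt : Subgroup Γ where
  carrier := {γ | ∃ k : ℤ, r γ = s0 ^ k ∧ χ γ * (n0 ^ k)⁻¹ ∈ P}
  one_mem' := ⟨0, by simp, by simp⟩
  mul_mem' := by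
    rintro a b ⟨k, hk1, hk2⟩ ⟨l, hl1, hl2⟩
    refine ⟨k + l, by rw [map_mul, hk1, hl1, zpow_add], ?_⟩
    have : χ (a * b) * (n0 ^ (k + l))⁻¹ = (χ a * (n0 ^ k)⁻¹) * (χ b * (n0 ^ l)⁻¹) := by
      rw [map_mul, zpow_add, mul_inv]
      exact mul_mul_mul_comm _ _ _ _
    rw [this]
    exact P.mul_mem hk2 hl2
  inv_mem' := by
    rintro a ⟨k, hk1, hk2⟩
    refine ⟨-k, by rw [map_inv, hk1, zpow_neg], ?_⟩
    have : χ a⁻¹ * (n0 ^ (-k))⁻¹ = (χ a * (n0 ^ k)⁻¹)⁻¹ := by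
      rw [map_inv, zpow_neg, mul_inv]
    rw [this]
    exact P.inv_mem hk2

variable {r χ P s0 n0}

theorem mem_diagN0 {γ : Γ} : γ ∈ diagN0 r χ P ↔ r γ = 1 ∧ χ γ ∈ P := by
  simp [diagN0, MonoidHom.mem_ker]

theorem mem_diagDt {γ : Γ} :
    γ ∈ diagDt r χ P s0 n0 ↔ ∃ k : ℤ, r γ = s0 ^ k ∧ χ γ * (n0 ^ k)⁻¹ ∈ P := Iff.rfl

theorem diagN0_le_diagDt : diagN0 r χ P ≤ diagDt r χ P s0 n0 := by
  intro γ hγ
  obtain ⟨h1, h2⟩ := mem_diagN0.mp hγ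
  exact ⟨0, by simpa using h1, by simpa using h2⟩

/-- membership with a natural exponent and `χ γ = n0 ^ k * x`, `x ∈ P`. -/
theorem mem_diagDt_of_nat {γ : Γ} (k : ℕ) (h1 : r γ = s0 ^ k) {x : U} (hx : x ∈ P)
    (h2 : χ γ = n0 ^ k * x) : γ ∈ diagDt r χ P s0 n0 := by
  refine ⟨k, by simpa using h1, ?_⟩
  rw [h2, zpow_natCast, mul_comm, ← mul_assoc, inv_mul_cancel, one_mul]
  exact hx

/-- If `n0 ∉ P` and `P` contains all `p`-th powers (`p` prime), then `n0 ^ k ∈ P → p ∣ k`. -/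
theorem dvd_of_zpow_mem {p : ℕ} (hp : p.Prime) (hP : ∀ u : U, u ^ p ∈ P) (hn0 : n0 ∉ P)
    {k : ℤ} (hk : n0 ^ k ∈ P) : (p : ℤ) ∣ k := by
  by_contra hnd
  have hcop : IsCoprime (p : ℤ) k :=
    (Prime.coprime_iff_not_dvd (Nat.prime_iff_prime_int.mp hp)).mpr hnd
  obtain ⟨a, b, hab⟩ := hcop
  apply hn0
  have h1 : n0 = (n0 ^ p) ^ a * (n0 ^ k) ^ b := by
    rw [← zpow_natCast n0 p, ← zpow_mul, ← zpow_mul, ← zpow_add, mul_comm (p : ℤ) a,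
      mul_comm k b, hab, zpow_one]
  rw [h1]
  exact P.mul_mem (P.zpow_mem (hP n0) a) (P.zpow_mem hk b)

/-- **res_inj**: an element of `Dt` killed by `r` lies in `N0` (if `s0` has order `p` and `P`
contains the `p`-th powers). -/
theorem mem_diagN0_of_mem_diagDt_of_r_eq_one {p : ℕ} (hs0 : orderOf s0 = p)
    (hP : ∀ u : U, u ^ p ∈ P) {γ : Γ} (hγ : γ ∈ diagDt r χ P s0 n0) (h1 : r γ = 1) :
    γ ∈ diagN0 r χ P := by
  obtain ⟨k, hk1, hk2⟩ := hγ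
  refine mem_diagN0.mpr ⟨h1, ?_⟩
  rw [h1] at hk1
  have hdvd : (p : ℤ) ∣ k := by
    rw [← hs0]; exact orderOf_dvd_iff_zpow_eq_one.mpr hk1.symm
  obtain ⟨j, rfl⟩ := hdvd
  have h3 : n0 ^ ((p : ℤ) * j) ∈ P := by
    rw [zpow_mul, zpow_natCast]; exact P.zpow_mem (hP n0) j
  have := P.mul_mem hk2 h3
  rwa [inv_mul_cancel_right] at this

/-- **hM**: an element of `Dt` whose `χ` lies in `P` lies in `N0` (if `n0 ∉ P`, `s0 ^ p = 1`). -/
theorem mem_diagN0_of_mem_diagDt_of_chi_mem {p : ℕ} (hp : p.Prime) (hs0 : s0 ^ p = 1)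
    (hP : ∀ u : U, u ^ p ∈ P) (hn0 : n0 ∉ P) {γ : Γ} (hγ : γ ∈ diagDt r χ P s0 n0)
    (h2 : χ γ ∈ P) : γ ∈ diagN0 r χ P := by
  obtain ⟨k, hk1, hk2⟩ := hγ
  have h3 : n0 ^ k ∈ P := by
    have := P.mul_mem (P.inv_mem hk2) h2
    rwa [mul_inv, inv_inv, mul_assoc, mul_comm (χ γ)⁻¹, mul_assoc, mul_inv_cancel,
      mul_one] at this
  obtain ⟨j, rfl⟩ := dvd_of_zpow_mem hp hP hn0 h3
  refine mem_diagN0.mpr ⟨?_, h2⟩
  rw [hk1, zpow_mul, zpow_natCast, hs0, one_zpow]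

end

section Index

variable {Γ G' U : Type*} [Group Γ] [Group G'] [CommGroup U]
  {r : Γ →* G'} {χ : Γ →* U} {P : Subgroup U} {s0 : G'} {n0 : U}

/-- `r` restricted to `Dt`. -/
def diagRes (r : Γ →* G') (χ : Γ →* U) (P : Subgroup U) (s0 : G') (n0 : U) :
    diagDt r χ P s0 n0 →* G' := r.comp (diagDt r χ P s0 n0).subtype

theorem diagRes_ker {p : ℕ} (hs0 : orderOf s0 = p) (hP : ∀ u : U, u ^ p ∈ P) :
    (diagRes r χ P s0 n0).ker = (diagN0 r χ P).subgroupOf (diagDt r χ P s0 n0) := by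
  ext ⟨γ, hγ⟩
  rw [MonoidHom.mem_ker, Subgroup.mem_subgroupOf]
  constructor
  · intro h
    exact mem_diagN0_of_mem_diagDt_of_r_eq_one hs0 hP hγ h
  · intro h
    exact (mem_diagN0.mp h).1

theorem diagRes_range {φ0 : Γ} (h0 : r φ0 = s0) (h0' : χ φ0 * n0⁻¹ ∈ P) :
    (diagRes r χ P s0 n0).range = Subgroup.zpowers s0 := by
  ext g
  constructor
  · rintro ⟨⟨γ, k, hk1, _⟩, rfl⟩
    exact ⟨k, hk1.symm⟩
  · rintro ⟨k, rfl⟩
    have hφ : φ0 ∈ diagDt r χ P s0 n0 := ⟨1, by simpa using h0, by simpa using h0'⟩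
    refine ⟨⟨φ0, hφ⟩ ^ k, ?_⟩
    rw [map_zpow]
    change (r φ0) ^ k = _
    rw [h0]

/-- **[M : E] = p**: the relative index of `N0` in `Dt` is `p`. -/
theorem relIndex_diagN0_diagDt {p : ℕ} (hs0 : orderOf s0 = p) (hP : ∀ u : U, u ^ p ∈ P)
    {φ0 : Γ} (h0 : r φ0 = s0) (h0' : χ φ0 * n0⁻¹ ∈ P) :
    (diagN0 r χ P).relIndex (diagDt r χ P s0 n0) = p := by
  rw [Subgroup.relIndex, ← diagRes_ker hs0 hP, Subgroup.index_ker, diagRes_range h0 h0',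
    Nat.card_zpowers, hs0]

/-- `Nat.card Dt = p * Nat.card N0`. -/
theorem card_diagDt {p : ℕ} (hs0 : orderOf s0 = p) (hP : ∀ u : U, u ^ p ∈ P)
    {φ0 : Γ} (h0 : r φ0 = s0) (h0' : χ φ0 * n0⁻¹ ∈ P) :
    Nat.card (diagDt r χ P s0 n0) = p * Nat.card (diagN0 r χ P) := by
  have h1 := Subgroup.card_mul_index ((diagN0 r χ P).subgroupOf (diagDt r χ P s0 n0))
  have h2 : ((diagN0 r χ P).subgroupOf (diagDt r χ P s0 n0)).index = p :=
    relIndex_diagN0_diagDt hs0 hP h0 h0'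
  have h3 : Nat.card ((diagN0 r χ P).subgroupOf (diagDt r χ P s0 n0)) =
      Nat.card (diagN0 r χ P) :=
    Nat.card_congr (Subgroup.subgroupOfEquivOfLe diagN0_le_diagDt).toEquiv
  rw [h2, h3] at h1
  rw [← h1, mul_comm]

/-- The map `γ ↦ (r γ, χ γ mod P)`. -/
def diagPsi (r : Γ →* G') (χ : Γ →* U) (P : Subgroup U) : Γ →* G' × (U ⧸ P) :=
  r.prod ((QuotientGroup.mk' P).comp χ)

theorem diagPsi_ker : (diagPsi r χ P).ker = diagN0 r χ P := by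
  ext γ
  rw [MonoidHom.mem_ker, mem_diagN0, diagPsi, MonoidHom.prod_apply, Prod.mk_eq_one]
  simp

/-- the index of `N0` is `p * p` when `(r, χ)` is onto, `|G'| = p`, `[U : P] = p`. -/
theorem index_diagN0 {p : ℕ} (hsurj : ∀ (g : G') (u : U), ∃ γ : Γ, r γ = g ∧ χ γ = u)
    (hG' : Nat.card G' = p) (hPidx : P.index = p) : (diagN0 r χ P).index = p * p := by
  have hs : Function.Surjective (diagPsi r χ P) := by
    rintro ⟨g, u⟩
    obtain ⟨u, rfl⟩ := QuotientGroup.mk_surjective u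
    obtain ⟨γ, h1, h2⟩ := hsurj g u
    exact ⟨γ, by simp [diagPsi, h1, h2]⟩
  rw [← diagPsi_ker, Subgroup.index_ker, MonoidHom.range_eq_top.mpr hs, Subgroup.card_top,
    Nat.card_prod, hG', ← Subgroup.index_eq_card, hPidx]

/-- **[E : K] = p**: the index of `Dt` is `p`. -/
theorem index_diagDt {p : ℕ} (hp : p.Prime) (hs0 : orderOf s0 = p) (hP : ∀ u : U, u ^ p ∈ P)
    {φ0 : Γ} (h0 : r φ0 = s0) (h0' : χ φ0 * n0⁻¹ ∈ P)
    (hsurj : ∀ (g : G') (u : U), ∃ γ : Γ, r γ = g ∧ χ γ = u)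
    (hG' : Nat.card G' = p) (hPidx : P.index = p) : (diagDt r χ P s0 n0).index = p := by
  have h1 := Subgroup.relIndex_mul_index (diagN0_le_diagDt (r := r) (χ := χ) (P := P)
    (s0 := s0) (n0 := n0))
  rw [relIndex_diagN0_diagDt hs0 hP h0 h0', index_diagN0 hsurj hG' hPidx] at h1
  exact Nat.eq_of_mul_eq_mul_left hp.pos h1

/-- **Total ramification**: a subgroup `I ≤ ker r` containing an element whose `χ` is not in `P`
generates `Γ` together with `Dt` (if `Dt` has prime index `p`). -/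
theorem exists_mul_of_index_diagDt {p : ℕ} (hp : p.Prime) (hcomm : ∀ a b : Γ, a * b = b * a)
    (hs0 : orderOf s0 = p) (hP : ∀ u : U, u ^ p ∈ P)
    (hidx : (diagDt r χ P s0 n0).index = p) (I : Subgroup Γ) (hI : ∀ τ ∈ I, r τ = 1)
    {τ0 : Γ} (hτ0 : τ0 ∈ I) (hτ0' : χ τ0 ∉ P) (σ : Γ) :
    ∃ τ ∈ I, ∃ δ ∈ diagDt r χ P s0 n0, σ = τ * δ := by
  let _ : CommGroup Γ := { ‹Group Γ› with mul_comm := hcomm }
  set Dt := diagDt r χ P s0 n0 with hDt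
  have hle : Dt ≤ I ⊔ Dt := le_sup_right
  have hnot : ¬ (I ⊔ Dt ≤ Dt) := by
    intro h
    have h1 : τ0 ∈ Dt := h (Subgroup.mem_sup_left hτ0)
    have h2 := mem_diagN0_of_mem_diagDt_of_r_eq_one hs0 hP h1 (hI τ0 hτ0)
    exact hτ0' (mem_diagN0.mp h2).2
  have h3 := Subgroup.relIndex_mul_index hle
  rw [hidx] at h3
  have h4 : (I ⊔ Dt).index ∣ p := Dvd.intro_left _ h3
  have htop : I ⊔ Dt = ⊤ := by
    rcases (Nat.dvd_prime hp).mp h4 with h5 | h5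
    · exact Subgroup.index_eq_one.mp h5
    · exfalso
      rw [h5] at h3
      have h6 : Dt.relIndex (I ⊔ Dt) = 1 := by
        have : Dt.relIndex (I ⊔ Dt) * p = 1 * p := by rw [h3, one_mul]
        exact Nat.eq_of_mul_eq_mul_right hp.pos this
      exact hnot (Subgroup.relIndex_eq_one.mp h6)
  have hσ : σ ∈ I ⊔ Dt := by rw [htop]; exact Subgroup.mem_top σ
  obtain ⟨τ, hτ, δ, hδ, h⟩ := Subgroup.mem_sup.mp hσ
  exact ⟨τ, hτ, δ, hδ, h.symm⟩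

end Index

end Fermat.Agent.S14.H94
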