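import Mathlib
import Fermat.Agent.S14.H80_Fields
import Fermat.Agent.S14.H94_DiagGroup

/-!
# S14 / WP5-fields [S2]: finite group theory for helper80's `N0`, `Dt`

Verbatim statements of `[S2]` of the `H80_Skeleton`, proved by identifying `H80.N0`, `H80.Dt`
with the abstract `H94.diagN0`, `H94.diagDt`.
-/

set_option autoImplicit false
set_option linter.unusedSectionVars false
set_option linter.unusedVariables false

noncomputable section

namespace Fermat.Agent.S14.H94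

open NumberField Fermat.Agent.S14.H80

variable (p m : ℕ) [NeZero m] (K L : Type) [Field K] [Field L] [NumberField K] [NumberField L]
  [Algebra K L] [IsGalois K L]

/-- the subgroup of `p`-th powers of `(ZMod m)ˣ`. -/
abbrev PP : Subgroup (ZMod m)ˣ := (powMonoidHom p : (ZMod m)ˣ →* (ZMod m)ˣ).range

theorem pow_mem_PP (u : (ZMod m)ˣ) : u ^ p ∈ PP p m := ⟨u, rfl⟩

theorem mem_PP {u : (ZMod m)ˣ} : u ∈ PP p m ↔ ∃ v : (ZMod m)ˣ, v ^ p = u := by
  simp [PP, MonoidHom.mem_range, powMonoidHom_apply]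

theorem N0_eq_diagN0 : N0 p m K L = diagN0 (resL m K L) (chi m K L) (PP p m) := rfl

variable (s0 : Gal(L/K)) (n0 : (ZMod m)ˣ)

theorem Dt_eq_diagDt :
    Dt p m K L s0 n0 = diagDt (resL m K L) (chi m K L) (PP p m) s0 n0 := by
  ext γ
  rw [mem_Dt, mem_diagDt]
  constructor
  · rintro ⟨k, hk, u, hu⟩
    refine ⟨k, hk, (mem_PP p m).mpr ⟨u, ?_⟩⟩
    rw [hu, mul_comm, ← mul_assoc, inv_mul_cancel, one_mul]
  · rintro ⟨k, hk, hu⟩
    obtain ⟨u, hu⟩ := (mem_PP p m).mp hu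
    refine ⟨k, hk, u, ?_⟩
    rw [hu, mul_comm, inv_mul_cancel_right]

theorem orderOf_eq_of_card {p : ℕ} (hp : p.Prime) {G : Type*} [Group G] (hG : Nat.card G = p)
    {s0 : G} (hs0 : s0 ≠ 1) : orderOf s0 = p := by
  have : Fact p.Prime := ⟨hp⟩
  have hfin : Finite G := Nat.finite_of_card_ne_zero (by rw [hG]; exact hp.ne_zero)
  have h1 : s0 ^ p = 1 := by rw [← hG]; exact pow_card_eq_one'
  exact orderOf_eq_prime h1 hs0

/-- **[S2]** `ker resL ⊓ Dt = N0`. -/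
theorem ker_resL_inf_Dt (hp : p.Prime) (hKL : Nat.card Gal(L/K) = p) (hs0 : s0 ≠ 1) :
    (resL m K L).ker ⊓ Dt p m K L s0 n0 = N0 p m K L := by
  apply le_antisymm
  · rintro γ ⟨h1, h2⟩
    rw [N0_eq_diagN0]
    rw [SetLike.mem_coe, Dt_eq_diagDt] at h2
    exact mem_diagN0_of_mem_diagDt_of_r_eq_one (orderOf_eq_of_card hp hKL hs0)
      (pow_mem_PP p m) h2 h1
  · exact le_inf inf_le_left (N0_le_Dt p m K L s0 n0)

/-- **[S2]** an element of `Dt` whose character is a `p`-th power lies in `N0`. -/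
theorem mem_N0_of_mem_Dt (hp : p.Prime) (hKL : Nat.card Gal(L/K) = p) (hs0 : s0 ≠ 1)
    (hm : m.Prime) (hn0 : ¬ ∃ x : (ZMod m)ˣ, x ^ p = n0) {γ : Gal(Om m L/K)}
    (hγ : γ ∈ Dt p m K L s0 n0) (hχ : ∃ u : (ZMod m)ˣ, u ^ p = chi m K L γ) :
    γ ∈ N0 p m K L := by
  rw [N0_eq_diagN0]
  rw [Dt_eq_diagDt] at hγ
  have hs : s0 ^ p = 1 := by
    rw [← orderOf_eq_of_card hp hKL hs0]; exact pow_orderOf_eq_one s0
  exact mem_diagN0_of_mem_diagDt_of_chi_mem hp hs (pow_mem_PP p m)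
    (fun h => hn0 ((mem_PP p m).mp h)) hγ ((mem_PP p m).mpr hχ)

/-- **[S2]** `[Dt : N0] = p`. -/
theorem relIndex_N0_Dt (hp : p.Prime) (hKL : Nat.card Gal(L/K) = p) (hs0 : s0 ≠ 1)
    (hsurj : Function.Surjective (fun γ : Gal(Om m L/K) => (resL m K L γ, chi m K L γ))) :
    (N0 p m K L).relIndex (Dt p m K L s0 n0) = p := by
  obtain ⟨φ0, hφ0⟩ := hsurj (s0, n0)
  have h0 : resL m K L φ0 = s0 := congrArg Prod.fst hφ0
  have h0' : chi m K L φ0 = n0 := congrArg Prod.snd hφ0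
  rw [N0_eq_diagN0, Dt_eq_diagDt]
  exact relIndex_diagN0_diagDt (orderOf_eq_of_card hp hKL hs0) (pow_mem_PP p m) h0
    (by rw [h0', mul_inv_cancel]; exact (PP p m).one_mem)

theorem index_PP (hm : m.Prime) (hm1 : p ∣ m - 1) : (PP p m).index = p := by
  have : Fact m.Prime := ⟨hm⟩
  rw [IsCyclic.index_powMonoidHom_range, Nat.card_eq_fintype_card, ZMod.card_units_eq_totient,
    Nat.totient_prime hm]
  exact Nat.gcd_eq_right hm1

/-- **[S2]** `[Γ : Dt] = p`. -/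
theorem index_Dt (hp : p.Prime) (hKL : Nat.card Gal(L/K) = p) (hs0 : s0 ≠ 1)
    (hm : m.Prime) (hm1 : p ∣ m - 1)
    (hsurj : Function.Surjective (fun γ : Gal(Om m L/K) => (resL m K L γ, chi m K L γ))) :
    (Dt p m K L s0 n0).index = p := by
  obtain ⟨φ0, hφ0⟩ := hsurj (s0, n0)
  have h0 : resL m K L φ0 = s0 := congrArg Prod.fst hφ0
  have h0' : chi m K L φ0 = n0 := congrArg Prod.snd hφ0
  rw [Dt_eq_diagDt]
  refine index_diagDt hp (orderOf_eq_of_card hp hKL hs0) (pow_mem_PP p m) h0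
    (by rw [h0', mul_inv_cancel]; exact (PP p m).one_mem) ?_ hKL (index_PP p m hm hm1)
  intro g u
  obtain ⟨γ, hγ⟩ := hsurj (g, u)
  exact ⟨γ, congrArg Prod.fst hγ, congrArg Prod.snd hγ⟩

/-- **[S2]** `[ker resL : N0] = p`. -/
theorem relIndex_N0_ker (hp : p.Prime) (hm : m.Prime) (hm1 : p ∣ m - 1)
    (hsurj : Function.Surjective (fun γ : Gal(Om m L/K) => (resL m K L γ, chi m K L γ))) :
    (N0 p m K L).relIndex (resL m K L).ker = p := by
  set f : (resL m K L).ker →* (ZMod m)ˣ := (chi m K L).comp (resL m K L).ker.subtype with hf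
  have hfs : Function.Surjective f := by
    intro u
    obtain ⟨γ, hγ⟩ := hsurj (1, u)
    have h1 : resL m K L γ = 1 := congrArg Prod.fst hγ
    have h2 : chi m K L γ = u := congrArg Prod.snd hγ
    exact ⟨⟨γ, h1⟩, h2⟩
  have heq : (N0 p m K L).subgroupOf (resL m K L).ker = (PP p m).comap f := by
    ext ⟨γ, hγ⟩
    rw [Subgroup.mem_subgroupOf, Subgroup.mem_comap, mem_N0]
    constructor
    · rintro ⟨_, hu⟩
      exact (mem_PP p m).mpr hu
    · intro hu
      exact ⟨hγ, (mem_PP p m).mp hu⟩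
  rw [Subgroup.relIndex, heq, Subgroup.index_comap_of_surjective _ hfs, index_PP p m hm hm1]

end Fermat.Agent.S14.H94
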