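import Mathlib
import Fermat.Agent.S14.H90_FieldsOfSubgroups
import Fermat.Agent.S14.H80_Inertia
import Fermat.Agent.S14.H94_CF2
import Fermat.Agent.S14.H78_SplitInst

/-!
# Existence of the crossing fields (S14, WP5-fields, final glue)

`H80.CrossFields p m K L s0 n0` exists: instantiate `H90.nonempty_crossFields_of_subgroups` at
`Ω := L(ζ_m)` (`H80.Om`), `N₀ := H80.N0`, `Dt := H80.Dt`, using the inertia computation
`H80_Inertia` (S1) and the group theory `H94_CF2` (S2).
-/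

set_option autoImplicit false
set_option linter.overlappingInstances false
set_option linter.style.haveILetI false
set_option linter.unusedSectionVars false

namespace Fermat.Agent.S14.H90

open NumberField
open scoped Pointwise IsMulCommutative

/-- **Existence of the crossing fields** (`#613` `nonempty_crossFields`). -/
theorem nonempty_crossFields {p m : ℕ} (hp : p.Prime) (hp2 : p ≠ 2) (hm : m.Prime) (hmp : m ≠ p)
    (hm1 : p ∣ m - 1) (K L : Type) [Field K] [NumberField K] [Field L] [NumberField L]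
    [Algebra K L] [IsCyclotomicExtension {p} ℚ K] [IsGalois K L] [IsMulCommutative Gal(L/K)]
    (hKL : Module.finrank K L = p) (hunr : IsUnramifiedEverywhere K L)
    (s0 : Gal(L/K)) (hs0 : s0 ≠ 1) (n0 : ZMod m) (hn0 : ¬ ∃ x : ZMod m, x ^ p = n0) :
    Nonempty (H80.CrossFields p m K L s0 n0) := by
  haveI : NeZero m := ⟨hm.ne_zero⟩
  haveI : Fact m.Prime := ⟨hm⟩
  have hn00 : n0 ≠ 0 := by
    rintro rfl
    exact hn0 ⟨0, zero_pow hp.ne_zero⟩
  set u0 : (ZMod m)ˣ := Units.mk0 n0 hn00 with hu0def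
  have hu0 : ¬ ∃ x : (ZMod m)ˣ, x ^ p = u0 := by
    rintro ⟨x, hx⟩
    refine hn0 ⟨(x : ZMod m), ?_⟩
    rw [← Units.val_pow_eq_pow_val, hx]
    rfl
  have hcard : Nat.card Gal(L/K) = p := by rw [IsGalois.card_aut_eq_finrank, hKL]
  have hunr' : ∀ Q : Ideal (𝓞 L), Q.IsPrime → Q ≠ ⊥ → Q.ramificationIdx (𝓞 K) = 1 := hunr
  have hsurj := H80.resL_chi_surjective p m K L hp hm hmp hunr'
  have hinf := H94.ker_resL_inf_Dt p m K L s0 u0 hp hcard hs0
  have hidx := H94.index_Dt p m K L s0 u0 hp hcard hs0 hm hm1 hsurj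
  refine nonempty_crossFields_of_subgroups (Ω := H80.Om m L) hp hp2 hm hmp hm1 hunr
    (H80.zetaOm_spec m L) s0 n0 (H80.N0 p m K L) (H80.Dt p m K L s0 u0)
    (H80.N0_le_Dt p m K L s0 u0) ?_ ?_ ?_ ?_ ?_ ?_ ?_
  · -- hNr
    exact inf_le_left
  · -- ha
    exact hinf.le
  · -- hb1
    exact H94.relIndex_N0_Dt p m K L s0 u0 hp hcard hs0 hsurj
  · -- hb2
    exact hidx
  · -- hc
    intro γ hγ a t hζ ht
    have hchi := H78.chi_eq_of_apply_zeta m K L γ a hζ
    have hunit : IsUnit ((t : ZMod m) ^ p) := by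
      rw [ht, ← hchi]
      exact Units.isUnit _
    have htu : IsUnit (t : ZMod m) := (isUnit_pow_iff hp.ne_zero).mp hunit
    refine H94.mem_N0_of_mem_Dt p m K L s0 u0 hp hcard hs0 hm hu0 hγ ⟨htu.unit, ?_⟩
    apply Units.ext
    rw [Units.val_pow_eq_pow_val, IsUnit.unit_spec, ht, hchi]
  · -- hd
    intro 𝔔 h𝔔 hm𝔔
    haveI := h𝔔
    rw [H80.inertia_eq_ker_resL_of_mem p m K L hp hm hmp hunr' 𝔔 hm𝔔]
    have h1 : (H80.Dt p m K L s0 u0).relIndex ((H80.resL m K L).ker ⊔ H80.Dt p m K L s0 u0) = p := by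
      rw [Subgroup.relIndex_sup_right, ← Subgroup.inf_relIndex_right, inf_comm, hinf]
      exact H94.relIndex_N0_ker p m K L hp hm hm1 hsurj
    have h2 := Subgroup.relIndex_mul_index
      (le_sup_right : H80.Dt p m K L s0 u0 ≤ (H80.resL m K L).ker ⊔ H80.Dt p m K L s0 u0)
    rw [h1, hidx] at h2
    have h3 : ((H80.resL m K L).ker ⊔ H80.Dt p m K L s0 u0).index = 1 := by
      have := Nat.eq_of_mul_eq_mul_left hp.pos (h2.trans (mul_one p).symm)
      exact this
    exact Subgroup.index_eq_one.mp h3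
  · -- he
    intro γ k a h1 h2 hx
    exact H78.mem_Dt_of p m K L s0 u0 hp.ne_zero γ k a h1 h2 hx

end Fermat.Agent.S14.H90
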