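import Mathlib
import Fermat.Agent.S14.Common
import Fermat.Agent.S14.H27_Split
import Fermat.Agent.S14.H18_Reciprocity

/-!
# Reciprocity for principal ideals, number field form (S14, WP5, blueprint #463 Step 5)

`K ⊆ L` number fields, `L/K` abelian of prime degree `p`, unramified everywhere.  Inputs:

* (A) the first inequality `normSubgroupNF K L ≠ ⊤`;
* `hbad`: the primes of `K` above `p` have trivial Artin symbol;
* (X) the crossing lemma `hcross`, in class group form.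

Output: the Artin symbol of every nonzero principal ideal of `K` is trivial
(`artin_span_singleton_eq_one`), and more precisely the kernel of the Artin map on ideal classes
is the norm subgroup (`cls_mem_normSubgroupNF_iff`).

Also: the dictionary `exists_normEquiv_iff` between the ideal-level relation "`𝔞` and `𝔟` agree
modulo principal ideals and norms" and membership of `cls 𝔞 * (cls 𝔟)⁻¹` in the norm subgroup.
-/

set_option autoImplicit false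

namespace Fermat.Agent.S14.H18

open NumberField Fermat.Agent.S14.H27
open scoped nonZeroDivisors IsMulCommutative

section ClassLemmas

variable {K L : Type*} [Field K] [NumberField K] [Field L] [NumberField L] [Algebra K L]

theorem cls_pow {R : Type*} [CommRing R] [IsDedekindDomain R] {𝔞 : Ideal R} (h : 𝔞 ≠ ⊥) (n : ℕ) :
    cls (𝔞 ^ n) = cls 𝔞 ^ n := by
  induction n with
  | zero => rw [pow_zero, pow_zero, Ideal.one_eq_top, cls_top]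
  | succ n ih => rw [pow_succ, pow_succ, cls_mul (pow_ne_zero n h) h, ih]

/-- The class of the relative norm of a nonzero ideal is a norm class. -/
theorem cls_relNorm_mem (𝔄 : Ideal (𝓞 L)) (h𝔄 : 𝔄 ≠ ⊥) :
    cls (Ideal.relNorm (𝓞 K) 𝔄) ∈ normSubgroupNF K L := by
  have h : Ideal.relNorm (𝓞 K) 𝔄 ≠ ⊥ := by rwa [Ne, Ideal.relNorm_eq_bot_iff]
  rw [cls_of_ne_bot h]
  exact mk0_relNorm_mem_normSubgroup (𝓞 K) (𝓞 L) ⟨𝔄, mem_nonZeroDivisors_iff_ne_zero.mpr h𝔄⟩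

/-- `[L : K]`-th powers of ideal classes are norm classes. -/
theorem pow_finrank_mem_normSubgroupNF (x : ClassGroup (𝓞 K)) :
    x ^ Module.finrank K L ∈ normSubgroupNF K L := by
  obtain ⟨𝔞, rfl⟩ := ClassGroup.mk0_surjective x
  have h𝔞 : (𝔞 : Ideal (𝓞 K)) ≠ ⊥ := mem_nonZeroDivisors_iff_ne_zero.mp 𝔞.2
  have hmap : (𝔞 : Ideal (𝓞 K)).map (algebraMap (𝓞 K) (𝓞 L)) ≠ ⊥ := by
    rw [Ne, Ideal.map_eq_bot_iff_of_injective (RingOfIntegers.algebraMap.injective K L)]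
    exact h𝔞
  have h1 := cls_relNorm_mem (K := K) _ hmap
  rwa [Ideal.relNorm_algebraMap (𝓞 L), cls_pow h𝔞, cls_coe,
    ← IsFractionRing.finrank_eq (𝓞 K) K (𝓞 L) L] at h1

/-- The ideal-level relation "`𝔞` and `𝔟` agree modulo principal ideals and norms from `L`"
(`NormEquiv K L 𝔞 𝔟` of the WP5 skeleton, unfolded) is membership of `cls 𝔞 * (cls 𝔟)⁻¹` in the
norm subgroup. -/
theorem exists_normEquiv_iff {𝔞 𝔟 : Ideal (𝓞 K)} (h𝔞 : 𝔞 ≠ ⊥) (h𝔟 : 𝔟 ≠ ⊥) :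
    (∃ (x y : 𝓞 K) (𝔄 𝔅 : Ideal (𝓞 L)), x ≠ 0 ∧ y ≠ 0 ∧ 𝔄 ≠ ⊥ ∧ 𝔅 ≠ ⊥ ∧
      Ideal.span {x} * 𝔞 * Ideal.relNorm (𝓞 K) 𝔄 = Ideal.span {y} * 𝔟 * Ideal.relNorm (𝓞 K) 𝔅) ↔
    cls 𝔞 * (cls 𝔟)⁻¹ ∈ normSubgroupNF K L := by
  constructor
  · rintro ⟨x, y, 𝔄, 𝔅, hx, hy, h𝔄, h𝔅, h⟩
    have hx' : Ideal.span {x} ≠ (⊥ : Ideal (𝓞 K)) := by rwa [Ne, Ideal.span_singleton_eq_bot]
    have hy' : Ideal.span {y} ≠ (⊥ : Ideal (𝓞 K)) := by rwa [Ne, Ideal.span_singleton_eq_bot]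
    have hN𝔄 : Ideal.relNorm (𝓞 K) 𝔄 ≠ ⊥ := by rwa [Ne, Ideal.relNorm_eq_bot_iff]
    have hN𝔅 : Ideal.relNorm (𝓞 K) 𝔅 ≠ ⊥ := by rwa [Ne, Ideal.relNorm_eq_bot_iff]
    have h2 := congrArg cls h
    rw [cls_mul (mul_ne_zero hx' h𝔞) hN𝔄, cls_mul hx' h𝔞, cls_mul (mul_ne_zero hy' h𝔟) hN𝔅,
      cls_mul hy' h𝔟, cls_span_singleton hx, cls_span_singleton hy, one_mul, one_mul] at h2
    have h3 : cls 𝔞 * (cls 𝔟)⁻¹ =
        cls (Ideal.relNorm (𝓞 K) 𝔅) * (cls (Ideal.relNorm (𝓞 K) 𝔄))⁻¹ := by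
      have h4 : cls 𝔞 = cls 𝔟 * cls (Ideal.relNorm (𝓞 K) 𝔅) *
          (cls (Ideal.relNorm (𝓞 K) 𝔄))⁻¹ := by
        rw [← h2, mul_inv_cancel_right]
      rw [h4, mul_inv_eq_iff_eq_mul, mul_assoc, mul_comm]
    rw [h3]
    exact (normSubgroupNF K L).mul_mem (cls_relNorm_mem 𝔅 h𝔅)
      ((normSubgroupNF K L).inv_mem (cls_relNorm_mem 𝔄 h𝔄))
  · intro hmem
    obtain ⟨ℭ, hℭ⟩ := (mem_normSubgroup_iff (𝓞 K) (𝓞 L)).mp hmem
    have hℭ0 : (ℭ : Ideal (𝓞 L)) ≠ ⊥ := mem_nonZeroDivisors_iff_ne_zero.mp ℭ.2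
    have hNℭ : Ideal.relNorm (𝓞 K) (ℭ : Ideal (𝓞 L)) ≠ ⊥ := by
      rwa [Ne, Ideal.relNorm_eq_bot_iff]
    have h1 : cls 𝔞 = cls (𝔟 * Ideal.relNorm (𝓞 K) (ℭ : Ideal (𝓞 L))) := by
      rw [cls_mul h𝔟 hNℭ, cls_of_ne_bot hNℭ]
      have : ClassGroup.mk0 ⟨Ideal.relNorm (𝓞 K) (ℭ : Ideal (𝓞 L)),
          mem_nonZeroDivisors_iff_ne_zero.mpr hNℭ⟩ = cls 𝔞 * (cls 𝔟)⁻¹ := hℭ
      rw [this, mul_comm (cls 𝔞), ← mul_assoc, mul_inv_cancel, one_mul]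
    rw [cls_of_ne_bot h𝔞, cls_of_ne_bot (mul_ne_zero h𝔟 hNℭ), ClassGroup.mk0_eq_mk0_iff] at h1
    obtain ⟨x, y, hx, hy, hxy⟩ := h1
    refine ⟨x, y, ⊤, ℭ, hx, hy, top_ne_bot, hℭ0, ?_⟩
    rw [Ideal.relNorm_top, Ideal.mul_top, mul_assoc]
    exact hxy

/-- (A) in ideal form gives (A) in subgroup form. -/
theorem normSubgroupNF_ne_top_of_exists
    (hA : ∃ 𝔞 : Ideal (𝓞 K), 𝔞 ≠ ⊥ ∧ ¬ ∃ (x y : 𝓞 K) (𝔄 𝔅 : Ideal (𝓞 L)), x ≠ 0 ∧ y ≠ 0 ∧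
      𝔄 ≠ ⊥ ∧ 𝔅 ≠ ⊥ ∧ Ideal.span {x} * 𝔞 * Ideal.relNorm (𝓞 K) 𝔄 =
        Ideal.span {y} * ⊤ * Ideal.relNorm (𝓞 K) 𝔅) :
    normSubgroupNF K L ≠ ⊤ := by
  obtain ⟨𝔞, h𝔞, hn⟩ := hA
  intro htop
  apply hn
  rw [exists_normEquiv_iff h𝔞 top_ne_bot, htop]
  exact Subgroup.mem_top _

end ClassLemmas

section Step5

variable {K L : Type*} [Field K] [NumberField K] [Field L] [NumberField L] [Algebra K L]
  [IsGalois K L] [IsMulCommutative Gal(L/K)]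

/-- A prime of `K` with trivial Artin symbol in the unramified extension `L/K` is a norm. -/
theorem cls_mem_of_artin_eq_one (hunr : IsUnramifiedEverywhere K L) (Q : Ideal (𝓞 K))
    (hQ : Q.IsPrime) (hQ0 : Q ≠ ⊥) (h1 : artin L Q = 1) : cls Q ∈ normSubgroupNF K L := by
  have := hQ
  obtain ⟨𝔓, -, h𝔓prime, h𝔓over⟩ :=
    Ideal.exists_ideal_over_prime_of_isIntegral Q (⊥ : Ideal (𝓞 L)) (by
      rw [Ideal.comap_bot_of_injective _ (RingOfIntegers.algebraMap.injective K L)]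
      exact bot_le)
  have := h𝔓prime
  have : 𝔓.LiesOver Q := ⟨h𝔓over.symm⟩
  have h𝔓0 : 𝔓 ≠ ⊥ := Ideal.ne_bot_of_liesOver_of_ne_bot hQ0 𝔓
  have hur : Algebra.IsUnramifiedAt (𝓞 K) 𝔓 :=
    (isUnramifiedAt_iff_ramificationIdx 𝔓).mpr (hunr 𝔓 h𝔓prime h𝔓0)
  rw [artin_prime Q hQ0] at h1
  rw [← relNorm_eq_of_frobP_eq_one Q hQ0 𝔓 hur h1]
  exact cls_relNorm_mem 𝔓 h𝔓0

variable (p : ℕ) [Fact p.Prime]

/-- **Reciprocity, class form** (blueprint #463 Step 5): for `L/K` cyclic of prime degree `p`,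
unramified everywhere, given (A), the triviality of the symbol at the primes above `p`, and the
crossing lemma (X), an ideal has trivial Artin symbol iff its class is a norm class. -/
theorem cls_mem_normSubgroupNF_iff (hdeg : Module.finrank K L = p)
    (hunr : IsUnramifiedEverywhere K L) (hA : normSubgroupNF K L ≠ ⊤)
    (hbad : ∀ Q : Ideal (𝓞 K), Q.IsPrime → Q ≠ ⊥ → (p : 𝓞 K) ∈ Q → artin L Q = 1)
    (hcross : ∀ q0 q1 : ℕ, q0.Prime → q1.Prime → q0 ≠ q1 → q0 ≠ p → q1 ≠ p →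
      ∀ Q0 Q1 : Ideal (𝓞 K), Q0.IsPrime → Q1.IsPrime → Q0 ≠ ⊥ → Q1 ≠ ⊥ →
      (q0 : 𝓞 K) ∈ Q0 → (q1 : 𝓞 K) ∈ Q1 → artin L Q0 ≠ 1 → artin L Q1 ≠ 1 →
      ∀ d : ℕ, artin L Q1 = artin L Q0 ^ d → cls Q1 * (cls Q0 ^ d)⁻¹ ∈ normSubgroupNF K L)
    (𝔞 : Ideal (𝓞 K)) (h𝔞 : 𝔞 ≠ ⊥) : cls 𝔞 ∈ normSubgroupNF K L ↔ artin L 𝔞 = 1 := by
  have hG : Nat.card Gal(L/K) = p := by rw [IsGalois.card_aut_eq_finrank, hdeg]
  refine cls_mem_iff_eq_one hG (artin L) (fun 𝔞 𝔟 ha hb => artin_mul ha hb)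
    (normSubgroupNF K L) hA (fun x => hdeg ▸ pow_finrank_mem_normSubgroupNF (L := L) x)
    exists_prime_mem_of_isPrime (· = p) ?_ (cls_mem_of_artin_eq_one hunr) hcross 𝔞 h𝔞
  rintro q rfl Q hQ hQ0 hqQ
  exact hbad Q hQ hQ0 hqQ

/-- **Reciprocity for principal ideals** (blueprint #463 Step 5, (R) of the WP5 skeleton). -/
theorem artin_span_singleton_eq_one (hdeg : Module.finrank K L = p)
    (hunr : IsUnramifiedEverywhere K L) (hA : normSubgroupNF K L ≠ ⊤)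
    (hbad : ∀ Q : Ideal (𝓞 K), Q.IsPrime → Q ≠ ⊥ → (p : 𝓞 K) ∈ Q → artin L Q = 1)
    (hcross : ∀ q0 q1 : ℕ, q0.Prime → q1.Prime → q0 ≠ q1 → q0 ≠ p → q1 ≠ p →
      ∀ Q0 Q1 : Ideal (𝓞 K), Q0.IsPrime → Q1.IsPrime → Q0 ≠ ⊥ → Q1 ≠ ⊥ →
      (q0 : 𝓞 K) ∈ Q0 → (q1 : 𝓞 K) ∈ Q1 → artin L Q0 ≠ 1 → artin L Q1 ≠ 1 →
      ∀ d : ℕ, artin L Q1 = artin L Q0 ^ d → cls Q1 * (cls Q0 ^ d)⁻¹ ∈ normSubgroupNF K L)
    (x : 𝓞 K) (hx : x ≠ 0) : artin L (Ideal.span {x}) = 1 := by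
  have h : Ideal.span {x} ≠ (⊥ : Ideal (𝓞 K)) := by rwa [Ne, Ideal.span_singleton_eq_bot]
  rw [← cls_mem_normSubgroupNF_iff p hdeg hunr hA hbad hcross _ h, cls_span_singleton hx]
  exact (normSubgroupNF K L).one_mem

end Step5

end Fermat.Agent.S14.H18
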