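import Mathlib
import Fermat.Agent.S14.H72_DegreeOne
import Fermat.Agent.S14.H72_SplitDensity

/-!
# S14 / WP5-kummer, slice (K3): the abstract union bound for the auxiliary prime

`exists_degOne_mem_diff`: in a number field `K`, let `U, V, W 1, …, W (p-1)` be sets of primes,
each of logarithmic density `1/p` (in the sense of `H72.primeTerm`).  Assume that, among the
degree-one primes outside a finite set `T`, every prime lies in `U ∪ V ∪ ⋃ W j`, and every prime of
`U ∩ V` lies in all the `W j`.  Then some degree-one prime outside `T` lies in `U \ V`.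
-/

set_option autoImplicit false

namespace Fermat.Agent.S14.H26

open NumberField Ideal IsDedekindDomain

section UnionBound

variable (K : Type*) [Field K] [NumberField K]

/-- The set `X` of primes of `K` has logarithmic density `δ`:
`∑_{P ∈ X} N(P)^(-s) = δ log (1/(s-1)) + O(1)` on `(1, 2]`. -/
def HasLogDensity (X : Set (HeightOneSpectrum (𝓞 K))) (δ : ℝ) : Prop :=
  ∃ C : ℝ, ∀ s ∈ Set.Ioc (1 : ℝ) 2,
    |∑' P : X, H72.primeTerm K s P - δ * Real.log (1 / (s - 1))| ≤ C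

/-- Completely split primes of a Galois extension `F/K` have logarithmic density `1/[F:K]`. -/
theorem hasLogDensity_splitSet (F : Type*) [Field F] [NumberField F] [Algebra K F]
    [IsGalois K F] : HasLogDensity K (H72.splitSet K F) (1 / (Module.finrank K F : ℝ)) :=
  H72.exists_bound_splitSum K F

lemma primeTerm_le_one {s : ℝ} (hs : 0 ≤ s) (P : HeightOneSpectrum (𝓞 K)) :
    H72.primeTerm K s P ≤ 1 := by
  unfold H72.primeTerm
  apply Real.rpow_le_one_of_one_le_of_nonpos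
  · have h0 : absNorm P.asIdeal ≠ 0 := by
      rw [Ne, Ideal.absNorm_eq_zero_iff]
      exact P.ne_bot
    exact_mod_cast Nat.one_le_iff_ne_zero.mpr h0
  · linarith

/-- **Union bound** (K3). -/
theorem exists_degOne_mem_diff {p : ℕ} (hp : 2 ≤ p)
    (U V : Set (HeightOneSpectrum (𝓞 K))) (W : ℕ → Set (HeightOneSpectrum (𝓞 K)))
    (T : Set (HeightOneSpectrum (𝓞 K))) (hT : T.Finite)
    (hU : HasLogDensity K U (1 / (p : ℝ))) (hV : HasLogDensity K V (1 / (p : ℝ)))
    (hW : ∀ j, 1 ≤ j → j < p → HasLogDensity K (W j) (1 / (p : ℝ)))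
    (hcover : ∀ P ∈ H72.degOneSet K, P ∉ T →
      P ∈ U ∨ P ∈ V ∨ ∃ j, 1 ≤ j ∧ j < p ∧ P ∈ W j)
    (hinter : ∀ P ∈ H72.degOneSet K, P ∉ T → P ∈ U → P ∈ V →
      ∀ j, 1 ≤ j → j < p → P ∈ W j) :
    ∃ P ∈ H72.degOneSet K, P ∉ T ∧ P ∈ U ∧ P ∉ V := by
  classical
  by_contra hcon
  push Not at hcon
  obtain ⟨CU, hCU⟩ := hU
  obtain ⟨CV, hCV⟩ := hV
  have hW' : ∀ j, ∃ C : ℝ, 1 ≤ j → j < p → ∀ s ∈ Set.Ioc (1 : ℝ) 2,
      |∑' P : W j, H72.primeTerm K s P - 1 / (p : ℝ) * Real.log (1 / (s - 1))| ≤ C := by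
    intro j
    by_cases hj : 1 ≤ j ∧ j < p
    · obtain ⟨C, hC⟩ := hW j hj.1 hj.2
      exact ⟨C, fun _ _ => hC⟩
    · exact ⟨0, fun h1 h2 => absurd ⟨h1, h2⟩ hj⟩
  choose CW hCW using hW'
  obtain ⟨CD, hCD⟩ := H72.exists_bound_degOneSum K
  set D := H72.degOneSet K with hD
  set G : Set (HeightOneSpectrum (𝓞 K)) := D \ T with hG
  set C2 : ℝ := (Module.finrank ℚ K : ℝ) * H72.zetaTwoConst with hC2
  set nT : ℝ := (hT.toFinset.card : ℝ) with hnT
  have hp0 : (0 : ℝ) < p := by exact_mod_cast (by omega : 0 < p)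
  have hp1 : (1 : ℝ) ≤ (p : ℝ) - 1 := by
    have : (2 : ℝ) ≤ p := by exact_mod_cast hp
    linarith
  -- the key inequality
  have key : ∀ s ∈ Set.Ioc (1 : ℝ) 2, ((p : ℝ) - 1) / p * Real.log (1 / (s - 1)) ≤
      CD + nT + ((p : ℝ) - 1) * (CU + C2 + nT) + CV + ∑ j ∈ Finset.Ico 1 p, CW j := by
    intro s hs
    have hsum := H72.summable_primeTerm K hs.1
    set t := H72.primeTerm K s with ht
    have ht0 : ∀ P, 0 ≤ t P := fun P => (H72.primeTerm_pos K s P).le
    have ht1 : ∀ P, t P ≤ 1 := fun P => primeTerm_le_one K (by linarith [hs.1]) P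
    have hsub : ∀ X : Set (HeightOneSpectrum (𝓞 K)), ∑' P : X, t P = ∑' P, X.indicator t P :=
      fun X => tsum_subtype X t
    have hSi : ∀ X : Set (HeightOneSpectrum (𝓞 K)), Summable (X.indicator t) :=
      fun X => hsum.indicator X
    have hi0 : ∀ (X : Set (HeightOneSpectrum (𝓞 K))) P, 0 ≤ X.indicator t P :=
      fun X P => Set.indicator_nonneg (fun Q _ => ht0 Q) P
    -- pointwise inequality 1
    have pw1 : ∀ P, G.indicator t P + ((p : ℝ) - 1) * (U ∩ G).indicator t P ≤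
        V.indicator t P + ∑ j ∈ Finset.Ico 1 p, (W j).indicator t P := by
      intro P
      have hsumnn : 0 ≤ ∑ j ∈ Finset.Ico 1 p, (W j).indicator t P :=
        Finset.sum_nonneg fun j _ => hi0 _ P
      by_cases hPG : P ∈ G
      · have hPD : P ∈ D := hPG.1
        have hPT : P ∉ T := hPG.2
        by_cases hPU : P ∈ U
        · have hPV : P ∈ V := hcon P hPD hPT hPU
          have hall : ∀ j ∈ Finset.Ico 1 p, (W j).indicator t P = t P := by
            intro j hj
            rw [Finset.mem_Ico] at hj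
            exact Set.indicator_of_mem (hinter P hPD hPT hPU hPV j hj.1 hj.2) t
          rw [Finset.sum_congr rfl hall, Set.indicator_of_mem hPG,
            Set.indicator_of_mem (Set.mem_inter hPU hPG), Set.indicator_of_mem hPV]
          simp only [Finset.sum_const, Nat.card_Ico, nsmul_eq_mul]
          rw [Nat.cast_sub (by omega)]
          push_cast
          linarith
        · have hPUG : P ∉ U ∩ G := fun h => hPU h.1
          rw [Set.indicator_of_mem hPG, Set.indicator_of_notMem hPUG, mul_zero, add_zero]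
          rcases hcover P hPD hPT with h | h | ⟨j, hj1, hjp, hj⟩
          · exact absurd h hPU
          · rw [Set.indicator_of_mem h]
            linarith
          · have h1 : (W j).indicator t P ≤ ∑ j ∈ Finset.Ico 1 p, (W j).indicator t P :=
              Finset.single_le_sum (f := fun j => (W j).indicator t P)
                (fun i _ => hi0 _ P) (Finset.mem_Ico.mpr ⟨hj1, hjp⟩)
            rw [Set.indicator_of_mem hj] at h1
            linarith [hi0 V P]
      · have hPUG : P ∉ U ∩ G := fun h => hPG h.2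
        rw [Set.indicator_of_notMem hPG, Set.indicator_of_notMem hPUG]
        linarith [hi0 V P]
    -- pointwise inequality 2 : D ≤ G + T
    have pw2 : ∀ P, D.indicator t P ≤ G.indicator t P + T.indicator t P := by
      intro P
      by_cases hPD : P ∈ D
      · by_cases hPT : P ∈ T
        · rw [Set.indicator_of_mem hPT]
          have hle : D.indicator t P ≤ t P := by
            rw [Set.indicator_of_mem hPD]
          linarith [hi0 G P]
        · rw [Set.indicator_of_mem hPD, Set.indicator_of_mem (Set.mem_sdiff_of_mem hPD hPT : P ∈ G)]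
          linarith [hi0 T P]
      · rw [Set.indicator_of_notMem hPD]
        linarith [hi0 G P, hi0 T P]
    -- pointwise inequality 3 : U ≤ (U ∩ G) + Dᶜ + T
    have pw3 : ∀ P, U.indicator t P ≤
        (U ∩ G).indicator t P + Dᶜ.indicator t P + T.indicator t P := by
      intro P
      by_cases hPU : P ∈ U
      · by_cases hPD : P ∈ D
        · by_cases hPT : P ∈ T
          · rw [Set.indicator_of_mem hPU, Set.indicator_of_mem hPT]
            linarith [hi0 (U ∩ G) P, hi0 Dᶜ P]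
          · rw [Set.indicator_of_mem hPU,
              Set.indicator_of_mem (Set.mem_inter hPU (Set.mem_sdiff_of_mem hPD hPT : P ∈ G))]
            linarith [hi0 T P, hi0 Dᶜ P]
        · rw [Set.indicator_of_mem hPU, Set.indicator_of_mem (Set.mem_compl hPD)]
          linarith [hi0 (U ∩ G) P, hi0 T P]
      · rw [Set.indicator_of_notMem hPU]
        linarith [hi0 (U ∩ G) P, hi0 T P, hi0 Dᶜ P]
    -- sum over T
    have hTsum : ∑' P, T.indicator t P ≤ nT := by
      have h1 : ∑' P, T.indicator t P = ∑ P ∈ hT.toFinset, T.indicator t P :=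
        tsum_eq_sum (s := hT.toFinset)
          (fun P hP => Set.indicator_of_notMem (by simpa using hP) t)
      rw [h1, hnT]
      calc ∑ P ∈ hT.toFinset, T.indicator t P ≤ ∑ _P ∈ hT.toFinset, (1 : ℝ) :=
            Finset.sum_le_sum fun P _ =>
              (Set.indicator_le_self' (fun _ _ => ht0 P) P).trans (ht1 P)
        _ = (hT.toFinset.card : ℝ) := by simp
    -- summed inequalities
    have s1 : ∑' P, G.indicator t P + ((p : ℝ) - 1) * ∑' P, (U ∩ G).indicator t P ≤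
        ∑' P, V.indicator t P + ∑ j ∈ Finset.Ico 1 p, ∑' P, (W j).indicator t P := by
      rw [← tsum_mul_left, ← (hSi G).tsum_add ((hSi (U ∩ G)).mul_left _),
        ← Summable.tsum_finsetSum (fun j _ => hSi (W j)),
        ← (hSi V).tsum_add (summable_sum fun j _ => hSi (W j))]
      exact Summable.tsum_le_tsum pw1 ((hSi G).add ((hSi (U ∩ G)).mul_left _))
        ((hSi V).add (summable_sum fun j _ => hSi (W j)))
    have s2 : ∑' P, D.indicator t P ≤ ∑' P, G.indicator t P + ∑' P, T.indicator t P := by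
      rw [← (hSi G).tsum_add (hSi T)]
      exact Summable.tsum_le_tsum pw2 (hSi D) ((hSi G).add (hSi T))
    have s3 : ∑' P, U.indicator t P ≤
        ∑' P, (U ∩ G).indicator t P + ∑' P, Dᶜ.indicator t P + ∑' P, T.indicator t P := by
      rw [← (hSi (U ∩ G)).tsum_add (hSi Dᶜ), ← ((hSi (U ∩ G)).add (hSi Dᶜ)).tsum_add (hSi T)]
      exact Summable.tsum_le_tsum pw3 (hSi U) (((hSi (U ∩ G)).add (hSi Dᶜ)).add (hSi T))
    -- the analytic inputs
    have aD := abs_le.mp (hCD s hs)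
    have aU := abs_le.mp (hCU s hs)
    have aV := abs_le.mp (hCV s hs)
    have aDc := H72.tsum_compl_degOneSet_le K hs.1
    have aW : ∑ j ∈ Finset.Ico 1 p, ∑' P, (W j).indicator t P ≤
        ∑ j ∈ Finset.Ico 1 p, (1 / (p : ℝ) * Real.log (1 / (s - 1)) + CW j) := by
      apply Finset.sum_le_sum
      intro j hj
      rw [Finset.mem_Ico] at hj
      have := abs_le.mp (hCW j hj.1 hj.2 s hs)
      rw [← hsub (W j)]
      linarith [this.2]
    rw [Finset.sum_add_distrib, Finset.sum_const, Nat.card_Ico, nsmul_eq_mul,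
      Nat.cast_sub (by omega)] at aW
    push_cast at aW
    unfold H72.degOneSum at aD
    rw [hsub] at aD aU aV aDc
    set L := Real.log (1 / (s - 1)) with hL
    set σG := ∑' P, G.indicator t P
    set σUG := ∑' P, (U ∩ G).indicator t P
    set σV := ∑' P, V.indicator t P
    set σU := ∑' P, U.indicator t P
    set σD := ∑' P, D.indicator t P
    set σDc := ∑' P, Dᶜ.indicator t P
    set σT := ∑' P, T.indicator t P
    set σW := ∑ j ∈ Finset.Ico 1 p, ∑' P, (W j).indicator t P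
    set cW := ∑ j ∈ Finset.Ico 1 p, CW j
    -- (p-1) * (σU - σDc - σT) ≤ (p-1) σUG
    have h4 : ((p : ℝ) - 1) * (σU - σDc - σT) ≤ ((p : ℝ) - 1) * σUG :=
      mul_le_mul_of_nonneg_left (by linarith) (by linarith)
    have h5 : ((p : ℝ) - 1) * (1 / (p : ℝ) * L - CU - C2 - nT) ≤
        ((p : ℝ) - 1) * (σU - σDc - σT) :=
      mul_le_mul_of_nonneg_left (by linarith [aU.1]) (by linarith)
    have e1 : ((p : ℝ) - 1) / p * L = L + ((p : ℝ) - 1) * (1 / (p : ℝ) * L)
        - (1 / (p : ℝ) * L + ((p : ℝ) - 1) * (1 / (p : ℝ) * L)) := by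
      field_simp
      ring
    have e2 : 1 / (p : ℝ) * L + ((p : ℝ) - 1) * (1 / (p : ℝ) * L) = L := by
      field_simp
      ring
    nlinarith [aD.1, aV.2, s1, s2, h4, h5, aW, hTsum]
  -- contradiction as `s → 1⁺`
  set B : ℝ := CD + nT + ((p : ℝ) - 1) * (CU + C2 + nT) + CV + ∑ j ∈ Finset.Ico 1 p, CW j
    with hB
  set M : ℝ := max 0 (B * p / ((p : ℝ) - 1) + 1) with hM
  have hM0 : 0 ≤ M := le_max_left _ _
  have hs : (1 + Real.exp (-M)) ∈ Set.Ioc (1 : ℝ) 2 := by
    constructor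
    · linarith [Real.exp_pos (-M)]
    · have : Real.exp (-M) ≤ 1 := Real.exp_le_one_iff.mpr (by linarith)
      linarith
  have h := key _ hs
  have hlog : Real.log (1 / (1 + Real.exp (-M) - 1)) = M := by
    rw [add_sub_cancel_left, one_div, ← Real.exp_neg, neg_neg, Real.log_exp]
  rw [hlog] at h
  have hM1 : B * p / ((p : ℝ) - 1) + 1 ≤ M := le_max_right _ _
  have hpm : (0 : ℝ) < (p : ℝ) - 1 := by linarith
  have h2 : B * p / ((p : ℝ) - 1) < M := by linarith
  rw [div_lt_iff₀ hpm] at h2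
  have h3 : ((p : ℝ) - 1) / p * M * p = ((p : ℝ) - 1) * M := by
    field_simp
  have h4 : ((p : ℝ) - 1) / p * M * p ≤ B * p := mul_le_mul_of_nonneg_right h hp0.le
  rw [h3] at h4
  linarith

end UnionBound

section ZModTransfer

variable {K : Type*} [Field K] [NumberField K]

/-- A prime of absolute norm a rational prime `m` has residue ring `ZMod m`. -/
theorem nonempty_quotient_ringEquiv_zmod {P : Ideal (𝓞 K)} {m : ℕ} (hm : m.Prime)
    (hP : absNorm P = m) : Nonempty (ZMod m ≃+* 𝓞 K ⧸ P) := by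
  have hcard : Nat.card (𝓞 K ⧸ P) = m := by
    rw [← hP, Ideal.absNorm_apply, Submodule.cardQuot_apply]
  have hfin : Finite (𝓞 K ⧸ P) := Nat.finite_of_card_ne_zero (by rw [hcard]; exact hm.ne_zero)
  have := Fintype.ofFinite (𝓞 K ⧸ P)
  exact ⟨ZMod.ringEquivOfPrime (𝓞 K ⧸ P) hm (by rw [← Nat.card_eq_fintype_card, hcard])⟩

/-- Transfer of `p`-th power residuosity of a natural number between `𝓞 K ⧸ P` and `ZMod m`. -/
theorem exists_pow_eq_natCast_quotient_iff {P : Ideal (𝓞 K)} {m : ℕ} (hm : m.Prime)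
    (hP : absNorm P = m) (p w : ℕ) :
    (∃ x : 𝓞 K ⧸ P, x ^ p = (w : 𝓞 K ⧸ P)) ↔ ∃ x : ZMod m, x ^ p = (w : ZMod m) := by
  obtain ⟨e⟩ := nonempty_quotient_ringEquiv_zmod hm hP
  constructor
  · rintro ⟨x, hx⟩
    refine ⟨e.symm x, ?_⟩
    rw [← map_pow, hx, map_natCast]
  · rintro ⟨x, hx⟩
    refine ⟨e x, ?_⟩
    rw [← map_pow, hx, map_natCast]

/-- Element form: `w` is a `p`-th power modulo `P` iff it is a `p`-th power in `ZMod m`. -/
theorem exists_pow_sub_natCast_mem_iff {P : Ideal (𝓞 K)} {m : ℕ} (hm : m.Prime)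
    (hP : absNorm P = m) (p w : ℕ) :
    (∃ x : 𝓞 K, x ^ p - (w : 𝓞 K) ∈ P) ↔ ∃ x : ZMod m, x ^ p = (w : ZMod m) := by
  rw [← exists_pow_eq_natCast_quotient_iff hm hP]
  constructor
  · rintro ⟨x, hx⟩
    refine ⟨Ideal.Quotient.mk P x, ?_⟩
    rw [← map_pow, ← map_natCast (Ideal.Quotient.mk P), ← sub_eq_zero, ← map_sub,
      Ideal.Quotient.eq_zero_iff_mem]
    exact hx
  · rintro ⟨x, hx⟩
    obtain ⟨y, rfl⟩ := Ideal.Quotient.mk_surjective x
    refine ⟨y, ?_⟩
    rw [← Ideal.Quotient.eq_zero_iff_mem, map_sub, map_pow, map_natCast, hx, sub_self]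

/-- A primitive `p`-th root of unity is not `≡ 1` modulo a prime not containing `p`. -/
theorem primitiveRoot_sub_one_not_mem {R : Type*} [CommRing R] [IsDomain R] {p : ℕ} (hp : 1 < p) {ζ : R}
    (hζ : IsPrimitiveRoot ζ p) {P : Ideal R} (hpP : (p : R) ∉ P) : ζ - 1 ∉ P := by
  intro h
  apply hpP
  have h0 : ∑ i ∈ Finset.range p, ζ ^ i = 0 := hζ.geom_sum_eq_zero hp
  have h1 : Ideal.Quotient.mk P ζ = 1 := by
    rw [← sub_eq_zero, ← map_one (Ideal.Quotient.mk P), ← map_sub, Ideal.Quotient.eq_zero_iff_mem]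
    exact h
  have h2 := congrArg (Ideal.Quotient.mk P) h0
  rw [map_sum, map_zero] at h2
  simp only [map_pow, h1, one_pow, Finset.sum_const, Finset.card_range, nsmul_eq_mul,
    mul_one] at h2
  rw [← map_natCast (Ideal.Quotient.mk P), Ideal.Quotient.eq_zero_iff_mem] at h2
  exact h2

/-- If `𝓞 K` contains a primitive `p`-th root of unity and `P` is a prime of absolute norm a
rational prime `m ≠ p`, then `m ≡ 1 mod p`. -/
theorem mod_eq_one_of_absNorm_prime {p : ℕ} (hp : p.Prime) {ζ : 𝓞 K} (hζ : IsPrimitiveRoot ζ p)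
    {P : Ideal (𝓞 K)} {m : ℕ} (hm : m.Prime) (hP : absNorm P = m) (hmp : m ≠ p) :
    m % p = 1 := by
  obtain ⟨e⟩ := nonempty_quotient_ringEquiv_zmod hm hP
  have : Fact m.Prime := ⟨hm⟩
  have hPtop : P ≠ ⊤ := by
    intro h
    rw [h, Ideal.absNorm_top] at hP
    exact hm.one_lt.ne hP
  have hmP : (m : 𝓞 K) ∈ P := by
    rw [← hP]
    exact Ideal.absNorm_mem P
  have hpP : (p : 𝓞 K) ∉ P := by
    intro hpP
    have hco : IsCoprime (m : ℤ) (p : ℤ) :=
      Nat.isCoprime_iff_coprime.mpr ((Nat.coprime_primes hm hp).mpr hmp)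
    obtain ⟨u, v, huv⟩ := hco
    have h1 : (u : 𝓞 K) * (m : 𝓞 K) + (v : 𝓞 K) * (p : 𝓞 K) = 1 := by
      have := congrArg (Int.cast : ℤ → 𝓞 K) huv
      push_cast at this
      exact this
    have : (1 : 𝓞 K) ∈ P := by
      rw [← h1]
      exact P.add_mem (P.mul_mem_left _ hmP) (P.mul_mem_left _ hpP)
    exact hPtop ((Ideal.eq_top_iff_one P).mpr this)
  have hne : ζ - 1 ∉ P := primitiveRoot_sub_one_not_mem hp.one_lt hζ hpP
  -- the image of ζ in ZMod m
  set z : ZMod m := e.symm (Ideal.Quotient.mk P ζ) with hz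
  have hzp : z ^ p = 1 := by
    rw [hz, ← map_pow, ← map_pow, hζ.pow_eq_one, map_one, map_one]
  have hz1 : z ≠ 1 := by
    intro h
    apply hne
    rw [hz, ← map_one e.symm, e.symm.injective.eq_iff, ← map_one (Ideal.Quotient.mk P),
      ← sub_eq_zero, ← map_sub, Ideal.Quotient.eq_zero_iff_mem] at h
    exact h
  have hz0 : z ≠ 0 := by
    intro h
    rw [h, zero_pow hp.ne_zero] at hzp
    exact zero_ne_one hzp
  have hzm : z ^ (m - 1) = 1 := ZMod.pow_card_sub_one_eq_one hz0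
  have hord : orderOf z = p := by
    have hdvd : orderOf z ∣ p := orderOf_dvd_of_pow_eq_one hzp
    rcases (Nat.dvd_prime hp).mp hdvd with h | h
    · exact absurd (orderOf_eq_one_iff.mp h) hz1
    · exact h
  have hdvd : p ∣ m - 1 := by
    rw [← hord]
    exact orderOf_dvd_of_pow_eq_one hzm
  obtain ⟨k, hk⟩ := hdvd
  have hm1 : 1 ≤ m := hm.one_lt.le
  have : m = p * k + 1 := by omega
  rw [this, Nat.mul_add_mod, Nat.mod_eq_of_lt hp.one_lt]


/-- Variant of `exists_pow_eq_natCast_quotient_iff` with the class of `(w : 𝓞 K)`. -/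
theorem exists_pow_eq_mk_natCast_iff {P : Ideal (𝓞 K)} {m : ℕ} (hm : m.Prime)
    (hP : absNorm P = m) (p w : ℕ) :
    (∃ x : 𝓞 K ⧸ P, x ^ p = Ideal.Quotient.mk P (w : 𝓞 K)) ↔
      ∃ x : ZMod m, x ^ p = (w : ZMod m) := by
  rw [map_natCast]
  exact exists_pow_eq_natCast_quotient_iff hm hP p w

/-- A prime of absolute norm the rational prime `m` does not contain a rational prime `q ≠ m`. -/
theorem natCast_not_mem_of_absNorm_prime {P : Ideal (𝓞 K)} {m : ℕ} (hm : m.Prime)
    (hP : absNorm P = m) {q : ℕ} (hq : q.Prime) (hmq : m ≠ q) : (q : 𝓞 K) ∉ P := by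
  have hPtop : P ≠ ⊤ := by
    intro h
    rw [h, Ideal.absNorm_top] at hP
    exact hm.one_lt.ne hP
  have hmP : (m : 𝓞 K) ∈ P := by
    rw [← hP]
    exact Ideal.absNorm_mem P
  intro hqP
  have hco : IsCoprime (m : ℤ) (q : ℤ) :=
    Nat.isCoprime_iff_coprime.mpr ((Nat.coprime_primes hm hq).mpr hmq)
  obtain ⟨u, v, huv⟩ := hco
  have h1 : (u : 𝓞 K) * (m : 𝓞 K) + (v : 𝓞 K) * (q : 𝓞 K) = 1 := by
    have := congrArg (Int.cast : ℤ → 𝓞 K) huv
    push_cast at this
    exact this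
  have : (1 : 𝓞 K) ∈ P := by
    rw [← h1]
    exact P.add_mem (P.mul_mem_left _ hmP) (P.mul_mem_left _ hqP)
  exact hPtop ((Ideal.eq_top_iff_one P).mpr this)

end ZModTransfer

section K0

/-- (K0) A natural number `w` with `p ∤ v_q(w)` for some prime `q` is not a `p`-th power in a
number field of degree `p - 1` over `ℚ` (norm argument). -/
theorem not_exists_pow_eq_natCast_of_finrank {p : ℕ} (hp : p.Prime) (K : Type*) [Field K]
    [NumberField K] (hfin : Module.finrank ℚ K = p - 1) {w q : ℕ} (hq : q.Prime)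
    (hw : ¬ p ∣ padicValNat q w) : ¬ ∃ x : K, x ^ p = (w : K) := by
  rintro ⟨x, hx⟩
  have : Fact q.Prime := ⟨hq⟩
  have hw0 : w ≠ 0 := by
    rintro rfl
    exact hw (by simp)
  set r : ℚ := Algebra.norm ℚ x with hr
  have hrp : r ^ p = (w : ℚ) ^ (p - 1) := by
    rw [hr, ← map_pow, hx, ← hfin]
    have : (w : K) = algebraMap ℚ K (w : ℚ) := by simp
    rw [this, Algebra.norm_algebraMap]
  have hval := congrArg (padicValRat q) hrp
  rw [padicValRat.pow, padicValRat.pow, padicValRat.of_nat] at hval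
  have hdvd : (p : ℤ) ∣ ((p - 1 : ℕ) : ℤ) * (padicValNat q w : ℤ) := ⟨_, hval.symm⟩
  rw [← Nat.cast_mul, Int.natCast_dvd_natCast] at hdvd
  have hcop : Nat.Coprime p (p - 1) := by
    have h1 : 1 ≤ p := hp.one_lt.le
    have := Nat.coprime_self_sub_right h1 (n := p)
    simpa using this
  exact hw (hcop.dvd_of_dvd_mul_left hdvd)

/-- (K0), `∀ b, b ^ p ≠ w` form. -/
theorem pow_ne_natCast_of_finrank {p : ℕ} (hp : p.Prime) (K : Type*) [Field K]
    [NumberField K] (hfin : Module.finrank ℚ K = p - 1) {w q : ℕ} (hq : q.Prime)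
    (hw : ¬ p ∣ padicValNat q w) (b : K) : b ^ p ≠ (w : K) :=
  fun h => not_exists_pow_eq_natCast_of_finrank hp K hfin hq hw ⟨b, h⟩

/-- (K0) for `K = ℚ(ζ_p)`. -/
theorem not_exists_pow_eq_natCast {p : ℕ} [hp : Fact p.Prime] (K : Type*) [Field K]
    [NumberField K] [IsCyclotomicExtension {p} ℚ K] {w q : ℕ} (hq : q.Prime)
    (hw : ¬ p ∣ padicValNat q w) : ¬ ∃ x : K, x ^ p = (w : K) := by
  have hfin : Module.finrank ℚ K = p - 1 := by
    have : NeZero p := ⟨hp.out.ne_zero⟩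
    rw [IsCyclotomicExtension.finrank (n := p) K
      (Polynomial.cyclotomic.irreducible_rat hp.out.pos), Nat.totient_prime hp.out]
  exact not_exists_pow_eq_natCast_of_finrank hp.out K hfin hq hw

end K0

section ZModCover

/-- For `p ∣ m - 1`, the `p`-th powers have index `p` in `(ZMod m)ˣ`: if `v` is not a `p`-th
power then some `u * v ^ j`, `j < p`, is. -/
theorem zmod_pow_cover {m p : ℕ} [hm : Fact m.Prime] [hp : Fact p.Prime] (hpm : p ∣ m - 1)
    {u v : ZMod m} (hu : u ≠ 0) (hv : v ≠ 0) :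
    (∃ x : ZMod m, x ^ p = v) ∨ ∃ j, j < p ∧ ∃ x : ZMod m, x ^ p = u * v ^ j := by
  classical
  let H : Subgroup (ZMod m)ˣ := (powMonoidHom p : (ZMod m)ˣ →* (ZMod m)ˣ).range
  have hcardG : Nat.card (ZMod m)ˣ = m - 1 := by
    rw [Nat.card_eq_fintype_card, ZMod.card_units_eq_totient, Nat.totient_prime hm.out]
  have hidx : H.index = p := by
    rw [IsCyclic.index_powMonoidHom_range, hcardG]
    exact Nat.gcd_eq_right hpm
  have hcardQ : Nat.card ((ZMod m)ˣ ⧸ H) = p := hidx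
  set U : (ZMod m)ˣ := Units.mk0 u hu with hU
  set V : (ZMod m)ˣ := Units.mk0 v hv with hV
  have hmemH : ∀ g : (ZMod m)ˣ, (QuotientGroup.mk g : (ZMod m)ˣ ⧸ H) = 1 →
      ∃ x : ZMod m, x ^ p = (g : ZMod m) := by
    intro g hg
    rw [QuotientGroup.eq_one_iff] at hg
    obtain ⟨y, hy⟩ := hg
    refine ⟨(y : ZMod m), ?_⟩
    have := congrArg Units.val hy
    simpa using this
  by_cases hV1 : (QuotientGroup.mk V : (ZMod m)ˣ ⧸ H) = 1
  · left
    exact hmemH V hV1
  · right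
    have hmem : ((QuotientGroup.mk U : (ZMod m)ˣ ⧸ H))⁻¹ ∈
        Submonoid.powers (QuotientGroup.mk V : (ZMod m)ˣ ⧸ H) :=
      mem_powers_of_prime_card hcardQ hV1
    obtain ⟨k, hk⟩ := hmem
    simp only at hk
    have hVp : (QuotientGroup.mk V : (ZMod m)ˣ ⧸ H) ^ p = 1 := by
      rw [← hcardQ]
      exact pow_card_eq_one'
    have hk' : (QuotientGroup.mk V : (ZMod m)ˣ ⧸ H) ^ (k % p) =
        ((QuotientGroup.mk U : (ZMod m)ˣ ⧸ H))⁻¹ := by
      rw [← hk]
      conv_rhs => rw [← Nat.mod_add_div k p, pow_add, pow_mul, hVp, one_pow, mul_one]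
    refine ⟨k % p, Nat.mod_lt _ hp.out.pos, ?_⟩
    have h1 : (QuotientGroup.mk (U * V ^ (k % p)) : (ZMod m)ˣ ⧸ H) = 1 := by
      rw [QuotientGroup.mk_mul, QuotientGroup.mk_pow, hk', mul_inv_cancel]
    obtain ⟨x, hx⟩ := hmemH _ h1
    exact ⟨x, by rw [hx]; simp [hU, hV]⟩

end ZModCover

section Assembly

/-- The Kummer input (K1)+(K2) of the auxiliary-prime lemma, as a property of `p` and `K`:
for every natural number `w` that is not a `p`-th power in `K` there is a set of primes of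
logarithmic density `1/p` which, on degree-one primes not dividing `p w`, is exactly the set of
primes modulo which `w` is a `p`-th power. -/
def KummerDensity (p : ℕ) (K : Type*) [Field K] [NumberField K] : Prop :=
  ∀ w : ℕ, (¬ ∃ x : K, x ^ p = (w : K)) →
    ∃ S : Set (HeightOneSpectrum (𝓞 K)), HasLogDensity K S (1 / (p : ℝ)) ∧
      ∀ P ∈ H72.degOneSet K, (p : 𝓞 K) ∉ P.asIdeal → (w : 𝓞 K) ∉ P.asIdeal →
        (P ∈ S ↔ ∃ x : 𝓞 K, x ^ p - (w : 𝓞 K) ∈ P.asIdeal)

variable {p : ℕ} (K : Type*) [Field K] [NumberField K]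

/-- **The auxiliary prime**, from the Kummer density input. -/
theorem exists_aux_prime_of_kummerDensity [hp : Fact p.Prime] [IsCyclotomicExtension {p} ℚ K]
    (hKD : KummerDensity p K) {q0 q1 : ℕ} (hq0 : q0.Prime) (hq1 : q1.Prime) (h01 : q0 ≠ q1)
    (_h0p : q0 ≠ p) (_h1p : q1 ≠ p) {f0 f1 : ℕ} (hf0 : ¬ p ∣ f0) (hf1 : ¬ p ∣ f1) (e : ℕ) :
    ∃ m : ℕ, m.Prime ∧ m % p = 1 ∧ m ≠ p ∧ m ≠ q0 ∧ m ≠ q1 ∧
      (¬ ∃ x : ZMod m, x ^ p = ((q0 ^ f0 : ℕ) : ZMod m)) ∧
      (∃ x : ZMod m, x ^ p = ((q1 ^ f1 * (q0 ^ f0) ^ e : ℕ) : ZMod m)) := by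
  classical
  have : Fact q0.Prime := ⟨hq0⟩
  have : Fact q1.Prime := ⟨hq1⟩
  obtain ⟨v, hv⟩ : ∃ v : ℕ, v = q0 ^ f0 := ⟨_, rfl⟩
  obtain ⟨u, hu⟩ : ∃ u : ℕ, u = q1 ^ f1 * v ^ e := ⟨_, rfl⟩
  rw [← hv, ← hu]
  have hv0 : v ≠ 0 := hv ▸ pow_ne_zero _ hq0.ne_zero
  have hu0 : u ≠ 0 := hu ▸ mul_ne_zero (pow_ne_zero _ hq1.ne_zero) (pow_ne_zero _ hv0)
  -- non-`p`-th powers in `K`
  have hv_np : ¬ ∃ x : K, x ^ p = (v : K) := by
    apply not_exists_pow_eq_natCast K hq0
    rw [hv, padicValNat.prime_pow]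
    exact hf0
  have hw_np : ∀ j : ℕ, ¬ ∃ x : K, x ^ p = ((u * v ^ j : ℕ) : K) := by
    intro j
    apply not_exists_pow_eq_natCast K hq1
    have h1 : padicValNat q1 v = 0 := by
      rw [hv, padicValNat.pow, padicValNat_primes (Ne.symm h01), mul_zero]
    have h2 : padicValNat q1 u = f1 := by
      rw [hu, padicValNat.mul (pow_ne_zero _ hq1.ne_zero) (pow_ne_zero _ hv0),
        padicValNat.prime_pow, padicValNat.pow, h1, mul_zero, add_zero]
    rw [padicValNat.mul hu0 (pow_ne_zero _ hv0), h2, padicValNat.pow, h1, mul_zero, add_zero]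
    exact hf1
  obtain ⟨SV, hSVd, hSV⟩ := hKD v hv_np
  choose SW hSWd hSW using fun j => hKD (u * v ^ j) (hw_np j)
  -- the bad primes
  set N : 𝓞 K := ((p * q0 * q1 : ℕ) : 𝓞 K) with hN
  have hN0 : N ≠ 0 := by
    rw [hN, Nat.cast_ne_zero]
    exact mul_ne_zero (mul_ne_zero hp.out.ne_zero hq0.ne_zero) hq1.ne_zero
  set T : Set (HeightOneSpectrum (𝓞 K)) := {P | N ∈ P.asIdeal} with hT
  have hTfin : T.Finite := by
    have h := Ideal.finite_factors (I := Ideal.span {N})
      (by rwa [Ne, Ideal.zero_eq_bot, Ideal.span_singleton_eq_bot])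
    refine h.subset fun P hP => ?_
    simp only [Set.mem_ofPred_eq] at hP ⊢
    exact Ideal.dvd_span_singleton.mpr hP
  -- the local analysis at a good degree-one prime
  have hloc : ∀ P ∈ H72.degOneSet K, P ∉ T →
      let m := absNorm P.asIdeal
      m.Prime ∧ m % p = 1 ∧ m ≠ p ∧ m ≠ q0 ∧ m ≠ q1 ∧
        (P ∈ SV ↔ ∃ x : ZMod m, x ^ p = (v : ZMod m)) ∧
        (∀ j, P ∈ SW j ↔ ∃ x : ZMod m, x ^ p = (u : ZMod m) * (v : ZMod m) ^ j) := by
    intro P hPD hPT m
    have hm : m.Prime := hPD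
    have hprime : P.asIdeal.IsPrime := P.isPrime
    have hmP : (m : 𝓞 K) ∈ P.asIdeal := Ideal.absNorm_mem P.asIdeal
    have hNP : N ∉ P.asIdeal := hPT
    have hpP : (p : 𝓞 K) ∉ P.asIdeal := by
      intro h
      apply hNP
      rw [hN]
      push_cast
      exact Ideal.mul_mem_right _ _ (Ideal.mul_mem_right _ _ h)
    have hq0P : (q0 : 𝓞 K) ∉ P.asIdeal := by
      intro h
      apply hNP
      rw [hN]
      push_cast
      exact Ideal.mul_mem_right _ _ (Ideal.mul_mem_left _ _ h)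
    have hq1P : (q1 : 𝓞 K) ∉ P.asIdeal := by
      intro h
      apply hNP
      rw [hN]
      push_cast
      exact Ideal.mul_mem_left _ _ h
    have hmp : m ≠ p := fun h => hpP (h ▸ hmP)
    have hmq0 : m ≠ q0 := fun h => hq0P (h ▸ hmP)
    have hmq1 : m ≠ q1 := fun h => hq1P (h ▸ hmP)
    have hvP : ((v : ℕ) : 𝓞 K) ∉ P.asIdeal := by
      rw [hv]
      push_cast
      exact fun h => hq0P (hprime.mem_of_pow_mem _ h)
    have hwP : ∀ j, ((u * v ^ j : ℕ) : 𝓞 K) ∉ P.asIdeal := by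
      intro j h
      rw [hu] at h
      push_cast at h
      rcases hprime.mem_or_mem h with h | h
      · rcases hprime.mem_or_mem h with h | h
        · exact hq1P (hprime.mem_of_pow_mem _ h)
        · exact hvP (hprime.mem_of_pow_mem _ h)
      · exact hvP (hprime.mem_of_pow_mem _ h)
    have hζ : IsPrimitiveRoot (IsCyclotomicExtension.zeta_spec p ℚ K).toInteger p :=
      (IsCyclotomicExtension.zeta_spec p ℚ K).toInteger_isPrimitiveRoot
    refine ⟨hm, mod_eq_one_of_absNorm_prime hp.out hζ hm rfl hmp, hmp, hmq0, hmq1, ?_, ?_⟩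
    · rw [hSV P hPD hpP hvP]
      exact exists_pow_sub_natCast_mem_iff hm rfl p v
    · intro j
      rw [hSW j P hPD hpP (hwP j), exists_pow_sub_natCast_mem_iff hm rfl p (u * v ^ j)]
      push_cast
      rfl
  have hcover : ∀ P ∈ H72.degOneSet K, P ∉ T →
      P ∈ SW 0 ∨ P ∈ SV ∨ ∃ j, 1 ≤ j ∧ j < p ∧ P ∈ SW j := by
    intro P hPD hPT
    obtain ⟨hm, hm1, hmp, hmq0, hmq1, hV, hW⟩ := hloc P hPD hPT
    set m := absNorm P.asIdeal
    have : Fact m.Prime := ⟨hm⟩
    have hpm : p ∣ m - 1 := by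
      have h2 : 1 ≤ m := hm.one_lt.le
      have h3 : m = p * (m / p) + 1 := by
        have := Nat.div_add_mod m p
        omega
      exact ⟨m / p, by omega⟩
    have hq0m : (q0 : ZMod m) ≠ 0 := by
      rw [Ne, ZMod.natCast_eq_zero_iff]
      intro h
      exact hmq0 ((Nat.prime_dvd_prime_iff_eq hm hq0).mp h)
    have hq1m : (q1 : ZMod m) ≠ 0 := by
      rw [Ne, ZMod.natCast_eq_zero_iff]
      intro h
      exact hmq1 ((Nat.prime_dvd_prime_iff_eq hm hq1).mp h)
    have hvm : (v : ZMod m) ≠ 0 := by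
      rw [hv]
      push_cast
      exact pow_ne_zero _ hq0m
    have hum : (u : ZMod m) ≠ 0 := by
      rw [hu]
      push_cast
      exact mul_ne_zero (pow_ne_zero _ hq1m) (pow_ne_zero _ hvm)
    rcases zmod_pow_cover hpm hum hvm with h | ⟨j, hjp, h⟩
    · exact Or.inr (Or.inl (hV.mpr h))
    · rcases Nat.eq_zero_or_pos j with rfl | hj
      · exact Or.inl ((hW 0).mpr h)
      · exact Or.inr (Or.inr ⟨j, hj, hjp, (hW j).mpr h⟩)
  have hinter : ∀ P ∈ H72.degOneSet K, P ∉ T → P ∈ SW 0 → P ∈ SV →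
      ∀ j, 1 ≤ j → j < p → P ∈ SW j := by
    intro P hPD hPT hPU hPV j _ _
    obtain ⟨hm, hm1, hmp, hmq0, hmq1, hV, hW⟩ := hloc P hPD hPT
    obtain ⟨x, hx⟩ := (hW 0).mp hPU
    obtain ⟨y, hy⟩ := hV.mp hPV
    rw [pow_zero, mul_one] at hx
    exact (hW j).mpr ⟨x * y ^ j, by rw [mul_pow, ← pow_mul, mul_comm j p, pow_mul, hx, hy]⟩
  -- apply the union bound
  obtain ⟨P, hPD, hPT, hPU, hPV⟩ := exists_degOne_mem_diff K hp.out.two_le (SW 0) SV SW T hTfin
    (hSWd 0) hSVd (fun j _ _ => hSWd j) hcover hinter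
  obtain ⟨hm, hm1, hmp, hmq0, hmq1, hV, hW⟩ := hloc P hPD hPT
  refine ⟨_, hm, hm1, hmp, hmq0, hmq1, ?_, ?_⟩
  · rw [← hV]
    exact hPV
  · have := (hW 0).mp hPU
    rw [pow_zero, mul_one] at this
    exact this

end Assembly

end Fermat.Agent.S14.H26
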