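import Mathlib
import Fermat.Agent.S14.H27_BaseChange
import Fermat.Agent.S14.H73_FieldsR
import Fermat.Agent.S14.H78_FieldsLemmas

set_option autoImplicit false
set_option linter.style.haveILetI false
set_option linter.unusedSectionVars false

noncomputable section

namespace Fermat.Agent.S14.H27

open NumberField Polynomial
open scoped Pointwise IsMulCommutative

section CrossGalois

variable (m : ℕ) [NeZero m] (K L Ω : Type*) [Field K] [Field L] [Field Ω]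
  [Algebra K L] [Algebra K Ω] [Algebra L Ω] [IsScalarTower K L Ω]
  [IsCyclotomicExtension {m} L Ω]

include m in
/-- `L(ζ_m)/K` is normal when `L/K` is. -/
theorem normal_of_isCyclotomicExtension [Normal K L] [FiniteDimensional K L] : Normal K Ω := by
  obtain ⟨f, hf0, hf⟩ : ∃ f : K[X], f ≠ 0 ∧ IsSplittingField K L f := by
    obtain ⟨f, hf⟩ := Normal.exists_isSplittingField K L
    by_cases h0 : f = 0
    · subst h0
      refine ⟨1, one_ne_zero, ⟨?_, ?_⟩⟩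
      · simp
      · have := hf.adjoin_rootSet
        simpa using this
    · exact ⟨f, h0, hf⟩
  haveI := hf
  have hg0 : (X ^ m - 1 : K[X]) ≠ 0 := X_pow_sub_C_ne_zero (NeZero.pos m) 1
  haveI : IsSplittingField L Ω ((X ^ m - 1 : K[X]).map (algebraMap K L)) := by
    have : (X ^ m - 1 : K[X]).map (algebraMap K L) = X ^ m - 1 := by simp
    rw [this]
    exact IsCyclotomicExtension.isSplittingField_X_pow_sub_one m L Ω
  haveI := IsSplittingField.mul (F := K) (K := L) (L := Ω) f (X ^ m - 1) hf0 hg0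
  exact Normal.of_isSplittingField (f * (X ^ m - 1))

variable {K Ω} in
/-- the cyclotomic character of `Gal(L(ζ_m)/K)`. -/
def chi : Gal(Ω/K) →* (ZMod m)ˣ :=
  (IsCyclotomicExtension.zeta_spec m L Ω).autToPow K

theorem chi_spec (γ : Gal(Ω/K)) :
    IsCyclotomicExtension.zeta m L Ω ^ ((chi m L γ : (ZMod m)ˣ) : ZMod m).val =
      γ (IsCyclotomicExtension.zeta m L Ω) :=
  (IsCyclotomicExtension.zeta_spec m L Ω).autToPow_spec K γ

/-- an automorphism of `L(ζ_m)/K` fixing `L` and `ζ_m` is trivial. -/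
theorem eq_one_of_fixes (γ : Gal(Ω/K))
    (h1 : ∀ x : L, γ (algebraMap L Ω x) = algebraMap L Ω x)
    (h2 : γ (IsCyclotomicExtension.zeta m L Ω) = IsCyclotomicExtension.zeta m L Ω) : γ = 1 := by
  have hζ := IsCyclotomicExtension.zeta_spec m L Ω
  let γL : Ω ≃ₐ[L] Ω := { γ.toRingEquiv with commutes' := h1 }
  have h3 : γL.toAlgHom = AlgHom.id L Ω := by
    apply (hζ.powerBasis L).algHom_ext
    rw [IsPrimitiveRoot.powerBasis_gen]
    exact h2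
  ext x
  have := congr($h3 x)
  exact this

theorem eq_one_of_chi_eq_one (γ : Gal(Ω/K))
    (h1 : ∀ x : L, γ (algebraMap L Ω x) = algebraMap L Ω x) (h2 : chi m L γ = 1) : γ = 1 := by
  apply eq_one_of_fixes m K L Ω γ h1
  have key : ∀ ζ : Ω, IsPrimitiveRoot ζ m → ζ ^ (1 % m) = ζ := by
    intro ζ hζ
    rw [hζ.eq_orderOf, pow_mod_orderOf, pow_one]
  rw [← chi_spec m K L Ω γ, h2, Units.val_one, ZMod.val_one_eq_one_mod]
  exact key _ (IsCyclotomicExtension.zeta_spec m L Ω)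

end CrossGalois

section Inertia

variable {K L Ω : Type*} [Field K] [Field L] [Field Ω]
  [NumberField K] [NumberField L] [NumberField Ω]
  [Algebra K L] [Algebra K Ω] [Algebra L Ω] [IsScalarTower K L Ω] [IsGalois K L] [IsGalois K Ω]

theorem restrictNormalHom_eq_one_iff (γ : Gal(Ω/K)) :
    AlgEquiv.restrictNormalHom L γ = 1 ↔ ∀ x : L, γ (algebraMap L Ω x) = algebraMap L Ω x := by
  constructor
  · intro h x
    rw [← AlgEquiv.restrictNormal_commutes γ L x]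
    have : γ.restrictNormal L = 1 := h
    rw [this, AlgEquiv.one_apply]
  · intro h
    ext x
    apply (algebraMap L Ω).injective
    have : (AlgEquiv.restrictNormalHom L γ) x = γ.restrictNormal L x := rfl
    rw [this, AlgEquiv.restrictNormal_commutes, h, AlgEquiv.one_apply]

/-- restriction maps the inertia group of `𝔔` into the inertia group of `𝔔 ∩ L`. -/
theorem restrictNormalHom_mem_inertia (𝔔 : Ideal (𝓞 Ω)) (σ : Gal(Ω/K))
    (hσ : σ ∈ 𝔔.inertia Gal(Ω/K)) :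
    AlgEquiv.restrictNormalHom L σ ∈ (𝔔.under (𝓞 L)).inertia Gal(L/K) := by
  intro x
  show AlgEquiv.restrictNormalHom L σ • x - x ∈ 𝔔.under (𝓞 L)
  rw [Ideal.under_def, Ideal.mem_comap, map_sub]
  have h1 : algebraMap (𝓞 L) (𝓞 Ω) (AlgEquiv.restrictNormalHom L σ • x)
      = σ • algebraMap (𝓞 L) (𝓞 Ω) x := by
    apply RingOfIntegers.ext
    exact AlgEquiv.restrictNormal_commutes σ L (x : L)
  rw [h1]
  exact hσ _

/-- if `L/K` is unramified, the inertia groups of `Ω/K` are contained in `Gal(Ω/L)`. -/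
theorem inertia_le_ker_restrictNormalHom
    (hunr : ∀ Q : Ideal (𝓞 L), Q.IsPrime → Q ≠ ⊥ → Q.ramificationIdx (𝓞 K) = 1)
    (𝔔 : Ideal (𝓞 Ω)) [𝔔.IsPrime] (h𝔔 : 𝔔 ≠ ⊥) :
    𝔔.inertia Gal(Ω/K) ≤ (AlgEquiv.restrictNormalHom L : Gal(Ω/K) →* Gal(L/K)).ker := by
  intro σ hσ
  rw [MonoidHom.mem_ker]
  have hQ0 : 𝔔.under (𝓞 L) ≠ ⊥ := by
    haveI : 𝔔.LiesOver (𝔔.under (𝓞 L)) := ⟨rfl⟩
    intro h
    apply h𝔔
    exact Ideal.eq_bot_of_comap_eq_bot h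
  have h1 := restrictNormalHom_mem_inertia (L := L) 𝔔 σ hσ
  rw [inertia_eq_bot (𝔔.under (𝓞 L)) hQ0
    ((isUnramifiedAt_iff_ramificationIdx _).mpr (hunr _ inferInstance hQ0)), Subgroup.mem_bot] at h1
  exact h1

/-- there is a prime of `𝓞 Ω` containing a given rational prime. -/
theorem exists_isPrime_natCast_mem (Ω : Type*) [Field Ω] [NumberField Ω] {m : ℕ} (hm : m.Prime) :
    ∃ 𝔔 : Ideal (𝓞 Ω), 𝔔.IsPrime ∧ 𝔔 ≠ ⊥ ∧ (m : 𝓞 Ω) ∈ 𝔔 := by
  haveI : (Ideal.span {(m : ℤ)}).IsPrime :=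
    (Ideal.span_singleton_prime (by exact_mod_cast hm.ne_zero)).mpr (Nat.prime_iff_prime_int.mp hm)
  obtain ⟨⟨𝔔, h𝔔prime, h𝔔over⟩⟩ := (Ideal.span {(m : ℤ)}).nonempty_primesOver (S := 𝓞 Ω)
  have hmem : (m : 𝓞 Ω) ∈ 𝔔 := by
    have h1 : (m : ℤ) ∈ 𝔔.under ℤ := by
      rw [← Ideal.over_def 𝔔 (Ideal.span {(m : ℤ)})]
      exact Ideal.subset_span rfl
    rw [Ideal.under_def, Ideal.mem_comap] at h1
    simpa using h1
  refine ⟨𝔔, h𝔔prime, ?_, hmem⟩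
  rintro rfl
  rw [Ideal.mem_bot] at hmem
  exact hm.ne_zero (by exact_mod_cast hmem)

end Inertia

section Card

variable {p m : ℕ} [NeZero m] {K L Ω : Type*} [Field K] [Field L] [Field Ω]
  [NumberField K] [NumberField L] [NumberField Ω]
  [Algebra K L] [Algebra K Ω] [Algebra L Ω] [IsScalarTower K L Ω] [IsGalois K L] [IsGalois K Ω]
  [IsCyclotomicExtension {m} L Ω]

/-- `χ` is injective on `ker r = Gal(Ω/L)`. -/
theorem chi_injOn_ker (γ : Gal(Ω/K)) (hγ : AlgEquiv.restrictNormalHom L γ = 1)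
    (h2 : chi m L γ = 1) : γ = 1 :=
  eq_one_of_chi_eq_one m K L Ω γ ((restrictNormalHom_eq_one_iff γ).mp hγ) h2

theorem card_ker_le (hm : m.Prime) :
    Nat.card (AlgEquiv.restrictNormalHom L : Gal(Ω/K) →* Gal(L/K)).ker ≤ m - 1 := by
  haveI : Fact m.Prime := ⟨hm⟩
  have hU : Nat.card (ZMod m)ˣ = m - 1 := by
    rw [Nat.card_eq_fintype_card, ZMod.card_units_eq_totient, Nat.totient_prime hm]
  rw [← hU]
  apply Nat.card_le_card_of_injective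
    (fun γ : (AlgEquiv.restrictNormalHom L : Gal(Ω/K) →* Gal(L/K)).ker => chi m L (γ : Gal(Ω/K)))
  intro γ₁ γ₂ h
  have h1 : chi m L ((γ₁ : Gal(Ω/K)) * (γ₂ : Gal(Ω/K))⁻¹) = 1 := by
    rw [map_mul, map_inv]
    exact mul_inv_eq_one.mpr h
  have h2 : AlgEquiv.restrictNormalHom L ((γ₁ : Gal(Ω/K)) * (γ₂ : Gal(Ω/K))⁻¹) = 1 := by
    rw [map_mul, map_inv, MonoidHom.mem_ker.mp γ₁.2, MonoidHom.mem_ker.mp γ₂.2, inv_one, mul_one]
  have h3 := chi_injOn_ker _ h2 h1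
  exact Subtype.ext (mul_inv_eq_one.mp h3)

omit [NeZero m] [NumberField L] [IsGalois K L] [IsCyclotomicExtension {m} L Ω] in
theorem card_inertia_ge (hp : p.Prime) (hm : m.Prime) (hmp : m ≠ p)
    [IsCyclotomicExtension {p} ℚ K] {ζ : Ω} (hζ : IsPrimitiveRoot ζ m)
    (𝔔 : Ideal (𝓞 Ω)) [𝔔.IsPrime] (h𝔔 : 𝔔 ≠ ⊥)
    (hmem : (m : 𝓞 Ω) ∈ 𝔔) : m - 1 ≤ Nat.card (𝔔.inertia Gal(Ω/K)) := by
  rw [H78.card_inertia_eq_ramificationIdx 𝔔 h𝔔]
  have h1 := H73.sub_one_dvd_ramificationIdx hp hm hmp (K := K) hζ 𝔔 hmem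
  apply Nat.le_of_dvd _ h1
  rw [← H78.card_inertia_eq_ramificationIdx 𝔔 h𝔔]
  exact Nat.card_pos

/-- for a prime `𝔔 ∣ m` of `Ω = L(ζ_m)`, the inertia group in `Gal(Ω/K)` is all of `Gal(Ω/L)`
(`K = ℚ(ζ_p)`, `L/K` unramified). -/
theorem inertia_eq_ker (hp : p.Prime) (hm : m.Prime) (hmp : m ≠ p)
    [IsCyclotomicExtension {p} ℚ K]
    (hunr : ∀ Q : Ideal (𝓞 L), Q.IsPrime → Q ≠ ⊥ → Q.ramificationIdx (𝓞 K) = 1)
    (𝔔 : Ideal (𝓞 Ω)) [𝔔.IsPrime] (h𝔔 : 𝔔 ≠ ⊥) (hmem : (m : 𝓞 Ω) ∈ 𝔔) :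
    𝔔.inertia Gal(Ω/K) = (AlgEquiv.restrictNormalHom L : Gal(Ω/K) →* Gal(L/K)).ker := by
  apply Subgroup.eq_of_le_of_card_ge (inertia_le_ker_restrictNormalHom hunr 𝔔 h𝔔)
  exact (card_ker_le hm).trans
    (card_inertia_ge hp hm hmp (IsCyclotomicExtension.zeta_spec m L Ω) 𝔔 h𝔔 hmem)

theorem card_ker_eq (hp : p.Prime) (hm : m.Prime) (hmp : m ≠ p)
    [IsCyclotomicExtension {p} ℚ K]
    (hunr : ∀ Q : Ideal (𝓞 L), Q.IsPrime → Q ≠ ⊥ → Q.ramificationIdx (𝓞 K) = 1) :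
    Nat.card (AlgEquiv.restrictNormalHom L : Gal(Ω/K) →* Gal(L/K)).ker = m - 1 := by
  obtain ⟨𝔔, h𝔔prime, h𝔔, hmem⟩ := exists_isPrime_natCast_mem Ω hm
  haveI := h𝔔prime
  apply le_antisymm (card_ker_le hm)
  rw [← inertia_eq_ker hp hm hmp hunr 𝔔 h𝔔 hmem]
  exact card_inertia_ge hp hm hmp (IsCyclotomicExtension.zeta_spec m L Ω) 𝔔 h𝔔 hmem

/-- `χ` maps `Gal(Ω/L)` onto `(ℤ/m)ˣ`. -/
theorem exists_mem_ker_chi_eq (hp : p.Prime) (hm : m.Prime) (hmp : m ≠ p)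
    [IsCyclotomicExtension {p} ℚ K]
    (hunr : ∀ Q : Ideal (𝓞 L), Q.IsPrime → Q ≠ ⊥ → Q.ramificationIdx (𝓞 K) = 1)
    (u : (ZMod m)ˣ) :
    ∃ γ : Gal(Ω/K), AlgEquiv.restrictNormalHom L γ = 1 ∧ chi m L γ = u := by
  haveI : Fact m.Prime := ⟨hm⟩
  have hU : Nat.card (ZMod m)ˣ = m - 1 := by
    rw [Nat.card_eq_fintype_card, ZMod.card_units_eq_totient, Nat.totient_prime hm]
  let f : (AlgEquiv.restrictNormalHom L : Gal(Ω/K) →* Gal(L/K)).ker → (ZMod m)ˣ :=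
    fun γ => chi m L (γ : Gal(Ω/K))
  have hinj : Function.Injective f := by
    intro γ₁ γ₂ h
    have h1 : chi m L ((γ₁ : Gal(Ω/K)) * (γ₂ : Gal(Ω/K))⁻¹) = 1 := by
      rw [map_mul, map_inv]
      exact mul_inv_eq_one.mpr h
    have h2 : AlgEquiv.restrictNormalHom L ((γ₁ : Gal(Ω/K)) * (γ₂ : Gal(Ω/K))⁻¹) = 1 := by
      rw [map_mul, map_inv, MonoidHom.mem_ker.mp γ₁.2, MonoidHom.mem_ker.mp γ₂.2, inv_one,
        mul_one]
    exact Subtype.ext (mul_inv_eq_one.mp (chi_injOn_ker _ h2 h1))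
  have hbij : Function.Bijective f := by
    rw [Nat.bijective_iff_injective_and_card]
    exact ⟨hinj, by rw [card_ker_eq hp hm hmp hunr, hU]⟩
  obtain ⟨γ, hγ⟩ := hbij.2 u
  exact ⟨γ, MonoidHom.mem_ker.mp γ.2, hγ⟩

end Card

end Fermat.Agent.S14.H27
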