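import Mathlib
import Fermat.Agent.S14.H27_CrossGalois

set_option autoImplicit false
set_option linter.style.haveILetI false
set_option linter.unusedSectionVars false

noncomputable section

namespace Fermat.Agent.S14.H27

open NumberField Polynomial
open scoped Pointwise IsMulCommutative

section ProdPrime

variable {G₁ G₂ : Type*} [Group G₁] [Group G₂] {p : ℕ} [hp : Fact p.Prime]

theorem orderOf_eq_of_card_prime {G : Type*} [Group G] (h : Nat.card G = p) {a : G} (ha : a ≠ 1) :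
    orderOf a = p := by
  haveI : Finite G := Nat.finite_of_card_ne_zero (h ▸ hp.out.ne_zero)
  exact orderOf_eq_prime (h ▸ pow_card_eq_one') ha

theorem zpowers_prod_eq_one_of_fst (h1 : Nat.card G₁ = p) (h2 : Nat.card G₂ = p) {a : G₁} {b : G₂}
    (ha : a ≠ 1) {x : G₁ × G₂} (hx : x ∈ Subgroup.zpowers ((a, b) : G₁ × G₂))
    (hx1 : x.1 = 1) : x = 1 := by
  obtain ⟨k, rfl⟩ := Subgroup.mem_zpowers_iff.mp hx
  haveI : Finite G₂ := Nat.finite_of_card_ne_zero (h2 ▸ hp.out.ne_zero)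
  have h3 : a ^ k = 1 := by simpa using hx1
  have h4 : (p : ℤ) ∣ k := by
    rw [← orderOf_eq_of_card_prime h1 ha]
    exact orderOf_dvd_iff_zpow_eq_one.mpr h3
  obtain ⟨j, rfl⟩ := h4
  ext
  · simpa using h3
  · have : b ^ p = 1 := h2 ▸ pow_card_eq_one'
    simp [zpow_mul, this]

theorem zpowers_prod_eq_one_of_snd (h1 : Nat.card G₁ = p) (h2 : Nat.card G₂ = p) {a : G₁} {b : G₂}
    (hb : b ≠ 1) {x : G₁ × G₂} (hx : x ∈ Subgroup.zpowers ((a, b) : G₁ × G₂))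
    (hx2 : x.2 = 1) : x = 1 := by
  obtain ⟨k, rfl⟩ := Subgroup.mem_zpowers_iff.mp hx
  haveI : Finite G₁ := Nat.finite_of_card_ne_zero (h1 ▸ hp.out.ne_zero)
  have h3 : b ^ k = 1 := by simpa using hx2
  have h4 : (p : ℤ) ∣ k := by
    rw [← orderOf_eq_of_card_prime h2 hb]
    exact orderOf_dvd_iff_zpow_eq_one.mpr h3
  obtain ⟨j, rfl⟩ := h4
  ext
  · have : a ^ p = 1 := h1 ▸ pow_card_eq_one'
    simp [zpow_mul, this]
  · simpa using h3

theorem card_zpowers_prod (h1 : Nat.card G₁ = p) (h2 : Nat.card G₂ = p) {a : G₁} {b : G₂}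
    (ha : a ≠ 1) : Nat.card (Subgroup.zpowers ((a, b) : G₁ × G₂)) = p := by
  haveI : Finite G₁ := Nat.finite_of_card_ne_zero (h1 ▸ hp.out.ne_zero)
  haveI : Finite G₂ := Nat.finite_of_card_ne_zero (h2 ▸ hp.out.ne_zero)
  rw [Nat.card_zpowers]
  apply orderOf_eq_prime
  · ext
    · simpa using (h1 ▸ pow_card_eq_one' : a ^ p = 1)
    · simpa using (h2 ▸ pow_card_eq_one' : b ^ p = 1)
  · intro h
    exact ha (congrArg Prod.fst h)

theorem index_zpowers_prod (h1 : Nat.card G₁ = p) (h2 : Nat.card G₂ = p) {a : G₁} {b : G₂}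
    (ha : a ≠ 1) : (Subgroup.zpowers ((a, b) : G₁ × G₂)).index = p := by
  haveI : Finite G₁ := Nat.finite_of_card_ne_zero (h1 ▸ hp.out.ne_zero)
  haveI : Finite G₂ := Nat.finite_of_card_ne_zero (h2 ▸ hp.out.ne_zero)
  have h := Subgroup.card_mul_index (Subgroup.zpowers ((a, b) : G₁ × G₂))
  rw [card_zpowers_prod h1 h2 ha, Nat.card_prod, h1, h2] at h
  exact Nat.eq_of_mul_eq_mul_left hp.out.pos h

end ProdPrime

section Upow

/-- the subgroup of `p`-th powers in `(ℤ/m)ˣ`. -/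
abbrev Upow (p m : ℕ) : Subgroup (ZMod m)ˣ := (powMonoidHom p : (ZMod m)ˣ →* (ZMod m)ˣ).range

theorem index_Upow {p m : ℕ} (hm : m.Prime) (hm1 : p ∣ m - 1) : (Upow p m).index = p := by
  haveI : Fact m.Prime := ⟨hm⟩
  haveI := ZMod.isCyclic_units_prime hm
  have hU : Nat.card (ZMod m)ˣ = m - 1 := by
    rw [Nat.card_eq_fintype_card, ZMod.card_units_eq_totient, Nat.totient_prime hm]
  rw [Upow, IsCyclic.index_powMonoidHom_range, hU]
  exact Nat.gcd_eq_right hm1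

theorem card_quot_Upow {p m : ℕ} (hm : m.Prime) (hm1 : p ∣ m - 1) :
    Nat.card ((ZMod m)ˣ ⧸ Upow p m) = p := by
  rw [← Subgroup.index_eq_card, index_Upow hm hm1]

theorem mem_Upow_iff {p m : ℕ} (u : (ZMod m)ˣ) : u ∈ Upow p m ↔ ∃ v : (ZMod m)ˣ, v ^ p = u := by
  rw [Upow, MonoidHom.mem_range]
  rfl

end Upow

section Psi

variable (p m : ℕ) [NeZero m] {K : Type*} (L : Type*) {Ω : Type*} [Field K] [Field L] [Field Ω]
  [NumberField K] [NumberField L] [NumberField Ω]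
  [Algebra K L] [Algebra K Ω] [Algebra L Ω] [IsScalarTower K L Ω] [IsGalois K L] [IsGalois K Ω]
  [IsCyclotomicExtension {m} L Ω]

/-- `ψ = (restriction to L, cyclotomic character mod p-th powers)`. -/
def psi : Gal(Ω/K) →* Gal(L/K) × ((ZMod m)ˣ ⧸ Upow p m) :=
  MonoidHom.mk' (fun γ => ((AlgEquiv.restrictNormalHom L γ,
    (chi m L γ : (ZMod m)ˣ ⧸ Upow p m)) : Gal(L/K) × ((ZMod m)ˣ ⧸ Upow p m))) (fun a b => by
      rw [map_mul, map_mul, QuotientGroup.mk_mul]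
      rfl)

variable {p m L}

theorem psi_apply (γ : Gal(Ω/K)) :
    psi p m L γ = ((AlgEquiv.restrictNormalHom L γ, (chi m L γ : (ZMod m)ˣ ⧸ Upow p m)) :
      Gal(L/K) × ((ZMod m)ˣ ⧸ Upow p m)) := rfl

theorem psi_surjective (hp : p.Prime) (hm : m.Prime) (hmp : m ≠ p)
    [IsCyclotomicExtension {p} ℚ K]
    (hunr : ∀ Q : Ideal (𝓞 L), Q.IsPrime → Q ≠ ⊥ → Q.ramificationIdx (𝓞 K) = 1) :
    Function.Surjective (psi p m L : Gal(Ω/K) →* _) := by
  rintro ⟨g, u⟩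
  obtain ⟨u, rfl⟩ := QuotientGroup.mk_surjective u
  obtain ⟨γ₁, hγ₁⟩ := AlgEquiv.restrictNormalHom_surjective (F := K) (K₁ := L) Ω g
  obtain ⟨γ₂, hγ₂, hχ⟩ := exists_mem_ker_chi_eq (K := K) (L := L) (Ω := Ω) hp hm hmp hunr
    (u * (chi m L γ₁)⁻¹)
  refine ⟨γ₁ * γ₂, ?_⟩
  rw [psi_apply, map_mul, map_mul, hγ₁, hγ₂, mul_one, hχ, mul_comm u, mul_inv_cancel_left]

theorem card_target (hm : m.Prime) (hm1 : p ∣ m - 1) (hKL : Module.finrank K L = p) :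
    Nat.card (Gal(L/K) × ((ZMod m)ˣ ⧸ Upow p m)) = p * p := by
  rw [Nat.card_prod, card_quot_Upow hm hm1, IsGalois.card_aut_eq_finrank, hKL]

end Psi

section Subgroups

variable (p m : ℕ) [NeZero m] (K L : Type*) (Ω : Type*) [Field K] [Field L] [Field Ω]
  [NumberField K] [NumberField L] [NumberField Ω]
  [Algebra K L] [Algebra K Ω] [Algebra L Ω] [IsScalarTower K L Ω] [IsGalois K L] [IsGalois K Ω]
  [IsCyclotomicExtension {m} L Ω] (s0 : Gal(L/K)) (n0 : (ZMod m)ˣ)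

/-- the hypotheses of the construction of the crossing fields. -/
structure CrossHyp : Prop where
  hp : p.Prime
  hm : m.Prime
  hmp : m ≠ p
  hm1 : p ∣ m - 1
  hKL : Module.finrank K L = p
  hunr : ∀ Q : Ideal (𝓞 L), Q.IsPrime → Q ≠ ⊥ → Q.ramificationIdx (𝓞 K) = 1
  hs0 : s0 ≠ 1
  hn0 : n0 ∉ Upow p m

/-- the diagonal subgroup `ψ⁻¹⟨(s0, [n0])⟩` of `Gal(Ω/K)`. -/
def DD : Subgroup Gal(Ω/K) :=
  (Subgroup.zpowers ((s0, (n0 : (ZMod m)ˣ ⧸ Upow p m)) :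
    Gal(L/K) × ((ZMod m)ˣ ⧸ Upow p m))).comap (psi p m L)

/-- the kernel of `ψ`. -/
def NN : Subgroup Gal(Ω/K) :=
  (⊥ : Subgroup (Gal(L/K) × ((ZMod m)ˣ ⧸ Upow p m))).comap (psi p m L)

variable {p m K L Ω s0 n0}

theorem NN_le_DD : NN p m K L Ω ≤ DD p m K L Ω s0 n0 := by
  intro γ hγ
  have h1 : psi p m L γ = 1 := hγ
  show psi p m L γ ∈ Subgroup.zpowers _
  rw [h1]
  exact Subgroup.one_mem _

theorem mem_DD_iff (γ : Gal(Ω/K)) : γ ∈ DD p m K L Ω s0 n0 ↔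
    psi p m L γ ∈ Subgroup.zpowers ((s0, (n0 : (ZMod m)ˣ ⧸ Upow p m)) :
      Gal(L/K) × ((ZMod m)ˣ ⧸ Upow p m)) := Iff.rfl

theorem mem_NN_iff (γ : Gal(Ω/K)) : γ ∈ NN p m K L Ω ↔ psi p m L γ = 1 := Iff.rfl

variable (h : CrossHyp p m K L s0 n0)
include h

theorem CrossHyp.card_gal : Nat.card Gal(L/K) = p := by
  rw [IsGalois.card_aut_eq_finrank, h.hKL]

theorem CrossHyp.card_quot : Nat.card ((ZMod m)ˣ ⧸ Upow p m) = p := card_quot_Upow h.hm h.hm1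

theorem CrossHyp.mk_n0_ne_one : (n0 : (ZMod m)ˣ ⧸ Upow p m) ≠ 1 := by
  rw [Ne, QuotientGroup.eq_one_iff]
  exact h.hn0

theorem mem_NN_of_restrict_eq_one {γ : Gal(Ω/K)} (hγ : γ ∈ DD p m K L Ω s0 n0)
    (h1 : AlgEquiv.restrictNormalHom L γ = 1) : γ ∈ NN p m K L Ω := by
  haveI : Fact p.Prime := ⟨h.hp⟩
  rw [mem_NN_iff]
  exact zpowers_prod_eq_one_of_fst h.card_gal h.card_quot h.hs0 ((mem_DD_iff γ).mp hγ) h1

theorem mem_NN_of_chi_mem_Upow {γ : Gal(Ω/K)} (hγ : γ ∈ DD p m K L Ω s0 n0)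
    (h1 : chi m L γ ∈ Upow p m) : γ ∈ NN p m K L Ω := by
  haveI : Fact p.Prime := ⟨h.hp⟩
  rw [mem_NN_iff]
  refine zpowers_prod_eq_one_of_snd h.card_gal h.card_quot h.mk_n0_ne_one
    ((mem_DD_iff γ).mp hγ) ?_
  rw [psi_apply]
  exact (QuotientGroup.eq_one_iff _).mpr h1

theorem ker_inf_DD :
    (AlgEquiv.restrictNormalHom L : Gal(Ω/K) →* Gal(L/K)).ker ⊓ DD p m K L Ω s0 n0
      = NN p m K L Ω := by
  apply le_antisymm
  · rintro γ ⟨h1, h2⟩
    exact mem_NN_of_restrict_eq_one h h2 (MonoidHom.mem_ker.mp h1)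
  · intro γ hγ
    refine ⟨?_, NN_le_DD hγ⟩
    rw [mem_NN_iff, psi_apply, Prod.mk_eq_one] at hγ
    exact MonoidHom.mem_ker.mpr hγ.1

variable [IsCyclotomicExtension {p} ℚ K]

theorem index_DD : (DD p m K L Ω s0 n0).index = p := by
  haveI : Fact p.Prime := ⟨h.hp⟩
  have h1 := Subgroup.index_comap_of_surjective (Subgroup.zpowers ((s0,
    (n0 : (ZMod m)ˣ ⧸ Upow p m)) : Gal(L/K) × ((ZMod m)ˣ ⧸ Upow p m)))
    (psi_surjective (Ω := Ω) h.hp h.hm h.hmp h.hunr)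
  exact h1.trans (index_zpowers_prod h.card_gal h.card_quot h.hs0)

theorem index_NN : (NN p m K L Ω).index = p * p := by
  have h1 := Subgroup.index_comap_of_surjective
    (⊥ : Subgroup (Gal(L/K) × ((ZMod m)ˣ ⧸ Upow p m)))
    (psi_surjective (Ω := Ω) h.hp h.hm h.hmp h.hunr)
  exact h1.trans (Subgroup.index_bot.trans (card_target h.hm h.hm1 h.hKL))

theorem card_NN_mul : Nat.card (NN p m K L Ω) * p = m - 1 := by
  have h1 := Subgroup.card_mul_index (NN p m K L Ω)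
  have h2 := Subgroup.card_mul_index (AlgEquiv.restrictNormalHom L : Gal(Ω/K) →* Gal(L/K)).ker
  rw [index_NN h] at h1
  rw [card_ker_eq h.hp h.hm h.hmp h.hunr, Subgroup.index_ker,
    MonoidHom.range_eq_top.mpr (AlgEquiv.restrictNormalHom_surjective Ω), Subgroup.card_top,
    h.card_gal, ← h1] at h2
  have hp0 : 0 < p := h.hp.pos
  nlinarith [Nat.eq_of_mul_eq_mul_right hp0 (by rw [h2]; ring :
    (m - 1) * p = Nat.card (NN p m K L Ω) * p * p)]

end Subgroups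

end Fermat.Agent.S14.H27
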