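import Mathlib
import Fermat.Agent.S14.H27_CrossPsi
import Fermat.Agent.S14.H78_FB
import Fermat.Agent.S14.H94_P5
import Fermat.Agent.S14.H69_CycloSymbol
import Fermat.Agent.S14.H80_CrossFields

set_option autoImplicit false
set_option linter.style.haveILetI false
set_option linter.unusedSectionVars false

noncomputable section

namespace Fermat.Agent.S14.H27

open NumberField Polynomial
open scoped Pointwise IsMulCommutative

section Fields

variable (p m : ℕ) [NeZero m] (K L : Type*) (Ω : Type*) [Field K] [Field L] [Field Ω]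
  [NumberField K] [NumberField L] [NumberField Ω]
  [Algebra K L] [Algebra K Ω] [Algebra L Ω] [IsScalarTower K L Ω] [IsGalois K L] [IsGalois K Ω]
  [IsCyclotomicExtension {m} L Ω] (s0 : Gal(L/K)) (n0 : (ZMod m)ˣ)

/-- the field `E` of the crossing lemma, inside `Ω = L(ζ_m)`. -/
def fieldE : IntermediateField K Ω := IntermediateField.fixedField (DD p m K L Ω s0 n0)

/-- the field `M = L · K_m` of the crossing lemma, inside `Ω = L(ζ_m)`. -/
def fieldM : IntermediateField K Ω := IntermediateField.fixedField (NN p m K L Ω)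

variable {p m K L Ω s0 n0}

theorem fieldE_le_fieldM : fieldE p m K L Ω s0 n0 ≤ fieldM p m K L Ω :=
  IntermediateField.fixedField_antitone NN_le_DD

theorem fixingSubgroup_fieldE : (fieldE p m K L Ω s0 n0).fixingSubgroup = DD p m K L Ω s0 n0 :=
  IntermediateField.fixingSubgroup_fixedField _

theorem fixingSubgroup_fieldM : (fieldM p m K L Ω).fixingSubgroup = NN p m K L Ω :=
  IntermediateField.fixingSubgroup_fixedField _

variable (h : CrossHyp p m K L s0 n0) [IsCyclotomicExtension {p} ℚ K]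
include h

theorem finrank_fieldE : Module.finrank K (fieldE p m K L Ω s0 n0) = p := by
  rw [IntermediateField.finrank_eq_fixingSubgroup_index, fixingSubgroup_fieldE, index_DD h]

theorem finrank_fieldM : Module.finrank K (fieldM p m K L Ω) = p * p := by
  rw [IntermediateField.finrank_eq_fixingSubgroup_index, fixingSubgroup_fieldM, index_NN h]

omit h in
variable (p m K L Ω s0 n0) in
/-- `M` as an intermediate field of `Ω/E`. -/
def fieldME : IntermediateField (fieldE p m K L Ω s0 n0) Ω :=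
  IntermediateField.extendScalars (fieldE_le_fieldM (s0 := s0) (n0 := n0))

omit h in
theorem mem_fieldME_iff (x : Ω) : x ∈ fieldME p m K L Ω s0 n0 ↔ x ∈ fieldM p m K L Ω := Iff.rfl

theorem finrank_fieldME :
    Module.finrank (fieldE p m K L Ω s0 n0) (fieldME p m K L Ω s0 n0) = p := by
  have h1 := Module.finrank_mul_finrank K (fieldE p m K L Ω s0 n0) (fieldME p m K L Ω s0 n0)
  have h2 : Module.finrank K (fieldME p m K L Ω s0 n0) = Module.finrank K (fieldM p m K L Ω) :=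
    rfl
  rw [h2, finrank_fieldE h, finrank_fieldM h] at h1
  exact Nat.eq_of_mul_eq_mul_left h.hp.pos h1

end Fields

section Comm

variable {m : ℕ} [NeZero m] {K L Ω : Type*} [Field K] [Field L] [Field Ω]
  [NumberField K] [NumberField L] [NumberField Ω]
  [Algebra K L] [Algebra K Ω] [Algebra L Ω] [IsScalarTower K L Ω] [IsGalois K L] [IsGalois K Ω]
  [IsCyclotomicExtension {m} L Ω]

include m L in
/-- `Gal(L(ζ_m)/K)` is abelian when `Gal(L/K)` is. -/
theorem isMulCommutative_gal_top [IsMulCommutative Gal(L/K)] : IsMulCommutative Gal(Ω/K) := by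
  refine IsMulCommutative.of_comm fun a b => ?_
  have h1 : AlgEquiv.restrictNormalHom L (a * b * (b * a)⁻¹) = (1 : Gal(L/K)) := by
    simp only [map_mul, map_inv, mul_inv_rev]
    rw [mul_comm' (AlgEquiv.restrictNormalHom L a) (AlgEquiv.restrictNormalHom L b)]
    group
  have h2 : chi m L (a * b * (b * a)⁻¹) = 1 := by
    simp only [map_mul, map_inv, mul_inv_rev]
    rw [mul_comm (chi m L a) (chi m L b)]
    group
  have h3 := chi_injOn_ker (m := m) (L := L) _ h1 h2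
  exact mul_inv_eq_one.mp h3

/-- the Galois group over an intermediate field of an abelian extension is abelian. -/
theorem isMulCommutative_gal_of_intermediateField [IsMulCommutative Gal(Ω/K)]
    (F : IntermediateField K Ω) : IsMulCommutative Gal(Ω/F) := by
  refine IsMulCommutative.of_comm fun a b => ?_
  apply AlgEquiv.restrictScalars_injective K
  have := mul_comm' (a.restrictScalars K) (b.restrictScalars K)
  exact this

/-- every intermediate field of an abelian extension is Galois over the base. -/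
theorem isGalois_of_isMulCommutative [IsMulCommutative Gal(Ω/K)] (F : IntermediateField K Ω) :
    IsGalois K F := by
  haveI : F.fixingSubgroup.Normal := ⟨fun n hn g => by
    have : g * n * g⁻¹ = n := by rw [mul_comm' g n, mul_inv_cancel_right]
    rwa [this]⟩
  have := IsGalois.of_fixedField_normal_subgroup F.fixingSubgroup
  rwa [IsGalois.fixedField_fixingSubgroup] at this

/-- the Galois group of a subextension of an abelian extension is abelian. -/
theorem isMulCommutative_gal_of_normal [IsMulCommutative Gal(Ω/K)]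
    (F : Type*) [Field F] [Algebra K F] [Algebra F Ω] [IsScalarTower K F Ω] [Normal K F] :
    IsMulCommutative Gal(F/K) := by
  refine IsMulCommutative.of_comm fun a b => ?_
  obtain ⟨a', rfl⟩ := AlgEquiv.restrictNormalHom_surjective (F := K) (K₁ := F) Ω a
  obtain ⟨b', rfl⟩ := AlgEquiv.restrictNormalHom_surjective (F := K) (K₁ := F) Ω b
  rw [← map_mul, ← map_mul, mul_comm' a' b']

end Comm

section ChiCompute

variable {m : ℕ} [NeZero m] {K L Ω : Type*} [Field K] [Field L] [Field Ω]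
  [Algebra K L] [Algebra K Ω] [Algebra L Ω] [IsScalarTower K L Ω]
  [IsCyclotomicExtension {m} L Ω]

theorem eq_natCast_of_pow_val_eq {R : Type*} [CommRing R] [IsDomain R] {ζ : R}
    (hζ : IsPrimitiveRoot ζ m) (u : ZMod m) (a : ℕ) (h : ζ ^ u.val = ζ ^ a) :
    u = (a : ZMod m) := by
  obtain ⟨z, rfl⟩ := hζ.isUnit (NeZero.ne m)
  have h' : z ^ u.val = z ^ a := Units.ext (by simpa using h)
  rw [pow_eq_pow_iff_modEq, orderOf_units.symm, ← hζ.eq_orderOf] at h'
  rw [← ZMod.natCast_zmod_val u]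
  exact (ZMod.natCast_eq_natCast_iff _ _ _).mpr h'

/-- the cyclotomic character of an automorphism acting on `ζ_m` by `ζ ↦ ζ ^ a`. -/
theorem chi_eq_natCast (γ : Gal(Ω/K)) (a : ℕ)
    (h : γ (IsCyclotomicExtension.zeta m L Ω) = IsCyclotomicExtension.zeta m L Ω ^ a) :
    ((chi m L γ : (ZMod m)ˣ) : ZMod m) = (a : ZMod m) :=
  eq_natCast_of_pow_val_eq (IsCyclotomicExtension.zeta_spec m L Ω) _ a
    ((chi_spec m K L Ω γ).trans h)

end ChiCompute

section ResInj

variable {p m : ℕ} [NeZero m] {K L : Type*} {Ω : Type*} [Field K] [Field L] [Field Ω]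
  [NumberField K] [NumberField L] [NumberField Ω]
  [Algebra K L] [Algebra K Ω] [Algebra L Ω] [IsScalarTower K L Ω] [IsGalois K L] [IsGalois K Ω]
  [IsCyclotomicExtension {m} L Ω] {s0 : Gal(L/K)} {n0 : (ZMod m)ˣ}

theorem algebraMap_mem_fieldM (x : L) : algebraMap L Ω x ∈ fieldM p m K L Ω := by
  rw [fieldM, IntermediateField.mem_fixedField_iff]
  intro γ hγ
  have h1 : psi p m L γ = 1 := hγ
  rw [psi_apply, Prod.mk_eq_one] at h1
  exact (restrictNormalHom_eq_one_iff γ).mp h1.1 x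

variable (p m K L Ω s0 n0) in
/-- the embedding of `L` into `M`. -/
def algLME : L →+* fieldME p m K L Ω s0 n0 :=
  (algebraMap L Ω).codRestrict (fieldME p m K L Ω s0 n0) fun x => algebraMap_mem_fieldM x

theorem coe_algLME (x : L) : ((algLME p m K L Ω s0 n0 x : fieldME p m K L Ω s0 n0) : Ω)
    = algebraMap L Ω x := rfl

variable (h : CrossHyp p m K L s0 n0) [IsMulCommutative Gal(L/K)]
include h

theorem isGalois_fieldME :
    IsGalois (fieldE p m K L Ω s0 n0) (fieldME p m K L Ω s0 n0) := by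
  haveI : IsMulCommutative Gal(Ω/K) := isMulCommutative_gal_top (m := m) (L := L)
  haveI : IsMulCommutative Gal(Ω/(fieldE p m K L Ω s0 n0)) :=
    isMulCommutative_gal_of_intermediateField _
  exact isGalois_of_isMulCommutative (fieldME p m K L Ω s0 n0)

/-- an element of `Gal(Ω/E)` restricts (to scalars `K`) into the diagonal subgroup. -/
theorem restrictScalars_mem_DD (σ : Gal(Ω/(fieldE p m K L Ω s0 n0))) :
    σ.restrictScalars K ∈ DD p m K L Ω s0 n0 := by
  rw [← fixingSubgroup_fieldE, IntermediateField.mem_fixingSubgroup_iff]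
  intro x hx
  exact σ.commutes ⟨x, hx⟩

/-- an element of `ker ψ` fixes `M` pointwise. -/
theorem apply_eq_of_mem_NN {γ : Gal(Ω/K)} (hγ : γ ∈ NN p m K L Ω) {x : Ω}
    (hx : x ∈ fieldM p m K L Ω) : γ x = x := by
  rw [fieldM, IntermediateField.mem_fixedField_iff] at hx
  exact hx γ hγ

/-- **res_inj**: restriction `Gal(M/E) → Gal(L/K)` is injective. -/
theorem res_inj_fieldME
    (σ : @AlgEquiv (fieldE p m K L Ω s0 n0) (fieldME p m K L Ω s0 n0) (fieldME p m K L Ω s0 n0)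
      _ _ _ _ _)
    (hσ : ∀ x : L, σ (algLME p m K L Ω s0 n0 x) = algLME p m K L Ω s0 n0 x) : σ = 1 := by
  haveI := isGalois_fieldME (Ω := Ω) h
  obtain ⟨τ, rfl⟩ := AlgEquiv.restrictNormalHom_surjective (F := fieldE p m K L Ω s0 n0)
    (K₁ := fieldME p m K L Ω s0 n0) Ω σ
  have hD := restrictScalars_mem_DD (Ω := Ω) h τ
  have hr : AlgEquiv.restrictNormalHom L (τ.restrictScalars K) = 1 := by
    rw [restrictNormalHom_eq_one_iff]
    intro x
    have h1 := hσ x
    have h2 := AlgEquiv.restrictNormal_commutes τ (fieldME p m K L Ω s0 n0)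
      (algLME p m K L Ω s0 n0 x)
    have h3 : AlgEquiv.restrictNormalHom (fieldME p m K L Ω s0 n0) τ = τ.restrictNormal _ := rfl
    rw [h3] at h1
    rw [h1] at h2
    exact h2.symm
  have hN := mem_NN_of_restrict_eq_one h hD hr
  ext y
  have h4 := AlgEquiv.restrictNormal_commutes τ (fieldME p m K L Ω s0 n0) y
  have h5 : τ (y : Ω) = (y : Ω) := apply_eq_of_mem_NN h hN y.2
  exact h4.trans h5

/-- an element of the diagonal subgroup fixes `E` pointwise. -/
theorem apply_eq_of_mem_DD {γ : Gal(Ω/K)} (hγ : γ ∈ DD p m K L Ω s0 n0)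
    (x : fieldE p m K L Ω s0 n0) : γ (algebraMap (fieldE p m K L Ω s0 n0) Ω x)
      = algebraMap (fieldE p m K L Ω s0 n0) Ω x := by
  have hx : (x : Ω) ∈ IntermediateField.fixedField (DD p m K L Ω s0 n0) := x.2
  rw [IntermediateField.mem_fixedField_iff] at hx
  exact hx γ hγ

/-- **split**: a prime of `K` whose Frobenius data lies on the diagonal has a prime of `E` of
relative degree one above it. -/
theorem split_fieldE (Q : Ideal (𝓞 K)) [Q.IsPrime] (hQ : Q ≠ ⊥) (hmQ : (m : 𝓞 K) ∉ Q) (k : ℕ)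
    (hfrob : frobP L Q = s0 ^ k)
    (hnorm : ∃ x : ZMod m, (Ideal.absNorm Q : ZMod m) = (n0 : ZMod m) ^ k * x ^ p) :
    ∃ QQ : Ideal (𝓞 (fieldE p m K L Ω s0 n0)), QQ.IsPrime ∧ QQ.LiesOver Q ∧
      Ideal.relNorm (𝓞 K) QQ = Q ∧
      IsCoprime QQ (Ideal.span {(m : 𝓞 (fieldE p m K L Ω s0 n0))}) := by
  haveI : Fact m.Prime := ⟨h.hm⟩
  obtain ⟨⟨𝔓, h𝔓prime, h𝔓over⟩⟩ := Q.nonempty_primesOver (S := 𝓞 Ω)
  have h𝔓 : 𝔓 ≠ ⊥ := Ideal.ne_bot_of_liesOver_of_ne_bot hQ 𝔓
  have hu : 𝔓.under (𝓞 K) = Q := (Ideal.over_def 𝔓 Q).symm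
  have hm𝔓 : (m : 𝓞 Ω) ∉ 𝔓 := by
    intro hmem
    apply hmQ
    rw [← hu, Ideal.under_def, Ideal.mem_comap, map_natCast]
    exact hmem
  -- the prime of `L` below
  have huL : (𝔓.under (𝓞 L)).under (𝓞 K) = Q := by rw [Ideal.under_under, hu]
  haveI : (𝔓.under (𝓞 L)).LiesOver Q := ⟨huL.symm⟩
  have h𝔓L : 𝔓.under (𝓞 L) ≠ ⊥ := Ideal.ne_bot_of_liesOver_of_ne_bot hQ _
  have hurL : Algebra.IsUnramifiedAt (𝓞 K) (𝔓.under (𝓞 L)) :=
    (isUnramifiedAt_iff_ramificationIdx _).mpr (h.hunr _ inferInstance h𝔓L)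
  -- first component of `ψ (frob)`
  have h1 : AlgEquiv.restrictNormalHom L (frob K 𝔓 h𝔓) = s0 ^ k := by
    rw [restrictNormalHom_frob 𝔓 h𝔓 h𝔓L hurL, ← frobP_eq_frob Q hQ (𝔓.under (𝓞 L)) h𝔓L, hfrob]
  -- second component
  have h2 : ((chi m L (frob K 𝔓 h𝔓) : (ZMod m)ˣ) : ZMod m) = (Ideal.absNorm Q : ZMod m) := by
    apply chi_eq_natCast
    rw [H69.frob_zeta (NeZero.pos m) (IsCyclotomicExtension.zeta_spec m L Ω) 𝔓 h𝔓 hm𝔓, hu]
    rfl
  obtain ⟨x, hx⟩ := hnorm
  have hx0 : x ≠ 0 := by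
    rintro rfl
    rw [zero_pow h.hp.ne_zero, mul_zero] at hx
    rw [hx] at h2
    exact (chi m L (frob K 𝔓 h𝔓)).ne_zero h2
  have h3 : chi m L (frob K 𝔓 h𝔓) = n0 ^ k * (Units.mk0 x hx0) ^ p := by
    apply Units.ext
    rw [h2, hx]
    simp
  have h4 : ((chi m L (frob K 𝔓 h𝔓) : (ZMod m)ˣ) : (ZMod m)ˣ ⧸ Upow p m)
      = (n0 : (ZMod m)ˣ ⧸ Upow p m) ^ k := by
    rw [h3, QuotientGroup.mk_mul, QuotientGroup.mk_pow, mul_eq_left, QuotientGroup.eq_one_iff]
    exact ⟨Units.mk0 x hx0, rfl⟩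
  have hD : frob K 𝔓 h𝔓 ∈ DD p m K L Ω s0 n0 := by
    rw [mem_DD_iff, psi_apply, h1, h4, ← Prod.pow_mk]
    exact Subgroup.pow_mem _ (Subgroup.mem_zpowers _) k
  -- apply FB2
  have hrel := H78.relNorm_under_eq_of_frob_fixes (K := K) (E := fieldE p m K L Ω s0 n0) 𝔓 h𝔓
    (fun x => apply_eq_of_mem_DD h hD x)
  rw [hu] at hrel
  refine ⟨𝔓.under (𝓞 (fieldE p m K L Ω s0 n0)), inferInstance, ⟨?_⟩, hrel, ?_⟩
  · rw [Ideal.under_under, hu]
  · have hmQQ : (m : 𝓞 (fieldE p m K L Ω s0 n0)) ∉ 𝔓.under (𝓞 (fieldE p m K L Ω s0 n0)) := by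
      intro hmem
      apply hm𝔓
      rw [Ideal.under_def, Ideal.mem_comap, map_natCast] at hmem
      exact hmem
    have hQQ0 : 𝔓.under (𝓞 (fieldE p m K L Ω s0 n0)) ≠ ⊥ :=
      mt Ideal.eq_bot_of_comap_eq_bot h𝔓
    haveI : (𝔓.under (𝓞 (fieldE p m K L Ω s0 n0))).IsMaximal :=
      Ideal.IsPrime.isMaximal inferInstance hQQ0
    rw [Ideal.isCoprime_iff_sup_eq]
    by_contra hne
    have := (Ideal.IsMaximal.eq_of_le inferInstance hne le_sup_left :
      𝔓.under (𝓞 (fieldE p m K L Ω s0 n0)) = _)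
    apply hmQQ
    rw [this]
    exact Ideal.mem_sup_right (Ideal.subset_span rfl)

variable [IsCyclotomicExtension {p} ℚ K]

omit [IsMulCommutative Gal(L/K)] in
/-- **hram**: `E/K` is totally ramified at the primes above `m`. -/
theorem ramificationIdx_fieldE (𝔐 : Ideal (𝓞 (fieldE p m K L Ω s0 n0))) [𝔐.IsPrime]
    (hmem : (m : 𝓞 (fieldE p m K L Ω s0 n0)) ∈ 𝔐) : 𝔐.ramificationIdx (𝓞 K) = p := by
  have h𝔐 : 𝔐 ≠ ⊥ := by
    rintro rfl
    rw [Ideal.mem_bot] at hmem
    exact h.hm.ne_zero (by exact_mod_cast hmem)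
  obtain ⟨⟨𝔔, h𝔔prime, h𝔔over⟩⟩ := 𝔐.nonempty_primesOver (S := 𝓞 Ω)
  have h𝔔 : 𝔔 ≠ ⊥ := Ideal.ne_bot_of_liesOver_of_ne_bot h𝔐 𝔔
  have hm𝔔 : (m : 𝓞 Ω) ∈ 𝔔 := by
    have h1 : (m : 𝓞 (fieldE p m K L Ω s0 n0)) ∈ 𝔔.under (𝓞 (fieldE p m K L Ω s0 n0)) := by
      rw [← Ideal.over_def 𝔔 𝔐]
      exact hmem
    rw [Ideal.under_def, Ideal.mem_comap, map_natCast] at h1
    exact h1
  have htower : 𝔔.ramificationIdx (𝓞 K) =
      𝔐.ramificationIdx (𝓞 K) * 𝔔.ramificationIdx (𝓞 (fieldE p m K L Ω s0 n0)) :=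
    Ideal.ramificationIdx_tower 𝔐 𝔔
  have h1 : 𝔔.ramificationIdx (𝓞 K) = m - 1 := by
    rw [← H78.card_inertia_eq_ramificationIdx 𝔔 h𝔔,
      inertia_eq_ker h.hp h.hm h.hmp h.hunr 𝔔 h𝔔 hm𝔔, card_ker_eq h.hp h.hm h.hmp h.hunr]
  have h2 : 𝔔.ramificationIdx (𝓞 (fieldE p m K L Ω s0 n0)) = Nat.card (NN p m K L Ω) := by
    have := H78.ramificationIdx_fixedField (DD p m K L Ω s0 n0) 𝔔 h𝔔
    rw [inertia_eq_ker h.hp h.hm h.hmp h.hunr 𝔔 h𝔔 hm𝔔, ker_inf_DD h] at this
    exact this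
  rw [h1, h2, ← card_NN_mul (Ω := Ω) h, mul_comm] at htower
  have hpos : 0 < Nat.card (NN p m K L Ω) := Nat.card_pos
  exact (Nat.eq_of_mul_eq_mul_right hpos htower).symm

omit [IsCyclotomicExtension {p} ℚ K] in
/-- **hM of FC3**: an element of `Gal(Ω/E)` acting on `ζ_m` through a `p`-th power fixes `M`. -/
theorem apply_eq_of_pow (σ : Gal(Ω/(fieldE p m K L Ω s0 n0))) (a t : ℕ)
    (hσ : σ (IsCyclotomicExtension.zeta m L Ω) = IsCyclotomicExtension.zeta m L Ω ^ a)
    (ht : (t : ZMod m) ^ p = a) (x : fieldME p m K L Ω s0 n0) :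
    σ (algebraMap (fieldME p m K L Ω s0 n0) Ω x) = algebraMap (fieldME p m K L Ω s0 n0) Ω x := by
  haveI : Fact m.Prime := ⟨h.hm⟩
  have hD := restrictScalars_mem_DD (Ω := Ω) h σ
  have h1 : ((chi m L (σ.restrictScalars K) : (ZMod m)ˣ) : ZMod m) = (a : ZMod m) :=
    chi_eq_natCast (σ.restrictScalars K) a hσ
  have ht0 : (t : ZMod m) ≠ 0 := by
    intro h0
    rw [h0, zero_pow h.hp.ne_zero] at ht
    rw [← ht] at h1
    exact (chi m L (σ.restrictScalars K)).ne_zero h1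
  have h2 : chi m L (σ.restrictScalars K) ∈ Upow p m := by
    refine ⟨Units.mk0 (t : ZMod m) ht0, Units.ext ?_⟩
    rw [h1, ← ht]
    simp
  have hN := mem_NN_of_chi_mem_Upow h hD h2
  exact apply_eq_of_mem_NN h hN x.2

end ResInj

end Fermat.Agent.S14.H27
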