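import Mathlib
import Fermat.Agent.S14.H27_CrossFields

set_option autoImplicit false
set_option linter.style.haveILetI false
set_option linter.unusedSectionVars false

noncomputable section

namespace Fermat.Agent.S14.H27

open NumberField Polynomial
open scoped Pointwise IsMulCommutative

section Exist

variable {p m : ℕ} {K L : Type} [Field K] [Field L] [NumberField K] [NumberField L]
  [Algebra K L] [IsGalois K L] [IsMulCommutative Gal(L/K)]

/-- Existence of the crossing fields inside any `Ω = L(ζ_m)`. -/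
theorem nonempty_crossFields_of_isCyclotomicExtension
    (Ω : Type) [Field Ω] [NumberField Ω] [Algebra K Ω] [Algebra L Ω] [IsScalarTower K L Ω]
    [NeZero m] [IsCyclotomicExtension {m} L Ω]
    (hp : p.Prime) (hp2 : p ≠ 2) (hm : m.Prime) (hmp : m ≠ p) (hm1 : p ∣ m - 1)
    [IsCyclotomicExtension {p} ℚ K] (hKL : Module.finrank K L = p)
    (hunr : ∀ Q : Ideal (𝓞 L), Q.IsPrime → Q ≠ ⊥ → Q.ramificationIdx (𝓞 K) = 1)
    (s0 : Gal(L/K)) (hs0 : s0 ≠ 1) (n0 : ZMod m) (hn0 : ¬ ∃ x : ZMod m, x ^ p = n0) :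
    Nonempty (H80.CrossFields p m K L s0 n0) := by
  haveI : Fact m.Prime := ⟨hm⟩
  haveI : Normal K Ω := normal_of_isCyclotomicExtension m K L Ω
  haveI : IsGalois K Ω := ⟨⟩
  -- the unit `n0`
  have hn00 : n0 ≠ 0 := by
    rintro rfl
    exact hn0 ⟨0, zero_pow hp.ne_zero⟩
  set n0u : (ZMod m)ˣ := Units.mk0 n0 hn00 with hn0u
  have hn0' : n0u ∉ Upow p m := by
    rintro ⟨v, hv⟩
    apply hn0
    refine ⟨(v : ZMod m), ?_⟩
    have := congrArg (fun u : (ZMod m)ˣ => (u : ZMod m)) hv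
    simpa [hn0u] using this
  have h : CrossHyp p m K L s0 n0u := ⟨hp, hm, hmp, hm1, hKL, hunr, hs0, hn0'⟩
  -- instances
  haveI : IsMulCommutative Gal(Ω/K) := isMulCommutative_gal_top (m := m) (L := L)
  haveI hcommE : IsMulCommutative Gal(Ω/(fieldE p m K L Ω s0 n0u)) :=
    isMulCommutative_gal_of_intermediateField _
  haveI hgalEM := isGalois_fieldME (Ω := Ω) h
  haveI hcommEM : IsMulCommutative
      Gal((fieldME p m K L Ω s0 n0u)/(fieldE p m K L Ω s0 n0u)) :=
    isMulCommutative_gal_of_normal (K := fieldE p m K L Ω s0 n0u) (Ω := Ω)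
      (fieldME p m K L Ω s0 n0u)
  haveI hgalKE : IsGalois K (fieldE p m K L Ω s0 n0u) := isGalois_of_isMulCommutative _
  letI algLM : Algebra L (fieldME p m K L Ω s0 n0u) := (algLME p m K L Ω s0 n0u).toAlgebra
  haveI towerKLM : IsScalarTower K L (fieldME p m K L Ω s0 n0u) :=
    IsScalarTower.of_algebraMap_eq fun x => Subtype.ext (IsScalarTower.algebraMap_apply K L Ω x)
  have hres : ∀ σ : Gal((fieldME p m K L Ω s0 n0u)/(fieldE p m K L Ω s0 n0u)),
      (∀ x : L, σ (algebraMap L (fieldME p m K L Ω s0 n0u) x)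
        = algebraMap L (fieldME p m K L Ω s0 n0u) x) → σ = 1 :=
    fun σ hσ => res_inj_fieldME h σ hσ
  have hunrM : ∀ 𝔓 : Ideal (𝓞 (fieldME p m K L Ω s0 n0u)), 𝔓.IsPrime → 𝔓 ≠ ⊥ →
      𝔓.ramificationIdx (𝓞 (fieldE p m K L Ω s0 n0u)) = 1 :=
    H78.ramificationIdx_eq_one_of_res_inj (K := K) (L := L) hres hunr
  refine ⟨{
    E := fieldE p m K L Ω s0 n0u
    M := fieldME p m K L Ω s0 n0u
    algebraLM := algLM
    towerKLM := towerKLM
    isGaloisEM := hgalEM
    commGalEM := hcommEM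
    finrank_EM := finrank_fieldME h
    finrank_KE := finrank_fieldE h
    res_inj := hres
    unram := hunrM
    split := ?_
    principal := ?_ }⟩
  · intro Q _ hQ hmQ k hfrob hnorm
    refine split_fieldE h Q hQ hmQ k hfrob ?_
    simpa [hn0u] using hnorm
  · intro β hβ
    by_cases hβ0 : β = 0
    · subst hβ0
      rw [Ideal.span_singleton_eq_bot.mpr rfl]
      exact artin_bot
    obtain ⟨t, ht⟩ := H94.elementary_reciprocity' hp hp2 hm hmp hm1 (K := K)
      (E := fieldE p m K L Ω s0 n0u) (finrank_fieldE h)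
      (fun 𝔐 h𝔐 hmem => by haveI := h𝔐; exact ramificationIdx_fieldE h 𝔐 hmem) β hβ
    exact H69.artin_eq_one_of_absNorm_pow (E := fieldE p m K L Ω s0 n0u)
      (M := fieldME p m K L Ω s0 n0u) (N := Ω)
      (fun P hP hP0 => hunrM P hP hP0) p m hm (IsCyclotomicExtension.zeta m L Ω)
      (IsCyclotomicExtension.zeta_spec m L Ω)
      (fun σ a t hσ ht x => apply_eq_of_pow h σ a t hσ ht x)
      (Ideal.span {β}) (by rwa [Ne, Ideal.span_singleton_eq_bot]) hβ t ht

/-- **Existence of the crossing fields** (statement of `H80.nonempty_crossFields`, board #613). -/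
theorem nonempty_crossFields (hp : p.Prime) (hp2 : p ≠ 2) (hm : m.Prime) (hmp : m ≠ p)
    (hm1 : p ∣ m - 1) [IsCyclotomicExtension {p} ℚ K] (hKL : Module.finrank K L = p)
    (hunr : ∀ Q : Ideal (𝓞 L), Q.IsPrime → Q ≠ ⊥ → Q.ramificationIdx (𝓞 K) = 1)
    (s0 : Gal(L/K)) (hs0 : s0 ≠ 1) (n0 : ZMod m) (hn0 : ¬ ∃ x : ZMod m, x ^ p = n0) :
    Nonempty (H80.CrossFields p m K L s0 n0) := by
  haveI : NeZero m := ⟨hm.ne_zero⟩
  exact nonempty_crossFields_of_isCyclotomicExtension (CyclotomicField m L) hp hp2 hm hmp hm1 hKL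
    hunr s0 hs0 n0 hn0

end Exist

end Fermat.Agent.S14.H27
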