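import Mathlib
import Fermat.Agent.S14.Common
import Fermat.Agent.S14.H27_BaseChange
import Fermat.Agent.S14.H27_Tower

set_option autoImplicit false

noncomputable section

namespace Fermat.Agent.S14.H27

open NumberField UniqueFactorizationMonoid
open scoped Pointwise IsMulCommutative

/-! Wrappers of the Artin-symbol API for extensions that are unramified everywhere, in the shared
hypothesis shape `Fermat.Agent.S14.IsUnramifiedEverywhere K L`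
(`∀ P : Ideal (𝓞 L), P.IsPrime → P ≠ ⊥ → P.ramificationIdx (𝓞 K) = 1`). -/

section Shapes

variable {K L : Type*} [Field K] [Field L] [NumberField K] [NumberField L] [Algebra K L]

theorem isUnramifiedEverywhere_iff :
    IsUnramifiedEverywhere K L ↔
      ∀ (P : Ideal (𝓞 L)) [P.IsPrime], P ≠ ⊥ → P.ramificationIdx (𝓞 K) = 1 :=
  ⟨fun h P hP hP0 => h P hP hP0, fun h P hP hP0 => @h P hP hP0⟩

theorem isUnramifiedAt_of_unr (h : IsUnramifiedEverywhere K L)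
    (P : Ideal (𝓞 L)) [hP : P.IsPrime] (hP0 : P ≠ ⊥) : Algebra.IsUnramifiedAt (𝓞 K) P :=
  Ideal.ramificationIdx_eq_one_iff.mp (h P hP hP0)

theorem isUnramifiedEverywhere_of_isUnramifiedAt
    (h : ∀ (P : Ideal (𝓞 L)) [P.IsPrime], P ≠ ⊥ → Algebra.IsUnramifiedAt (𝓞 K) P) :
    IsUnramifiedEverywhere K L :=
  fun P hP hP0 => Ideal.ramificationIdx_eq_one_iff.mpr (@h P hP hP0)

end Shapes

section Abelian

variable {K L : Type*} [Field K] [Field L] [NumberField K] [NumberField L]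
  [Algebra K L] [IsGalois K L] [IsMulCommutative Gal(L/K)]

/-- unramified abelian `L/K`: the Artin symbol of `𝔭` is trivial iff (some, equivalently any)
prime above has residue degree one. -/
theorem frobP_eq_one_iff_of_unr (h : IsUnramifiedEverywhere K L)
    (𝔭 : Ideal (𝓞 K)) [𝔭.IsPrime] (h𝔭 : 𝔭 ≠ ⊥) (𝔓 : Ideal (𝓞 L)) [𝔓.IsPrime] [𝔓.LiesOver 𝔭] :
    frobP L 𝔭 = 1 ↔ 𝔓.inertiaDeg (𝓞 K) = 1 :=
  H27.frobP_eq_one_iff 𝔭 h𝔭 𝔓 (isUnramifiedAt_of_unr h 𝔓 (Ideal.ne_bot_of_liesOver_of_ne_bot h𝔭 𝔓))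

theorem orderOf_frobP_of_unr (h : IsUnramifiedEverywhere K L)
    (𝔭 : Ideal (𝓞 K)) [𝔭.IsPrime] (h𝔭 : 𝔭 ≠ ⊥) (𝔓 : Ideal (𝓞 L)) [𝔓.IsPrime] [𝔓.LiesOver 𝔭] :
    orderOf (frobP L 𝔭) = 𝔓.inertiaDeg (𝓞 K) :=
  H27.orderOf_frobP 𝔭 h𝔭 𝔓 (isUnramifiedAt_of_unr h 𝔓 (Ideal.ne_bot_of_liesOver_of_ne_bot h𝔭 𝔓))

/-- unramified abelian `L/K`: a prime with trivial Artin symbol is the norm of every prime above. -/
theorem relNorm_eq_of_frobP_eq_one_of_unr (h : IsUnramifiedEverywhere K L)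
    (𝔭 : Ideal (𝓞 K)) [𝔭.IsPrime] (h𝔭 : 𝔭 ≠ ⊥) (𝔓 : Ideal (𝓞 L)) [𝔓.IsPrime] [𝔓.LiesOver 𝔭]
    (h1 : frobP L 𝔭 = 1) : Ideal.relNorm (𝓞 K) 𝔓 = 𝔭 :=
  H27.relNorm_eq_of_frobP_eq_one 𝔭 h𝔭 𝔓
    (isUnramifiedAt_of_unr h 𝔓 (Ideal.ne_bot_of_liesOver_of_ne_bot h𝔭 𝔓)) h1

/-- unramified abelian `L/K`: a prime with trivial Artin symbol is a relative norm. -/
theorem exists_relNorm_eq_of_frobP_eq_one_of_unr (h : IsUnramifiedEverywhere K L)
    (𝔭 : Ideal (𝓞 K)) [𝔭.IsPrime] (h𝔭 : 𝔭 ≠ ⊥) (h1 : frobP L 𝔭 = 1) :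
    ∃ 𝔓 : Ideal (𝓞 L), 𝔓.IsPrime ∧ 𝔓 ≠ ⊥ ∧ Ideal.relNorm (𝓞 K) 𝔓 = 𝔭 := by
  obtain ⟨⟨𝔓, h𝔓prime, h𝔓over⟩⟩ := 𝔭.nonempty_primesOver (S := 𝓞 L)
  exact ⟨𝔓, h𝔓prime, Ideal.ne_bot_of_liesOver_of_ne_bot h𝔭 𝔓,
    relNorm_eq_of_frobP_eq_one_of_unr h 𝔭 h𝔭 𝔓 h1⟩

/-- unramified abelian `L/K`: all relative norms are in the kernel of the Artin map. -/
theorem artin_relNorm_of_unr (h : IsUnramifiedEverywhere K L)
    (𝔄 : Ideal (𝓞 L)) : artin L (Ideal.relNorm (𝓞 K) 𝔄) = 1 :=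
  H27.artin_relNorm 𝔄 fun 𝔓 _ h𝔓 _ => isUnramifiedAt_of_unr h 𝔓 h𝔓

/-- unramified abelian `L/K` of degree `n`: the Artin symbol of an `n`-th power is trivial. -/
theorem artin_pow_finrank {𝔞 : Ideal (𝓞 K)} (h𝔞 : 𝔞 ≠ ⊥) :
    artin L (𝔞 ^ Module.finrank K L) = 1 := by
  rw [artin_pow h𝔞, ← IsGalois.card_aut_eq_finrank, pow_card_eq_one']

end Abelian

section BaseChange

variable {K E L L' : Type*} [Field K] [Field E] [Field L] [Field L']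
  [NumberField K] [NumberField E] [NumberField L] [NumberField L']
  [Algebra K E] [Algebra K L] [Algebra E L'] [Algebra L L'] [Algebra K L']
  [IsScalarTower K E L'] [IsScalarTower K L L'] [IsGalois K L] [IsGalois E L']

/-- `resHom` is the restriction map in the shape used by the crossing skeleton. -/
theorem resHom_apply (σ : Gal(L'/E)) :
    resHom K L σ = (σ.restrictScalars K).restrictNormal L := rfl

/-- **(F7) for `L/K` unramified everywhere**: `(𝔄, L'/E)|_L = (N_{E/K} 𝔄, L/K)` for every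
ideal `𝔄` of `𝓞 E`. -/
theorem resHom_artin_of_unr [IsMulCommutative Gal(L/K)]
    [IsMulCommutative Gal(L'/E)] (h : IsUnramifiedEverywhere K L) (𝔄 : Ideal (𝓞 E)) :
    resHom K L (artin L' 𝔄) = artin L (Ideal.relNorm (𝓞 K) 𝔄) :=
  H27.resHom_artin 𝔄 fun 𝔓 _ h𝔓 _ => isUnramifiedAt_of_unr h 𝔓 h𝔓

theorem restrictScalars_restrictNormal_artin_of_unr [IsMulCommutative Gal(L/K)]
    [IsMulCommutative Gal(L'/E)] (h : IsUnramifiedEverywhere K L) (𝔄 : Ideal (𝓞 E)) :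
    ((artin L' 𝔄).restrictScalars K).restrictNormal L = artin L (Ideal.relNorm (𝓞 K) 𝔄) :=
  resHom_artin_of_unr h 𝔄

end BaseChange

section Tower

variable {K₀ K L : Type*} [Field K₀] [Field K] [Field L]
  [NumberField K₀] [NumberField K] [NumberField L]
  [Algebra K₀ K] [Algebra K L] [Algebra K₀ L] [IsScalarTower K₀ K L] [Normal K₀ K]
  [IsGalois K L] [IsMulCommutative Gal(L/K)]

/-- **(F2') for `L/K` unramified everywhere.** -/
theorem frobP_smul_tower_apply_of_unr (h : IsUnramifiedEverywhere K L)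
    (τ : Gal(L/K₀)) (𝔭 : Ideal (𝓞 K)) (x : L) :
    frobP L (τ.restrictNormal K • 𝔭) x = τ (frobP L 𝔭 (τ.symm x)) :=
  H27.frobP_smul_tower_apply τ 𝔭 (fun 𝔓 _ h𝔓 _ => isUnramifiedAt_of_unr h 𝔓 h𝔓) x

/-- (F2') in the shape of WP7: if conjugation by `τ` raises elements of `Gal(L/K)` to the `a`-th
power, then the Artin symbol of `τ𝔭` is the `a`-th power of that of `𝔭`. -/
theorem frobP_smul_eq_pow_of_unr (h : IsUnramifiedEverywhere K L)
    (τ : Gal(L/K₀)) (a : ℕ) (hconj : ∀ (g : Gal(L/K)) (x : L), τ (g (τ.symm x)) = (g ^ a) x)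
    (𝔭 : Ideal (𝓞 K)) : frobP L (τ.restrictNormal K • 𝔭) = frobP L 𝔭 ^ a := by
  ext x
  rw [frobP_smul_tower_apply_of_unr h τ 𝔭 x, hconj]

end Tower

end Fermat.Agent.S14.H27
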