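import Mathlib
import Fermat.Agent.S14.Common
import Fermat.Agent.S14.H18_Reciprocity
import Fermat.Agent.S14.H63_FirstInequality
import Fermat.Agent.S14.H27_Unr

set_option autoImplicit false

noncomputable section

namespace Fermat.Agent.S14.H27

open NumberField
open scoped Pointwise IsMulCommutative nonZeroDivisors

/-! Instantiation of the abstract reciprocity statement `H18.cls_mem_iff_eq_one` at
`R := 𝓞 K`, `G := Gal(L/K)`, `f := artin L`, `N := normSubgroupNF K L`, for `L/K` unramified cyclic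
of odd prime degree `p`.  The only remaining inputs are the crossing lemma (`hcross`) and the
triviality of the symbol at the primes above `p` (`hbad`). -/

section ClNorm

variable {K L : Type*} [Field K] [Field L] [NumberField K] [NumberField L] [Algebra K L]
  [IsGalois K L]

/-- the two norm maps on class groups in the project coincide. -/
theorem clNorm_eq_classNormNF : H63.clNorm K (L := L) = classNormNF K L := by
  ext c
  obtain ⟨I, rfl⟩ := ClassGroup.mk0_surjective c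
  rw [H63.clNorm_mk0, classNorm_mk0]
  rfl

theorem range_clNorm_eq_normSubgroupNF :
    (H63.clNorm K (L := L)).range = normSubgroupNF K L := by
  rw [clNorm_eq_classNormNF]
  rfl

/-- the class of the relative norm of a nonzero ideal is a norm class. -/
theorem cls_relNorm_mem_normSubgroupNF {𝔄 : Ideal (𝓞 L)} (h𝔄 : 𝔄 ≠ ⊥) :
    H18.cls (Ideal.relNorm (𝓞 K) 𝔄) ∈ normSubgroupNF K L := by
  have h' : Ideal.relNorm (𝓞 K) 𝔄 ≠ ⊥ := by rwa [Ne, Ideal.relNorm_eq_bot_iff]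
  rw [H18.cls_of_ne_bot h']
  exact mk0_relNorm_mem_normSubgroup (𝓞 K) (𝓞 L) ⟨𝔄, mem_nonZeroDivisors_iff_ne_zero.mpr h𝔄⟩

/-- `x ^ [L:K]` is a norm class for every ideal class `x` of `K`. -/
theorem pow_finrank_mem_normSubgroupNF (x : ClassGroup (𝓞 K)) :
    x ^ Module.finrank K L ∈ normSubgroupNF K L := by
  obtain ⟨I, rfl⟩ := ClassGroup.mk0_surjective x
  have hI0 : (I : Ideal (𝓞 K)) ≠ ⊥ := mem_nonZeroDivisors_iff_ne_zero.mp I.2
  have hmap : (I : Ideal (𝓞 K)).map (algebraMap (𝓞 K) (𝓞 L)) ≠ ⊥ := by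
    rw [Ne, Ideal.map_eq_bot_iff_of_injective (RingOfIntegers.algebraMap.injective K L)]
    exact hI0
  have h := cls_relNorm_mem_normSubgroupNF (K := K) hmap
  rw [Ideal.relNorm_algebraMap, ← IsFractionRing.finrank_eq (𝓞 K) K (𝓞 L) L] at h
  rwa [← map_pow, ← H18.cls_coe, SubmonoidClass.coe_pow]

end ClNorm

section Main

variable {K L : Type} [Field K] [Field L] [NumberField K] [NumberField L] [Algebra K L]
  [IsGalois K L]

/-- **(A) in the shape consumed by Step 5**: for `L/K` unramified cyclic of odd prime degree, not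
every ideal class of `K` is a norm class. -/
theorem normSubgroupNF_ne_top {p : ℕ} [hp : Fact p.Prime] (hp2 : p ≠ 2)
    (hKL : Module.finrank K L = p) (hunr : IsUnramifiedEverywhere K L) :
    normSubgroupNF K L ≠ ⊤ := by
  have hcard : Nat.card Gal(L/K) = p := by rw [IsGalois.card_aut_eq_finrank, hKL]
  haveI : IsCyclic Gal(L/K) := isCyclic_of_prime_card hcard
  obtain ⟨σ, hσ⟩ := IsCyclic.exists_generator (α := Gal(L/K))
  have h1 := H63.first_inequality hp2 hKL σ hσ hunr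
  intro htop
  rw [range_clNorm_eq_normSubgroupNF, htop, Subgroup.card_top] at h1
  have hpos : 0 < Nat.card (ClassGroup (𝓞 K)) := Nat.card_pos
  have h2 : 2 ≤ p := hp.out.two_le
  nlinarith

variable [IsMulCommutative Gal(L/K)]

/-- **Reciprocity for `L/K` from the crossing lemma**: an ideal class is a norm class iff the
Artin symbol is trivial. -/
theorem cls_mem_normSubgroupNF_iff {p : ℕ} [hp : Fact p.Prime] (hp2 : p ≠ 2)
    (hKL : Module.finrank K L = p) (hunr : IsUnramifiedEverywhere K L)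
    (hbad : ∀ Q : Ideal (𝓞 K), Q.IsPrime → Q ≠ ⊥ → (p : 𝓞 K) ∈ Q → artin L Q = 1)
    (hcross : ∀ q0 q1 : ℕ, q0.Prime → q1.Prime → q0 ≠ q1 → ¬ q0 = p → ¬ q1 = p →
      ∀ Q0 Q1 : Ideal (𝓞 K), Q0.IsPrime → Q1.IsPrime → Q0 ≠ ⊥ → Q1 ≠ ⊥ →
      (q0 : 𝓞 K) ∈ Q0 → (q1 : 𝓞 K) ∈ Q1 → artin L Q0 ≠ 1 → artin L Q1 ≠ 1 →
      ∀ d : ℕ, artin L Q1 = artin L Q0 ^ d →
        H18.cls Q1 * (H18.cls Q0 ^ d)⁻¹ ∈ normSubgroupNF K L)
    (𝔞 : Ideal (𝓞 K)) (h𝔞 : 𝔞 ≠ ⊥) :
    H18.cls 𝔞 ∈ normSubgroupNF K L ↔ artin L 𝔞 = 1 := by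
  have hcard : Nat.card Gal(L/K) = p := by rw [IsGalois.card_aut_eq_finrank, hKL]
  refine H18.cls_mem_iff_eq_one hcard (artin L) (fun 𝔞 𝔟 h𝔞 h𝔟 => artin_mul h𝔞 h𝔟)
    (normSubgroupNF K L) (normSubgroupNF_ne_top hp2 hKL hunr) ?_
    (fun Q hQ hQ0 => H18.exists_prime_mem_of_isPrime Q hQ hQ0) (fun q => q = p) ?_ ?_ hcross 𝔞 h𝔞
  · intro x
    rw [← hKL]
    exact pow_finrank_mem_normSubgroupNF x
  · rintro q rfl Q hQ hQ0 hmem
    exact hbad Q hQ hQ0 hmem
  · intro Q hQ hQ0 h1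
    haveI := hQ
    rw [artin_prime Q hQ0] at h1
    obtain ⟨𝔓, h𝔓prime, h𝔓0, h𝔓norm⟩ := exists_relNorm_eq_of_frobP_eq_one_of_unr hunr Q hQ0 h1
    rw [← h𝔓norm]
    exact cls_relNorm_mem_normSubgroupNF h𝔓0

/-- **(R)**: principal ideals have trivial Artin symbol. -/
theorem artin_span_singleton_eq_one {p : ℕ} [hp : Fact p.Prime] (hp2 : p ≠ 2)
    (hKL : Module.finrank K L = p) (hunr : IsUnramifiedEverywhere K L)
    (hbad : ∀ Q : Ideal (𝓞 K), Q.IsPrime → Q ≠ ⊥ → (p : 𝓞 K) ∈ Q → artin L Q = 1)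
    (hcross : ∀ q0 q1 : ℕ, q0.Prime → q1.Prime → q0 ≠ q1 → ¬ q0 = p → ¬ q1 = p →
      ∀ Q0 Q1 : Ideal (𝓞 K), Q0.IsPrime → Q1.IsPrime → Q0 ≠ ⊥ → Q1 ≠ ⊥ →
      (q0 : 𝓞 K) ∈ Q0 → (q1 : 𝓞 K) ∈ Q1 → artin L Q0 ≠ 1 → artin L Q1 ≠ 1 →
      ∀ d : ℕ, artin L Q1 = artin L Q0 ^ d →
        H18.cls Q1 * (H18.cls Q0 ^ d)⁻¹ ∈ normSubgroupNF K L)
    {x : 𝓞 K} (hx : x ≠ 0) : artin L (Ideal.span {x}) = 1 := by
  have h : Ideal.span {x} ≠ (⊥ : Ideal (𝓞 K)) := by rwa [Ne, Ideal.span_singleton_eq_bot]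
  rw [← cls_mem_normSubgroupNF_iff hp2 hKL hunr hbad hcross _ h, H18.cls_span_singleton hx]
  exact (normSubgroupNF K L).one_mem

/-- If all prime ideals have trivial Artin symbol then every ideal class is a norm class; this
contradicts the first inequality. -/
theorem false_of_forall_artin_prime_eq_one {p : ℕ} [hp : Fact p.Prime] (hp2 : p ≠ 2)
    (hKL : Module.finrank K L = p) (hunr : IsUnramifiedEverywhere K L)
    (h1 : ∀ Q : Ideal (𝓞 K), Q.IsPrime → Q ≠ ⊥ → artin L Q = 1) : False := by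
  apply normSubgroupNF_ne_top hp2 hKL hunr
  apply H18.subgroup_eq_top_of_forall_prime (normSubgroupNF K L) (I := ⊤) top_ne_bot
  intro Q hQ hQ0 _
  haveI := hQ
  have h2 := h1 Q hQ hQ0
  rw [artin_prime Q hQ0] at h2
  obtain ⟨𝔓, h𝔓prime, h𝔓0, h𝔓norm⟩ := exists_relNorm_eq_of_frobP_eq_one_of_unr hunr Q hQ0 h2
  have := cls_relNorm_mem_normSubgroupNF (K := K) h𝔓0
  rwa [h𝔓norm, H18.cls_of_ne_bot hQ0] at this

end Main

end Fermat.Agent.S14.H27
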