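import Mathlib
import Fermat.Agent.S14.H31_EulerChi
import Fermat.Agent.S14.H34_LBounded

/-!
# S14 / WP4 : the analytic second inequality with all `L`-series inputs discharged

`index_le_of_lower_density` is `H79.index_le_of_density_eventually` with `hsum`, `hEuler`, `hA`
(from `H31_EulerChi`) and `hB` (from `H34_LBounded`) filled in: the only remaining hypothesis is
the lower density bound `hC` for the set `S` of primes.
-/

set_option autoImplicit false

open NumberField Ideal IsDedekindDomain nonZeroDivisors Filter Topology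

namespace Fermat.Agent.S14.H31

open Fermat.Agent.S14.H79

variable (E : Type*) [Field E] [NumberField E]

/-- **`hB`** of `H79.index_le_of_density_eventually`. -/
theorem exists_classL_bound (χ : ClassGroup (𝓞 E) →* ℂˣ) (hχ : χ ≠ 1) :
    ∃ B : ℝ, ∀ᶠ s in 𝓝[>] (1 : ℝ), ‖classL E χ s‖ ≤ B := by
  obtain ⟨B, hB⟩ := Fermat.Agent.S14.H34.classLSeries_bounded E χ hχ
  refine ⟨B, ?_⟩
  filter_upwards [Ioc_mem_nhdsGT (show (1 : ℝ) < 2 by norm_num)] with s hs
  exact hB s hs.1 hs.2

/-- **Second inequality, density form**, all `L`-series inputs discharged: if a set `S` of primes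
of `E` has lower Dirichlet density `≥ 1 / n` (log-sum form) and `H` is a subgroup of the class
group containing the classes of all primes in `S`, then `H.index ≤ n`. -/
theorem index_le_of_lower_density
    (S : Set (HeightOneSpectrum (𝓞 E))) (n : ℕ) (hn : 0 < n)
    (hC : ∃ C : ℝ, ∀ᶠ s in 𝓝[>] (1 : ℝ),
      (1 / n : ℝ) * Real.log (1 / (s - 1)) - C ≤ ∑' P : S, (absNorm P.1.asIdeal : ℝ) ^ (-s))
    (H : Subgroup (ClassGroup (𝓞 E)))
    (hH : ∀ P ∈ S, ClassGroup.mk0 (primeIdeal0 E P) ∈ H) :
    H.index ≤ n :=
  index_le_of_density_eventually E (summable_primeIdeal_rpow E) (hasProd_classL E)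
    (exists_classL_one_bound E) (exists_classL_bound E) S n hn hC H hH

end Fermat.Agent.S14.H31
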