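import Mathlib
import Fermat.Agent.S14.H31_EulerChi
import Fermat.Agent.S14.H34_LBounded
import Fermat.Agent.S14.H79_SecondInequalityFinal

/-!
# S14 / WP4 : the second inequality of class field theory, unconditional

For an arbitrary extension `M / E` of number fields, every subgroup `H` of the class group of `E`
containing the classes of all primes of `E` with a prime of `M` of relative degree one above has
index `≤ [M : E]`; in particular `(normSubgroupNF E M).index ≤ [M : E]`.

This is `H79.second_inequality_of_idealCountError` / `H79.index_normSubgroupNF_le_of` with all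
analytic inputs discharged (`H31_EulerChi`, `H34_LBounded`).
-/

set_option autoImplicit false

open NumberField Ideal IsDedekindDomain nonZeroDivisors Filter Topology

namespace Fermat.Agent.S14.H31

open Fermat.Agent.S14 Fermat.Agent.S14.H79

/-- **Euler product of the Dedekind zeta function** over the prime ideals, real `s > 1`
(`hEulerM` of `H79.second_inequality_of`). -/
theorem hasProd_dedekindZeta (M : Type*) [Field M] [NumberField M] : ∀ s : ℝ, 1 < s →
    HasProd (fun 𝔓 : HeightOneSpectrum (𝓞 M) =>
      (1 - (absNorm 𝔓.asIdeal : ℂ) ^ (-(s : ℂ)))⁻¹) (dedekindZeta M (s : ℂ)) := by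
  intro s hs
  have h := hasProd_classL M 1 s hs
  rw [← dedekindZeta_eq_classL_one M s hs] at h
  refine h.congr_fun fun 𝔓 => ?_
  simp

variable (E M : Type*) [Field E] [NumberField E] [Field M] [NumberField M] [Algebra E M]

/-- **Second inequality** (analytic proof), for an arbitrary extension `M / E` of number fields. -/
theorem second_inequality (H : Subgroup (ClassGroup (𝓞 E)))
    (hH : ∀ (𝔓 : Ideal (𝓞 M)) (_ : 𝔓.IsPrime) (_ : 𝔓 ≠ ⊥),
      𝔓.inertiaDeg (𝓞 E) = 1 →
      ∀ hP : 𝔓.under (𝓞 E) ∈ (Ideal (𝓞 E))⁰,
        ClassGroup.mk0 ⟨𝔓.under (𝓞 E), hP⟩ ∈ H) :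
    H.index ≤ Module.finrank E M :=
  second_inequality_of_idealCountError E M (summable_primeIdeal_rpow E) (hasProd_classL E)
    (dedekindZeta_eq_classL_one E) (Fermat.Agent.S14.H34.idealCountError E)
    (hasProd_dedekindZeta M) H hH

/-- **Second inequality**: the norm subgroup of the class group has index at most the degree. -/
theorem index_normSubgroupNF_le :
    (normSubgroupNF E M).index ≤ Module.finrank E M :=
  index_normSubgroupNF_le_of E M (summable_primeIdeal_rpow E) (hasProd_classL E)
    (dedekindZeta_eq_classL_one E) (Fermat.Agent.S14.H34.idealCountError E)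
    (hasProd_dedekindZeta M)

end Fermat.Agent.S14.H31
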