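import Mathlib

/-!
# S14 / WP5 (d): norms from a totally ramified layer are `p`-th powers modulo `m`

Setting of the crossing argument: `K ⊆ E` number fields, `E/K` Galois of degree `p`, `m` a rational
prime such that every prime `𝔐` of `𝓞 E` above `m` has absolute norm `m` (degree one) and the whole
group `Gal(E/K)` acts trivially on `𝓞 E ⧸ 𝔐` (i.e. `E/K` is totally ramified at `𝔐`), and `K/ℚ` is
Galois.  Then for every `γ : 𝓞 E` the absolute norm `N_{E/ℚ}(γ)` is a `p`-th power modulo `m`.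

This is step (d) of the crossing blueprint: principal ideals of `E` lie in the kernel of the Artin map
of the sub-cyclotomic extension `E·ℚ_m / E`.
-/

set_option autoImplicit false

open NumberField

namespace Fermat.Agent.S14.H45

section Residue

variable {E : Type*} [Field E] [NumberField E]

/-- If a prime `𝔐` of `𝓞 E` has prime absolute norm `m`, every residue class mod `𝔐` contains a
rational integer. -/
theorem exists_int_sub_mem {m : ℕ} (hm : m.Prime) (𝔐 : Ideal (𝓞 E))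
    (hN : Ideal.absNorm 𝔐 = m) (x : 𝓞 E) : ∃ u : ℤ, x - (u : 𝓞 E) ∈ 𝔐 := by
  haveI : Fact m.Prime := ⟨hm⟩
  have hcard : Nat.card (𝓞 E ⧸ 𝔐) = m := by
    rw [← hN, Ideal.absNorm_apply, Submodule.cardQuot_apply]
  have hne : (1 : 𝓞 E ⧸ 𝔐) ≠ 0 := by
    intro h
    have hsub : Subsingleton (𝓞 E ⧸ 𝔐) := subsingleton_of_zero_eq_one h.symm
    have : Nat.card (𝓞 E ⧸ 𝔐) = 1 := Nat.card_unique
    rw [hcard] at this
    exact hm.one_lt.ne' this
  have htop : AddSubgroup.zmultiples (1 : 𝓞 E ⧸ 𝔐) = ⊤ :=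
    zmultiples_eq_top_of_prime_card hcard hne
  have hx : Ideal.Quotient.mk 𝔐 x ∈ AddSubgroup.zmultiples (1 : 𝓞 E ⧸ 𝔐) := by
    rw [htop]; trivial
  obtain ⟨u, hu⟩ := AddSubgroup.mem_zmultiples_iff.mp hx
  refine ⟨u, ?_⟩
  rw [← Ideal.Quotient.eq_zero_iff_mem, map_sub, ← hu]
  simp

end Residue

section Galois

variable {K E : Type*} [Field K] [NumberField K] [Field E] [NumberField E] [Algebra K E]
  [IsGalois K E]

/-- The relative norm, viewed in `𝓞 E`, is the product of the Galois conjugates. -/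
theorem algebraMap_norm_eq_prod (γ : 𝓞 E) :
    algebraMap (𝓞 K) (𝓞 E) (RingOfIntegers.norm K γ) = ∏ g : Gal(E/K), g • γ := by
  ext
  rw [RingOfIntegers.coe_algebraMap_norm K γ, Algebra.norm_eq_prod_automorphisms]
  simp only [map_prod]
  rfl

/-- If the whole Galois group acts trivially modulo `𝔐`, the relative norm of `γ` is congruent to
`γ ^ [E:K]` modulo `𝔐`. -/
theorem algebraMap_norm_sub_pow_mem (𝔐 : Ideal (𝓞 E))
    (hinert : ∀ (g : Gal(E/K)) (x : 𝓞 E), g • x - x ∈ 𝔐) (γ : 𝓞 E) :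
    algebraMap (𝓞 K) (𝓞 E) (RingOfIntegers.norm K γ) - γ ^ Module.finrank K E ∈ 𝔐 := by
  rw [← Ideal.Quotient.eq_zero_iff_mem, map_sub, sub_eq_zero, algebraMap_norm_eq_prod, map_prod,
    map_pow]
  have h : ∀ g : Gal(E/K), Ideal.Quotient.mk 𝔐 (g • γ) = Ideal.Quotient.mk 𝔐 γ := by
    intro g
    rw [← sub_eq_zero, ← map_sub, Ideal.Quotient.eq_zero_iff_mem]
    exact hinert g γ
  simp only [h, Finset.prod_const, Finset.card_univ]
  congr 1
  rw [← Nat.card_eq_fintype_card, IsGalois.card_aut_eq_finrank]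

end Galois

section Main

variable {K E : Type*} [Field K] [NumberField K] [Field E] [NumberField E] [Algebra K E]
  [IsGalois K E]

/-- An integer lying in a proper ideal that contains the prime `m` is divisible by `m`. -/
theorem int_dvd_of_mem {R : Type*} [CommRing R] {m : ℕ} (hm : m.Prime) (I : Ideal R) (hI : I ≠ ⊤)
    (hmI : (m : R) ∈ I) {k : ℤ} (hk : (k : R) ∈ I) : (m : ℤ) ∣ k := by
  by_contra h
  have hcop : IsCoprime (m : ℤ) k :=
    ((Nat.prime_iff_prime_int.mp hm).coprime_iff_not_dvd).mpr h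
  obtain ⟨a, b, hab⟩ := hcop
  apply hI
  rw [Ideal.eq_top_iff_one]
  have : ((a * (m : ℤ) + b * k : ℤ) : R) ∈ I := by
    push_cast
    exact I.add_mem (I.mul_mem_left _ hmI) (I.mul_mem_left _ hk)
  rw [hab] at this
  simpa using this

/-- Step 3: modulo every prime of `𝓞 K` above `m`, the relative norm of `γ` is a `p`-th power of a
rational integer. -/
theorem exists_int_norm_sub_pow_mem {m : ℕ} (hm : m.Prime)
    (hdeg1 : ∀ 𝔐 : Ideal (𝓞 E), 𝔐.IsPrime → (m : 𝓞 E) ∈ 𝔐 → Ideal.absNorm 𝔐 = m)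
    (hinert : ∀ 𝔐 : Ideal (𝓞 E), 𝔐.IsPrime → (m : 𝓞 E) ∈ 𝔐 →
      ∀ (g : Gal(E/K)) (x : 𝓞 E), g • x - x ∈ 𝔐)
    (γ : 𝓞 E) (𝔪 : Ideal (𝓞 K)) [𝔪.IsPrime] (hm𝔪 : (m : 𝓞 K) ∈ 𝔪) :
    ∃ u : ℤ, RingOfIntegers.norm K γ - (u : 𝓞 K) ^ Module.finrank K E ∈ 𝔪 := by
  obtain ⟨𝔐, -, h𝔐p, h𝔐c⟩ :=
    Ideal.exists_ideal_over_prime_of_isIntegral (S := 𝓞 E) 𝔪 (⊥ : Ideal (𝓞 E))
      (by
        intro x hx
        have : algebraMap (𝓞 K) (𝓞 E) x = 0 := by simpa using hx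
        have hx0 : x = 0 := (FaithfulSMul.algebraMap_injective (𝓞 K) (𝓞 E)) (by simpa using this)
        rw [hx0]; exact 𝔪.zero_mem)
  have hm𝔐 : (m : 𝓞 E) ∈ 𝔐 := by
    have : (m : 𝓞 K) ∈ Ideal.comap (algebraMap (𝓞 K) (𝓞 E)) 𝔐 := by rw [h𝔐c]; exact hm𝔪
    simpa using this
  obtain ⟨u, hu⟩ := exists_int_sub_mem hm 𝔐 (hdeg1 𝔐 h𝔐p hm𝔐) γ
  refine ⟨u, ?_⟩
  have h1 := algebraMap_norm_sub_pow_mem (K := K) 𝔐 (hinert 𝔐 h𝔐p hm𝔐) γ
  have h2 : γ ^ Module.finrank K E - (u : 𝓞 E) ^ Module.finrank K E ∈ 𝔐 :=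
    Ideal.mem_of_dvd 𝔐 (sub_dvd_pow_sub_pow _ _ _) hu
  have h3 := 𝔐.add_mem h1 h2
  rw [← h𝔐c, Ideal.mem_comap]
  simpa using h3

end Main

section Final

variable {K E : Type*} [Field K] [NumberField K] [Field E] [NumberField E] [Algebra K E]
  [IsGalois K E] [IsGalois ℚ K]

/-- The absolute norm over `ℤ` of an element of `𝓞 K`, viewed in `𝓞 K`, is the product of its
conjugates (for `K/ℚ` Galois). -/
theorem intCast_norm_eq_prod (β : 𝓞 K) :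
    ((Algebra.norm ℤ β : ℤ) : 𝓞 K) = ∏ σ : Gal(K/ℚ), σ • β := by
  ext
  have h := Algebra.norm_eq_prod_automorphisms ℚ (β : K)
  rw [← Algebra.coe_norm_int] at h
  simp only [map_intCast, map_prod]
  rw [show ((Algebra.norm ℤ β : ℤ) : K) = algebraMap ℚ K ((Algebra.norm ℤ β : ℤ) : ℚ) by simp, h]
  rfl

/-- Transitivity of the integral norm. -/
theorem norm_int_norm (γ : 𝓞 E) :
    Algebra.norm ℤ (RingOfIntegers.norm K γ) = Algebra.norm ℤ γ := by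
  have h : ((Algebra.norm ℤ (RingOfIntegers.norm K γ) : ℤ) : ℚ) = ((Algebra.norm ℤ γ : ℤ) : ℚ) := by
    rw [Algebra.coe_norm_int, Algebra.coe_norm_int, RingOfIntegers.coe_norm, Algebra.norm_norm]
  exact_mod_cast h

/-- **Step (d) of the crossing argument.**  Let `E/K` be Galois of degree `p`, `K/ℚ` Galois, and `m`
a rational prime such that every prime `𝔐` of `𝓞 E` above `m` has absolute norm `m` and `Gal(E/K)`
acts trivially on `𝓞 E ⧸ 𝔐`.  Then the absolute norm of every `γ : 𝓞 E` is a `p`-th power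
modulo `m`. -/
theorem exists_pow_eq_norm_mod {p m : ℕ} (hm : m.Prime) (hp : Module.finrank K E = p)
    (hdeg1 : ∀ 𝔐 : Ideal (𝓞 E), 𝔐.IsPrime → (m : 𝓞 E) ∈ 𝔐 → Ideal.absNorm 𝔐 = m)
    (hinert : ∀ 𝔐 : Ideal (𝓞 E), 𝔐.IsPrime → (m : 𝓞 E) ∈ 𝔐 →
      ∀ (g : Gal(E/K)) (x : 𝓞 E), g • x - x ∈ 𝔐)
    (γ : 𝓞 E) :
    ∃ u : ℤ, (m : ℤ) ∣ Algebra.norm ℤ γ - u ^ p := by
  -- a prime of `𝓞 K` above `m`
  haveI hPprime : (Ideal.span {(m : ℤ)}).IsPrime :=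
    (Ideal.span_singleton_prime (by exact_mod_cast hm.ne_zero)).mpr (Nat.prime_iff_prime_int.mp hm)
  obtain ⟨𝔪, -, h𝔪p, h𝔪c⟩ :=
    Ideal.exists_ideal_over_prime_of_isIntegral (S := 𝓞 K) (Ideal.span {(m : ℤ)})
      (⊥ : Ideal (𝓞 K))
      (by
        intro x hx
        have : algebraMap ℤ (𝓞 K) x = 0 := by simpa using hx
        have hx0 : x = 0 := (FaithfulSMul.algebraMap_injective ℤ (𝓞 K)) (by simpa using this)
        rw [hx0]; exact Ideal.zero_mem _)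
  have hm𝔪 : (m : 𝓞 K) ∈ 𝔪 := by
    have : (m : ℤ) ∈ Ideal.comap (algebraMap ℤ (𝓞 K)) 𝔪 := by
      rw [h𝔪c]; exact Ideal.mem_span_singleton_self _
    simpa using this
  -- for each `σ`, the conjugate `σ • β` is a `p`-th power of an integer modulo `𝔪`
  set β := RingOfIntegers.norm K γ with hβ
  have key : ∀ σ : Gal(K/ℚ), ∃ u : ℤ, σ • β - (u : 𝓞 K) ^ p ∈ 𝔪 := by
    intro σ
    let f : 𝓞 K →+* 𝓞 K := MulSemiringAction.toRingHom Gal(K/ℚ) (𝓞 K) σ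
    haveI : (𝔪.comap f).IsPrime := Ideal.comap_isPrime f 𝔪
    have hmc : (m : 𝓞 K) ∈ 𝔪.comap f := by
      rw [Ideal.mem_comap, map_natCast]; exact hm𝔪
    obtain ⟨u, hu⟩ := exists_int_norm_sub_pow_mem hm hdeg1 hinert γ (𝔪.comap f) hmc
    refine ⟨u, ?_⟩
    rw [Ideal.mem_comap, map_sub, map_pow, map_intCast, hp] at hu
    exact hu
  choose u hu using key
  refine ⟨∏ σ, u σ, ?_⟩
  apply int_dvd_of_mem hm 𝔪 h𝔪p.ne_top hm𝔪
  rw [← norm_int_norm (K := K) γ]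
  push_cast
  rw [intCast_norm_eq_prod, ← Finset.prod_pow]
  rw [← Ideal.Quotient.eq_zero_iff_mem, map_sub, sub_eq_zero, map_prod, map_prod]
  refine Finset.prod_congr rfl fun σ _ => ?_
  rw [← sub_eq_zero, ← map_sub, Ideal.Quotient.eq_zero_iff_mem]
  simpa using hu σ

/-- `ZMod` form of `exists_pow_eq_norm_mod`. -/
theorem exists_zmod_pow_eq_norm {p m : ℕ} (hm : m.Prime) (hp : Module.finrank K E = p)
    (hdeg1 : ∀ 𝔐 : Ideal (𝓞 E), 𝔐.IsPrime → (m : 𝓞 E) ∈ 𝔐 → Ideal.absNorm 𝔐 = m)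
    (hinert : ∀ 𝔐 : Ideal (𝓞 E), 𝔐.IsPrime → (m : 𝓞 E) ∈ 𝔐 →
      ∀ (g : Gal(E/K)) (x : 𝓞 E), g • x - x ∈ 𝔐)
    (γ : 𝓞 E) :
    ∃ v : ZMod m, ((Algebra.norm ℤ γ : ℤ) : ZMod m) = v ^ p := by
  obtain ⟨u, hu⟩ := exists_pow_eq_norm_mod (K := K) hm hp hdeg1 hinert γ
  refine ⟨(u : ZMod m), ?_⟩
  have := (ZMod.intCast_zmod_eq_zero_iff_dvd (Algebra.norm ℤ γ - u ^ p) m).mpr hu
  rw [Int.cast_sub, sub_eq_zero] at this
  rw [this]; push_cast; rfl

/-- The same for the absolute norm of the principal ideal `(γ)`: `absNorm (span {γ})` is, up to sign,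
`Algebra.norm ℤ γ`; when `p` is odd, `-1` is a `p`-th power, so `absNorm (span {γ})` is a `p`-th power
modulo `m`. -/
theorem exists_zmod_pow_eq_absNorm_span {p m : ℕ} (hm : m.Prime) (hpodd : Odd p)
    (hp : Module.finrank K E = p)
    (hdeg1 : ∀ 𝔐 : Ideal (𝓞 E), 𝔐.IsPrime → (m : 𝓞 E) ∈ 𝔐 → Ideal.absNorm 𝔐 = m)
    (hinert : ∀ 𝔐 : Ideal (𝓞 E), 𝔐.IsPrime → (m : 𝓞 E) ∈ 𝔐 →
      ∀ (g : Gal(E/K)) (x : 𝓞 E), g • x - x ∈ 𝔐)
    (γ : 𝓞 E) :
    ∃ v : ZMod m, ((Ideal.absNorm (Ideal.span {γ}) : ℕ) : ZMod m) = v ^ p := by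
  obtain ⟨v, hv⟩ := exists_zmod_pow_eq_norm (K := K) hm hp hdeg1 hinert γ
  rw [Ideal.absNorm_span_singleton]
  rcases Int.natAbs_eq (Algebra.norm ℤ γ) with h | h
  · refine ⟨v, ?_⟩
    rw [← hv]
    conv_rhs => rw [h]
    simp
  · refine ⟨-v, ?_⟩
    rw [hpodd.neg_pow, ← hv]
    conv_rhs => rw [h]
    simp

end Final

end Fermat.Agent.S14.H45
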