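import Mathlib
import Fermat.Agent.S14.H45_NormPow

/-!
# S14 / WP5 (d), second half: the hypotheses of `H45_NormPow` from total ramification

For a Galois extension `E/K` of number fields and a nonzero prime `𝔐` of `𝓞 E` with
`e(𝔐 | 𝔐 ∩ 𝓞 K) = [E:K]` (totally ramified), the whole Galois group is the inertia group of `𝔐`
and the residue degree is one, so `absNorm 𝔐 = absNorm (𝔐 ∩ 𝓞 K)`.
-/

set_option autoImplicit false

open NumberField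

namespace Fermat.Agent.S14.H45

variable {K E : Type*} [Field K] [NumberField K] [Field E] [NumberField E] [Algebra K E]
  [IsGalois K E]

theorem inertia_eq_top_of_ramificationIdx_eq (𝔐 : Ideal (𝓞 E)) [𝔐.IsPrime] (h0 : 𝔐 ≠ ⊥)
    (he : 𝔐.ramificationIdx (𝓞 K) = Module.finrank K E) :
    Ideal.inertia Gal(E/K) 𝔐 = ⊤ := by
  have hprime : (𝔐.under (𝓞 K)).IsPrime := inferInstance
  have hne : 𝔐.under (𝓞 K) ≠ ⊥ := Ideal.under_ne_bot (𝓞 K) h0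
  haveI : (𝔐.under (𝓞 K)).IsMaximal := hprime.isMaximal hne
  haveI : Finite ((𝔐.under (𝓞 K)).ResidueField) := inferInstance
  have h1 := Ideal.card_inertia_eq_ramificationIdxIn (G := Gal(E/K)) (𝔐.under (𝓞 K)) 𝔐
  rw [Ideal.ramificationIdxIn_eq_ramificationIdx (𝔐.under (𝓞 K)) 𝔐 Gal(E/K), he,
    ← IsGalois.card_aut_eq_finrank K E] at h1
  exact Subgroup.eq_top_of_card_eq _ h1

/-- Totally ramified ⇒ the whole Galois group acts trivially modulo `𝔐`. -/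
theorem smul_sub_mem_of_ramificationIdx_eq (𝔐 : Ideal (𝓞 E)) [𝔐.IsPrime] (h0 : 𝔐 ≠ ⊥)
    (he : 𝔐.ramificationIdx (𝓞 K) = Module.finrank K E) (g : Gal(E/K)) (x : 𝓞 E) :
    g • x - x ∈ 𝔐 := by
  have hg : g ∈ Ideal.inertia Gal(E/K) 𝔐 := by
    rw [inertia_eq_top_of_ramificationIdx_eq 𝔐 h0 he]; trivial
  exact hg x

/-- Totally ramified ⇒ residue degree one. -/
theorem inertiaDeg_eq_one_of_ramificationIdx_eq (𝔐 : Ideal (𝓞 E)) [𝔐.IsPrime] (h0 : 𝔐 ≠ ⊥)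
    (he : 𝔐.ramificationIdx (𝓞 K) = Module.finrank K E) :
    𝔐.inertiaDeg (𝓞 K) = 1 := by
  have hprime : (𝔐.under (𝓞 K)).IsPrime := inferInstance
  have hne : 𝔐.under (𝓞 K) ≠ ⊥ := Ideal.under_ne_bot (𝓞 K) h0
  have h := Ideal.ncard_primesOver_mul_ramificationIdxIn_mul_inertiaDegIn (𝔐.under (𝓞 K)) (𝓞 E)
    Gal(E/K)
  rw [Ideal.ramificationIdxIn_eq_ramificationIdx (𝔐.under (𝓞 K)) 𝔐 Gal(E/K),
    Ideal.inertiaDegIn_eq_inertiaDeg (𝔐.under (𝓞 K)) 𝔐 Gal(E/K), he,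
    IsGalois.card_aut_eq_finrank K E] at h
  have hn : 0 < Module.finrank K E := Module.finrank_pos
  have h2 : ((𝔐.under (𝓞 K)).primesOver (𝓞 E)).ncard * 𝔐.inertiaDeg (𝓞 K) = 1 := by
    have : Module.finrank K E * (((𝔐.under (𝓞 K)).primesOver (𝓞 E)).ncard * 𝔐.inertiaDeg (𝓞 K))
        = Module.finrank K E * 1 := by
      rw [mul_one]
      calc Module.finrank K E * (((𝔐.under (𝓞 K)).primesOver (𝓞 E)).ncard * 𝔐.inertiaDeg (𝓞 K))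
          = ((𝔐.under (𝓞 K)).primesOver (𝓞 E)).ncard * (Module.finrank K E * 𝔐.inertiaDeg (𝓞 K)) := by
            ring
        _ = Module.finrank K E := h
    exact Nat.eq_of_mul_eq_mul_left hn this
  exact Nat.eq_one_of_mul_eq_one_left h2

/-- Totally ramified ⇒ `absNorm 𝔐 = absNorm (𝔐 ∩ 𝓞 K)`. -/
theorem absNorm_eq_of_ramificationIdx_eq (𝔐 : Ideal (𝓞 E)) [𝔐.IsPrime] (h0 : 𝔐 ≠ ⊥)
    (he : 𝔐.ramificationIdx (𝓞 K) = Module.finrank K E) :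
    Ideal.absNorm 𝔐 = Ideal.absNorm (𝔐.under (𝓞 K)) := by
  have hprime : (𝔐.under (𝓞 K)).IsPrime := inferInstance
  have hne : 𝔐.under (𝓞 K) ≠ ⊥ := Ideal.under_ne_bot (𝓞 K) h0
  haveI : (𝔐.under (𝓞 K)).IsMaximal := hprime.isMaximal hne
  haveI : 𝔐.IsMaximal := Ideal.IsPrime.isMaximal inferInstance h0
  rw [Ideal.absNorm_eq_pow_inertiaDeg'_of_liesOver 𝔐 (𝔐.under (𝓞 K)) hprime hne,
    Ideal.inertiaDeg'_eq_inertiaDeg, inertiaDeg_eq_one_of_ramificationIdx_eq 𝔐 h0 he, pow_one]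

/-- **Step (d), consumer form.**  `E/K` Galois of odd prime degree `p`, `K/ℚ` Galois, `m` a rational
prime which splits completely in `K` (every prime of `𝓞 K` above `m` has absolute norm `m`) and such
that every prime of `𝓞 E` above `m` is totally ramified over `K`.  Then the absolute norm of every
principal ideal of `𝓞 E` is a `p`-th power modulo `m`. -/
theorem exists_zmod_pow_eq_absNorm_span_of_totallyRamified [IsGalois ℚ K] {p m : ℕ} (hm : m.Prime)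
    (hpodd : Odd p) (hp : Module.finrank K E = p)
    (hsplit : ∀ 𝔪 : Ideal (𝓞 K), 𝔪.IsPrime → (m : 𝓞 K) ∈ 𝔪 → Ideal.absNorm 𝔪 = m)
    (hram : ∀ 𝔐 : Ideal (𝓞 E), 𝔐.IsPrime → (m : 𝓞 E) ∈ 𝔐 →
      𝔐.ramificationIdx (𝓞 K) = Module.finrank K E)
    (γ : 𝓞 E) :
    ∃ v : ZMod m, ((Ideal.absNorm (Ideal.span {γ}) : ℕ) : ZMod m) = v ^ p := by
  have hne : ∀ 𝔐 : Ideal (𝓞 E), 𝔐.IsPrime → (m : 𝓞 E) ∈ 𝔐 → 𝔐 ≠ ⊥ := by
    intro 𝔐 _ hm𝔐 h
    rw [h, Ideal.mem_bot] at hm𝔐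
    exact hm.ne_zero (by exact_mod_cast hm𝔐)
  refine exists_zmod_pow_eq_absNorm_span (K := K) hm hpodd hp ?_ ?_ γ
  · intro 𝔐 h𝔐 hm𝔐
    haveI := h𝔐
    rw [absNorm_eq_of_ramificationIdx_eq (K := K) 𝔐 (hne 𝔐 h𝔐 hm𝔐) (hram 𝔐 h𝔐 hm𝔐)]
    refine hsplit _ inferInstance ?_
    rw [Ideal.under_def, Ideal.mem_comap]
    simpa using hm𝔐
  · intro 𝔐 h𝔐 hm𝔐 g x
    haveI := h𝔐
    exact smul_sub_mem_of_ramificationIdx_eq (K := K) 𝔐 (hne 𝔐 h𝔐 hm𝔐) (hram 𝔐 h𝔐 hm𝔐) g x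

end Fermat.Agent.S14.H45
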