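import Mathlib
import Fermat.Agent.S14.H54_Dict

/-!
# Places of `Qbar` over a rational prime are conjugate

All valuation subrings of `Qbar = AlgebraicClosure ℚ` lying over the same rational prime `ℓ` are
conjugate under `GQ = Gal(Qbar/ℚ)`, and so are their decomposition and inertia groups (in the
prelude's sense `ValuationSubring.inertiaSubgroupIn ℚ`).  Consequently a *normal* subgroup of `GQ`
(e.g. the kernel of a character) that contains the inertia group of one place over `ℓ` contains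
the inertia groups of all places over `ℓ`.
-/

set_option autoImplicit false
set_option linter.style.haveILetI false

namespace Fermat.Agent.S14.H54

open Fermat.Agent.S54
open scoped Pointwise

attribute [local instance] isAlgebraic_Qbar isAlgClosure_Qbar isGalois_Qbar

/-! ### The Galois action on valuation subrings -/

theorem mem_smul_valuationSubring_iff (τ : GQ) (A : ValuationSubring Qbar) (x : Qbar) :
    x ∈ τ • A ↔ τ⁻¹ x ∈ A :=
  ValuationSubring.mem_pointwise_smul_iff_inv_smul_mem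

theorem inv_apply_apply (τ : GQ) (x : Qbar) : τ⁻¹ (τ x) = x := by
  change τ⁻¹ • (τ • x) = x
  rw [inv_smul_smul]

theorem apply_inv_apply (τ : GQ) (x : Qbar) : τ (τ⁻¹ x) = x := by
  change τ • (τ⁻¹ • x) = x
  rw [smul_inv_smul]

theorem mem_nonunits_smul_iff (τ : GQ) (A : ValuationSubring Qbar) (x : Qbar) :
    x ∈ (τ • A).nonunits ↔ τ⁻¹ x ∈ A.nonunits := by
  rw [ValuationSubring.mem_nonunits_iff_or, ValuationSubring.mem_nonunits_iff_or,
    mem_smul_valuationSubring_iff, map_inv₀]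
  simp

theorem liesOverPrime_smul_iff (τ : GQ) (A : ValuationSubring Qbar) (ℓ : ℕ) :
    (τ • A).LiesOverPrime ℓ ↔ A.LiesOverPrime ℓ := by
  unfold ValuationSubring.LiesOverPrime
  rw [mem_nonunits_smul_iff, map_natCast]

theorem mem_idealOf_smul_iff (τ : GQ) (A : ValuationSubring Qbar) (b : Zbar) :
    b ∈ idealOf (τ • A) ↔ τ⁻¹ • b ∈ idealOf A := by
  rw [mem_idealOf, mem_idealOf, mem_nonunits_smul_iff, coe_smul_Zbar]

theorem idealOf_smul (τ : GQ) (A : ValuationSubring Qbar) : idealOf (τ • A) = τ • idealOf A := by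
  ext b
  rw [mem_idealOf_smul_iff, Ideal.mem_pointwise_smul_iff_inv_smul_mem]

/-! ### A place over a prime is determined by its ideal of `Zbar` -/

theorem le_of_idealOf_le {A B : ValuationSubring Qbar} {ℓ : ℕ} (hℓ : ℓ.Prime)
    (hA : A.LiesOverPrime ℓ) (h : idealOf B ≤ idealOf A) : A ≤ B := by
  intro x hx
  obtain ⟨s, hs_int, hs_nu, hsx_int⟩ :=
    exists_integral_mul A hℓ hA hx (isAlgebraic_int_Qbar x)
  have hsB : s ∉ B.nonunits := by
    intro hs
    exact hs_nu (h (show (⟨s, hs_int⟩ : Zbar) ∈ idealOf B from hs))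
  obtain ⟨hs0, hsinv⟩ := inv_mem_of_not_mem_nonunits B hsB
  have hsxB : s * x ∈ B := mem_valuationSubring_of_isIntegral B hsx_int
  have hx' : x = s⁻¹ * (s * x) := by
    field_simp
  rw [hx']
  exact B.mul_mem _ _ hsinv hsxB

theorem liesOverPrime_of_idealOf_le {A B : ValuationSubring Qbar} {ℓ : ℕ}
    (hA : A.LiesOverPrime ℓ) (h : idealOf A ≤ idealOf B) : B.LiesOverPrime ℓ := by
  have h1 := h (natCast_mem_idealOf hA)
  rw [mem_idealOf] at h1
  unfold ValuationSubring.LiesOverPrime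
  simpa using h1

/-- A valuation subring of `Qbar` over a rational prime is determined by its ideal of `Zbar`. -/
theorem eq_of_idealOf_eq {A B : ValuationSubring Qbar} {ℓ : ℕ} (hℓ : ℓ.Prime)
    (hA : A.LiesOverPrime ℓ) (h : idealOf A = idealOf B) : A = B := by
  have hB : B.LiesOverPrime ℓ := liesOverPrime_of_idealOf_le hA h.le
  exact le_antisymm (le_of_idealOf_le hℓ hA h.ge) (le_of_idealOf_le hℓ hB h.le)

/-! ### Existence and conjugacy of places over a prime -/

/-- Over every rational prime there is a valuation subring of `Qbar`. -/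
theorem exists_liesOverPrime_place {ℓ : ℕ} (hℓ : ℓ.Prime) :
    ∃ A : ValuationSubring Qbar, A.LiesOverPrime ℓ := by
  have hne : Ideal.span {((ℓ : ℕ) : Zbar)} ≠ ⊤ := by
    intro h
    rw [Ideal.span_singleton_eq_top] at h
    obtain ⟨u, hu⟩ := h.exists_right_inv
    -- `1/ℓ` would be an algebraic integer
    have h1 : IsIntegral ℤ ((u : Zbar) : Qbar) := u.2
    have h2 : ((ℓ : ℕ) : Qbar) * (u : Qbar) = 1 := by
      have := congrArg (Subtype.val) hu
      simpa using this
    have hℓ0 : ((ℓ : ℕ) : Qbar) ≠ 0 := by exact_mod_cast hℓ.ne_zero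
    have h3 : (u : Qbar) = algebraMap ℚ Qbar ((ℓ : ℚ)⁻¹) := by
      rw [map_inv₀, map_natCast]
      field_simp
      rw [mul_comm]; exact h2
    rw [h3] at h1
    have h4 : IsIntegral ℤ ((ℓ : ℚ)⁻¹) :=
      (isIntegral_algebraMap_iff (algebraMap ℚ Qbar).injective).mp h1
    obtain ⟨n, hn⟩ := IsIntegrallyClosed.algebraMap_eq_of_integral h4
    have h5 : (n : ℚ) * ℓ = 1 := by
      have : (n : ℚ) = (ℓ : ℚ)⁻¹ := by simpa using hn
      rw [this]
      have : (ℓ : ℚ) ≠ 0 := by exact_mod_cast hℓ.ne_zero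
      field_simp
    have h6 : n * (ℓ : ℤ) = 1 := by exact_mod_cast h5
    have h7 : IsUnit (ℓ : ℤ) := IsUnit.of_mul_eq_one n (by rw [mul_comm]; exact h6)
    exact (Nat.prime_iff_prime_int.mp hℓ).not_isUnit h7
  obtain ⟨Q, hQmax, hQ⟩ := Ideal.exists_le_maximal _ hne
  haveI := hQmax
  obtain ⟨A, hA⟩ := exists_valuationSubring_of_isMaximal Q
  refine ⟨A, ?_⟩
  have h1 : ((ℓ : ℕ) : Zbar) ∈ idealOf A := by
    rw [hA]
    exact hQ (Ideal.mem_span_singleton_self _)
  rw [mem_idealOf] at h1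
  unfold ValuationSubring.LiesOverPrime
  simpa using h1

/-- `GQ` acts transitively on the ideals `idealOf A`, `A` over a fixed prime. -/
theorem exists_smul_idealOf_eq {ℓ : ℕ} (hℓ : ℓ.Prime) {A B : ValuationSubring Qbar}
    (hA : A.LiesOverPrime ℓ) (hB : B.LiesOverPrime ℓ) :
    ∃ τ : GQ, idealOf B = τ • idealOf A := by
  classical
  letI : TopologicalSpace Zbar := ⊥
  haveI : DiscreteTopology Zbar := ⟨rfl⟩
  haveI := continuousSMul_Zbar
  haveI := isInvariant_Zbar
  have hunder : (idealOf B).under ℤ = (idealOf A).under ℤ := by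
    rw [Ideal.under_def, Ideal.under_def, idealOf_liesOver hℓ hA, idealOf_liesOver hℓ hB]
  obtain ⟨τ, hτ⟩ := Algebra.IsInvariant.exists_smul_of_under_eq_of_profinite
    (A := ℤ) (G := GQ) (idealOf B) (idealOf A) hunder
  refine ⟨τ⁻¹, ?_⟩
  rw [hτ, inv_smul_smul]

/-- **Conjugacy of places.** `GQ` acts transitively on the valuation subrings of `Qbar` over a
given rational prime. -/
theorem exists_smul_eq_of_liesOverPrime {ℓ : ℕ} (hℓ : ℓ.Prime) {A B : ValuationSubring Qbar}
    (hA : A.LiesOverPrime ℓ) (hB : B.LiesOverPrime ℓ) : ∃ τ : GQ, τ • A = B := by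
  obtain ⟨τ, hτ⟩ := exists_smul_idealOf_eq hℓ hA hB
  refine ⟨τ, ?_⟩
  have hτA : (τ • A).LiesOverPrime ℓ := (liesOverPrime_smul_iff τ A ℓ).mpr hA
  refine eq_of_idealOf_eq hℓ hτA ?_
  rw [idealOf_smul, hτ]

/-! ### Conjugation of decomposition and inertia groups -/

theorem mem_decomposition_smul_iff (τ σ : GQ) (A : ValuationSubring Qbar) :
    σ ∈ (τ • A).decompositionSubgroup ℚ ↔ τ⁻¹ * σ * τ ∈ A.decompositionSubgroup ℚ := by
  rw [mem_decomposition_iff, mem_decomposition_iff]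
  constructor
  · intro h x
    have h1 := h (τ x)
    rw [mem_smul_valuationSubring_iff, mem_smul_valuationSubring_iff, inv_apply_apply] at h1
    exact h1
  · intro h x
    have h1 := h (τ⁻¹ x)
    rw [mem_smul_valuationSubring_iff, mem_smul_valuationSubring_iff]
    have h2 : (τ⁻¹ * σ * τ) (τ⁻¹ x) = τ⁻¹ (σ x) := by
      change τ⁻¹ (σ (τ (τ⁻¹ x))) = _
      rw [apply_inv_apply]
    rw [h2] at h1
    exact h1

theorem mem_inertia_smul_iff (τ σ : GQ) (A : ValuationSubring Qbar) :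
    σ ∈ (τ • A).inertiaSubgroupIn ℚ ↔ τ⁻¹ * σ * τ ∈ A.inertiaSubgroupIn ℚ := by
  rw [mem_inertiaSubgroupIn_iff, mem_inertiaSubgroupIn_iff, mem_decomposition_smul_iff]
  refine and_congr_right (fun _ => ?_)
  constructor
  · intro h x hx
    have h1 := h (τ x) (by rw [mem_smul_valuationSubring_iff, inv_apply_apply]; exact hx)
    rw [mem_nonunits_smul_iff, map_sub, inv_apply_apply] at h1
    exact h1
  · intro h x hx
    rw [mem_smul_valuationSubring_iff] at hx
    have h1 := h (τ⁻¹ x) hx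
    have h2 : (τ⁻¹ * σ * τ) (τ⁻¹ x) = τ⁻¹ (σ x) := by
      change τ⁻¹ (σ (τ (τ⁻¹ x))) = _
      rw [apply_inv_apply]
    rw [h2] at h1
    rw [mem_nonunits_smul_iff, map_sub]
    exact h1

/-- **Conjugacy of inertia and decomposition groups** of any two places over the same prime. -/
theorem exists_conj_inertia {ℓ : ℕ} (hℓ : ℓ.Prime) {A B : ValuationSubring Qbar}
    (hA : A.LiesOverPrime ℓ) (hB : B.LiesOverPrime ℓ) :
    ∃ τ : GQ, (∀ σ : GQ, σ ∈ B.inertiaSubgroupIn ℚ ↔ τ⁻¹ * σ * τ ∈ A.inertiaSubgroupIn ℚ) ∧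
      (∀ σ : GQ, σ ∈ B.decompositionSubgroup ℚ ↔ τ⁻¹ * σ * τ ∈ A.decompositionSubgroup ℚ) := by
  obtain ⟨τ, rfl⟩ := exists_smul_eq_of_liesOverPrime hℓ hA hB
  exact ⟨τ, fun σ => mem_inertia_smul_iff τ σ A, fun σ => mem_decomposition_smul_iff τ σ A⟩

/-- A normal subgroup containing the inertia group of one place over `ℓ` contains the inertia
groups of all places over `ℓ`. -/
theorem inertia_le_of_normal (H : Subgroup GQ) [hH : H.Normal] {ℓ : ℕ} (hℓ : ℓ.Prime)
    {A B : ValuationSubring Qbar} (hA : A.LiesOverPrime ℓ) (hB : B.LiesOverPrime ℓ)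
    (h : A.inertiaSubgroupIn ℚ ≤ H) : B.inertiaSubgroupIn ℚ ≤ H := by
  obtain ⟨τ, hτ, -⟩ := exists_conj_inertia hℓ hA hB
  intro σ hσ
  have h1 : τ⁻¹ * σ * τ ∈ H := h ((hτ σ).mp hσ)
  have h2 := hH.conj_mem _ h1 τ
  have h3 : τ * (τ⁻¹ * σ * τ) * τ⁻¹ = σ := by group
  rwa [h3] at h2

/-- Character form: a homomorphism out of `GQ` that is trivial on the inertia group of one place
over `ℓ` is trivial on the inertia groups of all places over `ℓ`. -/
theorem map_eq_one_of_mem_inertia {G : Type*} [Group G] (χ : GQ →* G) {ℓ : ℕ} (hℓ : ℓ.Prime)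
    {A B : ValuationSubring Qbar} (hA : A.LiesOverPrime ℓ) (hB : B.LiesOverPrime ℓ)
    (h : ∀ σ ∈ A.inertiaSubgroupIn ℚ, χ σ = 1) : ∀ σ ∈ B.inertiaSubgroupIn ℚ, χ σ = 1 := by
  have h1 : A.inertiaSubgroupIn ℚ ≤ χ.ker := fun σ hσ => MonoidHom.mem_ker.mpr (h σ hσ)
  intro σ hσ
  exact MonoidHom.mem_ker.mp (inertia_le_of_normal χ.ker hℓ hA hB h1 hσ)

/-- The inertia group of the trivial valuation subring is trivial. -/
theorem eq_one_of_mem_inertia_top' {σ : GQ}
    (hσ : σ ∈ (⊤ : ValuationSubring Qbar).inertiaSubgroupIn ℚ) : σ = 1 := by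
  rw [mem_inertiaSubgroupIn_iff] at hσ
  ext x
  have h1 := hσ.2 x trivial
  rw [ValuationSubring.mem_nonunits_iff_or] at h1
  rcases h1 with h1 | h1
  · exact sub_eq_zero.mp h1
  · exact absurd trivial h1

end Fermat.Agent.S14.H54
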