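import Mathlib
import Fermat.Agent.S14.Common
import Fermat.Agent.S14.H34_LBounded
import Fermat.Agent.S14.H72_LogZeta
import Fermat.Agent.S14.H79_SecondInequalityFinal

/-!
# S14 / WP4 integration : the second inequality (B) with the minimal remaining inputs

`H79_SecondInequalityFinal` proves `(normSubgroupNF E M).index ≤ [M : E]` from five analytic
inputs.  Three of them are already on main:

* `hsumE`  : `H72.summable_primeTerm` ;
* `hcount` : `H34.idealCountError` ;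
* the lower bound `∑_𝔓 N𝔓^{-s} ≥ log (1/(s-1)) - C` for the top field `M`
  (which `H79` derives from the Euler product `hEulerM` of `ζ_M`) is
  `H72.exists_bound_tsum_primeTerm`.

So only the `χ`-twisted Euler product `hEulerE` and the bridge `hbridgeE` for the base field `E`
remain (WP4c).  This file states (B) with exactly these two hypotheses.
-/

set_option autoImplicit false

open NumberField Ideal IsDedekindDomain nonZeroDivisors Filter Topology

namespace Fermat.Agent.S14.H56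

section OneField

variable (K : Type*) [Field K] [NumberField K]

/-- `hsum` of `H79.index_le_of_density_eventually`, from `H72`. -/
theorem summable_absNorm_rpow (s : ℝ) (hs : 1 < s) :
    Summable fun P : HeightOneSpectrum (𝓞 K) => (absNorm P.asIdeal : ℝ) ^ (-s) :=
  H72.summable_primeTerm K hs

/-- lower half of the logarithmic prime ideal theorem, in the filter form used by `H79`. -/
theorem exists_primeZetaSum_lower :
    ∃ C : ℝ, ∀ᶠ s in 𝓝[>] (1 : ℝ), Real.log (1 / (s - 1)) - C ≤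
      ∑' P : HeightOneSpectrum (𝓞 K), (absNorm P.asIdeal : ℝ) ^ (-s) := by
  obtain ⟨C, hC⟩ := H72.exists_bound_tsum_primeTerm K
  refine ⟨C, ?_⟩
  have h2 : ∀ᶠ s : ℝ in 𝓝[>] (1 : ℝ), s ≤ 2 :=
    (eventually_le_nhds (by norm_num : (1 : ℝ) < 2)).filter_mono nhdsWithin_le_nhds
  filter_upwards [h2, self_mem_nhdsWithin] with s hs2 hs1
  have h := (abs_le.mp (hC s ⟨hs1, hs2⟩)).1
  have e : ∑' P : HeightOneSpectrum (𝓞 K), (absNorm P.asIdeal : ℝ) ^ (-s) =
      ∑' P, H72.primeTerm K s P := rfl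
  rw [e]
  linarith

end OneField

section Extension

variable (E M : Type*) [Field E] [NumberField E] [Field M] [NumberField M] [Algebra E M]

/-- **Second inequality**, general subgroup form: only the `χ`-twisted Euler product and the
bridge to `ζ_E` remain as hypotheses. -/
theorem second_inequality_of_euler
    (hEulerE : ∀ (χ : ClassGroup (𝓞 E) →* ℂˣ) (s : ℝ), 1 < s →
      HasProd (fun P : HeightOneSpectrum (𝓞 E) =>
        (1 - ((χ (ClassGroup.mk0 (H79.primeIdeal0 E P)) : ℂˣ) : ℂ) *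
          (absNorm P.asIdeal : ℂ) ^ (-(s : ℂ)))⁻¹) (H79.classL E χ s))
    (hbridgeE : ∀ s : ℝ, 1 < s → dedekindZeta E (s : ℂ) = H79.classL E 1 s)
    (H : Subgroup (ClassGroup (𝓞 E)))
    (hH : ∀ (𝔓 : Ideal (𝓞 M)) (_ : 𝔓.IsPrime) (_ : 𝔓 ≠ ⊥),
      𝔓.inertiaDeg (𝓞 E) = 1 →
      ∀ hP : 𝔓.under (𝓞 E) ∈ (Ideal (𝓞 E))⁰,
        ClassGroup.mk0 ⟨𝔓.under (𝓞 E), hP⟩ ∈ H) :
    H.index ≤ Module.finrank E M := by
  have hsumE := summable_absNorm_rpow E
  have hC := H79.exists_splitPrimes_lower E M hsumE (exists_primeZetaSum_lower M)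
  have hB : ∀ χ : ClassGroup (𝓞 E) →* ℂˣ, χ ≠ 1 →
      ∃ B : ℝ, ∀ᶠ s in 𝓝[>] (1 : ℝ), ‖H79.classL E χ s‖ ≤ B := by
    intro χ hχ
    obtain ⟨B, hB⟩ := H98.classLSeries_bounded_of (H34.idealCountError E) χ hχ
    refine ⟨B, ?_⟩
    have h2 : ∀ᶠ s : ℝ in 𝓝[>] (1 : ℝ), s ≤ 2 :=
      (eventually_le_nhds (by norm_num : (1 : ℝ) < 2)).filter_mono nhdsWithin_le_nhds
    filter_upwards [h2, self_mem_nhdsWithin] with s hs2 hs1
    exact hB s hs1 hs2
  refine H79.index_le_of_density_eventually E hsumE hEulerE (H79.exists_zeta_bound E hbridgeE) hB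
    (H79.splitPrimes E M) (Module.finrank E M) Module.finrank_pos hC H ?_
  rintro P ⟨𝔓, rfl, h𝔓⟩
  exact hH 𝔓.asIdeal 𝔓.isPrime 𝔓.ne_bot h𝔓 _

/-- **(B)** in the shape consumed by WP5 (`H90.crossing_core`'s `hB`), with only the `χ`-twisted
Euler product and the bridge to `ζ_E` as hypotheses. -/
theorem index_normSubgroupNF_le_of_euler
    (hEulerE : ∀ (χ : ClassGroup (𝓞 E) →* ℂˣ) (s : ℝ), 1 < s →
      HasProd (fun P : HeightOneSpectrum (𝓞 E) =>
        (1 - ((χ (ClassGroup.mk0 (H79.primeIdeal0 E P)) : ℂˣ) : ℂ) *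
          (absNorm P.asIdeal : ℂ) ^ (-(s : ℂ)))⁻¹) (H79.classL E χ s))
    (hbridgeE : ∀ s : ℝ, 1 < s → dedekindZeta E (s : ℂ) = H79.classL E 1 s) :
    (normSubgroupNF E M).index ≤ Module.finrank E M := by
  refine second_inequality_of_euler E M hEulerE hbridgeE _ ?_
  intro 𝔓 h𝔓 h0 hdeg hP
  have : 𝔓.IsMaximal := h𝔓.isMaximal h0
  have hp0 : 𝔓.under (𝓞 E) ≠ ⊥ := mem_nonZeroDivisors_iff_ne_zero.mp hP
  have : (𝔓.under (𝓞 E)).IsMaximal := (Ideal.IsPrime.under (𝓞 E) 𝔓).isMaximal hp0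
  exact mk0_mem_normSubgroup_of_inertiaDeg_eq_one 𝔓 (𝔓.under (𝓞 E)) hdeg hP

end Extension

end Fermat.Agent.S14.H56
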