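import Fermat.Agent.S14.H63_Capitulation

set_option autoImplicit false
set_option linter.unusedSectionVars false

namespace Fermat.Agent.S14.H63

open Module NumberField Fermat.Agent.Kummer.H63
open scoped Pointwise nonZeroDivisors

section Aux

variable {R : Type*} [CommRing R] [IsDedekindDomain R]

/-- Bookkeeping for the invariance of the auxiliary ideal. -/
lemma ideal_aux (X X' Y Y' sJ sJ' J J' Js sJs G sG : Ideal R)
    (hX : X ≠ ⊥) (hX' : X' ≠ ⊥) (hsJ : sJ ≠ ⊥)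
    (h1 : X * sJ = Y * J) (h2 : X' * sJ' = Y' * J') (hs : sJ * sJs = J * Js)
    (hg : Y' * X * sG = X' * Y * G) : sG * sJ' * sJs = G * J' * Js := by
  have h0 : X' * X * sJ ≠ ⊥ := mul_ne_zero (mul_ne_zero hX' hX) hsJ
  apply mul_left_cancel₀ h0
  calc X' * X * sJ * (sG * sJ' * sJs) = sG * (X' * sJ') * X * (sJ * sJs) := by ring
    _ = sG * (Y' * J') * X * (J * Js) := by rw [h2, hs]
    _ = (Y' * X * sG) * J' * J * Js := by ring
    _ = X' * Y * G * J' * J * Js := by rw [hg]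
    _ = G * X' * J' * Js * (Y * J) := by ring
    _ = G * X' * J' * Js * (X * sJ) := by rw [h1]
    _ = X' * X * sJ * (G * J' * Js) := by ring

end Aux

variable {K L : Type} [Field K] [Field L] [NumberField K] [NumberField L] [Algebra K L]
  [IsGalois K L]

/-- Hilbert 90 for a quotient of integral elements. -/
lemma exists_mul_smul_eq_mul (σ : L ≃ₐ[K] L)
    (hσ : ∀ τ : L ≃ₐ[K] L, τ ∈ Subgroup.zpowers σ) (a b : 𝓞 L) (ha : a ≠ 0) (hb : b ≠ 0)
    (hN : Algebra.norm K (a : L) = Algebra.norm K (b : L)) :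
    ∃ g : 𝓞 L, g ≠ 0 ∧ a * σ • g = b * g := by
  have := isCyclic_of_forall_mem_zpowers σ hσ
  have hb' : (b : L) ≠ 0 := fun h => hb (RingOfIntegers.coe_eq_zero_iff.mp h)
  have ha' : (a : L) ≠ 0 := fun h => ha (RingOfIntegers.coe_eq_zero_iff.mp h)
  have hNb : Algebra.norm K (b : L) ≠ 0 := by
    rw [Ne, Algebra.norm_eq_zero_iff]; exact hb'
  have hθ : Algebra.norm K ((a : L) / (b : L)) = 1 := by
    rw [div_eq_mul_inv, map_mul, Algebra.norm_inv, hN, mul_inv_cancel₀ hNb]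
  obtain ⟨y, hy⟩ := groupCohomology.exists_div_of_norm_eq_one (g := σ) hσ hθ
  have halg : IsAlgebraic ℤ (y : L) := by
    rw [IsFractionRing.isAlgebraic_iff ℤ ℚ L]
    exact Algebra.IsAlgebraic.isAlgebraic _
  obtain ⟨m, hm0, hm⟩ := halg.exists_integral_multiple
  have hσy : σ (y : L) ≠ 0 := by
    rw [Ne, map_eq_zero_iff σ σ.injective]; exact y.ne_zero
  refine ⟨⟨m • (y : L), hm⟩, ?_, ?_⟩
  · intro h0
    have h1 : m • (y : L) = 0 := congrArg (fun z : 𝓞 L => (z : L)) h0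
    rw [smul_eq_zero] at h1
    rcases h1 with h1 | h1
    · exact hm0 h1
    · exact y.ne_zero h1
  · apply RingOfIntegers.ext
    change (a : L) * σ (m • (y : L)) = (b : L) * (m • (y : L))
    rw [map_zsmul]
    have h2 : (a : L) * σ (y : L) = (b : L) * (y : L) := by
      field_simp at hy
      rw [mul_comm (b : L), hy, mul_comm]
    rw [mul_smul_comm, mul_smul_comm, h2]

section Key

open Classical in
/-- The product of all conjugates of an ideal. -/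
noncomputable def conjProd (K : Type) {L : Type} [Field K] [Field L] [NumberField K]
    [NumberField L] [Algebra K L] (J : Ideal (𝓞 L)) : Ideal (𝓞 L) :=
  ∏ τ : L ≃ₐ[K] L, τ • J

open Classical in
/-- The product of all nontrivial conjugates of an ideal. -/
noncomputable def conjProdErase (K : Type) {L : Type} [Field K] [Field L] [NumberField K]
    [NumberField L] [Algebra K L] (J : Ideal (𝓞 L)) : Ideal (𝓞 L) :=
  ∏ τ ∈ (Finset.univ.erase (1 : L ≃ₐ[K] L)), τ • J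

lemma mul_conjProdErase (J : Ideal (𝓞 L)) : J * conjProdErase K J = conjProd K J := by
  classical
  rw [conjProd, conjProdErase]
  have := Finset.mul_prod_erase (Finset.univ : Finset (L ≃ₐ[K] L)) (fun τ => τ • J)
    (Finset.mem_univ 1)
  simpa using this

lemma smul_conjProd (σ : L ≃ₐ[K] L) (J : Ideal (𝓞 L)) : σ • conjProd K J = conjProd K J := by
  classical
  rw [conjProd, Finset.smul_prod']
  simp_rw [← mul_smul]
  exact Fintype.prod_equiv (Equiv.mulLeft σ) _ _ (fun τ => rfl)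

lemma conjProdErase_ne_bot (J : Ideal (𝓞 L)) (hJ : J ≠ ⊥) : conjProdErase K J ≠ ⊥ := by
  classical
  rw [conjProdErase, ← Ideal.zero_eq_bot, Finset.prod_ne_zero_iff]
  intro τ _
  rw [Ne, smul_eq_zero_iff_eq]
  exact hJ

end Key

section Key1

/-- **Key lemma**: two ambiguous classes with the same unit invariant differ by an extended
class. -/
theorem mk0_eq_mul_extendedHom
    (hunr : ∀ Q : Ideal (𝓞 L), Q.IsPrime → Q ≠ ⊥ → Q.ramificationIdx (𝓞 K) = 1)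
    (σ : L ≃ₐ[K] L) (hσ : ∀ τ : L ≃ₐ[K] L, τ ∈ Subgroup.zpowers σ)
    (J J' : (Ideal (𝓞 L))⁰) (x y x' y' : 𝓞 L) (hx : x ≠ 0) (hy : y ≠ 0) (hx' : x' ≠ 0)
    (hy' : y' ≠ 0)
    (h1 : Ideal.span {x} * σ • (J : Ideal (𝓞 L)) = Ideal.span {y} * J)
    (h2 : Ideal.span {x'} * σ • (J' : Ideal (𝓞 L)) = Ideal.span {y'} * J')
    (ε : (𝓞 L)ˣ)
    (hN : Algebra.norm K (y' : L) * Algebra.norm K (x : L) =
      Algebra.norm K (x' : L) * Algebra.norm K (y : L) * Algebra.norm K ((ε : 𝓞 L) : L)) :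
    ∃ d : ClassGroup (𝓞 K),
      ClassGroup.mk0 J' = ClassGroup.mk0 J * ClassGroup.extendedHom (𝓞 K) (𝓞 L) d := by
  obtain ⟨g, hg0, hg⟩ := exists_mul_smul_eq_mul σ hσ (y' * x) (x' * y * ε)
    (mul_ne_zero hy' hx) (mul_ne_zero (mul_ne_zero hx' hy) ε.ne_zero) (by
      simp only [map_mul]
      exact hN)
  have hJ0 : (J : Ideal (𝓞 L)) ≠ ⊥ := mem_nonZeroDivisors_iff_ne_zero.mp J.2
  have hJ'0 : (J' : Ideal (𝓞 L)) ≠ ⊥ := mem_nonZeroDivisors_iff_ne_zero.mp J'.2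
  set Js := conjProdErase K (J : Ideal (𝓞 L)) with hJs
  have hJs0 : Js ≠ ⊥ := conjProdErase_ne_bot (K := K) _ hJ0
  have hJJs : (J : Ideal (𝓞 L)) * Js = conjProd K (J : Ideal (𝓞 L)) := mul_conjProdErase _
  have hs : σ • (J : Ideal (𝓞 L)) * σ • Js = J * Js := by
    rw [← smul_mul', hJJs, smul_conjProd]
  have hspan : ∀ z : 𝓞 L, z ≠ 0 → Ideal.span {z} ≠ (⊥ : Ideal (𝓞 L)) := by
    intro z hz
    rw [Ne, Ideal.span_singleton_eq_bot]; exact hz
  have hσJ0 : σ • (J : Ideal (𝓞 L)) ≠ ⊥ := by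
    rw [Ne, ← Ideal.zero_eq_bot, smul_eq_zero_iff_eq]; exact hJ0
  have hgI : Ideal.span {y'} * Ideal.span {x} * Ideal.span {σ • g} =
      Ideal.span {x'} * Ideal.span {y} * Ideal.span {g} := by
    rw [Ideal.span_singleton_mul_span_singleton, Ideal.span_singleton_mul_span_singleton,
      Ideal.span_singleton_mul_span_singleton, Ideal.span_singleton_mul_span_singleton, hg]
    have : x' * y * (ε : 𝓞 L) * g = (ε : 𝓞 L) * (x' * y * g) := by ring
    rw [this]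
    exact Ideal.span_singleton_mul_left_unit ε.isUnit _
  set M := Ideal.span {g} * (J' : Ideal (𝓞 L)) * Js with hMdef
  have hM : σ • M = M := by
    rw [hMdef, smul_mul', smul_mul', smul_span_singleton]
    exact ideal_aux (Ideal.span {x}) (Ideal.span {x'}) (Ideal.span {y}) (Ideal.span {y'})
      (σ • (J : Ideal (𝓞 L))) (σ • (J' : Ideal (𝓞 L))) J J' Js (σ • Js)
      (Ideal.span {g}) (Ideal.span {σ • g}) (hspan x hx) (hspan x' hx') hσJ0 h1 h2 hs hgI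
  have hM0 : M ≠ ⊥ := mul_ne_zero (mul_ne_zero (hspan g hg0) hJ'0) hJs0
  obtain ⟨𝔪, h𝔪⟩ := exists_map_eq_of_forall_smul_eq hunr M hM0
    (smul_eq_of_forall_mem_zpowers σ hσ M hM)
  have hN0 : conjProd K (J : Ideal (𝓞 L)) ≠ ⊥ := by
    rw [← hJJs]; exact mul_ne_zero hJ0 hJs0
  obtain ⟨𝔫, h𝔫⟩ := exists_map_eq_of_forall_smul_eq hunr (conjProd K (J : Ideal (𝓞 L))) hN0
    (fun τ => smul_conjProd τ _)
  have h𝔪0 : 𝔪 ≠ ⊥ := by
    rintro rfl
    rw [Ideal.map_bot] at h𝔪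
    exact hM0 h𝔪.symm
  have h𝔫0 : 𝔫 ≠ ⊥ := by
    rintro rfl
    rw [Ideal.map_bot] at h𝔫
    exact hN0 h𝔫.symm
  let 𝔪' : (Ideal (𝓞 K))⁰ := ⟨𝔪, mem_nonZeroDivisors_iff_ne_zero.mpr h𝔪0⟩
  let 𝔫' : (Ideal (𝓞 K))⁰ := ⟨𝔫, mem_nonZeroDivisors_iff_ne_zero.mpr h𝔫0⟩
  let Js' : (Ideal (𝓞 L))⁰ := ⟨Js, mem_nonZeroDivisors_iff_ne_zero.mpr hJs0⟩
  refine ⟨ClassGroup.mk0 𝔪' / ClassGroup.mk0 𝔫', ?_⟩
  rw [map_div, ClassGroup.extendedHom_mk0, ClassGroup.extendedHom_mk0]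
  have e1 : ClassGroup.mk0 (ClassGroup.extendedIdeal (𝓞 K) (𝓞 L) 𝔪') =
      ClassGroup.mk0 J' * ClassGroup.mk0 Js' := by
    have : ClassGroup.extendedIdeal (𝓞 K) (𝓞 L) 𝔪' = spanNZ g hg0 * J' * Js' :=
      Subtype.ext h𝔪
    rw [this, map_mul, map_mul, mk0_spanNZ, one_mul]
  have e2 : ClassGroup.mk0 (ClassGroup.extendedIdeal (𝓞 K) (𝓞 L) 𝔫') =
      ClassGroup.mk0 J * ClassGroup.mk0 Js' := by
    have : ClassGroup.extendedIdeal (𝓞 K) (𝓞 L) 𝔫' = J * Js' :=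
      Subtype.ext (h𝔫.trans hJJs.symm)
    rw [this, map_mul]
  rw [e1, e2, mul_div_mul_right_eq_div, mul_div_cancel]

end Key1

end Fermat.Agent.S14.H63
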