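import Mathlib

set_option autoImplicit false

namespace Fermat.Agent.S14.H63

open NumberField
open scoped Pointwise nonZeroDivisors

variable {K L : Type*} [Field K] [Field L] [Algebra K L]

/-- The extension of an ideal of `𝓞 K` to `𝓞 L` is Galois invariant. -/
lemma smul_map_algebraMap (σ : L ≃ₐ[K] L) (𝔞 : Ideal (𝓞 K)) :
    σ • 𝔞.map (algebraMap (𝓞 K) (𝓞 L)) = 𝔞.map (algebraMap (𝓞 K) (𝓞 L)) := by
  rw [Ideal.pointwise_smul_def, Ideal.map_map]
  congr 1
  ext x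
  change σ (algebraMap K L (x : K)) = algebraMap K L (x : K)
  exact σ.commutes _

variable [NumberField K] [NumberField L] [IsGalois K L]

/-- **Ambiguous ideals of an unramified extension are extended.** -/
theorem exists_map_eq_of_forall_smul_eq
    (hunr : ∀ Q : Ideal (𝓞 L), Q.IsPrime → Q ≠ ⊥ → Q.ramificationIdx (𝓞 K) = 1)
    (J : Ideal (𝓞 L)) (hJ0 : J ≠ ⊥) (hJ : ∀ σ : L ≃ₐ[K] L, σ • J = J) :
    ∃ 𝔞 : Ideal (𝓞 K), 𝔞.map (algebraMap (𝓞 K) (𝓞 L)) = J := by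
  induction J using WellFoundedGT.induction with
  | ind J ih =>
    by_cases htop : J = ⊤
    · exact ⟨⊤, by rw [htop, Ideal.map_top]⟩
    obtain ⟨Q, hQmax, hJQ⟩ := Ideal.exists_le_maximal J htop
    have hQprime : Q.IsPrime := hQmax.isPrime
    have hQ0 : Q ≠ ⊥ := fun h => hJ0 (le_bot_iff.mp (h ▸ hJQ))
    set P := Q.under (𝓞 K) with hP
    have hQP : Q.LiesOver P := ⟨rfl⟩
    have hPmax : P.IsMaximal := Ideal.IsMaximal.under (𝓞 K) Q
    have hP0 : P ≠ ⊥ := Ideal.under_ne_bot (𝓞 K) hQ0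
    have hprod := Ideal.map_algebraMap_eq_finsetProd_pow (R := 𝓞 L) (p := P) hP0
    have hprod' : P.map (algebraMap (𝓞 K) (𝓞 L)) = ∏ Q' ∈ (P.primesOver (𝓞 L)).toFinset, Q' := by
      rw [hprod]
      apply Finset.prod_congr rfl
      intro Q' hQ'
      rw [Set.mem_toFinset] at hQ'
      have hQ'prime : Q'.IsPrime := hQ'.1
      have hQ'P : Q'.LiesOver P := hQ'.2
      have hQ'0 : Q' ≠ ⊥ := Ideal.ne_bot_of_liesOver_of_ne_bot hP0 Q'
      rw [hunr Q' hQ'prime hQ'0, pow_one]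
    have hdvd : P.map (algebraMap (𝓞 K) (𝓞 L)) ∣ J := by
      rw [hprod']
      apply Finset.prod_primes_dvd
      · intro Q' hQ'
        rw [Set.mem_toFinset] at hQ'
        have hQ'prime : Q'.IsPrime := hQ'.1
        have hQ'P : Q'.LiesOver P := hQ'.2
        exact Ideal.prime_of_isPrime (Ideal.ne_bot_of_liesOver_of_ne_bot hP0 Q') hQ'prime
      · intro Q' hQ'
        rw [Set.mem_toFinset] at hQ'
        have hQ'prime : Q'.IsPrime := hQ'.1
        have hQ'P : Q'.LiesOver P := hQ'.2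
        obtain ⟨σ, hσ⟩ := Ideal.exists_smul_eq_of_isGaloisGroup P Q Q' (L ≃ₐ[K] L)
        rw [Ideal.dvd_iff_le, ← hσ, ← hJ σ]
        exact Ideal.pointwise_smul_le_pointwise_smul_iff.mpr hJQ
    obtain ⟨J', hJ'⟩ := hdvd
    have hmap0 : P.map (algebraMap (𝓞 K) (𝓞 L)) ≠ ⊥ := Ideal.map_ne_bot_of_ne_bot hP0
    have hJ'0 : J' ≠ ⊥ := by
      rintro rfl
      rw [Ideal.mul_bot] at hJ'
      exact hJ0 hJ'
    have hJ'inv : ∀ σ : L ≃ₐ[K] L, σ • J' = J' := by
      intro σ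
      have h1 := hJ σ
      rw [hJ', smul_mul', smul_map_algebraMap] at h1
      exact mul_left_cancel₀ hmap0 h1
    have hlt : J < J' := by
      have hle : J ≤ J' := by
        rw [hJ']; exact Ideal.mul_le_right
      refine lt_of_le_of_ne hle ?_
      intro heq
      rw [← heq] at hJ'
      have h1 : P.map (algebraMap (𝓞 K) (𝓞 L)) * J = 1 * J := by rw [one_mul]; exact hJ'.symm
      have h2 := mul_right_cancel₀ hJ0 h1
      have h3 : Q = ⊤ := by
        rw [eq_top_iff, ← Ideal.one_eq_top, ← h2, Ideal.map_le_iff_le_comap]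
      exact hQmax.ne_top h3
    obtain ⟨𝔞', h𝔞'⟩ := ih J' hlt hJ'0 hJ'inv
    exact ⟨P * 𝔞', by rw [Ideal.map_mul, h𝔞', hJ']⟩

end Fermat.Agent.S14.H63
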