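import Fermat.Agent.S14.H63_ClassLift

set_option autoImplicit false
set_option linter.unusedSectionVars false

namespace Fermat.Agent.S14.H63

open NumberField
open scoped Pointwise nonZeroDivisors

section General

/-- For an endomorphism `φ` of a finite commutative group and a hom `N` with `N ∘ φ = N`,
the image of `N` is at most as large as the group of fixed points of `φ`. -/
theorem card_range_le_card_fixed {C D : Type*} [CommGroup C] [Finite C] [CommGroup D]
    (φ : C →* C) (N : C →* D) (h : ∀ c, N (φ c) = N c) :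
    Nat.card N.range ≤ Nat.card (φ / MonoidHom.id C).ker := by
  set ψ : C →* C := φ / MonoidHom.id C with hψ
  have h1 : ψ.range ≤ N.ker := by
    rintro _ ⟨c, rfl⟩
    rw [MonoidHom.mem_ker, hψ, MonoidHom.div_apply, map_div, h, MonoidHom.id_apply, div_self']
  have h2 : Nat.card ψ.ker * Nat.card ψ.range = Nat.card C := by
    rw [← Subgroup.index_ker, Subgroup.card_mul_index]
  have h3 : Nat.card N.ker * Nat.card N.range = Nat.card C := by
    rw [← Subgroup.index_ker, Subgroup.card_mul_index]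
  have h4 : Nat.card ψ.range ≤ Nat.card N.ker := Subgroup.card_le_of_le h1
  have h5 : 0 < Nat.card ψ.range := Nat.card_pos
  have h6 : Nat.card ψ.range * Nat.card N.range ≤ Nat.card ψ.range * Nat.card ψ.ker := by
    calc Nat.card ψ.range * Nat.card N.range ≤ Nat.card N.ker * Nat.card N.range :=
          Nat.mul_le_mul_right _ h4
      _ = Nat.card ψ.range * Nat.card ψ.ker := by rw [h3, ← h2, mul_comm]
  exact Nat.le_of_mul_le_mul_left h6 h5

end General

variable {K L : Type*} [Field K] [Field L] [NumberField K] [NumberField L] [Algebra K L]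

/-- The action of a Galois automorphism on nonzero ideals of `𝓞 L`. -/
noncomputable def idealAct (σ : L ≃ₐ[K] L) : (Ideal (𝓞 L))⁰ →* (Ideal (𝓞 L))⁰ where
  toFun I := ⟨σ • (I : Ideal (𝓞 L)), mem_nonZeroDivisors_iff_ne_zero.mpr (by
    rw [Ne, smul_eq_zero_iff_eq]
    exact mem_nonZeroDivisors_iff_ne_zero.mp I.2)⟩
  map_one' := Subtype.ext (smul_one σ)
  map_mul' I J := Subtype.ext (smul_mul' σ (I : Ideal (𝓞 L)) J)

@[simp] lemma coe_idealAct (σ : L ≃ₐ[K] L) (I : (Ideal (𝓞 L))⁰) :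
    (idealAct σ I : Ideal (𝓞 L)) = σ • (I : Ideal (𝓞 L)) := rfl

lemma smul_span_singleton (σ : L ≃ₐ[K] L) (x : 𝓞 L) :
    σ • Ideal.span {x} = Ideal.span {σ • x} := by
  rw [Ideal.pointwise_smul_def, Ideal.map_span, Set.image_singleton]; rfl

lemma idealAct_spanNZ (σ : L ≃ₐ[K] L) (x : 𝓞 L) (hx : x ≠ 0) :
    idealAct σ (spanNZ x hx) = spanNZ (σ • x) (by rwa [Ne, smul_eq_zero_iff_eq]) :=
  Subtype.ext (smul_span_singleton σ x)

/-- The action of a Galois automorphism on the class group of `𝓞 L`. -/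
noncomputable def clAct (σ : L ≃ₐ[K] L) : ClassGroup (𝓞 L) →* ClassGroup (𝓞 L) :=
  classLift (ClassGroup.mk0.comp (idealAct σ)) (by
    intro x hx
    rw [MonoidHom.comp_apply, idealAct_spanNZ, mk0_spanNZ])

@[simp] lemma clAct_mk0 (σ : L ≃ₐ[K] L) (I : (Ideal (𝓞 L))⁰) :
    clAct σ (ClassGroup.mk0 I) = ClassGroup.mk0 (idealAct σ I) := by
  rw [clAct, classLift_mk0]; rfl

/-- The relative norm on nonzero ideals. -/
noncomputable def idealNorm (K : Type*) {L : Type*} [Field K] [Field L] [NumberField K]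
    [NumberField L] [Algebra K L] : (Ideal (𝓞 L))⁰ →* (Ideal (𝓞 K))⁰ where
  toFun I := ⟨Ideal.relNorm (𝓞 K) (I : Ideal (𝓞 L)), mem_nonZeroDivisors_iff_ne_zero.mpr (by
    rw [Ne, Ideal.zero_eq_bot, Ideal.relNorm_eq_bot_iff]
    exact mem_nonZeroDivisors_iff_ne_zero.mp I.2)⟩
  map_one' := Subtype.ext (map_one (Ideal.relNorm (𝓞 K)))
  map_mul' I J := Subtype.ext (map_mul (Ideal.relNorm (𝓞 K)) (I : Ideal (𝓞 L)) J)

@[simp] lemma coe_idealNorm (I : (Ideal (𝓞 L))⁰) :
    (idealNorm K I : Ideal (𝓞 K)) = Ideal.relNorm (𝓞 K) (I : Ideal (𝓞 L)) := rfl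

lemma idealNorm_spanNZ (x : 𝓞 L) (hx : x ≠ 0) :
    idealNorm K (spanNZ x hx) = spanNZ (Algebra.intNorm (𝓞 K) (𝓞 L) x)
      (by rwa [Ne, Algebra.intNorm_eq_zero]) :=
  Subtype.ext (Ideal.relNorm_singleton (𝓞 K) x)

variable [IsGalois K L]

lemma idealNorm_idealAct (σ : L ≃ₐ[K] L) (I : (Ideal (𝓞 L))⁰) :
    idealNorm K (idealAct σ I) = idealNorm K I :=
  Subtype.ext (Ideal.relNorm_smul (𝓞 K) σ (I : Ideal (𝓞 L)))

/-- The norm map on class groups. -/
noncomputable def clNorm (K : Type*) {L : Type*} [Field K] [Field L] [NumberField K]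
    [NumberField L] [Algebra K L] : ClassGroup (𝓞 L) →* ClassGroup (𝓞 K) :=
  classLift (ClassGroup.mk0.comp (idealNorm K)) (by
    intro x hx
    rw [MonoidHom.comp_apply, idealNorm_spanNZ, mk0_spanNZ])

@[simp] lemma clNorm_mk0 (I : (Ideal (𝓞 L))⁰) :
    clNorm K (ClassGroup.mk0 I) = ClassGroup.mk0 (idealNorm K I) := by
  rw [clNorm, classLift_mk0]; rfl

lemma clNorm_clAct (σ : L ≃ₐ[K] L) (c : ClassGroup (𝓞 L)) :
    clNorm K (clAct σ c) = clNorm K c := by
  obtain ⟨I, rfl⟩ := ClassGroup.mk0_surjective c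
  rw [clAct_mk0, clNorm_mk0, clNorm_mk0, idealNorm_idealAct]

/-- `|N(Cl_L)| ≤ |Cl_L^σ|`. -/
theorem card_range_clNorm_le (σ : L ≃ₐ[K] L) :
    Nat.card (clNorm K (L := L)).range ≤
      Nat.card (clAct σ / MonoidHom.id (ClassGroup (𝓞 L))).ker :=
  card_range_le_card_fixed (clAct σ) (clNorm K) (clNorm_clAct σ)

lemma mem_ker_clAct_div (σ : L ≃ₐ[K] L) (c : ClassGroup (𝓞 L)) :
    c ∈ (clAct σ / MonoidHom.id (ClassGroup (𝓞 L))).ker ↔ clAct σ c = c := by
  rw [MonoidHom.mem_ker, MonoidHom.div_apply, MonoidHom.id_apply, div_eq_one]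

end Fermat.Agent.S14.H63
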