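import Fermat.Agent.S14.H63_UnitsSetup
import Fermat.Agent.S14.H63_Ambiguous
import Fermat.Agent.S14.H63_ClassAction

set_option autoImplicit false
set_option linter.unusedSectionVars false

namespace Fermat.Agent.S14.H63

open Module NumberField Fermat.Agent.Kummer.H63
open scoped Pointwise nonZeroDivisors

variable {K L : Type} [Field K] [Field L] [NumberField K] [NumberField L] [Algebra K L]
  [IsGalois K L]

lemma isCyclic_of_forall_mem_zpowers (σ : L ≃ₐ[K] L)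
    (hσ : ∀ τ : L ≃ₐ[K] L, τ ∈ Subgroup.zpowers σ) : IsCyclic (L ≃ₐ[K] L) :=
  isCyclic_iff_exists_zpowers_eq_top.mpr ⟨σ, (Subgroup.eq_top_iff' _).mpr hσ⟩

/-- Integral Hilbert 90. -/
lemma exists_mul_smul_eq_of_norm_eq_one (σ : L ≃ₐ[K] L)
    (hσ : ∀ τ : L ≃ₐ[K] L, τ ∈ Subgroup.zpowers σ) (η : 𝓞 L)
    (hη : Algebra.norm K (η : L) = 1) : ∃ b : 𝓞 L, b ≠ 0 ∧ η * σ • b = b := by
  have := isCyclic_of_forall_mem_zpowers σ hσ
  obtain ⟨b, hb0, hb⟩ := groupCohomology.exists_mul_galRestrict_of_norm_eq_one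
    (A := 𝓞 K) (B := 𝓞 L) (K := K) (L := L) (g := σ) hσ (η := η) hη
  refine ⟨b, hb0, ?_⟩
  have h1 : σ • b = galRestrict (𝓞 K) K L (𝓞 L) σ b := by
    apply RingOfIntegers.ext
    exact (algebraMap_galRestrict_apply (𝓞 K) σ b).symm
  rw [h1]
  exact hb

/-- If a generator fixes an ideal, so does the whole group. -/
lemma smul_eq_of_forall_mem_zpowers (σ : L ≃ₐ[K] L)
    (hσ : ∀ τ : L ≃ₐ[K] L, τ ∈ Subgroup.zpowers σ) (J : Ideal (𝓞 L)) (h : σ • J = J)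
    (τ : L ≃ₐ[K] L) : τ • J = J := by
  have hmem : σ ∈ MulAction.stabilizer (L ≃ₐ[K] L) J := h
  obtain ⟨n, rfl⟩ := Subgroup.mem_zpowers_iff.mp (hσ τ)
  exact Subgroup.zpow_mem _ hmem n

/-- The capitulating ideal attached to a unit of norm one. -/
lemma exists_cap_data
    (hunr : ∀ Q : Ideal (𝓞 L), Q.IsPrime → Q ≠ ⊥ → Q.ramificationIdx (𝓞 K) = 1)
    (σ : L ≃ₐ[K] L) (hσ : ∀ τ : L ≃ₐ[K] L, τ ∈ Subgroup.zpowers σ)
    (η : Additive (𝓞 L)ˣ) (hη : Algebra.norm K (uval η) = 1) :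
    ∃ (𝔞 : (Ideal (𝓞 K))⁰) (b : 𝓞 L), b ≠ 0 ∧ ((η.toMul : (𝓞 L)ˣ) : 𝓞 L) * σ • b = b ∧
      (𝔞 : Ideal (𝓞 K)).map (algebraMap (𝓞 K) (𝓞 L)) = Ideal.span {b} := by
  obtain ⟨b, hb0, hb⟩ := exists_mul_smul_eq_of_norm_eq_one σ hσ ((η.toMul : (𝓞 L)ˣ) : 𝓞 L) hη
  have hJ0 : Ideal.span {b} ≠ ⊥ := by
    rw [Ne, Ideal.span_singleton_eq_bot]; exact hb0
  have hσJ : σ • Ideal.span {b} = Ideal.span {b} := by
    rw [smul_span_singleton]
    conv_rhs => rw [← hb]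
    exact (Ideal.span_singleton_mul_left_unit (η.toMul).isUnit _).symm
  obtain ⟨𝔞, h𝔞⟩ := exists_map_eq_of_forall_smul_eq hunr _ hJ0
    (smul_eq_of_forall_mem_zpowers σ hσ _ hσJ)
  have h𝔞0 : 𝔞 ≠ ⊥ := by
    rintro rfl
    rw [Ideal.map_bot] at h𝔞
    exact hJ0 h𝔞.symm
  exact ⟨⟨𝔞, mem_nonZeroDivisors_iff_ne_zero.mpr h𝔞0⟩, b, hb0, hb, h𝔞⟩

/-- Injectivity of the capitulation map modulo coboundaries. -/
lemma cap_inj (σ : L ≃ₐ[K] L) (η η' : Additive (𝓞 L)ˣ) (𝔞 𝔞' : (Ideal (𝓞 K))⁰) (b b' : 𝓞 L)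
    (hb0 : b ≠ 0) (hb : ((η.toMul : (𝓞 L)ˣ) : 𝓞 L) * σ • b = b)
    (h𝔞 : (𝔞 : Ideal (𝓞 K)).map (algebraMap (𝓞 K) (𝓞 L)) = Ideal.span {b})
    (hb' : ((η'.toMul : (𝓞 L)ˣ) : 𝓞 L) * σ • b' = b')
    (h𝔞' : (𝔞' : Ideal (𝓞 K)).map (algebraMap (𝓞 K) (𝓞 L)) = Ideal.span {b'})
    (h : ClassGroup.mk0 𝔞 = ClassGroup.mk0 𝔞') :
    ∃ u : Additive (𝓞 L)ˣ, η - η' = unitsEnd σ u - u := by
  obtain ⟨x, y, hx, hy, hxy⟩ := ClassGroup.mk0_eq_mk0_iff.mp h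
  have h1 := congrArg (Ideal.map (algebraMap (𝓞 K) (𝓞 L))) hxy
  rw [Ideal.map_mul, Ideal.map_mul, h𝔞, h𝔞', Ideal.map_span, Ideal.map_span,
    Set.image_singleton, Set.image_singleton, Ideal.span_singleton_mul_span_singleton,
    Ideal.span_singleton_mul_span_singleton, Ideal.span_singleton_eq_span_singleton] at h1
  obtain ⟨u, hu⟩ := h1
  refine ⟨Additive.ofMul u, ?_⟩
  -- work in `L`
  have e1 : algebraMap K L (x : K) * (b : L) * ((u : 𝓞 L) : L) = algebraMap K L (y : K) * (b' : L) :=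
    congrArg (fun z : 𝓞 L => (z : L)) hu
  have e2 : algebraMap K L (x : K) * σ (b : L) * σ ((u : 𝓞 L) : L) =
      algebraMap K L (y : K) * σ (b' : L) := by
    have := congrArg σ e1
    rwa [map_mul, map_mul, map_mul, σ.commutes, σ.commutes] at this
  have e3 : uval η * σ (b : L) = (b : L) := congrArg (fun z : 𝓞 L => (z : L)) hb
  have e4 : uval η' * σ (b' : L) = (b' : L) := congrArg (fun z : 𝓞 L => (z : L)) hb'
  have hx' : algebraMap K L (x : K) ≠ 0 := by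
    rw [Ne, map_eq_zero]
    exact fun h0 => hx (RingOfIntegers.coe_eq_zero_iff.mp h0)
  have hσb : σ (b : L) ≠ 0 := by
    rw [Ne, map_eq_zero_iff σ σ.injective]
    exact fun h0 => hb0 (RingOfIntegers.coe_eq_zero_iff.mp h0)
  have hU : ((u : 𝓞 L) : L) ≠ 0 := fun h0 => u.ne_zero (RingOfIntegers.coe_eq_zero_iff.mp h0)
  have key : uval η * ((u : 𝓞 L) : L) = uval η' * σ ((u : 𝓞 L) : L) := by
    apply mul_left_cancel₀ (mul_ne_zero hx' hσb)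
    calc algebraMap K L (x : K) * σ (b : L) * (uval η * ((u : 𝓞 L) : L))
        = algebraMap K L (x : K) * (uval η * σ (b : L)) * ((u : 𝓞 L) : L) := by ring
      _ = algebraMap K L (y : K) * (uval η' * σ (b' : L)) := by rw [e3, e1, e4]
      _ = uval η' * (algebraMap K L (y : K) * σ (b' : L)) := by ring
      _ = algebraMap K L (x : K) * σ (b : L) * (uval η' * σ ((u : 𝓞 L) : L)) := by
        rw [← e2]; ring
  apply uval_injective
  rw [uval_sub, uval_sub, uval_unitsEnd]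
  have hη' : uval η' ≠ 0 := uval_ne_zero η'
  have : uval (Additive.ofMul u) = ((u : 𝓞 L) : L) := rfl
  rw [this]
  field_simp
  rw [key]

variable {p : ℕ} [hp : Fact p.Prime]

/-- `|H¹(G, E_L)| ≤ |ker (Cl_K → Cl_L)|` for an unramified cyclic extension. -/
theorem card_H1_le_card_ker (hKL : Module.finrank K L = p) (σ : L ≃ₐ[K] L)
    (hσ : ∀ τ : L ≃ₐ[K] L, τ ∈ Subgroup.zpowers σ)
    (hunr : ∀ Q : Ideal (𝓞 L), Q.IsPrime → Q ≠ ⊥ → Q.ramificationIdx (𝓞 K) = 1) :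
    Nat.card (normKer p (unitsEnd σ) ⧸ LinearMap.range (phiTo (unitsEnd_pow_eq_one hKL σ))) ≤
      Nat.card (ClassGroup.extendedHom (𝓞 K) (𝓞 L)).ker := by
  classical
  have hdata : ∀ η : normKer p (unitsEnd σ), ∃ (𝔞 : (Ideal (𝓞 K))⁰) (b : 𝓞 L), b ≠ 0 ∧
      (((η : Additive (𝓞 L)ˣ).toMul : (𝓞 L)ˣ) : 𝓞 L) * σ • b = b ∧
      (𝔞 : Ideal (𝓞 K)).map (algebraMap (𝓞 K) (𝓞 L)) = Ideal.span {b} :=
    fun η => exists_cap_data hunr σ hσ η.1 ((mem_normKer_iff hKL σ hσ _).mp η.2)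
  choose f b hb0 hb hfb using hdata
  have hker : ∀ η, ClassGroup.mk0 (f η) ∈ (ClassGroup.extendedHom (𝓞 K) (𝓞 L)).ker := by
    intro η
    rw [MonoidHom.mem_ker, ClassGroup.extendedHom_mk0, ClassGroup.mk0_eq_one_iff]
    rw [hfb]
    exact ⟨⟨b η, rfl⟩⟩
  let g : (normKer p (unitsEnd σ) ⧸ LinearMap.range (phiTo (unitsEnd_pow_eq_one hKL σ))) →
      (ClassGroup.extendedHom (𝓞 K) (𝓞 L)).ker :=
    fun q => ⟨ClassGroup.mk0 (f (Quotient.out q)), hker _⟩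
  apply Nat.card_le_card_of_injective g
  intro q q' hqq
  have h1 : ClassGroup.mk0 (f (Quotient.out q)) = ClassGroup.mk0 (f (Quotient.out q')) :=
    congrArg Subtype.val hqq
  obtain ⟨u, hu⟩ := cap_inj σ _ _ _ _ _ _ (hb0 _) (hb _) (hfb _) (hb _) (hfb _) h1
  rw [← Quotient.out_eq q, ← Quotient.out_eq q']
  apply (Submodule.Quotient.eq _).mpr
  exact ⟨u, Subtype.ext (by rw [phiTo_apply]; exact hu.symm)⟩

end Fermat.Agent.S14.H63
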