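import Mathlib

set_option autoImplicit false

namespace Fermat.Agent.S14.H63

open scoped nonZeroDivisors

section Lift

variable {R : Type*} [CommRing R] [IsDedekindDomain R] {H : Type*} [CommGroup H]

/-- The principal ideal generated by a nonzero element, as a nonzero ideal. -/
noncomputable def spanNZ (x : R) (hx : x ≠ 0) : (Ideal R)⁰ :=
  ⟨Ideal.span {x}, mem_nonZeroDivisors_iff_ne_zero.mpr (by
    rw [Ne, Ideal.zero_eq_bot, Ideal.span_singleton_eq_bot]; exact hx)⟩

@[simp] lemma coe_spanNZ (x : R) (hx : x ≠ 0) : (spanNZ x hx : Ideal R) = Ideal.span {x} := rfl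

lemma mk0_spanNZ (x : R) (hx : x ≠ 0) : ClassGroup.mk0 (spanNZ x hx) = 1 := by
  rw [ClassGroup.mk0_eq_one_iff]
  exact ⟨⟨x, rfl⟩⟩

/-- A chosen integral representative of an ideal class. -/
noncomputable def classRep (c : ClassGroup R) : (Ideal R)⁰ :=
  Function.surjInv ClassGroup.mk0_surjective c

@[simp] lemma mk0_classRep (c : ClassGroup R) : ClassGroup.mk0 (classRep c) = c :=
  Function.surjInv_eq _ c

/-- A monoid hom on nonzero ideals killing principal ideals is constant on ideal classes. -/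
theorem map_eq_of_mk0_eq (f : (Ideal R)⁰ →* H)
    (hf : ∀ (x : R) (hx : x ≠ 0), f (spanNZ x hx) = 1) {I J : (Ideal R)⁰}
    (h : ClassGroup.mk0 I = ClassGroup.mk0 J) : f I = f J := by
  obtain ⟨x, y, hx, hy, hxy⟩ := ClassGroup.mk0_eq_mk0_iff.mp h
  have h1 : spanNZ x hx * I = spanNZ y hy * J := Subtype.ext hxy
  have h2 := congrArg f h1
  rwa [map_mul, map_mul, hf, hf, one_mul, one_mul] at h2

/-- Lift a monoid hom on nonzero ideals killing principal ideals to the class group. -/
noncomputable def classLift (f : (Ideal R)⁰ →* H)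
    (hf : ∀ (x : R) (hx : x ≠ 0), f (spanNZ x hx) = 1) : ClassGroup R →* H where
  toFun c := f (classRep c)
  map_one' := by
    have h1 : (1 : (Ideal R)⁰) = spanNZ (1 : R) one_ne_zero := by
      apply Subtype.ext
      simp [Ideal.one_eq_top]
    have : ClassGroup.mk0 (classRep (1 : ClassGroup R)) = ClassGroup.mk0 (1 : (Ideal R)⁰) := by
      rw [mk0_classRep, map_one]
    rw [map_eq_of_mk0_eq f hf this, map_one]
  map_mul' c d := by
    have : ClassGroup.mk0 (classRep (c * d)) = ClassGroup.mk0 (classRep c * classRep d) := by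
      rw [mk0_classRep, map_mul, mk0_classRep, mk0_classRep]
    rw [map_eq_of_mk0_eq f hf this, map_mul]

@[simp] lemma classLift_mk0 (f : (Ideal R)⁰ →* H)
    (hf : ∀ (x : R) (hx : x ≠ 0), f (spanNZ x hx) = 1) (I : (Ideal R)⁰) :
    classLift f hf (ClassGroup.mk0 I) = f I :=
  map_eq_of_mk0_eq f hf (mk0_classRep _)

end Lift

end Fermat.Agent.S14.H63
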