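import Mathlib

/-!
# K0 (helper88 #752): the norm argument

If `K` is a number field of degree `p - 1` over `ℚ` (e.g. `ℚ(ζ_p)`), `w` a natural number
and `q` a prime with `p ∤ v_q(w)`, then `w` is not a `p`-th power in `K`.
-/

namespace Fermat.Agent.S14.H67

/-- **K0**: norm argument. (No hypothesis `w ≠ 0` is needed: `padicValNat q 0 = 0`.) -/
theorem pow_ne_natCast_of_padicValNat {p : ℕ} (hp : p.Prime) {K : Type*} [Field K]
    [NumberField K] (hK : Module.finrank ℚ K = p - 1) {w q : ℕ} (hq : q.Prime)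
    (hv : ¬ p ∣ padicValNat q w) (b : K) : b ^ p ≠ (w : K) := by
  intro hb
  have : Fact q.Prime := ⟨hq⟩
  have hN : (Algebra.norm ℚ b) ^ p = (w : ℚ) ^ (p - 1) := by
    rw [← map_pow, hb, ← hK]
    have : (w : K) = algebraMap ℚ K (w : ℚ) := by simp
    rw [this, Algebra.norm_algebraMap]
  have hval := congrArg (padicValRat q) hN
  rw [padicValRat.pow, padicValRat.pow, padicValRat.of_nat] at hval
  -- p * v = (p - 1) * v_q(w)
  have hdvd : (p : ℤ) ∣ ((p - 1 : ℕ) : ℤ) * (padicValNat q w : ℤ) := ⟨_, hval.symm⟩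
  have hcop : IsCoprime (p : ℤ) ((p - 1 : ℕ) : ℤ) := by
    rw [Int.isCoprime_iff_gcd_eq_one, Int.gcd_natCast_natCast]
    have h1 : 1 ≤ p := hp.one_lt.le
    exact (Nat.coprime_self_sub_right h1).2 (Nat.coprime_one_right p)
  have h2 : (p : ℤ) ∣ (padicValNat q w : ℤ) := hcop.dvd_of_dvd_mul_left hdvd
  exact hv (by exact_mod_cast h2)

/-- The degree of a `p`-th cyclotomic extension of `ℚ` is `p - 1`. -/
theorem finrank_of_isCyclotomicExtension {p : ℕ} (hp : p.Prime) (K : Type*) [Field K]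
    [NumberField K] [IsCyclotomicExtension {p} ℚ K] : Module.finrank ℚ K = p - 1 := by
  have : NeZero p := ⟨hp.ne_zero⟩
  rw [IsCyclotomicExtension.finrank K (Polynomial.cyclotomic.irreducible_rat hp.pos),
    Nat.totient_prime hp]

/-- **K0** for a `p`-th cyclotomic extension of `ℚ`. -/
theorem pow_ne_natCast_of_padicValNat_cyclo {p : ℕ} (hp : p.Prime) {K : Type*} [Field K]
    [NumberField K] [IsCyclotomicExtension {p} ℚ K] {w q : ℕ} (hq : q.Prime)
    (hv : ¬ p ∣ padicValNat q w) (b : K) : b ^ p ≠ (w : K) :=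
  pow_ne_natCast_of_padicValNat hp (finrank_of_isCyclotomicExtension hp K) hq hv b

/-- `v_{q0}(q0^a q1^b) = a` for distinct primes. -/
theorem padicValNat_pow_mul_pow_left {q0 q1 : ℕ} (hq0 : q0.Prime) (hq1 : q1.Prime)
    (h01 : q0 ≠ q1) (a b : ℕ) : padicValNat q0 (q0 ^ a * q1 ^ b) = a := by
  have : Fact q0.Prime := ⟨hq0⟩
  have : Fact q1.Prime := ⟨hq1⟩
  rw [padicValNat.mul (pow_ne_zero _ hq0.ne_zero) (pow_ne_zero _ hq1.ne_zero),
    padicValNat.prime_pow, padicValNat.pow,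
    padicValNat_primes h01]
  simp

/-- `v_{q1}(q0^a q1^b) = b` for distinct primes. -/
theorem padicValNat_pow_mul_pow_right {q0 q1 : ℕ} (hq0 : q0.Prime) (hq1 : q1.Prime)
    (h01 : q0 ≠ q1) (a b : ℕ) : padicValNat q1 (q0 ^ a * q1 ^ b) = b := by
  rw [mul_comm]
  exact padicValNat_pow_mul_pow_left hq1 hq0 (Ne.symm h01) b a

/-- **K0** for the two-prime family `w = q0^a q1^b`: not a `p`-th power in `K` as soon as
`p ∤ a` or `p ∤ b`. -/
theorem pow_ne_natCast_pow_mul_pow {p : ℕ} (hp : p.Prime) {K : Type*} [Field K]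
    [NumberField K] (hK : Module.finrank ℚ K = p - 1) {q0 q1 : ℕ} (hq0 : q0.Prime)
    (hq1 : q1.Prime) (h01 : q0 ≠ q1) {a b : ℕ} (hab : ¬ p ∣ a ∨ ¬ p ∣ b) (c : K) :
    c ^ p ≠ ((q0 ^ a * q1 ^ b : ℕ) : K) := by
  rcases hab with h | h
  · exact pow_ne_natCast_of_padicValNat hp hK hq0
      (by rwa [padicValNat_pow_mul_pow_left hq0 hq1 h01]) c
  · exact pow_ne_natCast_of_padicValNat hp hK hq1
      (by rwa [padicValNat_pow_mul_pow_right hq0 hq1 h01]) c

/-- The aux-prime family (helper88 #516): `u = q0^f0`, `v = q1^f1 * u^e`; for exponents `i, j` with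
`p ∤ i` or `p ∤ j`, `u^i * v^j` is not a `p`-th power in `K`. -/
theorem pow_ne_natCast_aux_family {p : ℕ} (hp : p.Prime) {K : Type*} [Field K]
    [NumberField K] (hK : Module.finrank ℚ K = p - 1) {q0 q1 : ℕ} (hq0 : q0.Prime)
    (hq1 : q1.Prime) (h01 : q0 ≠ q1) {f0 f1 : ℕ} (hf0 : ¬ p ∣ f0) (hf1 : ¬ p ∣ f1) (e : ℕ)
    {i j : ℕ} (hij : ¬ p ∣ i ∨ ¬ p ∣ j) (c : K) :
    c ^ p ≠ (((q0 ^ f0) ^ i * (q1 ^ f1 * (q0 ^ f0) ^ e) ^ j : ℕ) : K) := by
  have hw : (q0 ^ f0) ^ i * (q1 ^ f1 * (q0 ^ f0) ^ e) ^ j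
      = q0 ^ (f0 * (i + e * j)) * q1 ^ (f1 * j) := by ring
  rw [hw]
  refine pow_ne_natCast_pow_mul_pow hp hK hq0 hq1 h01 ?_ c
  by_cases hj : p ∣ j
  · -- then `p ∤ i`, and `p ∤ f0 * (i + e * j)`
    left
    have hi : ¬ p ∣ i := hij.resolve_right (not_not.2 hj)
    intro h
    rcases (Nat.Prime.dvd_mul hp).1 h with h | h
    · exact hf0 h
    · exact hi ((Nat.dvd_add_left (Dvd.dvd.mul_left hj e)).1 h)
  · right
    intro h
    rcases (Nat.Prime.dvd_mul hp).1 h with h | h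
    · exact hf1 h
    · exact hj h

end Fermat.Agent.S14.H67
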