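import Mathlib
import Fermat.Agent.S14.H72_SplitCorollaries

set_option autoImplicit false

/-!
# The auxiliary prime from densities of power-residue sets (analytic half of WP5-kummer)

For a number field `K`, a prime `p` and `w : ℕ` let `resSet K p w` be the set of primes `P` of
`K` such that `w` is a `p`-th power modulo `P`.  If these sets have logarithmic density `1/p`
for `w = a` and `w = b * a ^ j` (`j < p`), then there is a rational prime `m` (outside any given
finite set, automatically `≡ 1 mod p`) such that `b` is a `p`-th power modulo `m` but `a` is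
not.  The argument is a union bound over the `p + 1` sets and only uses that the `p`-th power
classes of a finite field form a cyclic group.
-/

namespace Fermat.Agent.S14.H72

open NumberField Ideal IsDedekindDomain

section Cyclic

/-- In a cyclic group, if `a` is not a `p`-th power (`p` prime) then for every `b` one of
`b * a ^ j`, `j < p`, is a `p`-th power. -/
lemma exists_mul_pow_eq_pow_of_isCyclic {G : Type*} [Group G] [IsCyclic G] {p : ℕ} (hp : p.Prime)
    (a b : G) (ha : ¬ ∃ x : G, x ^ p = a) : ∃ j < p, ∃ x : G, x ^ p = b * a ^ j := by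
  have : Fact p.Prime := ⟨hp⟩
  obtain ⟨g, hg⟩ := IsCyclic.exists_generator (α := G)
  obtain ⟨u, rfl⟩ := Subgroup.mem_zpowers_iff.mp (hg a)
  obtain ⟨v, rfl⟩ := Subgroup.mem_zpowers_iff.mp (hg b)
  have hpu : ¬ (p : ℤ) ∣ u := by
    rintro ⟨t, rfl⟩
    exact ha ⟨g ^ t, by rw [← zpow_natCast, ← zpow_mul, mul_comm]⟩
  have hu0 : (u : ZMod p) ≠ 0 := fun h => hpu ((ZMod.intCast_zmod_eq_zero_iff_dvd u p).mp h)
  refine ⟨((-(v : ZMod p)) * (u : ZMod p)⁻¹).val, ZMod.val_lt _, ?_⟩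
  set j : ℕ := ((-(v : ZMod p)) * (u : ZMod p)⁻¹).val with hj
  have hdvd : (p : ℤ) ∣ v + u * j := by
    rw [← ZMod.intCast_zmod_eq_zero_iff_dvd]
    push_cast
    rw [hj, ZMod.natCast_zmod_val]
    field_simp
    ring
  obtain ⟨t, ht⟩ := hdvd
  refine ⟨g ^ t, ?_⟩
  rw [← zpow_natCast (g ^ t), ← zpow_mul, mul_comm, ← ht, zpow_add, zpow_mul, zpow_natCast]

/-- In a finite field, if `a` is not a `p`-th power (`p` prime) then for every `b` one of
`b * a ^ j`, `j < p`, is a `p`-th power. -/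
lemma exists_mul_pow_eq_pow_of_finite_field {F : Type*} [Field F] [Finite F] {p : ℕ}
    (hp : p.Prime) (a b : F) (ha : ¬ ∃ x : F, x ^ p = a) : ∃ j < p, ∃ x : F, x ^ p = b * a ^ j := by
  by_cases hb : b = 0
  · exact ⟨0, hp.pos, 0, by simp [hb, hp.ne_zero]⟩
  have ha0 : a ≠ 0 := fun h => ha ⟨0, by simp [h, hp.ne_zero]⟩
  obtain ⟨j, hj, x, hx⟩ := exists_mul_pow_eq_pow_of_isCyclic hp (Units.mk0 a ha0) (Units.mk0 b hb)
    (fun ⟨x, hx⟩ => ha ⟨x, by simpa using congrArg Units.val hx⟩)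
  exact ⟨j, hj, x, by simpa using congrArg Units.val hx⟩

/-- If `a` is not a `p`-th power modulo the prime `m` then `m ≡ 1 mod p`. -/
lemma mod_eq_one_of_not_pow {m p : ℕ} (hm : m.Prime) (hp : p.Prime) (a : ZMod m)
    (ha : ¬ ∃ x : ZMod m, x ^ p = a) : m % p = 1 := by
  have : Fact m.Prime := ⟨hm⟩
  by_contra hne
  apply ha
  by_cases ha0 : a = 0
  · exact ⟨0, by simp [ha0, hp.ne_zero]⟩
  have hcop : (Nat.card (ZMod m)ˣ).Coprime p := by
    rw [Nat.card_units, Nat.card_zmod, Nat.coprime_comm, hp.coprime_iff_not_dvd]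
    intro hdvd
    apply hne
    have h1 : 1 ≤ m := hm.one_lt.le
    have : m = (m - 1) + 1 := by omega
    rw [this, Nat.add_mod, Nat.mod_eq_zero_of_dvd hdvd, zero_add, Nat.mod_mod,
      Nat.mod_eq_of_lt hp.one_lt]
  obtain ⟨x, hx⟩ := (powCoprime hcop).surjective (Units.mk0 a ha0)
  exact ⟨x, by simpa using congrArg Units.val hx⟩

end Cyclic

variable (K : Type*) [Field K] [NumberField K]

/-- The primes `P` of `K` modulo which the natural number `w` is a `p`-th power. -/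
def resSet (p w : ℕ) : Set (HeightOneSpectrum (𝓞 K)) :=
  {P | ∃ c : 𝓞 K, (w : 𝓞 K) - c ^ p ∈ P.asIdeal}

omit [NumberField K] in
lemma mem_resSet_iff_quotient {p w : ℕ} {P : HeightOneSpectrum (𝓞 K)} :
    P ∈ resSet K p w ↔ ∃ x : 𝓞 K ⧸ P.asIdeal, x ^ p = (w : 𝓞 K ⧸ P.asIdeal) := by
  constructor
  · rintro ⟨c, hc⟩
    refine ⟨Ideal.Quotient.mk _ c, ?_⟩
    rw [← map_pow, ← map_natCast (Ideal.Quotient.mk P.asIdeal) w, eq_comm, Ideal.Quotient.eq]
    exact hc
  · rintro ⟨x, hx⟩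
    obtain ⟨c, rfl⟩ := Ideal.Quotient.mk_surjective x
    refine ⟨c, ?_⟩
    rw [← map_pow, ← map_natCast (Ideal.Quotient.mk P.asIdeal) w, eq_comm, Ideal.Quotient.eq] at hx
    exact hx

omit [NumberField K] in
lemma mem_resSet_mul_pow {p a b : ℕ} {P : HeightOneSpectrum (𝓞 K)} (ha : P ∈ resSet K p a)
    (hb : P ∈ resSet K p b) (j : ℕ) : P ∈ resSet K p (b * a ^ j) := by
  rw [mem_resSet_iff_quotient] at ha hb ⊢
  obtain ⟨x, hx⟩ := ha
  obtain ⟨y, hy⟩ := hb
  exact ⟨y * x ^ j, by push_cast; rw [mul_pow, ← pow_mul, mul_comm j p, pow_mul, hx, hy]⟩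

lemma exists_mem_resSet_mul_pow {p : ℕ} (hp : p.Prime) (a b : ℕ) {P : HeightOneSpectrum (𝓞 K)}
    (ha : P ∉ resSet K p a) : ∃ j < p, P ∈ resSet K p (b * a ^ j) := by
  have := P.isMaximal
  let _ : Field (𝓞 K ⧸ P.asIdeal) := Ideal.Quotient.field P.asIdeal
  have hfin : Finite (𝓞 K ⧸ P.asIdeal) := Ideal.finiteQuotientOfFreeOfNeBot P.asIdeal P.ne_bot
  rw [mem_resSet_iff_quotient] at ha
  obtain ⟨j, hj, x, hx⟩ := exists_mul_pow_eq_pow_of_finite_field hp
    (a : 𝓞 K ⧸ P.asIdeal) (b : 𝓞 K ⧸ P.asIdeal) ha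
  exact ⟨j, hj, mem_resSet_iff_quotient K |>.mpr ⟨x, by push_cast; exact hx⟩⟩

/-- For a prime `P` of `K` whose absolute norm is the rational prime `m`: `w` is a `p`-th power
modulo `P` iff it is a `p`-th power in `ZMod m`. -/
lemma mem_resSet_iff_zmod {p w m : ℕ} (hm : m.Prime) {P : HeightOneSpectrum (𝓞 K)}
    (hP : absNorm P.asIdeal = m) :
    P ∈ resSet K p w ↔ ∃ x : ZMod m, x ^ p = (w : ZMod m) := by
  have hfin : Finite (𝓞 K ⧸ P.asIdeal) := Ideal.finiteQuotientOfFreeOfNeBot P.asIdeal P.ne_bot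
  let _ : Fintype (𝓞 K ⧸ P.asIdeal) := Fintype.ofFinite _
  have hcard : Fintype.card (𝓞 K ⧸ P.asIdeal) = m := by
    rw [← Nat.card_eq_fintype_card, ← Submodule.cardQuot_apply, ← Ideal.absNorm_apply, hP]
  let e : ZMod m ≃+* (𝓞 K ⧸ P.asIdeal) := ZMod.ringEquivOfPrime _ hm hcard
  rw [mem_resSet_iff_quotient]
  constructor
  · rintro ⟨x, hx⟩
    exact ⟨e.symm x, by rw [← map_pow, hx, map_natCast]⟩
  · rintro ⟨x, hx⟩
    exact ⟨e x, by rw [← map_pow, hx, map_natCast]⟩

open Real in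
/-- **Union bound**: if the power-residue sets of `a` and of all `b * a ^ j` (`j < p`) have upper
logarithmic density `≤ 1/p` and that of `b` has lower density `≥ 1/p`, then there is a prime `P`
of `K` of absolute degree one, with norm outside a given finite set, such that `b` is a `p`-th
power modulo `P` and `a` is not. -/
theorem exists_prime_res_not_res {p : ℕ} (hp : p.Prime) (a b : ℕ) (bad : Finset ℕ)
    (hA : ∃ C : ℝ, ∀ s ∈ Set.Ioc (1 : ℝ) 2,
      setSum K (resSet K p a) s ≤ (1 / (p : ℝ)) * log (1 / (s - 1)) + C)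
    (hB : ∀ j < p, ∃ C : ℝ, ∀ s ∈ Set.Ioc (1 : ℝ) 2,
      setSum K (resSet K p (b * a ^ j)) s ≤ (1 / (p : ℝ)) * log (1 / (s - 1)) + C)
    (hB0 : ∃ C : ℝ, ∀ s ∈ Set.Ioc (1 : ℝ) 2,
      (1 / (p : ℝ)) * log (1 / (s - 1)) - C ≤ setSum K (resSet K p b) s) :
    ∃ P : HeightOneSpectrum (𝓞 K), (absNorm P.asIdeal).Prime ∧ absNorm P.asIdeal ∉ bad ∧
      P ∈ resSet K p b ∧ P ∉ resSet K p a := by
  by_contra hcon
  push Not at hcon
  set T : Finset (HeightOneSpectrum (𝓞 K)) := (finite_absNorm_mem K bad).toFinset with hT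
  have hTmem : ∀ P, P ∈ T ↔ absNorm P.asIdeal ∈ bad := fun P => by
    rw [hT, Set.Finite.mem_toFinset]; rfl
  set D : Set (HeightOneSpectrum (𝓞 K)) := degOneSet K \ (T : Set (HeightOneSpectrum (𝓞 K)))
    with hD
  -- the key implication on `D`
  have hkey : ∀ P ∈ D, P ∈ resSet K p b → P ∈ resSet K p a := fun P hP hb =>
    hcon P hP.1 (fun h => hP.2 ((hTmem P).mpr h)) hb
  obtain ⟨CA, hCA⟩ := hA
  obtain ⟨CB0, hCB0⟩ := hB0
  choose! CB hCB using hB
  obtain ⟨CU, hCU⟩ := exists_bound_tsum_primeTerm K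
  set D2 : ℝ := (Module.finrank ℚ K : ℝ) * zetaTwoConst with hD2
  set Ctot : ℝ := (p : ℝ) * (CB0 + D2 + T.card) + (CU + D2 + T.card) +
    (∑ j ∈ Finset.range p, CB j) + CA with hCtot
  obtain ⟨s, hs, hlog⟩ := exists_log_gt (2 * Ctot)
  set L : ℝ := log (1 / (s - 1)) with hL
  have hL0 : 0 ≤ L := by
    apply Real.log_nonneg
    rw [le_div_iff₀ (by linarith [hs.1])]
    linarith [hs.2]
  have hp2 : (2 : ℝ) ≤ (p : ℝ) := by exact_mod_cast hp.two_le
  have hp0 : (0 : ℝ) < (p : ℝ) := by linarith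
  have hsum := summable_primeTerm K hs.1
  set f := primeTerm K s with hf
  have hfpos : ∀ P, 0 ≤ f P := fun P => (primeTerm_pos K s P).le
  have hind0 : ∀ (X : Set (HeightOneSpectrum (𝓞 K))) P, 0 ≤ X.indicator f P := fun X P =>
    Set.indicator_nonneg (fun Q _ => hfpos Q) P
  -- pointwise inequality
  have hpt : ∀ P, (p : ℝ) * (resSet K p b ∩ D).indicator f P + D.indicator f P ≤
      (∑ j ∈ Finset.range p, (resSet K p (b * a ^ j)).indicator f P) +
        (resSet K p a).indicator f P := by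
    intro P
    have hsum0 : 0 ≤ ∑ j ∈ Finset.range p, (resSet K p (b * a ^ j)).indicator f P :=
      Finset.sum_nonneg fun j _ => hind0 _ P
    by_cases hPD : P ∈ D
    · rw [Set.indicator_of_mem hPD]
      by_cases hPa : P ∈ resSet K p a
      · rw [Set.indicator_of_mem hPa]
        by_cases hPb : P ∈ resSet K p b
        · rw [Set.indicator_of_mem (Set.mem_inter hPb hPD)]
          have : ∑ j ∈ Finset.range p, (resSet K p (b * a ^ j)).indicator f P =
              ∑ _j ∈ Finset.range p, f P :=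
            Finset.sum_congr rfl fun j _ =>
              Set.indicator_of_mem (mem_resSet_mul_pow K hPa hPb j) f
          rw [this, Finset.sum_const, Finset.card_range, nsmul_eq_mul]
        · rw [Set.indicator_of_notMem (fun h : P ∈ resSet K p b ∩ D => hPb h.1)]
          linarith
      · rw [Set.indicator_of_notMem hPa,
          Set.indicator_of_notMem (fun h : P ∈ resSet K p b ∩ D => hPa (hkey P hPD h.1))]
        obtain ⟨j, hj, hPj⟩ := exists_mem_resSet_mul_pow K hp a b hPa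
        have : f P ≤ ∑ j ∈ Finset.range p, (resSet K p (b * a ^ j)).indicator f P := by
          calc f P = (resSet K p (b * a ^ j)).indicator f P := (Set.indicator_of_mem hPj f).symm
            _ ≤ _ := Finset.single_le_sum (f := fun j => (resSet K p (b * a ^ j)).indicator f P)
                (fun j _ => hind0 _ P) (Finset.mem_range.mpr hj)
        linarith
    · rw [Set.indicator_of_notMem hPD,
        Set.indicator_of_notMem (fun h : P ∈ resSet K p b ∩ D => hPD h.2)]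
      have := hind0 (resSet K p a) P
      linarith
  -- sum it up
  have hS : (p : ℝ) * setSum K (resSet K p b ∩ D) s + setSum K D s ≤
      (∑ j ∈ Finset.range p, setSum K (resSet K p (b * a ^ j)) s) + setSum K (resSet K p a) s := by
    simp only [setSum_eq_tsum_indicator]
    rw [← (hsum.indicator _).tsum_mul_left, ← ((hsum.indicator _).mul_left _).tsum_add
      (hsum.indicator _), ← Summable.tsum_finsetSum (fun j _ => hsum.indicator _),
      ← (summable_sum fun j _ => hsum.indicator _).tsum_add (hsum.indicator _)]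
    exact (((hsum.indicator _).mul_left _).add (hsum.indicator _)).tsum_le_tsum hpt
      ((summable_sum fun j _ => hsum.indicator _).add (hsum.indicator _))
  -- lower bounds for the left-hand side
  have hcompl : setSum K (degOneSet K)ᶜ s ≤ D2 := tsum_compl_degOneSet_le K hs.1
  have h1 : setSum K (resSet K p b) s ≤
      setSum K (resSet K p b ∩ D) s + setSum K (degOneSet K)ᶜ s + T.card := by
    refine setSum_le_of_subset K T (fun P hP => ?_) hs.1
    by_cases h1 : P ∈ degOneSet K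
    · by_cases h2 : P ∈ (T : Set (HeightOneSpectrum (𝓞 K)))
      · exact Or.inr h2
      · exact Or.inl (Or.inl ⟨hP, h1, h2⟩)
    · exact Or.inl (Or.inr h1)
  have h2 : setSum K Set.univ s ≤ setSum K D s + setSum K (degOneSet K)ᶜ s + T.card := by
    refine setSum_le_of_subset K T (fun P _ => ?_) hs.1
    by_cases h1 : P ∈ degOneSet K
    · by_cases h2 : P ∈ (T : Set (HeightOneSpectrum (𝓞 K)))
      · exact Or.inr h2
      · exact Or.inl (Or.inl ⟨h1, h2⟩)
    · exact Or.inl (Or.inr h1)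
  rw [setSum_univ] at h2
  have h3 := (abs_le.mp (hCU s hs)).1
  have h4 := hCB0 s hs
  have h5 := hCA s hs
  have h6 : ∑ j ∈ Finset.range p, setSum K (resSet K p (b * a ^ j)) s ≤
      L + ∑ j ∈ Finset.range p, CB j := by
    calc ∑ j ∈ Finset.range p, setSum K (resSet K p (b * a ^ j)) s
        ≤ ∑ j ∈ Finset.range p, ((1 / (p : ℝ)) * L + CB j) :=
          Finset.sum_le_sum fun j hj => hCB j (Finset.mem_range.mp hj) s hs
      _ = L + ∑ j ∈ Finset.range p, CB j := by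
          rw [Finset.sum_add_distrib, Finset.sum_const, Finset.card_range, nsmul_eq_mul]
          congr 1
          field_simp
  have h7 : (p : ℝ) * ((1 / (p : ℝ)) * L) = L := by field_simp
  have h8 : (1 / (p : ℝ)) * L ≤ L / 2 := by
    rw [one_div, inv_mul_eq_div]
    exact div_le_div_of_nonneg_left hL0 (by norm_num) hp2
  have h9 : (p : ℝ) * setSum K (resSet K p b ∩ D) s ≥
      (p : ℝ) * ((1 / (p : ℝ)) * L - CB0 - D2 - T.card) :=
    mul_le_mul_of_nonneg_left (by linarith) hp0.le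
  have h10 : (p : ℝ) * ((1 / (p : ℝ)) * L - CB0 - D2 - T.card) =
      L - (p : ℝ) * (CB0 + D2 + T.card) := by
    rw [mul_sub, mul_sub, mul_sub, h7]; ring
  -- conclude
  have : L / 2 ≤ Ctot := by
    rw [hCtot]
    linarith
  linarith

/-- **Auxiliary prime from densities** (rational form): under the density hypotheses of
`exists_prime_res_not_res` there is a rational prime `m ≡ 1 mod p` outside a given finite set such
that `a` is not a `p`-th power modulo `m` while `b` is. -/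
theorem exists_aux_prime_of_density {p : ℕ} (hp : p.Prime) (a b : ℕ) (bad : Finset ℕ)
    (hA : ∃ C : ℝ, ∀ s ∈ Set.Ioc (1 : ℝ) 2,
      setSum K (resSet K p a) s ≤ (1 / (p : ℝ)) * Real.log (1 / (s - 1)) + C)
    (hB : ∀ j < p, ∃ C : ℝ, ∀ s ∈ Set.Ioc (1 : ℝ) 2,
      setSum K (resSet K p (b * a ^ j)) s ≤ (1 / (p : ℝ)) * Real.log (1 / (s - 1)) + C)
    (hB0 : ∃ C : ℝ, ∀ s ∈ Set.Ioc (1 : ℝ) 2,
      (1 / (p : ℝ)) * Real.log (1 / (s - 1)) - C ≤ setSum K (resSet K p b) s) :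
    ∃ m : ℕ, m.Prime ∧ m % p = 1 ∧ m ∉ bad ∧ (¬ ∃ x : ZMod m, x ^ p = (a : ZMod m)) ∧
      (∃ x : ZMod m, x ^ p = (b : ZMod m)) := by
  obtain ⟨P, hm, hbad, hPb, hPa⟩ := exists_prime_res_not_res K hp a b bad hA hB hB0
  have hna : ¬ ∃ x : ZMod (absNorm P.asIdeal), x ^ p = (a : ZMod (absNorm P.asIdeal)) :=
    fun h => hPa ((mem_resSet_iff_zmod K hm rfl).mpr h)
  exact ⟨absNorm P.asIdeal, hm, mod_eq_one_of_not_pow hm hp _ hna, hbad, hna,
    (mem_resSet_iff_zmod K hm rfl).mp hPb⟩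

lemma factorization_prime_pow_self {q f : ℕ} (hq : q.Prime) : (q ^ f).factorization q = f := by
  rw [hq.factorization_pow, Finsupp.single_eq_same]

lemma factorization_aux {q0 q1 : ℕ} (hq0 : q0.Prime) (hq1 : q1.Prime) (h01 : q0 ≠ q1)
    (f0 f1 e j : ℕ) : (q1 ^ f1 * (q0 ^ f0) ^ e * (q0 ^ f0) ^ j).factorization q1 = f1 := by
  have h0 : (q0 ^ f0) ≠ 0 := pow_ne_zero _ hq0.ne_zero
  have h1 : (q1 ^ f1) ≠ 0 := pow_ne_zero _ hq1.ne_zero
  rw [Nat.factorization_mul (mul_ne_zero h1 (pow_ne_zero _ h0)) (pow_ne_zero _ h0),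
    Nat.factorization_mul h1 (pow_ne_zero _ h0), Nat.factorization_pow (q0 ^ f0) e,
    Nat.factorization_pow (q0 ^ f0) j, hq0.factorization_pow, hq1.factorization_pow]
  simp [h01]

/-- **Auxiliary prime** in the shape consumed by the crossing lemma, assuming that every
power-residue set `resSet K p w` (for `w` with some prime `q ≠ p` of valuation prime to `p`) has
logarithmic density `1/p`. -/
theorem exists_aux_prime_of_resSet_density {p : ℕ} (hp : p.Prime)
    (hK2 : ∀ w : ℕ, (∃ q : ℕ, q.Prime ∧ q ≠ p ∧ ¬ p ∣ w.factorization q) →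
      ∃ C : ℝ, ∀ s ∈ Set.Ioc (1 : ℝ) 2,
        |setSum K (resSet K p w) s - (1 / (p : ℝ)) * Real.log (1 / (s - 1))| ≤ C)
    {q0 q1 : ℕ} (hq0 : q0.Prime) (hq1 : q1.Prime) (h01 : q0 ≠ q1) (h0p : q0 ≠ p) (h1p : q1 ≠ p)
    {f0 f1 : ℕ} (hf0 : ¬ p ∣ f0) (hf1 : ¬ p ∣ f1) (e : ℕ) (S : Finset ℕ) :
    ∃ m : ℕ, m.Prime ∧ m % p = 1 ∧ m ≠ p ∧ m ≠ q0 ∧ m ≠ q1 ∧ m ∉ S ∧
      (¬ ∃ x : ZMod m, x ^ p = ((q0 ^ f0 : ℕ) : ZMod m)) ∧
      (∃ x : ZMod m, x ^ p = ((q1 ^ f1 * (q0 ^ f0) ^ e : ℕ) : ZMod m)) := by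
  have hcondA : ∃ q : ℕ, q.Prime ∧ q ≠ p ∧ ¬ p ∣ (q0 ^ f0).factorization q :=
    ⟨q0, hq0, h0p, by rwa [factorization_prime_pow_self hq0]⟩
  have hcondB : ∀ j : ℕ, ∃ q : ℕ, q.Prime ∧ q ≠ p ∧
      ¬ p ∣ (q1 ^ f1 * (q0 ^ f0) ^ e * (q0 ^ f0) ^ j).factorization q :=
    fun j => ⟨q1, hq1, h1p, by rwa [factorization_aux hq0 hq1 h01]⟩
  obtain ⟨CA, hCA⟩ := hK2 _ hcondA
  have hB0' := hK2 _ (hcondB 0)
  rw [pow_zero, mul_one] at hB0'
  obtain ⟨CB0, hCB0⟩ := hB0'
  obtain ⟨m, hm, hmp, hbad, hna, hb⟩ := exists_aux_prime_of_density K hp (q0 ^ f0)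
    (q1 ^ f1 * (q0 ^ f0) ^ e) (insert p (insert q0 (insert q1 S)))
    ⟨CA, fun s hs => by have := (abs_le.mp (hCA s hs)).2; linarith⟩
    (fun j _ => by
      obtain ⟨C, hC⟩ := hK2 _ (hcondB j)
      exact ⟨C, fun s hs => by have := (abs_le.mp (hC s hs)).2; linarith⟩)
    ⟨CB0, fun s hs => by have := (abs_le.mp (hCB0 s hs)).1; linarith⟩
  simp only [Finset.mem_insert, not_or] at hbad
  exact ⟨m, hm, hmp, hbad.1, hbad.2.1, hbad.2.2.1, hbad.2.2.2, hna, hb⟩

end Fermat.Agent.S14.H72
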