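import Mathlib
import Fermat.Agent.S14.H67_K0
import Fermat.Agent.S14.H67_CrossingAll
import Fermat.Agent.S14.H72_AuxPrimeDensity
import Fermat.Agent.S14.H88_KummerField

/-!
# The auxiliary prime (AUX): final glue

`hK2` of `H72.exists_aux_prime_of_resSet_density` from the landed pieces
`H67_K0` (norm argument), `H88_KummerField` (Kummer field + splitting criterion) and
`H72_SplitDensity` (density `1/n` of the split set); then `AuxPrimeStatement p`.
-/

set_option autoImplicit false

namespace Fermat.Agent.S14.H67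

open NumberField IsDedekindDomain Polynomial

/-- Density `1/p` of the `p`-th power residue set of `w` in a number field `K ∋ ζ_p` of degree
`p - 1` over `ℚ`, when some prime `q` has `p ∤ v_q(w)`. -/
theorem resSet_density {p : ℕ} (hp : p.Prime) (K : Type*) [Field K] [NumberField K]
    (hK : Module.finrank ℚ K = p - 1) {ζ : 𝓞 K} (hζ : IsPrimitiveRoot ζ p) (w : ℕ)
    (hw : ∃ q : ℕ, q.Prime ∧ ¬ p ∣ w.factorization q) :
    ∃ C : ℝ, ∀ s ∈ Set.Ioc (1 : ℝ) 2,
      |H72.setSum K (H72.resSet K p w) s - (1 / (p : ℝ)) * Real.log (1 / (s - 1))| ≤ C := by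
  obtain ⟨q, hq, hv⟩ := hw
  have hw0 : w ≠ 0 := by
    rintro rfl
    simp at hv
  rw [Nat.factorization_def w hq] at hv
  -- the Kummer field
  set a : 𝓞 K := (w : 𝓞 K) with ha
  have haK : (a : K) = (w : K) := by simp [ha]
  have hirr : Fact (Irreducible (X ^ p - C (a : K))) :=
    ⟨H88.irreducible_of_not_pow hp (fun b => by
      rw [haK]; exact pow_ne_natCast_of_padicValNat hp hK hq hv b)⟩
  have : IsGalois K (H88.kummerField K p a) := H88.isGalois_kummerField hζ hp
  have hfr : Module.finrank K (H88.kummerField K p a) = p := H88.finrank_kummerField hζ hp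
  obtain ⟨C, hC⟩ := H72.exists_bound_splitSum K (H88.kummerField K p a)
  rw [hfr] at hC
  -- the exceptional finite set: primes dividing `p * w`
  have hpw : ((p * w : ℕ) : 𝓞 K) ≠ 0 := by
    exact_mod_cast (Nat.cast_ne_zero (R := 𝓞 K)).2 (Nat.mul_ne_zero hp.ne_zero hw0)
  have hI : Ideal.span {((p * w : ℕ) : 𝓞 K)} ≠ 0 := by
    rw [Ne, Ideal.zero_eq_bot, Ideal.span_singleton_eq_bot]; exact hpw
  have hfin := Ideal.finite_factors hI
  set T : Finset (HeightOneSpectrum (𝓞 K)) := hfin.toFinset with hT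
  have hnotT : ∀ P : HeightOneSpectrum (𝓞 K), P ∉ T →
      (p : 𝓞 K) ∉ P.asIdeal ∧ a ∉ P.asIdeal := by
    intro P hP
    rw [hT, Set.Finite.mem_toFinset, Set.mem_ofPred_eq, Ideal.dvd_span_singleton] at hP
    constructor
    · intro h
      apply hP
      push_cast
      exact Ideal.mul_mem_right _ _ h
    · intro h
      apply hP
      push_cast
      exact Ideal.mul_mem_left _ _ h
  have hiff : ∀ P : HeightOneSpectrum (𝓞 K), P ∉ T →
      (P ∈ H72.splitSet K (H88.kummerField K p a) ↔ P ∈ H72.resSet K p w) := by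
    intro P hP
    obtain ⟨h1, h2⟩ := hnotT P hP
    have := P.isPrime
    have key := H88.kummerField_splits_iff (a := a) hp hζ P.asIdeal P.ne_bot h1 h2
    rw [H72.mem_resSet_iff_quotient]
    have hmk : Ideal.Quotient.mk P.asIdeal a = (w : 𝓞 K ⧸ P.asIdeal) := by
      rw [ha, map_natCast]
    rw [hmk] at key
    exact key
  have hsub1 : H72.resSet K p w ⊆
      H72.splitSet K (H88.kummerField K p a) ∪ ∅ ∪ (T : Set (HeightOneSpectrum (𝓞 K))) := by
    intro P hP
    by_cases hPT : P ∈ T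
    · exact Or.inr hPT
    · exact Or.inl (Or.inl ((hiff P hPT).2 hP))
  have hsub2 : H72.splitSet K (H88.kummerField K p a) ⊆
      H72.resSet K p w ∪ ∅ ∪ (T : Set (HeightOneSpectrum (𝓞 K))) := by
    intro P hP
    by_cases hPT : P ∈ T
    · exact Or.inr hPT
    · exact Or.inl (Or.inl ((hiff P hPT).1 hP))
  have hempty : ∀ s : ℝ, H72.setSum K (∅ : Set (HeightOneSpectrum (𝓞 K))) s = 0 := by
    intro s
    unfold H72.setSum
    exact tsum_empty
  refine ⟨C + T.card, fun s hs => ?_⟩
  have h1 := H72.setSum_le_of_subset K T hsub1 hs.1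
  have h2 := H72.setSum_le_of_subset K T hsub2 hs.1
  rw [hempty, H72.setSum_splitSet] at h1 h2
  have h3 := abs_le.mp (hC s hs)
  rw [abs_le]
  constructor <;> linarith [h3.1, h3.2]

/-- **AUX**: the auxiliary prime, in the shape consumed by the crossing lemma. -/
theorem auxPrimeStatement {p : ℕ} (hp : p.Prime) : AuxPrimeStatement p := by
  intro q0 q1 hq0 hq1 h01 h0p h1p f0 f1 hf0 hf1 e
  have : NeZero p := ⟨hp.ne_zero⟩
  have : IsCyclotomicExtension {p} ℚ (CyclotomicField p ℚ) :=
    CyclotomicField.isCyclotomicExtension p ℚ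
  have hK : Module.finrank ℚ (CyclotomicField p ℚ) = p - 1 :=
    finrank_of_isCyclotomicExtension hp (CyclotomicField p ℚ)
  have hζ' : IsPrimitiveRoot (IsCyclotomicExtension.zeta p ℚ (CyclotomicField p ℚ)) p :=
    IsCyclotomicExtension.zeta_spec p ℚ (CyclotomicField p ℚ)
  have hζ : IsPrimitiveRoot hζ'.toInteger p := hζ'.toInteger_isPrimitiveRoot
  obtain ⟨m, hm, hmp, hmp', hm0, hm1, -, hna, hb⟩ :=
    H72.exists_aux_prime_of_resSet_density (CyclotomicField p ℚ) hp
      (fun w ⟨q, hq, _, hv⟩ => resSet_density hp (CyclotomicField p ℚ) hK hζ w ⟨q, hq, hv⟩)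
      hq0 hq1 h01 h0p h1p hf0 hf1 e ∅
  exact ⟨m, hm, hmp, hmp', hm0, hm1, hna, hb⟩

end Fermat.Agent.S14.H67
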