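import Mathlib
import Fermat.Agent.S14.H72_AuxPrimeDensity

set_option autoImplicit false

/-!
# Degree-one primes and `ZMod m` (K4 of the auxiliary-prime argument)
-/

namespace Fermat.Agent.S14.H72

open NumberField Ideal IsDedekindDomain

variable {K : Type*} [Field K] [NumberField K]

/-- (K4a) The residue field of a prime of absolute norm the rational prime `m` is `ZMod m`. -/
theorem nonempty_quotient_ringEquiv_zmod (P : HeightOneSpectrum (𝓞 K)) {m : ℕ} (hm : m.Prime)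
    (hP : absNorm P.asIdeal = m) : Nonempty ((𝓞 K ⧸ P.asIdeal) ≃+* ZMod m) := by
  have hfin : Finite (𝓞 K ⧸ P.asIdeal) := Ideal.finiteQuotientOfFreeOfNeBot P.asIdeal P.ne_bot
  let _ : Fintype (𝓞 K ⧸ P.asIdeal) := Fintype.ofFinite _
  have hcard : Fintype.card (𝓞 K ⧸ P.asIdeal) = m := by
    rw [← Nat.card_eq_fintype_card, ← Submodule.cardQuot_apply, ← Ideal.absNorm_apply, hP]
  exact ⟨(ZMod.ringEquivOfPrime _ hm hcard).symm⟩

/-- (K4b) `w` is a `p`-th power in the residue field of `P` iff it is one in `ZMod m`. -/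
theorem exists_pow_eq_mk_iff_zmod (P : HeightOneSpectrum (𝓞 K)) {m : ℕ} (hm : m.Prime)
    (hP : absNorm P.asIdeal = m) (p w : ℕ) :
    (∃ x : 𝓞 K ⧸ P.asIdeal, x ^ p = Ideal.Quotient.mk P.asIdeal (w : 𝓞 K)) ↔
      ∃ x : ZMod m, x ^ p = (w : ZMod m) := by
  rw [map_natCast, ← mem_resSet_iff_quotient, mem_resSet_iff_zmod K hm hP]

/-- (K4c) A rational prime `q` different from the norm `m` of `P` does not lie in `P`. -/
theorem natCast_notMem_of_ne (P : HeightOneSpectrum (𝓞 K)) {m q : ℕ} (hm : m.Prime)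
    (hq : q.Prime) (hqm : q ≠ m) (hP : absNorm P.asIdeal = m) : (q : 𝓞 K) ∉ P.asIdeal := by
  intro hqP
  have hmP : (m : 𝓞 K) ∈ P.asIdeal := hP ▸ Ideal.absNorm_mem P.asIdeal
  have hcop : IsCoprime (q : ℤ) (m : ℤ) :=
    Nat.isCoprime_iff_coprime.mpr ((Nat.coprime_primes hq hm).mpr hqm)
  obtain ⟨u, v, huv⟩ := hcop
  have h1 : (1 : 𝓞 K) ∈ P.asIdeal := by
    have : ((u * q + v * m : ℤ) : 𝓞 K) = 1 := by rw [huv]; simp
    rw [← this]
    push_cast
    exact P.asIdeal.add_mem (P.asIdeal.mul_mem_left _ hqP) (P.asIdeal.mul_mem_left _ hmP)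
  exact P.isPrime.ne_top ((Ideal.eq_top_iff_one _).mpr h1)

/-- (K4c) If `K` contains a primitive `p`-th root of unity and `P` has prime norm `m ≠ p`, then
`m ≡ 1 mod p`. -/
theorem mod_eq_one_of_isPrimitiveRoot (P : HeightOneSpectrum (𝓞 K)) {m p : ℕ} (hm : m.Prime)
    (hp : p.Prime) (hmp : m ≠ p) (hP : absNorm P.asIdeal = m) {ζ : 𝓞 K}
    (hζ : IsPrimitiveRoot ζ p) : m % p = 1 := by
  have hpP : (p : 𝓞 K) ∉ P.asIdeal := natCast_notMem_of_ne P hm hp (Ne.symm hmp) hP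
  have := P.isMaximal
  let _ : Field (𝓞 K ⧸ P.asIdeal) := Ideal.Quotient.field P.asIdeal
  have hfin : Finite (𝓞 K ⧸ P.asIdeal) := Ideal.finiteQuotientOfFreeOfNeBot P.asIdeal P.ne_bot
  have hcard : Nat.card (𝓞 K ⧸ P.asIdeal) = m := by
    rw [← Submodule.cardQuot_apply, ← Ideal.absNorm_apply, hP]
  set z : 𝓞 K ⧸ P.asIdeal := Ideal.Quotient.mk P.asIdeal ζ with hz
  have hzp : z ^ p = 1 := by rw [hz, ← map_pow, hζ.pow_eq_one, map_one]
  have hz1 : z ≠ 1 := by
    intro h1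
    apply hpP
    have hsum : ∑ i ∈ Finset.range p, ζ ^ i = 0 := hζ.geom_sum_eq_zero hp.one_lt
    have : (Ideal.Quotient.mk P.asIdeal) (∑ i ∈ Finset.range p, ζ ^ i) = (p : 𝓞 K ⧸ P.asIdeal) := by
      rw [map_sum]
      simp only [map_pow, ← hz, h1, one_pow, Finset.sum_const, Finset.card_range, nsmul_eq_mul,
        mul_one]
    rw [hsum, map_zero] at this
    rw [← Ideal.Quotient.eq_zero_iff_mem, map_natCast]
    exact this.symm
  have hz0 : z ≠ 0 := fun h0 => by
    rw [h0, zero_pow hp.ne_zero] at hzp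
    exact zero_ne_one hzp
  have : Fact p.Prime := ⟨hp⟩
  have hord : orderOf (Units.mk0 z hz0) = p := by
    refine orderOf_eq_prime ?_ ?_
    · ext; simpa using hzp
    · intro h; exact hz1 (by simpa using congrArg Units.val h)
  have hdvd : p ∣ m - 1 := by
    have := orderOf_dvd_natCard (Units.mk0 z hz0)
    rwa [hord, Nat.card_units, hcard] at this
  have h1 : 1 ≤ m := hm.one_lt.le
  have : m = (m - 1) + 1 := by omega
  rw [this, Nat.add_mod, Nat.mod_eq_zero_of_dvd hdvd, zero_add, Nat.mod_mod,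
    Nat.mod_eq_of_lt hp.one_lt]

end Fermat.Agent.S14.H72
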