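import Mathlib
import Fermat.Agent.S14.H78_SplitInst

/-!
S14 / WP5-fields, pieces [S3] and [S7] of helper80's skeleton (helper78):
degrees `[M : E] = p`, `[E : K] = p`, injectivity of restriction `Gal(M/E) → Gal(L/K)`,
and the `split` field, for helper80's `EField`/`MField`.
-/

set_option autoImplicit false
set_option linter.unusedSectionVars false
set_option linter.unusedVariables false

noncomputable section

namespace Fermat.Agent.S14.H78

open NumberField Fermat.Agent.S14.H80

section CF3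

variable (p m : ℕ) [NeZero m] (K L : Type) [Field K] [Field L] [NumberField K] [NumberField L]
  [Algebra K L] [IsGalois K L]

variable (s0 : Gal(L/K)) (n0 : (ZMod m)ˣ)

variable [IsMulCommutative Gal(L/K)]

theorem finrank_K_EField (h : (Dt p m K L s0 n0).index = p) :
    Module.finrank K ↥(EField p m K L s0 n0) = p := by
  rw [IntermediateField.finrank_eq_fixingSubgroup_index, EField,
    IntermediateField.fixingSubgroup_fixedField, h]

theorem finrank_EField_MField
    (h : (N0 p m K L).relIndex (Dt p m K L s0 n0) = p) :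
    Module.finrank ↥(EField p m K L s0 n0) ↥(MField p m K L) = p := by
  have h1 : Module.finrank ↥(EField p m K L s0 n0) (Om m L) = Nat.card (Dt p m K L s0 n0) :=
    IntermediateField.finrank_fixedField_eq_card (Dt p m K L s0 n0)
  have h2 : Module.finrank ↥(MField p m K L) (Om m L) = Nat.card (N0 p m K L) :=
    IntermediateField.finrank_fixedField_eq_card (N0 p m K L)
  have h3 := Module.finrank_mul_finrank ↥(EField p m K L s0 n0) ↥(MField p m K L) (Om m L)
  have h4 : (⊥ : Subgroup Gal(Om m L/K)).relIndex (N0 p m K L) *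
      (N0 p m K L).relIndex (Dt p m K L s0 n0) = (⊥ : Subgroup Gal(Om m L/K)).relIndex
        (Dt p m K L s0 n0) :=
    Subgroup.relIndex_mul_relIndex _ _ _ bot_le (N0_le_Dt p m K L s0 n0)
  rw [Subgroup.relIndex_bot_left, Subgroup.relIndex_bot_left, h] at h4
  rw [h1, h2, ← h4, mul_comm] at h3
  exact Nat.eq_of_mul_eq_mul_left Nat.card_pos h3

theorem res_inj_EM (h : (resL m K L).ker ⊓ Dt p m K L s0 n0 = N0 p m K L)
    (σ : Gal(↥(MField p m K L)/↥(EField p m K L s0 n0)))
    (hσ : ∀ x : L, σ (algebraMap L ↥(MField p m K L) x) = algebraMap L ↥(MField p m K L) x) :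
    σ = 1 := by
  obtain ⟨σ', rfl⟩ := AlgEquiv.restrictNormalHom_surjective
    (F := ↥(EField p m K L s0 n0)) (K₁ := ↥(MField p m K L)) (Om m L) σ
  -- the `K`-automorphism underlying `σ'`
  set γ : Gal(Om m L/K) := σ'.restrictScalars K with hγ
  have hγapply : ∀ y : Om m L, γ y = σ' y := fun _ => rfl
  have hcomm : ∀ y : ↥(MField p m K L),
      algebraMap ↥(MField p m K L) (Om m L)
        (AlgEquiv.restrictNormalHom (F := ↥(EField p m K L s0 n0)) ↥(MField p m K L) σ' y) =
        σ' (algebraMap ↥(MField p m K L) (Om m L) y) :=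
    fun y => AlgEquiv.restrictNormal_commutes σ' ↥(MField p m K L) y
  -- `γ ∈ D̃`
  have hγD : γ ∈ Dt p m K L s0 n0 := by
    have : γ ∈ (IntermediateField.fixedField (Dt p m K L s0 n0)).fixingSubgroup := by
      intro x
      exact σ'.commutes x
    rwa [IntermediateField.fixingSubgroup_fixedField] at this
  -- `γ ∈ ker resL`
  have hγL : γ ∈ (resL m K L).ker := by
    rw [MonoidHom.mem_ker]
    ext x
    apply (algebraMap L (Om m L)).injective
    rw [resL_commutes, AlgEquiv.one_apply, hγapply]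
    have h1 := hσ x
    have h2 := hcomm (algebraMap L ↥(MField p m K L) x)
    rw [h1] at h2
    exact h2.symm
  have hγN : γ ∈ N0 p m K L := h ▸ ⟨hγL, hγD⟩
  ext y
  have h2 := hcomm y
  have h3 : σ' ((y : ↥(MField p m K L)) : Om m L) = (y : Om m L) := y.2 ⟨γ, hγN⟩
  rw [AlgEquiv.one_apply]
  exact h2.trans h3

/-- `split` verbatim in the shape of helper80's skeleton [S7]. -/
theorem split_EM (hm : m.Prime)
    (hunr : ∀ Q : Ideal (𝓞 L), Q.IsPrime → Q ≠ ⊥ → Q.ramificationIdx (𝓞 K) = 1)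
    (Q : Ideal (𝓞 K)) [Q.IsPrime] (hQ : Q ≠ ⊥) (hmQ : (m : 𝓞 K) ∉ Q) (k : ℕ)
    (hk : H27.frobP L Q = s0 ^ k)
    (hx : ∃ x : ZMod m, (Ideal.absNorm Q : ZMod m) = (n0 : ZMod m) ^ k * x ^ p) :
    ∃ QQ : Ideal (𝓞 ↥(EField p m K L s0 n0)), QQ.IsPrime ∧ QQ.LiesOver Q ∧
      Ideal.relNorm (𝓞 K) QQ = Q ∧
      IsCoprime QQ (Ideal.span {(m : 𝓞 ↥(EField p m K L s0 n0))}) := by
  rcases Nat.eq_zero_or_pos p with hp | hp
  · -- `p = 0`: `x ^ p = 1 = 1 ^ 1`, and `Dt 0 = Dt`-membership with `u = 1`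
    subst hp
    apply exists_prime_relNorm_eq (L := L) (Ω := Om m L) (E := ↥(EField 0 m K L s0 n0))
      (ζ := zetaOm m L) ((zetaOm_spec m L).pow_eq_one) Q hQ hmQ
      (fun P hP hP0 _ => hunr P hP hP0)
    intro γ h1 h2 x
    obtain ⟨x0, hx0⟩ := hx
    have hchi := chi_eq_of_apply_zeta m K L γ (Ideal.absNorm Q) h2
    have hγ : γ ∈ Dt 0 m K L s0 n0 := by
      refine (mem_Dt 0 m K L s0 n0).mpr ⟨(k : ℤ), ?_, 1, ?_⟩
      · rw [zpow_natCast]; exact h1.trans hk
      · apply Units.ext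
        rw [hchi, hx0]
        simp
    exact x.2 ⟨γ, hγ⟩
  · exact split_EField p m K L s0 n0 hp.ne' (fun P hP hP0 => hunr P hP hP0) Q hQ hmQ k hk hx

end CF3

end Fermat.Agent.S14.H78
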