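import Mathlib
import Fermat.Agent.S14.H78_FieldsLemmas
import Fermat.Agent.S14.H80_Fields

/-!
S14 / WP5-fields, piece [S5] of helper80's skeleton (helper78):
`E/K` is totally ramified (index `p`) at the primes over `m`.
-/

set_option autoImplicit false
set_option linter.unusedSectionVars false
set_option linter.unusedVariables false

noncomputable section

namespace Fermat.Agent.S14.H78

open NumberField Fermat.Agent.S14.H80

section CF5

variable (p m : ℕ) [NeZero m] (K L : Type) [Field K] [Field L] [NumberField K] [NumberField L]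
  [Algebra K L] [IsGalois K L]

variable (s0 : Gal(L/K)) (n0 : (ZMod m)ˣ)

variable [IsMulCommutative Gal(L/K)]

theorem ramificationIdx_EField_of_mem
    (hinert : ∀ (𝔔 : Ideal (𝓞 (Om m L))) [𝔔.IsPrime], (m : 𝓞 (Om m L)) ∈ 𝔔 →
      𝔔.inertia Gal(Om m L/K) = (resL m K L).ker)
    (h1 : (resL m K L).ker ⊓ Dt p m K L s0 n0 = N0 p m K L)
    (h2 : (N0 p m K L).relIndex (resL m K L).ker = p)
    (𝔐 : Ideal (𝓞 ↥(EField p m K L s0 n0))) (h𝔐 : 𝔐.IsPrime)
    (hm𝔐 : (m : 𝓞 ↥(EField p m K L s0 n0)) ∈ 𝔐) :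
    𝔐.ramificationIdx (𝓞 K) = p := by
  have := h𝔐
  have hm0 : (m : 𝓞 ↥(EField p m K L s0 n0)) ≠ 0 := Nat.cast_ne_zero.mpr (NeZero.ne m)
  have h𝔐0 : 𝔐 ≠ ⊥ := fun h => hm0 (by simpa [h] using hm𝔐)
  have : 𝔐.IsMaximal := Ideal.IsPrime.isMaximal h𝔐 h𝔐0
  obtain ⟨𝔔, h𝔔max, h𝔔over⟩ :=
    Ideal.exists_maximal_ideal_liesOver_of_isIntegral (S := 𝓞 (Om m L)) 𝔐
  have : 𝔔.IsPrime := h𝔔max.isPrime
  have hm𝔔 : (m : 𝓞 (Om m L)) ∈ 𝔔 := by
    have : algebraMap (𝓞 ↥(EField p m K L s0 n0)) (𝓞 (Om m L))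
        (m : 𝓞 ↥(EField p m K L s0 n0)) ∈ 𝔔 := by
      rw [← Ideal.mem_comap, ← Ideal.under_def, ← h𝔔over.over]
      exact hm𝔐
    simpa using this
  have hmΩ0 : (m : 𝓞 (Om m L)) ≠ 0 := Nat.cast_ne_zero.mpr (NeZero.ne m)
  have h𝔔0 : 𝔔 ≠ ⊥ := fun h => hmΩ0 (by simpa [h] using hm𝔔)
  -- tower formula
  have htower : 𝔔.ramificationIdx (𝓞 K) =
      𝔐.ramificationIdx (𝓞 K) * 𝔔.ramificationIdx (𝓞 ↥(EField p m K L s0 n0)) :=
    Ideal.ramificationIdx_tower 𝔐 𝔔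
  -- the two inertia computations
  have hI := hinert 𝔔 hm𝔔
  have he1 : 𝔔.ramificationIdx (𝓞 K) = Nat.card ↥(resL m K L).ker := by
    rw [← card_inertia_eq_ramificationIdx (K := K) 𝔔 h𝔔0, hI]
  have he2 : 𝔔.ramificationIdx (𝓞 ↥(EField p m K L s0 n0)) = Nat.card ↥(N0 p m K L) := by
    have := ramificationIdx_fixedField (K := K) (Dt p m K L s0 n0) 𝔔 h𝔔0
    rw [hI, h1] at this
    exact this
  -- counting
  have hle : N0 p m K L ≤ (resL m K L).ker := h1 ▸ inf_le_left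
  have h4 : (⊥ : Subgroup Gal(Om m L/K)).relIndex (N0 p m K L) *
      (N0 p m K L).relIndex (resL m K L).ker =
        (⊥ : Subgroup Gal(Om m L/K)).relIndex (resL m K L).ker :=
    Subgroup.relIndex_mul_relIndex _ _ _ bot_le hle
  rw [Subgroup.relIndex_bot_left, Subgroup.relIndex_bot_left, h2] at h4
  rw [he1, he2, ← h4] at htower
  exact (Nat.eq_of_mul_eq_mul_left Nat.card_pos (htower.trans (mul_comm _ _))).symm

end CF5

end Fermat.Agent.S14.H78
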