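import Mathlib
import Fermat.Agent.S14.H80_Fields
import Fermat.Agent.S14.H94_DiagGroup

/-!
# S14 / WP5-fields (helper80): finite group theory of `N₀ ≤ D̃ ≤ Γ`

Bridge from `H80.N0`, `H80.Dt` to helper94's abstract `diagN0`, `diagDt`, and the five index /
membership statements used in the existence proof of `CrossFields`.
-/

set_option autoImplicit false
set_option linter.unusedSectionVars false

noncomputable section

namespace Fermat.Agent.S14.H80

open NumberField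

variable (p m : ℕ) [NeZero m] (K L : Type) [Field K] [Field L] [NumberField K] [NumberField L]
  [Algebra K L] [IsGalois K L] (s0 : Gal(L/K)) (n0 : (ZMod m)ˣ)

/-- the subgroup of `p`-th powers of `(ZMod m)ˣ`. -/
abbrev Upow : Subgroup (ZMod m)ˣ := (powMonoidHom p : (ZMod m)ˣ →* (ZMod m)ˣ).range

theorem pow_mem_Upow (u : (ZMod m)ˣ) : u ^ p ∈ Upow p m := ⟨u, rfl⟩

theorem N0_eq_diagN0 : N0 p m K L = H94.diagN0 (resL m K L) (chi m K L) (Upow p m) := rfl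

theorem Dt_eq_diagDt :
    Dt p m K L s0 n0 = H94.diagDt (resL m K L) (chi m K L) (Upow p m) s0 n0 := by
  ext γ
  rw [mem_Dt, H94.mem_diagDt]
  constructor
  · rintro ⟨k, hk, u, hu⟩
    refine ⟨k, hk, u, ?_⟩
    rw [hu, mul_comm, ← mul_assoc, inv_mul_cancel, one_mul]; rfl
  · rintro ⟨k, hk, u, hu⟩
    refine ⟨k, hk, u, ?_⟩
    have hu' : u ^ p = chi m K L γ * (n0 ^ k)⁻¹ := hu
    rw [hu', mul_comm, inv_mul_cancel_right]

theorem orderOf_eq_of_card (hp : p.Prime) (hKL : Nat.card Gal(L/K) = p) (hs0 : s0 ≠ 1) :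
    orderOf s0 = p := by
  have : Fact p.Prime := ⟨hp⟩
  apply orderOf_eq_prime _ hs0
  rw [← hKL]
  exact pow_card_eq_one'

theorem not_mem_Upow (hn0 : ¬ ∃ x : (ZMod m)ˣ, x ^ p = n0) : n0 ∉ Upow p m := by
  rintro ⟨x, hx⟩
  exact hn0 ⟨x, hx⟩

theorem ker_resL_inf_Dt (hp : p.Prime) (hKL : Nat.card Gal(L/K) = p) (hs0 : s0 ≠ 1) :
    (resL m K L).ker ⊓ Dt p m K L s0 n0 = N0 p m K L := by
  apply le_antisymm
  · rintro γ ⟨h1, h2⟩
    rw [Dt_eq_diagDt] at h2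
    rw [N0_eq_diagN0]
    exact H94.mem_diagN0_of_mem_diagDt_of_r_eq_one (orderOf_eq_of_card p K L s0 hp hKL hs0)
      (pow_mem_Upow p m) h2 (MonoidHom.mem_ker.mp h1)
  · exact le_inf (fun γ hγ => MonoidHom.mem_ker.mpr ((mem_N0 p m K L).mp hγ).1)
      (N0_le_Dt p m K L s0 n0)

theorem mem_N0_of_mem_Dt (hp : p.Prime) (hKL : Nat.card Gal(L/K) = p) (hs0 : s0 ≠ 1)
    (hn0 : ¬ ∃ x : (ZMod m)ˣ, x ^ p = n0) {γ : Gal(Om m L/K)}
    (hγ : γ ∈ Dt p m K L s0 n0) (hχ : ∃ u : (ZMod m)ˣ, u ^ p = chi m K L γ) :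
    γ ∈ N0 p m K L := by
  rw [Dt_eq_diagDt] at hγ
  rw [N0_eq_diagN0]
  refine H94.mem_diagN0_of_mem_diagDt_of_chi_mem hp ?_ (pow_mem_Upow p m)
    (not_mem_Upow p m n0 hn0) hγ hχ
  rw [← orderOf_eq_of_card p K L s0 hp hKL hs0]
  exact pow_orderOf_eq_one s0

section Surj

variable (hsurj : Function.Surjective (fun γ : Gal(Om m L/K) => (resL m K L γ, chi m K L γ)))

include hsurj in
theorem exists_of_surj (g : Gal(L/K)) (u : (ZMod m)ˣ) :
    ∃ γ : Gal(Om m L/K), resL m K L γ = g ∧ chi m K L γ = u := by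
  obtain ⟨γ, hγ⟩ := hsurj (g, u)
  exact ⟨γ, (Prod.ext_iff.mp hγ).1, (Prod.ext_iff.mp hγ).2⟩

include hsurj in
theorem relIndex_N0_Dt (hp : p.Prime) (hKL : Nat.card Gal(L/K) = p) (hs0 : s0 ≠ 1) :
    (N0 p m K L).relIndex (Dt p m K L s0 n0) = p := by
  obtain ⟨φ0, h0, h0'⟩ := exists_of_surj m K L hsurj s0 n0
  rw [Dt_eq_diagDt, N0_eq_diagN0]
  exact H94.relIndex_diagN0_diagDt (orderOf_eq_of_card p K L s0 hp hKL hs0) (pow_mem_Upow p m)
    h0 (by rw [h0', mul_inv_cancel]; exact one_mem _)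

theorem index_Upow (_hp : p.Prime) (hm : m.Prime) (hm1 : p ∣ m - 1) : (Upow p m).index = p := by
  have : Fact m.Prime := ⟨hm⟩
  rw [IsCyclic.index_powMonoidHom_range, Nat.card_eq_fintype_card, ZMod.card_units_eq_totient,
    Nat.totient_prime hm]
  exact Nat.gcd_eq_right hm1

include hsurj in
theorem index_Dt (hp : p.Prime) (hKL : Nat.card Gal(L/K) = p) (hs0 : s0 ≠ 1)
    (hm : m.Prime) (hm1 : p ∣ m - 1) : (Dt p m K L s0 n0).index = p := by
  obtain ⟨φ0, h0, h0'⟩ := exists_of_surj m K L hsurj s0 n0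
  rw [Dt_eq_diagDt]
  exact H94.index_diagDt hp (orderOf_eq_of_card p K L s0 hp hKL hs0) (pow_mem_Upow p m)
    h0 (by rw [h0', mul_inv_cancel]; exact one_mem _) (exists_of_surj m K L hsurj) hKL
    (index_Upow p m hp hm hm1)

include hsurj in
theorem relIndex_N0_ker (hp : p.Prime) (hm : m.Prime) (hm1 : p ∣ m - 1) :
    (N0 p m K L).relIndex (resL m K L).ker = p := by
  have hmap : (resL m K L).ker.map (chi m K L) = ⊤ := by
    rw [eq_top_iff]
    intro u _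
    obtain ⟨γ, h1, h2⟩ := exists_of_surj m K L hsurj 1 u
    exact ⟨γ, MonoidHom.mem_ker.mpr h1, h2⟩
  rw [N0, Subgroup.inf_relIndex_left, Subgroup.relIndex_comap, hmap, Subgroup.relIndex_top_right]
  exact index_Upow p m hp hm hm1

end Surj

end Fermat.Agent.S14.H80
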