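import Mathlib
import Fermat.Agent.S14.H80_CrossFields
import Fermat.Agent.S14.H80_Fields
import Fermat.Agent.S14.H80_Inertia
import Fermat.Agent.S14.H80_Group
import Fermat.Agent.S14.H78_FieldsLemmas
import Fermat.Agent.S14.H78_CF3
import Fermat.Agent.S14.H78_CF5
import Fermat.Agent.S14.H69_CycloSymbol
import Fermat.Agent.S14.H94_P5

/-!
# S14 / WP5-fields (helper80): existence of the fields of the crossing lemma

`nonempty_crossFields` : for `K = ℚ(ζ_p)`, `L/K` unramified cyclic of degree `p`, an auxiliary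
prime `m ≡ 1 mod p`, `s0 ≠ 1` in `Gal(L/K)` and `n0` a non-`p`-th-power modulo `m`, the structure
`CrossFields p m K L s0 n0` is inhabited.

Pieces: `H80_Inertia` (S1), `H80_Group` (S2, on helper94's `H94_DiagGroup`), helper78's `H78_CF3`
(degrees, injectivity of restriction, `split`), `H78_CF5` (total ramification of `E/K` over `m`),
`H78_FieldsLemmas` (unramified base change), helper69's cyclotomic symbol and helper94's
elementary reciprocity (`principal`).
-/

set_option autoImplicit false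
set_option linter.unusedSectionVars false
set_option linter.style.haveILetI false

noncomputable section

namespace Fermat.Agent.S14.H80

open NumberField

section Principal

variable (p m : ℕ) [NeZero m] (K L : Type) [Field K] [Field L] [NumberField K] [NumberField L]
  [Algebra K L] [IsGalois K L] (s0 : Gal(L/K)) (n0 : (ZMod m)ˣ) [IsMulCommutative Gal(L/K)]

instance isMulCommutative_Gal_Om_EField :
    IsMulCommutative Gal(Om m L/↥(EField p m K L s0 n0)) := by
  refine ⟨⟨fun a b => ?_⟩⟩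
  have h := Gamma_mul_comm m K L (a.restrictScalars K) (b.restrictScalars K)
  ext x
  exact congr($h x)

/-- `γ ζ = ζ ^ a` forces `(chi γ : ZMod m) = a`. -/
theorem chi_coe_eq_of_apply_zeta (γ : Gal(Om m L/K)) (a : ℕ)
    (h : γ (zetaOm m L) = zetaOm m L ^ a) : ((chi m K L γ : (ZMod m)ˣ) : ZMod m) = a := by
  rw [chi_spec] at h
  have h1 := (zetaOm_spec m L).pow_inj (i := (chi m K L γ : ZMod m).val % m) (j := a % m)
    (Nat.mod_lt _ (NeZero.pos m)) (Nat.mod_lt _ (NeZero.pos m)) (by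
      rw [← pow_eq_pow_mod _ (zetaOm_spec m L).pow_eq_one,
        ← pow_eq_pow_mod _ (zetaOm_spec m L).pow_eq_one]; exact h)
  have h2 : (((chi m K L γ : ZMod m).val : ℕ) : ZMod m) = (a : ZMod m) := by
    rw [ZMod.natCast_eq_natCast_iff]; exact h1
  rwa [ZMod.natCast_zmod_val] at h2

theorem principal_EM (hp : p.Prime) (hp2 : p ≠ 2) (hm : m.Prime) (hmp : m ≠ p) (hm1 : p ∣ m - 1)
    [IsCyclotomicExtension {p} ℚ K]
    (hunrM : ∀ 𝔓 : Ideal (𝓞 ↥(MField p m K L)), 𝔓.IsPrime → 𝔓 ≠ ⊥ →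
      𝔓.ramificationIdx (𝓞 ↥(EField p m K L s0 n0)) = 1)
    (hKE : Module.finrank K ↥(EField p m K L s0 n0) = p)
    (hram : ∀ 𝔐 : Ideal (𝓞 ↥(EField p m K L s0 n0)), 𝔐.IsPrime →
      (m : 𝓞 ↥(EField p m K L s0 n0)) ∈ 𝔐 → 𝔐.ramificationIdx (𝓞 K) = p)
    (hN0 : ∀ γ ∈ Dt p m K L s0 n0, (∃ u : (ZMod m)ˣ, u ^ p = chi m K L γ) → γ ∈ N0 p m K L)
    (β : 𝓞 ↥(EField p m K L s0 n0))
    (hβ : IsCoprime (Ideal.span {β}) (Ideal.span {(m : 𝓞 ↥(EField p m K L s0 n0))})) :
    H27.artin ↥(MField p m K L) (Ideal.span {β}) = 1 := by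
  haveI : Fact m.Prime := ⟨hm⟩
  obtain ⟨t, ht⟩ := H94.elementary_reciprocity' hp hp2 hm hmp hm1 hKE hram β hβ
  have hβ0 : Ideal.span {β} ≠ ⊥ := by
    intro h0
    rw [h0] at hβ
    have h1 : Ideal.span {(m : 𝓞 ↥(EField p m K L s0 n0))} = ⊤ := by
      rw [Ideal.isCoprime_iff_sup_eq, bot_sup_eq] at hβ
      exact hβ
    rw [Ideal.span_singleton_eq_top] at h1
    have h2 := Ideal.absNorm_eq_one_iff.mpr (Ideal.span_singleton_eq_top.mpr h1)
    rw [Ideal.absNorm_span_natCast] at h2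
    have h3 : m = 1 := by
      have hfr : 0 < Module.finrank ℚ ↥(EField p m K L s0 n0) := Module.finrank_pos
      rw [RingOfIntegers.rank] at h2
      exact (Nat.pow_eq_one.mp h2).resolve_right hfr.ne'
    exact hm.one_lt.ne' h3
  refine H69.artin_eq_one_of_absNorm_pow (E := ↥(EField p m K L s0 n0))
    (M := ↥(MField p m K L)) (N := Om m L) (fun P _ hP => hunrM P inferInstance hP)
    p m hm (zetaOm m L) (zetaOm_spec m L) ?_ (Ideal.span {β}) hβ0 hβ t ht
  intro σ a t' hσ ht' x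
  -- view `σ` inside `Γ`
  set γ : Gal(Om m L/K) := σ.restrictScalars K with hγ
  have hγD : γ ∈ Dt p m K L s0 n0 := by
    have : γ ∈ (EField p m K L s0 n0).fixingSubgroup := by
      rw [IntermediateField.mem_fixingSubgroup_iff]
      intro y hy
      exact σ.commutes ⟨y, hy⟩
    rwa [EField, IntermediateField.fixingSubgroup_fixedField] at this
  have hχ : ((chi m K L γ : (ZMod m)ˣ) : ZMod m) = a :=
    chi_coe_eq_of_apply_zeta m K L γ a hσ
  have hu : ∃ u : (ZMod m)ˣ, u ^ p = chi m K L γ := by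
    have hunit : IsUnit ((t' : ZMod m)) := by
      have : IsUnit ((t' : ZMod m) ^ p) := by rw [ht', ← hχ]; exact Units.isUnit _
      exact (isUnit_pow_iff hp.ne_zero).mp this
    refine ⟨hunit.unit, ?_⟩
    apply Units.ext
    rw [Units.val_pow_eq_pow_val, IsUnit.unit_spec, ht', hχ]
  have hγN := hN0 γ hγD hu
  exact x.2 ⟨γ, hγN⟩

end Principal

/-- **Existence of the fields of the crossing lemma.** -/
theorem nonempty_crossFields {p m : ℕ} {K L : Type} [Field K] [Field L]
    [NumberField K] [NumberField L] [Algebra K L] [IsGalois K L] [IsMulCommutative Gal(L/K)]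
    (hp : p.Prime) (hp2 : p ≠ 2) (hm : m.Prime) (hmp : m ≠ p) (hm1 : p ∣ m - 1)
    [IsCyclotomicExtension {p} ℚ K] (hKL : Module.finrank K L = p)
    (hunr : ∀ Q : Ideal (𝓞 L), Q.IsPrime → Q ≠ ⊥ → Q.ramificationIdx (𝓞 K) = 1)
    (s0 : Gal(L/K)) (hs0 : s0 ≠ 1) (n0 : ZMod m) (hn0 : ¬ ∃ x : ZMod m, x ^ p = n0) :
    Nonempty (CrossFields p m K L s0 n0) := by
  haveI : NeZero m := ⟨hm.ne_zero⟩
  haveI : Fact m.Prime := ⟨hm⟩
  have hn0' : n0 ≠ 0 := by rintro rfl; exact hn0 ⟨0, zero_pow hp.ne_zero⟩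
  set n0u : (ZMod m)ˣ := Units.mk0 n0 hn0' with hn0u_def
  have hn0u_coe : (n0u : ZMod m) = n0 := rfl
  have hn0u : ¬ ∃ x : (ZMod m)ˣ, x ^ p = n0u := by
    rintro ⟨x, hx⟩
    exact hn0 ⟨(x : ZMod m), by rw [← Units.val_pow_eq_pow_val, hx, hn0u_coe]⟩
  have hcard : Nat.card Gal(L/K) = p := by rw [IsGalois.card_aut_eq_finrank, hKL]
  have hsurj := resL_chi_surjective p m K L hp hm hmp hunr
  have h1 := ker_resL_inf_Dt p m K L s0 n0u hp hcard hs0
  have h2 := relIndex_N0_Dt p m K L s0 n0u hsurj hp hcard hs0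
  have h3 := index_Dt p m K L s0 n0u hsurj hp hcard hs0 hm hm1
  have h4 := relIndex_N0_ker p m K L hsurj hp hm hm1
  have hres := H78.res_inj_EM p m K L s0 n0u h1
  have hunrM := H78.ramificationIdx_eq_one_of_res_inj hres hunr
  have hKE := H78.finrank_K_EField p m K L s0 n0u h3
  have hram := H78.ramificationIdx_EField_of_mem p m K L s0 n0u
    (fun 𝔔 _ h𝔔 => inertia_eq_ker_resL_of_mem p m K L hp hm hmp hunr 𝔔 h𝔔) h1 h4
  refine ⟨{ E := ↥(EField p m K L s0 n0u), M := ↥(MField p m K L),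
            finrank_EM := H78.finrank_EField_MField p m K L s0 n0u h2,
            finrank_KE := hKE,
            res_inj := hres,
            unram := hunrM,
            split := ?_,
            principal := principal_EM p m K L s0 n0u hp hp2 hm hmp hm1 hunrM hKE hram
              (fun γ hγ hu => mem_N0_of_mem_Dt p m K L s0 n0u hp hcard hs0 hn0u hγ hu) }⟩
  intro Q _ hQ hmQ k hk hx
  exact H78.split_EM p m K L s0 n0u hm hunr Q hQ hmQ k hk hx

end Fermat.Agent.S14.H80
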