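import Mathlib
import Fermat.Agent.S14.H82_AuxPrimeMain
import Fermat.Agent.S14.H67_CrossingAll

/-!
# S14 / WP5a : `H67.AuxPrimeStatement p` holds (glue)

`H82.exists_aux_prime` in the exact shape consumed by
`H67.extVanishingCts_of_auxPrime_of_crossFields`.
-/

set_option autoImplicit false

namespace Fermat.Agent.S14.H82

/-- The auxiliary prime statement of `H67_CrossingAll` holds for every prime `p`. -/
theorem auxPrimeStatement {p : ℕ} (hp : p.Prime) (hp2 : p ≠ 2) : H67.AuxPrimeStatement p :=
  fun hq0 hq1 h01 h0p h1p _ _ hf0 hf1 e =>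
    exists_aux_prime hp hp2 hq0 hq1 h01 h0p h1p hf0 hf1 e

/-- **S14 from the crossing fields alone.** -/
theorem extVanishingCts_of_crossFields {p : ℕ} [hpF : Fact p.Prime] (h3 : 3 ≤ p)
    (hfields : H67.CrossFieldsStatement p) : ExtCitation.ExtVanishingCts p :=
  H67.extVanishingCts_of_auxPrime_of_crossFields h3 (auxPrimeStatement hpF.out (by omega)) hfields

end Fermat.Agent.S14.H82
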