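/-
helper89, project S14, package HEDGE-WP6: ideal factorisation of the Jacobi sum `J(χ,χ)` in `ℤ[ζ_p]`.
-/
import Mathlib
import Fermat.Prelude.Def_Stickelberger_Basic

set_option autoImplicit false

open NumberField Pointwise

namespace Fermat.Agent.S14.H89

section RootsMod

variable {p : ℕ} [hp : Fact p.Prime] {K : Type*} [Field K]

/-- A nontrivial `p`-th root of unity of `𝓞 K` is primitive. -/
theorem isPrimitiveRoot_of_pow_eq_one {ξ : 𝓞 K} (hξ : ξ ^ p = 1) (hξ1 : ξ ≠ 1) :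
    IsPrimitiveRoot ξ p := by
  have h := IsPrimitiveRoot.orderOf ξ
  rwa [orderOf_eq_prime hξ hξ1] at h

/-- `ξ - 1` divides `p` for a nontrivial `p`-th root of unity `ξ`, hence `ξ - 1` lies in no
proper ideal not containing `p`. -/
theorem sub_one_not_mem_of_pow_eq_one (𝔔 : Ideal (𝓞 K)) (hp𝔔 : (p : 𝓞 K) ∉ 𝔔)
    {ξ : 𝓞 K} (hξ : ξ ^ p = 1) (hξ1 : ξ ≠ 1) : ξ - 1 ∉ 𝔔 := by
  intro hmem
  have hprim : IsPrimitiveRoot ξ p := isPrimitiveRoot_of_pow_eq_one hξ hξ1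
  have hζ : IsPrimitiveRoot (ξ : K) p :=
    hprim.map_of_injective (f := algebraMap (𝓞 K) K) RingOfIntegers.coe_injective
  have hint : hζ.toInteger = ξ := RingOfIntegers.ext rfl
  have hass := IsCyclotomicExtension.Rat.associated_zeta_sub_one_pow_prime p hζ
  rw [hint] at hass
  obtain ⟨u, hu⟩ := hass
  apply hp𝔔
  rw [← hu]
  apply Ideal.mul_mem_right
  have hp1 : p - 1 ≠ 0 := by have := hp.out.two_le; omega
  exact Ideal.pow_mem_of_mem _ hmem _ (Nat.pos_of_ne_zero hp1)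

end RootsMod


section PowerSum
open Finset in
/-- `∑_{x ∈ F} x^m (1-x)^m = 0` in a finite field `F` when `2 m < #F - 1`. -/
theorem sum_pow_mul_one_sub_pow_eq_zero (F : Type*) [Field F] [Fintype F] {m : ℕ}
    (hm : 2 * m < Fintype.card F - 1) : ∑ x : F, x ^ m * (1 - x) ^ m = 0 := by
  have h1 : ∀ x : F, x ^ m * (1 - x) ^ m =
      ∑ j ∈ range (m + 1), ((-1 : F) ^ j * (m.choose j : F)) * x ^ (m + j) := by
    intro x
    have : (1 - x) ^ m = ∑ j ∈ range (m + 1), (-x) ^ j * 1 ^ (m - j) * (m.choose j : F) := by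
      rw [← add_pow, neg_add_eq_sub]
    rw [this, mul_sum]
    refine sum_congr rfl fun j _ => ?_
    rw [neg_pow, pow_add]; ring
  simp_rw [h1]
  rw [sum_comm]
  refine sum_eq_zero fun j hj => ?_
  rw [← mul_sum, FiniteField.sum_pow_lt_card_sub_one F (m + j), mul_zero]
  have := mem_range.mp hj
  omega

end PowerSum


section Char
variable {p : ℕ} [hp : Fact p.Prime] {K : Type*} [Field K] [NumberField K]
  [hK : IsCyclotomicExtension {p} ℚ K]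

attribute [local instance] Ideal.Quotient.field

theorem exists_mulChar_residue (hp2 : p ≠ 2) (𝔔 : Ideal (𝓞 K)) [𝔔.IsMaximal] [Fintype (𝓞 K ⧸ 𝔔)]
    (hp𝔔 : (p : 𝓞 K) ∉ 𝔔) :
    p ∣ Fintype.card (𝓞 K ⧸ 𝔔) - 1 ∧ ∃ χ : MulChar (𝓞 K ⧸ 𝔔) (𝓞 K),
      (∀ x : 𝓞 K ⧸ 𝔔, x ≠ 0 → (χ x) ^ p = 1 ∧
        Ideal.Quotient.mk 𝔔 (χ x) = x ^ ((Fintype.card (𝓞 K ⧸ 𝔔) - 1) / p)) ∧
      χ ≠ 1 ∧ χ * χ ≠ 1 := by
  classical
  have : NeZero p := ⟨hp.out.ne_zero⟩
  set q := Fintype.card (𝓞 K ⧸ 𝔔) with hq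
  -- the primitive root
  have hζK : IsPrimitiveRoot (IsCyclotomicExtension.zeta p ℚ K) p :=
    IsCyclotomicExtension.zeta_spec p ℚ K
  set ζ : 𝓞 K := hζK.toInteger with hζdef
  have hζ : IsPrimitiveRoot ζ p := hζK.toInteger_isPrimitiveRoot
  set ζb : 𝓞 K ⧸ 𝔔 := Ideal.Quotient.mk 𝔔 ζ with hζb
  have hζbp : ζb ^ p = 1 := by rw [hζb, ← map_pow, hζ.pow_eq_one, map_one]
  have hζb1 : ζb ≠ 1 := by
    intro h
    have : ζ - 1 ∈ 𝔔 := by
      rw [← Ideal.Quotient.eq_zero_iff_mem, map_sub, map_one, ← hζb, h, sub_self]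
    exact sub_one_not_mem_of_pow_eq_one 𝔔 hp𝔔 hζ.pow_eq_one (hζ.ne_one hp.out.one_lt) this
  have hζbprim : IsPrimitiveRoot ζb p := by
    have h := IsPrimitiveRoot.orderOf ζb
    rwa [orderOf_eq_prime hζbp hζb1] at h
  -- p ∣ q - 1
  have hcardu : Fintype.card (𝓞 K ⧸ 𝔔)ˣ = q - 1 := Fintype.card_units _
  have hdvd : p ∣ q - 1 := by
    have hu : IsUnit ζb := IsUnit.of_pow_eq_one hζbp hp.out.ne_zero
    have h1 : orderOf hu.unit = p := by
      rw [← orderOf_units, IsUnit.unit_spec]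
      exact orderOf_eq_prime hζbp hζb1
    rw [← hcardu, ← h1]
    exact orderOf_dvd_card
  refine ⟨hdvd, ?_⟩
  obtain ⟨k, hk⟩ := hdvd
  have hkdiv : (q - 1) / p = k := by rw [hk, Nat.mul_div_cancel_left _ hp.out.pos]
  rw [hkdiv]
  have hq1 : 1 < q := Fintype.one_lt_card
  have hkpos : 0 < k := by
    rcases Nat.eq_zero_or_pos k with h | h
    · rw [h, mul_zero] at hk; omega
    · exact h
  -- a generator
  obtain ⟨g, hg⟩ := IsCyclic.exists_generator (α := (𝓞 K ⧸ 𝔔)ˣ)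
  have hgord : orderOf g = q - 1 := by
    rw [orderOf_eq_card_of_forall_mem_zpowers hg, Nat.card_eq_fintype_card, hcardu]
  have hgkp : ((g : 𝓞 K ⧸ 𝔔) ^ k) ^ p = 1 := by
    rw [← pow_mul, mul_comm, ← hk, ← hcardu, ← Units.val_pow_eq_pow_val, pow_card_eq_one,
      Units.val_one]
  obtain ⟨j, -, hj⟩ := hζbprim.eq_pow_of_pow_eq_one hgkp
  set ζ' : 𝓞 K := ζ ^ j with hζ'
  have hζ'p : ζ' ^ p = 1 := by rw [hζ', ← pow_mul, mul_comm, pow_mul, hζ.pow_eq_one, one_pow]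
  have hζ'red : Ideal.Quotient.mk 𝔔 ζ' = (g : 𝓞 K ⧸ 𝔔) ^ k := by rw [hζ', map_pow, ← hζb, hj]
  have hζ'u : IsUnit ζ' := IsUnit.of_pow_eq_one hζ'p hp.out.ne_zero
  have hmem : hζ'u.unit ∈ rootsOfUnity (Fintype.card (𝓞 K ⧸ 𝔔)ˣ) (𝓞 K) := by
    rw [mem_rootsOfUnity, hcardu, hk, Units.ext_iff, Units.val_pow_eq_pow_val, IsUnit.unit_spec,
      pow_mul, hζ'p, one_pow, Units.val_one]
  set χ : MulChar (𝓞 K ⧸ 𝔔) (𝓞 K) := MulChar.ofRootOfUnity hmem hg with hχ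
  have hχg : χ g = ζ' := by
    rw [hχ, MulChar.ofRootOfUnity_spec, IsUnit.unit_spec]
  -- values on units
  have hval : ∀ x : (𝓞 K ⧸ 𝔔)ˣ, ∃ n : ℕ, χ x = ζ' ^ n ∧ (x : 𝓞 K ⧸ 𝔔) = (g : 𝓞 K ⧸ 𝔔) ^ n := by
    intro x
    obtain ⟨n, hn⟩ := (mem_powers_iff_mem_zpowers.mpr (hg x))
    refine ⟨n, ?_, ?_⟩
    · rw [← hn]
      simp only [Units.val_pow_eq_pow_val, map_pow, hχg]
    · rw [← hn, Units.val_pow_eq_pow_val]
  have hg1 : (g : 𝓞 K ⧸ 𝔔) ^ k ≠ 1 := by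
    intro h
    have h' : g ^ k = 1 := by
      rw [Units.ext_iff, Units.val_pow_eq_pow_val, h, Units.val_one]
    have := orderOf_dvd_of_pow_eq_one h'
    rw [hgord, hk] at this
    have h2 := Nat.le_of_dvd hkpos this
    have : 2 * k ≤ p * k := Nat.mul_le_mul_right k hp.out.two_le
    omega
  have hζ'1 : ζ' ≠ 1 := by
    intro h
    apply hg1
    rw [← hζ'red, h, map_one]
  refine ⟨χ, ?_, ?_, ?_⟩
  · intro x hx
    obtain ⟨n, hn1, hn2⟩ := hval (Units.mk0 x hx)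
    rw [Units.val_mk0] at hn1 hn2
    refine ⟨?_, ?_⟩
    · rw [hn1, ← pow_mul, mul_comm, pow_mul, hζ'p, one_pow]
    · rw [hn1, map_pow, hζ'red, hn2, ← pow_mul, ← pow_mul, mul_comm]
  · intro h
    apply hζ'1
    rw [← hχg, h, MulChar.one_apply_coe]
  · intro h
    have h2 : ζ' ^ 2 = 1 := by
      rw [pow_two, ← hχg, ← MulChar.mul_apply, h, MulChar.one_apply_coe]
    have hprim : IsPrimitiveRoot ζ' p := isPrimitiveRoot_of_pow_eq_one hζ'p hζ'1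
    have := hprim.dvd_of_pow_eq_one 2 h2
    have hp3 : p ≤ 2 := Nat.le_of_dvd (by norm_num) this
    have := hp.out.two_le
    omega

end Char


section Gal
variable {p : ℕ} [hp : Fact p.Prime] {K : Type*} [Field K] [NumberField K]

theorem coe_smul_eq (σ : K ≃ₐ[ℚ] K) (x : 𝓞 K) : ((σ • x : 𝓞 K) : K) = σ (x : K) := rfl

omit hp in
/-- the Galois action on a root of unity of `𝓞 K`, when it is known on those of `K`. -/
theorem smul_eq_pow_of_pow_eq_one {σ : K ≃ₐ[ℚ] K} {a : ℕ}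
    (hσ : ∀ ξ : K, ξ ^ p = 1 → σ ξ = ξ ^ a) {ξ : 𝓞 K} (hξ : ξ ^ p = 1) : σ • ξ = ξ ^ a := by
  apply RingOfIntegers.ext
  have h1 : ((ξ : 𝓞 K) : K) ^ p = 1 := by
    have := congrArg (algebraMap (𝓞 K) K) hξ
    simpa using this
  rw [coe_smul_eq, hσ _ h1]
  simp

omit [NumberField K] in
/-- differences of distinct powers of a primitive root are not in `𝔔`. -/
theorem pow_sub_pow_not_mem (𝔔 : Ideal (𝓞 K)) (hp𝔔 : (p : 𝓞 K) ∉ 𝔔) {η : 𝓞 K}
    (hη : IsPrimitiveRoot η p) {a b : ℕ} (hab : a < b) (hb : b < p) : η ^ b - η ^ a ∉ 𝔔 := by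
  intro hmem
  have h1 : η ^ (b - a) - 1 ∈ 𝔔 := by
    have : η ^ (b - a) - 1 = η ^ (p - a) * (η ^ b - η ^ a) := by
      have e1 : η ^ (p - a) * η ^ a = 1 := by
        rw [← pow_add, Nat.sub_add_cancel (by omega), hη.pow_eq_one]
      have e2 : η ^ (p - a) * η ^ b = η ^ (b - a) := by
        have : p - a + b = p + (b - a) := by omega
        rw [← pow_add, this, pow_add, hη.pow_eq_one, one_mul]
      rw [mul_sub, e1, e2]
    rw [this]
    exact Ideal.mul_mem_left _ _ hmem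
  refine sub_one_not_mem_of_pow_eq_one 𝔔 hp𝔔 ?_ ?_ h1
  · rw [← pow_mul, mul_comm, pow_mul, hη.pow_eq_one, one_pow]
  · intro h
    have := hη.dvd_of_pow_eq_one _ h
    have := Nat.le_of_dvd (by omega) this
    omega

/-- absolute norm is invariant under the Galois action -/
theorem absNorm_smul (σ : K ≃ₐ[ℚ] K) (I : Ideal (𝓞 K)) :
    Ideal.absNorm (σ • I) = Ideal.absNorm I := by
  have e : (𝓞 K ⧸ I) ≃+* (𝓞 K ⧸ (σ • I)) :=
    Ideal.quotientEquiv I (σ • I) (MulSemiringAction.toRingEquiv (K ≃ₐ[ℚ] K) (𝓞 K) σ) rfl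
  rw [Ideal.absNorm_apply, Ideal.absNorm_apply, Submodule.cardQuot_apply, Submodule.cardQuot_apply]
  exact (Nat.card_congr e.toEquiv).symm

theorem smul_span_singleton (σ : K ≃ₐ[ℚ] K) (x : 𝓞 K) :
    σ • Ideal.span {x} = Ideal.span {σ • x} := by
  rw [Ideal.pointwise_smul_def, Ideal.map_span, Set.image_singleton]
  rfl

end Gal

end Fermat.Agent.S14.H89
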