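/-
helper89, project S14, package HEDGE-WP6: ideal factorisation of the Jacobi sum `J(χ,χ)` in `ℤ[ζ_p]`,
main theorem.
-/
import Mathlib
import Fermat.Agent.S14.H89_Jacobi
import Fermat.Prelude.Def_Stickelberger_Basic

set_option autoImplicit false

open NumberField Pointwise

namespace Fermat.Agent.S14.H89

section Main

variable {p : ℕ} [hp : Fact p.Prime] {K : Type*} [Field K] [NumberField K]

attribute [local instance] Ideal.Quotient.field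

omit hp in
/-- Step 2: `σ_a J ∈ 𝔔` when `0 < a`, `2 a < p`. -/
theorem smul_jacobiSum_mem (𝔔 : Ideal (𝓞 K)) [𝔔.IsMaximal] [Fintype (𝓞 K ⧸ 𝔔)]
    (χ : MulChar (𝓞 K ⧸ 𝔔) (𝓞 K)) {k : ℕ} (hk : Fintype.card (𝓞 K ⧸ 𝔔) - 1 = p * k)
    (hkpos : 0 < k)
    (hχ : ∀ x : 𝓞 K ⧸ 𝔔, x ≠ 0 → (χ x) ^ p = 1 ∧ Ideal.Quotient.mk 𝔔 (χ x) = x ^ k)
    {σ : K ≃ₐ[ℚ] K} {a : ℕ} (ha : 0 < a) (ha2 : 2 * a < p)
    (hσ : ∀ ξ : K, ξ ^ p = 1 → σ ξ = ξ ^ a) : σ • jacobiSum χ χ ∈ 𝔔 := by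
  rw [← Ideal.Quotient.eq_zero_iff_mem]
  have key : ∀ y : 𝓞 K ⧸ 𝔔, Ideal.Quotient.mk 𝔔 (σ • χ y) = y ^ (k * a) := by
    intro y
    by_cases hy : y = 0
    · subst hy
      rw [MulChar.map_zero, smul_zero, map_zero, zero_pow]
      exact Nat.mul_ne_zero hkpos.ne' ha.ne'
    · rw [smul_eq_pow_of_pow_eq_one hσ (hχ y hy).1, map_pow, (hχ y hy).2, ← pow_mul]
  rw [jacobiSum, Finset.smul_sum, map_sum]
  simp_rw [smul_mul', map_mul, key]
  refine sum_pow_mul_one_sub_pow_eq_zero (𝓞 K ⧸ 𝔔) ?_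
  rw [hk]
  calc 2 * (k * a) = (2 * a) * k := by ring
    _ < p * k := Nat.mul_lt_mul_of_pos_right ha2 hkpos

omit hp [NumberField K] in
/-- every element of `𝓞 K` is congruent to a natural number modulo a prime of prime norm. -/
theorem exists_nat_sub_mem (𝔔 : Ideal (𝓞 K)) [Fintype (𝓞 K ⧸ 𝔔)] {q : ℕ} (hq : q.Prime)
    (hcard : Fintype.card (𝓞 K ⧸ 𝔔) = q) (x : 𝓞 K) : ∃ n : ℕ, x - n ∈ 𝔔 := by
  have : NeZero q := ⟨hq.ne_zero⟩
  let e := ZMod.ringEquivOfPrime (𝓞 K ⧸ 𝔔) hq hcard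
  obtain ⟨y, hy⟩ := e.surjective (Ideal.Quotient.mk 𝔔 x)
  refine ⟨y.val, ?_⟩
  rw [← Ideal.Quotient.eq_zero_iff_mem, map_sub, map_natCast, ← hy, sub_eq_zero]
  conv_lhs => rw [← ZMod.natCast_zmod_val y]
  rw [map_natCast]

omit hp in
/-- an automorphism stabilising a prime of prime norm acts trivially on the residue field. -/
theorem smul_sub_mem_of_smul_eq (𝔔 : Ideal (𝓞 K)) [Fintype (𝓞 K ⧸ 𝔔)] {q : ℕ} (hq : q.Prime)
    (hcard : Fintype.card (𝓞 K ⧸ 𝔔) = q) {ρ : K ≃ₐ[ℚ] K} (hρ : ρ • 𝔔 = 𝔔) (x : 𝓞 K) :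
    ρ • x - x ∈ 𝔔 := by
  obtain ⟨n, hn⟩ := exists_nat_sub_mem 𝔔 hq hcard x
  have h1 : ρ • (x - n) ∈ 𝔔 := by
    rw [← hρ]; exact Ideal.smul_mem_pointwise_smul_iff.mpr hn
  have h2 : ρ • (x - (n : 𝓞 K)) = ρ • x - n := by
    rw [smul_sub]
    congr 1
    exact map_natCast (MulSemiringAction.toRingHom (K ≃ₐ[ℚ] K) (𝓞 K) ρ) n
  rw [h2] at h1
  have : ρ • x - x = (ρ • x - n) - (x - n) := by ring
  rw [this]
  exact 𝔔.sub_mem h1 hn

theorem card_exponentSet (hp2 : p ≠ 2) : 2 * (Stickelberger.exponentSet p).card = p - 1 := by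
  obtain ⟨m, hm⟩ : ∃ m, p = 2 * m + 1 := by
    rcases hp.out.eq_two_or_odd' with h | h
    · exact absurd h hp2
    · obtain ⟨m, hm⟩ := h; exact ⟨m, hm⟩
  have : Stickelberger.exponentSet p = Finset.Icc 1 m := by
    ext c
    simp only [Stickelberger.mem_exponentSet, Finset.mem_Icc]
    omega
  rw [this, Nat.card_Icc]
  omega

/-- **Stickelberger for Jacobi sums** (degree-one primes of `ℚ(ζ_p)`): the Jacobi sum `J(χ,χ)` of
the `p`-th power residue character modulo `𝔔` generates `∏_{0 < a < p/2} σ_a⁻¹ 𝔔`. -/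
theorem exists_span_eq_prod_smul [hK : IsCyclotomicExtension {p} ℚ K] (hp2 : p ≠ 2)
    (𝔔 : Ideal (𝓞 K)) [h𝔔 : 𝔔.IsPrime] {q : ℕ} (hq : q.Prime) (hqp : q ≠ p)
    (hN : Ideal.absNorm 𝔔 = q) (σ : ℕ → (K ≃ₐ[ℚ] K))
    (hσ : ∀ a ∈ Stickelberger.exponentSet p, ∀ ξ : K, ξ ^ p = 1 → σ a ξ = ξ ^ a) :
    ∃ J : 𝓞 K, Ideal.span {J} = ∏ a ∈ Stickelberger.exponentSet p, (σ a)⁻¹ • 𝔔 := by
  classical
  have : NeZero p := ⟨hp.out.ne_zero⟩
  -- basic facts on `𝔔`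
  have h𝔔bot : 𝔔 ≠ ⊥ := by
    rintro rfl
    rw [Ideal.absNorm_bot] at hN
    exact hq.ne_zero hN.symm
  have hmax : 𝔔.IsMaximal := h𝔔.isMaximal h𝔔bot
  have : Finite (𝓞 K ⧸ 𝔔) := (Ideal.absNorm_ne_zero_iff 𝔔).mp (by rw [hN]; exact hq.ne_zero)
  let _ : Fintype (𝓞 K ⧸ 𝔔) := Fintype.ofFinite _
  have hcard : Fintype.card (𝓞 K ⧸ 𝔔) = q := by
    rw [← Nat.card_eq_fintype_card, ← Submodule.cardQuot_apply, ← Ideal.absNorm_apply, hN]
  have hq𝔔 : (q : 𝓞 K) ∈ 𝔔 := hN ▸ Ideal.absNorm_mem 𝔔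
  have hp𝔔 : (p : 𝓞 K) ∉ 𝔔 := by
    intro h
    have hcop : Nat.Coprime p q := (Nat.coprime_primes hp.out hq).mpr hqp.symm
    obtain ⟨u, v, huv⟩ := Nat.isCoprime_iff_coprime.mpr hcop
    have h1 : (1 : 𝓞 K) ∈ 𝔔 := by
      have e : ((u * p + v * q : ℤ) : 𝓞 K) = 1 := by rw [huv]; simp
      rw [← e]
      push_cast
      exact 𝔔.add_mem (𝔔.mul_mem_left _ h) (𝔔.mul_mem_left _ hq𝔔)
    exact hmax.ne_top ((Ideal.eq_top_iff_one _).mpr h1)
  -- the character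
  obtain ⟨hdvd, χ, hχ, hχ1, hχ2⟩ := exists_mulChar_residue hp2 𝔔 hp𝔔
  obtain ⟨k, hk⟩ := hdvd
  have hkdiv : (Fintype.card (𝓞 K ⧸ 𝔔) - 1) / p = k := by
    rw [hk, Nat.mul_div_cancel_left _ hp.out.pos]
  rw [hkdiv] at hχ
  have hkpos : 0 < k := by
    rcases Nat.eq_zero_or_pos k with h | h
    · rw [h, mul_zero, hcard] at hk
      have := hq.two_le
      omega
    · exact h
  set T := Stickelberger.exponentSet p with hT
  set J := jacobiSum χ χ with hJ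
  refine ⟨J, ?_⟩
  -- Step 2: the primes `σ_a⁻¹ 𝔔` contain `J`
  have hmemJ : ∀ a ∈ T, J ∈ (σ a)⁻¹ • 𝔔 := by
    intro a ha
    have ha' := Stickelberger.mem_exponentSet.mp ha
    have h1 : σ a • J ∈ 𝔔 :=
      smul_jacobiSum_mem 𝔔 χ hk hkpos hχ ha'.1 ha'.2 (hσ a ha)
    have h2 : (σ a)⁻¹ • (σ a • J) ∈ (σ a)⁻¹ • 𝔔 := Ideal.smul_mem_pointwise_smul_iff.mpr h1
    rwa [inv_smul_smul] at h2
  -- the primes are maximal
  have hmaxa : ∀ a : ℕ, ((σ a)⁻¹ • 𝔔).IsMaximal := by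
    intro a
    rw [Ideal.pointwise_smul_eq_comap]
    exact Ideal.comap_isMaximal_of_equiv _
  -- and pairwise distinct
  set ζ : 𝓞 K := (IsCyclotomicExtension.zeta_spec p ℚ K).toInteger with hζdef
  have hζ : IsPrimitiveRoot ζ p := (IsCyclotomicExtension.zeta_spec p ℚ K).toInteger_isPrimitiveRoot
  have hne : ∀ a ∈ T, ∀ b ∈ T, a < b → (σ a)⁻¹ • 𝔔 ≠ (σ b)⁻¹ • 𝔔 := by
    intro a ha b hb hab heq
    have hb' := Stickelberger.mem_exponentSet.mp hb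
    set η : 𝓞 K := (σ a)⁻¹ • ζ with hη
    have hηp : η ^ p = 1 := by rw [hη, ← smul_pow', hζ.pow_eq_one, smul_one]
    have hηa : σ a • η = η ^ a := smul_eq_pow_of_pow_eq_one (hσ a ha) hηp
    have hζa : ζ = η ^ a := by rw [← hηa, hη, smul_inv_smul]
    have hη1 : η ≠ 1 := by
      intro h
      rw [h, one_pow] at hζa
      exact hζ.ne_one hp.out.one_lt hζa
    have hηprim : IsPrimitiveRoot η p := isPrimitiveRoot_of_pow_eq_one hηp hη1
    have hηb : σ b • η = η ^ b := smul_eq_pow_of_pow_eq_one (hσ b hb) hηp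
    set ρ : K ≃ₐ[ℚ] K := σ b * (σ a)⁻¹ with hρ
    have hρ𝔔 : ρ • 𝔔 = 𝔔 := by rw [hρ, mul_smul, heq, smul_inv_smul]
    have h1 : ρ • ζ - ζ ∈ 𝔔 := smul_sub_mem_of_smul_eq 𝔔 hq hcard hρ𝔔 ζ
    have h2 : ρ • ζ = η ^ b := by rw [hρ, mul_smul, ← hη, hηb]
    rw [h2, hζa] at h1
    exact pow_sub_pow_not_mem 𝔔 hp𝔔 hηprim hab (by omega) h1
  have hne' : ∀ a ∈ T, ∀ b ∈ T, a ≠ b → (σ a)⁻¹ • 𝔔 ≠ (σ b)⁻¹ • 𝔔 := by
    intro a ha b hb hab
    rcases Nat.lt_or_gt_of_ne hab with h | h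
    · exact hne a ha b hb h
    · exact (hne b hb a ha h).symm
  -- hence their product divides `(J)`
  have hdvdJ : ∏ a ∈ T, (σ a)⁻¹ • 𝔔 ∣ Ideal.span {J} := by
    refine Finset.prod_dvd_of_coprime ?_ ?_
    · intro a ha b hb hab
      exact Ideal.isCoprime_iff_sup_eq.mpr
        (Ideal.IsMaximal.coprime_of_ne (hmaxa a) (hmaxa b) (hne' a ha b hb hab))
    · intro a ha
      exact Ideal.dvd_span_singleton.mpr (hmemJ a ha)
  obtain ⟨C, hC⟩ := hdvdJ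
  -- norms
  have hnormA : Ideal.absNorm (∏ a ∈ T, (σ a)⁻¹ • 𝔔) = q ^ T.card := by
    rw [map_prod, Finset.prod_congr rfl (fun a _ => by rw [absNorm_smul, hN]), Finset.prod_const]
  -- the complex conjugate
  have hinj : Function.Injective (algebraMap (𝓞 K) K) := RingOfIntegers.coe_injective
  set J' := jacobiSum χ⁻¹ χ⁻¹ with hJ'
  have hJJ' : J * J' = (q : 𝓞 K) := by
    apply hinj
    have hchar : ringChar K ≠ ringChar (𝓞 K ⧸ 𝔔) := by
      rw [ringChar.eq_zero]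
      exact (CharP.char_ne_zero_of_finite (𝓞 K ⧸ 𝔔) (ringChar (𝓞 K ⧸ 𝔔))).symm
    have h1 : χ.ringHomComp (algebraMap (𝓞 K) K) ≠ 1 :=
      (MulChar.ringHomComp_eq_one_iff hinj).not.mpr hχ1
    have h2 : χ.ringHomComp (algebraMap (𝓞 K) K) * χ.ringHomComp (algebraMap (𝓞 K) K) ≠ 1 := by
      rw [← MulChar.ringHomComp_mul]
      exact (MulChar.ringHomComp_eq_one_iff hinj).not.mpr hχ2
    have := jacobiSum_mul_jacobiSum_inv hchar h1 h1 h2
    rw [MulChar.ringHomComp_inv, jacobiSum_ringHomComp, jacobiSum_ringHomComp, hcard] at this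
    rw [map_mul, this, map_natCast]
  -- `J' = τ J` for the automorphism `τ : ζ ↦ ζ⁻¹`
  have hirr : Irreducible (Polynomial.cyclotomic p ℚ) :=
    Polynomial.cyclotomic.irreducible_rat hp.out.pos
  have hzK : IsPrimitiveRoot (IsCyclotomicExtension.zeta p ℚ K) p :=
    IsCyclotomicExtension.zeta_spec p ℚ K
  set τ : K ≃ₐ[ℚ] K := IsCyclotomicExtension.fromZetaAut hzK.inv hirr with hτdef
  have hτz : τ (IsCyclotomicExtension.zeta p ℚ K) = (IsCyclotomicExtension.zeta p ℚ K)⁻¹ :=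
    IsCyclotomicExtension.fromZetaAut_spec hzK.inv hirr
  have hp1 : p - 1 + 1 = p := Nat.sub_add_cancel hp.out.one_le
  have hτ : ∀ ξ : K, ξ ^ p = 1 → τ ξ = ξ ^ (p - 1) := by
    intro ξ hξ
    obtain ⟨i, -, rfl⟩ := hzK.eq_pow_of_pow_eq_one hξ
    rw [map_pow, hτz]
    have hz0 : IsCyclotomicExtension.zeta p ℚ K ≠ 0 := hzK.ne_zero hp.out.ne_zero
    have : (IsCyclotomicExtension.zeta p ℚ K)⁻¹ = (IsCyclotomicExtension.zeta p ℚ K) ^ (p - 1) := by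
      rw [inv_eq_iff_eq_inv, ← one_div, eq_div_iff (pow_ne_zero _ hz0), ← pow_succ', hp1,
        hzK.pow_eq_one]
    rw [this, ← pow_mul, ← pow_mul, mul_comm]
  have hτχ : ∀ y : 𝓞 K ⧸ 𝔔, τ • χ y = χ⁻¹ y := by
    intro y
    by_cases hy : y = 0
    · subst hy
      rw [MulChar.map_zero, MulChar.map_zero, smul_zero]
    · rw [smul_eq_pow_of_pow_eq_one hτ (hχ y hy).1, MulChar.inv_apply']
      have e1 : χ y ^ (p - 1) * χ y = 1 := by rw [← pow_succ, hp1, (hχ y hy).1]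
      have e2 : χ y⁻¹ * χ y = 1 := by rw [← map_mul, inv_mul_cancel₀ hy, map_one]
      calc χ y ^ (p - 1) = χ y ^ (p - 1) * (χ y⁻¹ * χ y) := by rw [e2, mul_one]
        _ = (χ y ^ (p - 1) * χ y) * χ y⁻¹ := by ring
        _ = χ y⁻¹ := by rw [e1, one_mul]
  have hτJ : τ • J = J' := by
    rw [hJ, hJ', jacobiSum, jacobiSum, Finset.smul_sum]
    refine Finset.sum_congr rfl fun x _ => ?_
    rw [smul_mul', hτχ, hτχ]
  have hnormJ' : Ideal.absNorm (Ideal.span {J'}) = Ideal.absNorm (Ideal.span {J}) := by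
    rw [← hτJ, ← smul_span_singleton, absNorm_smul]
  have hfin : Module.finrank ℤ (𝓞 K) = p - 1 := by
    rw [RingOfIntegers.rank, IsCyclotomicExtension.finrank (n := p) K hirr,
      Nat.totient_prime hp.out]
  have hcardT := card_exponentSet (p := p) hp2
  have hnormJ : Ideal.absNorm (Ideal.span {J}) = q ^ T.card := by
    have h1 : Ideal.absNorm (Ideal.span {J}) * Ideal.absNorm (Ideal.span {J'}) = q ^ (p - 1) := by
      rw [← map_mul, Ideal.span_singleton_mul_span_singleton, hJJ', Ideal.absNorm_span_natCast,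
        hfin]
    rw [hnormJ', ← hcardT, pow_mul', ← pow_two] at h1
    exact Nat.pow_left_injective (by norm_num : (2 : ℕ) ≠ 0) h1
  -- conclusion
  have hnormC : Ideal.absNorm C = 1 := by
    have h1 := congrArg Ideal.absNorm hC
    rw [map_mul, hnormJ, hnormA] at h1
    have hqpos : 0 < q ^ T.card := pow_pos hq.pos _
    exact (Nat.eq_of_mul_eq_mul_left hqpos (by rw [mul_one]; exact h1)).symm
  rw [hC, Ideal.absNorm_eq_one_iff.mp hnormC, Ideal.mul_top]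

end Main

end Fermat.Agent.S14.H89
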