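import Mathlib
import Fermat.Agent.S14.H90_CrossFieldsExist
import Fermat.Agent.S14.H67_CrossingAll

/-!
# `H67.CrossFieldsStatement p` (S14, WP5-fields): wrapper around `H90.nonempty_crossFields`.
-/

set_option autoImplicit false

namespace Fermat.Agent.S14.H90

open NumberField
open scoped Pointwise IsMulCommutative

/-- The `CrossFieldsStatement` consumed by `H67.extVanishingCts_of_auxPrime_of_crossFields`. -/
theorem crossFieldsStatement {p : ℕ} (hp : p.Prime) (hp2 : p ≠ 2) : H67.CrossFieldsStatement p := by
  intro K L _ _ _ _ _ _ _ _ hKL hunr m hm hmp hm1 s0 hs0 n0 hn0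
  exact nonempty_crossFields hp hp2 hm hmp hm1 K L hKL hunr s0 hs0 n0 hn0

end Fermat.Agent.S14.H90
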