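import Mathlib

/-!
# Euler products over an arbitrary index type, and over the prime ideals of a number field

Author: helper93 (project S14, package WP4c).
-/

namespace Fermat.Agent.S14.H93

open Finset Filter Topology

section Abstract

variable {ι : Type*} {F : Type*} [NormedField F]

/-- The "monomial" `∏ i, x i ^ m i` attached to a finitely supported exponent vector. -/
noncomputable def mono (x : ι → F) (m : ι →₀ ℕ) : F := m.prod fun i e => x i ^ e

lemma mono_zero (x : ι → F) : mono x 0 = 1 := by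
  simp [mono]

lemma mono_add (x : ι → F) (m₁ m₂ : ι →₀ ℕ) : mono x (m₁ + m₂) = mono x m₁ * mono x m₂ :=
  Finsupp.prod_add_index' (fun _ => pow_zero _) (fun _ _ _ => pow_add _ _ _)

lemma mono_single (x : ι → F) (a : ι) (e : ℕ) : mono x (Finsupp.single a e) = x a ^ e :=
  Finsupp.prod_single_index (pow_zero _)

/-- Exponent vectors supported in a finite set `S`. -/
def suppIn (S : Finset ι) : Set (ι →₀ ℕ) := {m | m.support ⊆ S}

lemma mem_suppIn {S : Finset ι} {m : ι →₀ ℕ} : m ∈ suppIn S ↔ m.support ⊆ S := Iff.rfl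

lemma suppIn_empty : suppIn (∅ : Finset ι) = {0} := by
  ext m
  simp [suppIn, Finset.subset_empty]

open Classical in
/-- Splitting off the exponent at a new index `a ∉ S`. -/
noncomputable def suppInInsertEquiv {a : ι} {S : Finset ι} (ha : a ∉ S) :
    ℕ × suppIn S ≃ suppIn (insert a S) where
  toFun em := ⟨Finsupp.single a em.1 + em.2.1, by
    refine mem_suppIn.mpr (Finsupp.support_add.trans ?_)
    refine Finset.union_subset ?_ ?_
    · exact (Finsupp.support_single_subset).trans (by simp)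
    · exact (mem_suppIn.mp em.2.2).trans (Finset.subset_insert _ _)⟩
  invFun m := (m.1 a, ⟨m.1.erase a, by
    refine mem_suppIn.mpr ?_
    rw [Finsupp.support_erase]
    intro i hi
    have h1 := Finset.mem_erase.mp hi
    have h2 := mem_suppIn.mp m.2 h1.2
    exact (Finset.mem_insert.mp h2).resolve_left h1.1⟩)
  left_inv em := by
    obtain ⟨e, m, hm⟩ := em
    have hma : m a = 0 := by
      by_contra h
      exact ha (mem_suppIn.mp hm (Finsupp.mem_support_iff.mpr h))
    ext
    · simp [hma]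
    · simp only
      rw [Finsupp.erase_add, Finsupp.erase_single, zero_add,
        Finsupp.erase_of_notMem_support (by simpa using hma)]
  right_inv m := by
    ext : 1
    exact Finsupp.single_add_erase a m.1

lemma suppInInsertEquiv_apply {a : ι} {S : Finset ι} (ha : a ∉ S) (em : ℕ × suppIn S) :
    (suppInInsertEquiv ha em : ι →₀ ℕ) = Finsupp.single a em.1 + em.2.1 := rfl

variable [CompleteSpace F]

/-- Finite Euler product: the sum of the monomials supported in `S` is the product of the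
geometric series. -/
lemma summable_and_hasSum_suppIn (x : ι → F) (hx : ∀ i, ‖x i‖ < 1) (S : Finset ι) :
    Summable (fun m : suppIn S => ‖mono x m‖) ∧
      HasSum (fun m : suppIn S => mono x m) (∏ i ∈ S, (1 - x i)⁻¹) := by
  classical
  induction S using Finset.induction with
  | empty =>
    rw [suppIn_empty]
    simp only [Finset.prod_empty]
    refine ⟨(Set.finite_singleton (0 : ι →₀ ℕ)).summable (fun m => ‖mono x m‖), ?_⟩
    have := hasSum_singleton (0 : ι →₀ ℕ) (mono x)
    rwa [mono_zero] at this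
  | insert a S ha ih =>
    have hgeo : HasSum (fun n : ℕ => x a ^ n) (1 - x a)⁻¹ := hasSum_geometric_of_norm_lt_one (hx a)
    have hgeon : Summable (fun n : ℕ => ‖x a ^ n‖) := by
      simp only [norm_pow]
      exact summable_geometric_of_lt_one (norm_nonneg _) (hx a)
    have key : ∀ em : ℕ × suppIn S,
        mono x (suppInInsertEquiv ha em) = x a ^ em.1 * mono x em.2 := by
      intro em
      rw [suppInInsertEquiv_apply, mono_add, mono_single]
    constructor
    · rw [← (suppInInsertEquiv ha).summable_iff]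
      simp only [Function.comp_def, key]
      refine Summable.of_nonneg_of_le (fun _ => norm_nonneg _) (fun _ => norm_mul_le ..) ?_
      apply Summable.mul_of_nonneg hgeon ih.1 <;> exact fun n => norm_nonneg _
    · rw [Finset.prod_insert ha, ← (suppInInsertEquiv ha).hasSum_iff]
      simp only [Function.comp_def, key]
      apply hgeo.mul ih.2
      apply summable_mul_of_summable_norm hgeon ih.1

/-- The value of the finite Euler product as a `tsum`. -/
lemma prod_one_sub_inv_eq_tsum_suppIn (x : ι → F) (hx : ∀ i, ‖x i‖ < 1) (S : Finset ι) :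
    ∏ i ∈ S, (1 - x i)⁻¹ = ∑' m : suppIn S, mono x m :=
  (summable_and_hasSum_suppIn x hx S).2.tsum_eq.symm

/-- **Abstract Euler product.** If `‖x i‖ < 1` for all `i` and the family of all monomials
`∏ i, x i ^ m i` (`m : ι →₀ ℕ`) is absolutely summable, then
`∏' i, (1 - x i)⁻¹ = ∑' m, ∏ i, x i ^ m i`. -/
theorem hasProd_one_sub_inv (x : ι → F) (hx : ∀ i, ‖x i‖ < 1)
    (hsum : Summable (fun m : ι →₀ ℕ => ‖mono x m‖)) :
    HasProd (fun i => (1 - x i)⁻¹) (∑' m, mono x m) := by
  classical
  rw [HasProd, SummationFilter.unconditional, Metric.tendsto_atTop]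
  intro ε hε
  obtain ⟨T, hT⟩ := hsum.of_norm.tsum_vanishing (Metric.ball_mem_nhds 0 hε)
  refine ⟨T.biUnion fun m => m.support, fun S hS => ?_⟩
  have hdisj : Disjoint ((suppIn S)ᶜ : Set (ι →₀ ℕ)) ↑T := by
    rw [Set.disjoint_left]
    intro m hm hmT
    refine hm (mem_suppIn.mpr (subset_trans ?_ hS))
    exact Finset.subset_biUnion_of_mem (fun m : ι →₀ ℕ => m.support) hmT
  have h1 := hT _ hdisj
  rw [mem_ball_zero_iff] at h1
  rw [dist_eq_norm, prod_one_sub_inv_eq_tsum_suppIn x hx S, norm_sub_rev]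
  rwa [← hsum.of_norm.tsum_subtype_add_tsum_subtype_compl (suppIn S), add_sub_cancel_left]

theorem tprod_one_sub_inv (x : ι → F) (hx : ∀ i, ‖x i‖ < 1)
    (hsum : Summable (fun m : ι →₀ ℕ => ‖mono x m‖)) :
    ∏' i, (1 - x i)⁻¹ = ∑' m, mono x m :=
  (hasProd_one_sub_inv x hx hsum).tprod_eq

end Abstract

section Dedekind

open IsDedekindDomain nonZeroDivisors

variable {A : Type*} [CommRing A] [IsDedekindDomain A]

/-- A height one prime as a nonzero ideal. -/
noncomputable def primeIdeal (v : HeightOneSpectrum A) : (Ideal A)⁰ :=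
  ⟨v.asIdeal, mem_nonZeroDivisors_of_ne_zero v.ne_bot⟩

@[simp] lemma coe_primeIdeal (v : HeightOneSpectrum A) : (primeIdeal v : Ideal A) = v.asIdeal := rfl

/-- The nonzero ideal `∏ v, v ^ m v`. -/
noncomputable def expsToIdeal (m : HeightOneSpectrum A →₀ ℕ) : (Ideal A)⁰ :=
  m.prod fun v e => primeIdeal v ^ e

lemma expsToIdeal_zero : expsToIdeal (0 : HeightOneSpectrum A →₀ ℕ) = 1 := by
  simp [expsToIdeal]

lemma expsToIdeal_add (m₁ m₂ : HeightOneSpectrum A →₀ ℕ) :
    expsToIdeal (m₁ + m₂) = expsToIdeal m₁ * expsToIdeal m₂ :=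
  Finsupp.prod_add_index' (fun _ => pow_zero _) (fun _ _ _ => pow_add _ _ _)

lemma expsToIdeal_single (v : HeightOneSpectrum A) (e : ℕ) :
    expsToIdeal (Finsupp.single v e) = primeIdeal v ^ e :=
  Finsupp.prod_single_index (pow_zero _)

lemma coe_expsToIdeal (m : HeightOneSpectrum A →₀ ℕ) :
    (expsToIdeal m : Ideal A) = m.prod fun v e => v.asIdeal ^ e := by
  unfold expsToIdeal
  rw [Finsupp.prod, Finsupp.prod, Submonoid.coe_finsetProd]
  simp

/-- Any monoid hom on nonzero ideals is determined by its values on primes. -/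
lemma map_expsToIdeal {M : Type*} [CommMonoid M] (g : (Ideal A)⁰ →* M)
    (m : HeightOneSpectrum A →₀ ℕ) :
    g (expsToIdeal m) = m.prod fun v e => g (primeIdeal v) ^ e := by
  unfold expsToIdeal
  rw [map_finsuppProd]
  simp

lemma emultiplicity_expsToIdeal (m : HeightOneSpectrum A →₀ ℕ) (v : HeightOneSpectrum A) :
    emultiplicity v.asIdeal (expsToIdeal m : Ideal A) = m v := by
  classical
  rw [coe_expsToIdeal, Finsupp.prod, Finset.emultiplicity_prod v.prime]
  have h : ∀ w ∈ m.support, emultiplicity v.asIdeal (w.asIdeal ^ m w) =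
      if w = v then (m v : ℕ∞) else 0 := by
    intro w _
    rw [emultiplicity_pow v.prime]
    split_ifs with hw
    · subst hw
      have : emultiplicity w.asIdeal w.asIdeal = 1 := by
        have := emultiplicity_pow_self_of_prime w.prime 1
        simpa using this
      rw [this, mul_one]
    · have : emultiplicity v.asIdeal w.asIdeal = 0 :=
        emultiplicity_eq_zero_of_irreducible_ne v.irreducible w.irreducible
          (fun h => hw (HeightOneSpectrum.ext h.symm))
      rw [this, mul_zero]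
  rw [Finset.sum_congr rfl h, Finset.sum_ite_eq']
  split_ifs with hv
  · rfl
  · simp [Finsupp.notMem_support_iff.mp hv]

/-- The exponent vector of a nonzero ideal. -/
noncomputable def idealExps (I : (Ideal A)⁰) : HeightOneSpectrum A →₀ ℕ :=
  Finsupp.ofSupportFinite (fun v => multiplicity v.asIdeal (I : Ideal A)) <| by
    have hI : (I : Ideal A) ≠ 0 := nonZeroDivisors.coe_ne_zero I
    refine (Ideal.finite_factors hI).subset ?_
    intro v hv
    simpa [Function.mem_support, multiplicity_ne_zero] using hv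

@[simp] lemma idealExps_apply (I : (Ideal A)⁰) (v : HeightOneSpectrum A) :
    idealExps I v = multiplicity v.asIdeal (I : Ideal A) := rfl

lemma expsToIdeal_idealExps (I : (Ideal A)⁰) : expsToIdeal (idealExps I) = I := by
  have hI : (I : Ideal A) ≠ ⊥ := nonZeroDivisors.coe_ne_zero I
  apply Subtype.ext
  rw [coe_expsToIdeal, Finsupp.prod]
  rw [← Ideal.finprod_heightOneSpectrum_pow_multiplicity hI]
  rw [finprod_eq_prod_of_mulSupport_subset]
  · rfl
  · intro v hv
    simp only [Function.mem_mulSupport] at hv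
    simp only [Finset.mem_coe, Finsupp.mem_support_iff, idealExps_apply]
    intro h
    exact hv (by rw [h, pow_zero])

lemma idealExps_expsToIdeal (m : HeightOneSpectrum A →₀ ℕ) : idealExps (expsToIdeal m) = m := by
  ext v
  rw [idealExps_apply]
  exact multiplicity_eq_of_emultiplicity_eq_some (emultiplicity_expsToIdeal m v)

/-- **Unique factorisation of ideals** as an equivalence between nonzero ideals and finitely
supported exponent vectors on the height one spectrum. -/
noncomputable def idealFactorEquiv : (Ideal A)⁰ ≃ (HeightOneSpectrum A →₀ ℕ) where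
  toFun := idealExps
  invFun := expsToIdeal
  left_inv := expsToIdeal_idealExps
  right_inv := idealExps_expsToIdeal

@[simp] lemma idealFactorEquiv_symm_apply (m : HeightOneSpectrum A →₀ ℕ) :
    idealFactorEquiv.symm m = expsToIdeal m := rfl

lemma idealFactorEquiv_mul (I J : (Ideal A)⁰) :
    idealFactorEquiv (I * J) = idealFactorEquiv I + idealFactorEquiv J := by
  apply idealFactorEquiv.symm.injective
  simp only [Equiv.symm_apply_apply, idealFactorEquiv_symm_apply, expsToIdeal_add]
  rw [← idealFactorEquiv_symm_apply, ← idealFactorEquiv_symm_apply, Equiv.symm_apply_apply,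
    Equiv.symm_apply_apply]

lemma idealFactorEquiv_one : idealFactorEquiv (1 : (Ideal A)⁰) = 0 := by
  apply idealFactorEquiv.symm.injective
  simp [expsToIdeal_zero]

lemma idealFactorEquiv_primeIdeal (v : HeightOneSpectrum A) :
    idealFactorEquiv (primeIdeal v) = Finsupp.single v 1 := by
  apply idealFactorEquiv.symm.injective
  simp [expsToIdeal_single]

/-- A monoid hom on nonzero ideals is the product of its values on prime powers. -/
lemma map_eq_prod_idealFactorEquiv {M : Type*} [CommMonoid M] (g : (Ideal A)⁰ →* M)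
    (I : (Ideal A)⁰) :
    g I = (idealFactorEquiv I).prod fun v e => g (primeIdeal v) ^ e := by
  rw [← map_expsToIdeal, ← idealFactorEquiv_symm_apply, Equiv.symm_apply_apply]

/-- **Euler product for a multiplicative function on the nonzero ideals of a Dedekind domain**,
given absolute summability. -/
theorem hasProd_one_sub_inv_of_monoidHom {F : Type*} [NormedField F] [CompleteSpace F]
    (g : (Ideal A)⁰ →* F) (hg : ∀ v : HeightOneSpectrum A, ‖g (primeIdeal v)‖ < 1)
    (hsum : Summable fun I : (Ideal A)⁰ => ‖g I‖) :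
    HasProd (fun v : HeightOneSpectrum A => (1 - g (primeIdeal v))⁻¹) (∑' I, g I) := by
  have h1 : ∀ m : HeightOneSpectrum A →₀ ℕ,
      mono (fun v => g (primeIdeal v)) m = g (idealFactorEquiv.symm m) := by
    intro m
    rw [idealFactorEquiv_symm_apply, map_expsToIdeal]
    rfl
  have h2 : Summable fun m : HeightOneSpectrum A →₀ ℕ => ‖mono (fun v => g (primeIdeal v)) m‖ := by
    simp only [h1]
    exact (idealFactorEquiv.symm.summable_iff (f := fun I => ‖g I‖)).mpr hsum
  have h3 := hasProd_one_sub_inv (fun v => g (primeIdeal v)) hg h2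
  have h4 : ∑' m, mono (fun v => g (primeIdeal v)) m = ∑' I, g I := by
    simp only [h1]
    exact idealFactorEquiv.symm.tsum_eq (fun I => g I)
  rwa [h4] at h3

end Dedekind

section Fiber

/-- Transfer of summability from an `L`-series with counting coefficients to the sum over the
counted objects. -/
lemma summable_norm_cpow_of_lseriesSummable {X : Type*} (N : X → ℕ)
    (hfin : ∀ n, {x | N x = n}.Finite) (h0 : ∀ x, N x ≠ 0) {s : ℂ}
    (hsum : LSeriesSummable (fun n => (Nat.card {x // N x = n} : ℂ)) s) :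
    Summable (fun x => ‖(N x : ℂ) ^ (-s)‖) := by
  have hfin' : ∀ n, Finite {x // N x = n} := fun n => (hfin n).to_subtype
  have key : Summable (fun p : (Σ n, {x // N x = n}) => ‖(N p.2.1 : ℂ) ^ (-s)‖) := by
    rw [summable_sigma_of_nonneg (fun _ => norm_nonneg _)]
    refine ⟨fun n => Summable.of_finite, ?_⟩
    refine (hsum.norm).congr fun n => ?_
    have h1 : ∀ y : {x // N x = n}, ‖(N y.1 : ℂ) ^ (-s)‖ = ‖(n : ℂ) ^ (-s)‖ := by
      intro y
      rw [y.2]
    simp only [h1, tsum_const, LSeries.term]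
    split_ifs with hn
    · subst hn
      have : IsEmpty {x // N x = 0} := ⟨fun x => h0 x.1 x.2⟩
      simp
    · rw [nsmul_eq_mul, Complex.cpow_neg, div_eq_mul_inv, norm_mul]
      simp
  exact ((Equiv.sigmaFiberEquiv N).summable_iff (f := fun x => ‖(N x : ℂ) ^ (-s)‖)).mp key

/-- The value of an `L`-series with counting coefficients as a sum over the counted objects. -/
lemma tsum_cpow_eq_lseries {X : Type*} (N : X → ℕ)
    (hfin : ∀ n, {x | N x = n}.Finite) (h0 : ∀ x, N x ≠ 0) {s : ℂ}
    (hsum : LSeriesSummable (fun n => (Nat.card {x // N x = n} : ℂ)) s) :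
    ∑' x, (N x : ℂ) ^ (-s) = LSeries (fun n => (Nat.card {x // N x = n} : ℂ)) s := by
  have hfin' : ∀ n, Finite {x // N x = n} := fun n => (hfin n).to_subtype
  have hs := (summable_norm_cpow_of_lseriesSummable N hfin h0 hsum).of_norm
  have hs' : Summable (fun p : (Σ n, {x // N x = n}) => (N p.2.1 : ℂ) ^ (-s)) :=
    ((Equiv.sigmaFiberEquiv N).summable_iff (f := fun x => (N x : ℂ) ^ (-s))).mpr hs
  have e1 : ∑' x, (N x : ℂ) ^ (-s) = ∑' p : (Σ n, {x // N x = n}), (N p.2.1 : ℂ) ^ (-s) :=
    ((Equiv.sigmaFiberEquiv N).tsum_eq (fun x => (N x : ℂ) ^ (-s))).symm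
  rw [e1, hs'.tsum_sigma' (fun n => Summable.of_finite), LSeries]
  refine tsum_congr fun n => ?_
  have h1 : ∀ y : {x // N x = n}, (N y.1 : ℂ) ^ (-s) = (n : ℂ) ^ (-s) := by
    intro y
    rw [y.2]
  simp only [h1, tsum_const, LSeries.term]
  split_ifs with hn
  · subst hn
    have : IsEmpty {x // N x = 0} := ⟨fun x => h0 x.1 x.2⟩
    simp
  · rw [nsmul_eq_mul, Complex.cpow_neg, div_eq_mul_inv]

end Fiber

section NumberField

open NumberField IsDedekindDomain nonZeroDivisors Ideal

variable (K : Type*) [Field K] [NumberField K]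

/-- The coefficient sequence of the Dedekind zeta function is `L`-series summable on `1 < re s`. -/
lemma dedekindZeta_lseriesSummable {s : ℂ} (hs : 1 < s.re) :
    LSeriesSummable (fun n => (Nat.card {I : Ideal (𝓞 K) // absNorm I = n} : ℂ)) s := by
  have hf : Tendsto (fun n : ℕ =>
      (∑ k ∈ Finset.Icc 1 n, (Nat.card {I : Ideal (𝓞 K) // absNorm I = k} : ℝ)) / (n : ℝ)) atTop
      (𝓝 (dedekindZeta_residue K)) := by
    refine ((Ideal.tendsto_norm_le_div_atTop₀ K).comp tendsto_natCast_atTop_atTop).congr fun n ↦ ?_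
    simp only [Function.comp_apply, Nat.cast_le, ← Nat.cast_sum]
    congr
    rw [← add_left_inj 1, ← card_norm_le_eq_card_norm_le_add_one,
      show Finset.Icc 1 n = Finset.Ioc 0 n from Finset.Icc_succ_left_eq_Ioc _ _,
      show 1 = Nat.card {I : Ideal (𝓞 K) // absNorm I = 0} by simp [Ideal.absNorm_eq_zero_iff],
      Finset.sum_Ioc_add_eq_sum_Icc (n.zero_le),
      ← Finset.card_preimage_eq_sum_card_image_eq (fun k _ ↦ finite_setOfPred_absNorm_eq k)]
    simp [Set.coe_eq_subtype]
  have := LSeriesSummable_of_sum_norm_bigO_and_nonneg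
    (f := fun n => (Nat.card {I : Ideal (𝓞 K) // absNorm I = n} : ℝ)) (r := 1) (s := s)
    (Asymptotics.isBigO_atTop_natCast_rpow_of_tendsto_div_rpow (by simpa using hf))
    (fun _ => Nat.cast_nonneg _) zero_le_one hs
  simpa using this

lemma absNorm_ne_zero_of_mem_nonZeroDivisors (I : (Ideal (𝓞 K))⁰) :
    absNorm (I : Ideal (𝓞 K)) ≠ 0 := by
  rw [Ne, Ideal.absNorm_eq_zero_iff]
  exact nonZeroDivisors.coe_ne_zero I

lemma finite_setOf_absNorm_eq₀ (n : ℕ) :
    {I : (Ideal (𝓞 K))⁰ | absNorm (I : Ideal (𝓞 K)) = n}.Finite := by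
  have h := Ideal.finite_setOfPred_absNorm_eq (S := 𝓞 K) n
  exact h.preimage (f := fun I : (Ideal (𝓞 K))⁰ => (I : Ideal (𝓞 K)))
    (Subtype.val_injective.injOn)

lemma natCard_absNorm_eq₀ {n : ℕ} (hn : n ≠ 0) :
    Nat.card {I : (Ideal (𝓞 K))⁰ // absNorm (I : Ideal (𝓞 K)) = n} =
      Nat.card {I : Ideal (𝓞 K) // absNorm I = n} := by
  refine Nat.card_congr ?_
  refine ⟨fun I => ⟨I.1.1, I.2⟩, fun I => ⟨⟨I.1, ?_⟩, I.2⟩, fun I => rfl, fun I => rfl⟩
  refine mem_nonZeroDivisors_of_ne_zero ?_
  rintro h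
  have := I.2
  rw [h] at this
  simp at this
  exact hn this.symm

/-- Absolute convergence of `∑ N(I)^(-s)` over the nonzero ideals, for `1 < re s`. -/
theorem summable_norm_absNorm_cpow {s : ℂ} (hs : 1 < s.re) :
    Summable fun I : (Ideal (𝓞 K))⁰ => ‖(absNorm (I : Ideal (𝓞 K)) : ℂ) ^ (-s)‖ := by
  refine summable_norm_cpow_of_lseriesSummable
    (fun I : (Ideal (𝓞 K))⁰ => absNorm (I : Ideal (𝓞 K))) (finite_setOf_absNorm_eq₀ K)
    (absNorm_ne_zero_of_mem_nonZeroDivisors K) ?_
  refine (LSeriesSummable_congr s fun {n} hn => ?_).mp (dedekindZeta_lseriesSummable K hs)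
  rw [natCard_absNorm_eq₀ K hn]

/-- The Dedekind zeta function as a sum over the nonzero ideals. -/
theorem dedekindZeta_eq_tsum {s : ℂ} (hs : 1 < s.re) :
    dedekindZeta K s = ∑' I : (Ideal (𝓞 K))⁰, (absNorm (I : Ideal (𝓞 K)) : ℂ) ^ (-s) := by
  have hsum : LSeriesSummable
      (fun n => (Nat.card {I : (Ideal (𝓞 K))⁰ // absNorm (I : Ideal (𝓞 K)) = n} : ℂ)) s := by
    refine (LSeriesSummable_congr s fun {n} hn => ?_).mp (dedekindZeta_lseriesSummable K hs)
    rw [natCard_absNorm_eq₀ K hn]
  rw [tsum_cpow_eq_lseries (fun I : (Ideal (𝓞 K))⁰ => absNorm (I : Ideal (𝓞 K)))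
    (finite_setOf_absNorm_eq₀ K) (absNorm_ne_zero_of_mem_nonZeroDivisors K) hsum, dedekindZeta]
  exact LSeries_congr (fun {n} hn => by rw [natCard_absNorm_eq₀ K hn]) s

lemma norm_absNorm_cpow (I : (Ideal (𝓞 K))⁰) (s : ℂ) :
    ‖(absNorm (I : Ideal (𝓞 K)) : ℂ) ^ (-s)‖ = (absNorm (I : Ideal (𝓞 K)) : ℝ) ^ (-s.re) := by
  rw [Complex.norm_natCast_cpow_of_pos
    (Nat.pos_of_ne_zero (absNorm_ne_zero_of_mem_nonZeroDivisors K I))]
  simp

/-- Convergence of `∑ N(I)^(-σ)` over the nonzero ideals, for real `σ > 1`. -/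
theorem summable_absNorm_rpow {σ : ℝ} (hσ : 1 < σ) :
    Summable fun I : (Ideal (𝓞 K))⁰ => (absNorm (I : Ideal (𝓞 K)) : ℝ) ^ (-σ) := by
  have := summable_norm_absNorm_cpow K (s := (σ : ℂ)) (by simpa using hσ)
  simpa only [norm_absNorm_cpow, Complex.ofReal_re] using this

/-- Convergence of `∑ N(P)^(-σ)` over the nonzero primes, for real `σ > 1`. -/
theorem summable_absNorm_rpow_prime {σ : ℝ} (hσ : 1 < σ) :
    Summable fun v : HeightOneSpectrum (𝓞 K) => (absNorm v.asIdeal : ℝ) ^ (-σ) := by
  have h : Function.Injective (primeIdeal : HeightOneSpectrum (𝓞 K) → (Ideal (𝓞 K))⁰) := by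
    intro v w hvw
    have := congrArg Subtype.val hvw
    simp only [coe_primeIdeal] at this
    exact HeightOneSpectrum.ext this
  have h2 := (summable_absNorm_rpow K hσ).comp_injective h
  exact h2

lemma one_lt_absNorm_prime (v : HeightOneSpectrum (𝓞 K)) : 1 < absNorm v.asIdeal := by
  have h0 : absNorm v.asIdeal ≠ 0 := by
    rw [Ne, Ideal.absNorm_eq_zero_iff]
    exact v.ne_bot
  have h1 : absNorm v.asIdeal ≠ 1 := by
    rw [Ne, Ideal.absNorm_eq_one_iff]
    exact v.isPrime.ne_top
  omega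

/-- The completely multiplicative function `I ↦ N(I)^(-s)` on nonzero ideals. -/
noncomputable def normCpow (s : ℂ) : (Ideal (𝓞 K))⁰ →* ℂ where
  toFun I := (absNorm (I : Ideal (𝓞 K)) : ℂ) ^ (-s)
  map_one' := by simp
  map_mul' I J := by
    simp only [Submonoid.coe_mul, map_mul, Nat.cast_mul]
    exact Complex.natCast_mul_natCast_cpow _ _ _

@[simp] lemma normCpow_apply (s : ℂ) (I : (Ideal (𝓞 K))⁰) :
    normCpow K s I = (absNorm (I : Ideal (𝓞 K)) : ℂ) ^ (-s) := rfl

variable {K}

/-- **Euler product** for the Dirichlet series of a bounded completely multiplicative function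
on the nonzero ideals of a number field: absolute convergence on `1 < re s`. -/
theorem summable_norm_mul_absNorm_cpow (f : (Ideal (𝓞 K))⁰ →* ℂ) (hf : ∀ I, ‖f I‖ ≤ 1)
    {s : ℂ} (hs : 1 < s.re) :
    Summable fun I : (Ideal (𝓞 K))⁰ => ‖f I * (absNorm (I : Ideal (𝓞 K)) : ℂ) ^ (-s)‖ := by
  refine Summable.of_nonneg_of_le (fun _ => norm_nonneg _) (fun I => ?_)
    (summable_norm_absNorm_cpow K hs)
  rw [norm_mul]
  exact mul_le_of_le_one_left (norm_nonneg _) (hf I)

/-- **Euler product** for the Dirichlet series of a bounded completely multiplicative function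
on the nonzero ideals of a number field. -/
theorem hasProd_eulerFactor (f : (Ideal (𝓞 K))⁰ →* ℂ) (hf : ∀ I, ‖f I‖ ≤ 1)
    {s : ℂ} (hs : 1 < s.re) :
    HasProd (fun v : HeightOneSpectrum (𝓞 K) =>
        (1 - f (primeIdeal v) * (absNorm v.asIdeal : ℂ) ^ (-s))⁻¹)
      (∑' I : (Ideal (𝓞 K))⁰, f I * (absNorm (I : Ideal (𝓞 K)) : ℂ) ^ (-s)) := by
  have h := hasProd_one_sub_inv_of_monoidHom (f * normCpow K s) ?_ ?_
  · simpa using h
  · intro v
    simp only [MonoidHom.mul_apply, normCpow_apply, norm_mul]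
    rw [norm_absNorm_cpow]
    have h1 : ((absNorm ((primeIdeal v : (Ideal (𝓞 K))⁰) : Ideal (𝓞 K)) : ℝ)) ^ (-s.re) < 1 := by
      refine Real.rpow_lt_one_of_one_lt_of_neg ?_ (by linarith)
      exact_mod_cast one_lt_absNorm_prime K v
    calc ‖f (primeIdeal v)‖ * _ ≤ 1 * _ :=
          mul_le_mul_of_nonneg_right (hf _) (by positivity)
      _ < 1 := by rwa [one_mul]
  · simpa using summable_norm_mul_absNorm_cpow f hf hs

theorem tprod_eulerFactor (f : (Ideal (𝓞 K))⁰ →* ℂ) (hf : ∀ I, ‖f I‖ ≤ 1)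
    {s : ℂ} (hs : 1 < s.re) :
    ∏' v : HeightOneSpectrum (𝓞 K), (1 - f (primeIdeal v) * (absNorm v.asIdeal : ℂ) ^ (-s))⁻¹ =
      ∑' I : (Ideal (𝓞 K))⁰, f I * (absNorm (I : Ideal (𝓞 K)) : ℂ) ^ (-s) :=
  (hasProd_eulerFactor f hf hs).tprod_eq

variable (K) in
/-- **Euler product of the Dedekind zeta function.** -/
theorem hasProd_dedekindZeta {s : ℂ} (hs : 1 < s.re) :
    HasProd (fun v : HeightOneSpectrum (𝓞 K) => (1 - (absNorm v.asIdeal : ℂ) ^ (-s))⁻¹)
      (dedekindZeta K s) := by
  have h := hasProd_eulerFactor (K := K) 1 (by simp) hs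
  simpa [← dedekindZeta_eq_tsum K hs] using h

/-- The completely multiplicative function on nonzero ideals attached to a character of the
class group. -/
noncomputable def classChar (χ : ClassGroup (𝓞 K) →* ℂˣ) : (Ideal (𝓞 K))⁰ →* ℂ :=
  (Units.coeHom ℂ).comp (χ.comp ClassGroup.mk0)

@[simp] lemma classChar_apply (χ : ClassGroup (𝓞 K) →* ℂˣ) (I : (Ideal (𝓞 K))⁰) :
    classChar χ I = (χ (ClassGroup.mk0 I) : ℂ) := rfl

lemma norm_classChar (χ : ClassGroup (𝓞 K) →* ℂˣ) (I : (Ideal (𝓞 K))⁰) :
    ‖classChar χ I‖ = 1 := by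
  rw [classChar_apply]
  refine Complex.norm_eq_one_of_pow_eq_one (n := Nat.card (ClassGroup (𝓞 K))) ?_
    Nat.card_pos.ne'
  rw [← Units.val_pow_eq_pow_val, ← map_pow, pow_card_eq_one', map_one, Units.val_one]

/-- **Euler product of the class group `L`-series** (in the shape used by the second
inequality). -/
theorem hasProd_classLSeries (χ : ClassGroup (𝓞 K) →* ℂˣ) {s : ℂ} (hs : 1 < s.re) :
    HasProd (fun v : HeightOneSpectrum (𝓞 K) =>
        (1 - (χ (ClassGroup.mk0 (primeIdeal v)) : ℂ) * (absNorm v.asIdeal : ℂ) ^ (-s))⁻¹)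
      (∑' I : (Ideal (𝓞 K))⁰,
        (χ (ClassGroup.mk0 I) : ℂ) * (absNorm (I : Ideal (𝓞 K)) : ℂ) ^ (-s)) :=
  hasProd_eulerFactor (classChar χ) (fun I => (norm_classChar χ I).le) hs

theorem summable_norm_classLSeries (χ : ClassGroup (𝓞 K) →* ℂˣ) {s : ℂ} (hs : 1 < s.re) :
    Summable fun I : (Ideal (𝓞 K))⁰ =>
      ‖(χ (ClassGroup.mk0 I) : ℂ) * (absNorm (I : Ideal (𝓞 K)) : ℂ) ^ (-s)‖ :=
  summable_norm_mul_absNorm_cpow (classChar χ) (fun I => (norm_classChar χ I).le) hs

end NumberField

end Fermat.Agent.S14.H93
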