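import Mathlib
import Fermat.Agent.S14.H80_Fields
import Fermat.Agent.S14.H78_SplitInst
import Fermat.Agent.S14.H69_CycloSymbol
import Fermat.Agent.S14.H94_P5

/-!
# S14 / WP5-fields [S6]: `principal` for helper80's `E ⊆ M`

Principal ideals of `𝓞 E` prime to `m` have trivial Artin symbol in `M/E`
(`H69.artin_eq_one_of_absNorm_pow` + `H94.elementary_reciprocity'`).
-/

set_option autoImplicit false
set_option linter.unusedSectionVars false
set_option linter.unusedVariables false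

noncomputable section

namespace Fermat.Agent.S14.H94

open NumberField Fermat.Agent.S14.H80

variable (p m : ℕ) [NeZero m] (K L : Type) [Field K] [Field L] [NumberField K] [NumberField L]
  [Algebra K L] [IsGalois K L] (s0 : Gal(L/K)) (n0 : (ZMod m)ˣ) [IsMulCommutative Gal(L/K)]

/-- `Gal(Ω/E)` is commutative. -/
instance isMulCommutative_Gal_Om_EField :
    IsMulCommutative Gal(Om m L/↥(EField p m K L s0 n0)) := by
  refine ⟨⟨fun a b => ?_⟩⟩
  have h := Gamma_mul_comm m K L (a.restrictScalars K) (b.restrictScalars K)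
  ext x
  exact congr($h x)

/-- an element of `Gal(Ω/E)`, viewed in `Gal(Ω/K)`, lies in `Dt`. -/
theorem restrictScalars_mem_Dt (σ : Gal(Om m L/↥(EField p m K L s0 n0))) :
    σ.restrictScalars K ∈ Dt p m K L s0 n0 := by
  have h : σ.restrictScalars K ∈ (EField p m K L s0 n0).fixingSubgroup := by
    rw [IntermediateField.mem_fixingSubgroup_iff]
    intro x hx
    exact σ.commutes ⟨x, hx⟩
  have h2 : (EField p m K L s0 n0).fixingSubgroup = Dt p m K L s0 n0 :=
    IntermediateField.fixingSubgroup_fixedField (Dt p m K L s0 n0)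
  rwa [h2] at h

/-- a unit of `ZMod m` which is a `p`-th power in `ZMod m` is a `p`-th power of a unit. -/
theorem exists_unit_pow_eq {p : ℕ} (hp0 : p ≠ 0) (u : (ZMod m)ˣ) (x : ZMod m)
    (hx : x ^ p = (u : ZMod m)) : ∃ v : (ZMod m)ˣ, v ^ p = u := by
  have hxu : IsUnit x := by
    have : IsUnit (x ^ p) := hx ▸ u.isUnit
    exact (isUnit_pow_iff hp0).mp this
  refine ⟨hxu.unit, ?_⟩
  ext
  simp [hx]

/-- **[S6]** `principal`. -/
theorem principal_EM (hp : p.Prime) (hp2 : p ≠ 2) (hm : m.Prime) (hmp : m ≠ p) (hm1 : p ∣ m - 1)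
    [IsCyclotomicExtension {p} ℚ K]
    (hunrM : ∀ 𝔓 : Ideal (𝓞 ↥(MField p m K L)), 𝔓.IsPrime → 𝔓 ≠ ⊥ →
      𝔓.ramificationIdx (𝓞 ↥(EField p m K L s0 n0)) = 1)
    (hKE : Module.finrank K ↥(EField p m K L s0 n0) = p)
    (hram : ∀ 𝔐 : Ideal (𝓞 ↥(EField p m K L s0 n0)), 𝔐.IsPrime →
      (m : 𝓞 ↥(EField p m K L s0 n0)) ∈ 𝔐 → 𝔐.ramificationIdx (𝓞 K) = p)
    (hN0 : ∀ γ ∈ Dt p m K L s0 n0, (∃ u : (ZMod m)ˣ, u ^ p = chi m K L γ) → γ ∈ N0 p m K L)
    (β : 𝓞 ↥(EField p m K L s0 n0))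
    (hβ : IsCoprime (Ideal.span {β}) (Ideal.span {(m : 𝓞 ↥(EField p m K L s0 n0))})) :
    H27.artin ↥(MField p m K L) (Ideal.span {β}) = 1 := by
  by_cases hβ0 : β = 0
  · subst hβ0
    rw [Ideal.span_singleton_eq_bot.mpr rfl]
    exact H27.artin_bot
  have hspan : Ideal.span {β} ≠ ⊥ := by
    rwa [Ne, Ideal.span_singleton_eq_bot]
  obtain ⟨t, ht⟩ := elementary_reciprocity' hp hp2 hm hmp hm1 hKE hram β hβ
  refine H69.artin_eq_one_of_absNorm_pow (N := Om m L)
    (fun P _ hP => hunrM P inferInstance hP) p m hm (zetaOm m L) (zetaOm_spec m L) ?_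
    (Ideal.span {β}) hspan hβ t ht
  intro σ a t' hσ ht' x
  have hγ := restrictScalars_mem_Dt p m K L s0 n0 σ
  have hchi : ((chi m K L (σ.restrictScalars K) : (ZMod m)ˣ) : ZMod m) = (a : ZMod m) :=
    H78.chi_eq_of_apply_zeta m K L (σ.restrictScalars K) a hσ
  have hpow : ∃ u : (ZMod m)ˣ, u ^ p = chi m K L (σ.restrictScalars K) :=
    exists_unit_pow_eq m hp.ne_zero _ (t' : ZMod m) (by rw [ht', hchi])
  have hN := hN0 _ hγ hpow
  exact x.2 ⟨σ.restrictScalars K, hN⟩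

end Fermat.Agent.S14.H94
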