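import Mathlib
import Fermat.Agent.S14.H34_IdealCount
import Fermat.Agent.S14.H98_LBounded

/-! S14 / WP4 : the class `L`-series of a nontrivial class group character is bounded on `(1,2]`
(unconditional: ideal count with error term from `H34_IdealCount`). -/

namespace Fermat.Agent.S14.H98

open NumberField Ideal nonZeroDivisors

variable (K : Type*) [Field K] [NumberField K]

theorem idealCountError : IdealCountError K :=
  H34.exists_ideal_count_error K

/-- WP4 / L4, final form (master plan shape). -/
theorem classLSeries_bounded (χ : ClassGroup (𝓞 K) →* ℂˣ) (hχ : χ ≠ 1) :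
    ∃ B : ℝ, ∀ s : ℝ, 1 < s → s ≤ 2 →
      ‖∑' I : (Ideal (𝓞 K))⁰, (χ (ClassGroup.mk0 I) : ℂ) *
        (absNorm (I : Ideal (𝓞 K)) : ℂ) ^ (-(s : ℂ))‖ ≤ B :=
  classLSeries_bounded_of (idealCountError K) χ hχ

end Fermat.Agent.S14.H98
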